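/-
M48 (P1), analytic side (helper3): **coset-sum operators on `Hom(Γ, A)`** — general theory.

For `T : ESInv3.CosetOp Γ` (`Γ ≤ SL(2, ℤ)` arbitrary):
* `perm_one`, `coc_one`, `perm_pow`, `map_coc_pow` (the cocycle of a power is the sum along the path);
* `trace_coc_of_fixed` : at a fixed index, `coc δ i = g_i δ g_i⁻¹` has the trace of `δ`;
* **(AN-3)** `isParabolicHom_addHom` : `addHom` preserves parabolic homomorphisms
  (= `ESInv3.ParStableStmt`); `addHom_apply_eq_zero_of_pow_eq_one` (finite order twin);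
* functoriality: `addHom_add`, `addHom_comp`, `addHom_smul`;
* `parOp R A : parabolicHoms R Γ A →ₗ[R] parabolicHoms R Γ A`, and its compatibility with
  `ParLattice11.castPar`;
* `mulHom` : the multiplicative twin `χ ↦ (γ ↦ ∏ i, χ (coc γ i))` on `Γ →* M`, `mulHom_comp`,
  `mulHom_eq_toMul_addHom`.
Γ-generic twin of `ES/HEQ/DoubleCoset27` §Gamma0 + `DoubleCosetPar27`.
-/
import Mathlib
import Fermat.Agent.ES.HEQ.DoubleCosetPar27
import Fermat.Agent.ES.HEQ.ParLattice11
import Fermat.Agent.M48.ESInv3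

set_option autoImplicit false

noncomputable section

namespace Fermat.Agent.M48.CosetOp3

open ModularCurve.Period
open scoped MatrixGroups
open Matrix.SpecialLinearGroup
open Fermat.Agent.M48.ESInv3
open Fermat.Agent.ES.HEQ

variable {Γ : Subgroup SL(2, ℤ)} (T : CosetOp Γ)

/-! ### The cocycle identities -/

theorem perm_one (i : T.I) : T.perm 1 i = i := by
  have := T.perm_mul 1 1 i
  rw [mul_one] at this
  exact (T.perm 1).injective this.symm

theorem coc_one (i : T.I) : T.coc 1 i = 1 := by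
  have h1 := T.coc_mul 1 1 i
  rw [mul_one, perm_one] at h1
  exact (mul_eq_left (a := T.coc 1 i)).mp h1.symm

theorem perm_pow (γ : Γ) (m : ℕ) : T.perm (γ ^ m) = T.perm γ ^ m := by
  induction m with
  | zero =>
    ext i
    simp [perm_one]
  | succ m ih =>
    ext i
    rw [pow_succ, T.perm_mul, ih, pow_succ', Equiv.Perm.mul_apply]

/-- The cocycle of a power is the sum along the path. -/
theorem map_coc_pow {A : Type*} [AddCommGroup A] (φ : Additive Γ →+ A) (γ : Γ) (m : ℕ) (i : T.I) :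
    φ (Additive.ofMul (T.coc (γ ^ m) i))
      = ∑ s ∈ Finset.range m, φ (Additive.ofMul (T.coc γ ((T.perm γ ^ s) i))) := by
  induction m with
  | zero => simp [coc_one]
  | succ m ih =>
    rw [pow_succ, T.coc_mul, ofMul_mul, map_add, ih, Finset.sum_range_succ, perm_pow]

/-- The cocycle of a power at a fixed index is the power of the cocycle. -/
theorem coc_pow_of_fixed {δ : Γ} {i : T.I} (h : T.perm δ i = i) (r : ℕ) :
    T.coc (δ ^ r) i = T.coc δ i ^ r := by
  have hfix : ∀ r : ℕ, T.perm (δ ^ r) i = i := by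
    intro r
    rw [perm_pow, Equiv.Perm.coe_pow]
    exact Function.iterate_fixed h r
  induction r with
  | zero => simp [coc_one]
  | succ r ih => rw [pow_succ, T.coc_mul, ih, hfix r, pow_succ]

/-! ### Traces -/

/-- A fixed index: `coc δ i = g_i δ g_i⁻¹` has the same trace as `δ`. -/
theorem trace_coc_of_fixed {δ : Γ} {i : T.I} (h : T.perm δ i = i) :
    (((T.coc δ i : Γ) : SL(2, ℤ)) : Matrix (Fin 2) (Fin 2) ℤ).trace
      = (((δ : Γ) : SL(2, ℤ)) : Matrix (Fin 2) (Fin 2) ℤ).trace := by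
  have hb := T.rel δ i
  rw [h] at hb
  -- in `GL(2, ℝ)`: `mapGL (coc) = g δ g⁻¹`
  have h1 : mapGL ℝ ((T.coc δ i : Γ) : SL(2, ℤ)) = T.g i * mapGL ℝ ((δ : Γ) : SL(2, ℤ)) * (T.g i)⁻¹ := by
    rw [hb, mul_inv_cancel_right]
  have h2 := congrArg (fun M : GL (Fin 2) ℝ => (M : Matrix (Fin 2) (Fin 2) ℝ).trace) h1
  simp only [Matrix.GeneralLinearGroup.coe_mul] at h2
  rw [Matrix.trace_mul_comm, ← Matrix.mul_assoc, ← Matrix.GeneralLinearGroup.coe_mul,
    inv_mul_cancel, Matrix.GeneralLinearGroup.coe_one, Matrix.one_mul] at h2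
  have h3 : ∀ σ : SL(2, ℤ), ((mapGL ℝ σ : GL (Fin 2) ℝ) : Matrix (Fin 2) (Fin 2) ℝ).trace
      = (((σ : Matrix (Fin 2) (Fin 2) ℤ).trace : ℤ) : ℝ) := by
    intro σ
    rw [Matrix.trace_fin_two, Matrix.trace_fin_two]
    simp [mapGL_coe_matrix]
  rw [h3, h3] at h2
  exact_mod_cast h2

/-! ### (AN-3) -/

/-- `addHom φ γ = 0` as soon as `φ` kills all `coc (γ^m) i` with `i` fixed by `perm (γ^m)` (these are
the `g_i γ^m g_i⁻¹`). -/
theorem addHom_apply_eq_zero {A : Type*} [AddCommGroup A] (φ : Additive Γ →+ A) (γ : Γ)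
    (h : ∀ (m : ℕ) (i : T.I), 0 < m → T.perm (γ ^ m) i = i →
      φ (Additive.ofMul (T.coc (γ ^ m) i)) = 0) :
    T.addHom φ (Additive.ofMul γ) = 0 := by
  classical
  rw [CosetOp.addHom_apply]
  refine DoubleCoset27.sum_eq_zero_of_cycle_sums (T.perm γ)
    (fun i => φ (Additive.ofMul (T.coc γ i))) ?_ Finset.univ (fun i _ => Finset.mem_univ _)
  intro i m hm hfix
  rw [← map_coc_pow]
  exact h m i hm (by rw [perm_pow]; exact hfix)

/-- **(AN-3)** coset-sum operators preserve parabolic homomorphisms. -/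
theorem isParabolicHom_addHom {A : Type*} [AddCommGroup A] {φ : Additive Γ →+ A}
    (hφ : IsParabolicHom Γ φ) : IsParabolicHom Γ (T.addHom φ) := by
  intro γ hγ
  refine addHom_apply_eq_zero T φ γ ?_
  intro m i _ hfix
  refine hφ _ ?_
  rw [trace_coc_of_fixed T hfix, Subgroup.coe_pow]
  exact DoubleCosetPar27.trace_pow_sq_eq_four _ hγ m

theorem parStableStmt : ParStableStmt := fun _ T _ _ _ hφ => isParabolicHom_addHom T hφ

/-- coset-sum operators preserve the homomorphisms killing all elements of finite order. -/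
theorem addHom_apply_eq_zero_of_pow_eq_one {A : Type*} [AddCommGroup A] {φ : Additive Γ →+ A}
    (hφ : ∀ (δ : Γ) (r : ℕ), 0 < r → δ ^ r = 1 → φ (Additive.ofMul δ) = 0)
    (γ : Γ) {r : ℕ} (hr0 : 0 < r) (hr : γ ^ r = 1) :
    T.addHom φ (Additive.ofMul γ) = 0 := by
  refine addHom_apply_eq_zero T φ γ ?_
  intro m i _ hfix
  refine hφ _ r hr0 ?_
  rw [← coc_pow_of_fixed T hfix, ← pow_mul, mul_comm, pow_mul, hr, one_pow, coc_one]

/-! ### Functoriality -/

theorem addHom_add {A : Type*} [AddCommGroup A] (φ ψ : Additive Γ →+ A) :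
    T.addHom (φ + ψ) = T.addHom φ + T.addHom ψ := by
  refine AddMonoidHom.ext fun γ' => ?_
  obtain ⟨γ, rfl⟩ := Additive.ofMul.surjective γ'
  simp [Finset.sum_add_distrib]

theorem addHom_comp {A B : Type*} [AddCommGroup A] [AddCommGroup B] (f : A →+ B)
    (φ : Additive Γ →+ A) : T.addHom (f.comp φ) = f.comp (T.addHom φ) := by
  refine AddMonoidHom.ext fun γ' => ?_
  obtain ⟨γ, rfl⟩ := Additive.ofMul.surjective γ'
  simp

theorem addHom_smul {R : Type*} [Semiring R] {A : Type*} [AddCommGroup A] [Module R A] (c : R)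
    (φ : Additive Γ →+ A) : T.addHom (c • φ) = c • T.addHom φ := by
  refine AddMonoidHom.ext fun γ' => ?_
  obtain ⟨γ, rfl⟩ := Additive.ofMul.surjective γ'
  simp [Finset.smul_sum]

/-- The coset-sum operator on `parabolicHoms R Γ A`. -/
def parOp (R : Type*) [Semiring R] (A : Type*) [AddCommGroup A] [Module R A] :
    parabolicHoms R Γ A →ₗ[R] parabolicHoms R Γ A where
  toFun φ := ⟨T.addHom φ.1, isParabolicHom_addHom T φ.2⟩
  map_add' φ ψ := Subtype.ext (addHom_add T φ.1 ψ.1)
  map_smul' c φ := Subtype.ext (addHom_smul T c φ.1)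

@[simp] theorem coe_parOp (R : Type*) [Semiring R] (A : Type*) [AddCommGroup A] [Module R A]
    (φ : parabolicHoms R Γ A) :
    ((parOp T R A φ : parabolicHoms R Γ A) : Additive Γ →+ A) = T.addHom φ.1 := rfl

/-- `parOp` commutes with the scalar extension `Λ → Par R R`. -/
theorem parOp_castPar (R : Type*) [Ring R] (φ : parabolicHoms ℤ Γ ℤ) :
    parOp T R R (ParLattice11.castPar Γ R φ) = ParLattice11.castPar Γ R (parOp T ℤ ℤ φ) := by
  apply Subtype.ext
  exact addHom_comp T (Int.castAddHom R) (φ : Additive Γ →+ ℤ)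

/-! ### The multiplicative twin -/

/-- the operator `χ ↦ (γ ↦ ∏ i, χ (coc γ i))` on `Hom(Γ, M)`, `M` a commutative group. -/
def mulHom {M : Type*} [CommGroup M] (χ : Γ →* M) : Γ →* M where
  toFun γ := ∏ i, χ (T.coc γ i)
  map_one' := by simp [coc_one]
  map_mul' γ δ := by
    simp only [T.coc_mul, map_mul, Finset.prod_mul_distrib]
    congr 1
    exact Equiv.prod_comp (T.perm γ) (fun i => χ (T.coc δ i))

@[simp] theorem mulHom_apply {M : Type*} [CommGroup M] (χ : Γ →* M) (γ : Γ) :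
    mulHom T χ γ = ∏ i, χ (T.coc γ i) := rfl

theorem mulHom_comp {M M' : Type*} [CommGroup M] [CommGroup M'] (f : M →* M') (χ : Γ →* M) :
    mulHom T (f.comp χ) = f.comp (mulHom T χ) := by
  ext γ
  simp

/-- `mulHom` is `addHom` read multiplicatively. -/
theorem mulHom_eq_toMul_addHom {M : Type*} [CommGroup M] (χ : Γ →* M) (γ : Γ) :
    mulHom T χ γ = Additive.toMul (T.addHom (MonoidHom.toAdditive χ) (Additive.ofMul γ)) := by
  rw [CosetOp.addHom_apply, toMul_sum, mulHom_apply]
  rfl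

end Fermat.Agent.M48.CosetOp3
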