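/-
M48 (P1), analytic side — INTERFACES (helper3), phase 0.  Definitions and `Prop`-valued statement
shapes, generic in a subgroup `Γ ≤ SL(2, ℤ)` of finite index.

* `CosetOp Γ`          : a "coset-sum operator" on `Γ`: a finite index set `I`, matrices `g i` of positive
                         determinant, a permutation cocycle `perm`, and a `Γ`-valued cocycle `coc` with
                         `g i * γ = coc γ i * g (perm γ i)`.  Instances (to be built): `T_p` for
                         `Γ₀(N)` (the tree's `DoubleCoset27`), `T_p` for `Γ₁(M)`/`Γ_H` (modified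
                         representative at `∞`), the diamond operators `⟨d⟩` (`I = Unit`).
* `CosetOp.addHom`     : the operator `φ ↦ (γ ↦ ∑ i, φ (coc γ i))` on `Hom(Γ, A)`.
* `CosetOp.slashSum`   : the function `∑ i, f ∣[2] g i`.
* `PeriodPackage Γ`    : the period map of weight two cusp forms (AN-1).
* `PeriodEquivariantStmt` : (AN-2) the period map intertwines `slashSum` with `addHom`.
* `ParStableStmt`      : (AN-3) `addHom` preserves parabolic homomorphisms.
* `FaithLiteStmt`      : (AN-4) pure algebra: every character of the `ℤ`-algebra generated by commuting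
                         operators `T i` on a finite-dimensional `ℂ`-space `V` which embeds equivariantly
                         into `ℂ ⊗ Λ` (`Λ` a lattice with operators `t i`) has an eigenvector in `K' ⊗ Λ`;
                         and that algebra is a finite `ℤ`-module.
-/
import Mathlib
import Fermat.Prelude.Def_ModularCurve_PeriodMap

set_option autoImplicit false

open UpperHalfPlane Filter Topology ModularCurve.Period TensorProduct
open scoped MatrixGroups ModularForm

noncomputable section

namespace Fermat.Agent.M48.ESInv3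

open Matrix.SpecialLinearGroup

/-- **A coset-sum operator on `Γ`.** -/
structure CosetOp (Γ : Subgroup SL(2, ℤ)) where
  /-- the index set (`ℙ¹(𝔽_p)` for `T_p`, a point for `⟨d⟩`) -/
  I : Type
  fintype : Fintype I
  /-- the representatives -/
  g : I → GL (Fin 2) ℝ
  det_pos : ∀ i, 0 < (g i).det.val
  perm : Γ → Equiv.Perm I
  coc : Γ → I → Γ
  rel : ∀ (γ : Γ) (i : I),
    g i * mapGL ℝ (γ : SL(2, ℤ)) = mapGL ℝ ((coc γ i : Γ) : SL(2, ℤ)) * g (perm γ i)
  perm_mul : ∀ (γ δ : Γ) (i : I), perm (γ * δ) i = perm δ (perm γ i)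
  coc_mul : ∀ (γ δ : Γ) (i : I), coc (γ * δ) i = coc γ i * coc δ (perm γ i)

attribute [instance] CosetOp.fintype

namespace CosetOp

variable {Γ : Subgroup SL(2, ℤ)} (T : CosetOp Γ)

/-- the operator `φ ↦ (γ ↦ ∑ i, φ (coc γ i))` on `Hom(Γ, A)`. -/
def addHom {A : Type*} [AddCommGroup A] (φ : Additive Γ →+ A) : Additive Γ →+ A where
  toFun γ := ∑ i, φ (Additive.ofMul (T.coc (Additive.toMul γ) i))
  map_zero' := by
    have h : ∀ i, T.coc 1 i = 1 := by
      intro i
      have h1 := T.coc_mul 1 1 i
      have h2 : T.perm 1 i = i := by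
        have := T.perm_mul 1 1 i
        rw [mul_one] at this
        exact (T.perm 1).injective this.symm
      rw [mul_one, h2] at h1
      exact (mul_eq_left (a := T.coc 1 i)).mp h1.symm
    show ∑ i, φ (Additive.ofMul (T.coc 1 i)) = 0
    simp [h]
  map_add' γ δ := by
    show ∑ i, φ (Additive.ofMul (T.coc (Additive.toMul γ * Additive.toMul δ) i)) = _
    simp only [T.coc_mul, ofMul_mul, map_add, Finset.sum_add_distrib]
    congr 1
    exact Equiv.sum_comp (T.perm (Additive.toMul γ))
      (fun i => φ (Additive.ofMul (T.coc (Additive.toMul δ) i)))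

@[simp] theorem addHom_apply {A : Type*} [AddCommGroup A] (φ : Additive Γ →+ A) (γ : Γ) :
    T.addHom φ (Additive.ofMul γ) = ∑ i, φ (Additive.ofMul (T.coc γ i)) := rfl

/-- the function `∑ i, f ∣[2] g i` on the upper half plane. -/
def slashSum (f : ℍ → ℂ) : ℍ → ℂ := ∑ i, f ∣[(2 : ℤ)] T.g i

end CosetOp

/-- **(AN-1)** the period map of weight two cusp forms for `Γ`. -/
structure PeriodPackage (Γ : Subgroup SL(2, ℤ)) where
  /-- the primitive vanishing at `i∞` -/
  prim : CuspForm Γ 2 → ℍ → ℂ
  /-- the period map -/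
  P : CuspForm Γ 2 →ₗ[ℂ] (Additive Γ →+ ℂ)
  hasDeriv : ∀ (f : CuspForm Γ 2) (τ : ℍ), HasDerivAt (prim f ∘ ofComplex) (f τ) ↑τ
  tendsto : ∀ f : CuspForm Γ 2, Tendsto (prim f) atImInfty (𝓝 0)
  apply : ∀ (f : CuspForm Γ 2) (γ : Γ) (z : ℍ),
    P f (Additive.ofMul γ) = prim f ((γ : SL(2, ℤ)) • z) - prim f z
  parabolic : ∀ f : CuspForm Γ 2, P f ∈ parabolicHoms ℂ Γ ℂ
  injective : Function.Injective P

/-- **(AN-1)**, statement: every subgroup of finite index has a period package. -/
def PeriodPackageStmt : Prop :=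
  ∀ (Γ : Subgroup SL(2, ℤ)) [Γ.FiniteIndex], Nonempty (PeriodPackage Γ)

/-- **(AN-2)**, statement: equivariance of the period map, for every coset-sum operator
(`T_p` with any representatives, `⟨d⟩`). -/
def PeriodEquivariantStmt : Prop :=
  ∀ (Γ : Subgroup SL(2, ℤ)) [Γ.FiniteIndex] (PP : PeriodPackage Γ) (T : CosetOp Γ)
    (f h : CuspForm Γ 2), (⇑h : ℍ → ℂ) = T.slashSum ⇑f → PP.P h = T.addHom (PP.P f)

/-- **(AN-3)**, statement: coset-sum operators preserve parabolic homomorphisms. -/
def ParStableStmt : Prop :=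
  ∀ (Γ : Subgroup SL(2, ℤ)) (T : CosetOp Γ) {A : Type} [AddCommGroup A] (φ : Additive Γ →+ A),
    IsParabolicHom Γ φ → IsParabolicHom Γ (T.addHom φ)

/-- **(AN-4)**, statement (pure algebra, "FAITH-lite" + the twin of S22): `V` a finite-dimensional
complex vector space with commuting operators `T i`, `Λ` a finite free `ℤ`-module with operators
`t i`, `P : V → ℂ ⊗ Λ` injective and equivariant.  Then the `ℤ`-algebra generated by the `T i` is a
finite `ℤ`-module, and every character of it with values in a field `K'` of characteristic zero has a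
nonzero eigenvector in `K' ⊗ Λ`.  NO surjectivity of `P` (no Eichler–Shimura dimension count, no
genus formula) and NO commutativity of the `t i` are needed. -/
def FaithLiteStmt : Prop :=
  ∀ {V : Type} [AddCommGroup V] [Module ℂ V] [FiniteDimensional ℂ V]
    {Λ : Type} [AddCommGroup Λ] [Module.Free ℤ Λ] [Module.Finite ℤ Λ]
    {ι : Type} (T : ι → Module.End ℂ V) (_hcomm : ∀ i j, Commute (T i) (T j))
    (t : ι → Module.End ℤ Λ) (P : V →ₗ[ℂ] ℂ ⊗[ℤ] Λ) (_hP : Function.Injective P)
    (_hPT : ∀ i v, P (T i v) = (t i).baseChange ℂ (P v)),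
    Module.Finite ℤ (Algebra.adjoin ℤ (Set.range T)) ∧
    ∀ {K' : Type} [Field K'] [CharZero K'] (χ : Algebra.adjoin ℤ (Set.range T) →+* K'),
      ∃ w : K' ⊗[ℤ] Λ, w ≠ 0 ∧
        ∀ i, (t i).baseChange K' w = χ ⟨T i, Algebra.subset_adjoin ⟨i, rfl⟩⟩ • w

end Fermat.Agent.M48.ESInv3
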