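/-
M48 (P1), analytic side (helper3): **FAITH-lite** — pure algebra (Mathlib + two generic lemmas of the
tree: `S22.finite_adjoin_of_lattice`, `EigenExists10.exists_eigenvector_baseChange`).

`V` a complex vector space with pairwise commuting operators `T i`; `Λ` a finite free `ℤ`-module with
operators `t i` (NOT assumed to commute); `P : V →ₗ[ℂ] ℂ ⊗[ℤ] Λ` injective with
`P (T i v) = (1 ⊗ t i) (P v)`.  Let `𝕋 := Algebra.adjoin ℤ (Set.range T) ⊆ End_ℂ V`.  Then

* `finite_adjoin` (F1) : `𝕋` is a finite `ℤ`-module (the twin of S22);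
* `exists_eigenvector` (F2) : every ring homomorphism `χ : 𝕋 →+* K'` into a field of characteristic
  zero has a nonzero eigenvector in `K' ⊗[ℤ] Λ`: `(1 ⊗ t i) w = χ (T i) • w`.

No surjectivity of `P` is needed (so: no Eichler–Shimura dimension count, no genus formula).

Proof.  `Ψ : Λ* → V*`, `ℓ ↦ ℓ_ℂ ∘ P`; `Λ' := range Ψ ⊆ V*` is a finitely generated torsion-free
`ℤ`-module, stable under `φ ↦ φ ∘ x` (`x ∈ 𝕋`) and separating.  This gives (F1) and a faithful action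
of the commutative ring `𝕋` on `Λ'`, hence on `(Λ')*` by transposition; an eigenvector `η ∈ K' ⊗ (Λ')*`
exists by `EigenExists10`; the transpose `Θ : (Λ')* → Λ** = Λ` of `Ψ` is injective and equivariant.
-/
import Mathlib
import Fermat.Agent.S22.LatticeAlgebra
import Fermat.Agent.ES.GAL.EigenExists10
import Fermat.Agent.M48.ESInv3

set_option autoImplicit false

open TensorProduct Module

noncomputable section

namespace Fermat.Agent.M48.FaithLite3

variable {V : Type*} [AddCommGroup V] [Module ℂ V]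
variable {Λ : Type*} [AddCommGroup Λ]

/-! ### the complexification of an integral functional -/

/-- `ℓ_ℂ : ℂ ⊗ Λ → ℂ` for `ℓ : Λ → ℤ` (Mathlib's `Module.Dual.baseChange`), as a `ℤ`-linear map. -/
def cplx : Dual ℤ Λ →ₗ[ℤ] Dual ℂ (ℂ ⊗[ℤ] Λ) := Module.Dual.baseChange ℂ

@[simp] theorem cplx_tmul (ℓ : Dual ℤ Λ) (c : ℂ) (x : Λ) : cplx ℓ (c ⊗ₜ[ℤ] x) = (ℓ x : ℂ) * c := by
  show (ℓ x) • c = _
  rw [zsmul_eq_mul]

theorem cplx_comp (ℓ : Dual ℤ Λ) (t : Module.End ℤ Λ) :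
    cplx (ℓ ∘ₗ t) = cplx ℓ ∘ₗ t.baseChange ℂ := by
  apply TensorProduct.AlgebraTensorModule.curry_injective
  ext x
  simp

/-- the complexified functionals separate the points of `ℂ ⊗ Λ`. -/
theorem eq_zero_of_cplx [Module.Free ℤ Λ] (x : ℂ ⊗[ℤ] Λ) (h : ∀ ℓ : Dual ℤ Λ, cplx ℓ x = 0) :
    x = 0 := by
  classical
  let b := Module.Free.chooseBasis ℤ Λ
  let bC := Algebra.TensorProduct.basis ℂ b
  apply bC.repr.injective
  ext k
  have key : ∀ y : ℂ ⊗[ℤ] Λ, bC.repr y k = cplx (b.coord k) y := by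
    intro y
    induction y using TensorProduct.induction_on with
    | zero => simp
    | tmul c m =>
      rw [Algebra.TensorProduct.basis_repr_tmul, cplx_tmul]
      simp [mul_comm]
    | add y z hy hz => rw [map_add, map_add, Finsupp.add_apply, hy, hz]
  rw [key, h]
  simp

/-! ### the lattice of functionals `Λ' = {ℓ_ℂ ∘ P}` -/

section Lattice

variable (P : V →ₗ[ℂ] ℂ ⊗[ℤ] Λ)

/-- `Ψ : Λ* → V*`, `ℓ ↦ ℓ_ℂ ∘ P`. -/
def Psi : Dual ℤ Λ →ₗ[ℤ] Dual ℂ V where
  toFun ℓ := cplx ℓ ∘ₗ P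
  map_add' ℓ ℓ' := by rw [map_add, LinearMap.add_comp]
  map_smul' n ℓ := by
    rw [map_smul, RingHom.id_apply]
    ext v
    simp

@[simp] theorem Psi_apply (ℓ : Dual ℤ Λ) (v : V) : Psi P ℓ v = cplx ℓ (P v) := rfl

/-- the lattice `Λ' ⊆ V*`. -/
def Lam' : Submodule ℤ (Dual ℂ V) := LinearMap.range (Psi P)

theorem lam_fg [Module.Finite ℤ Λ] [Module.Free ℤ Λ] : (Lam' P).FG := by
  have h : (⊤ : Submodule ℤ (Dual ℤ Λ)).FG := Module.Finite.fg_top
  have := h.map (Psi P)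
  rwa [Submodule.map_top] at this

variable {ι : Type*} (T : ι → Module.End ℂ V) (t : ι → Module.End ℤ Λ)

variable {P T t} in
theorem Psi_comp (hPT : ∀ i v, P (T i v) = (t i).baseChange ℂ (P v)) (ℓ : Dual ℤ Λ) (i : ι) :
    Psi P ℓ ∘ₗ T i = Psi P (ℓ ∘ₗ t i) := by
  ext v
  simp only [LinearMap.comp_apply, Psi_apply, hPT, cplx_comp]

variable {P T t} in
theorem lam_stable (hPT : ∀ i v, P (T i v) = (t i).baseChange ℂ (P v)) :
    ∀ x ∈ Set.range T, ∀ φ ∈ Lam' P, φ ∘ₗ x ∈ Lam' P := by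
  rintro _ ⟨i, rfl⟩ _ ⟨ℓ, rfl⟩
  exact ⟨ℓ ∘ₗ t i, (Psi_comp hPT ℓ i).symm⟩

variable {P} in
theorem lam_sep [Module.Free ℤ Λ] (hP : Function.Injective P) (v : V)
    (h : ∀ φ ∈ Lam' P, φ v = 0) : v = 0 := by
  apply hP
  rw [map_zero]
  exact eq_zero_of_cplx _ fun ℓ => h _ ⟨ℓ, rfl⟩

variable {P T t} in
/-- **(F1)**: the `ℤ`-algebra generated by the `T i` is a finite `ℤ`-module. -/
theorem finite_adjoin [Module.Finite ℤ Λ] [Module.Free ℤ Λ] (hP : Function.Injective P)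
    (hPT : ∀ i v, P (T i v) = (t i).baseChange ℂ (P v)) :
    Module.Finite ℤ (Algebra.adjoin ℤ (Set.range T)) :=
  Fermat.Agent.S22.finite_adjoin_of_lattice (Set.range T) (Lam' P) (lam_fg P) (lam_stable hPT)
    (lam_sep hP)

end Lattice

/-! ### the action of `𝕋` on `Λ'` and on its dual -/

section Action

variable {ι : Type*} {T : ι → Module.End ℂ V} {t : ι → Module.End ℤ Λ} {P : V →ₗ[ℂ] ℂ ⊗[ℤ] Λ}
variable (hPT : ∀ i v, P (T i v) = (t i).baseChange ℂ (P v))

/-- `φ ↦ φ ∘ x` on `Λ'`, for `x ∈ 𝕋`. -/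
def act (x : Algebra.adjoin ℤ (Set.range T)) : Module.End ℤ (Lam' P) where
  toFun φ := ⟨(φ : Dual ℂ V) ∘ₗ (x : Module.End ℂ V),
    Fermat.Agent.S22.comp_mem_of_mem_adjoin (Set.range T) (Lam' P) (lam_stable hPT) x.2 φ.2⟩
  map_add' φ ψ := by
    apply Subtype.ext
    show ((φ : Dual ℂ V) + (ψ : Dual ℂ V)) ∘ₗ (x : Module.End ℂ V) = _
    rw [LinearMap.add_comp]
    rfl
  map_smul' n φ := by
    apply Subtype.ext
    show (n • (φ : Dual ℂ V)) ∘ₗ (x : Module.End ℂ V) = n • ((φ : Dual ℂ V) ∘ₗ (x : Module.End ℂ V))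
    rw [LinearMap.smul_comp]

@[simp] theorem coe_act (x : Algebra.adjoin ℤ (Set.range T)) (φ : Lam' P) :
    ((act hPT x φ : Lam' P) : Dual ℂ V) = (φ : Dual ℂ V) ∘ₗ (x : Module.End ℂ V) := rfl

theorem act_one : act hPT (1 : Algebra.adjoin ℤ (Set.range T)) = 1 := by
  ext φ : 1
  apply Subtype.ext
  rfl

theorem act_mul (x y : Algebra.adjoin ℤ (Set.range T)) :
    act hPT (x * y) = act hPT y * act hPT x := by
  ext φ : 1
  apply Subtype.ext
  rfl

theorem act_add (x y : Algebra.adjoin ℤ (Set.range T)) :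
    act hPT (x + y) = act hPT x + act hPT y := by
  ext φ : 1
  apply Subtype.ext
  show (φ : Dual ℂ V) ∘ₗ ((x : Module.End ℂ V) + (y : Module.End ℂ V)) = _
  rw [LinearMap.comp_add]
  rfl

theorem act_zero : act hPT (0 : Algebra.adjoin ℤ (Set.range T)) = 0 := by
  ext φ : 1
  apply Subtype.ext
  show (φ : Dual ℂ V) ∘ₗ (0 : Module.End ℂ V) = 0
  rw [LinearMap.comp_zero]

/-- the transposed action on `(Λ')*`: a ring homomorphism (covariant). -/
def actDual : Algebra.adjoin ℤ (Set.range T) →+* Module.End ℤ (Dual ℤ (Lam' P)) where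
  toFun x := (act hPT x).dualMap
  map_one' := by
    rw [act_one]
    ext ξ φ
    rfl
  map_mul' x y := by
    rw [act_mul]
    ext ξ φ
    rfl
  map_zero' := by
    rw [act_zero]
    ext
    simp
  map_add' x y := by
    rw [act_add]
    ext
    simp

theorem act_eq_zero_iff [Module.Free ℤ Λ] (hP : Function.Injective P)
    (x : Algebra.adjoin ℤ (Set.range T)) : act hPT x = 0 ↔ x = 0 := by
  constructor
  · intro h
    apply Subtype.ext
    apply LinearMap.ext
    intro v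
    apply lam_sep hP
    intro φ hφ
    have := congrArg (fun f : Module.End ℤ (Lam' P) => ((f ⟨φ, hφ⟩ : Lam' P) : Dual ℂ V) v) h
    simpa using this
  · rintro rfl
    exact act_zero hPT

theorem actDual_injective [Module.Finite ℤ Λ] [Module.Free ℤ Λ] (hP : Function.Injective P) :
    Function.Injective (actDual hPT) := by
  have : Module.Finite ℤ (Lam' P) := Module.Finite.iff_fg.mpr (lam_fg P)
  rw [injective_iff_map_eq_zero]
  intro x hx
  rw [← act_eq_zero_iff hPT hP]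
  ext φ : 1
  rw [LinearMap.zero_apply, ← Module.forall_dual_apply_eq_zero_iff (R := ℤ)]
  intro ξ
  have := congrArg (fun f : Module.End ℤ (Dual ℤ (Lam' P)) => f ξ φ) hx
  simpa [actDual] using this

/-- `Ψ` with codomain `Λ'`. -/
def PsiR : Dual ℤ Λ →ₗ[ℤ] Lam' P := (Psi P).rangeRestrict

theorem PsiR_surjective : Function.Surjective (PsiR (P := P)) :=
  (Psi P).surjective_rangeRestrict

theorem act_PsiR (ℓ : Dual ℤ Λ) (i : ι) :
    act hPT ⟨T i, Algebra.subset_adjoin ⟨i, rfl⟩⟩ (PsiR ℓ) = PsiR (ℓ ∘ₗ t i) := by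
  apply Subtype.ext
  exact Psi_comp hPT ℓ i

/-- the transpose `Θ : (Λ')* → Λ** = Λ` of `Ψ`. -/
def Theta [Module.Finite ℤ Λ] [Module.Free ℤ Λ] : Dual ℤ (Lam' P) →ₗ[ℤ] Λ :=
  (Module.evalEquiv ℤ Λ).symm.toLinearMap ∘ₗ (PsiR (P := P)).dualMap

theorem apply_Theta [Module.Finite ℤ Λ] [Module.Free ℤ Λ] (ℓ : Dual ℤ Λ) (ζ : Dual ℤ (Lam' P)) :
    ℓ (Theta ζ) = ζ (PsiR ℓ) := by
  have h : Module.evalEquiv ℤ Λ (Theta ζ) = (PsiR (P := P)).dualMap ζ := by
    simp [Theta]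
  have := congrArg (fun f : Dual ℤ (Dual ℤ Λ) => f ℓ) h
  simpa using this

theorem Theta_injective [Module.Finite ℤ Λ] [Module.Free ℤ Λ] :
    Function.Injective (Theta (P := P)) := by
  intro ζ ζ' h
  apply LinearMap.dualMap_injective_of_surjective (PsiR_surjective (P := P))
  ext ℓ
  have := congrArg (fun x => ℓ x) h
  simpa [apply_Theta] using this

/-- `Θ` is equivariant. -/
theorem t_Theta [Module.Finite ℤ Λ] [Module.Free ℤ Λ] (i : ι) (ξ : Dual ℤ (Lam' P)) :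
    t i (Theta ξ) = Theta (actDual hPT ⟨T i, Algebra.subset_adjoin ⟨i, rfl⟩⟩ ξ) := by
  rw [← sub_eq_zero, ← Module.forall_dual_apply_eq_zero_iff (R := ℤ)]
  intro ℓ
  rw [map_sub, sub_eq_zero, apply_Theta]
  have h1 : ℓ (t i (Theta ξ)) = (ℓ ∘ₗ t i) (Theta ξ) := rfl
  rw [h1, apply_Theta, ← act_PsiR hPT]
  rfl

include hPT in
/-- **(F2)**: every character of `𝕋` with values in a field of characteristic zero has a nonzero
eigenvector in `K' ⊗ Λ`. -/
theorem exists_eigenvector [Module.Finite ℤ Λ] [Module.Free ℤ Λ]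
    (hcomm : ∀ i j, Commute (T i) (T j)) (hP : Function.Injective P)
    {K' : Type*} [Field K'] [CharZero K'] (χ : Algebra.adjoin ℤ (Set.range T) →+* K') :
    ∃ w : K' ⊗[ℤ] Λ, w ≠ 0 ∧
      ∀ i, (t i).baseChange K' w = χ ⟨T i, Algebra.subset_adjoin ⟨i, rfl⟩⟩ • w := by
  have hfin : Module.Finite ℤ (Lam' P) := Module.Finite.iff_fg.mpr (lam_fg P)
  have hmc : IsMulCommutative (Algebra.adjoin ℤ (Set.range T)) :=
    Algebra.isMulCommutative_adjoin ℤ (by
      rintro _ ⟨i, rfl⟩ _ ⟨j, rfl⟩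
      exact hcomm i j)
  let _ : CommRing (Algebra.adjoin ℤ (Set.range T)) :=
    { (inferInstance : Ring (Algebra.adjoin ℤ (Set.range T))) with
      mul_comm := fun a b => mul_comm' a b }
  obtain ⟨η, hη, h⟩ := Fermat.Agent.ES.GAL.EigenExists10.exists_eigenvector_baseChange
    (actDual hPT) (actDual_injective hPT hP) χ
  have hinj : Function.Injective ((Theta (P := P)).baseChange K') := by
    rw [LinearMap.baseChange_eq_ltensor]
    exact Module.Flat.lTensor_preserves_injective_linearMap _ Theta_injective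
  refine ⟨(Theta (P := P)).baseChange K' η, fun h0 => hη (hinj (by rw [h0, map_zero])), fun i => ?_⟩
  have hcomp : t i ∘ₗ Theta (P := P)
      = Theta ∘ₗ actDual hPT ⟨T i, Algebra.subset_adjoin ⟨i, rfl⟩⟩ := by
    ext ξ : 1
    exact t_Theta hPT i ξ
  have h1 : (t i).baseChange K' ((Theta (P := P)).baseChange K' η)
      = ((t i ∘ₗ Theta (P := P)).baseChange K') η := by
    rw [LinearMap.baseChange_comp]
    rfl
  rw [h1, hcomp, LinearMap.baseChange_comp, LinearMap.comp_apply, h, map_smul]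

end Action

/-- **FAITH-lite**, both halves. -/
theorem faithLite {V : Type*} [AddCommGroup V] [Module ℂ V]
    {Λ : Type*} [AddCommGroup Λ] [Module.Free ℤ Λ] [Module.Finite ℤ Λ]
    {ι : Type*} (T : ι → Module.End ℂ V) (hcomm : ∀ i j, Commute (T i) (T j))
    (t : ι → Module.End ℤ Λ) (P : V →ₗ[ℂ] ℂ ⊗[ℤ] Λ) (hP : Function.Injective P)
    (hPT : ∀ i v, P (T i v) = (t i).baseChange ℂ (P v)) :
    Module.Finite ℤ (Algebra.adjoin ℤ (Set.range T)) ∧
    ∀ {K' : Type*} [Field K'] [CharZero K'] (χ : Algebra.adjoin ℤ (Set.range T) →+* K'),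
      ∃ w : K' ⊗[ℤ] Λ, w ≠ 0 ∧
        ∀ i, (t i).baseChange K' w = χ ⟨T i, Algebra.subset_adjoin ⟨i, rfl⟩⟩ • w :=
  ⟨finite_adjoin hP hPT, fun χ => exists_eigenvector hPT hcomm hP χ⟩

/-- the interface statement `ESInv3.FaithLiteStmt` (finite-dimensionality of `V` is not used). -/
theorem faithLiteStmt : Fermat.Agent.M48.ESInv3.FaithLiteStmt := by
  intro V _ _ _ Λ _ _ _ ι T hcomm t P hP hPT
  exact faithLite T hcomm t P hP hPT

end Fermat.Agent.M48.FaithLite3
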