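/-
M48 (P1), analytic side (helper3): **the period map of weight two cusp forms for an arbitrary
subgroup `Γ ≤ SL(2, ℤ)` of finite index** (= `ESInv3.PeriodPackageStmt`).

Γ-generic twin of `S21/Primitive` + `S21/Parabolic` + the one-form case of `S21/PeriodInj`; the
function-level analysis (`S22.primInfty`, `Sep.eichF_SL_sub_const`, `MaxPrinciple7`) is reused as is.

* `prim f`                 : the primitive of `f` vanishing at `i∞`;
* `prim_hasDerivAt`, `prim_tendsto`, `prim_SL`, `prim_periodic`, `prim_cusp_limit`;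
* `isEquivariantPrimitive_prim`, `periodHom f : Additive Γ →+ ℂ`, `periodHom_apply`;
* `periodHom_mem_parabolicHoms`;
* `periodLin : CuspForm Γ 2 →ₗ[ℂ] (Additive Γ →+ ℂ)`, `periodLin_injective` (maximum principle);
* `periodPackage Γ : ESInv3.PeriodPackage Γ`, `periodPackageStmt`.
-/
import Mathlib
import Fermat.Agent.S21.Primitive
import Fermat.Agent.S21.MaxPrinciple7
import Fermat.Agent.S21.Parabolic
import Fermat.Agent.M48.ESInv3

set_option autoImplicit false

noncomputable section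

namespace Fermat.Agent.M48.G1Period3

open UpperHalfPlane hiding I
open Complex Filter Topology Asymptotics ModularCurve.Period
open scoped MatrixGroups ModularForm Manifold Pointwise
open Matrix.SpecialLinearGroup
open Fermat.Agent.S22 Fermat.Agent.S22.Sep

variable {Γ : Subgroup SL(2, ℤ)} [Γ.FiniteIndex] {k : ℤ}

/-! ### Decay and periodicity of the translates of a cusp form -/

theorem exists_mem_strictPeriods_conj (Γ : Subgroup SL(2, ℤ)) [Γ.FiniteIndex] :
    ∃ M : ℕ, 0 < M ∧ ∀ δ : SL(2, ℤ), (M : ℝ) ∈ (ConjAct.toConjAct (mapGL ℝ δ)⁻¹ •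
      ((Γ : Subgroup SL(2, ℤ)) : Subgroup (GL (Fin 2) ℝ))).strictPeriods := by
  obtain ⟨M, hM, hper⟩ := Subgroup.IsArithmetic.exists_nat_mem_strictPeriods_conj
    ((Γ : Subgroup SL(2, ℤ)) : Subgroup (GL (Fin 2) ℝ))
  refine ⟨M, hM, fun δ => ?_⟩
  have := hper δ⁻¹
  rwa [map_inv] at this

theorem exists_period_slash (f : CuspForm Γ k) :
    ∃ M : ℕ, 0 < M ∧ ∀ δ : SL(2, ℤ),
      (⇑f ∣[k] δ) =O[atImInfty] (fun τ => Real.exp (-(2 * Real.pi / M) * τ.im)) ∧
      ∀ w : ℍ, (⇑f ∣[k] δ) ((M : ℝ) +ᵥ w) = (⇑f ∣[k] δ) w := by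
  obtain ⟨M, hM, hmem⟩ := exists_mem_strictPeriods_conj Γ
  refine ⟨M, hM, fun δ => ?_⟩
  have hM' : (0 : ℝ) < M := by exact_mod_cast hM
  constructor
  · have := CuspFormClass.exp_decay_atImInfty (CuspForm.translate f (mapGL ℝ δ)) hM' (hmem δ)
    refine this.congr_right fun τ => ?_
    congr 1; ring
  · intro w
    exact SlashInvariantForm.vAdd_apply_of_mem_strictPeriods
      (CuspForm.translate f (mapGL ℝ δ)) w (hmem δ)

theorem niceDecay_slash (f : CuspForm Γ k) (δ : SL(2, ℤ)) : NiceDecay (⇑f ∣[k] δ) := by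
  obtain ⟨M, hM, h⟩ := exists_period_slash f
  refine ⟨(CuspFormClass.holo f).slash k _, 2 * Real.pi / M, ?_, (h δ).1⟩
  have hM' : (0 : ℝ) < M := by exact_mod_cast hM
  positivity

theorem niceDecay_cuspForm (f : CuspForm Γ k) : NiceDecay ⇑f := by
  have := niceDecay_slash f 1
  simpa using this

omit [Γ.FiniteIndex] in
theorem slash_eq_of_mem (f : CuspForm Γ k) {γ : SL(2, ℤ)} (hγ : γ ∈ Γ) : ⇑f ∣[k] γ = ⇑f :=
  SlashInvariantFormClass.slash_action_eq f (mapGL ℝ γ) (Subgroup.mem_map_of_mem _ hγ)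

/-! ### The primitive -/

/-- The primitive of the weight two cusp form `f` vanishing at `i∞`. -/
def prim (f : CuspForm Γ 2) : ℍ → ℂ := primInfty ⇑f

theorem prim_hasDerivAt (f : CuspForm Γ 2) (τ : ℍ) :
    HasDerivAt (prim f ∘ ofComplex) (f τ) (τ : ℂ) := by
  have h := niceDecay_cuspForm f
  exact primInfty_hasDerivAt h.1 (Fermat.Agent.S21.Primitive.vertDecay_of_niceDecay h) τ

theorem prim_tendsto (f : CuspForm Γ 2) : Tendsto (prim f) atImInfty (𝓝 0) :=
  Fermat.Agent.S21.Primitive.tendsto_primInfty_atImInfty (niceDecay_cuspForm f)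

theorem tendsto_primInfty_slash (f : CuspForm Γ 2) (δ : SL(2, ℤ)) :
    Tendsto (primInfty (⇑f ∣[(2 : ℤ)] δ)) atImInfty (𝓝 0) :=
  Fermat.Agent.S21.Primitive.tendsto_primInfty_atImInfty (niceDecay_slash f δ)

/-- Transformation under `SL(2,ℤ)`: `prim f (δ • w) = c_δ + primInfty (f ∣[2] δ) w`. -/
theorem prim_SL (f : CuspForm Γ 2) (δ : SL(2, ℤ)) :
    ∃ c : ℂ, ∀ w : ℍ, prim f (δ • w) = c + primInfty (⇑f ∣[(2 : ℤ)] δ) w := by
  have h1 : NiceDecay (⇑f) := niceDecay_cuspForm f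
  have h2 : NiceDecay (⇑f ∣[((0 : ℕ) : ℤ) + 2] δ) := by
    have := niceDecay_slash f δ
    simpa using this
  refine ⟨prim f (δ • UpperHalfPlane.I) - primInfty (⇑f ∣[(2 : ℤ)] δ) UpperHalfPlane.I,
    fun w => ?_⟩
  have key := eichF_SL_sub_const (n := 0) δ h1 h2 0 0 w UpperHalfPlane.I
  simp only [Fermat.Agent.S21.Primitive.eichF_zero_eq] at key
  have e : (⇑f ∣[((0 : ℕ) : ℤ) + 2] δ) = (⇑f ∣[(2 : ℤ)] δ) := by
    norm_num
  rw [e] at key
  unfold prim
  linear_combination key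

/-- Periodicity of `prim f` at all cusps, with a uniform period. -/
theorem prim_periodic (f : CuspForm Γ 2) :
    ∃ M : ℕ, 0 < M ∧ ∀ (δ : SL(2, ℤ)) (w : ℍ),
      prim f (δ • ((M : ℝ) +ᵥ w)) = prim f (δ • w) := by
  obtain ⟨M, hM, h⟩ := exists_period_slash f
  refine ⟨M, hM, fun δ w => ?_⟩
  obtain ⟨c, hc⟩ := prim_SL f δ
  rw [hc, hc, Fermat.Agent.S21.Primitive.primInfty_vadd_of_periodic (h δ).2]

/-- limits at all cusps. -/
theorem prim_cusp_limit (f : CuspForm Γ 2) (δ : SL(2, ℤ)) :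
    ∃ L : ℂ, Tendsto (fun w : ℍ => prim f (δ • w)) atImInfty (𝓝 L) := by
  obtain ⟨c, hc⟩ := prim_SL f δ
  refine ⟨c, ?_⟩
  have h := (tendsto_primInfty_slash f δ).const_add c
  rw [add_zero] at h
  exact h.congr fun w => (hc w).symm

theorem isEquivariantPrimitive_prim (f : CuspForm Γ 2) : IsEquivariantPrimitive Γ (prim f) := by
  intro γ
  obtain ⟨c, hc⟩ := prim_SL f (γ : SL(2, ℤ))
  have hsl : (⇑f ∣[(2 : ℤ)] (γ : SL(2, ℤ))) = ⇑f := slash_eq_of_mem f γ.2
  refine ⟨c, fun z => ?_⟩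
  rw [hc z, hsl]
  unfold prim
  ring

/-! ### The period homomorphism -/

/-- the period homomorphism of `f`. -/
def periodHom (f : CuspForm Γ 2) : Additive Γ →+ ℂ := (isEquivariantPrimitive_prim f).periodHom

theorem periodHom_apply (f : CuspForm Γ 2) (γ : Γ) (z : ℍ) :
    periodHom f (Additive.ofMul γ) = prim f ((γ : SL(2, ℤ)) • z) - prim f z := by
  rw [periodHom, IsEquivariantPrimitive.periodHom_apply]
  exact ((isEquivariantPrimitive_prim f).sub_eq_period γ z).symm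

/-- the periods of parabolic elements vanish. -/
theorem periodHom_mem_parabolicHoms (f : CuspForm Γ 2) :
    periodHom f ∈ parabolicHoms ℂ Γ ℂ := by
  rw [mem_parabolicHoms_iff]
  intro γ h
  obtain ⟨δ, hδ⟩ := Fermat.Agent.S21.Parabolic.exists_conj_c_eq_zero (γ : SL(2, ℤ)) h
  obtain ⟨L, hL⟩ := prim_cusp_limit f δ
  have hg := Fermat.Agent.S21.Parabolic.tendsto_SL_smul_atImInfty hδ
  have h1 : Tendsto (fun w : ℍ => prim f (δ • ((δ⁻¹ * (γ : SL(2, ℤ)) * δ) • w))) atImInfty (𝓝 L) :=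
    hL.comp hg
  have h2 : ∀ w : ℍ, prim f (δ • ((δ⁻¹ * (γ : SL(2, ℤ)) * δ) • w)) - prim f (δ • w)
      = periodHom f (Additive.ofMul γ) := by
    intro w
    rw [periodHom_apply f γ (δ • w)]
    congr 2
    rw [← mul_smul, ← mul_smul]
    congr 1
    group
  have h3 : Tendsto (fun w : ℍ => prim f (δ • ((δ⁻¹ * (γ : SL(2, ℤ)) * δ) • w)) - prim f (δ • w))
      atImInfty (𝓝 (L - L)) := h1.sub hL
  simp only [h2, sub_self] at h3
  exact tendsto_nhds_unique tendsto_const_nhds h3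

theorem periodHom_add (f g : CuspForm Γ 2) : periodHom (f + g) = periodHom f + periodHom g := by
  refine AddMonoidHom.ext fun γ' => ?_
  obtain ⟨γ, rfl⟩ := Additive.ofMul.surjective γ'
  have hder : ∀ τ : ℍ, HasDerivAt ((fun z => prim f z + prim g z) ∘ ofComplex) ((f + g) τ) (τ : ℂ) :=
    fun τ => (prim_hasDerivAt f τ).add (prim_hasDerivAt g τ)
  obtain ⟨c, hc⟩ := Fermat.Agent.S21.Primitive.sub_const_of_hasDerivAt
    (prim_hasDerivAt (f + g)) hder
  rw [AddMonoidHom.add_apply, periodHom_apply (f + g) γ UpperHalfPlane.I,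
    periodHom_apply f γ UpperHalfPlane.I, periodHom_apply g γ UpperHalfPlane.I]
  have e1 := hc ((γ : SL(2, ℤ)) • UpperHalfPlane.I)
  have e2 := hc UpperHalfPlane.I
  linear_combination e1 - e2

theorem periodHom_smul (a : ℂ) (f : CuspForm Γ 2) : periodHom (a • f) = a • periodHom f := by
  refine AddMonoidHom.ext fun γ' => ?_
  obtain ⟨γ, rfl⟩ := Additive.ofMul.surjective γ'
  have hder : ∀ τ : ℍ, HasDerivAt ((fun z => a * prim f z) ∘ ofComplex) ((a • f) τ) (τ : ℂ) :=
    fun τ => (prim_hasDerivAt f τ).const_mul a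
  obtain ⟨c, hc⟩ := Fermat.Agent.S21.Primitive.sub_const_of_hasDerivAt
    (prim_hasDerivAt (a • f)) hder
  rw [AddMonoidHom.smul_apply, periodHom_apply (a • f) γ UpperHalfPlane.I,
    periodHom_apply f γ UpperHalfPlane.I, smul_eq_mul]
  have e1 := hc ((γ : SL(2, ℤ)) • UpperHalfPlane.I)
  have e2 := hc UpperHalfPlane.I
  linear_combination e1 - e2

/-- **the period map**, as a `ℂ`-linear map. -/
def periodLin (Γ : Subgroup SL(2, ℤ)) [Γ.FiniteIndex] :
    CuspForm Γ 2 →ₗ[ℂ] (Additive Γ →+ ℂ) where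
  toFun f := periodHom f
  map_add' := periodHom_add
  map_smul' := periodHom_smul

@[simp] theorem periodLin_apply (f : CuspForm Γ 2) : periodLin Γ f = periodHom f := rfl

/-- **injectivity of the period map** (maximum principle on `Γ \ ℍ*`). -/
theorem periodLin_injective (Γ : Subgroup SL(2, ℤ)) [Γ.FiniteIndex] :
    Function.Injective (periodLin Γ) := by
  rw [injective_iff_map_eq_zero]
  intro f hf
  have hmd : MDiff (prim f) := by
    rw [UpperHalfPlane.mdifferentiable_iff]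
    intro w hw
    exact (prim_hasDerivAt f ⟨w, hw⟩).differentiableAt.differentiableWithinAt
  have hinv : ∀ γ ∈ Γ, ∀ z : ℍ, prim f (γ • z) = prim f z := by
    intro γ hγ z
    have h := periodHom_apply f ⟨γ, hγ⟩ z
    have h0 : periodHom f (Additive.ofMul (⟨γ, hγ⟩ : Γ)) = 0 := by
      have := congrArg (fun φ : Additive Γ →+ ℂ => φ (Additive.ofMul (⟨γ, hγ⟩ : Γ))) hf
      simpa using this
    rw [h0] at h
    exact (sub_eq_zero.mp h.symm)
  obtain ⟨M, hM, hper⟩ := prim_periodic f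
  obtain ⟨c, hc⟩ := Fermat.Agent.S21.MaxPrinciple7.eq_const_of_norm_invariant Γ hmd
    (fun γ hγ z => by rw [hinv γ hγ z]) (fun δ => ⟨M, hM, hper δ⟩)
    (fun δ => by
      obtain ⟨L, hL⟩ := prim_cusp_limit f δ
      exact hL.isBigO_one ℝ)
  apply DFunLike.ext
  intro z
  have h1 := prim_hasDerivAt f z
  have h2 : (prim f ∘ ofComplex) =ᶠ[𝓝 (z : ℂ)] fun _ => c := by
    filter_upwards [isOpen_upperHalfPlaneSet.mem_nhds z.im_pos] with w _
    exact hc _
  have h3 := (h1.congr_of_eventuallyEq h2.symm).unique (hasDerivAt_const (z : ℂ) c)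
  simpa using h3

/-! ### The package -/

/-- **(AN-1)** the period package of `Γ`. -/
def periodPackage (Γ : Subgroup SL(2, ℤ)) [Γ.FiniteIndex] :
    Fermat.Agent.M48.ESInv3.PeriodPackage Γ where
  prim := prim
  P := periodLin Γ
  hasDeriv := prim_hasDerivAt
  tendsto := prim_tendsto
  apply := periodHom_apply
  parabolic := periodHom_mem_parabolicHoms
  injective := periodLin_injective Γ

theorem periodPackageStmt : Fermat.Agent.M48.ESInv3.PeriodPackageStmt :=
  fun Γ _ => ⟨periodPackage Γ⟩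

end Fermat.Agent.M48.G1Period3
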