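/-
M48 (P1), analytic side (helper3): **(AN-2) equivariance of the period map** for an arbitrary
coset-sum operator (= `ESInv3.PeriodEquivariantStmt`).

`F = prim f`, `T = (g_i)` a coset-sum operator on `Γ`.  The function `G z = ∑ᵢ F (g_i • z)` is a
primitive of `∑ᵢ f ∣[2] g_i = h`, hence differs from `prim h` by a constant, and its periods telescope
along `g_i γ = coc γ i · g_{π i}`:  `P h γ = ∑ᵢ P f (coc γ i)`.
Γ-generic twin of `HEQ/PeriodHecke1`; covers `T_p` with any representatives and the diamond operators.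
-/
import Mathlib
import Fermat.Agent.S21.Primitive
import Fermat.Agent.S22.EichlerPrim
import Fermat.Agent.M48.ESInv3

set_option autoImplicit false

noncomputable section

namespace Fermat.Agent.M48.PeriodEquiv3

open UpperHalfPlane hiding I
open Complex Filter Topology ModularCurve.Period
open scoped MatrixGroups ModularForm Manifold
open Matrix.SpecialLinearGroup
open Fermat.Agent.M48.ESInv3

/-- The derivative of `F ∘ g` for `g ∈ GL(2, ℝ)` of positive determinant: weight two slash. -/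
theorem hasDerivAt_comp_smul {F φ : ℍ → ℂ}
    (hF : ∀ τ : ℍ, HasDerivAt (F ∘ ofComplex) (φ τ) (τ : ℂ))
    (g : GL (Fin 2) ℝ) (hg : 0 < g.det.val) (z : ℍ) :
    HasDerivAt ((fun w : ℍ => F (g • w)) ∘ ofComplex) ((φ ∣[(2 : ℤ)] g) z) (z : ℂ) := by
  have hd : denom g z ≠ 0 := denom_ne_zero g z
  have h1 : HasDerivAt (F ∘ ofComplex) (φ (g • z)) ((g • z : ℍ) : ℂ) := hF (g • z)
  have h2 : HasDerivAt (fun w : ℂ => ((g • ofComplex w : ℍ) : ℂ))
      ((g.det.val : ℂ) / denom g z ^ 2) (z : ℂ) := by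
    have := (hasStrictDerivAt_smul (g := g) (by simpa using hg) z).hasDerivAt
    simpa using this
  have h3 := HasDerivAt.comp (z : ℂ) (h₂ := F ∘ ofComplex)
    (h := fun w : ℂ => ((g • ofComplex w : ℍ) : ℂ)) (by simpa using h1) h2
  have h4 : ((F ∘ ofComplex) ∘ fun w : ℂ => ((g • ofComplex w : ℍ) : ℂ))
      = (fun w : ℍ => F (g • w)) ∘ ofComplex := by
    funext w
    simp [Function.comp, ofComplex_apply]
  rw [h4] at h3
  refine h3.congr_deriv ?_
  rw [Fermat.Agent.S22.slash_apply_of_det_pos _ g hg]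
  have e1 : ((2 : ℤ) - 1) = 1 := by norm_num
  rw [e1, zpow_one, zpow_neg, show ((2 : ℤ)) = ((2 : ℕ) : ℤ) by norm_num, zpow_natCast]
  field_simp

variable {Γ : Subgroup SL(2, ℤ)}

/-- **(AN-2)**: the period map intertwines `slashSum` with `addHom`. -/
theorem period_slashSum (PP : PeriodPackage Γ) (T : CosetOp Γ)
    (f h : CuspForm Γ 2) (hh : (⇑h : ℍ → ℂ) = T.slashSum ⇑f) :
    PP.P h = T.addHom (PP.P f) := by
  classical
  refine AddMonoidHom.ext fun γ' => ?_
  obtain ⟨γ, rfl⟩ := Additive.ofMul.surjective γ'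
  set F : ℍ → ℂ := PP.prim f with hF
  set G : ℍ → ℂ := fun z => ∑ i, F (T.g i • z) with hG
  -- `G` is a primitive of `h`
  have hGder : ∀ τ : ℍ, HasDerivAt (G ∘ ofComplex) (h τ) (τ : ℂ) := by
    intro τ
    have h1 : h τ = ∑ i, ((⇑f : ℍ → ℂ) ∣[(2 : ℤ)] T.g i) τ := by
      rw [hh, CosetOp.slashSum, Finset.sum_apply]
    rw [h1]
    have h2 : G ∘ ofComplex = fun w : ℂ => ∑ i, ((fun z : ℍ => F (T.g i • z)) ∘ ofComplex) w := by
      funext w
      rfl
    rw [h2]
    exact HasDerivAt.fun_sum fun i _ =>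
      hasDerivAt_comp_smul (PP.hasDeriv f) (T.g i) (T.det_pos i) τ
  obtain ⟨c₀, hc₀⟩ := Fermat.Agent.S21.Primitive.sub_const_of_hasDerivAt hGder (PP.hasDeriv h)
  rw [PP.apply h γ UpperHalfPlane.I, CosetOp.addHom_apply]
  have e1 := hc₀ (((γ : Γ) : SL(2, ℤ)) • UpperHalfPlane.I)
  have e2 := hc₀ UpperHalfPlane.I
  have hper : PP.prim h (((γ : Γ) : SL(2, ℤ)) • UpperHalfPlane.I) - PP.prim h UpperHalfPlane.I
      = G (((γ : Γ) : SL(2, ℤ)) • UpperHalfPlane.I) - G UpperHalfPlane.I := by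
    linear_combination e2 - e1
  rw [hper]
  show ∑ i, F (T.g i • (((γ : Γ) : SL(2, ℤ)) • UpperHalfPlane.I)) - ∑ i, F (T.g i • UpperHalfPlane.I)
    = _
  have h3 : ∀ i, F (T.g i • (((γ : Γ) : SL(2, ℤ)) • UpperHalfPlane.I)) =
      F (T.g (T.perm γ i) • UpperHalfPlane.I) + PP.P f (Additive.ofMul (T.coc γ i)) := by
    intro i
    have hsm : T.g i • (((γ : Γ) : SL(2, ℤ)) • UpperHalfPlane.I)
        = ((T.coc γ i : Γ) : SL(2, ℤ)) • (T.g (T.perm γ i) • UpperHalfPlane.I) := by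
      show T.g i • (mapGL ℝ ((γ : Γ) : SL(2, ℤ)) • UpperHalfPlane.I)
        = mapGL ℝ ((T.coc γ i : Γ) : SL(2, ℤ)) • (T.g (T.perm γ i) • UpperHalfPlane.I)
      rw [← mul_smul, ← mul_smul, T.rel γ i]
    rw [hsm, PP.apply f (T.coc γ i) (T.g (T.perm γ i) • UpperHalfPlane.I)]
    ring
  rw [Finset.sum_congr rfl fun i _ => h3 i, Finset.sum_add_distrib,
    Equiv.sum_comp (T.perm γ) fun i => F (T.g i • UpperHalfPlane.I)]
  ring

theorem periodEquivariantStmt : PeriodEquivariantStmt :=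
  fun _ _ PP T f h hh => period_slashSum PP T f h hh

end Fermat.Agent.M48.PeriodEquiv3
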