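/-
M48 (P1), analytic side (helper3): **the lattice of periods** for an arbitrary subgroup `Γ` of finite
index in `SL(2, ℤ)`, and the consequences of FAITH-lite for any commuting family of operators on
`S₂(Γ)` given by coset sums.

* `Lam Γ := parabolicHoms ℤ Γ ℤ` is a finite free `ℤ`-module (`ParLattice11` + `S22.fg_of_finiteIndex`);
* `tensorEquiv Γ R : R ⊗[ℤ] Λ ≃ₗ[R] parabolicHoms R Γ R` (`c ⊗ φ ↦ c • castPar φ`), compatible with
  all coset-sum operators (`tensorEquiv_baseChange`);
* `periodTensor Γ : CuspForm Γ 2 →ₗ[ℂ] ℂ ⊗[ℤ] Λ`, injective (`periodTensor_injective`) and equivariant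
  for every coset-sum operator (`periodTensor_equivariant`);
* `finiteDimensional_cuspForm` : `S₂(Γ)` is finite-dimensional (by periods);
* **`finite_and_eigen`** : for a commuting family `Top i` of endomorphisms of `S₂(Γ)` with
  `⇑(Top i f) = (C i).slashSum ⇑f`, the algebra `ℤ[Top i]` is a finite `ℤ`-module and every character
  of it with values in a field of characteristic zero has a nonzero eigenvector in `K' ⊗ Λ` for the
  operators `(C i).parOp ℤ ℤ`.
No Eichler–Shimura surjectivity, no dimension formula.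
-/
import Mathlib
import Fermat.Agent.M48.CosetOp3
import Fermat.Agent.M48.G1Period3
import Fermat.Agent.M48.PeriodEquiv3
import Fermat.Agent.M48.FaithLite3

set_option autoImplicit false

noncomputable section

namespace Fermat.Agent.M48.ParTensor3

open UpperHalfPlane ModularCurve.Period TensorProduct
open scoped MatrixGroups ModularForm
open Fermat.Agent.M48.ESInv3 Fermat.Agent.M48.CosetOp3
open Fermat.Agent.ES.HEQ

variable (Γ : Subgroup SL(2, ℤ)) [Γ.FiniteIndex]

/-- The lattice `Λ = Hom_par(Γ, ℤ)`. -/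
abbrev Lam : Type := parabolicHoms ℤ Γ ℤ

theorem fg : Γ.FG := Fermat.Agent.S22.fg_of_finiteIndex Γ

instance finite_lam : Module.Finite ℤ (Lam Γ) := ParLattice11.finite_par (fg Γ)

instance free_lam : Module.Free ℤ (Lam Γ) := ParLattice11.free_par (fg Γ)

section Tensor

variable (R : Type*) [CommRing R]

/-- `R ⊗ Λ → Par R R`, `c ⊗ φ ↦ c • castPar φ`. -/
def tensorToPar : R ⊗[ℤ] Lam Γ →ₗ[R] parabolicHoms R Γ R :=
  LinearMap.liftBaseChange R (ParLattice11.castPar Γ R)

omit [Γ.FiniteIndex] in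
@[simp] theorem tensorToPar_tmul (c : R) (φ : Lam Γ) :
    tensorToPar Γ R (c ⊗ₜ[ℤ] φ) = c • ParLattice11.castPar Γ R φ := by
  simp [tensorToPar]

variable [IsAddTorsionFree R]

theorem tensorToPar_basis (i : Fin (ParLattice11.rk Γ)) :
    tensorToPar Γ R (Algebra.TensorProduct.basis R (ParLattice11.lamBasis (fg Γ)) i)
      = ParLattice11.parBasis R (fg Γ) i := by
  rw [Algebra.TensorProduct.basis_apply, tensorToPar_tmul, one_smul, ParLattice11.lamBasis_apply,
    ParLattice11.parBasis_apply]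

/-- `R ⊗ Λ ≃ Par R R`. -/
def tensorEquiv : R ⊗[ℤ] Lam Γ ≃ₗ[R] parabolicHoms R Γ R :=
  (Algebra.TensorProduct.basis R (ParLattice11.lamBasis (fg Γ))).equiv
    (ParLattice11.parBasis R (fg Γ)) (Equiv.refl _)

theorem coe_tensorEquiv : (tensorEquiv Γ R : R ⊗[ℤ] Lam Γ →ₗ[R] parabolicHoms R Γ R)
    = tensorToPar Γ R := by
  refine (Algebra.TensorProduct.basis R (ParLattice11.lamBasis (fg Γ))).ext fun i => ?_
  rw [tensorToPar_basis, LinearEquiv.coe_coe, tensorEquiv, Module.Basis.equiv_apply, Equiv.refl_apply]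

@[simp] theorem tensorEquiv_tmul (c : R) (φ : Lam Γ) :
    tensorEquiv Γ R (c ⊗ₜ[ℤ] φ) = c • ParLattice11.castPar Γ R φ := by
  have := congrArg (fun f : R ⊗[ℤ] Lam Γ →ₗ[R] parabolicHoms R Γ R => f (c ⊗ₜ[ℤ] φ))
    (coe_tensorEquiv Γ R)
  simpa using this

variable {Γ}

/-- `tensorEquiv` intertwines `(parOp T ℤ ℤ).baseChange R` with `parOp T R R`. -/
theorem tensorEquiv_baseChange (T : CosetOp Γ) (x : R ⊗[ℤ] Lam Γ) :
    tensorEquiv Γ R ((parOp T ℤ ℤ).baseChange R x) = parOp T R R (tensorEquiv Γ R x) := by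
  induction x using TensorProduct.induction_on with
  | zero => simp
  | tmul c φ =>
    rw [LinearMap.baseChange_tmul, tensorEquiv_tmul, tensorEquiv_tmul, map_smul, parOp_castPar]
  | add x y hx hy => rw [map_add, map_add, hx, hy, map_add, map_add]

end Tensor

/-! ### The period map with values in `ℂ ⊗ Λ` -/

/-- The period map with values in `Par ℂ ℂ`. -/
def periodPar : CuspForm Γ 2 →ₗ[ℂ] parabolicHoms ℂ Γ ℂ :=
  LinearMap.codRestrict _ (G1Period3.periodPackage Γ).P (G1Period3.periodPackage Γ).parabolic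

theorem periodPar_injective : Function.Injective (periodPar Γ) := by
  intro f h hfh
  apply (G1Period3.periodPackage Γ).injective
  exact congrArg Subtype.val hfh

/-- **The period map** `S₂(Γ) → ℂ ⊗ Λ`. -/
def periodTensor : CuspForm Γ 2 →ₗ[ℂ] ℂ ⊗[ℤ] Lam Γ :=
  (tensorEquiv Γ ℂ).symm.toLinearMap ∘ₗ periodPar Γ

theorem periodTensor_injective : Function.Injective (periodTensor Γ) :=
  (tensorEquiv Γ ℂ).symm.injective.comp (periodPar_injective Γ)

variable {Γ}

theorem periodPar_equivariant (T : CosetOp Γ) (f h : CuspForm Γ 2)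
    (hh : (⇑h : ℍ → ℂ) = T.slashSum ⇑f) :
    periodPar Γ h = parOp T ℂ ℂ (periodPar Γ f) := by
  apply Subtype.ext
  exact PeriodEquiv3.period_slashSum (G1Period3.periodPackage Γ) T f h hh

/-- **Equivariance** of the period map for every coset-sum operator. -/
theorem periodTensor_equivariant (T : CosetOp Γ) (f h : CuspForm Γ 2)
    (hh : (⇑h : ℍ → ℂ) = T.slashSum ⇑f) :
    periodTensor Γ h = (parOp T ℤ ℤ).baseChange ℂ (periodTensor Γ f) := by
  apply (tensorEquiv Γ ℂ).injective
  rw [tensorEquiv_baseChange]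
  simp only [periodTensor, LinearMap.comp_apply, LinearEquiv.coe_coe, LinearEquiv.apply_symm_apply]
  exact periodPar_equivariant T f h hh

variable (Γ)

/-- `S₂(Γ)` is finite-dimensional (it embeds into `ℂ ⊗ Λ` by periods). -/
theorem finiteDimensional_cuspForm : FiniteDimensional ℂ (CuspForm Γ 2) :=
  Module.Finite.of_injective (periodTensor Γ) (periodTensor_injective Γ)

variable {Γ}

/-- **Finiteness of the Hecke algebra and existence of eigenvectors in the lattice**, for any
commuting family of operators on `S₂(Γ)` given by coset sums. -/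
theorem finite_and_eigen {ι : Type*} (Top : ι → Module.End ℂ (CuspForm Γ 2)) (C : ι → CosetOp Γ)
    (hcomm : ∀ i j, Commute (Top i) (Top j))
    (hTop : ∀ i f, (⇑(Top i f) : ℍ → ℂ) = (C i).slashSum ⇑f) :
    Module.Finite ℤ (Algebra.adjoin ℤ (Set.range Top)) ∧
    ∀ {K' : Type*} [Field K'] [CharZero K'] (χ : Algebra.adjoin ℤ (Set.range Top) →+* K'),
      ∃ w : K' ⊗[ℤ] Lam Γ, w ≠ 0 ∧
        ∀ i, (parOp (C i) ℤ ℤ).baseChange K' w
          = χ ⟨Top i, Algebra.subset_adjoin ⟨i, rfl⟩⟩ • w :=
  FaithLite3.faithLite Top hcomm (fun i => parOp (C i) ℤ ℤ) (periodTensor Γ)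
    (periodTensor_injective Γ)
    (fun i f => periodTensor_equivariant (C i) f (Top i f) (hTop i f))

end Fermat.Agent.M48.ParTensor3
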