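/-
Programme M48, pillar (P1), top chapter — helper8.

**The mod-`M` cyclotomic character of `G_ℚ`** `cycloM M : (ℚbar ≃ₐ[ℚ] ℚbar) →* (ZMod M)ˣ`
(`IsPrimitiveRoot.autToPow` at a chosen primitive `M`-th root of unity of `ℚbar`) and its four
properties (twins of `ES.J.CycloChar8` for the `p`-adic character):

* `cycloM_of_isFrobeniusAt`    : `cycloM σ = ℓ` for a Frobenius lift at `A | ℓ`, `ℓ ∤ M`;
* `cycloM_of_mem_inertia`      : `cycloM τ = 1` for `τ` in the inertia group at `A | q`, `q ∤ M`;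
* `cycloM_complexConjugation`  : `cycloM c = -1`;
* `cycloM_eq_one_of_fixes`     : `cycloM σ = 1` on `G_{ℚ(μ_M)}` (finite level).

For a character `ε : (ZMod M)ˣ →* 𝒪ˣ` the Galois character `galChar ε := ε ∘ cycloM` has
`galChar ε (Frob_ℓ) = ε ℓ`, is unramified outside `M` and of finite level: it is the determinant twist
of the representations attached to eigensystems of `Γ₁(M)` with nebentypus `ε`.
-/
import Mathlib
import Fermat.Agent.ES.J.CycloChar8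

set_option autoImplicit false

noncomputable section

namespace Fermat.Agent.M48.DirCharGal8

open Fermat.Agent.ES.J.CycloChar8

local notation "Qb" => AlgebraicClosure ℚ

variable (M : ℕ) [NeZero M]

theorem exists_primitiveRootM : ∃ ζ : Qb, IsPrimitiveRoot ζ M :=
  HasEnoughRootsOfUnity.exists_primitiveRoot Qb M

/-- a chosen primitive `M`-th root of unity of `ℚbar`. -/
def zetaM : Qb := (exists_primitiveRootM M).choose

theorem zetaM_spec : IsPrimitiveRoot (zetaM M) M := (exists_primitiveRootM M).choose_spec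

/-- **The mod-`M` cyclotomic character** of `G_ℚ`. -/
def cycloM : (Qb ≃ₐ[ℚ] Qb) →* (ZMod M)ˣ := (zetaM_spec M).autToPow ℚ

theorem cycloM_spec (σ : Qb ≃ₐ[ℚ] Qb) :
    σ (zetaM M) = zetaM M ^ ((cycloM M σ : (ZMod M)ˣ) : ZMod M).val :=
  ((zetaM_spec M).autToPow_spec ℚ σ).symm

variable {M}

/-- the character is determined on the chosen primitive root. -/
theorem coe_cycloM_eq {σ : Qb ≃ₐ[ℚ] Qb} {m : ℕ} (h : σ (zetaM M) = zetaM M ^ m) :
    ((cycloM M σ : (ZMod M)ˣ) : ZMod M) = (m : ZMod M) := by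
  have h1 := cycloM_spec M σ
  rw [h] at h1
  have h2 : m ≡ ((cycloM M σ : (ZMod M)ˣ) : ZMod M).val [MOD M] :=
    modEq_of_pow_eq_pow (zetaM_spec M) (NeZero.ne M) h1
  have h3 := (ZMod.natCast_eq_natCast_iff _ _ _).mpr h2
  rw [h3, ZMod.natCast_zmod_val]

/-- **`cycloM σ = ℓ`** for a Frobenius lift at `A | ℓ`, `ℓ ∤ M`. -/
theorem cycloM_of_isFrobeniusAt {ℓ : ℕ} (hℓ : ℓ.Prime) (hℓM : ¬ ℓ ∣ M) (A : ValuationSubring Qb)
    (hA : A.LiesOverPrime ℓ) {σ : Qb ≃ₐ[ℚ] Qb} (hσ : A.IsFrobeniusAt σ ℓ) :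
    ((cycloM M σ : (ZMod M)ˣ) : ZMod M) = (ℓ : ZMod M) := by
  have hζ := zetaM_spec M
  have hM : M ≠ 0 := NeZero.ne M
  have hζ0 : zetaM M ≠ 0 := hζ.ne_zero hM
  have hζA : zetaM M ∈ A := mem_of_pow_eq_one hM hζ.pow_eq_one
  have h1 := frob_apply_sub_pow_mem_nonunits hσ hζA
  have hσζ : (σ (zetaM M)) ^ M = 1 := by rw [← map_pow, hζ.pow_eq_one, map_one]
  have hη : (σ (zetaM M) * (zetaM M ^ ℓ)⁻¹) ^ M = 1 := by
    rw [mul_pow, hσζ, inv_pow, ← pow_mul, mul_comm ℓ, pow_mul, hζ.pow_eq_one, one_pow, inv_one,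
      mul_one]
  have hvinv : A.valuation ((zetaM M ^ ℓ)⁻¹) = 1 := by
    rw [map_inv₀, map_pow, valuation_eq_one_of_pow_eq_one hM hζ.pow_eq_one, one_pow, inv_one]
  have hη1 : σ (zetaM M) * (zetaM M ^ ℓ)⁻¹ - 1 ∈ A.nonunits := by
    have e : σ (zetaM M) * (zetaM M ^ ℓ)⁻¹ - 1 = (σ (zetaM M) - zetaM M ^ ℓ) * (zetaM M ^ ℓ)⁻¹ := by
      rw [sub_mul, mul_inv_cancel₀ (pow_ne_zero _ hζ0)]
    rw [e, ValuationSubring.mem_nonunits_iff, map_mul, hvinv, mul_one]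
    exact (ValuationSubring.mem_nonunits_iff (A := A)).mp h1
  have h2 := eq_one_of_sub_one_mem_nonunits hℓ hA hℓM hη hη1
  have h3 : σ (zetaM M) = zetaM M ^ ℓ := by
    have := congrArg (· * zetaM M ^ ℓ) h2
    simpa [mul_assoc, inv_mul_cancel₀ (pow_ne_zero ℓ hζ0)] using this
  exact coe_cycloM_eq h3

/-- **`cycloM τ = 1`** on the inertia group at `A | q`, `q ∤ M`. -/
theorem cycloM_of_mem_inertia {q : ℕ} (hq : q.Prime) (hqM : ¬ q ∣ M) (A : ValuationSubring Qb)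
    (hA : A.LiesOverPrime q) {τ : Qb ≃ₐ[ℚ] Qb} (hτ : τ ∈ A.inertiaSubgroupIn ℚ) :
    cycloM M τ = 1 := by
  have hζ := zetaM_spec M
  have hM : M ≠ 0 := NeZero.ne M
  have hζ0 : zetaM M ≠ 0 := hζ.ne_zero hM
  have hζA : zetaM M ∈ A := mem_of_pow_eq_one hM hζ.pow_eq_one
  have h1 := Fermat.Agent.S05.Inertia.apply_sub_mem_nonunits hτ hζA
  have hτζ : (τ (zetaM M)) ^ M = 1 := by rw [← map_pow, hζ.pow_eq_one, map_one]
  have hη : (τ (zetaM M) * (zetaM M)⁻¹) ^ M = 1 := by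
    rw [mul_pow, hτζ, inv_pow, hζ.pow_eq_one, inv_one, mul_one]
  have hvinv : A.valuation ((zetaM M)⁻¹) = 1 := by
    rw [map_inv₀, valuation_eq_one_of_pow_eq_one hM hζ.pow_eq_one, inv_one]
  have hη1 : τ (zetaM M) * (zetaM M)⁻¹ - 1 ∈ A.nonunits := by
    have e : τ (zetaM M) * (zetaM M)⁻¹ - 1 = (τ (zetaM M) - zetaM M) * (zetaM M)⁻¹ := by
      rw [sub_mul, mul_inv_cancel₀ hζ0]
    rw [e, ValuationSubring.mem_nonunits_iff, map_mul, hvinv, mul_one]
    exact (ValuationSubring.mem_nonunits_iff (A := A)).mp h1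
  have h2 := eq_one_of_sub_one_mem_nonunits hq hA hqM hη hη1
  have h3 : τ (zetaM M) = zetaM M ^ 1 := by
    have := congrArg (· * zetaM M) h2
    simpa [mul_assoc, inv_mul_cancel₀ hζ0] using this
  apply Units.ext
  rw [coe_cycloM_eq h3, Nat.cast_one, Units.val_one]

/-- **`cycloM c = -1`.** -/
theorem cycloM_complexConjugation : cycloM M complexConjugation = -1 := by
  have hζ := zetaM_spec M
  have hM : M ≠ 0 := NeZero.ne M
  have hζ0 : zetaM M ≠ 0 := hζ.ne_zero hM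
  have h1 : complexConjugation (zetaM M) = zetaM M ^ (M - 1) := by
    rw [complexConjugation_rootOfUnity hM hζ.pow_eq_one]
    rw [eq_comm, ← mul_right_inj' hζ0, mul_inv_cancel₀ hζ0, ← pow_succ',
      Nat.sub_add_cancel (Nat.one_le_iff_ne_zero.mpr hM), hζ.pow_eq_one]
  apply Units.ext
  rw [coe_cycloM_eq h1, Nat.cast_sub (Nat.one_le_iff_ne_zero.mpr hM), Nat.cast_one]
  simp

/-- **finite level**: `cycloM σ = 1` on the absolute Galois group of `ℚ(μ_M)`. -/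
theorem cycloM_eq_one_of_fixes :
    ∃ L : IntermediateField ℚ Qb, FiniteDimensional ℚ L ∧
      ∀ σ : Qb ≃ₐ[ℚ] Qb, (∀ x ∈ L, σ x = x) → cycloM M σ = 1 := by
  have hζ := zetaM_spec M
  have hM : M ≠ 0 := NeZero.ne M
  refine ⟨IntermediateField.adjoin ℚ {zetaM M},
    IntermediateField.adjoin.finiteDimensional
      ((hζ.isIntegral (Nat.pos_of_ne_zero hM)).tower_top), fun σ hσ => ?_⟩
  have h3 : σ (zetaM M) = zetaM M ^ 1 := by
    rw [pow_one]
    exact hσ _ (IntermediateField.mem_adjoin_simple_self ℚ _)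
  apply Units.ext
  rw [coe_cycloM_eq h3, Nat.cast_one, Units.val_one]

/-! ### The Galois character of a Dirichlet character -/

section galChar

variable {𝒪 : Type*} [CommRing 𝒪] (ε : (ZMod M)ˣ →* 𝒪ˣ)

/-- The Galois character `ε ∘ cycloM`. -/
def galChar : (Qb ≃ₐ[ℚ] Qb) →* 𝒪ˣ := ε.comp (cycloM M)

theorem galChar_of_isFrobeniusAt {ℓ : ℕ} (hℓ : ℓ.Prime) (hℓM : ¬ ℓ ∣ M) (A : ValuationSubring Qb)
    (hA : A.LiesOverPrime ℓ) {σ : Qb ≃ₐ[ℚ] Qb} (hσ : A.IsFrobeniusAt σ ℓ) :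
    galChar ε σ = ε (ZMod.unitOfCoprime ℓ ((Nat.Prime.coprime_iff_not_dvd hℓ).mpr hℓM)) := by
  show ε (cycloM M σ) = _
  congr 1
  apply Units.ext
  rw [cycloM_of_isFrobeniusAt hℓ hℓM A hA hσ, ZMod.coe_unitOfCoprime]

theorem galChar_of_mem_inertia {q : ℕ} (hq : q.Prime) (hqM : ¬ q ∣ M) (A : ValuationSubring Qb)
    (hA : A.LiesOverPrime q) {τ : Qb ≃ₐ[ℚ] Qb} (hτ : τ ∈ A.inertiaSubgroupIn ℚ) :
    galChar ε τ = 1 := by
  show ε (cycloM M τ) = 1
  rw [cycloM_of_mem_inertia hq hqM A hA hτ, map_one]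

theorem galChar_complexConjugation : galChar ε complexConjugation = ε (-1) := by
  show ε (cycloM M complexConjugation) = _
  rw [cycloM_complexConjugation]

theorem galChar_eq_one_of_fixes :
    ∃ L : IntermediateField ℚ Qb, FiniteDimensional ℚ L ∧
      ∀ σ : Qb ≃ₐ[ℚ] Qb, (∀ x ∈ L, σ x = x) → galChar ε σ = 1 := by
  obtain ⟨L, hL, h⟩ := cycloM_eq_one_of_fixes (M := M)
  exact ⟨L, hL, fun σ hσ => by show ε (cycloM M σ) = 1; rw [h σ hσ, map_one]⟩

end galChar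

end Fermat.Agent.M48.DirCharGal8
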