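/-
Programme M48, pillar (P1), top chapter — helper8.

**The `Γ₁` twin of `ES.J.S30Skeleton8`**: a rank-two `𝒪'`-adic representation from ONE contract
(`EigenLattice1`): a nonzero finite free `𝒪'`-module `Λ` with an adically continuous `G_ℚ`-action `ρ`,
unramified at `q ∤ Mp`, satisfying the Eichler–Shimura relation with nebentypus
`ρ σ ² - a ℓ • ρ σ + (ε ℓ · ℓ) = 0` for every Frobenius lift `σ` at `ℓ ∉ S`.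

The determinant character is `d = (ε ∘ cyclo_M) · cyclo_p` (`DirCharGal8.galChar`, `CycloChar8.cycloO`);
the hypothesis `ε (-1) = 1` (weight 2: `⟨-1⟩ = 1`) gives `d c = -1`.  Everything else is the generic
algebra of the tree (`RelDense9`, `RankTwo9`, `ChebQbar23`).

`EigenLattice1.twist`: the safety net for the adjoint convention — if the geometric side delivers the
relation `ρσ² - ε(ℓ)⁻¹ a ℓ ρσ + ε(ℓ)⁻¹ ℓ = 0`, then `(ε ∘ cyclo_M) · ρ` satisfies the right one.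
-/
import Mathlib
import Fermat.Prelude.Def_GaloisRep_Adic
import Fermat.Agent.ES.ALG.RankTwo9
import Fermat.Agent.ES.ALG.RelDense9
import Fermat.Agent.ES.GAL.ChebQbar23
import Fermat.Agent.ES.J.CycloChar8
import Fermat.Agent.M48.DirCharGal8

set_option autoImplicit false
set_option linter.unusedSectionVars false

open Polynomial

noncomputable section

namespace Fermat.Agent.M48.P1Skeleton8

open Fermat.Agent.ES.ALG.RelDense9 Fermat.Agent.ES.ALG.RankTwo9 Fermat.Agent.ES.J.CycloChar8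
  Fermat.Agent.M48.DirCharGal8

local notation "Qb" => AlgebraicClosure ℚ
local notation "GQ" => (AlgebraicClosure ℚ ≃ₐ[ℚ] AlgebraicClosure ℚ)

/-- `ε(ℓ)` for a prime `ℓ ∤ M`. -/
def epsAt {M : ℕ} {𝒪' : Type} [CommRing 𝒪'] (ε : (ZMod M)ˣ →* 𝒪'ˣ) {ℓ : ℕ} (hℓ : ℓ.Prime)
    (hℓM : ¬ ℓ ∣ M) : 𝒪' :=
  ((ε (ZMod.unitOfCoprime ℓ ((Nat.Prime.coprime_iff_not_dvd hℓ).mpr hℓM)) : 𝒪'ˣ) : 𝒪')

/-- **The contract**: an eigen-lattice with Frobenius relation `ρσ² - a ℓ • ρσ + δ • 1 = 0`, where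
`δ = δ ℓ hℓ hℓM` is the prescribed determinant at `ℓ`. -/
def EigenLattice1 (p M : ℕ) (S : Finset ℕ) (𝒪' : Type) [CommRing 𝒪'] [IsLocalRing 𝒪']
    (a : ℕ → 𝒪') (δ : ∀ ℓ : ℕ, ℓ.Prime → ¬ ℓ ∣ M → 𝒪') : Prop :=
  ∃ (Λ : Type) (_ : AddCommGroup Λ) (_ : Module 𝒪' Λ) (_ : Module.Free 𝒪' Λ)
    (_ : Module.Finite 𝒪' Λ) (_ : Nontrivial Λ) (ρ : GQ →* Module.End 𝒪' Λ),
    (∀ n : ℕ, ∃ L : IntermediateField ℚ Qb, FiniteDimensional ℚ L ∧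
      ∀ σ : GQ, (∀ x ∈ L, σ x = x) → EndCongr (IsLocalRing.maximalIdeal 𝒪' ^ n) (ρ σ) 1) ∧
    (∀ q : ℕ, q.Prime → ¬ q ∣ M → q ≠ p → ∀ A : ValuationSubring Qb, A.LiesOverPrime q →
      ∀ τ ∈ A.inertiaSubgroupIn ℚ, ρ τ = 1) ∧
    (∀ (ℓ : ℕ) (hℓ : ℓ.Prime) (hℓM : ¬ ℓ ∣ M) (_ : ℓ ∉ (↑S : Set ℕ)),
      ∀ A : ValuationSubring Qb, A.LiesOverPrime ℓ → ∀ σ : GQ, A.IsFrobeniusAt σ ℓ →
        ρ σ * ρ σ - a ℓ • ρ σ + δ ℓ hℓ hℓM • (1 : Module.End 𝒪' Λ) = 0)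

section Core

variable {p : ℕ} [Fact p.Prime] {M : ℕ} [NeZero M] {S : Finset ℕ}
  {𝒪' : Type} [CommRing 𝒪'] [IsDomain 𝒪'] [IsDiscreteValuationRing 𝒪']
  [IsAdicComplete (IsLocalRing.maximalIdeal 𝒪') 𝒪'] [CharZero 𝒪']

/-- `⋂ 𝔪 ^ n = 0`. -/
theorem eq_zero_of_forall_mem_pow (x : 𝒪') (hx : ∀ n, x ∈ IsLocalRing.maximalIdeal 𝒪' ^ n) :
    x = 0 := by
  have hH : IsHausdorff (IsLocalRing.maximalIdeal 𝒪') 𝒪' := inferInstance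
  apply hH.haus x
  intro n
  rw [SModEq.zero, smul_eq_mul, Ideal.mul_top]
  exact hx n

/-- **The core**: a rank-two representation over `𝒪'` with characteristic polynomials
`X² - a ℓ X + ε(ℓ) ℓ` at Frobenius lifts, adically continuous and unramified outside `Mp`. -/
theorem exists_rep_of_eigenLattice1 (hpS : p ∈ S) (hMS : ∀ q : ℕ, q.Prime → q ∣ M → q ∈ S)
    (hp𝒪' : (p : 𝒪') ∈ IsLocalRing.maximalIdeal 𝒪')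
    (a : ℕ → 𝒪') (ε : (ZMod M)ˣ →* 𝒪'ˣ) (hε : ε (-1) = 1)
    (h : EigenLattice1 p M S 𝒪' a fun ℓ hℓ hℓM => epsAt ε hℓ hℓM * (ℓ : 𝒪')) :
    ∃ ρ : GaloisRepAdic 𝒪',
      (∀ (ℓ : ℕ) (hℓ : ℓ.Prime) (hℓM : ¬ ℓ ∣ M) (_ : ℓ ∉ (↑S : Set ℕ)),
        ∀ A : ValuationSubring Qb, A.LiesOverPrime ℓ → ∀ σ : GQ, A.IsFrobeniusAt σ ℓ →
          LinearMap.charpoly (ρ.ρ σ) =
            X ^ 2 - C (a ℓ) * X + C (epsAt ε hℓ hℓM * (ℓ : 𝒪'))) ∧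
      (∀ q : ℕ, q.Prime → ¬ q ∣ M → q ≠ p → ρ.IsUnramifiedAt q) := by
  classical
  obtain ⟨Λ, _, _, _, _, _, ρ, hcont, hunr, hes⟩ := h
  have hpprime : p.Prime := Fact.out
  set 𝔪 := IsLocalRing.maximalIdeal 𝒪' with h𝔪
  set d : GQ →* 𝒪'ˣ := galChar ε * cycloO p hp𝒪' with hd
  have hd_apply : ∀ σ : GQ, ((d σ : 𝒪'ˣ) : 𝒪') =
      ((galChar ε σ : 𝒪'ˣ) : 𝒪') * ((cycloO p hp𝒪' σ : 𝒪'ˣ) : 𝒪') := fun σ => by
    rw [hd, MonoidHom.mul_apply, Units.val_mul]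
  have hne_p : ∀ ℓ : ℕ, ℓ ∉ (↑S : Set ℕ) → ℓ ≠ p := fun ℓ hℓS h => hℓS (h ▸ hpS)
  have hd_frob : ∀ (ℓ : ℕ) (hℓ : ℓ.Prime) (hℓM : ¬ ℓ ∣ M) (_ : ℓ ∉ (↑S : Set ℕ))
      (A : ValuationSubring Qb), A.LiesOverPrime ℓ → ∀ σ : GQ, A.IsFrobeniusAt σ ℓ →
      ((d σ : 𝒪'ˣ) : 𝒪') = epsAt ε hℓ hℓM * (ℓ : 𝒪') := by
    intro ℓ hℓ hℓM hℓS A hA σ hσ
    rw [hd_apply, galChar_of_isFrobeniusAt ε hℓ hℓM A hA hσ,
      cycloO_of_isFrobeniusAt p hp𝒪' hℓ (hne_p ℓ hℓS) A hA hσ]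
    rfl
  have hd_cont : ∀ n : ℕ, ∃ L : IntermediateField ℚ Qb, FiniteDimensional ℚ L ∧
      ∀ σ : GQ, (∀ x ∈ L, σ x = x) → ((d σ : 𝒪'ˣ) : 𝒪') - 1 ∈ 𝔪 ^ n := by
    intro n
    obtain ⟨L₁, hL₁, h1⟩ := galChar_eq_one_of_fixes ε
    obtain ⟨L₂, hL₂, h2⟩ := cycloO_sub_one_mem p hp𝒪' n
    have := hL₁
    have := hL₂
    refine ⟨L₁ ⊔ L₂, inferInstance, fun σ hσ => ?_⟩
    rw [hd_apply, h1 σ fun x hx => hσ x (le_sup_left (a := L₁) (b := L₂) hx), Units.val_one,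
      one_mul]
    exact h2 σ fun x hx => hσ x (le_sup_right (a := L₁) (b := L₂) hx)
  have hd_c : ((d complexConjugation : 𝒪'ˣ) : 𝒪') = -1 := by
    rw [hd_apply, galChar_complexConjugation, hε, Units.val_one, one_mul,
      cycloO_complexConjugation]
  have hd_inertia : ∀ (q : ℕ), q.Prime → ¬ q ∣ M → q ≠ p → ∀ A : ValuationSubring Qb,
      A.LiesOverPrime q → ∀ τ ∈ A.inertiaSubgroupIn ℚ, d τ = 1 := by
    intro q hq hqM hqp A hA τ hτ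
    rw [hd, MonoidHom.mul_apply, galChar_of_mem_inertia ε hq hqM A hA hτ,
      cycloO_of_mem_inertia p hp𝒪' hq hqp A hA hτ, one_mul]
  -- the set of Frobenius lifts at the good primes
  let Φ : Set GQ := {σ | ∃ (ℓ : ℕ) (_ : ℓ.Prime) (_ : ¬ ℓ ∣ M) (_ : ℓ ∉ (↑S : Set ℕ))
    (A : ValuationSubring Qb), A.LiesOverPrime ℓ ∧ A.IsFrobeniusAt σ ℓ}
  let aΦ : GQ → 𝒪' := fun σ => if hσ : σ ∈ Φ then a hσ.choose else 0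
  have hΦ : ∀ σ ∈ Φ, ρ σ * ρ σ - aΦ σ • ρ σ + ((d σ : 𝒪'ˣ) : 𝒪') • (1 : Module.End 𝒪' Λ) = 0 := by
    intro σ hσ
    have hσ' := hσ
    obtain ⟨hℓ, hℓM, hℓS, A, hA, hFr⟩ := hσ.choose_spec
    have e1 : aΦ σ = a hσ.choose := dif_pos hσ'
    rw [e1, hd_frob _ hℓ hℓM hℓS A hA σ hFr]
    exact hes _ hℓ hℓM hℓS A hA σ hFr
  have hdense : ∀ (n : ℕ) (g : GQ), ∃ σ ∈ Φ, ∃ j : ℕ, EndCongr (𝔪 ^ n) (ρ g) (ρ σ ^ j) ∧
      ((d g : 𝒪'ˣ) : 𝒪') - ((d σ : 𝒪'ˣ) : 𝒪') ^ j ∈ 𝔪 ^ n := by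
    intro n g
    obtain ⟨L₁, hL₁, h1⟩ := hcont n
    obtain ⟨L₂, hL₂, h2⟩ := hd_cont n
    have := hL₁
    have := hL₂
    obtain ⟨ℓ, A, φ, j, hℓ, hℓS, hA, hφ, hj⟩ :=
      Fermat.Agent.ES.GAL.ChebQbar23.exists_frobenius_pow_eq_on (L₁ ⊔ L₂) g S
    have hℓS' : ℓ ∉ (↑S : Set ℕ) := by simpa using hℓS
    have hℓM : ¬ ℓ ∣ M := fun hdvd => hℓS (hMS ℓ hℓ hdvd)
    refine ⟨φ, ⟨ℓ, hℓ, hℓM, hℓS', A, hA, hφ⟩, j, ?_, ?_⟩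
    all_goals
      set τ : GQ := g⁻¹ * φ ^ j with hτ
      have hτfix : ∀ x ∈ L₁ ⊔ L₂, τ x = x := by
        intro x hx
        rw [hτ, AlgEquiv.mul_apply, hj x hx]
        exact g.symm_apply_apply x
      have hφj : φ ^ j = g * τ := by rw [hτ, mul_inv_cancel_left]
    · have hc := h1 τ (fun x hx => hτfix x (le_sup_left (a := L₁) (b := L₂) hx))
      have e : ρ φ ^ j = ρ g * ρ τ := by rw [← map_pow, hφj, map_mul]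
      rw [e]
      have := (hc.mul_left (ρ g)).symm
      rwa [mul_one] at this
    · have hc := h2 τ (fun x hx => hτfix x (le_sup_right (a := L₁) (b := L₂) hx))
      have e : ((d φ : 𝒪'ˣ) : 𝒪') ^ j = ((d g : 𝒪'ˣ) : 𝒪') * ((d τ : 𝒪'ˣ) : 𝒪') := by
        rw [← Units.val_pow_eq_pow_val, ← map_pow, hφj, map_mul, Units.val_mul]
      rw [e]
      have e2 : ((d g : 𝒪'ˣ) : 𝒪') - ((d g : 𝒪'ˣ) : 𝒪') * ((d τ : 𝒪'ˣ) : 𝒪') =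
          -(((d g : 𝒪'ˣ) : 𝒪') * (((d τ : 𝒪'ˣ) : 𝒪') - 1)) := by ring
      rw [e2]
      exact neg_mem (Ideal.mul_mem_left _ _ hc)
  obtain ⟨tr, htr, htrΦ⟩ := exists_trace_fun_of_dense ρ d (fun n => 𝔪 ^ n)
    eq_zero_of_forall_mem_pow Φ aΦ hΦ hdense
  have h2 : (2 : 𝒪') ≠ 0 := two_ne_zero
  obtain ⟨Λ', _, _, _, _, ρ', hrk, hchar, hcongr⟩ :=
    exists_rankTwo (c := complexConjugation) h2 htr complexConjugation_mul_self hd_c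
  -- adic continuity
  have hcont' : GaloisActionIsAdicContinuous 𝒪' ρ' := by
    intro n
    obtain ⟨L₁, hL₁, h1⟩ := hcont n
    obtain ⟨L₂, hL₂, h2⟩ := hd_cont n
    have := hL₁
    have := hL₂
    refine ⟨L₁ ⊔ L₂, inferInstance, fun σ hσ v => ?_⟩
    exact hcongr (𝔪 ^ n) σ (h1 σ fun x hx => hσ x (le_sup_left (a := L₁) (b := L₂) hx))
      (h2 σ fun x hx => hσ x (le_sup_right (a := L₁) (b := L₂) hx)) v
  refine ⟨{ V := Λ', finrank_eq := hrk, ρ := ρ', isAdicContinuous := hcont' }, ?_, ?_⟩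
  · -- characteristic polynomials at Frobenius lifts
    intro ℓ hℓ hℓM hℓS A hA σ hσ
    change (ρ' σ).charpoly = _
    rw [hchar σ]
    have hdσ := hd_frob ℓ hℓ hℓM hℓS A hA σ hσ
    have haσ : tr σ = a ℓ := by
      have e1 := rel_of_quadratic (rho_mul_inv ρ σ) (δ := epsAt ε hℓ hℓM * (ℓ : 𝒪'))
        (a := a ℓ) (hes ℓ hℓ hℓM hℓS A hA σ hσ)
      have e2 := htr σ
      rw [hdσ, e1] at e2
      have hpos : 0 < Module.finrank 𝒪' Λ := Module.finrank_pos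
      exact (smul_one_injective_of_finrank_pos hpos e2).symm
    rw [haσ, hdσ]
  · -- unramified outside `Mp`
    intro q hq hqM hqp P hP τ hτ
    have h1 : EndCongr (⊥ : Ideal 𝒪') (ρ τ) 1 := by
      rw [hunr q hq hqM hqp P hP τ hτ]
      exact EndCongr.refl _ _
    have h2 : ((d τ : 𝒪'ˣ) : 𝒪') - 1 ∈ (⊥ : Ideal 𝒪') := by
      rw [hd_inertia q hq hqM hqp P hP τ hτ, Units.val_one, sub_self]
      exact Ideal.zero_mem _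
    have h3 := hcongr ⊥ τ h1 h2
    change ρ' τ = 1
    apply LinearMap.ext
    intro v
    have := h3 v
    rw [Submodule.bot_smul, Submodule.mem_bot, sub_eq_zero] at this
    exact this

end Core

/-! ### The twist (safety net for the adjoint convention) -/

section Twist

variable {p M : ℕ} {S : Finset ℕ} {𝒪' : Type} [CommRing 𝒪'] [IsLocalRing 𝒪']

/-- Twisting an eigen-lattice by a character `η` of finite level, unramified outside `M`, with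
`η (Frob_ℓ) = e ℓ`: the relation `ρσ² - a' ℓ ρσ + δ' ℓ = 0` becomes
`ρσ² - (e ℓ · a' ℓ) ρσ + (e ℓ)² δ' ℓ = 0`. -/
theorem EigenLattice1.twist {a' : ℕ → 𝒪'} {δ' : ∀ ℓ : ℕ, ℓ.Prime → ¬ ℓ ∣ M → 𝒪'}
    (h : EigenLattice1 p M S 𝒪' a' δ') (η : GQ →* 𝒪'ˣ)
    (hη_lvl : ∃ L : IntermediateField ℚ Qb, FiniteDimensional ℚ L ∧
      ∀ σ : GQ, (∀ x ∈ L, σ x = x) → η σ = 1)
    (hη_unr : ∀ q : ℕ, q.Prime → ¬ q ∣ M → q ≠ p → ∀ A : ValuationSubring Qb, A.LiesOverPrime q →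
      ∀ τ ∈ A.inertiaSubgroupIn ℚ, η τ = 1)
    (e : ∀ ℓ : ℕ, ℓ.Prime → ¬ ℓ ∣ M → 𝒪')
    (hη_frob : ∀ (ℓ : ℕ) (hℓ : ℓ.Prime) (hℓM : ¬ ℓ ∣ M) (_ : ℓ ∉ (↑S : Set ℕ)),
      ∀ A : ValuationSubring Qb, A.LiesOverPrime ℓ → ∀ σ : GQ, A.IsFrobeniusAt σ ℓ →
        ((η σ : 𝒪'ˣ) : 𝒪') = e ℓ hℓ hℓM)
    (a : ℕ → 𝒪') (δ : ∀ ℓ : ℕ, ℓ.Prime → ¬ ℓ ∣ M → 𝒪')
    (ha : ∀ (ℓ : ℕ) (hℓ : ℓ.Prime) (hℓM : ¬ ℓ ∣ M), ℓ ∉ (↑S : Set ℕ) → a ℓ = e ℓ hℓ hℓM * a' ℓ)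
    (hδ : ∀ (ℓ : ℕ) (hℓ : ℓ.Prime) (hℓM : ¬ ℓ ∣ M), ℓ ∉ (↑S : Set ℕ) →
      δ ℓ hℓ hℓM = e ℓ hℓ hℓM * e ℓ hℓ hℓM * δ' ℓ hℓ hℓM) :
    EigenLattice1 p M S 𝒪' a δ := by
  obtain ⟨Λ, i1, i2, i3, i4, i5, ρ, hcont, hunr, hes⟩ := h
  let ρ₁ : GQ →* Module.End 𝒪' Λ :=
    { toFun := fun σ => ((η σ : 𝒪'ˣ) : 𝒪') • ρ σ
      map_one' := by rw [map_one, map_one, Units.val_one, one_smul]
      map_mul' := fun σ τ => by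
        rw [map_mul, map_mul, Units.val_mul, smul_mul_smul_comm] }
  have hρ₁ : ∀ σ, ρ₁ σ = ((η σ : 𝒪'ˣ) : 𝒪') • ρ σ := fun σ => rfl
  refine ⟨Λ, i1, i2, i3, i4, i5, ρ₁, ?_, ?_, ?_⟩
  · intro n
    obtain ⟨L₁, hL₁, h1⟩ := hcont n
    obtain ⟨L₂, hL₂, h2⟩ := hη_lvl
    have := hL₁
    have := hL₂
    refine ⟨L₁ ⊔ L₂, inferInstance, fun σ hσ => ?_⟩
    rw [hρ₁, h2 σ fun x hx => hσ x (le_sup_right (a := L₁) (b := L₂) hx), Units.val_one, one_smul]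
    exact h1 σ fun x hx => hσ x (le_sup_left (a := L₁) (b := L₂) hx)
  · intro q hq hqM hqp A hA τ hτ
    rw [hρ₁, hη_unr q hq hqM hqp A hA τ hτ, Units.val_one, one_smul]
    exact hunr q hq hqM hqp A hA τ hτ
  · intro ℓ hℓ hℓM hℓS A hA σ hσ
    rw [hρ₁, hη_frob ℓ hℓ hℓM hℓS A hA σ hσ, ha ℓ hℓ hℓM hℓS, hδ ℓ hℓ hℓM hℓS]
    have h0 := hes ℓ hℓ hℓM hℓS A hA σ hσ
    have : e ℓ hℓ hℓM • ρ σ * e ℓ hℓ hℓM • ρ σ - (e ℓ hℓ hℓM * a' ℓ) • e ℓ hℓ hℓM • ρ σ +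
        (e ℓ hℓ hℓM * e ℓ hℓ hℓM * δ' ℓ hℓ hℓM) • (1 : Module.End 𝒪' Λ) =
        (e ℓ hℓ hℓM * e ℓ hℓ hℓM) • (ρ σ * ρ σ - a' ℓ • ρ σ + δ' ℓ hℓ hℓM • 1) := by
      rw [smul_mul_smul_comm, smul_add, smul_sub, smul_smul, smul_smul, smul_smul]
      congr 2
      ring_nf
    rw [this, h0, smul_zero]

end Twist

end Fermat.Agent.M48.P1Skeleton8
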