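/-
Programme M48, pillar (P1), top chapter — helper8.

**The contract `P1Skeleton8.EigenLattice1` from a nonzero eigenvector in `𝒪' ⊗ T_p J`**, for an
ABSTRACT `J` (an abelian group with an action of `G_ℚ` and commuting endomorphisms `hecke ℓ`,
`dia d`): the `Γ₁` twin of `ES.J.EigenLatticeOf8` + `ES.J.TateJZero13`, generic in `J`.

Inputs (all statements about the torsion of `J`):
* (K1)   `J[p]` finite;
* (LVL)  `J[pⁿ]` is fixed pointwise by an open subgroup of `G_ℚ`;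
* (COMM) `hecke ℓ`, `dia d` commute with `G_ℚ`;
* (INERT) inertia at `q ∤ Mp` acts trivially on `J[pᵏ]`;
* (FROB) `σσy - hecke ℓ (σy) + ℓ • dia ℓ y = 0` on `J[pᵏ]` for Frobenius lifts `σ` at `ℓ ∤ Mp`;
* a nonzero `w ∈ 𝒪' ⊗ T_p J` with `hecke ℓ w = a ℓ w` (`ℓ ∤ M`, `ℓ ∉ S`), `dia d w = ε d w`.

`exists_eigenRep2` generalises `BaseChangeRep8.exists_eigenRep`: the constant term of the quadratic
relation may be a scalar multiple of ANOTHER operator of the commuting family.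
-/
import Mathlib
import Fermat.Agent.ES.J.BaseChangeRep8
import Fermat.Agent.ES.J.TateModule13
import Fermat.Agent.M48.P1Skeleton8

set_option autoImplicit false
set_option linter.unusedSectionVars false
set_option linter.style.haveILetI false
set_option synthInstance.maxHeartbeats 400000

open TensorProduct

noncomputable section

namespace Fermat.Agent.M48.P1Lattice8

open Fermat.Agent.ES.ALG.RelDense9 Fermat.Agent.ES.ALG.RankTwo9 Fermat.Agent.ES.J.BaseChangeRep8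
  Fermat.Agent.ES.J.TateModule13 Fermat.Agent.M48.P1Skeleton8

local notation "Qb" => AlgebraicClosure ℚ
local notation "GQ" => (AlgebraicClosure ℚ ≃ₐ[ℚ] AlgebraicClosure ℚ)

/-! ### The eigen-sublattice with operator-valued constant term -/

section Eigen

variable {𝒪 : Type} [CommRing 𝒪] [IsDomain 𝒪] [IsPrincipalIdealRing 𝒪]
variable {Λ : Type} [AddCommGroup Λ] [Module 𝒪 Λ] [Module.Free 𝒪 Λ] [Module.Finite 𝒪 Λ]
variable {G : Type*} [Group G] {ι : Type*}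

theorem exists_eigenSubRep2 (ρ : G →* Module.End 𝒪 Λ) (t : ι → Module.End 𝒪 Λ) (c : ι → 𝒪)
    (hcomm : ∀ g i, Commute (ρ g) (t i)) (w : Λ) (hw0 : w ≠ 0) (hw : ∀ i, t i w = c i • w) :
    ∃ (Λ' : Type) (_ : AddCommGroup Λ') (_ : Module 𝒪 Λ') (_ : Module.Free 𝒪 Λ')
      (_ : Module.Finite 𝒪 Λ') (_ : Nontrivial Λ') (ρ' : G →* Module.End 𝒪 Λ'),
      (∀ (I : Ideal 𝒪) (g : G), EndCongr I (ρ g) 1 → EndCongr I (ρ' g) 1) ∧
      (∀ g, ρ g = 1 → ρ' g = 1) ∧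
      (∀ (g : G) (i j : ι) (n : 𝒪), ρ g * ρ g - t i * ρ g + n • t j = 0 →
        ρ' g * ρ' g - c i • ρ' g + (n * c j) • (1 : Module.End 𝒪 Λ') = 0) := by
  have hsat := saturated_eigenSub t c
  have hst := stable_eigenSub ρ t c hcomm
  have hwmem : w ∈ eigenSub t c := mem_eigenSub.mpr hw
  have hnt : Nontrivial (eigenSub t c) :=
    ⟨⟨⟨w, hwmem⟩, 0, fun h => hw0 (congrArg Subtype.val h)⟩⟩
  refine ⟨eigenSub t c, inferInstance, inferInstance, inferInstance, inferInstance, hnt,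
    restrictRep ρ (eigenSub t c) hst, ?_, ?_, ?_⟩
  · intro I g h
    exact endCongr_restrictRep hsat hst I g h
  · intro g hg
    ext v
    simp [hg]
  · intro g i j n h
    ext v
    have hv := mem_eigenSub.mp v.2
    have hρv : ρ g (v : Λ) ∈ eigenSub t c := hst g v v.2
    have h1 := congrArg (fun F : Module.End 𝒪 Λ => F (v : Λ)) h
    simp only [LinearMap.add_apply, LinearMap.sub_apply, Module.End.mul_apply,
      LinearMap.smul_apply, LinearMap.zero_apply] at h1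
    rw [mem_eigenSub.mp hρv i, hv j, smul_smul] at h1
    simpa using h1

end Eigen

section Main

variable {R : Type} [CommRing R] {𝒪 : Type} [CommRing 𝒪] [IsDomain 𝒪] [IsPrincipalIdealRing 𝒪]
  [Algebra R 𝒪]
variable {T : Type} [AddCommGroup T] [Module R T] [Module.Free R T] [Module.Finite R T]
variable {G : Type*} [Group G] {ι : Type*}

/-- **Main (generic)**: as `BaseChangeRep8.exists_eigenRep`, with operator-valued constant term. -/
theorem exists_eigenRep2 (ρ : G →* Module.End R T) (t : ι → Module.End R T)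
    (hcomm : ∀ g i, Commute (ρ g) (t i)) (c : ι → 𝒪) (w : 𝒪 ⊗[R] T) (hw0 : w ≠ 0)
    (hw : ∀ i, (t i).baseChange 𝒪 w = c i • w) :
    ∃ (Λ' : Type) (_ : AddCommGroup Λ') (_ : Module 𝒪 Λ') (_ : Module.Free 𝒪 Λ')
      (_ : Module.Finite 𝒪 Λ') (_ : Nontrivial Λ') (ρ' : G →* Module.End 𝒪 Λ'),
      (∀ (I : Ideal 𝒪) (g : G) (r : R), algebraMap R 𝒪 r ∈ I → (∀ x, ∃ y, ρ g x - x = r • y) →
        EndCongr I (ρ' g) 1) ∧
      (∀ g, ρ g = 1 → ρ' g = 1) ∧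
      (∀ (g : G) (i j : ι) (n : R), ρ g * ρ g - t i * ρ g + n • t j = 0 →
        ρ' g * ρ' g - c i • ρ' g + (algebraMap R 𝒪 n * c j) • (1 : Module.End 𝒪 Λ') = 0) := by
  have hcomm' : ∀ g i, Commute (bcRep (𝒪 := 𝒪) ρ g) ((t i).baseChange 𝒪) := by
    intro g i
    have := (hcomm g i).map (Module.End.baseChangeHom R 𝒪 T)
    exact this
  obtain ⟨Λ', i1, i2, i3, i4, i5, ρ', h1, h2, h3⟩ :=
    exists_eigenSubRep2 (bcRep (𝒪 := 𝒪) ρ) (fun i => (t i).baseChange 𝒪) c hcomm' w hw0 hw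
  refine ⟨Λ', i1, i2, i3, i4, i5, ρ', ?_, ?_, ?_⟩
  · intro I g r hr hf
    exact h1 I g (endCongr_baseChange I (ρ g) r hr hf)
  · intro g hg
    apply h2
    rw [bcRep_apply, hg, LinearMap.baseChange_one]
  · intro g i j n h
    apply h3 g i j (algebraMap R 𝒪 n)
    have := congrArg (fun F : Module.End R T => F.baseChange 𝒪) h
    simp only [LinearMap.baseChange_add, LinearMap.baseChange_sub, LinearMap.baseChange_mul,
      LinearMap.baseChange_smul, LinearMap.baseChange_zero] at this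
    rw [bcRep_apply, algebraMap_smul]
    exact this

end Main

/-! ### The Tate module of an abstract `J` -/

section Tate

variable {p : ℕ} [hp : Fact p.Prime] {M : ℕ} [NeZero M] {S : Finset ℕ}
  {𝒪' : Type} [CommRing 𝒪'] [IsDomain 𝒪'] [IsDiscreteValuationRing 𝒪'] [Algebra ℤ_[p] 𝒪']
  {J : Type} [AddCommGroup J] [DistribMulAction GQ J]

/-- `ℓ` as a unit of `ZMod M`. -/
abbrev unitAt {ℓ : ℕ} (hℓ : ℓ.Prime) (hℓM : ¬ ℓ ∣ M) : (ZMod M)ˣ :=
  ZMod.unitOfCoprime ℓ ((Nat.Prime.coprime_iff_not_dvd hℓ).mpr hℓM)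


/-- **`EigenLattice1` from the torsion relations and a nonzero eigenvector.** -/
theorem eigenLattice1_of (hpS : p ∈ S)
    (hp𝒪' : (p : 𝒪') ∈ IsLocalRing.maximalIdeal 𝒪')
    (hecke : ℕ → J →+ J) (dia : (ZMod M)ˣ → J →+ J)
    (hfin : {y : J | p • y = 0}.Finite)
    (hlvl : ∀ n : ℕ, ∃ L : IntermediateField ℚ Qb, FiniteDimensional ℚ L ∧
      ∀ σ : GQ, (∀ x ∈ L, σ x = x) → ∀ y : J, p ^ n • y = 0 → σ • y = y)
    (hcommT : ∀ (ℓ : ℕ) (σ : GQ) (y : J), hecke ℓ (σ • y) = σ • hecke ℓ y)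
    (hcommD : ∀ (d : (ZMod M)ˣ) (σ : GQ) (y : J), dia d (σ • y) = σ • dia d y)
    (hinert : ∀ q : ℕ, q.Prime → ¬ q ∣ M → q ≠ p → ∀ A : ValuationSubring Qb, A.LiesOverPrime q →
      ∀ τ ∈ A.inertiaSubgroupIn ℚ, ∀ (k : ℕ) (y : J), p ^ k • y = 0 → τ • y = y)
    (hfrob : ∀ (ℓ : ℕ) (hℓ : ℓ.Prime) (hℓM : ¬ ℓ ∣ M), ℓ ≠ p →
      ∀ A : ValuationSubring Qb, A.LiesOverPrime ℓ → ∀ σ : GQ, A.IsFrobeniusAt σ ℓ →
        ∀ (k : ℕ) (y : J), p ^ k • y = 0 →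
          σ • σ • y - hecke ℓ (σ • y) + ℓ • dia (unitAt hℓ hℓM) y = 0)
    (a : ℕ → 𝒪') (ε : (ZMod M)ˣ →* 𝒪'ˣ)
    (w : 𝒪' ⊗[ℤ_[p]] TateModule p J) (hw0 : w ≠ 0)
    (hwT : ∀ (ℓ : ℕ), ℓ.Prime → ¬ ℓ ∣ M → ℓ ∉ (↑S : Set ℕ) →
      (map (p := p) (hecke ℓ)).baseChange 𝒪' w = a ℓ • w)
    (hwD : ∀ d : (ZMod M)ˣ, (map (p := p) (dia d)).baseChange 𝒪' w = ((ε d : 𝒪'ˣ) : 𝒪') • w) :
    EigenLattice1 p M S 𝒪' a fun ℓ hℓ hℓM => epsAt ε hℓ hℓM * (ℓ : 𝒪') := by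
  classical
  haveI : Finite {y : J // p • y = 0} := hfin.to_subtype
  haveI hfinT : Module.Finite ℤ_[p] (TateModule p J) := module_finite
  haveI hfreeT : Module.Free ℤ_[p] (TateModule p J) := module_free
  let ι : Type := {ℓ : ℕ // ℓ.Prime ∧ ¬ ℓ ∣ M ∧ ℓ ∉ (↑S : Set ℕ)} ⊕ (ZMod M)ˣ
  let t : ι → Module.End ℤ_[p] (TateModule p J) := fun i =>
    Sum.elim (fun ℓ => map (p := p) (hecke ℓ.1)) (fun d => map (p := p) (dia d)) i
  let c : ι → 𝒪' := fun i => Sum.elim (fun ℓ => a ℓ.1) (fun d => ((ε d : 𝒪'ˣ) : 𝒪')) i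
  have hcomm : ∀ (g : GQ) (i : ι), Commute (rho p J g) (t i) := by
    intro g i
    refine LinearMap.ext fun x => ?_
    ext k
    rcases i with ℓ | d
    · show g • hecke ℓ.1 (proj k x) = hecke ℓ.1 (g • proj k x)
      exact (hcommT ℓ.1 g (proj k x)).symm
    · show g • dia d (proj k x) = dia d (g • proj k x)
      exact (hcommD d g (proj k x)).symm
  obtain ⟨Λ, i1, i2, i3, i4, i5, ρ, h1, h2, h3⟩ :=
    exists_eigenRep2 (𝒪 := 𝒪') (rho p J) t hcomm c w hw0 (by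
      intro i
      rcases i with ℓ | d
      · exact hwT ℓ.1 ℓ.2.1 ℓ.2.2.1 ℓ.2.2.2
      · exact hwD d)
  refine ⟨Λ, i1, i2, i3, i4, i5, ρ, ?_, ?_, ?_⟩
  · intro n
    obtain ⟨L, hL, H⟩ := hlvl n
    refine ⟨L, hL, fun σ hσ => ?_⟩
    refine h1 _ σ ((p : ℤ_[p]) ^ n) ?_ (fun x => rho_sub_mem σ n (H σ hσ) x)
    rw [map_pow, map_natCast]
    exact Ideal.pow_mem_pow hp𝒪' n
  · intro q hq hqM hqp A hA τ hτ
    exact h2 τ (rho_eq_one τ fun k y hy => hinert q hq hqM hqp A hA τ hτ k y hy)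
  · intro ℓ hℓ hℓM hℓS A hA σ hσ
    have hℓp : ℓ ≠ p := fun h => hℓS (h ▸ hpS)
    have hrel : rho p J σ * rho p J σ - t (Sum.inl ⟨ℓ, hℓ, hℓM, hℓS⟩) * rho p J σ +
        (ℓ : ℤ_[p]) • t (Sum.inr (unitAt hℓ hℓM)) = 0 := by
      refine LinearMap.ext fun x => ?_
      ext k
      show σ • σ • proj k x - hecke ℓ (σ • proj k x) +
        proj k ((ℓ : ℤ_[p]) • map (p := p) (dia (unitAt hℓ hℓM)) x) = 0
      rw [proj_natCast_smul]
      exact hfrob ℓ hℓ hℓM hℓp A hA σ hσ k (proj k x) (pow_smul_proj k x)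
    have := h3 σ (Sum.inl ⟨ℓ, hℓ, hℓM, hℓS⟩) (Sum.inr (unitAt hℓ hℓM)) (ℓ : ℤ_[p]) hrel
    rw [map_natCast] at this
    show ρ σ * ρ σ - a ℓ • ρ σ + (epsAt ε hℓ hℓM * (ℓ : 𝒪')) • (1 : Module.End 𝒪' Λ) = 0
    rw [mul_comm (epsAt ε hℓ hℓM)]
    exact this

end Tate

end Fermat.Agent.M48.P1Lattice8
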