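/-
Programme M48, pillar (P1), leaf (P1-SS) — helper8.  Mathlib only.

**Semisimplification of a two-dimensional matrix representation** `r : G →* GL (Fin 2) k`:
`exists_semisimple r : ∃ r', IsSemisimpleRep r' ∧ (∀ g, charpoly (r' g) = charpoly (r g)) ∧
(∀ g, r g = 1 → r' g = 1)`.

If `r` is not semisimple it has a stable line `k·v`; with `r g v = α g • v` the semisimplification is
`g ↦ diag (α g, det (r g) / α g)`; trace and determinant agree with those of `r g` because `α g` is a
root of the characteristic polynomial of `r g` (Cayley–Hamilton in dimension 2).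
-/
import Mathlib

set_option autoImplicit false

open Polynomial Matrix

namespace Fermat.Agent.M48.SemiSimple8

variable {G : Type} [Group G] {k : Type} [Field k]

/-- A representation on `k²` is semisimple: every stable subspace has a stable complement. -/
def IsSemisimpleRep (ρ : G →* GL (Fin 2) k) : Prop :=
  ∀ W : Submodule k (Fin 2 → k),
    (∀ g : G, ∀ v ∈ W, ((ρ g : GL (Fin 2) k) : Matrix (Fin 2) (Fin 2) k).mulVec v ∈ W) →
    ∃ W' : Submodule k (Fin 2 → k),
      (∀ g : G, ∀ v ∈ W', ((ρ g : GL (Fin 2) k) : Matrix (Fin 2) (Fin 2) k).mulVec v ∈ W') ∧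
        IsCompl W W'

/-! ### Diagonal representations are semisimple -/

/-- The diagonal representation attached to two characters. -/
def diagRep (a d : G →* kˣ) : G →* GL (Fin 2) k where
  toFun g := ⟨Matrix.diagonal ![(a g : k), (d g : k)],
    Matrix.diagonal ![((a g)⁻¹ : kˣ), ((d g)⁻¹ : kˣ)], by
      rw [Matrix.diagonal_mul_diagonal, ← Matrix.diagonal_one]
      congr 1; funext i; fin_cases i <;> simp, by
      rw [Matrix.diagonal_mul_diagonal, ← Matrix.diagonal_one]
      congr 1; funext i; fin_cases i <;> simp⟩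
  map_one' := by
    apply Units.ext
    show Matrix.diagonal ![((a 1 : kˣ) : k), ((d 1 : kˣ) : k)] = 1
    rw [map_one, map_one, ← Matrix.diagonal_one]
    congr 1; funext i; fin_cases i <;> simp
  map_mul' g h := by
    apply Units.ext
    show Matrix.diagonal ![((a (g * h) : kˣ) : k), ((d (g * h) : kˣ) : k)] =
      Matrix.diagonal ![(a g : k), (d g : k)] * Matrix.diagonal ![(a h : k), (d h : k)]
    rw [Matrix.diagonal_mul_diagonal, map_mul, map_mul]
    congr 1; funext i; fin_cases i <;> simp

@[simp] theorem coe_diagRep (a d : G →* kˣ) (g : G) :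
    ((diagRep a d g : GL (Fin 2) k) : Matrix (Fin 2) (Fin 2) k) =
      Matrix.diagonal ![(a g : k), (d g : k)] := rfl

theorem diagRep_mulVec (a d : G →* kˣ) (g : G) (v : Fin 2 → k) :
    ((diagRep a d g : GL (Fin 2) k) : Matrix (Fin 2) (Fin 2) k).mulVec v =
      ![(a g : k) * v 0, (d g : k) * v 1] := by
  funext i
  rw [coe_diagRep, Matrix.mulVec_diagonal]
  fin_cases i <;> simp

theorem charpoly_diagRep (a d : G →* kˣ) (g : G) :
    ((diagRep a d g : GL (Fin 2) k) : Matrix (Fin 2) (Fin 2) k).charpoly =
      X ^ 2 - C ((a g : k) + (d g : k)) * X + C ((a g : k) * (d g : k)) := by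
  rw [Matrix.charpoly_fin_two, coe_diagRep, Matrix.trace_fin_two, Matrix.det_fin_two]
  simp

/-- The submodule of vectors whose `i`-th coordinate vanishes unless `P i`. -/
def coordSub (P : Fin 2 → Prop) : Submodule k (Fin 2 → k) where
  carrier := {v | ∀ i, v i = 0 ∨ P i}
  zero_mem' := fun i => Or.inl rfl
  add_mem' := by
    intro v w hv hw i
    rcases hv i with h | h
    · rcases hw i with h' | h'
      · left; simp [h, h']
      · right; exact h'
    · right; exact h
  smul_mem' := by
    intro c v hv i
    rcases hv i with h | h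
    · left; simp [h]
    · right; exact h

theorem mem_coordSub {P : Fin 2 → Prop} {v : Fin 2 → k} :
    v ∈ coordSub (k := k) P ↔ ∀ i, v i = 0 ∨ P i := Iff.rfl

theorem coordSub_stable (P : Fin 2 → Prop) (a d : G →* kˣ) (g : G) (v : Fin 2 → k)
    (hv : v ∈ coordSub (k := k) P) :
    ((diagRep a d g : GL (Fin 2) k) : Matrix (Fin 2) (Fin 2) k).mulVec v ∈ coordSub (k := k) P := by
  rw [diagRep_mulVec]
  intro i
  rcases hv i with h | h
  · left
    fin_cases i
    · simp only [Fin.zero_eta, Fin.isValue, Matrix.cons_val_zero]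
      have : v 0 = 0 := h
      rw [this, mul_zero]
    · simp only [Fin.mk_one, Fin.isValue, Matrix.cons_val_one, Matrix.cons_val_fin_one]
      have : v 1 = 0 := h
      rw [this, mul_zero]
  · right; exact h

theorem isCompl_coordSub (P : Fin 2 → Prop) :
    IsCompl (coordSub (k := k) P) (coordSub (k := k) fun i => ¬ P i) := by
  classical
  constructor
  · rw [Submodule.disjoint_def]
    intro v hv hv'
    funext i
    rcases hv i with h | h
    · exact h
    · rcases hv' i with h' | h'
      · exact h'
      · exact absurd h h'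
  · rw [codisjoint_iff, eq_top_iff]
    intro v _
    rw [Submodule.mem_sup]
    refine ⟨fun i => if P i then v i else 0, ?_, fun i => if P i then 0 else v i, ?_, ?_⟩
    · intro i
      by_cases h : P i
      · right; exact h
      · left; simp [h]
    · intro i
      by_cases h : P i
      · left; simp [h]
      · right; exact h
    · funext i
      by_cases h : P i <;> simp [h]

/-- A diagonal representation is semisimple. -/
theorem isSemisimpleRep_diagRep (a d : G →* kˣ) : IsSemisimpleRep (diagRep a d) := by
  classical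
  intro W hW
  by_cases hscal : ∀ g, a g = d g
  · -- scalar representation: every complement is stable
    obtain ⟨W', hW'⟩ := Submodule.exists_isCompl W
    refine ⟨W', fun g v hv => ?_, hW'⟩
    rw [diagRep_mulVec]
    have : ![(a g : k) * v 0, (d g : k) * v 1] = (a g : k) • v := by
      rw [hscal g]
      funext i; fin_cases i <;> simp
    rw [this]
    exact W'.smul_mem _ hv
  · push Not at hscal
    obtain ⟨g₀, hg₀⟩ := hscal
    have hne : ((a g₀ : k) - (d g₀ : k)) ≠ 0 := by
      rw [sub_ne_zero]
      exact fun h => hg₀ (Units.ext h)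
    -- coordinate projections of `W` stay in `W`
    have h0 : ∀ v ∈ W, ![v 0, 0] ∈ W := by
      intro v hv
      have h1 := hW g₀ v hv
      rw [diagRep_mulVec] at h1
      have h2 : ![(a g₀ : k) * v 0, (d g₀ : k) * v 1] - (d g₀ : k) • v ∈ W :=
        W.sub_mem h1 (W.smul_mem _ hv)
      have h3 : ![v 0, 0] = ((a g₀ : k) - (d g₀ : k))⁻¹ •
          (![(a g₀ : k) * v 0, (d g₀ : k) * v 1] - (d g₀ : k) • v) := by
        funext i; fin_cases i
        · show v 0 = ((a g₀ : k) - (d g₀ : k))⁻¹ * ((a g₀ : k) * v 0 - (d g₀ : k) * v 0)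
          field_simp
        · show (0 : k) = ((a g₀ : k) - (d g₀ : k))⁻¹ * ((d g₀ : k) * v 1 - (d g₀ : k) * v 1)
          rw [sub_self, mul_zero]
      rw [h3]
      exact W.smul_mem _ h2
    have h1 : ∀ v ∈ W, ![0, v 1] ∈ W := by
      intro v hv
      have : ![0, v 1] = v - ![v 0, 0] := by
        funext i; fin_cases i <;> simp
      rw [this]
      exact W.sub_mem hv (h0 v hv)
    -- `W` is a coordinate subspace
    let P : Fin 2 → Prop := fun i => Pi.single i (1 : k) ∈ W
    have hWP : W = coordSub (k := k) P := by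
      apply le_antisymm
      · intro v hv i
        by_cases hvi : v i = 0
        · left; exact hvi
        · right
          show Pi.single i (1 : k) ∈ W
          fin_cases i
          · have : Pi.single (0 : Fin 2) (1 : k) = (v 0)⁻¹ • ![v 0, 0] := by
              funext j; fin_cases j
              · simp only [Fin.zero_eta, Fin.isValue, Pi.single_eq_same, Pi.smul_apply,
                  Matrix.cons_val_zero, smul_eq_mul]
                exact (inv_mul_cancel₀ hvi).symm
              · simp
            simp only [Fin.zero_eta]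
            rw [this]
            exact W.smul_mem _ (h0 v hv)
          · have : Pi.single (1 : Fin 2) (1 : k) = (v 1)⁻¹ • ![0, v 1] := by
              funext j; fin_cases j
              · simp
              · simp only [Fin.mk_one, Fin.isValue, Pi.single_eq_same, Pi.smul_apply,
                  Matrix.cons_val_one, Matrix.cons_val_fin_one, smul_eq_mul]
                exact (inv_mul_cancel₀ hvi).symm
            simp only [Fin.mk_one]
            rw [this]
            exact W.smul_mem _ (h1 v hv)
      · intro v hv
        have hsum : v = ∑ i, v i • Pi.single i (1 : k) := by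
          funext j
          simp [Finset.sum_apply, Pi.single_apply]
        rw [hsum]
        refine W.sum_mem fun i _ => ?_
        rcases hv i with h | h
        · rw [h, zero_smul]; exact W.zero_mem
        · exact W.smul_mem _ h
    refine ⟨coordSub (k := k) fun i => ¬ P i, fun g v hv => coordSub_stable _ a d g v hv, ?_⟩
    rw [hWP]
    exact isCompl_coordSub P

/-! ### Stable lines -/

/-- Cayley–Hamilton on an eigenvector, dimension two. -/
theorem eigen_root (M : Matrix (Fin 2) (Fin 2) k) (v : Fin 2 → k) (hv : v ≠ 0) (α : k)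
    (h : M.mulVec v = α • v) : α ^ 2 - M.trace * α + M.det = 0 := by
  have hCH : M * M - M.trace • M + M.det • (1 : Matrix (Fin 2) (Fin 2) k) = 0 := by
    rw [Matrix.trace_fin_two, Matrix.det_fin_two]
    ext i j
    fin_cases i <;> fin_cases j <;>
      simp [Matrix.mul_apply, Fin.sum_univ_two] <;> ring
  have h2 : (M * M - M.trace • M + M.det • (1 : Matrix (Fin 2) (Fin 2) k)).mulVec v =
      (α ^ 2 - M.trace * α + M.det) • v := by
    rw [Matrix.add_mulVec, Matrix.sub_mulVec, ← Matrix.mulVec_mulVec, h, Matrix.mulVec_smul, h,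
      Matrix.smul_mulVec, h, Matrix.smul_mulVec, Matrix.one_mulVec]
    module
  rw [hCH, Matrix.zero_mulVec] at h2
  rcases smul_eq_zero.mp h2.symm with h3 | h3
  · exact h3
  · exact absurd h3 hv

/-- **Semisimplification** in dimension two. -/
theorem exists_semisimple (r : G →* GL (Fin 2) k) :
    ∃ r' : G →* GL (Fin 2) k, IsSemisimpleRep r' ∧
      (∀ g, ((r' g : GL (Fin 2) k) : Matrix (Fin 2) (Fin 2) k).charpoly =
        ((r g : GL (Fin 2) k) : Matrix (Fin 2) (Fin 2) k).charpoly) ∧
      (∀ g, r g = 1 → r' g = 1) := by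
  classical
  by_cases hss : IsSemisimpleRep r
  · exact ⟨r, hss, fun _ => rfl, fun _ h => h⟩
  -- a stable subspace without stable complement
  unfold IsSemisimpleRep at hss
  push Not at hss
  obtain ⟨W, hW, hno⟩ := hss
  -- `W` contains a nonzero vector and is not everything
  have hWbot : W ≠ ⊥ := by
    rintro rfl
    exact hno ⊤ (fun _ _ _ => Submodule.mem_top) isCompl_bot_top
  have hWtop : W ≠ ⊤ := by
    rintro rfl
    refine hno ⊥ (fun g v hv => ?_) isCompl_top_bot
    rw [Submodule.mem_bot] at hv ⊢
    rw [hv, Matrix.mulVec_zero]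
  obtain ⟨v, hvW, hv0⟩ := Submodule.exists_mem_ne_zero_of_ne_bot hWbot
  -- `W` is the line through `v`
  have hfr : Module.finrank k W = 1 := by
    have h1 : Module.finrank k W < 2 := by
      have := Submodule.finrank_lt hWtop
      simpa using this
    have h2 : 0 < Module.finrank k W := by
      rw [Module.finrank_pos_iff_exists_ne_zero]
      exact ⟨⟨v, hvW⟩, fun h => hv0 (congrArg Subtype.val h)⟩
    omega
  have hline : ∀ w ∈ W, ∃ c : k, w = c • v := by
    intro w hw
    obtain ⟨c, hc⟩ := (finrank_eq_one_iff_of_nonzero' (⟨v, hvW⟩ : W)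
      (fun h => hv0 (congrArg Subtype.val h))).mp hfr ⟨w, hw⟩
    exact ⟨c, by simpa using (congrArg Subtype.val hc).symm⟩
  -- the character on the line
  have hα : ∀ g : G, ∃ c : k, ((r g : GL (Fin 2) k) : Matrix (Fin 2) (Fin 2) k).mulVec v = c • v :=
    fun g => hline _ (hW g v hvW)
  choose α hαv using hα
  have hα_one : α 1 = 1 := by
    have h := hαv 1
    rw [map_one, Units.val_one, Matrix.one_mulVec] at h
    have h2 : (1 - α 1) • v = 0 := by rw [sub_smul, one_smul, ← h, sub_self]
    rcases smul_eq_zero.mp h2 with h3 | h3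
    · exact (sub_eq_zero.mp h3).symm
    · exact absurd h3 hv0
  have hα_mul : ∀ g h, α (g * h) = α g * α h := by
    intro g h
    have h1 := hαv (g * h)
    rw [map_mul, Units.val_mul, ← Matrix.mulVec_mulVec, hαv h, Matrix.mulVec_smul, hαv g,
      smul_smul] at h1
    have h2 : (α h * α g - α (g * h)) • v = 0 := by rw [sub_smul, h1, sub_self]
    rcases smul_eq_zero.mp h2 with h3 | h3
    · rw [mul_comm]; exact (sub_eq_zero.mp h3).symm
    · exact absurd h3 hv0
  let αhom : G →* k := { toFun := α, map_one' := hα_one, map_mul' := hα_mul }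
  let a : G →* kˣ := αhom.toHomUnits
  have ha : ∀ g, ((a g : kˣ) : k) = α g := fun g => rfl
  let δ : G →* kˣ := (Matrix.GeneralLinearGroup.det.comp r) / a
  have hδ : ∀ g, ((δ g : kˣ) : k) =
      ((r g : GL (Fin 2) k) : Matrix (Fin 2) (Fin 2) k).det * (α g)⁻¹ := by
    intro g
    show ((Matrix.GeneralLinearGroup.det (r g) / a g : kˣ) : k) = _
    rw [Units.val_div_eq_div_val, div_eq_mul_inv, ha]
    rfl
  have hαne : ∀ g, α g ≠ 0 := fun g => by rw [← ha]; exact (a g).ne_zero
  refine ⟨diagRep a δ, isSemisimpleRep_diagRep a δ, fun g => ?_, fun g hg => ?_⟩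
  · rw [charpoly_diagRep, Matrix.charpoly_fin_two, ha, hδ]
    have hroot := eigen_root _ v hv0 (α g) (hαv g)
    have htr : α g + ((r g : GL (Fin 2) k) : Matrix (Fin 2) (Fin 2) k).det * (α g)⁻¹ =
        ((r g : GL (Fin 2) k) : Matrix (Fin 2) (Fin 2) k).trace := by
      have h : ((r g : GL (Fin 2) k) : Matrix (Fin 2) (Fin 2) k).det * (α g)⁻¹ =
          ((r g : GL (Fin 2) k) : Matrix (Fin 2) (Fin 2) k).trace - α g := by
        rw [show ((r g : GL (Fin 2) k) : Matrix (Fin 2) (Fin 2) k).det =
          (((r g : GL (Fin 2) k) : Matrix (Fin 2) (Fin 2) k).trace - α g) * α g by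
            linear_combination hroot, mul_assoc, mul_inv_cancel₀ (hαne g), mul_one]
      rw [h]; ring
    have hdet : α g * (((r g : GL (Fin 2) k) : Matrix (Fin 2) (Fin 2) k).det * (α g)⁻¹) =
        ((r g : GL (Fin 2) k) : Matrix (Fin 2) (Fin 2) k).det := by
      rw [mul_comm, mul_assoc, inv_mul_cancel₀ (hαne g), mul_one]
    rw [htr, hdet]
  · apply Units.ext
    rw [coe_diagRep, ha, hδ, hg, Units.val_one, Matrix.det_one]
    have h1 : α g = 1 := by
      have h := hαv g
      rw [hg, Units.val_one, Matrix.one_mulVec] at h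
      have h2 : (1 - α g) • v = 0 := by rw [sub_smul, one_smul, ← h, sub_self]
      rcases smul_eq_zero.mp h2 with h3 | h3
      · exact (sub_eq_zero.mp h3).symm
      · exact absurd h3 hv0
    rw [h1, inv_one, mul_one, ← Matrix.diagonal_one]
    congr 1; funext i; fin_cases i <;> simp

end Fermat.Agent.M48.SemiSimple8
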