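/-
Programme M48 (target S48, Deligne–Serre), pillar (P1) — helper8 (owner of the (P1) inventory).

**LITERAL TARGETS of (P1)**, as `Prop`s (contract types; no proofs here).  (P1) is the `Γ₁(M)` twin of
the chain behind S30/S29 (`ES.J7.Skeleton4.S30Stmt`, `S29Stmt`): two-dimensional Galois representations
attached to systems of Hecke eigenvalues occurring in `S₂(Γ₁(M))`, with the nebentypus in the
determinant.

The file is **dry** with respect to (P8)/(H) (helper1): the operators `⟨d⟩`, `T_r` on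
`CuspForm (Gamma1 M) k` enter through the specification structure `G1Ops M k`, whose fields determine
the operators uniquely (so `∀ H : G1Ops M 2, …` quantifies over a subsingleton); helper1's operators
give the instance.

* `G1Ops M k`               : `⟨d⟩` (slash by any `γ ∈ Γ₀(M)` with lower right entry `≡ d`) and
                              `T_r = U_r + (⟨r⟩ ·)∣diag(r,1)` (`r ∤ M` prime), on cusp forms;
* `G1Ops.heckeAlgebra H S`  : the `ℤ`-algebra generated by the `T_r` (`r ∤ M` prime, `r ∉ S`) and all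
                              `⟨d⟩`, inside `End_ℂ (CuspForm (Gamma1 M) k)`;
* `P1Stmt`     (P1)      : the `Γ₁` copy of `S30Stmt` (characters with values in a complete DVR);
* `P1FinStmt`  (P1-FIN)  : the Hecke algebra is commutative and finite over `ℤ` (twin of S22's
                              corollary; analytic side);
* `P1ResStmt`  (P1-RES)  : the residual corollary for `Θ : heckeAlgebra →+* k`, `k` a finite field —
                              what (RESFAM) consumes;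
* `P1EigStmt`  (P1-EIG)  : the eigenvector form ("S29 for `Γ₁`"), for a NONZERO common eigenvector
                              `g` of the `T_r` (`r ∤ M`) and `⟨d⟩` — not necessarily normalised.
-/
import Mathlib
import Fermat.Prelude.Def_ModularForm_HeckeOperator
import Fermat.Prelude.Def_GaloisRep_Adic
import Fermat.Prelude.Def_GaloisRep_Residual
import Fermat.Agent.M48.SemiSimple8

set_option autoImplicit false

open Polynomial CongruenceSubgroup
open scoped MatrixGroups ModularForm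

noncomputable section

namespace Fermat.Agent.M48.P1Target8

/-- `ℤbar ⊂ ℂ`. -/
abbrev Zbar : Type := integralClosure ℤ ℂ

/-- `Γℚ`. -/
abbrev GQ : Type := AlgebraicClosure ℚ ≃ₐ[ℚ] AlgebraicClosure ℚ

/-! ### The operators, by specification -/

/-- The diamond operators and the Hecke operators `T_r` (`r ∤ M` prime) on `CuspForm (Gamma1 M) k`,
**by specification**: the two `_spec` fields determine `diamond` and `T r` (`r ∤ M` prime) uniquely. -/
structure G1Ops (M : ℕ) [NeZero M] (k : ℤ) where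
  /-- `⟨d⟩`. -/
  diamond : (ZMod M)ˣ →* Module.End ℂ (CuspForm (Gamma1 M) k)
  /-- `⟨d⟩ f = f ∣[k] γ` for every `γ ∈ Γ₀(M)` with lower right entry `≡ d mod M`. -/
  diamond_spec : ∀ (d : (ZMod M)ˣ) (γ : SL(2, ℤ)), γ ∈ Gamma0 M → ((γ 1 1 : ℤ) : ZMod M) = d →
    ∀ f : CuspForm (Gamma1 M) k, (⇑(diamond d f) : UpperHalfPlane → ℂ) = (⇑f) ∣[k] γ
  /-- `T_r` (meaningful for `r ∤ M` prime). -/
  T : ℕ → Module.End ℂ (CuspForm (Gamma1 M) k)
  /-- `T_r f = U_r f + (⟨r⟩ f) ∣[k] diag(r, 1)` for `r ∤ M` prime. -/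
  T_spec : ∀ (r : ℕ) (hr : r.Prime) (hrM : ¬ r ∣ M) (f : CuspForm (Gamma1 M) k),
    (⇑(T r f) : UpperHalfPlane → ℂ) =
      ModularForm.heckeU k r ⇑f +
        (⇑(diamond (ZMod.unitOfCoprime r
          ((Nat.Prime.coprime_iff_not_dvd hr).mpr hrM)) f) : UpperHalfPlane → ℂ) ∣[k]
          ModularForm.heckeDiagMatrix r

namespace G1Ops

variable {M : ℕ} [NeZero M] {k : ℤ} (H : G1Ops M k) (S : Set ℕ)

/-- The generators of the `Γ₁(M)` Hecke algebra away from `S`: `T_r` (`r ∤ M` prime, `r ∉ S`) and all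
the diamond operators. -/
def heckeGenerators : Set (Module.End ℂ (CuspForm (Gamma1 M) k)) :=
  {T | ∃ r : ℕ, r.Prime ∧ ¬ r ∣ M ∧ r ∉ S ∧ T = H.T r} ∪ Set.range H.diamond

/-- The `Γ₁(M)` Hecke algebra away from `S` (twin of the Prelude's `CuspForm.heckeAlgebra`). -/
def heckeAlgebra : Subalgebra ℤ (Module.End ℂ (CuspForm (Gamma1 M) k)) :=
  Algebra.adjoin ℤ (H.heckeGenerators S)

variable {S}

/-- `T_r` as an element of the Hecke algebra. -/
def Tr {r : ℕ} (hr : r.Prime) (hrM : ¬ r ∣ M) (hrS : r ∉ S) : H.heckeAlgebra S :=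
  ⟨H.T r, Algebra.subset_adjoin (Or.inl ⟨r, hr, hrM, hrS, rfl⟩)⟩

variable (S) in
/-- `⟨d⟩` as an element of the Hecke algebra. -/
def Dd (d : (ZMod M)ˣ) : H.heckeAlgebra S :=
  ⟨H.diamond d, Algebra.subset_adjoin (Or.inr ⟨d, rfl⟩)⟩

variable (S) in
/-- `⟨r⟩` for a natural number `r` prime to `M`. -/
def Dr {r : ℕ} (hr : r.Prime) (hrM : ¬ r ∣ M) : H.heckeAlgebra S :=
  H.Dd S (ZMod.unitOfCoprime r ((Nat.Prime.coprime_iff_not_dvd hr).mpr hrM))

end G1Ops

/-! ### (P1): the `Γ₁` copy of S30 -/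

/-- **(P1)**, literal shape: the `Γ₁(M)` copy of `ES.J7.Skeleton4.S30Stmt`; the determinant of
Frobenius at `r` is `χ(⟨r⟩) · r`. -/
def P1Stmt : Prop :=
  ∀ (p : ℕ) [Fact p.Prime] (M : ℕ) [NeZero M] (H : G1Ops M 2) (S : Finset ℕ)
    (_hpS : p ∈ S) (_hMS : ∀ q : ℕ, q.Prime → q ∣ M → q ∈ S)
    (𝒪' : Type) [CommRing 𝒪'] [IsDomain 𝒪'] [IsDiscreteValuationRing 𝒪']
    [IsAdicComplete (IsLocalRing.maximalIdeal 𝒪') 𝒪'] [Finite (IsLocalRing.ResidueField 𝒪')]
    [CharZero 𝒪'] (_hp𝒪' : (p : 𝒪') ∈ IsLocalRing.maximalIdeal 𝒪')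
    (χ : H.heckeAlgebra (↑S : Set ℕ) →+* 𝒪'),
    ∃ (𝒪'' : Type) (_ : CommRing 𝒪'') (_ : IsDomain 𝒪'') (_ : IsDiscreteValuationRing 𝒪'')
      (_ : IsAdicComplete (IsLocalRing.maximalIdeal 𝒪'') 𝒪'')
      (_ : Finite (IsLocalRing.ResidueField 𝒪'')) (_ : CharZero 𝒪'')
      (_ : Algebra 𝒪' 𝒪'') (_ : Module.Finite 𝒪' 𝒪'') (_ : IsLocalHom (algebraMap 𝒪' 𝒪'')),
    Function.Injective (algebraMap 𝒪' 𝒪'') ∧
    ∃ ρ : GaloisRepAdic 𝒪'',
      (∀ (r : ℕ) (hr : r.Prime) (hrM : ¬ r ∣ M) (hrS : r ∉ (↑S : Set ℕ)),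
        ∀ A : ValuationSubring (AlgebraicClosure ℚ), A.LiesOverPrime r →
          ∀ σ : GQ, A.IsFrobeniusAt σ r →
            LinearMap.charpoly (ρ.ρ σ) =
              X ^ 2 - C (algebraMap 𝒪' 𝒪'' (χ (H.Tr hr hrM hrS))) * X
                + C (algebraMap 𝒪' 𝒪'' (χ (H.Dr (↑S : Set ℕ) hr hrM)) * (r : 𝒪''))) ∧
      (∀ q : ℕ, q.Prime → ¬ q ∣ M → q ≠ p → ρ.IsUnramifiedAt q)

/-! ### (P1-FIN): commutativity and finiteness of the Hecke algebra -/

/-- **(P1-FIN)**: the `Γ₁(M)` Hecke algebra (weight 2) is commutative and a finitely generated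
`ℤ`-module (the `Γ₁` twin of the corollary of S22: it acts faithfully on a Hecke stable lattice). -/
def P1FinStmt : Prop :=
  ∀ (M : ℕ) [NeZero M] (H : G1Ops M 2) (S : Set ℕ),
    (∀ a b : H.heckeAlgebra S, a * b = b * a) ∧ Module.Finite ℤ (H.heckeAlgebra S)

/-! ### (P1-RES): the residual corollary -/

/-- A representation on `k'²` is semisimple: every stable subspace has a stable complement
(`SemiSimple8.IsSemisimpleRep`, matrix action by `mulVec`). -/
abbrev IsSemisimpleRep {G : Type} [Group G] {k' : Type} [Field k'] (ρ : G →* GL (Fin 2) k') : Prop :=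
  SemiSimple8.IsSemisimpleRep ρ

/-- **(P1-RES)**, literal shape: for a ring homomorphism `Θ` from the `Γ₁(M)` Hecke algebra to a
finite field `k` of characteristic `p`, a semisimple `ρ̄ : Γℚ → GL₂(k')`, `k' ⊇ k` finite, of finite
level, unramified outside `Mp`, with `charpoly ρ̄(Frob_r) = X² - Θ(T_r) X + Θ(⟨r⟩) r`. -/
def P1ResStmt : Prop :=
  ∀ (p : ℕ) [Fact p.Prime] (M : ℕ) [NeZero M] (H : G1Ops M 2) (S : Finset ℕ)
    (_hpS : p ∈ S) (_hMS : ∀ q : ℕ, q.Prime → q ∣ M → q ∈ S)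
    (k : Type) [Field k] [Finite k] [CharP k p]
    (Θ : H.heckeAlgebra (↑S : Set ℕ) →+* k),
    ∃ (k' : Type) (_ : Field k') (_ : Finite k') (_ : Algebra k k')
      (ρ : GQ →* GL (Fin 2) k'),
      GaloisFactorsThroughFiniteLevel ρ ∧ IsSemisimpleRep ρ ∧
      (∀ (r : ℕ) (hr : r.Prime) (hrM : ¬ r ∣ M) (hrS : r ∉ (↑S : Set ℕ)),
        ∀ A : ValuationSubring (AlgebraicClosure ℚ), A.LiesOverPrime r →
          ∀ σ : GQ, A.IsFrobeniusAt σ r →
            ((ρ σ : GL (Fin 2) k') : Matrix (Fin 2) (Fin 2) k').charpoly =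
              X ^ 2 - C (algebraMap k k' (Θ (H.Tr hr hrM hrS))) * X
                + C (algebraMap k k' (Θ (H.Dr (↑S : Set ℕ) hr hrM)) * (r : k'))) ∧
      (∀ q : ℕ, q.Prime → ¬ q ∣ M → q ≠ p →
        ∀ A : ValuationSubring (AlgebraicClosure ℚ), A.LiesOverPrime q →
          ∀ σ ∈ A.inertiaSubgroupIn ℚ, ρ σ = 1)

/-! ### (P1-EIG): the eigenvector form ("S29 for `Γ₁`") -/

/-- `g` is a nonzero common eigenvector of the `T_r` (`r ∤ M` prime) with eigenvalues `a r` and of the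
diamond operators with eigenvalues `ψ d` (no normalisation; `a r` need not be a `q`-coefficient). -/
structure IsG1Eigen {M : ℕ} [NeZero M] {k : ℤ} (H : G1Ops M k) (g : CuspForm (Gamma1 M) k)
    (a : ℕ → ℂ) (ψ : (ZMod M)ˣ → ℂ) : Prop where
  ne_zero : g ≠ 0
  T_eq : ∀ r : ℕ, r.Prime → ¬ r ∣ M → H.T r g = a r • g
  diamond_eq : ∀ d : (ZMod M)ˣ, H.diamond d g = ψ d • g

/-- **(P1-EIG)**, literal shape ("S29 for `Γ₁`", in the Prelude's vocabulary): the eigenvalues are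
algebraic integers and for every residue map `φ : ℤbar → k` in characteristic `p` there is a residual
representation with `charpoly ρ(Frob_r) = X² - φ(a_r) X + φ(ψ(r)) r` for `r ∤ Mp`, unramified outside
`Mp`. -/
def P1EigStmt : Prop :=
  ∀ (M : ℕ) [NeZero M] (H : G1Ops M 2) (g : CuspForm (Gamma1 M) 2) (a : ℕ → ℂ) (ψ : (ZMod M)ˣ → ℂ),
    IsG1Eigen H g a ψ →
    ∀ (p : ℕ) (_ : p.Prime) (k : Type) [Field k] [CharP k p] (φ : Zbar →+* k),
    ∃ ρ : ResidualGaloisRep k,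
      (∀ (r : ℕ) (hr : r.Prime) (hrM : ¬ r ∣ M), (r : k) ≠ 0 →
        ∀ A : ValuationSubring (AlgebraicClosure ℚ), A.LiesOverPrime r →
          ∀ σ : GQ, A.IsFrobeniusAt σ r →
            ∃ (ar : Zbar) (er : Zbar), (ar : ℂ) = a r ∧
              (er : ℂ) = ψ (ZMod.unitOfCoprime r ((Nat.Prime.coprime_iff_not_dvd hr).mpr hrM)) ∧
              LinearMap.charpoly (ρ.ρ σ) = X ^ 2 - C (φ ar) * X + C (φ er * (r : k))) ∧
      ∀ ℓ : ℕ, ℓ.Prime → ¬ ℓ ∣ M * p → ρ.IsUnramifiedAt ℓ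

end Fermat.Agent.M48.P1Target8
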