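/-
Programme M48, pillar (P1), top chapter — helper8.

**THE CONTRACT between the geometric/analytic side of (P1) and its top**, and the proof that it
implies the literal target:

  `p1_of_inputs : (∀ p M H S, p ∈ S → (primes of M ⊆ S) → Nonempty (P1Inputs p M H S)) → P1Stmt`.

`P1Inputs p M H S` bundles
* the LATTICE side (helper3, [AN1]): a finite free `ℤ`-module `Λ` (= `parabolicHoms ℤ Γ₁(M) ℤ`) with
  operators `tZ r`, `dZ d` (= `addHom` of the coset operators of `T_r`, `⟨d⟩`) and **(F2)**: every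
  character of the `Γ₁(M)` Hecke algebra with values in a field of characteristic zero has a nonzero
  eigenvector in `K' ⊗ Λ`;
* the JACOBIAN side: an abelian group `J` (= `Pic⁰` of the model of `X₁(M)` over `ℚbar`) with a
  `G_ℚ`-action and endomorphisms `hecke r`, `dia d` commuting with it, **(K1)** `J[p]` finite, finite
  level on `J[pⁿ]`;
* the COMPARISON **(K2)**: `ι₀ : Λ → T_p J`, a base change `ℤ → ℤ_[p]`, intertwining `tZ`, `dZ` with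
  `hecke`, `dia` ([KUM1]: Kummer system + HeckeCompat);
* GOOD REDUCTION (consequences of **(SP1)**, [RED1]+[ESRED1]): inertia at `q ∤ Mp` is trivial on
  `J[pᵏ]`, and `σσy - hecke ℓ (σy) + ℓ • dia ℓ y = 0` on `J[pᵏ]` for Frobenius lifts at `ℓ ∤ Mp`.

Conventions (ruling R4 of report 162): `hecke ℓ = β_*α^*` (on points `[E,P] ↦ Σ_C [E/C, P+C]`),
`dia d` = push-forward by `[E,P] ↦ [E,dP]`; then the relation is D–S 8.7.2 and no twist is needed.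
-/
import Mathlib
import Fermat.Agent.M48.P1Target8
import Fermat.Agent.M48.P1Lattice8
import Fermat.Agent.ES.J.PadicAlg8

set_option autoImplicit false
set_option linter.unusedSectionVars false
set_option linter.style.haveILetI false
set_option synthInstance.maxHeartbeats 400000

open TensorProduct Polynomial CongruenceSubgroup
open scoped MatrixGroups ModularForm

noncomputable section

namespace Fermat.Agent.M48.P1Inputs8

open Fermat.Agent.M48.P1Target8 Fermat.Agent.M48.P1Skeleton8 Fermat.Agent.M48.P1Lattice8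
  Fermat.Agent.ES.J.TateModule13

local notation "Qb" => AlgebraicClosure ℚ

/-! ### Clearing denominators -/

section Clear

variable {𝒪 : Type*} [CommRing 𝒪] [IsDomain 𝒪]
variable {N : Type*} [AddCommGroup N] [Module 𝒪 N]
variable {Λ : Type*} [AddCommGroup Λ] [Module.Free ℤ Λ] [Module.Finite ℤ Λ]

/-- A simultaneous eigenvector in `K ⊗ Λ` (`K = Frac 𝒪`) gives one in any `𝒪`-module `N` which is a
base change of `Λ` (copy of `EigenNonzero9.exists_eigenvector_of_isBaseChange_aux` with the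
existence of the eigenvector over `K` as a hypothesis). -/
theorem exists_eigenvector_of_frac {ι' : Type*} (K : Type*) [Field K] [Algebra 𝒪 K]
    [IsFractionRing 𝒪 K] (ι : Λ →ₗ[ℤ] N) (hι : IsBaseChange 𝒪 ι)
    (t : ι' → Module.End ℤ Λ) (c : ι' → 𝒪) (v : K ⊗[ℤ] Λ) (hv : v ≠ 0)
    (hev : ∀ i, (t i).baseChange K v = algebraMap 𝒪 K (c i) • v) :
    ∃ w : N, w ≠ 0 ∧ ∀ (i : ι') (F : Module.End 𝒪 N), (∀ x, F (ι x) = ι (t i x)) →
      F w = c i • w := by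
  classical
  have hinj : Function.Injective (algebraMap 𝒪 K) := IsFractionRing.injective 𝒪 K
  let ιK : Λ →ₗ[ℤ] K ⊗[ℤ] Λ := TensorProduct.mk ℤ K Λ 1
  let j : N →ₗ[𝒪] K ⊗[ℤ] Λ := hι.lift ιK
  have hjι : ∀ x, j (ι x) = (1 : K) ⊗ₜ[ℤ] x := fun x => hι.lift_eq ιK x
  have hjK : IsBaseChange K j := by
    refine IsBaseChange.of_comp hι ?_
    have e : ((j : N →ₗ[𝒪] K ⊗[ℤ] Λ).restrictScalars ℤ) ∘ₗ ι = ιK := hι.lift_comp ιK
    rw [e]
    exact TensorProduct.isBaseChange ℤ Λ K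
  have hloc : IsLocalizedModule (nonZeroDivisors 𝒪) j :=
    (isLocalizedModule_iff_isBaseChange (nonZeroDivisors 𝒪) K j).mpr hjK
  have : Module.Free 𝒪 N := hι.free
  have hjinj : Function.Injective j := by
    rw [← LinearMap.ker_eq_bot, LinearMap.ker_eq_bot']
    intro m hm
    have h0 : j m = j 0 := by rw [hm, map_zero]
    obtain ⟨s, hs⟩ := (IsLocalizedModule.eq_iff_exists (nonZeroDivisors 𝒪) j).mp h0
    rw [smul_zero] at hs
    rcases smul_eq_zero.mp hs with h | h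
    · exact absurd h (nonZeroDivisors.ne_zero s.2)
    · exact h
  obtain ⟨⟨w, s⟩, hs⟩ := IsLocalizedModule.surj (nonZeroDivisors 𝒪) j v
  have hs' : (s : 𝒪) • v = j w := hs
  have hsK : algebraMap 𝒪 K (s : 𝒪) ≠ 0 := fun h =>
    nonZeroDivisors.ne_zero s.2 ((map_eq_zero_iff _ hinj).mp h)
  refine ⟨w, ?_, fun i F hF => ?_⟩
  · rintro rfl
    rw [map_zero, ← algebraMap_smul K (s : 𝒪) v] at hs'
    rcases smul_eq_zero.mp hs' with h | h
    · exact hsK h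
    · exact hv h
  · apply hjinj
    have hcomm : ∀ m, j (F m) = (t i).baseChange K (j m) := by
      have := hι.algHom_ext (j ∘ₗ F)
        ((((t i).baseChange K).restrictScalars 𝒪) ∘ₗ j) (fun x => by
          simp only [LinearMap.coe_comp, Function.comp_apply, LinearMap.coe_restrictScalars]
          rw [hF, hjι, hjι, LinearMap.baseChange_tmul])
      exact fun m => LinearMap.congr_fun this m
    rw [hcomm, map_smul j, ← hs', ← algebraMap_smul K (s : 𝒪) v, map_smul, hev i,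
      smul_comm, algebraMap_smul]

end Clear

/-! ### `⟨-1⟩ = 1` in weight two -/

theorem slash_two_neg_one (f : UpperHalfPlane → ℂ) : f ∣[(2 : ℤ)] (-1 : SL(2, ℤ)) = f := by
  ext τ
  rw [ModularForm.SL_slash_apply]
  have h1 : (-1 : SL(2, ℤ)) • τ = τ := by
    have := ModularGroup.SL_neg_smul (1 : SL(2, ℤ)) τ
    rwa [one_smul] at this
  have h2 : UpperHalfPlane.denom ((-1 : SL(2, ℤ)) : GL (Fin 2) ℝ) τ = -1 := by
    simp [UpperHalfPlane.denom]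
  rw [h1, h2]
  norm_num

theorem diamond_neg_one {M : ℕ} [NeZero M] (H : G1Ops M 2) : H.diamond (-1) = 1 := by
  refine LinearMap.ext fun f => ?_
  apply DFunLike.coe_injective
  have hmem : (-1 : SL(2, ℤ)) ∈ Gamma0 M := by
    rw [Gamma0_mem]
    simp
  have hd : (((-1 : SL(2, ℤ)) 1 1 : ℤ) : ZMod M) = ((-1 : (ZMod M)ˣ) : ZMod M) := by
    simp
  rw [H.diamond_spec (-1) (-1) hmem hd f, slash_two_neg_one]
  rfl

/-! ### The contract -/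

/-- **The inputs of the top of (P1)** for `(p, M, S)`: lattice with (F2), Jacobian with (K1), finite
level, comparison (K2), inertia and Frobenius relations on torsion. -/
structure P1Inputs (p : ℕ) [Fact p.Prime] (M : ℕ) [NeZero M] (H : G1Ops M 2) (S : Finset ℕ) where
  /-- the lattice `Λ` (parabolic cohomology with `ℤ` coefficients) -/
  Λ : Type
  [instΛ : AddCommGroup Λ]
  [freeΛ : Module.Free ℤ Λ]
  [finΛ : Module.Finite ℤ Λ]
  /-- `T_r` on `Λ` -/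
  tZ : ℕ → Module.End ℤ Λ
  /-- `⟨d⟩` on `Λ` -/
  dZ : (ZMod M)ˣ → Module.End ℤ Λ
  /-- **(F2)** -/
  eigen : ∀ (K' : Type) [Field K'] [CharZero K'] (χ : H.heckeAlgebra (↑S : Set ℕ) →+* K'),
    ∃ w : K' ⊗[ℤ] Λ, w ≠ 0 ∧
      (∀ (r : ℕ) (hr : r.Prime) (hrM : ¬ r ∣ M) (hrS : r ∉ (↑S : Set ℕ)),
        (tZ r).baseChange K' w = χ (H.Tr hr hrM hrS) • w) ∧
      (∀ d : (ZMod M)ˣ, (dZ d).baseChange K' w = χ (H.Dd (↑S : Set ℕ) d) • w)
  /-- the Jacobian `J₁(M)(ℚbar)` -/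
  J : Type
  [instJ : AddCommGroup J]
  [actJ : DistribMulAction (Qb ≃ₐ[ℚ] Qb) J]
  /-- `T_r` on `J` -/
  hecke : ℕ → J →+ J
  /-- `⟨d⟩` on `J` -/
  dia : (ZMod M)ˣ → J →+ J
  hecke_smul : ∀ (ℓ : ℕ) (σ : Qb ≃ₐ[ℚ] Qb) (y : J), hecke ℓ (σ • y) = σ • hecke ℓ y
  dia_smul : ∀ (d : (ZMod M)ˣ) (σ : Qb ≃ₐ[ℚ] Qb) (y : J), dia d (σ • y) = σ • dia d y
  /-- **(K1)** -/
  fin_torsion : {y : J | p • y = 0}.Finite
  /-- finite level on `J[pⁿ]` -/
  level : ∀ n : ℕ, ∃ L : IntermediateField ℚ Qb, FiniteDimensional ℚ L ∧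
    ∀ σ : Qb ≃ₐ[ℚ] Qb, (∀ x ∈ L, σ x = x) → ∀ y : J, p ^ n • y = 0 → σ • y = y
  /-- **(K2)** the comparison map -/
  ι₀ : Λ →ₗ[ℤ] TateModule p J
  isBaseChange_ι₀ : IsBaseChange ℤ_[p] ι₀
  ι₀_hecke : ∀ (ℓ : ℕ), ℓ.Prime → ¬ ℓ ∣ M → ∀ x : Λ,
    map (p := p) (hecke ℓ) (ι₀ x) = ι₀ (tZ ℓ x)
  ι₀_dia : ∀ (d : (ZMod M)ˣ) (x : Λ), map (p := p) (dia d) (ι₀ x) = ι₀ (dZ d x)
  /-- inertia at `q ∤ Mp` acts trivially on `J[pᵏ]` -/
  inertia : ∀ q : ℕ, q.Prime → ¬ q ∣ M → q ≠ p → ∀ A : ValuationSubring Qb, A.LiesOverPrime q →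
    ∀ τ ∈ A.inertiaSubgroupIn ℚ, ∀ (k : ℕ) (y : J), p ^ k • y = 0 → τ • y = y
  /-- Eichler–Shimura with nebentypus on `J[pᵏ]` -/
  frobenius : ∀ (ℓ : ℕ) (hℓ : ℓ.Prime) (hℓM : ¬ ℓ ∣ M), ℓ ≠ p →
    ∀ A : ValuationSubring Qb, A.LiesOverPrime ℓ → ∀ σ : Qb ≃ₐ[ℚ] Qb, A.IsFrobeniusAt σ ℓ →
      ∀ (k : ℕ) (y : J), p ^ k • y = 0 →
        σ • σ • y - hecke ℓ (σ • y) + ℓ • dia (unitAt hℓ hℓM) y = 0

attribute [instance] P1Inputs.instΛ P1Inputs.freeΛ P1Inputs.finΛ P1Inputs.instJ P1Inputs.actJ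

/-! ### The top theorem -/

section Top

variable {p : ℕ} [Fact p.Prime] {M : ℕ} [NeZero M] {H : G1Ops M 2} {S : Finset ℕ}
  {𝒪' : Type} [CommRing 𝒪'] [IsDomain 𝒪'] [IsDiscreteValuationRing 𝒪']
  [IsAdicComplete (IsLocalRing.maximalIdeal 𝒪') 𝒪'] [CharZero 𝒪']

/-- the nebentypus character of `χ`. -/
def epsOf (χ : H.heckeAlgebra (↑S : Set ℕ) →+* 𝒪') : (ZMod M)ˣ →* 𝒪'ˣ :=
  MonoidHom.toHomUnits
    { toFun := fun d => χ (H.Dd (↑S : Set ℕ) d)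
      map_one' := by
        have : H.Dd (↑S : Set ℕ) 1 = 1 := Subtype.ext (by simp [G1Ops.Dd])
        rw [this, map_one]
      map_mul' := fun d e => by
        have : H.Dd (↑S : Set ℕ) (d * e) = H.Dd (↑S : Set ℕ) d * H.Dd (↑S : Set ℕ) e :=
          Subtype.ext (by simp [G1Ops.Dd])
        rw [this, map_mul] }

theorem coe_epsOf (χ : H.heckeAlgebra (↑S : Set ℕ) →+* 𝒪') (d : (ZMod M)ˣ) :
    ((epsOf χ d : 𝒪'ˣ) : 𝒪') = χ (H.Dd (↑S : Set ℕ) d) := rfl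

theorem epsOf_neg_one (χ : H.heckeAlgebra (↑S : Set ℕ) →+* 𝒪') : epsOf χ (-1) = 1 := by
  apply Units.ext
  rw [coe_epsOf, Units.val_one]
  have : H.Dd (↑S : Set ℕ) (-1) = 1 := Subtype.ext (by simp [G1Ops.Dd, diamond_neg_one])
  rw [this, map_one]

/-- **(P1) for one `(p, M, S, 𝒪', χ)` from the inputs**, over `𝒪'` itself. -/
theorem exists_rep_of_inputs (I : P1Inputs p M H S) (hpS : p ∈ S)
    (hMS : ∀ q : ℕ, q.Prime → q ∣ M → q ∈ S)
    (hp𝒪' : (p : 𝒪') ∈ IsLocalRing.maximalIdeal 𝒪')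
    (χ : H.heckeAlgebra (↑S : Set ℕ) →+* 𝒪') :
    ∃ ρ : GaloisRepAdic 𝒪',
      (∀ (r : ℕ) (hr : r.Prime) (hrM : ¬ r ∣ M) (hrS : r ∉ (↑S : Set ℕ)),
        ∀ A : ValuationSubring Qb, A.LiesOverPrime r → ∀ σ : Qb ≃ₐ[ℚ] Qb, A.IsFrobeniusAt σ r →
          LinearMap.charpoly (ρ.ρ σ) =
            X ^ 2 - C (χ (H.Tr hr hrM hrS)) * X + C (χ (H.Dr (↑S : Set ℕ) hr hrM) * (r : 𝒪'))) ∧
      (∀ q : ℕ, q.Prime → ¬ q ∣ M → q ≠ p → ρ.IsUnramifiedAt q) := by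
  classical
  letI : Algebra ℤ_[p] 𝒪' := (Fermat.Agent.ES.J.PadicAlg8.padicToLocal p hp𝒪').toAlgebra
  -- the eigenvalues as a function of `ℕ`
  let a : ℕ → 𝒪' := fun r =>
    if h : r.Prime ∧ ¬ r ∣ M ∧ r ∉ (↑S : Set ℕ) then χ (H.Tr h.1 h.2.1 h.2.2) else 0
  have ha : ∀ (r : ℕ) (hr : r.Prime) (hrM : ¬ r ∣ M) (hrS : r ∉ (↑S : Set ℕ)),
      a r = χ (H.Tr hr hrM hrS) := fun r hr hrM hrS => dif_pos ⟨hr, hrM, hrS⟩
  -- (F2) over the fraction field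
  let K := FractionRing 𝒪'
  have hinjK : Function.Injective (algebraMap 𝒪' K) := IsFractionRing.injective 𝒪' K
  haveI : CharZero K := charZero_of_injective_algebraMap hinjK
  obtain ⟨v, hv0, hvT, hvD⟩ := I.eigen K ((algebraMap 𝒪' K).comp χ)
  -- the index family
  let ι' : Type := {ℓ : ℕ // ℓ.Prime ∧ ¬ ℓ ∣ M ∧ ℓ ∉ (↑S : Set ℕ)} ⊕ (ZMod M)ˣ
  let t : ι' → Module.End ℤ I.Λ := fun i => Sum.elim (fun ℓ => I.tZ ℓ.1) (fun d => I.dZ d) i
  let c : ι' → 𝒪' := fun i =>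
    Sum.elim (fun ℓ => χ (H.Tr ℓ.2.1 ℓ.2.2.1 ℓ.2.2.2)) (fun d => χ (H.Dd (↑S : Set ℕ) d)) i
  -- the base change `Λ → 𝒪' ⊗ T_p J`
  let g : TateModule p I.J →ₗ[ℤ_[p]] 𝒪' ⊗[ℤ_[p]] TateModule p I.J :=
    TensorProduct.mk ℤ_[p] 𝒪' (TateModule p I.J) 1
  have hg : IsBaseChange 𝒪' g := TensorProduct.isBaseChange ℤ_[p] (TateModule p I.J) 𝒪'
  have hι : IsBaseChange 𝒪' ((g.restrictScalars ℤ).comp I.ι₀) :=
    IsBaseChange.comp I.isBaseChange_ι₀ hg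
  obtain ⟨w, hw0, hw⟩ := exists_eigenvector_of_frac K ((g.restrictScalars ℤ).comp I.ι₀) hι t c v hv0
    (by
      intro i
      rcases i with ℓ | d
      · exact hvT ℓ.1 ℓ.2.1 ℓ.2.2.1 ℓ.2.2.2
      · exact hvD d)
  -- the eigen-lattice
  have hEL : EigenLattice1 p M S 𝒪' a fun ℓ hℓ hℓM => epsAt (epsOf χ) hℓ hℓM * (ℓ : 𝒪') := by
    refine eigenLattice1_of hpS hp𝒪' I.hecke I.dia I.fin_torsion I.level I.hecke_smul I.dia_smul
      I.inertia I.frobenius a (epsOf χ) w hw0 ?_ ?_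
    · intro ℓ hℓ hℓM hℓS
      rw [ha ℓ hℓ hℓM hℓS]
      refine hw (Sum.inl ⟨ℓ, hℓ, hℓM, hℓS⟩) ((map (p := p) (I.hecke ℓ)).baseChange 𝒪') fun x => ?_
      show (map (p := p) (I.hecke ℓ)).baseChange 𝒪' ((1 : 𝒪') ⊗ₜ[ℤ_[p]] I.ι₀ x) =
        (1 : 𝒪') ⊗ₜ[ℤ_[p]] I.ι₀ (I.tZ ℓ x)
      rw [LinearMap.baseChange_tmul, I.ι₀_hecke ℓ hℓ hℓM x]
    · intro d
      rw [coe_epsOf]
      refine hw (Sum.inr d) ((map (p := p) (I.dia d)).baseChange 𝒪') fun x => ?_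
      show (map (p := p) (I.dia d)).baseChange 𝒪' ((1 : 𝒪') ⊗ₜ[ℤ_[p]] I.ι₀ x) =
        (1 : 𝒪') ⊗ₜ[ℤ_[p]] I.ι₀ (I.dZ d x)
      rw [LinearMap.baseChange_tmul, I.ι₀_dia d x]
  obtain ⟨ρ, hρ1, hρ2⟩ :=
    exists_rep_of_eigenLattice1 hpS hMS hp𝒪' a (epsOf χ) (epsOf_neg_one χ) hEL
  refine ⟨ρ, fun r hr hrM hrS A hA σ hσ => ?_, hρ2⟩
  rw [hρ1 r hr hrM hrS A hA σ hσ, ha r hr hrM hrS]
  rfl

end Top

/-- **(P1) from the inputs**, in the literal shape of `P1Target8.P1Stmt`. -/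
theorem p1_of_inputs
    (hI : ∀ (p : ℕ) [Fact p.Prime] (M : ℕ) [NeZero M] (H : G1Ops M 2) (S : Finset ℕ),
      p ∈ S → (∀ q : ℕ, q.Prime → q ∣ M → q ∈ S) → Nonempty (P1Inputs p M H S)) :
    P1Stmt := by
  intro p _ M _ H S hpS hMS 𝒪' _ _ _ _ _ _ hp𝒪' χ
  obtain ⟨I⟩ := hI p M H S hpS hMS
  obtain ⟨ρ, h1, h2⟩ := exists_rep_of_inputs I hpS hMS hp𝒪' χ
  exact ⟨𝒪', inferInstance, inferInstance, inferInstance, inferInstance, inferInstance,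
    inferInstance, Algebra.id 𝒪', Module.Finite.self 𝒪', ⟨fun _ h => h⟩, Function.injective_id,
    ρ, h1, h2⟩

end Fermat.Agent.M48.P1Inputs8
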