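/-
Programme M48 (target S48), pillar (P1), chapter [DICT] for `Γ₁` (helper4): INTERFACES ONLY.

This file fixes, as literal Lean,

* the group family `Gamma10 M N = Γ₁(M) ∩ Γ₀(N)` and `pm Γ = ±Γ`;
* the MODEL of the function field of `X(Γ₁(M) ∩ Γ₀(M L))` over `ℚ` inside `ℚ((q))`:
  `fieldG10 M L = ℚ(j(q^d) : d ∣ M L;  g_{M,a}(q^e) : a ∈ (ℤ/M)ˣ, e ∣ L)`, where
  `g_{M,a} = (∑_{m ≥ 1, m ≡ ± a (M)} ∑_{d ≥ 1} d¹¹ q^{d m}) / (q ∏ (1 - qⁿ)²⁴)` is the `q`-expansion of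
  `(11!/(2π)¹²) E₁₂^{(a)} / Δ`, `E₁₂^{(a)}(z) = ∑_{(m,n) ∈ ℤ², m ≡ a (M)} (m z + n)⁻¹²`
  (`gFun M a`; an `eisW 12` of `ES/KUM/EisChar20`, so holomorphy, all `SL(2, ℤ)`-slashes and
  boundedness at all cusps are already in the tree);
* the abstract analytic input `AnModel Γ h F₀` (what an instance has to provide);
* the abstract output `Dict A` (what the consumers of [DICT] may use), in the vocabulary of
  `ES/KUM` (`ordMer`, `MerH`, `Place`), with `Γ₀(N)` replaced by `Γ` / `pm Γ`;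
* the two target statements `DictStmt` (generic) and `G10ModelStmt` (the instance).

No proofs of mathematical content here; imported by no statement.
-/
import Fermat.Agent.ES.KUM.CPoint5
import Fermat.Agent.ES.KUM.EisChar20
import Fermat.Agent.X0.Iface

set_option autoImplicit false
set_option linter.unusedSectionVars false

open UpperHalfPlane ModularCurve AlgebraicCurve
open scoped MatrixGroups

noncomputable section

namespace Fermat.Agent.M48.DictIface4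

open Fermat.Agent.X0 Fermat.Agent.X0.SurjPoint Fermat.Agent.ES.KUM

/-! ### Groups -/

/-- `±Γ`. -/
def pm (Γ : Subgroup SL(2, ℤ)) : Subgroup SL(2, ℤ) where
  carrier := {γ | γ ∈ Γ ∨ -γ ∈ Γ}
  one_mem' := Or.inl Γ.one_mem
  mul_mem' := by
    rintro a b (ha | ha) (hb | hb)
    · exact Or.inl (Γ.mul_mem ha hb)
    · exact Or.inr (by simpa using Γ.mul_mem ha hb)
    · exact Or.inr (by simpa using Γ.mul_mem ha hb)
    · exact Or.inl (by simpa using Γ.mul_mem ha hb)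
  inv_mem' := by
    rintro a (ha | ha)
    · exact Or.inl (Γ.inv_mem ha)
    · refine Or.inr ?_
      have h := Γ.inv_mem ha
      have e : (-a)⁻¹ = -a⁻¹ := by
        rw [inv_eq_iff_eq_inv, ← mul_eq_one_iff_eq_inv]
        simp
      rwa [e] at h

theorem mem_pm {Γ : Subgroup SL(2, ℤ)} {γ : SL(2, ℤ)} : γ ∈ pm Γ ↔ γ ∈ Γ ∨ -γ ∈ Γ := Iff.rfl

theorem le_pm (Γ : Subgroup SL(2, ℤ)) : Γ ≤ pm Γ := fun _ h => Or.inl h

/-- `Γ₁(M) ∩ Γ₀(N)` (used with `M ∣ N`): `Γ₁(M)` for `N = M`, `Γ₀(N)` for `M = 1`, the Hecke level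
`Γ₁(M) ∩ Γ₀(M ℓ)` for `N = M ℓ`. -/
def Gamma10 (M N : ℕ) : Subgroup SL(2, ℤ) :=
  CongruenceSubgroup.Gamma1 M ⊓ CongruenceSubgroup.Gamma0 N

/-- The number of elements of `Γ` acting trivially on `ℍ`. -/
def negOneCount (Γ : Subgroup SL(2, ℤ)) : ℕ :=
  open scoped Classical in if (-1 : SL(2, ℤ)) ∈ Γ then 2 else 1

/-! ### The formal model -/

/-- `∑_{d ∣ n} d¹¹ · #{ε ∈ {±1} : n / d ≡ ε a (mod M)}`, the `n`-th coefficient of the normalised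
weight `12` Eisenstein series `E₁₂^{(a)}` of `Γ₁(M)`. -/
def eisCoeff (M : ℕ) (a : ZMod M) (n : ℕ) : ℤ :=
  ∑ d ∈ n.divisors, (d : ℤ) ^ 11 *
    ((if ((n / d : ℕ) : ZMod M) = a then 1 else 0) + (if ((n / d : ℕ) : ZMod M) = -a then 1 else 0))

/-- `∑_{n ≥ 1} eisCoeff M a n qⁿ ∈ ℤ[[q]]`. -/
def eisPS (M : ℕ) (a : ZMod M) : PowerSeries ℤ :=
  PowerSeries.mk fun n => if n = 0 then 0 else eisCoeff M a n

/-- The formal generator `g_{M,a} = E₁₂^{(a)} / Δ ∈ ℚ((q))` (integral coefficients). -/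
def gq (M : ℕ) (a : ZMod M) : LaurentSeries ℚ :=
  HahnSeries.single (-1 : ℤ) 1 *
    HahnSeries.ofPowerSeries ℤ ℚ ((eisPS M a * dedekindEtaUnitInv).map (Int.castRingHom ℚ))

/-- The extra generators of the function field of `X(Γ₁(M) ∩ Γ₀(M L))`. -/
def gExpansions (M L : ℕ) : Set (LaurentSeries ℚ) :=
  {x | ∃ (a : (ZMod M)ˣ) (e : ℕ) (_ : NeZero e), e ∣ L ∧ x = qExpand ℚ e (gq M (a : ZMod M))}

/-- **The model**: `ℚ(X(Γ₁(M) ∩ Γ₀(M L))) = ℚ(j(q^d) : d ∣ M L; g_{M,a}(q^e) : e ∣ L) ⊂ ℚ((q))`.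
(`M = 1`: the Prelude's `modularFunctionFieldFull L` plus a redundant element of `ℚ(j)`.) -/
def fieldG10 (M L : ℕ) : IntermediateField ℚ (LaurentSeries ℚ) :=
  IntermediateField.adjoin ℚ (divisorExpansions (M * L) ∪ gExpansions M L)

theorem modularFunctionFieldFull_le_fieldG10 (M L : ℕ) :
    modularFunctionFieldFull (M * L) ≤ fieldG10 M L :=
  IntermediateField.adjoin.mono ℚ _ _ Set.subset_union_left

/-! ### The analytic generator -/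

/-- The weight function `v ↦ [v₀ ≡ a (mod M)]` on `ℤ²`. -/
def wInd (M : ℕ) (a : ZMod M) (v : Fin 2 → ℤ) : ℂ :=
  if ((v 0 : ℤ) : ZMod M) = a then 1 else 0

/-- `E₁₂^{(a)}(z) = ∑_{(m, n), m ≡ a (M)} (m z + n)⁻¹²`. -/
def eis12 (M : ℕ) (a : ZMod M) : ℍ → ℂ := EisChar20.eisW 12 (wInd M a)

/-- The analytic generator `(11!/(2π)¹²) E₁₂^{(a)} / Δ`, holomorphic on `ℍ`, invariant under
`Γ₁(M)`, with `g ∘ γ = g_{a · γ₀₀}` for `γ ∈ Γ₀(M)`. -/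
def gFun (M : ℕ) (a : ZMod M) : ℍ → ℂ := fun z =>
  ((Nat.factorial 11 : ℂ) / (2 * (Real.pi : ℂ)) ^ 12) * eis12 M a z / ModularForm.discriminant z

/-! ### Input: an analytic model of the function field of `Γ \ ℍ*` -/

/-- What an instance has to provide: the field `F = ℂ · F₀ ⊂ ℂ((q))`, a subalgebra `R` with
`Frac R = F` all of whose elements are convergent `q`-expansions of holomorphic functions on `ℍ`
which are `Γ`-invariant, meromorphic at all cusps, and SEPARATE the cosets of `±Γ`. -/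
structure AnModel (Γ : Subgroup SL(2, ℤ)) (h : ℕ) (F₀ : IntermediateField ℚ (LaurentSeries ℚ)) where
  /-- the ring of functions holomorphic on `ℍ` -/
  R : Subalgebra ℂ ↥(laurentBaseChange ℂ F₀)
  frac : IsFractionRing R ↥(laurentBaseChange ℂ F₀)
  /-- the realisation -/
  Θ : R →+* HolH
  qexp : ∀ u : R, Analytic.HasQExp ((u : ↥(laurentBaseChange ℂ F₀)) : LaurentSeries ℂ)
    ((Θ u : HolH) : ℍ → ℂ)
  /-- `j ∈ R` -/
  jR : R
  coe_jR : (((jR : R) : ↥(laurentBaseChange ℂ F₀)) : LaurentSeries ℂ) = jqModC ℂ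
  inv : ∀ (u : R) (γ : SL(2, ℤ)), γ ∈ Γ → compSL ((Θ u : HolH) : ℍ → ℂ) γ = Θ u
  sep : ∀ γ : SL(2, ℤ), (∀ u : R, compSL ((Θ u : HolH) : ℍ → ℂ) γ = Θ u) → γ ∈ pm Γ
  hpos : 0 < h
  level : CongruenceSubgroup.Gamma h ≤ Γ
  cusp : ∀ (u : R) (γ : SL(2, ℤ)), ∃ m : ℕ, IsBoundedAtImInfty
    (fun z : ℍ => ((Θ u : HolH) : ℍ → ℂ) (γ • z) * ModularForm.discriminant z ^ m)

namespace AnModel

variable {Γ : Subgroup SL(2, ℤ)} {h : ℕ} {F₀ : IntermediateField ℚ (LaurentSeries ℚ)}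

/-- The function field over `ℂ`. -/
abbrev F (_A : AnModel Γ h F₀) : Type := ↥(laurentBaseChange ℂ F₀)

/-- The formal `j`. -/
def jF (A : AnModel Γ h F₀) : A.F := (A.jR : A.F)

end AnModel

/-! ### Output: the dictionary -/

/-- The dictionary between the places of `F = ℂ · F₀` and the points and cusps of `Γ \ ℍ*`, in the
vocabulary of `ES/KUM` (`CPoint5`, `CCusp*16`, `CSurj25`, `CExact5`) and `M17` (`Dict4`,
`StabCount4`, `CuspNbhd4`, `DegCount4`).  Conventions as there: `emb g f = f ∘ g⁻¹`, the place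
`ptPlace g z` is the point `g⁻¹ z`, the place `cuspPlace g` is the cusp `g⁻¹ ∞`. -/
structure Dict {Γ : Subgroup SL(2, ℤ)} {h : ℕ} {F₀ : IntermediateField ℚ (LaurentSeries ℚ)}
    (A : AnModel Γ h F₀) where
  /-- `f ↦ f ∘ g⁻¹` as a meromorphic function on `ℍ` -/
  emb : SL(2, ℤ) → (A.F →+* MerH)
  emb_coe : ∀ (g : SL(2, ℤ)) (u : A.R),
    emb g ((u : A.R) : A.F) = algebraMap HolH MerH (compSLHom g⁻¹ (A.Θ u))
  emb_algebraMap : ∀ (g : SL(2, ℤ)) (c : ℂ),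
    emb g (algebraMap ℂ A.F c) = algebraMap HolH MerH (algebraMap ℂ HolH c)
  emb_mul_of_mem : ∀ (g γ : SL(2, ℤ)), γ ∈ pm Γ → emb (g * γ) = emb g
  emb_eq_slMer : ∀ (g : SL(2, ℤ)) (f : A.F), emb g f = slMer g⁻¹ (emb 1 f)
  /-- EXACTNESS (`Frac 𝒜(Γ) = F`, the form of `ES/KUM/RatioMem15`): a quotient `a / b` of two
  `Γ`-invariant holomorphic functions on `ℍ` with poles of finite order at all cusps is an element of
  `F`.  (Ratios of modular forms of equal weight and invariant roots reduce to this: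
  `AnRatio4.ratio_mem`, `AnRatio4.root_mem`.) -/
  mem_range_emb : ∀ (a b : HolH), b ≠ 0 →
    (∀ γ ∈ Γ, compSLHom γ a = a) → (∀ γ ∈ Γ, compSLHom γ b = b) →
    (∀ γ : SL(2, ℤ), ∃ m : ℕ, IsBoundedAtImInfty
      (fun z : ℍ => (a : ℍ → ℂ) (γ • z) * ModularForm.discriminant z ^ m)) →
    (∀ γ : SL(2, ℤ), ∃ m : ℕ, IsBoundedAtImInfty
      (fun z : ℍ => (b : ℍ → ℂ) (γ • z) * ModularForm.discriminant z ^ m)) →
    ∃ f : A.F, emb 1 f * algebraMap HolH MerH b = algebraMap HolH MerH a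
  /-- degree of `j` -/
  finrank_eq : Module.finrank (IntermediateField.adjoin ℂ {A.jF}) A.F =
    Nat.card (SL(2, ℤ) ⧸ pm Γ)
  -- points
  ptPlace : SL(2, ℤ) → ℍ → Place ℂ A.F
  ptIdx : SL(2, ℤ) → ℍ → ℕ
  ptIdx_pos : ∀ g z, 0 < ptIdx g z
  ordMer_emb : ∀ (g : SL(2, ℤ)) (z : ℍ) (f : A.F), f ≠ 0 →
    ordMer z (emb g f) = ptIdx g z * (ptPlace g z).ord f
  ptPlace_mul_of_mem : ∀ (g γ : SL(2, ℤ)), γ ∈ pm Γ → ∀ z, ptPlace (g * γ) z = ptPlace g z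
  ptPlace_smul : ∀ (σ g : SL(2, ℤ)) (z : ℍ), ptPlace (σ * g) (σ • z) = ptPlace g z
  ptIdx_mul_of_mem : ∀ (g γ : SL(2, ℤ)), γ ∈ pm Γ → ∀ z, ptIdx (g * γ) z = ptIdx g z
  ptIdx_smul : ∀ (σ g : SL(2, ℤ)) (z : ℍ), ptIdx (σ * g) (σ • z) = ptIdx g z
  ptPlace_eq_iff : ∀ z z' : ℍ, ptPlace 1 z = ptPlace 1 z' ↔ ∃ γ ∈ Γ, γ • z = z'
  card_stabilizer : ∀ z : ℍ,
    Nat.card {γ : SL(2, ℤ) // γ ∈ Γ ∧ γ • z = z} = negOneCount Γ * ptIdx 1 z
  ord_jF_sub_pos : ∀ (g : SL(2, ℤ)) (z : ℍ),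
    0 < (ptPlace g z).ord (A.jF - algebraMap ℂ A.F (jFun z))
  ptIdx_mul_ord_jF_sub : ∀ (g : SL(2, ℤ)) (z : ℍ),
    (ptIdx g z : ℤ) * (ptPlace g z).ord (A.jF - algebraMap ℂ A.F (jFun z)) = ellOrder z
  exists_ptPlace_eq : ∀ (z : ℍ) (v : Place ℂ A.F),
    0 < v.ord (A.jF - algebraMap ℂ A.F (jFun z)) → ∃ g : SL(2, ℤ), v = ptPlace g z
  -- cusps
  /-- the `q_h`-expansion of `f ∘ γ` -/
  cuspEmb : SL(2, ℤ) → (A.F →+* LaurentSeries ℂ)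
  cuspEmb_spec : ∀ (γ : SL(2, ℤ)) (u : A.R), ∃ (m : ℕ) (P : PowerSeries ℂ),
    IsQExp h (compSL ((A.Θ u : HolH) : ℍ → ℂ) γ) m P ∧ cuspEmb γ ((u : A.R) : A.F) = laurentOf m P
  cuspPlace : SL(2, ℤ) → Place ℂ A.F
  cuspIdx : SL(2, ℤ) → ℕ
  cuspIdx_pos : ∀ g, 0 < cuspIdx g
  order_cuspEmb : ∀ (g : SL(2, ℤ)) (f : A.F), f ≠ 0 →
    (cuspEmb g⁻¹ f).order = cuspIdx g * (cuspPlace g).ord f
  cuspPlace_mul_of_mem : ∀ (g γ : SL(2, ℤ)), γ ∈ pm Γ → cuspPlace (g * γ) = cuspPlace g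
  cuspPlace_T_zpow_mul : ∀ (g : SL(2, ℤ)) (k : ℤ), cuspPlace (ModularGroup.T ^ k * g) = cuspPlace g
  cuspIdx_mul_of_mem : ∀ (g γ : SL(2, ℤ)), γ ∈ pm Γ → cuspIdx (g * γ) = cuspIdx g
  cuspIdx_T_zpow_mul : ∀ (g : SL(2, ℤ)) (k : ℤ), cuspIdx (ModularGroup.T ^ k * g) = cuspIdx g
  cuspPlace_eq_iff : ∀ g g' : SL(2, ℤ), cuspPlace g = cuspPlace g' ↔
    ∃ (k : ℤ) (γ : SL(2, ℤ)), γ ∈ pm Γ ∧ g = ModularGroup.T ^ k * g' * γ
  /-- `cuspIdx g * width = h`, the width of the cusp `g⁻¹ ∞` being the least `w > 0` with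
  `g⁻¹ T^w g ∈ ±Γ` -/
  conj_T_zpow_mem_iff : ∀ (g : SL(2, ℤ)) (k : ℤ),
    g⁻¹ * ModularGroup.T ^ k * g ∈ pm Γ ↔ ((h / cuspIdx g : ℕ) : ℤ) ∣ k
  cuspIdx_dvd : ∀ g, cuspIdx g ∣ h
  ord_jF_neg : ∀ g, (cuspPlace g).ord A.jF < 0
  cuspIdx_mul_ord_jF : ∀ g, (cuspIdx g : ℤ) * (cuspPlace g).ord A.jF = -(h : ℤ)
  exists_cuspPlace_eq : ∀ v : Place ℂ A.F, v.ord A.jF < 0 → ∃ g : SL(2, ℤ), v = cuspPlace g
  ptPlace_ne_cuspPlace : ∀ (g g' : SL(2, ℤ)) (z : ℍ), ptPlace g z ≠ cuspPlace g'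

/-- **Target (generic half)**: every analytic model has a dictionary. -/
def DictStmt : Prop :=
  ∀ (Γ : Subgroup SL(2, ℤ)) (h : ℕ) (F₀ : IntermediateField ℚ (LaurentSeries ℚ))
    (A : AnModel Γ h F₀), Nonempty (Dict A)

/-- **Target (instance half)**: the model of `Γ₁(M) ∩ Γ₀(M L)`, with the generators in `R` realised
by the expected functions (`2 ≤ M`: for `M = 1` the series `E₁₂^{(a)}` has a constant term). -/
def G10ModelStmt : Prop :=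
  ∀ (M L : ℕ) [NeZero M] [NeZero L], 2 ≤ M →
    ∃ A : AnModel (Gamma10 M (M * L)) (M * L) (fieldG10 M L),
      (∀ (d : ℕ) [NeZero d], d ∣ M * L → ∃ u : A.R,
        (((u : A.R) : A.F) : LaurentSeries ℂ) = coeffEmb ℂ (qExpand ℚ d jq) ∧
        ((A.Θ u : HolH) : ℍ → ℂ) = jdFun d) ∧
      (∀ (a : (ZMod M)ˣ) (e : ℕ) [NeZero e], e ∣ L → ∃ u : A.R,
        (((u : A.R) : A.F) : LaurentSeries ℂ) = coeffEmb ℂ (qExpand ℚ e (gq M (a : ZMod M))) ∧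
        ((A.Θ u : HolH) : ℍ → ℂ) = fun z => gFun M (a : ZMod M) (scaleH e z))

end Fermat.Agent.M48.DictIface4
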