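/-
Programme M48 (target S48), pillar (P1), chapter [DICT] for `Γ₁` (helper4), generic file G1:
**the realisation of an analytic model `A : AnModel Γ h F₀` in the field `MerH` of meromorphic
functions on `ℍ`.**  Port of `ES/KUM/CReal5` (second half) from `Γ₀(N)`, `FC N`, `RC N` to an abstract
`AnModel`:

* `Θ_injective`, `Θ_algebraMap`, `Θ_jR`, `Θ_invariant` (for `γ ∈ pm Γ = ±Γ`);
* `embR A g : A.R →+* HolH`, `u ↦ Θ u ∘ g⁻¹`; `emb A g : A.F →+* MerH`; `realMer A := emb A 1`;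
* `emb_coe`, `emb_div`, `emb_algebraMap`, `emb_jF`, `emb_eq_slMer`, `slMer_realMer_of_mem`,
  `emb_mul_of_mem`.
-/
import Fermat.Agent.M48.DictIface4

set_option autoImplicit false
set_option linter.unusedSectionVars false

open UpperHalfPlane ModularCurve AlgebraicCurve
open scoped MatrixGroups

noncomputable section

namespace Fermat.Agent.M48.AnReal4

open Fermat.Agent.X0 Fermat.Agent.X0.Analytic Fermat.Agent.X0.SurjPoint Fermat.Agent.ES.KUM
open Fermat.Agent.M48.DictIface4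

variable {Γ : Subgroup SL(2, ℤ)} {h : ℕ} {F₀ : IntermediateField ℚ (LaurentSeries ℚ)}
  (A : AnModel Γ h F₀)

/-! ### Generalities -/

theorem compSL_neg (f : ℍ → ℂ) (γ : SL(2, ℤ)) : compSL f (-γ) = compSL f γ := by
  funext z
  show f ((-γ) • z) = f (γ • z)
  rw [ModularGroup.SL_neg_smul]

theorem algebraMap_coe (c : ℂ) :
    ((algebraMap ℂ A.F c : A.F) : LaurentSeries ℂ) = HahnSeries.C c := by
  have : ((algebraMap ℂ A.F c : A.F) : LaurentSeries ℂ) = algebraMap ℂ (LaurentSeries ℂ) c := rfl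
  rw [this, algebraMapC_eq_C]

instance instFrac : IsFractionRing A.R A.F := A.frac

/-! ### The realisation on `R` -/

theorem Θ_eq_of_hasQExp {u : A.R} {g : ℍ → ℂ}
    (hg : HasQExp (((u : A.R) : A.F) : LaurentSeries ℂ) g) : ((A.Θ u : HolH) : ℍ → ℂ) = g :=
  (A.qexp u).unique_right hg

theorem Θ_injective : Function.Injective A.Θ := by
  intro u w huw
  have h1 := A.qexp u
  have h2 := A.qexp w
  rw [huw] at h1
  exact Subtype.ext (Subtype.ext (h1.unique_left h2))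

theorem Θ_algebraMap (c : ℂ) :
    ((A.Θ (algebraMap ℂ A.R c) : HolH) : ℍ → ℂ) = fun _ => c := by
  apply Θ_eq_of_hasQExp
  have : (((algebraMap ℂ A.R c : A.R) : A.F) : LaurentSeries ℂ) =
      ((algebraMap ℂ A.F c : A.F) : LaurentSeries ℂ) := rfl
  rw [this, algebraMap_coe]
  exact HasQExp.const _

theorem Θ_algebraMap' (c : ℂ) : A.Θ (algebraMap ℂ A.R c) = algebraMap ℂ HolH c :=
  Subtype.ext (Θ_algebraMap A c)

theorem Θ_jR : ((A.Θ A.jR : HolH) : ℍ → ℂ) = jFun := by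
  apply Θ_eq_of_hasQExp
  rw [A.coe_jR]
  exact hasQExp_jqModC

/-- `Γ`-invariance, for `±Γ`. -/
theorem Θ_invariant (u : A.R) (γ : SL(2, ℤ)) (hγ : γ ∈ pm Γ) :
    compSL ((A.Θ u : HolH) : ℍ → ℂ) γ = A.Θ u := by
  rcases hγ with hγ | hγ
  · exact A.inv u γ hγ
  · rw [← compSL_neg]
    exact A.inv u (-γ) hγ

theorem compSLHom_Θ_of_mem (u : A.R) (γ : SL(2, ℤ)) (hγ : γ ∈ pm Γ) :
    compSLHom γ (A.Θ u) = A.Θ u :=
  Subtype.ext (Θ_invariant A u γ hγ)

/-- `q`-expansion datum in the sense of `X0/AnDefs`. -/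
theorem Θ_isQExp (u : A.R) :
    ∃ (m : ℕ) (P : PowerSeries ℂ), IsQExp 1 ((A.Θ u : HolH) : ℍ → ℂ) m P ∧
      ((((u : A.R) : A.F)) : LaurentSeries ℂ) = laurentOf m P :=
  (A.qexp u).exists_isQExp

/-! ### The embeddings `F → MerH` -/

/-- `u ↦ Θ u ∘ g⁻¹` as a ring hom `R → HolH`. -/
def embR (g : SL(2, ℤ)) : A.R →+* HolH := (compSLHom g⁻¹).comp A.Θ

theorem coe_embR (g : SL(2, ℤ)) (u : A.R) :
    ((embR A g u : HolH) : ℍ → ℂ) = compSL ((A.Θ u : HolH) : ℍ → ℂ) g⁻¹ := rfl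

theorem embR_injective (g : SL(2, ℤ)) : Function.Injective (embR A g) :=
  (compSLHom_injective g⁻¹).comp (Θ_injective A)

theorem embR_ne_zero (g : SL(2, ℤ)) {u : A.R} (hu : u ≠ 0) : embR A g u ≠ 0 :=
  fun h0 => hu (embR_injective A g (by rw [h0, map_zero]))

theorem embR_eq (g : SL(2, ℤ)) (u : A.R) : embR A g u = compSLHom g⁻¹ (A.Θ u) := rfl

theorem embR_one (u : A.R) : embR A 1 u = A.Θ u := by
  rw [embR_eq, inv_one, compSLHom_one]

/-- The embedding `F → MerH`, `u / s ↦ (Θ u ∘ g⁻¹) / (Θ s ∘ g⁻¹)`. -/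
def emb (g : SL(2, ℤ)) : A.F →+* MerH :=
  IsFractionRing.lift (A := A.R) (K := A.F)
    (g := (algebraMap HolH MerH).comp (embR A g))
    ((IsFractionRing.injective HolH MerH).comp (embR_injective A g))

theorem emb_coe (g : SL(2, ℤ)) (u : A.R) :
    emb A g ((u : A.R) : A.F) = algebraMap HolH MerH (embR A g u) :=
  IsFractionRing.lift_algebraMap _ u

theorem emb_coe' (g : SL(2, ℤ)) (u : A.R) :
    emb A g ((u : A.R) : A.F) = algebraMap HolH MerH (compSLHom g⁻¹ (A.Θ u)) :=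
  emb_coe A g u

theorem emb_div (g : SL(2, ℤ)) (u s : A.R) :
    emb A g (((u : A.R) : A.F) / ((s : A.R) : A.F)) =
      algebraMap HolH MerH (embR A g u) / algebraMap HolH MerH (embR A g s) := by
  rw [map_div₀, emb_coe, emb_coe]

theorem emb_injective (g : SL(2, ℤ)) : Function.Injective (emb A g) :=
  (emb A g).injective

theorem emb_ne_zero (g : SL(2, ℤ)) {f : A.F} (hf : f ≠ 0) : emb A g f ≠ 0 :=
  fun h0 => hf ((emb A g).injective (by rw [h0, map_zero]))

/-- Every element of `F` is a quotient of elements of `R` with nonzero denominator. -/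
theorem exists_div_ne_zero (f : A.F) :
    ∃ u s : A.R, s ≠ 0 ∧ f = ((u : A.R) : A.F) / ((s : A.R) : A.F) := by
  obtain ⟨u, s, hs, rfl⟩ := IsFractionRing.div_surjective (A := A.R) f
  exact ⟨u, s, nonZeroDivisors.ne_zero hs, rfl⟩

theorem emb_algebraMap (g : SL(2, ℤ)) (a : ℂ) :
    emb A g (algebraMap ℂ A.F a) = algebraMap HolH MerH (algebraMap ℂ HolH a) := by
  change emb A g ((algebraMap ℂ A.R a : A.R) : A.F) = _
  rw [emb_coe]
  congr 1
  apply Subtype.ext
  rw [coe_embR, Θ_algebraMap]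
  rfl

theorem emb_jF (g : SL(2, ℤ)) :
    emb A g A.jF = algebraMap HolH MerH ⟨jFun, jFun_mdifferentiable⟩ := by
  change emb A g ((A.jR : A.R) : A.F) = _
  rw [emb_coe]
  congr 1
  apply Subtype.ext
  rw [coe_embR, Θ_jR]
  funext z
  exact jFun_smul g⁻¹ z

/-- The realisation of `F` in the field of meromorphic functions on `ℍ`. -/
def realMer : A.F →+* MerH := emb A 1

theorem realMer_coe (u : A.R) :
    realMer A ((u : A.R) : A.F) = algebraMap HolH MerH (A.Θ u) := by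
  rw [realMer, emb_coe, embR_one]

/-- `emb g = (· ∘ g⁻¹) ∘ realMer`. -/
theorem emb_eq_slMer (g : SL(2, ℤ)) (f : A.F) : emb A g f = slMer g⁻¹ (realMer A f) := by
  obtain ⟨u, s, -, rfl⟩ := exists_div_ne_zero A f
  rw [emb_div, realMer, emb_div, slMer_div, embR_one, embR_one]
  rfl

/-- The realisation of `F` consists of `±Γ`-invariant functions. -/
theorem slMer_realMer_of_mem (γ : SL(2, ℤ)) (hγ : γ ∈ pm Γ) (f : A.F) :
    slMer γ (realMer A f) = realMer A f := by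
  obtain ⟨u, s, -, rfl⟩ := exists_div_ne_zero A f
  rw [map_div₀, realMer_coe, realMer_coe, slMer_div, compSLHom_Θ_of_mem A u γ hγ,
    compSLHom_Θ_of_mem A s γ hγ]

/-- `emb` only depends on the coset `g (±Γ)`. -/
theorem emb_mul_of_mem (g γ : SL(2, ℤ)) (hγ : γ ∈ pm Γ) (f : A.F) :
    emb A (g * γ) f = emb A g f := by
  rw [emb_eq_slMer, emb_eq_slMer, mul_inv_rev, slMer_mul,
    slMer_realMer_of_mem A γ⁻¹ (inv_mem hγ)]

theorem emb_mul_of_mem' (g γ : SL(2, ℤ)) (hγ : γ ∈ pm Γ) : emb A (g * γ) = emb A g :=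
  RingHom.ext (emb_mul_of_mem A g γ hγ)

theorem realMer_algebraMap (a : ℂ) :
    realMer A (algebraMap ℂ A.F a) = algebraMap HolH MerH (algebraMap ℂ HolH a) :=
  emb_algebraMap A 1 a

theorem realMer_jF : realMer A A.jF = algebraMap HolH MerH ⟨jFun, jFun_mdifferentiable⟩ :=
  emb_jF A 1

/-- `emb (σ g) = (· ∘ σ⁻¹) ∘ emb g`. -/
theorem emb_mul_left (σ g : SL(2, ℤ)) (f : A.F) : emb A (σ * g) f = slMer σ⁻¹ (emb A g f) := by
  rw [emb_eq_slMer, emb_eq_slMer A g, mul_inv_rev, slMer_mul]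

end Fermat.Agent.M48.AnReal4
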