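/-
Programme M48 (target S48), pillar (P1), chapter [DICT] for `Γ₁` (helper4), generic file G3:
**cusp expansions of an analytic model over `ℂ`, from analysis only.**

* `isQExp_of_periodic_bounded` : a holomorphic function on `ℍ`, `h`-periodic and bounded at `i∞`,
  has a `q_h`-expansion (`IsQExp h f 0 (qExpansion h f)`; Mathlib's `hasSum_qExpansion`);
* `exists_isQExp_of_mul_discriminant_pow` : the same if only `f Δ^m` is bounded at `i∞`
  (pole of finite order);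
* `exists_cuspExp` : every `Θ u ∘ γ` (`u ∈ A.R`, `γ ∈ SL(2, ℤ)`) has a `q_h`-expansion — this replaces
  the generator-by-generator analysis `X0/CuspGen` (no algebraicity of coefficients over `ℂ`);
* `cuspEmb A γ : A.F →+* ℂ((q))` and the port of `ES/KUM/CCuspExpand16` (`cuspEmb_spec`,
  `cuspEmb_eq_of_isQExp`, constants, `j`, `cuspEmb_one`, `cuspEmb_mul_left` for `δ ∈ ±Γ`, twist under
  `γ ↦ γ T`, width lemma, order forms).
-/
import Fermat.Agent.M48.AnReal4
import Fermat.Agent.ES.KUM.CCuspExpand16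
import Fermat.Agent.IG.AN.DeltaAffine11

set_option autoImplicit false
set_option linter.unusedSectionVars false

open ModularCurve HahnSeries UpperHalfPlane
open scoped Topology Manifold MatrixGroups

noncomputable section

namespace Fermat.Agent.M48.AnCuspExp4

open Fermat.Agent.X0 Fermat.Agent.ES.KUM Fermat.Agent.X0.SurjPoint
open Fermat.Agent.M48.DictIface4 Fermat.Agent.M48.AnReal4

/-! ### From periodicity and boundedness to `q_h`-expansions -/

/-- `h`-periodicity on `ℍ` gives periodicity of `f ∘ ofComplex`. -/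
theorem periodic_comp_ofComplex {h : ℕ} {f : ℍ → ℂ} (hper : ∀ z : ℍ, f (((h : ℕ) : ℝ) +ᵥ z) = f z) :
    Function.Periodic (f ∘ ofComplex) ((h : ℝ) : ℂ) := by
  intro w
  by_cases hw : 0 < Complex.im w
  · have hw' : 0 < Complex.im (w + ((h : ℝ) : ℂ)) := by simpa using hw
    simp only [Function.comp_apply, ofComplex_apply_of_im_pos hw', ofComplex_apply_of_im_pos hw]
    rw [← hper ⟨w, hw⟩]
    congr 1
    ext
    simp [add_comm]
  · have hw0 : Complex.im w ≤ 0 := not_lt.mp hw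
    have hw' : Complex.im (w + ((h : ℝ) : ℂ)) ≤ 0 := by simpa using hw0
    rw [Function.comp_apply, Function.comp_apply, ofComplex_apply_of_im_nonpos hw',
      ofComplex_apply_of_im_nonpos hw0]

/-- **(PER)** holomorphic + `h`-periodic + bounded at `i∞` ⇒ `q_h`-expansion. -/
theorem isQExp_of_periodic_bounded {h : ℕ} (hh : 0 < h) {f : ℍ → ℂ} (hf : f ∈ HolH)
    (hper : ∀ z : ℍ, f (((h : ℕ) : ℝ) +ᵥ z) = f z) (hbd : IsBoundedAtImInfty f) :
    IsQExp h f 0 (UpperHalfPlane.qExpansion (h : ℝ) f) := by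
  intro z
  have hh' : (0 : ℝ) < (h : ℝ) := by exact_mod_cast hh
  have h1 := UpperHalfPlane.hasSum_qExpansion hh' (periodic_comp_ofComplex hper) hf hbd z
  rw [pow_zero, mul_one]
  refine h1.congr_fun fun n => ?_
  rw [smul_eq_mul]
  rfl

/-- `1/Δ` has a `q_h`-expansion with a pole of order `h`. -/
theorem isQExp_discriminant_inv_level (h : ℕ) [NeZero h] :
    IsQExp h (fun z => (ModularForm.discriminant z)⁻¹) h
      ((Fermat.Agent.IG.AN.DeltaAffine11.etaUInv ℂ).expand h (NeZero.ne h)) := by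
  have h1 := (Fermat.Agent.IG.AN.DeltaAffine11.isQExp_discriminant_inv).level_mul h
  rwa [one_mul] at h1

/-- A function such that `f Δ^m` has a `q_h`-expansion has one. -/
theorem exists_isQExp_of_mul_discriminant_pow {h : ℕ} [NeZero h] {f : ℍ → ℂ} :
    ∀ (m : ℕ) {m₀ : ℕ} {P₀ : PowerSeries ℂ},
      IsQExp h (fun z => f z * ModularForm.discriminant z ^ m) m₀ P₀ →
      ∃ (m' : ℕ) (P : PowerSeries ℂ), IsQExp h f m' P
  | 0, m₀, P₀, h0 => ⟨m₀, P₀, by simpa using h0⟩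
  | (m + 1), m₀, P₀, h0 => by
      have h1 := h0.mul (isQExp_discriminant_inv_level h)
      have h2 : (fun z => f z * ModularForm.discriminant z ^ (m + 1)) *
          (fun z => (ModularForm.discriminant z)⁻¹) =
          fun z => f z * ModularForm.discriminant z ^ m := by
        funext z
        have hΔ : ModularForm.discriminant z ≠ 0 := ModularForm.discriminant_ne_zero z
        simp only [Pi.mul_apply]
        rw [pow_succ]
        field_simp
      rw [h2] at h1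
      exact exists_isQExp_of_mul_discriminant_pow m h1

theorem discriminant_vadd (n : ℕ) (z : ℍ) :
    ModularForm.discriminant (((n : ℕ) : ℝ) +ᵥ z) = ModularForm.discriminant z := by
  have h1 : (((n : ℕ) : ℝ) +ᵥ z) = (ModularGroup.T ^ (n : ℤ)) • z := by
    rw [UpperHalfPlane.modular_T_zpow_smul]
    simp
  rw [h1, discriminant_smul]
  have hden : denom (ModularGroup.T ^ (n : ℤ) : SL(2, ℤ)) z = 1 := by
    rw [ModularGroup.denom_apply]
    have e10 : (ModularGroup.T ^ (n : ℤ) : SL(2, ℤ)) 1 0 = 0 := by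
      rw [ModularGroup.coe_T_zpow]; simp
    have e11 : (ModularGroup.T ^ (n : ℤ) : SL(2, ℤ)) 1 1 = 1 := by
      rw [ModularGroup.coe_T_zpow]; simp
    rw [e10, e11]
    simp
  rw [hden, one_zpow, one_mul]

/-- holomorphic + `h`-periodic + `f Δ^m` bounded at `i∞` ⇒ `q_h`-expansion. -/
theorem exists_isQExp_of_periodic {h : ℕ} [NeZero h] {f : ℍ → ℂ} (hf : f ∈ HolH)
    (hper : ∀ z : ℍ, f (((h : ℕ) : ℝ) +ᵥ z) = f z) {m : ℕ}
    (hbd : IsBoundedAtImInfty (fun z => f z * ModularForm.discriminant z ^ m)) :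
    ∃ (m' : ℕ) (P : PowerSeries ℂ), IsQExp h f m' P := by
  have hF : (fun z => f z * ModularForm.discriminant z ^ m) ∈ HolH := by
    have hΔ : (ModularForm.discriminant : ℍ → ℂ) ∈ HolH := CuspForm.discriminant.holo'
    exact HolH.mul_mem hf (HolH.pow_mem hΔ m)
  have hperF : ∀ z : ℍ, (fun z => f z * ModularForm.discriminant z ^ m) (((h : ℕ) : ℝ) +ᵥ z) =
      (fun z => f z * ModularForm.discriminant z ^ m) z := by
    intro z
    show f _ * ModularForm.discriminant _ ^ m = _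
    rw [hper, discriminant_vadd]
  exact exists_isQExp_of_mul_discriminant_pow m
    (isQExp_of_periodic_bounded (Nat.pos_of_ne_zero (NeZero.ne h)) hF hperF hbd)

/-! ### Cusp expansions of an analytic model -/

variable {Γ : Subgroup SL(2, ℤ)} {h : ℕ} {F₀ : IntermediateField ℚ (LaurentSeries ℚ)}
  (A : AnModel Γ h F₀) (γ : SL(2, ℤ))

include A in
theorem neZero_h : NeZero h := ⟨A.hpos.ne'⟩

include A in
/-- `γ T^h γ⁻¹ ∈ Γ(h) ≤ Γ`. -/
theorem conj_T_pow_mem : γ * ModularGroup.T ^ (h : ℤ) * γ⁻¹ ∈ Γ := by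
  apply A.level
  have hT : ModularGroup.T ^ (h : ℤ) ∈ CongruenceSubgroup.Gamma h := by
    rw [CongruenceSubgroup.Gamma_mem, ModularGroup.coe_T_zpow]
    simp
  have hn : (CongruenceSubgroup.Gamma h).Normal := CongruenceSubgroup.Gamma_normal h
  exact hn.conj_mem _ hT γ

/-- `Θ u ∘ γ` is `h`-periodic. -/
theorem compSL_Θ_vadd (u : A.R) (z : ℍ) :
    compSL ((A.Θ u : HolH) : ℍ → ℂ) γ (((h : ℕ) : ℝ) +ᵥ z) =
      compSL ((A.Θ u : HolH) : ℍ → ℂ) γ z := by
  have h1 : (((h : ℕ) : ℝ) +ᵥ z) = (ModularGroup.T ^ (h : ℤ)) • z := by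
    rw [UpperHalfPlane.modular_T_zpow_smul]
    simp
  show ((A.Θ u : HolH) : ℍ → ℂ) (γ • (((h : ℕ) : ℝ) +ᵥ z)) = ((A.Θ u : HolH) : ℍ → ℂ) (γ • z)
  have h2 : γ • (((h : ℕ) : ℝ) +ᵥ z) = (γ * ModularGroup.T ^ (h : ℤ) * γ⁻¹) • (γ • z) := by
    rw [h1, ← mul_smul, ← mul_smul, inv_mul_cancel_right]
  rw [h2]
  exact congrFun (A.inv u _ (conj_T_pow_mem A γ)) (γ • z)

/-- Every `Θ u ∘ γ` has a `q_h`-expansion. -/
theorem exists_cuspExp (u : A.R) :
    ∃ (m : ℕ) (P : PowerSeries ℂ), IsQExp h (compSL ((A.Θ u : HolH) : ℍ → ℂ) γ) m P := by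
  haveI := neZero_h A
  obtain ⟨m, hm⟩ := A.cusp u γ
  exact exists_isQExp_of_periodic (compSL_mem_HolH (A.Θ u).2 γ) (compSL_Θ_vadd A γ u) hm

section Port

open Fermat.Agent.ES.KUM.CCusp16

variable {Γ : Subgroup SL(2, ℤ)} {N : ℕ} {F₀ : IntermediateField ℚ (LaurentSeries ℚ)}
  (A : AnModel Γ N F₀) (γ : SL(2, ℤ)) [NeZero N]

/-- The pole order bound chosen for `u`. -/
def expM (u : A.R) : ℕ := (exists_cuspExp A γ u).choose

/-- The power series chosen for `u`. -/
def expP (u : A.R) : PowerSeries ℂ := (exists_cuspExp A γ u).choose_spec.choose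

theorem isQExp_exp (u : A.R) :
    IsQExp N (compSL ((A.Θ u : HolH) : ℍ → ℂ) γ) (expM A γ u) (expP A γ u) :=
  (exists_cuspExp A γ u).choose_spec.choose_spec

/-- The `q_N`-expansion of `Θ u ∘ γ` as a Laurent series. -/
def cuspR (u : A.R) : LaurentSeries ℂ := laurentOf (expM A γ u) (expP A γ u)

/-- Any expansion datum computes `cuspR`. -/
theorem cuspR_eq (u : A.R) {m : ℕ} {P : PowerSeries ℂ}
    (h : IsQExp N (compSL ((A.Θ u : HolH) : ℍ → ℂ) γ) m P) : cuspR A γ u = laurentOf m P :=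
  (isQExp_exp A γ u).unique h

theorem cuspR_add (u v : A.R) : cuspR A γ (u + v) = cuspR A γ u + cuspR A γ v := by
  have h := (isQExp_exp A γ u).add (isQExp_exp A γ v)
  have h' : IsQExp N (compSL ((A.Θ (u + v) : HolH) : ℍ → ℂ) γ) (expM A γ u + expM A γ v)
      (PowerSeries.X ^ expM A γ v * expP A γ u + PowerSeries.X ^ expM A γ u * expP A γ v) := by
    rw [map_add]
    exact h
  rw [cuspR_eq A γ (u + v) h', cuspR, cuspR, laurentOf_add, laurentOf_shift]
  conv_lhs => rw [add_comm (expM A γ u) (expM A γ v), laurentOf_shift]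

theorem cuspR_mul (u v : A.R) : cuspR A γ (u * v) = cuspR A γ u * cuspR A γ v := by
  have h := (isQExp_exp A γ u).mul (isQExp_exp A γ v)
  have h' : IsQExp N (compSL ((A.Θ (u * v) : HolH) : ℍ → ℂ) γ) (expM A γ u + expM A γ v)
      (expP A γ u * expP A γ v) := by
    rw [map_mul]
    exact h
  rw [cuspR_eq A γ (u * v) h', cuspR, cuspR, laurentOf_mul]

theorem cuspR_algebraMap (c : ℂ) : cuspR A γ (algebraMap ℂ (A.R) c) = HahnSeries.C c := by
  have h : IsQExp N (compSL ((A.Θ (algebraMap ℂ A.R c) : HolH) : ℍ → ℂ) γ) 0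
      (PowerSeries.C c) := by
    rw [Θ_algebraMap A, compSL_const]
    exact isQExp_const N c
  rw [cuspR_eq A γ _ h, laurentOf_zero_left, HahnSeries.ofPowerSeries_C]

theorem cuspR_one : cuspR A γ 1 = 1 := by
  have := cuspR_algebraMap A γ 1
  rwa [map_one, map_one] at this

theorem cuspR_zero : cuspR A γ 0 = 0 := by
  have := cuspR_algebraMap A γ 0
  rwa [map_zero, map_zero] at this

/-- The expansion map on `R_ℂ` as a ring hom. -/
def cuspRHom : A.R →+* LaurentSeries ℂ where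
  toFun := cuspR A γ
  map_one' := cuspR_one A γ
  map_mul' := cuspR_mul A γ
  map_zero' := cuspR_zero A γ
  map_add' := cuspR_add A γ

@[simp] theorem cuspRHom_apply (u : A.R) : cuspRHom A γ u = cuspR A γ u := rfl

theorem cuspRHom_injective : Function.Injective (cuspRHom A γ) := by
  rw [injective_iff_map_eq_zero]
  intro u hu
  have hP := isQExp_exp A γ u
  have h0 : expP A γ u = 0 := by
    have h1 : laurentOf (expM A γ u) (expP A γ u) = 0 := hu
    rwa [laurentOf_eq_zero_iff] at h1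
  have h2 : compSL ((A.Θ u : HolH) : ℍ → ℂ) γ = 0 := hP.eq_zero_iff.mpr h0
  have h3 : ((A.Θ u : HolH) : ℍ → ℂ) = 0 := by
    funext z
    have := congrFun h2 (γ⁻¹ • z)
    simpa [compSL] using this
  apply Θ_injective A
  rw [map_zero]
  exact Subtype.ext h3

/-- **The cusp expansion** `T_γ : F_ℂ → ℂ((q_N))`. -/
def cuspEmb : A.F →+* LaurentSeries ℂ :=
  IsFractionRing.lift (A := A.R) (K := A.F) (g := cuspRHom A γ) (cuspRHom_injective A γ)

theorem cuspEmb_coe (u : A.R) : cuspEmb A γ (u : A.F) = cuspR A γ u :=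
  IsFractionRing.lift_algebraMap (A := A.R) (K := A.F) (cuspRHom_injective A γ) u

/-- `T_γ u` is computed by ANY `q_N`-expansion datum of `Θ u ∘ γ`. -/
theorem cuspEmb_eq_of_isQExp (u : A.R) {m : ℕ} {P : PowerSeries ℂ}
    (h : IsQExp N (compSL ((A.Θ u : HolH) : ℍ → ℂ) γ) m P) :
    cuspEmb A γ (u : A.F) = laurentOf m P := by
  rw [cuspEmb_coe, cuspR_eq A γ u h]

theorem cuspEmb_spec (u : A.R) :
    ∃ (m : ℕ) (P : PowerSeries ℂ), IsQExp N (compSL ((A.Θ u : HolH) : ℍ → ℂ) γ) m P ∧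
      cuspEmb A γ (u : A.F) = laurentOf m P :=
  ⟨_, _, isQExp_exp A γ u, cuspEmb_coe A γ u⟩

/-- Value on constants. -/
theorem cuspEmb_algebraMap (c : ℂ) : cuspEmb A γ (algebraMap ℂ (A.F) c) = HahnSeries.C c := by
  have : algebraMap ℂ (A.F) c = ((algebraMap ℂ (A.R) c : A.R) : A.F) := rfl
  rw [this, cuspEmb_coe, cuspR_algebraMap]

theorem cuspEmb_injective : Function.Injective (cuspEmb A γ) := (cuspEmb A γ).injective

theorem cuspEmb_ne_zero {f : A.F} (hf : f ≠ 0) : cuspEmb A γ f ≠ 0 :=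
  fun h => hf (cuspEmb_injective A γ (by rw [h, map_zero]))

/-- Two ring homs out of `F_ℂ` into a field which agree on `R_ℂ` are equal. -/
theorem ringHom_ext_R {L : Type*} [Field L] {φ ψ : A.F →+* L}
    (h : ∀ u : A.R, φ (u : A.F) = ψ (u : A.F)) : φ = ψ := by
  ext y
  obtain ⟨r, s, -, rfl⟩ := exists_div_ne_zero A y
  rw [map_div₀, map_div₀, h r, h s]

/-! ### `T_1` and the value on `j` -/

/-- `T_1 f = f(q^N)`. -/
theorem cuspEmb_one (f : A.F) :
    cuspEmb A 1 f = qExpand ℂ N ((f : A.F) : LaurentSeries ℂ) := by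
  let ψ : A.F →+* LaurentSeries ℂ :=
    (qExpand ℂ N).comp (laurentBaseChange ℂ F₀).val.toRingHom
  have hψ : ∀ f : A.F, ψ f = qExpand ℂ N ((f : A.F) : LaurentSeries ℂ) := fun f => rfl
  rw [← hψ]
  revert f
  rw [← RingHom.ext_iff]
  apply ringHom_ext_R
  intro u
  obtain ⟨m, P, hP, hu⟩ := Θ_isQExp A u
  have h1 : IsQExp N (compSL ((A.Θ u : HolH) : ℍ → ℂ) 1) (N * m)
      (P.expand N (NeZero.ne N)) := by
    rw [compSL_one]
    exact CuspGood.isQExp_level hP
  rw [cuspEmb_eq_of_isQExp A 1 u h1, hψ, hu, qExpand_laurentOf, mul_comm]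

/-- `T_γ j = j(q^N)`. -/
theorem cuspEmb_jF : cuspEmb A γ (A.jF) = qExpand ℂ N (jqModC ℂ) := by
  have hcoe : A.jF = ((A.jR : A.R) : A.F) := rfl
  have hfun : compSL ((A.Θ A.jR : HolH) : ℍ → ℂ) γ =
      compSL ((A.Θ A.jR : HolH) : ℍ → ℂ) 1 := by
    rw [Θ_jR A, compSL_one]
    funext z
    exact jFun_smul γ z
  obtain ⟨m, P, hP, hT⟩ := cuspEmb_spec A 1 (A.jR)
  rw [hcoe, cuspEmb_eq_of_isQExp A γ (A.jR) (hfun ▸ hP), ← hT, cuspEmb_one]
  congr 1
  exact A.coe_jR

/-! ### Equivariance -/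

/-- (4a) `T_{δ γ} = T_γ` for `δ ∈ Γ₀(N)`. -/
theorem cuspEmb_mul_left (δ : SL(2, ℤ)) (hδ : δ ∈ pm Γ) :
    cuspEmb A (δ * γ) = cuspEmb A γ := by
  apply ringHom_ext_R
  intro u
  obtain ⟨m, P, hP, hT⟩ := cuspEmb_spec A γ u
  rw [hT]
  apply cuspEmb_eq_of_isQExp
  have hfun : compSL ((A.Θ u : HolH) : ℍ → ℂ) (δ * γ) =
      compSL ((A.Θ u : HolH) : ℍ → ℂ) γ := by
    funext z
    simp only [compSL]
    rw [mul_smul]
    exact congrFun (Θ_invariant A u δ hδ) (γ • z)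
  rw [hfun]
  exact hP

/-- (4b) `T_{γ T} = twist ζ_N ∘ T_γ`. -/
theorem cuspEmb_mul_T :
    cuspEmb A (γ * ModularGroup.T) =
      (CuspEquiv.twist (zetaN N) (zetaN_ne_zero N)).comp (cuspEmb A γ) := by
  apply ringHom_ext_R
  intro u
  obtain ⟨m, P, hP, hT⟩ := cuspEmb_spec A γ u
  rw [RingHom.comp_apply, hT, CuspEquiv.twist_laurentOf]
  apply cuspEmb_eq_of_isQExp
  have hfun : compSL ((A.Θ u : HolH) : ℍ → ℂ) (γ * ModularGroup.T)
      = fun z => compSL ((A.Θ u : HolH) : ℍ → ℂ) γ (ModularGroup.T • z) := by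
    funext z
    simp only [compSL]
    rw [mul_smul]
  rw [hfun]
  exact isQExp_comp_TC N hP

/-- (4b), coefficientwise. -/
theorem cuspEmb_mul_T_coeff (f : A.F) (n : ℤ) :
    (cuspEmb A (γ * ModularGroup.T) f).coeff n = zetaN N ^ n * (cuspEmb A γ f).coeff n := by
  rw [cuspEmb_mul_T]
  rfl

/-- (4b) for powers of `T`. -/
theorem cuspEmb_mul_T_pow_coeff (k : ℕ) (f : A.F) (n : ℤ) :
    (cuspEmb A (γ * ModularGroup.T ^ k) f).coeff n =
      (zetaN N ^ n) ^ k * (cuspEmb A γ f).coeff n := by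
  induction k with
  | zero => simp
  | succ k ih =>
    rw [pow_succ, ← mul_assoc, cuspEmb_mul_T_coeff, ih, pow_succ]
    ring

/-- (5) WIDTH, general form. -/
theorem dvd_mul_of_coeff_ne_zero (w : ℕ)
    (h : γ * ModularGroup.T ^ w * γ⁻¹ ∈ pm Γ) (f : A.F) (n : ℤ)
    (hn : (cuspEmb A γ f).coeff n ≠ 0) : (N : ℤ) ∣ n * w := by
  have h1 : cuspEmb A (γ * ModularGroup.T ^ w) = cuspEmb A γ := by
    have := cuspEmb_mul_left A γ (γ * ModularGroup.T ^ w * γ⁻¹) h
    rwa [inv_mul_cancel_right] at this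
  have h2 := cuspEmb_mul_T_pow_coeff A γ w f n
  rw [h1] at h2
  have h3 : (zetaN N ^ n) ^ w = 1 := by
    have : ((zetaN N ^ n) ^ w - 1) * (cuspEmb A γ f).coeff n = 0 := by
      rw [sub_mul, one_mul, ← h2, sub_self]
    rcases mul_eq_zero.mp this with h' | h'
    · exact sub_eq_zero.mp h'
    · exact absurd h' hn
  rw [← zpow_natCast, ← zpow_mul] at h3
  exact ((zetaN_isPrimitiveRoot N).zpow_eq_one_iff_dvd _).mp h3

/-- (5) WIDTH: if `γ T^w γ⁻¹ ∈ Γ₀(N)` with `0 < w ∣ N`, then `T_γ f` is a series in `q_N^{N/w}`. -/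
theorem cuspEmb_width (w : ℕ) (hw : 0 < w) (hwN : w ∣ N)
    (h : γ * ModularGroup.T ^ w * γ⁻¹ ∈ pm Γ) (f : A.F) (n : ℤ)
    (hn : (cuspEmb A γ f).coeff n ≠ 0) : ((N / w : ℕ) : ℤ) ∣ n := by
  have h1 := dvd_mul_of_coeff_ne_zero A γ w h f n hn
  obtain ⟨e, he⟩ := hwN
  have hNw : N / w = e := by rw [he, Nat.mul_div_cancel_left e hw]
  rw [hNw]
  rw [he] at h1
  push_cast at h1
  have hw' : (w : ℤ) ≠ 0 := by exact_mod_cast hw.ne'
  rw [mul_comm n] at h1
  exact (mul_dvd_mul_iff_left hw').mp h1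

/-! ### order forms -/

theorem order_cuspEmb_mul_T (f : A.F) :
    (cuspEmb A (γ * ModularGroup.T) f).order = (cuspEmb A γ f).order :=
  LaurentPlace.order_eq_of_coeff_eq_mul (fun n => zetaN N ^ n)
    (fun n => zpow_ne_zero n (zetaN_ne_zero N)) (cuspEmb_mul_T_coeff A γ f)

theorem dvd_order_cuspEmb (w : ℕ) (hw : 0 < w) (hwN : w ∣ N)
    (h : γ * ModularGroup.T ^ w * γ⁻¹ ∈ pm Γ) (f : A.F) (hf : f ≠ 0) :
    ((N / w : ℕ) : ℤ) ∣ (cuspEmb A γ f).order := by
  apply cuspEmb_width A γ w hw hwN h f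
  exact fun h0 => cuspEmb_ne_zero A γ hf (HahnSeries.coeff_order_eq_zero.mp h0)

theorem order_cuspEmb_jF : (cuspEmb A γ (A.jF)).order = -(N : ℤ) := by
  rw [cuspEmb_jF]
  have hN : (0 : ℤ) < N := by exact_mod_cast Nat.pos_of_ne_zero (NeZero.ne N)
  have hm1 : (jqModC ℂ).coeff (-1) = 1 := by
    rw [← coeffEmbC_jq, coeffEmb_coeff, coeff_jq_neg_one, map_one]
  have hlt : ∀ k : ℤ, k < -1 → (jqModC ℂ).coeff k = 0 := by
    intro k hk
    rw [← coeffEmbC_jq, coeffEmb_coeff, coeff_jq_of_lt hk, map_zero]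
  have h1 : (qExpand ℂ N (jqModC ℂ)).coeff (-(N : ℤ)) = 1 := by
    have := qExpand_coeff_mul (R := ℂ) N (jqModC ℂ) (-1)
    rw [mul_neg_one] at this
    rw [this, hm1]
  have hne : qExpand ℂ N (jqModC ℂ) ≠ 0 := by
    intro h
    rw [h] at h1
    simp at h1
  apply le_antisymm
  · exact HahnSeries.order_le_of_coeff_ne_zero (by rw [h1]; exact one_ne_zero)
  · rw [HahnSeries.le_order_iff_forall hne]
    intro k hk
    by_cases hd : (N : ℤ) ∣ k
    · obtain ⟨m, rfl⟩ := hd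
      rw [qExpand_coeff_mul]
      apply hlt
      by_contra hm
      have : -1 ≤ m := not_lt.mp hm
      nlinarith
    · exact qExpand_coeff_of_not_dvd N _ hd

end Port

end Fermat.Agent.M48.AnCuspExp4
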