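/-
Programme M48 (target S48), pillar (P1), chapter [DICT] for `Γ₁` (helper4), generic file G4:
**the cusp places of an analytic model** `A : AnModel Γ N F₀`.  Port of `ES/KUM/CCuspPlaces16` from
`Γ₀(N)` to `pm Γ = ±Γ` (level `N` with `Γ(N) ≤ Γ`): with `T_γ = cuspEmb A γ : A.F →+* ℂ((q))`
(expansion of `f ∘ γ` in `q_N`),

* `cuspPlace A g : Place ℂ A.F` has order function `f ↦ (T_{g⁻¹} f).order` up to the positive index
  `cuspIdx A g`: `order_cuspEmb : (T_{g⁻¹} f).order = cuspIdx A g * (cuspPlace A g).ord f`;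
* `cuspIdx_mul_ord_jF : cuspIdx * ord j = -N`, `cuspPlace_ord_jF_neg`;
* invariances `cuspPlace_mul_right` (`g ↦ g δ`, `δ ∈ ±Γ`), `cuspPlace_T_zpow_mul`, with the indices;
* width: `dvd_cuspIdx`, `cuspPlaceX_neg_ord_jF_dvd`; coset form `cuspPlaceX`.
-/
import Fermat.Agent.M48.AnCuspExp4
import Fermat.Agent.X0.LaurentPlace
import Fermat.Agent.X0.OrbitCount

set_option autoImplicit false
set_option linter.unusedSectionVars false

open ModularCurve HahnSeries UpperHalfPlane AlgebraicCurve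
open scoped Topology Manifold MatrixGroups
open MulAction Subgroup CongruenceSubgroup

noncomputable section

namespace Fermat.Agent.M48.AnCuspPlace4

open Fermat.Agent.X0 Fermat.Agent.ES.KUM Fermat.Agent.X0.SurjPoint
open Fermat.Agent.M48.DictIface4 Fermat.Agent.M48.AnReal4 Fermat.Agent.M48.AnCuspExp4

variable {Γ : Subgroup SL(2, ℤ)} {N : ℕ} {F₀ : IntermediateField ℚ (LaurentSeries ℚ)}
  (A : AnModel Γ N F₀) [NeZero N]

include A in
/-- `T^N` acts trivially on `SL(2, ℤ) ⧸ ±Γ`, since `Γ(N) ≤ Γ`. -/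
theorem T_pow_smul (x : SL(2, ℤ) ⧸ pm Γ) : ModularGroup.T ^ N • x = x := by
  induction x using QuotientGroup.induction_on with
  | H g =>
    rw [MulAction.Quotient.smul_mk, smul_eq_mul, eq_comm, QuotientGroup.eq]
    have h := conj_T_pow_mem A g⁻¹
    rw [inv_inv, zpow_natCast] at h
    rw [← mul_assoc]
    exact le_pm Γ h

include A in
/-- The width of a cusp divides the level. -/
theorem card_orbit_T_dvd (x : SL(2, ℤ) ⧸ pm Γ) :
    Nat.card (orbit (zpowers ModularGroup.T) x) ∣ N :=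
  OrbitCount.card_orbit_zpowers_dvd (T_pow_smul A x)

theorem jF_ne_zero : A.jF ≠ 0 := by
  intro h
  have h1 := order_cuspEmb_jF A 1
  rw [h, map_zero, HahnSeries.order_zero] at h1
  have hN : (0 : ℤ) < N := by exact_mod_cast Nat.pos_of_ne_zero (NeZero.ne N)
  omega

theorem cuspEmb_nontrivial (γ : SL(2, ℤ)) : ∃ f : A.F, f ≠ 0 ∧ (cuspEmb A γ f).order ≠ 0 := by
  refine ⟨A.jF, jF_ne_zero A, ?_⟩
  rw [order_cuspEmb_jF]
  have hN : (0 : ℤ) < N := by exact_mod_cast Nat.pos_of_ne_zero (NeZero.ne N)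
  omega

theorem order_cuspEmb_mul_T_zpow (γ : SL(2, ℤ)) (k : ℤ) (f : A.F) :
    (cuspEmb A (γ * ModularGroup.T ^ k) f).order = (cuspEmb A γ f).order := by
  induction k using Int.induction_on generalizing γ with
  | zero => simp
  | succ n ih =>
    rw [zpow_add_one, ← mul_assoc, order_cuspEmb_mul_T, ih]
  | pred n ih =>
    have := order_cuspEmb_mul_T A (γ * ModularGroup.T ^ (-(n : ℤ) - 1)) f
    rw [mul_assoc, ← zpow_add_one, sub_add_cancel, ih] at this
    exact this.symm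

/-! ### The places over `∞` -/

/-- The place of `F_ℂ` attached to `g : SL(2, ℤ)`: order function `f ↦ (T_{g⁻¹} f).order`. -/
def cuspPlace (g : SL(2, ℤ)) : Place ℂ (A.F) :=
  LaurentPlace.embPlace (cuspEmb A g⁻¹) (cuspEmb_algebraMap A g⁻¹) (cuspEmb_nontrivial A g⁻¹)

theorem mem_cuspPlace_iff (g : SL(2, ℤ)) {f : A.F} (hf : f ≠ 0) :
    f ∈ (cuspPlace A g).toValuationSubring ↔ 0 ≤ (cuspEmb A g⁻¹ f).order :=
  LaurentPlace.mem_embPlace_iff _ _ _ hf

theorem exists_cuspIdx (g : SL(2, ℤ)) :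
    ∃ m : ℕ, 0 < m ∧ ∀ f : A.F, f ≠ 0 →
      (cuspEmb A g⁻¹ f).order = m * (cuspPlace A g).ord f :=
  LaurentPlace.embPlace_spec (cuspEmb A g⁻¹) (cuspEmb_algebraMap A g⁻¹)
    (cuspEmb_nontrivial A g⁻¹)

/-- The index of the cusp place: `ord_{q_N} (f ∘ g⁻¹) = cuspIdx * ord_v f`. -/
def cuspIdx (g : SL(2, ℤ)) : ℕ := (exists_cuspIdx A g).choose

theorem cuspIdx_pos (g : SL(2, ℤ)) : 0 < cuspIdx A g := (exists_cuspIdx A g).choose_spec.1

/-- **The multiplicity relation.** -/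
theorem order_cuspEmb (g : SL(2, ℤ)) {f : A.F} (hf : f ≠ 0) :
    (cuspEmb A g⁻¹ f).order = cuspIdx A g * (cuspPlace A g).ord f :=
  (exists_cuspIdx A g).choose_spec.2 f hf

theorem cuspIdx_mul_ord_jF (g : SL(2, ℤ)) :
    (cuspIdx A g : ℤ) * (cuspPlace A g).ord (A.jF) = -(N : ℤ) := by
  rw [← order_cuspEmb A g (jF_ne_zero A), order_cuspEmb_jF]

theorem eq_cuspPlace_of_spec (g : SL(2, ℤ)) (v : Place ℂ (A.F)) {m : ℕ} (hm : 0 < m)
    (h : ∀ f : A.F, f ≠ 0 → (cuspEmb A g⁻¹ f).order = m * v.ord f) : v = cuspPlace A g :=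
  LaurentPlace.eq_embPlace_of_spec _ _ _ v hm h

/-- The places `cuspPlace g` lie over `∞`. -/
theorem cuspPlace_ord_jF_neg (g : SL(2, ℤ)) : (cuspPlace A g).ord (A.jF) < 0 := by
  have h := cuspIdx_mul_ord_jF A g
  have hN : (0 : ℤ) < N := by exact_mod_cast Nat.pos_of_ne_zero (NeZero.ne N)
  have hm' : (0 : ℤ) < cuspIdx A g := by exact_mod_cast cuspIdx_pos A g
  by_contra hneg
  have h0 : 0 ≤ (cuspPlace A g).ord (A.jF) := not_lt.mp hneg
  nlinarith

/-- `cuspPlace` only depends on the coset `g Γ₀(N)`. -/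
theorem cuspPlace_mul_right (g δ : SL(2, ℤ)) (hδ : δ ∈ pm Γ) :
    cuspPlace A (g * δ) = cuspPlace A g := by
  unfold cuspPlace
  apply LaurentPlace.embPlace_eq_of_order_eq
  intro f
  rw [mul_inv_rev, cuspEmb_mul_left A g⁻¹ δ⁻¹ (inv_mem hδ)]

/-- `cuspPlace` is invariant under `g ↦ T ^ k * g`. -/
theorem cuspPlace_T_zpow_mul (g : SL(2, ℤ)) (k : ℤ) :
    cuspPlace A (ModularGroup.T ^ k * g) = cuspPlace A g := by
  unfold cuspPlace
  apply LaurentPlace.embPlace_eq_of_order_eq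
  intro f
  rw [mul_inv_rev, ← zpow_neg, order_cuspEmb_mul_T_zpow]

theorem cuspPlace_T_mul (g : SL(2, ℤ)) :
    cuspPlace A (ModularGroup.T * g) = cuspPlace A g := by
  have := cuspPlace_T_zpow_mul A g 1
  rwa [zpow_one] at this

/-- the index is determined by the place and the order function. -/
theorem cuspIdx_eq_of {g g' : SL(2, ℤ)} (hv : cuspPlace A g' = cuspPlace A g)
    (h : ∀ f : A.F, (cuspEmb A g'⁻¹ f).order = (cuspEmb A g⁻¹ f).order) :
    cuspIdx A g' = cuspIdx A g := by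
  obtain ⟨f, hf, h1⟩ := LaurentPlace.exists_ord_eq_one (cuspPlace A g)
  have e1 := order_cuspEmb A g hf
  have e2 := order_cuspEmb A g' hf
  rw [hv, h f, e1, h1, mul_one, mul_one] at e2
  exact_mod_cast e2.symm

theorem cuspIdx_mul_right (g δ : SL(2, ℤ)) (hδ : δ ∈ pm Γ) :
    cuspIdx A (g * δ) = cuspIdx A g :=
  cuspIdx_eq_of A (cuspPlace_mul_right A g δ hδ) fun f => by
    rw [mul_inv_rev, cuspEmb_mul_left A g⁻¹ δ⁻¹ (inv_mem hδ)]

theorem cuspIdx_T_zpow_mul (g : SL(2, ℤ)) (k : ℤ) :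
    cuspIdx A (ModularGroup.T ^ k * g) = cuspIdx A g :=
  cuspIdx_eq_of A (cuspPlace_T_zpow_mul A g k) fun f => by
    rw [mul_inv_rev, ← zpow_neg, order_cuspEmb_mul_T_zpow]

/-- WIDTH for the index: if `g⁻¹ T^w g ∈ Γ₀(N)` (`0 < w ∣ N`) then `N / w` divides `cuspIdx A g`. -/
theorem dvd_cuspIdx (g : SL(2, ℤ)) (w : ℕ) (hw : 0 < w) (hwN : w ∣ N)
    (h : g⁻¹ * ModularGroup.T ^ w * g⁻¹⁻¹ ∈ pm Γ) : ((N / w : ℕ) : ℤ) ∣ (cuspIdx A g : ℤ) :=
  LaurentPlace.dvd_of_forall_dvd (w := fun f => (cuspEmb A g⁻¹ f).order) (cuspPlace A g)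
    (fun _ hf => order_cuspEmb A g hf)
    (fun f hf => dvd_order_cuspEmb A g⁻¹ w hw hwN h f hf)

/-! ### coset form -/

/-- `cuspPlace` on the coset space `SL(2, ℤ) ⧸ Γ₀(N)`. -/
def cuspPlaceX (x : SL(2, ℤ) ⧸ pm Γ) : Place ℂ (A.F) :=
  Quotient.liftOn' x (cuspPlace A) (by
    intro a b hab
    rw [QuotientGroup.leftRel_apply] at hab
    have := cuspPlace_mul_right A a (a⁻¹ * b) hab
    rw [mul_inv_cancel_left] at this
    exact this.symm)

@[simp] theorem cuspPlaceX_mk (g : SL(2, ℤ)) :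
    cuspPlaceX A (QuotientGroup.mk g : SL(2, ℤ) ⧸ pm Γ) = cuspPlace A g := rfl

theorem cuspPlaceX_smul_zpowers_T (h : zpowers ModularGroup.T) (x : SL(2, ℤ) ⧸ pm Γ) :
    cuspPlaceX A (h • x) = cuspPlaceX A x := by
  obtain ⟨h, k, rfl⟩ := h
  induction x using QuotientGroup.induction_on with
  | H g =>
    show cuspPlaceX A ((ModularGroup.T ^ k) • (QuotientGroup.mk g : SL(2, ℤ) ⧸ pm Γ)) = _
    rw [MulAction.Quotient.smul_mk, cuspPlaceX_mk, cuspPlaceX_mk, smul_eq_mul,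
      cuspPlace_T_zpow_mul]

theorem cuspPlaceX_ord_jF_neg (x : SL(2, ℤ) ⧸ pm Γ) : (cuspPlaceX A x).ord (A.jF) < 0 := by
  induction x using QuotientGroup.induction_on with
  | H g => exact cuspPlace_ord_jF_neg A g

/-- WIDTH: the ramification index `-ord_v j` of `cuspPlaceX x` divides the size of the
`⟨T⟩`-orbit of `x`. -/
theorem cuspPlaceX_neg_ord_jF_dvd (x : SL(2, ℤ) ⧸ pm Γ) :
    -(cuspPlaceX A x).ord (A.jF) ∣ (Nat.card (orbit (zpowers ModularGroup.T) x) : ℤ) := by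
  induction x using QuotientGroup.induction_on with
  | H g =>
    set x : SL(2, ℤ) ⧸ pm Γ := QuotientGroup.mk g with hx
    set w : ℕ := Nat.card (orbit (zpowers ModularGroup.T) x) with hw
    have hwN : w ∣ N := card_orbit_T_dvd A x
    have hN0 : N ≠ 0 := NeZero.ne N
    have hw0 : 0 < w :=
      Nat.pos_of_ne_zero (fun h => hN0 (by rw [h] at hwN; exact zero_dvd_iff.mp hwN))
    have hper : ModularGroup.T ^ w • x = x := by
      rw [pow_smul_eq_iff_minimalPeriod_dvd, ← OrbitCount.card_orbit_zpowers]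
      exact dvd_of_eq hw.symm
    have hmem : g⁻¹ * ModularGroup.T ^ w * g⁻¹⁻¹ ∈ pm Γ := by
      rw [hx, MulAction.Quotient.smul_mk, smul_eq_mul] at hper
      have := QuotientGroup.eq.mp hper.symm
      rw [inv_inv, mul_assoc]
      exact this
    have hj := cuspIdx_mul_ord_jF A g
    obtain ⟨t, ht⟩ := dvd_cuspIdx A g w hw0 hwN hmem
    have hNw : ((N / w : ℕ) : ℤ) * w = N := by
      exact_mod_cast Nat.div_mul_cancel hwN
    have hNw0 : ((N / w : ℕ) : ℤ) ≠ 0 := by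
      intro h
      rw [h, zero_mul] at hNw
      exact hN0 (by exact_mod_cast hNw.symm)
    rw [cuspPlaceX_mk]
    refine ⟨t, ?_⟩
    have : ((N / w : ℕ) : ℤ) * (w : ℤ) =
        ((N / w : ℕ) : ℤ) * (-(cuspPlace A g).ord (A.jF) * t) := by
      rw [hNw]
      rw [ht] at hj
      linear_combination hj
    exact mul_left_cancel₀ hNw0 this

theorem cuspPlaceX_neg_ord_jF_le (x : SL(2, ℤ) ⧸ pm Γ) :
    -(cuspPlaceX A x).ord (A.jF) ≤ (Nat.card (orbit (zpowers ModularGroup.T) x) : ℤ) := by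
  have hpos : (0 : ℤ) < (Nat.card (orbit (zpowers ModularGroup.T) x) : ℤ) := by
    have hwN : Nat.card (orbit (zpowers ModularGroup.T) x) ∣ N := card_orbit_T_dvd A x
    have hN0 : N ≠ 0 := NeZero.ne N
    have : Nat.card (orbit (zpowers ModularGroup.T) x) ≠ 0 := fun h =>
      hN0 (by rw [h] at hwN; exact zero_dvd_iff.mp hwN)
    exact_mod_cast Nat.pos_of_ne_zero this
  exact Int.le_of_dvd hpos (cuspPlaceX_neg_ord_jF_dvd A x)

end Fermat.Agent.M48.AnCuspPlace4
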