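/-
Programme M48 (target S48), pillar (P1), chapter [DICT] for `Γ₁` (helper4), file G5:
**the degree `[F : ℂ(j)] = #(SL(2, ℤ) ⧸ ±Γ)`** for an abstract analytic model `A : AnModel Γ N F₀`,
the classification of the embeddings of `F` over `ℂ(j)`, and the norm and trace formulas.

Instantiates `X0/AbsDegree.main` with `X = SL(2, ℤ) ⧸ ±Γ`, `T x = cuspEmb A (rep x)⁻¹`:
* HYP1 (agreement on `ℂ(j)`): `cuspEmb_algebraMap`, `cuspEmb_jF`;
* HYP2 (integrality): the `ℂ`-version `intg_coreC` of `X0/Integrality.intg_core` (no rationality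
  part): symmetric functions of the conjugates `Θ u ∘ (rep x)⁻¹` are `SL(2, ℤ)`-invariant,
  holomorphic, with a pole of finite order at `∞`, hence polynomials in `j`;
* HYP3 (distinctness): `A.sep`.
-/
import Fermat.Agent.M48.AnCuspPlace4
import Fermat.Agent.X0.AbsDegree
import Fermat.Agent.X0.Integrality
import Fermat.Agent.X0.FFDefs
import Fermat.Agent.IG.VAL.OvBasics22

set_option autoImplicit false
set_option linter.unusedSectionVars false
set_option linter.style.haveILetI false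

open ModularCurve HahnSeries UpperHalfPlane AlgebraicCurve
open scoped Topology Manifold MatrixGroups IntermediateField
open MulAction Subgroup CongruenceSubgroup

noncomputable section

namespace Fermat.Agent.M48.AnDegree4

open Fermat.Agent.X0 Fermat.Agent.ES.KUM Fermat.Agent.X0.SurjPoint
open Fermat.Agent.M48.DictIface4 Fermat.Agent.M48.AnReal4 Fermat.Agent.M48.AnCuspExp4
open Fermat.Agent.M48.AnCuspPlace4
open Fermat.Agent.X0.Analytic Fermat.Agent.X0.JQExp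
open scoped Polynomial

/-! ### Integrality over `ℂ` -/

/-- Pairs of a holomorphic function and a Laurent series over `ℂ` which is its `q_N`-expansion. -/
def pairsC (N : ℕ) [NeZero N] : Subring ((ℍ → ℂ) × LaurentSeries ℂ) where
  carrier := {a | a.1 ∈ HolH ∧ IntgQN N a.1 a.2}
  mul_mem' := by
    rintro a b ⟨ha1, ha2⟩ ⟨hb1, hb2⟩
    exact ⟨HolH.mul_mem ha1 hb1, intg_qn_mul N ha2 hb2⟩
  one_mem' := by
    refine ⟨HolH.one_mem, ?_⟩
    show IntgQN N (1 : ℍ → ℂ) (1 : LaurentSeries ℂ)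
    have := intg_qn_const N 1
    rwa [map_one] at this
  add_mem' := by
    rintro a b ⟨ha1, ha2⟩ ⟨hb1, hb2⟩
    exact ⟨HolH.add_mem ha1 hb1, intg_qn_add N ha2 hb2⟩
  zero_mem' := by
    refine ⟨HolH.zero_mem, ?_⟩
    show IntgQN N (0 : ℍ → ℂ) (0 : LaurentSeries ℂ)
    have := intg_qn_const N 0
    rwa [map_zero] at this
  neg_mem' := by
    rintro a ⟨ha1, ha2⟩
    refine ⟨HolH.neg_mem ha1, ?_⟩
    show IntgQN N (-a.1) (-a.2)
    have := intg_qn_mul N (intg_qn_const N (-1)) ha2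
    have hfun : (fun _ : ℍ => (-1 : ℂ)) * a.1 = -a.1 := by
      funext z
      simp
    have e : HahnSeries.C (-1 : ℂ) * a.2 = -a.2 := by
      rw [map_neg, map_one, neg_mul, one_mul]
    rwa [hfun, e] at this

/-- **Integrality over `ℂ`, abstract form.** A finite family of holomorphic functions `g x` on `ℍ`,
permuted by `SL(2,ℤ)`, with `q_N`-expansions `T x`: the coefficients of `∏ (X - T x)` are
polynomials in `j(q_N^N)`, and these polynomials evaluated at `j` are the coefficients of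
`∏ (X - g x z)`. -/
theorem intg_coreC (N : ℕ) [NeZero N] {ι : Type*} [Fintype ι] (g : ι → ℍ → ℂ)
    (T : ι → LaurentSeries ℂ) (hhol : ∀ x, g x ∈ HolH)
    (hexp : ∀ x, IntgQN N (g x) (T x))
    (hperm : ∀ δ : SL(2, ℤ), ∃ σ : Equiv.Perm ι, ∀ x z, g x (δ • z) = g (σ x) z) (k : ℕ) :
    ∃ P : ℂ[X], (∏ x, (Polynomial.X - Polynomial.C (T x))).coeff k
        = Polynomial.aeval (qExpand ℂ N (jqModC ℂ)) P ∧
      ∀ z, P.eval (jFun z) = (∏ x, (Polynomial.X - Polynomial.C (g x z))).coeff k := by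
  classical
  let a : ι → pairsC N := fun x => ⟨(g x, T x), hhol x, hexp x⟩
  let Q : (pairsC N)[X] := ∏ x, (Polynomial.X - Polynomial.C (a x))
  let ck : (ℍ → ℂ) × LaurentSeries ℂ := (Q.coeff k : pairsC N)
  have hck : ck.1 ∈ HolH ∧ IntgQN N ck.1 ck.2 := (Q.coeff k).2
  have hsnd : ck.2 = (∏ x, (Polynomial.X - Polynomial.C (T x))).coeff k := by
    let φ : pairsC N →+* LaurentSeries ℂ :=
      (RingHom.snd (ℍ → ℂ) (LaurentSeries ℂ)).comp (pairsC N).subtype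
    have : (Q.map φ) = ∏ x, (Polynomial.X - Polynomial.C (T x)) := by
      simp only [Q, Polynomial.map_prod, Polynomial.map_sub, Polynomial.map_X, Polynomial.map_C]
      rfl
    rw [← this, Polynomial.coeff_map]
    rfl
  have hfst : ∀ z, ck.1 z = (∏ x, (Polynomial.X - Polynomial.C (g x z))).coeff k := by
    intro z
    let φ : pairsC N →+* ℂ :=
      (Pi.evalRingHom (fun _ : ℍ => ℂ) z).comp
        ((RingHom.fst (ℍ → ℂ) (LaurentSeries ℂ)).comp (pairsC N).subtype)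
    have : (Q.map φ) = ∏ x, (Polynomial.X - Polynomial.C (g x z)) := by
      simp only [Q, Polynomial.map_prod, Polynomial.map_sub, Polynomial.map_X, Polynomial.map_C]
      rfl
    rw [← this, Polynomial.coeff_map]
    rfl
  have hinv : ∀ (δ : SL(2, ℤ)) (z : ℍ), ck.1 (δ • z) = ck.1 z := by
    intro δ z
    obtain ⟨σ, hσ⟩ := hperm δ
    rw [hfst, hfst]
    congr 1
    rw [← Equiv.prod_comp σ (fun x => (Polynomial.X - Polynomial.C (g x z) : ℂ[X]))]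
    refine Finset.prod_congr rfl fun x _ => ?_
    rw [hσ]
  obtain ⟨M, hM⟩ := intg_qn_bounded N hck.2
  obtain ⟨P, -, hP⟩ := exists_polynomial_jFun (mem_HolH.mp hck.1) hinv M hM
  have hPexp : IntgQN N ck.1 (Polynomial.aeval (qExpand ℂ N (jqModC ℂ)) P) := by
    have := intg_qn_eval_jFun N P
    have hfun : (fun z => P.eval (jFun z)) = ck.1 := funext fun z => (hP z).symm
    rwa [hfun] at this
  have heq : Polynomial.aeval (qExpand ℂ N (jqModC ℂ)) P = ck.2 := intg_qn_unique N hPexp hck.2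
  exact ⟨P, by rw [← hsnd, heq], fun z => by rw [← hP, hfst]⟩

/-! ### The cusp expansion maps on `ℂ(j)` -/

section Model

variable {Γ : Subgroup SL(2, ℤ)} {N : ℕ} {F₀ : IntermediateField ℚ (LaurentSeries ℚ)}
  (A : AnModel Γ N F₀) [NeZero N]

/-- `ℂ(j) ⊆ F`. -/
abbrev Kj : IntermediateField ℂ A.F := ℂ⟮A.jF⟯

/-- `cuspEmb A γ u` is the `q_N`-expansion of `Θ u ∘ γ`. -/
theorem cuspEmb_qn (γ : SL(2, ℤ)) (u : A.R) :
    IntgQN N (compSL ((A.Θ u : HolH) : ℍ → ℂ) γ) (cuspEmb A γ (u : A.F)) := by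
  obtain ⟨m, P, hP, hT⟩ := cuspEmb_spec A γ u
  rw [hT]
  exact intg_qn_of_isQExp N hP

theorem cuspEmb_algebraMap' (γ : SL(2, ℤ)) (c : ℂ) :
    cuspEmb A γ (algebraMap ℂ A.F c) = algebraMap ℂ (LaurentSeries ℂ) c := by
  rw [cuspEmb_algebraMap, lor_algebraMap_eq_single]
  rfl

/-- `cuspEmb A γ` on polynomials in `j`. -/
theorem cuspEmb_aeval_jF (γ : SL(2, ℤ)) (P : ℂ[X]) :
    cuspEmb A γ (Polynomial.aeval A.jF P) = Polynomial.aeval (qExpand ℂ N (jqModC ℂ)) P := by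
  rw [Polynomial.aeval_def, Polynomial.aeval_def, Polynomial.hom_eval₂, cuspEmb_jF]
  congr 1
  refine RingHom.ext fun c => ?_
  exact cuspEmb_algebraMap' A γ c

/-- The subfield of `F` on which two ring homs agree, as an intermediate field when they agree
on constants. -/
def eqLocusIF {L : Type*} [Field L] (f g : A.F →+* L)
    (h : ∀ c : ℂ, f (algebraMap ℂ A.F c) = g (algebraMap ℂ A.F c)) :
    IntermediateField ℂ A.F :=
  { RingHom.eqLocusField f g with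
    algebraMap_mem' := fun c => h c }

/-- Two cusp expansion maps agree on `ℂ(j)`. -/
theorem cuspEmb_eq_on_Kj (γ γ' : SL(2, ℤ)) (a : Kj A) :
    cuspEmb A γ (a : A.F) = cuspEmb A γ' (a : A.F) := by
  have hc : ∀ c : ℂ, cuspEmb A γ (algebraMap ℂ A.F c) = cuspEmb A γ' (algebraMap ℂ A.F c) :=
    fun c => by rw [cuspEmb_algebraMap, cuspEmb_algebraMap]
  have hle : Kj A ≤ eqLocusIF A (cuspEmb A γ) (cuspEmb A γ') hc := by
    rw [IntermediateField.adjoin_le_iff]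
    intro x hx
    rw [Set.mem_singleton_iff] at hx
    subst hx
    show cuspEmb A γ A.jF = cuspEmb A γ' A.jF
    rw [cuspEmb_jF, cuspEmb_jF]
  exact hle a.2

/-! ### Distinctness -/

/-- DISTINCT, analytic form: if all `Θ u ∘ γ = Θ u ∘ γ'` then `γ γ'⁻¹ ∈ ±Γ`. -/
theorem mem_pm_of_compSL_eq (γ γ' : SL(2, ℤ))
    (h : ∀ u : A.R, compSL ((A.Θ u : HolH) : ℍ → ℂ) γ = compSL ((A.Θ u : HolH) : ℍ → ℂ) γ') :
    γ * γ'⁻¹ ∈ pm Γ := by
  apply A.sep
  intro u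
  funext z
  have := congrFun (h u) (γ'⁻¹ • z)
  simp only [compSL] at this ⊢
  rw [mul_smul, this, smul_inv_smul]

/-- DISTINCT: if `cuspEmb A γ = cuspEmb A γ'` then `γ γ'⁻¹ ∈ ±Γ`. -/
theorem mem_pm_of_cuspEmb_eq (γ γ' : SL(2, ℤ)) (h : cuspEmb A γ = cuspEmb A γ') :
    γ * γ'⁻¹ ∈ pm Γ := by
  apply mem_pm_of_compSL_eq A
  intro u
  have h1 := cuspEmb_qn A γ u
  rw [h] at h1
  exact intg_qn_unique_right N h1 (cuspEmb_qn A γ' u)

/-! ### The quotient `SL(2, ℤ) ⧸ ±Γ` -/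

include A in
theorem finiteIndex_pm : (pm Γ).FiniteIndex :=
  Subgroup.finiteIndex_of_le (H := CongruenceSubgroup.Gamma N) (A.level.trans (le_pm Γ))

include A in
theorem finite_quotient : Finite (SL(2, ℤ) ⧸ pm Γ) := by
  haveI := finiteIndex_pm A
  exact Subgroup.finite_quotient_of_finiteIndex

/-- The canonical section `Quotient.out`. -/
def rep (x : SL(2, ℤ) ⧸ pm Γ) : SL(2, ℤ) := Quotient.out x

theorem rep_spec (x : SL(2, ℤ) ⧸ pm Γ) : (rep x : SL(2, ℤ) ⧸ pm Γ) = x :=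
  QuotientGroup.out_eq' x

section Rep

variable (rep : SL(2, ℤ) ⧸ pm Γ → SL(2, ℤ)) (hrep : ∀ x, (rep x : SL(2, ℤ) ⧸ pm Γ) = x)

/-- The family of embeddings `x ↦ cuspEmb A (rep x)⁻¹`. -/
def Tx (x : SL(2, ℤ) ⧸ pm Γ) : A.F →+* LaurentSeries ℂ := cuspEmb A (rep x)⁻¹

theorem Tx_apply (x : SL(2, ℤ) ⧸ pm Γ) (f : A.F) : Tx A rep x f = cuspEmb A (rep x)⁻¹ f := rfl

include hrep in
/-- **HYP3**. -/
theorem Tx_injective : Function.Injective (Tx A rep) := by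
  intro x y h
  have hmem := mem_pm_of_cuspEmb_eq A (rep x)⁻¹ (rep y)⁻¹ h
  rw [inv_inv] at hmem
  have := QuotientGroup.eq.mpr hmem
  rw [hrep, hrep] at this
  exact this

/-- **HYP1**. -/
theorem Tx_agree (x x₀ : SL(2, ℤ) ⧸ pm Γ) (a : Kj A) :
    Tx A rep x (a : A.F) = Tx A rep x₀ (a : A.F) :=
  cuspEmb_eq_on_Kj A _ _ a

include hrep in
/-- The permutation of the cosets induced by `δ ∈ SL(2,ℤ)`. -/
theorem coset_perm (u : A.R) (δ : SL(2, ℤ)) :
    ∃ σ : Equiv.Perm (SL(2, ℤ) ⧸ pm Γ), ∀ x z,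
      compSL ((A.Θ u : HolH) : ℍ → ℂ) (rep x)⁻¹ (δ • z) =
        compSL ((A.Θ u : HolH) : ℍ → ℂ) (rep (σ x))⁻¹ z := by
  refine ⟨MulAction.toPerm δ⁻¹, fun x z => ?_⟩
  set a := rep x with ha
  set b := rep ((MulAction.toPerm δ⁻¹ : Equiv.Perm _) x) with hb
  have hcoset : ((b : SL(2, ℤ)) : SL(2, ℤ) ⧸ pm Γ)
      = ((δ⁻¹ * a : SL(2, ℤ)) : SL(2, ℤ) ⧸ pm Γ) := by
    rw [hb, hrep, MulAction.toPerm_apply]
    conv_lhs => rw [← hrep x]
    rfl
  have hmem : b⁻¹ * (δ⁻¹ * a) ∈ pm Γ := QuotientGroup.eq.mp hcoset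
  have hmem' : (b⁻¹ * (δ⁻¹ * a))⁻¹ ∈ pm Γ := inv_mem hmem
  have hinv := Θ_invariant A u _ hmem'
  show ((A.Θ u : HolH) : ℍ → ℂ) (a⁻¹ • δ • z) = ((A.Θ u : HolH) : ℍ → ℂ) (b⁻¹ • z)
  have h1 : a⁻¹ • δ • z = (b⁻¹ * (δ⁻¹ * a))⁻¹ • (b⁻¹ • z) := by
    rw [← mul_smul, ← mul_smul]
    congr 1
    group
  rw [h1]
  exact congrFun hinv (b⁻¹ • z)

include hrep in
/-- **INTEGRALITY**. For `u ∈ R` the coefficients of `∏_x (X - T_{(rep x)⁻¹} u)`,
`x ∈ SL(2,ℤ)/±Γ`, are of the form `T_γ (P(j))`, `P ∈ ℂ[X]`; analytically `P(j(z))` is the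
corresponding coefficient of `∏_x (X - (Θ u)((rep x)⁻¹ z))`. -/
theorem integrality [Fintype (SL(2, ℤ) ⧸ pm Γ)] (γ : SL(2, ℤ)) (u : A.R) (k : ℕ) :
    ∃ P : ℂ[X],
      (∏ x, (Polynomial.X - Polynomial.C (cuspEmb A (rep x)⁻¹ (u : A.F)))).coeff k
        = cuspEmb A γ (Polynomial.aeval A.jF P) ∧
      ∀ z, P.eval (jFun z)
        = (∏ x, (Polynomial.X -
            Polynomial.C (compSL ((A.Θ u : HolH) : ℍ → ℂ) (rep x)⁻¹ z))).coeff k := by
  obtain ⟨P, hP1, hP2⟩ := intg_coreC N (fun x => compSL ((A.Θ u : HolH) : ℍ → ℂ) (rep x)⁻¹)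
    (fun x => cuspEmb A (rep x)⁻¹ (u : A.F)) (fun x => compSL_mem_HolH (A.Θ u).2 _)
    (fun x => cuspEmb_qn A _ u) (coset_perm A rep hrep u) k
  exact ⟨P, by rw [hP1, cuspEmb_aeval_jF], hP2⟩

theorem aeval_jF_mem_Kj (P : ℂ[X]) : Polynomial.aeval A.jF P ∈ Kj A := by
  rw [← IntermediateField.mem_toSubalgebra]
  have hj : A.jF ∈ (IntermediateField.adjoin ℂ {A.jF}).toSubalgebra :=
    IntermediateField.subset_adjoin ℂ {A.jF} (Set.mem_singleton _)
  have hle : Algebra.adjoin ℂ {A.jF} ≤ (IntermediateField.adjoin ℂ {A.jF}).toSubalgebra :=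
    Algebra.adjoin_le (Set.singleton_subset_iff.mpr hj)
  exact hle (Polynomial.aeval_mem_adjoin_singleton ℂ A.jF)

include hrep in
/-- **HYP2**. -/
theorem Tx_coeff [Fintype (SL(2, ℤ) ⧸ pm Γ)] (x₀ : SL(2, ℤ) ⧸ pm Γ) (u : A.R) (k : ℕ) :
    ∃ a : Kj A, Tx A rep x₀ (a : A.F)
      = (∏ x, (Polynomial.X - Polynomial.C (Tx A rep x (u : A.F)))).coeff k := by
  obtain ⟨P, hP, -⟩ := integrality A rep hrep (rep x₀)⁻¹ u k
  exact ⟨⟨_, aeval_jF_mem_Kj A P⟩, hP.symm⟩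

include hrep in
/-- `AbsDegree.main` instantiated (degree, norm, trace). -/
theorem main_inst [Fintype (SL(2, ℤ) ⧸ pm Γ)] (x₀ : SL(2, ℤ) ⧸ pm Γ) :
    FiniteDimensional (Kj A) A.F ∧
      Module.finrank (Kj A) A.F = Fintype.card (SL(2, ℤ) ⧸ pm Γ) ∧
      (∀ f : A.F, Tx A rep x₀ (algebraMap (Kj A) A.F (Algebra.norm (Kj A) f))
        = ∏ x, Tx A rep x f) ∧
      (∀ f : A.F, Tx A rep x₀ (algebraMap (Kj A) A.F (Algebra.trace (Kj A) A.F f))
        = ∑ x, Tx A rep x f) := by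
  have h := AbsDegree.main.{0, 0, 0, 0, 0} (K := ℂ) (F := A.F) (L := LaurentSeries ℂ)
    (R := A.R) (Kj := Kj A) (T := Tx A rep) (x₀ := x₀)
    (fun x a => Tx_agree A rep x x₀ a)
    (fun u k => Tx_coeff A rep hrep x₀ u k)
    (Tx_injective A rep hrep)
  exact ⟨h.1, h.2.1, h.2.2.1, h.2.2.2.1⟩

include hrep in
/-- `AbsDegree.main` instantiated (classification of embeddings). -/
theorem main_classify [Fintype (SL(2, ℤ) ⧸ pm Γ)] (x₀ : SL(2, ℤ) ⧸ pm Γ)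
    {E : Type*} [Field E] (ι : LaurentSeries ℂ →+* E) (τ : A.F →+* E)
    (hτ : ∀ a : Kj A, τ (a : A.F) = ι (Tx A rep x₀ (a : A.F))) :
    ∃ x, ∀ f : A.F, τ f = ι (Tx A rep x f) :=
  (AbsDegree.main (K := ℂ) (F := A.F) (L := LaurentSeries ℂ) (R := A.R)
    (Kj := Kj A) (T := Tx A rep) (x₀ := x₀)
    (fun x a => Tx_agree A rep x x₀ a)
    (fun u k => Tx_coeff A rep hrep x₀ u k)
    (Tx_injective A rep hrep)).2.2.2.2 ι τ hτ

end Rep

/-! ### Exports -/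

/-- **Degree**: `F` is finite over `ℂ(j)`. -/
theorem finiteDimensional : FiniteDimensional ℂ⟮A.jF⟯ A.F := by
  haveI := finite_quotient A
  haveI : Fintype (SL(2, ℤ) ⧸ pm Γ) := Fintype.ofFinite _
  exact (main_inst A rep rep_spec ((1 : SL(2, ℤ)) : SL(2, ℤ) ⧸ pm Γ)).1

/-- **Degree**: `[F : ℂ(j)] = #(SL(2,ℤ) ⧸ ±Γ)`. -/
theorem finrank_eq : Module.finrank ℂ⟮A.jF⟯ A.F = Nat.card (SL(2, ℤ) ⧸ pm Γ) := by
  haveI := finite_quotient A
  haveI : Fintype (SL(2, ℤ) ⧸ pm Γ) := Fintype.ofFinite _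
  rw [(main_inst A rep rep_spec ((1 : SL(2, ℤ)) : SL(2, ℤ) ⧸ pm Γ)).2.1, Nat.card_eq_fintype_card]

/-- `j` is transcendental over `ℂ`. -/
theorem transcendental_jF : Transcendental ℂ A.jF := by
  have h := Fermat.Agent.IG.VAL.OvBasics22.transcendental_jqModC ℂ
  rw [← A.coe_jR] at h
  intro halg
  apply h
  have := halg.algHom (laurentBaseChange ℂ F₀).val
  exact this

/-- `j` is a transcendental generator of `F / ℂ`. -/
theorem isGen_jF : FF.IsGen ℂ A.jF :=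
  ⟨transcendental_jF A, finiteDimensional A⟩

theorem isSeparable : Algebra.IsSeparable ℂ⟮A.jF⟯ A.F := by
  haveI := finiteDimensional A
  infer_instance

section Rep2

variable (rep : SL(2, ℤ) ⧸ pm Γ → SL(2, ℤ)) (hrep : ∀ x, (rep x : SL(2, ℤ) ⧸ pm Γ) = x)

include hrep in
/-- Formal norm formula: `T_γ (N_{F/ℂ(j)} f) = ∏_x T_{(rep x)⁻¹} f`. -/
theorem norm_formula [Fintype (SL(2, ℤ) ⧸ pm Γ)] (γ : SL(2, ℤ)) (f : A.F) :
    cuspEmb A γ (algebraMap (Kj A) A.F (Algebra.norm (Kj A) f)) = ∏ x, cuspEmb A (rep x)⁻¹ f :=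
  (cuspEmb_eq_on_Kj A γ _ (Algebra.norm (Kj A) f)).trans
    ((main_inst A rep hrep ((1 : SL(2, ℤ)) : SL(2, ℤ) ⧸ pm Γ)).2.2.1 f)

include hrep in
/-- Formal trace formula. -/
theorem trace_formula [Fintype (SL(2, ℤ) ⧸ pm Γ)] (γ : SL(2, ℤ)) (f : A.F) :
    cuspEmb A γ (algebraMap (Kj A) A.F (Algebra.trace (Kj A) A.F f))
      = ∑ x, cuspEmb A (rep x)⁻¹ f :=
  (cuspEmb_eq_on_Kj A γ _ (Algebra.trace (Kj A) A.F f)).trans
    ((main_inst A rep hrep ((1 : SL(2, ℤ)) : SL(2, ℤ) ⧸ pm Γ)).2.2.2 f)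

include hrep in
/-- Classification of the embeddings of `F` over `ℂ(j)`: every ring hom `τ : F → E` which agrees
with `ι ∘ T_γ` on `ℂ(j)` is `ι ∘ T_{(rep x)⁻¹}` for some `x`. -/
theorem exists_eq_cuspEmb {E : Type*} [Field E] (ι : LaurentSeries ℂ →+* E) (τ : A.F →+* E)
    (γ : SL(2, ℤ)) (hτ : ∀ a : Kj A, τ (a : A.F) = ι (cuspEmb A γ (a : A.F))) :
    ∃ x : SL(2, ℤ) ⧸ pm Γ, ∀ f : A.F, τ f = ι (cuspEmb A (rep x)⁻¹ f) := by
  haveI := finite_quotient A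
  haveI : Fintype (SL(2, ℤ) ⧸ pm Γ) := Fintype.ofFinite _
  refine main_classify A rep hrep ((1 : SL(2, ℤ)) : SL(2, ℤ) ⧸ pm Γ) ι τ fun a => ?_
  rw [hτ a, Tx_apply, cuspEmb_eq_on_Kj A γ _ a]

end Rep2

end Model

end Fermat.Agent.M48.AnDegree4
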