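/-
Programme M48 (target S48), pillar (P1), chapter [DICT] for `Γ₁` (helper4), file G8:
**EXACTNESS** `Θ(F) = Frac 𝒜(Γ)` for an abstract analytic model `A : AnModel Γ N F₀`.

`algA Γ ⊂ HolH` (`𝒜(Γ)`): the `ℂ`-algebra of holomorphic functions on `ℍ`, invariant under `Γ`, all of
whose `SL(2,ℤ)`-translates have a pole of bounded order at `i∞`.

* `finrank_fracAj_le : [Frac 𝒜 : ℂ(j)] ≤ #(SL(2,ℤ) ⧸ ±Γ)` (norm polynomial, level one functions are
  polynomials in `j`);
* `Θ_mem_algA`, `realMer_mem_fracA : Θ(F) ⊆ Frac 𝒜`;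
* `rangeΘj_eq_fracAj : Θ(F) = Frac 𝒜` (degrees: `AnDegree4.finrank_eq`);
* `mem_range_emb` (the field of `Dict`), `ratio_mem` (ratios of holomorphic functions of the same
  weight `k` for `Γ` with bounded slashes), `root_mem` (invariant meromorphic roots).

Ports of `ES/KUM/RatioAlg15`, `RatioGen15`, `RatioMem15` with `Γ₀(N) → Γ` (cosets of `pm Γ`).
-/
import Fermat.Agent.M48.AnDegree4
import Fermat.Agent.ES.KUM.RatioMem15

set_option autoImplicit false
set_option linter.unusedSectionVars false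
set_option linter.style.haveILetI false

open UpperHalfPlane ModularForm CongruenceSubgroup Polynomial IntermediateField ModularCurve
open scoped MatrixGroups Manifold

noncomputable section

namespace Fermat.Agent.M48.AnRatio4

open Fermat.Agent.X0 Fermat.Agent.X0.SurjPoint
open Fermat.Agent.ES.KUM.RatioAlg15 (Bdd bdd_const bdd_zero bdd_one
  isBoundedAtImInfty_discriminant_pow jH compSL_jFun bdd_jFun compSLHom_mul compSLHom_one
  compSLHom_injective finrank_le_of_forall_natDegree_le jM CjM aeval_jH_map algebraMap_ne_zero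
  divDisc divDisc_apply isBoundedAtImInfty_of_pow)
open Fermat.Agent.M48.DictIface4 Fermat.Agent.M48.AnReal4 Fermat.Agent.M48.AnDegree4

local notation "Δ" => ModularForm.discriminant

/-! ### the algebra `𝒜(Γ)` -/

section Alg

variable (Γ : Subgroup SL(2, ℤ))

/-- The algebra `𝒜(Γ)`. -/
def algA : Subalgebra ℂ HolH where
  carrier := {G | (∀ γ ∈ Γ, compSL G.1 γ = G.1) ∧
    ∃ m : ℕ, ∀ γ : SL(2, ℤ), Bdd m (compSL G.1 γ)}
  mul_mem' := by
    rintro a b ⟨ha, ma, hma⟩ ⟨hb, mb, hmb⟩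
    refine ⟨fun γ hγ => ?_, ma + mb, fun γ => ?_⟩
    · show compSL (a.1 * b.1) γ = a.1 * b.1
      rw [compSL_mul_fun, ha γ hγ, hb γ hγ]
    · show Bdd (ma + mb) (compSL (a.1 * b.1) γ)
      rw [compSL_mul_fun]
      exact (hma γ).mul (hmb γ)
  one_mem' := ⟨fun γ _ => rfl, 0, fun γ => bdd_const 1⟩
  add_mem' := by
    rintro a b ⟨ha, ma, hma⟩ ⟨hb, mb, hmb⟩
    refine ⟨fun γ hγ => ?_, max ma mb, fun γ => ?_⟩
    · show compSL (a.1 + b.1) γ = a.1 + b.1
      rw [compSL_add_fun, ha γ hγ, hb γ hγ]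
    · show Bdd (max ma mb) (compSL (a.1 + b.1) γ)
      rw [compSL_add_fun]
      exact ((hma γ).mono (le_max_left _ _)).add ((hmb γ).mono (le_max_right _ _))
  zero_mem' := ⟨fun γ _ => rfl, 0, fun γ => bdd_const 0⟩
  algebraMap_mem' c := ⟨fun γ _ => rfl, 0, fun γ => bdd_const c⟩

theorem mem_algA_iff (G : HolH) : G ∈ algA Γ ↔ (∀ γ ∈ Γ, compSL G.1 γ = G.1) ∧
    ∃ m : ℕ, ∀ γ : SL(2, ℤ), Bdd m (compSL G.1 γ) := Iff.rfl

theorem jH_mem_algA : jH ∈ algA Γ :=
  ⟨fun γ _ => compSL_jFun γ, 1, fun γ => by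
    rw [show compSL jH.1 γ = jFun from compSL_jFun γ]; exact bdd_jFun⟩

variable {Γ}

/-- `Γ`-invariance implies `±Γ`-invariance. -/
theorem compSL_of_mem_pm {G : ℍ → ℂ} (hG : ∀ γ ∈ Γ, compSL G γ = G) {γ : SL(2, ℤ)}
    (hγ : γ ∈ pm Γ) : compSL G γ = G := by
  rcases hγ with hγ | hγ
  · exact hG γ hγ
  · rw [← compSL_neg]
    exact hG (-γ) hγ

theorem compSLHom_of_mem {G : HolH} (hG : G ∈ algA Γ) {γ : SL(2, ℤ)} (hγ : γ ∈ pm Γ) :
    compSLHom γ G = G := Subtype.ext (compSL_of_mem_pm hG.1 hγ)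

/-- The coset space. -/
abbrev Q (Γ : Subgroup SL(2, ℤ)) : Type := SL(2, ℤ) ⧸ pm Γ

/-- `G ∘ g⁻¹` only depends on the coset `g (±Γ)`. -/
theorem compSLHom_inv_eq {G : HolH} (hG : G ∈ algA Γ) {g g' : SL(2, ℤ)}
    (h : (g : Q Γ) = (g' : Q Γ)) : compSLHom g⁻¹ G = compSLHom g'⁻¹ G := by
  have hδ : g⁻¹ * g' ∈ pm Γ := QuotientGroup.eq.mp h
  have h1 : g'⁻¹ = (g⁻¹ * g')⁻¹ * g⁻¹ := by group
  rw [h1, compSLHom_mul, compSLHom_of_mem hG (inv_mem hδ)]

/-- The conjugate `G_x := G ∘ (rep x)⁻¹`. -/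
def conj (G : HolH) (x : Q Γ) : HolH := compSLHom (Quotient.out x)⁻¹ G

theorem conj_mk {G : HolH} (hG : G ∈ algA Γ) (g : SL(2, ℤ)) :
    conj G (g : Q Γ) = compSLHom g⁻¹ G :=
  compSLHom_inv_eq hG (QuotientGroup.out_eq' (g : Q Γ))

theorem conj_one {G : HolH} (hG : G ∈ algA Γ) : conj G ((1 : SL(2, ℤ)) : Q Γ) = G := by
  rw [conj_mk hG, inv_one, compSLHom_one]

/-- Translation permutes the conjugates. -/
theorem compSLHom_conj {G : HolH} (hG : G ∈ algA Γ) (γ : SL(2, ℤ)) (x : Q Γ) :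
    compSLHom γ (conj G x) = conj G (γ⁻¹ • x) := by
  obtain ⟨g, rfl⟩ := QuotientGroup.mk_surjective x
  have h1 : γ⁻¹ • (g : Q Γ) = ((γ⁻¹ * g : SL(2, ℤ)) : Q Γ) := rfl
  rw [h1, conj_mk hG, conj_mk hG, ← compSLHom_mul]
  congr 1
  group

theorem bdd_conj {G : HolH} {m : ℕ} (hm : ∀ γ : SL(2, ℤ), Bdd m (compSL G.1 γ)) (x : Q Γ) :
    Bdd m (conj G x).1 := by
  have := hm ((Quotient.out x)⁻¹ * 1)
  rw [mul_one] at this
  exact this

theorem conj_ne_zero {b : HolH} (hb : b ≠ 0) (x : Q Γ) : conj b x ≠ 0 := by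
  intro h
  apply hb
  exact compSLHom_injective _ (h.trans (map_zero _).symm)

section Fin

variable [Fintype (Q Γ)]

/-- The norm polynomial `∏_x (b_x X − a_x)`. -/
def normPoly (a b : HolH) : HolH[X] := ∏ x : Q Γ, (C (conj b x) * X - C (conj a x))

theorem normPoly_map {a b : HolH} (ha : a ∈ algA Γ) (hb : b ∈ algA Γ) (γ : SL(2, ℤ)) :
    (normPoly (Γ := Γ) a b).map (compSLHom γ) = normPoly (Γ := Γ) a b := by
  unfold normPoly
  rw [Polynomial.map_prod]
  have h1 : ∀ x : Q Γ, (C (conj b x) * X - C (conj a x)).map (compSLHom γ) =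
      C (conj b (γ⁻¹ • x)) * X - C (conj a (γ⁻¹ • x)) := by
    intro x
    rw [Polynomial.map_sub, Polynomial.map_mul, Polynomial.map_C, Polynomial.map_C,
      Polynomial.map_X, compSLHom_conj hb, compSLHom_conj ha]
  simp_rw [h1]
  exact Fintype.prod_equiv (MulAction.toPerm γ⁻¹) _ _ (fun x => rfl)

/-- The coefficients of the norm polynomial are `SL(2,ℤ)`-invariant. -/
theorem compSL_coeff_normPoly {a b : HolH} (ha : a ∈ algA Γ) (hb : b ∈ algA Γ) (k : ℕ)
    (γ : SL(2, ℤ)) (z : ℍ) :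
    ((normPoly (Γ := Γ) a b).coeff k).1 (γ • z) = ((normPoly (Γ := Γ) a b).coeff k).1 z := by
  have h := congrArg (fun P => (P.coeff k).1 z) (normPoly_map ha hb γ)
  simp only [Polynomial.coeff_map] at h
  exact h

/-- Growth of the coefficients of partial products. -/
theorem bdd_coeff_prod {a b : HolH} {m : ℕ} (hma : ∀ x : Q Γ, Bdd m (conj a x).1)
    (hmb : ∀ x : Q Γ, Bdd m (conj b x).1) (S : Finset (Q Γ)) (k : ℕ) :
    Bdd (m * S.card) ((∏ x ∈ S, (C (conj b x) * X - C (conj a x))).coeff k).1 := by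
  classical
  induction S using Finset.induction_on generalizing k with
  | empty =>
    rw [Finset.prod_empty, Polynomial.coeff_one]
    split_ifs
    · exact bdd_one _
    · exact bdd_zero _
  | insert x S hx ih =>
    have e0 : (C (conj b x) * X - C (conj a x)) * ∏ x ∈ S, (C (conj b x) * X - C (conj a x)) =
        (∏ x ∈ S, (C (conj b x) * X - C (conj a x))) * C (conj b x) * X -
          (∏ x ∈ S, (C (conj b x) * X - C (conj a x))) * C (conj a x) := by ring
    rw [Finset.prod_insert hx, Finset.card_insert_of_notMem hx, e0, Polynomial.coeff_sub,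
      Polynomial.coeff_mul_C]
    have e : m * (S.card + 1) = m * S.card + m := by ring
    rw [e]
    refine Bdd.sub ?_ ((ih k).mul (hma x))
    cases k with
    | zero =>
      rw [Polynomial.coeff_mul_X_zero]
      exact bdd_zero _
    | succ k =>
      rw [Polynomial.coeff_mul_X, Polynomial.coeff_mul_C]
      exact (ih k).mul (hmb x)

/-- **The coefficients of the norm polynomial are polynomials in `j`.** -/
theorem exists_poly_coeff {a b : HolH} (ha : a ∈ algA Γ) (hb : b ∈ algA Γ) (k : ℕ) :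
    ∃ p : ℂ[X], (normPoly (Γ := Γ) a b).coeff k = aeval jH p := by
  obtain ⟨ma, hma⟩ := ha.2
  obtain ⟨mb, hmb⟩ := hb.2
  set m := max ma mb
  have hma' : ∀ x : Q Γ, Bdd m (conj a x).1 := fun x =>
    (bdd_conj hma x).mono (le_max_left _ _)
  have hmb' : ∀ x : Q Γ, Bdd m (conj b x).1 := fun x =>
    (bdd_conj hmb x).mono (le_max_right _ _)
  have hbd := bdd_coeff_prod hma' hmb' Finset.univ k
  obtain ⟨p, -, hp⟩ := exists_polynomial_jFun ((normPoly (Γ := Γ) a b).coeff k).2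
    (fun γ z => compSL_coeff_normPoly ha hb k γ z) _ hbd
  refine ⟨p, Subtype.ext (funext fun z => ?_)⟩
  rw [hp z]
  have h1 : ∀ q : ℂ[X], ((aeval jH q : HolH) : ℍ → ℂ) z = q.eval (jFun z) := by
    intro q
    induction q using Polynomial.induction_on' with
    | add p q hp hq =>
      rw [map_add, Polynomial.eval_add, ← hp, ← hq]; rfl
    | monomial n c =>
      rw [Polynomial.aeval_monomial, Polynomial.eval_monomial]
      rfl
  exact (h1 p).symm

theorem normPoly_ne_zero (a : HolH) {b : HolH} (hb : b ≠ 0) : normPoly (Γ := Γ) a b ≠ 0 := by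
  unfold normPoly
  rw [Finset.prod_ne_zero_iff]
  intro x _ h
  have h1 := congrArg (fun P => P.coeff 1) h
  simp only [Polynomial.coeff_sub, Polynomial.coeff_C_mul, Polynomial.coeff_X_one, mul_one,
    Polynomial.coeff_C_succ, sub_zero, Polynomial.coeff_zero] at h1
  exact conj_ne_zero hb x h1

theorem natDegree_normPoly_le (a b : HolH) :
    (normPoly (Γ := Γ) a b).natDegree ≤ Fintype.card (Q Γ) := by
  unfold normPoly
  refine (Polynomial.natDegree_prod_le _ _).trans ?_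
  have h1 : ∀ x ∈ (Finset.univ : Finset (Q Γ)),
      (C (conj b x) * X - C (conj a x) : HolH[X]).natDegree ≤ 1 := by
    intro x _
    refine (Polynomial.natDegree_sub_le _ _).trans (max_le ?_ ?_)
    · exact (Polynomial.natDegree_C_mul_le _ _).trans Polynomial.natDegree_X_le
    · rw [Polynomial.natDegree_C]; exact Nat.zero_le _
  refine (Finset.sum_le_sum h1).trans ?_
  simp

/-- `a / b` is a root of the norm polynomial. -/
theorem eval_normPoly {a b : HolH} (ha : a ∈ algA Γ) (hb : b ∈ algA Γ) (hb0 : b ≠ 0) :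
    ((normPoly (Γ := Γ) a b).map (algebraMap HolH MerH)).eval
      (algebraMap HolH MerH a / algebraMap HolH MerH b) = 0 := by
  unfold normPoly
  rw [Polynomial.map_prod, Polynomial.eval_prod]
  refine Finset.prod_eq_zero (Finset.mem_univ ((1 : SL(2, ℤ)) : Q Γ)) ?_
  rw [conj_one ha, conj_one hb, Polynomial.map_sub, Polynomial.map_mul, Polynomial.map_C,
    Polynomial.map_C, Polynomial.map_X, Polynomial.eval_sub, Polynomial.eval_mul,
    Polynomial.eval_C, Polynomial.eval_C, Polynomial.eval_X]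
  have : algebraMap HolH MerH b ≠ 0 := by
    intro h
    exact hb0 (IsFractionRing.injective HolH MerH (h.trans (map_zero _).symm))
  rw [mul_div_cancel₀ _ this, sub_self]

/-- **Bounded degree**: every `a / b`, `a, b ∈ 𝒜`, is algebraic of degree `≤ [SL₂ℤ : ±Γ]` over
`ℂ(j)`. -/
theorem isIntegral_div {a b : HolH} (ha : a ∈ algA Γ) (hb : b ∈ algA Γ) :
    IsIntegral CjM (algebraMap HolH MerH a / algebraMap HolH MerH b) ∧
      (minpoly CjM (algebraMap HolH MerH a / algebraMap HolH MerH b)).natDegree ≤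
        Fintype.card (Q Γ) := by
  rcases eq_or_ne b 0 with rfl | hb0
  · rw [map_zero, div_zero]
    refine ⟨isIntegral_zero, ?_⟩
    rw [minpoly.zero, Polynomial.natDegree_X]
    exact Fintype.card_pos_iff.mpr ⟨((1 : SL(2, ℤ)) : Q Γ)⟩
  set y := algebraMap HolH MerH a / algebraMap HolH MerH b with hy
  set P := (normPoly (Γ := Γ) a b).map (algebraMap HolH MerH) with hP
  have hP0 : P ≠ 0 := by
    rw [hP, Ne, Polynomial.map_eq_zero_iff (IsFractionRing.injective HolH MerH)]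
    exact normPoly_ne_zero a hb0
  have hlift : P ∈ Polynomial.lifts (algebraMap CjM MerH) := by
    rw [Polynomial.lifts_iff_coeff_lifts]
    intro k
    obtain ⟨p, hp⟩ := exists_poly_coeff ha hb k
    rw [hP, Polynomial.coeff_map, hp, aeval_jH_map]
    have hmem : aeval jM p ∈ CjM := by
      have h1 : jM ∈ CjM := mem_adjoin_simple_self ℂ jM
      have : aeval jM p ∈ CjM.toSubalgebra := by
        rw [Polynomial.aeval_eq_sum_range]
        refine Subalgebra.sum_mem _ fun i _ => ?_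
        exact Subalgebra.smul_mem _ (Subalgebra.pow_mem _ h1 _) _
      exact this
    exact ⟨⟨aeval jM p, hmem⟩, rfl⟩
  obtain ⟨q, hq, hqdeg⟩ := Polynomial.exists_degree_eq_of_mem_lifts hlift
  have hq0 : q ≠ 0 := by
    rintro rfl
    rw [Polynomial.map_zero] at hq
    exact hP0 hq.symm
  have hroot : aeval y q = 0 := by
    rw [Polynomial.aeval_def, ← Polynomial.eval_map, hq]
    exact eval_normPoly ha hb hb0
  have hint : IsIntegral CjM y := (IsAlgebraic.isIntegral ⟨q, hq0, hroot⟩)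
  refine ⟨hint, ?_⟩
  have h1 : (minpoly CjM y).natDegree ≤ q.natDegree :=
    Polynomial.natDegree_le_of_dvd (minpoly.dvd CjM y hroot) hq0
  have h2 : q.natDegree = P.natDegree := Polynomial.natDegree_eq_of_degree_eq hqdeg
  have h3 : P.natDegree ≤ (normPoly (Γ := Γ) a b).natDegree := Polynomial.natDegree_map_le
  exact h1.trans (h2.le.trans (h3.trans (natDegree_normPoly_le a b)))

end Fin

/-! ### `Frac 𝒜` -/

variable (Γ)

/-- **`Frac 𝒜`** as a subfield of `MerH`. -/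
def fracA : IntermediateField ℂ MerH where
  carrier := {y | ∃ a b : HolH, a ∈ algA Γ ∧ b ∈ algA Γ ∧ b ≠ 0 ∧
    y = algebraMap HolH MerH a / algebraMap HolH MerH b}
  mul_mem' := by
    rintro _ _ ⟨a, b, ha, hb, hb0, rfl⟩ ⟨a', b', ha', hb', hb0', rfl⟩
    refine ⟨a * a', b * b', mul_mem ha ha', mul_mem hb hb', mul_ne_zero hb0 hb0', ?_⟩
    rw [map_mul, map_mul, div_mul_div_comm]
  one_mem' := ⟨1, 1, one_mem _, one_mem _, one_ne_zero, by rw [map_one, div_one]⟩
  add_mem' := by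
    rintro _ _ ⟨a, b, ha, hb, hb0, rfl⟩ ⟨a', b', ha', hb', hb0', rfl⟩
    refine ⟨a * b' + b * a', b * b', add_mem (mul_mem ha hb') (mul_mem hb ha'), mul_mem hb hb',
      mul_ne_zero hb0 hb0', ?_⟩
    rw [map_add, map_mul, map_mul, map_mul,
      div_add_div _ _ (algebraMap_ne_zero hb0) (algebraMap_ne_zero hb0')]
  zero_mem' := ⟨0, 1, zero_mem _, one_mem _, one_ne_zero, by rw [map_zero, zero_div]⟩
  algebraMap_mem' c := by
    refine ⟨algebraMap ℂ HolH c, 1, (algA Γ).algebraMap_mem c, one_mem _, one_ne_zero, ?_⟩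
    rw [map_one, div_one]
    exact IsScalarTower.algebraMap_apply ℂ HolH MerH c
  inv_mem' := by
    rintro _ ⟨a, b, ha, hb, hb0, rfl⟩
    rcases eq_or_ne a 0 with rfl | ha0
    · refine ⟨0, 1, zero_mem _, one_mem _, one_ne_zero, ?_⟩
      rw [map_zero, zero_div, inv_zero, zero_div]
    · exact ⟨b, a, hb, ha, ha0, by rw [inv_div]⟩

theorem mem_fracA_iff (y : MerH) : y ∈ fracA Γ ↔ ∃ a b : HolH, a ∈ algA Γ ∧ b ∈ algA Γ ∧ b ≠ 0 ∧
    y = algebraMap HolH MerH a / algebraMap HolH MerH b := Iff.rfl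

theorem algebraMap_mem_fracA {a : HolH} (ha : a ∈ algA Γ) : algebraMap HolH MerH a ∈ fracA Γ :=
  ⟨a, 1, ha, one_mem _, one_ne_zero, by rw [map_one, div_one]⟩

theorem CjM_le_fracA : CjM ≤ fracA Γ := by
  unfold CjM
  rw [IntermediateField.adjoin_simple_le_iff]
  exact algebraMap_mem_fracA Γ (jH_mem_algA Γ)

/-- `Frac 𝒜` as an extension of `ℂ(j)`. -/
def fracAj : IntermediateField CjM MerH := IntermediateField.extendScalars (CjM_le_fracA Γ)

theorem mem_fracAj_iff (y : MerH) : y ∈ fracAj Γ ↔ y ∈ fracA Γ :=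
  IntermediateField.mem_extendScalars (CjM_le_fracA Γ)

/-- **`[Frac 𝒜 : ℂ(j)] ≤ [SL₂ℤ : ±Γ]`.** -/
theorem finrank_fracAj_le [Fintype (Q Γ)] :
    FiniteDimensional CjM (fracAj Γ) ∧ Module.finrank CjM (fracAj Γ) ≤ Fintype.card (Q Γ) := by
  refine finrank_le_of_forall_natDegree_le (K := CjM) (L := fracAj Γ) _ fun y => ?_
  obtain ⟨a, b, ha, hb, hb0, hy⟩ := (mem_fracAj_iff Γ y).mp y.2
  have h := isIntegral_div (Γ := Γ) ha hb
  rw [← hy] at h
  have hinj : Function.Injective (algebraMap (fracAj Γ) MerH) := (algebraMap (fracAj Γ) MerH).injective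
  have h1 : IsIntegral CjM y := by
    have := h.1
    rwa [show ((y : fracAj Γ) : MerH) = algebraMap (fracAj Γ) MerH y from rfl,
      isIntegral_algebraMap_iff hinj] at this
  refine ⟨h1, ?_⟩
  have h2 : minpoly CjM (y : MerH) = minpoly CjM y :=
    minpoly.algebraMap_eq hinj y
  rw [← h2]
  exact h.2

variable {Γ}

/-! ### weight `12 n` functions divided by `Δ^n`, invariant roots -/

/-- A holomorphic function of weight `12 n` for `Γ`, all of whose slashes are bounded at `i∞`,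
divided by `Δ^n`, lies in `𝒜`. -/
theorem divDisc_mem_algA (F : ℍ → ℂ) (hF : MDifferentiable 𝓘(ℂ) 𝓘(ℂ) F) (n : ℕ)
    (hinv : ∀ γ ∈ Γ, F ∣[(12 * n : ℤ)] γ = F)
    (hbdd : ∀ γ : SL(2, ℤ), IsBoundedAtImInfty (F ∣[(12 * n : ℤ)] γ)) :
    divDisc F hF n ∈ algA Γ := by
  have key : ∀ (γ : SL(2, ℤ)) (z : ℍ),
      F (γ • z) / Δ (γ • z) ^ n = (F ∣[(12 * n : ℤ)] γ) z / Δ z ^ n := by
    intro γ z
    have hd : denom γ z ≠ 0 := denom_ne_zero γ z
    have hΔ : Δ z ≠ 0 := discriminant_ne_zero z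
    rw [SL_slash_apply, lof_discriminant_smul, mul_pow, ← zpow_natCast (denom γ z ^ (12 : ℤ)) n,
      ← zpow_mul, zpow_neg]
    field_simp
  refine ⟨fun γ hγ => funext fun z => ?_, n, fun γ => ?_⟩
  · show F (γ • z) / Δ (γ • z) ^ n = F z / Δ z ^ n
    rw [key, hinv γ hγ]
  · have e : (fun z => compSL (divDisc F hF n).1 γ z * Δ z ^ n) = F ∣[(12 * n : ℤ)] γ := by
      funext z
      show F (γ • z) / Δ (γ • z) ^ n * Δ z ^ n = _
      rw [key, div_mul_cancel₀ _ (pow_ne_zero n (discriminant_ne_zero z))]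
    unfold Bdd
    rw [e]
    exact hbdd γ

/-- **(b′)** A `Γ`-invariant holomorphic `n`-th root of an element of `𝒜` lies in `𝒜`. -/
theorem mem_algA_of_pow_mem {h : HolH} {n : ℕ} (hn : 0 < n)
    (hinv : ∀ γ ∈ Γ, compSL h.1 γ = h.1) (hpow : h ^ n ∈ algA Γ) : h ∈ algA Γ := by
  obtain ⟨m, hm⟩ := hpow.2
  refine ⟨hinv, m, fun γ => ?_⟩
  apply isBoundedAtImInfty_of_pow hn
  have h1 := (hm γ).mul (M' := m * (n - 1)) (f := compSL (h ^ n).1 γ) (g := 1)
    ((bdd_one 0).mono (Nat.zero_le _))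
  have e : (fun z => (compSL h.1 γ z * Δ z ^ m) ^ n) =
      fun z => (compSL (h ^ n).1 γ * 1) z * Δ z ^ (m + m * (n - 1)) := by
    funext z
    have e1 : m + m * (n - 1) = m * n := by
      cases n with
      | zero => omega
      | succ n => simp; ring
    rw [e1, mul_pow, ← pow_mul]
    simp only [Pi.mul_apply, Pi.one_apply, mul_one]
    rfl
  rw [e]
  exact h1

/-- **Uniform pole order.**  For a `Γ`-invariant function (`Γ` of finite index), pole-order bounds
at `i∞` for each translate `f ∘ γ` give a uniform bound (finitely many cosets). -/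
theorem exists_uniform_bdd [Finite (Q Γ)] {f : ℍ → ℂ} (hinv : ∀ γ ∈ Γ, compSL f γ = f)
    (h : ∀ γ : SL(2, ℤ), ∃ M : ℕ, Bdd M (compSL f γ)) :
    ∃ M : ℕ, ∀ γ : SL(2, ℤ), Bdd M (compSL f γ) := by
  classical
  haveI : Fintype (Q Γ) := Fintype.ofFinite _
  choose Mf hMf using h
  refine ⟨Finset.univ.sup fun x : Q Γ => Mf (Quotient.out x)⁻¹, fun γ => ?_⟩
  set x : Q Γ := ((γ⁻¹ : SL(2, ℤ)) : Q Γ) with hx
  have hδ : γ * Quotient.out x ∈ pm Γ := by
    have h1 : ((γ⁻¹ : SL(2, ℤ)) : Q Γ) = ((Quotient.out x : SL(2, ℤ)) : Q Γ) :=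
      (QuotientGroup.out_eq' x).symm
    have h2 := QuotientGroup.eq.mp h1
    rwa [inv_inv] at h2
  have hγ : γ = (γ * Quotient.out x) * (Quotient.out x)⁻¹ := by group
  have h3 : compSL f γ = compSL f (Quotient.out x)⁻¹ := by
    conv_lhs => rw [hγ]
    rw [Fermat.Agent.X0.compSL_mul, compSL_of_mem_pm hinv hδ]
  rw [h3]
  exact (hMf _).mono (Finset.le_sup (f := fun x : Q Γ => Mf (Quotient.out x)⁻¹) (Finset.mem_univ x))

/-- membership in `𝒜(Γ)` from pointwise (non-uniform) pole-order bounds. -/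
theorem mem_algA_of_forall_exists [Finite (Q Γ)] {a : HolH} (hinv : ∀ γ ∈ Γ, compSLHom γ a = a)
    (hbd : ∀ γ : SL(2, ℤ), ∃ m : ℕ, IsBoundedAtImInfty
      (fun z : ℍ => (a : ℍ → ℂ) (γ • z) * Δ z ^ m)) : a ∈ algA Γ := by
  have hinv' : ∀ γ ∈ Γ, compSL a.1 γ = a.1 := fun γ hγ =>
    congrArg (fun x : HolH => (x : ℍ → ℂ)) (hinv γ hγ)
  exact ⟨hinv', exists_uniform_bdd hinv' fun γ => hbd γ⟩

end Alg

/-! ### `Θ(F) = Frac 𝒜` -/

section Model

variable {Γ : Subgroup SL(2, ℤ)} {N : ℕ} {F₀ : IntermediateField ℚ (LaurentSeries ℚ)}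
  (A : AnModel Γ N F₀) [NeZero N]

/-- **`Θ(R) ⊆ 𝒜`.** -/
theorem Θ_mem_algA (u : A.R) : A.Θ u ∈ algA Γ := by
  haveI := finite_quotient A
  exact mem_algA_of_forall_exists (fun γ hγ => Subtype.ext (A.inv u γ hγ)) (fun γ => A.cusp u γ)

/-- **`Θ(F) ⊆ Frac 𝒜`.** -/
theorem realMer_mem_fracA (f : A.F) : realMer A f ∈ fracA Γ := by
  obtain ⟨r, s, hs, rfl⟩ := exists_div_ne_zero A f
  have hs' : A.Θ s ≠ 0 := fun h => hs (Θ_injective A (h.trans (map_zero _).symm))
  refine ⟨A.Θ r, A.Θ s, Θ_mem_algA A r, Θ_mem_algA A s, hs', ?_⟩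
  rw [map_div₀, realMer_coe, realMer_coe]

/-- `Θ = realMer A` as a `ℂ`-algebra homomorphism. -/
def realMerAlg : A.F →ₐ[ℂ] MerH :=
  { realMer A with
    commutes' := fun a => by
      show realMer A (algebraMap ℂ A.F a) = algebraMap ℂ MerH a
      rw [realMer_algebraMap]
      exact (IsScalarTower.algebraMap_apply ℂ HolH MerH a).symm }

@[simp] theorem realMerAlg_apply (f : A.F) : realMerAlg A f = realMer A f := rfl

theorem realMer_jF_eq : realMer A A.jF = jM := by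
  rw [realMer_jF]
  rfl

/-- The range `Θ(F)` as a subfield of `MerH`. -/
def rangeΘ : IntermediateField ℂ MerH := (realMerAlg A).fieldRange

theorem mem_rangeΘ_iff (y : MerH) : y ∈ rangeΘ A ↔ ∃ f : A.F, realMer A f = y := Iff.rfl

theorem rangeΘ_le_fracA : rangeΘ A ≤ fracA Γ := by
  rintro _ ⟨f, rfl⟩
  exact realMer_mem_fracA A f

theorem CjM_le_rangeΘ : CjM ≤ rangeΘ A := by
  unfold CjM
  rw [IntermediateField.adjoin_simple_le_iff]
  exact ⟨A.jF, realMer_jF_eq A⟩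

/-- `Θ(F)` as an extension of `ℂ(j)`. -/
def rangeΘj : IntermediateField CjM MerH := IntermediateField.extendScalars (CjM_le_rangeΘ A)

theorem mem_rangeΘj_iff (y : MerH) : y ∈ rangeΘj A ↔ ∃ f : A.F, realMer A f = y :=
  IntermediateField.mem_extendScalars (CjM_le_rangeΘ A)

theorem rangeΘj_le_fracAj : rangeΘj A ≤ fracAj Γ := by
  intro y hy
  rw [mem_fracAj_iff]
  exact rangeΘ_le_fracA A ((IntermediateField.mem_extendScalars _).mp hy)

theorem realMer_mem_CjM {x : A.F} (hx : x ∈ ℂ⟮A.jF⟯) : realMer A x ∈ CjM := by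
  have h1 : realMerAlg A x ∈ (ℂ⟮A.jF⟯).map (realMerAlg A) := ⟨x, hx, rfl⟩
  rw [IntermediateField.adjoin_map, Set.image_singleton, realMerAlg_apply, realMer_jF_eq] at h1
  exact h1

theorem exists_of_mem_CjM {y : MerH} (hy : y ∈ CjM) :
    ∃ x : A.F, x ∈ ℂ⟮A.jF⟯ ∧ realMer A x = y := by
  have h1 : y ∈ (ℂ⟮A.jF⟯).map (realMerAlg A) := by
    rw [IntermediateField.adjoin_map, Set.image_singleton, realMerAlg_apply, realMer_jF_eq]
    exact hy
  obtain ⟨x, hx, rfl⟩ := h1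
  exact ⟨x, hx, rfl⟩

/-- **`[Θ(F) : ℂ(j)] = #(SL(2,ℤ) ⧸ ±Γ)`** (transport of `AnDegree4.finrank_eq` along `Θ`). -/
theorem finrank_rangeΘj : Module.finrank CjM (rangeΘj A) = Nat.card (SL(2, ℤ) ⧸ pm Γ) := by
  rw [← finrank_eq A]
  symm
  let f₀ : ↥(ℂ⟮A.jF⟯) →+* ↥CjM :=
    ((realMer A).comp (algebraMap ↥(ℂ⟮A.jF⟯) A.F)).codRestrict CjM.toSubfield
      (fun x => realMer_mem_CjM A x.2)
  have hf₀ : Function.Bijective f₀ := by
    refine ⟨fun a b h => ?_, fun y => ?_⟩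
    · have h1 : realMer A (a : A.F) = realMer A (b : A.F) := congrArg Subtype.val h
      exact Subtype.ext (emb_injective A 1 h1)
    · obtain ⟨x, hx, hxy⟩ := exists_of_mem_CjM A y.2
      exact ⟨⟨x, hx⟩, Subtype.ext hxy⟩
  let f₁ : A.F →+* ↥(rangeΘj A) :=
    (realMer A).codRestrict (rangeΘj A).toSubfield
      (fun x => (mem_rangeΘj_iff A _).mpr ⟨x, rfl⟩)
  have hf₁ : Function.Bijective f₁ := by
    refine ⟨fun a b h => ?_, fun y => ?_⟩
    · have h1 : realMer A a = realMer A b := congrArg Subtype.val h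
      exact emb_injective A 1 h1
    · obtain ⟨x, hx⟩ := (mem_rangeΘj_iff A _).mp y.2
      exact ⟨x, Subtype.ext hx⟩
  exact Algebra.finrank_eq_of_equiv_equiv (RingEquiv.ofBijective f₀ hf₀)
    (RingEquiv.ofBijective f₁ hf₁) (RingHom.ext fun x => Subtype.ext rfl)

/-- **`Θ(F) = Frac 𝒜`.** -/
theorem rangeΘj_eq_fracAj : rangeΘj A = fracAj Γ := by
  haveI := finite_quotient A
  haveI : Fintype (Q Γ) := Fintype.ofFinite _
  obtain ⟨hfin, hle⟩ := finrank_fracAj_le Γ
  haveI := hfin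
  refine IntermediateField.eq_of_le_of_finrank_le (rangeΘj_le_fracAj A) ?_
  rw [finrank_rangeΘj, Nat.card_eq_fintype_card]
  exact hle

/-- every element of `Frac 𝒜` is `Θ f`. -/
theorem exists_realMer_eq_of_mem_fracA {y : MerH} (hy : y ∈ fracA Γ) :
    ∃ f : A.F, realMer A f = y := by
  have h1 : y ∈ fracAj Γ := (mem_fracAj_iff Γ y).mpr hy
  rw [← rangeΘj_eq_fracAj A] at h1
  exact (mem_rangeΘj_iff A y).mp h1

/-- **EXACTNESS** (the field `mem_range_emb` of `Dict`). -/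
theorem mem_range_emb (a b : HolH) (hb : b ≠ 0)
    (hainv : ∀ γ ∈ Γ, compSLHom γ a = a) (hbinv : ∀ γ ∈ Γ, compSLHom γ b = b)
    (habd : ∀ γ : SL(2, ℤ), ∃ m : ℕ, IsBoundedAtImInfty
      (fun z : ℍ => (a : ℍ → ℂ) (γ • z) * Δ z ^ m))
    (hbbd : ∀ γ : SL(2, ℤ), ∃ m : ℕ, IsBoundedAtImInfty
      (fun z : ℍ => (b : ℍ → ℂ) (γ • z) * Δ z ^ m)) :
    ∃ f : A.F, emb A 1 f * algebraMap HolH MerH b = algebraMap HolH MerH a := by
  haveI := finite_quotient A
  have ha := mem_algA_of_forall_exists hainv habd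
  have hb' := mem_algA_of_forall_exists hbinv hbbd
  obtain ⟨f, hf⟩ := exists_realMer_eq_of_mem_fracA A ⟨a, b, ha, hb', hb, rfl⟩
  refine ⟨f, ?_⟩
  show realMer A f * _ = _
  rw [hf]
  exact div_mul_cancel₀ _ (algebraMap_ne_zero hb)

end Model

end Fermat.Agent.M48.AnRatio4
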