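/-
M48 (helper1), block (P8): **diamond operators** on `Γ₁(N)`-invariant functions and on
`CuspForm (Gamma1 N) k`, `ModularForm (Gamma1 N) k`.

* `Gamma1` is normal in `Gamma0`: `conj_mem_Gamma1`, and `σ' σ⁻¹ ∈ Γ₁(N)` when the lower-right entries
  agree mod `N` (`mul_inv_mem_Gamma1`);
* `exists_Gamma0_map_eq` : `Γ₀(N) → (ℤ/N)ˣ` (lower-right entry) is surjective;
* `Inv1 N k f` : `f : ℍ → ℂ` is invariant under `Γ₁(N)` in weight `k`; `Inv1.slash`, `Inv1.slash_eq_of_map_eq`;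
* `sigma d : Gamma0 N` a chosen matrix with lower-right entry `d`;
* `diamondC d`, `diamondM d` : the diamond operators as `ℂ`-linear endomorphisms of cusp forms and
  modular forms of `Γ₁(N)`; `coe_diamondC_of_map_eq`, `diamondC_mul`, `diamondC_one`.

Imported by no statement.
-/
import Mathlib

set_option autoImplicit false

open CongruenceSubgroup Matrix.SpecialLinearGroup UpperHalfPlane
open scoped MatrixGroups ModularForm

noncomputable section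

namespace Fermat.Agent.M48.Diamond1

variable {N : ℕ}

/-! ### `Γ₁(N)` inside `Γ₀(N)` -/

theorem mem_Gamma1_iff_map (A : SL(2, ℤ)) :
    A ∈ Gamma1 N ↔ ∃ h : A ∈ Gamma0 N, Gamma0Map N ⟨A, h⟩ = 1 := by
  constructor
  · intro hA
    refine ⟨Gamma1_in_Gamma0 N hA, ?_⟩
    rw [Gamma1_mem] at hA
    exact hA.2.1
  · rintro ⟨h, h1⟩
    have : (⟨A, h⟩ : Gamma0 N) ∈ Gamma1' N := h1
    rw [Gamma1_to_Gamma0_mem] at this
    rw [Gamma1_mem]
    exact this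

theorem Gamma0Map_mul_inv (σ : Gamma0 N) : Gamma0Map N σ * Gamma0Map N σ⁻¹ = 1 := by
  rw [← map_mul, mul_inv_cancel, map_one]

theorem Gamma0Map_inv_mul (σ : Gamma0 N) : Gamma0Map N σ⁻¹ * Gamma0Map N σ = 1 := by
  rw [← map_mul, inv_mul_cancel, map_one]

/-- `Γ₁(N)` is normal in `Γ₀(N)`. -/
theorem conj_mem_Gamma1 (σ : Gamma0 N) {γ : SL(2, ℤ)} (hγ : γ ∈ Gamma1 N) :
    (σ : SL(2, ℤ)) * γ * (σ : SL(2, ℤ))⁻¹ ∈ Gamma1 N := by
  obtain ⟨h0, h1⟩ := (mem_Gamma1_iff_map γ).1 hγ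
  rw [mem_Gamma1_iff_map]
  have hmem : (σ : SL(2, ℤ)) * γ * (σ : SL(2, ℤ))⁻¹ ∈ Gamma0 N :=
    (Gamma0 N).mul_mem ((Gamma0 N).mul_mem σ.2 h0) ((Gamma0 N).inv_mem σ.2)
  refine ⟨hmem, ?_⟩
  have : (⟨(σ : SL(2, ℤ)) * γ * (σ : SL(2, ℤ))⁻¹, hmem⟩ : Gamma0 N) = σ * ⟨γ, h0⟩ * σ⁻¹ := rfl
  rw [this, map_mul, map_mul, h1, mul_one, Gamma0Map_mul_inv]

theorem conj_mem_Gamma1' (σ : Gamma0 N) {γ : SL(2, ℤ)} (hγ : γ ∈ Gamma1 N) :
    (σ : SL(2, ℤ))⁻¹ * γ * (σ : SL(2, ℤ)) ∈ Gamma1 N := by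
  have := conj_mem_Gamma1 σ⁻¹ hγ
  simpa using this

/-- two elements of `Γ₀(N)` with the same lower-right entry mod `N` differ by `Γ₁(N)`. -/
theorem mul_inv_mem_Gamma1 {σ σ' : Gamma0 N} (h : Gamma0Map N σ' = Gamma0Map N σ) :
    (σ' : SL(2, ℤ)) * (σ : SL(2, ℤ))⁻¹ ∈ Gamma1 N := by
  rw [mem_Gamma1_iff_map]
  have hmem : (σ' : SL(2, ℤ)) * (σ : SL(2, ℤ))⁻¹ ∈ Gamma0 N :=
    (Gamma0 N).mul_mem σ'.2 ((Gamma0 N).inv_mem σ.2)
  refine ⟨hmem, ?_⟩
  have : (⟨(σ' : SL(2, ℤ)) * (σ : SL(2, ℤ))⁻¹, hmem⟩ : Gamma0 N) = σ' * σ⁻¹ := rfl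
  rw [this, map_mul, h, Gamma0Map_mul_inv]

/-- the lower-right entry of an element of `Γ₀(N)` is a unit mod `N`. -/
def unitOf (σ : Gamma0 N) : (ZMod N)ˣ :=
  ⟨Gamma0Map N σ, Gamma0Map N σ⁻¹, Gamma0Map_mul_inv σ, Gamma0Map_inv_mul σ⟩

@[simp] theorem coe_unitOf (σ : Gamma0 N) : ((unitOf σ : (ZMod N)ˣ) : ZMod N) = Gamma0Map N σ := rfl

theorem unitOf_mul (σ τ : Gamma0 N) : unitOf (σ * τ) = unitOf σ * unitOf τ := by
  ext
  simp [map_mul]

theorem unitOf_one : unitOf (1 : Gamma0 N) = 1 := by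
  ext
  simp

/-- **`Γ₀(N) → (ℤ/N)ˣ` is surjective.** -/
theorem exists_Gamma0_map_eq [NeZero N] (d : (ZMod N)ˣ) : ∃ σ : Gamma0 N, unitOf σ = d := by
  have hcop : Nat.Coprime (d : ZMod N).val N := ZMod.val_coe_unit_coprime d
  have hco : IsCoprime (((d : ZMod N).val : ℕ) : ℤ) (N : ℤ) := Nat.isCoprime_iff_coprime.mpr hcop
  obtain ⟨u, v, huv⟩ := hco
  -- the matrix `[[u, -v], [N, d']]`
  let A : SL(2, ℤ) := ⟨!![u, -v; (N : ℤ), ((d : ZMod N).val : ℤ)], by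
    rw [Matrix.det_fin_two_of]
    linarith⟩
  have hA : A ∈ Gamma0 N := by
    rw [Gamma0_mem]
    show (((N : ℤ) : ℤ) : ZMod N) = 0
    simp
  refine ⟨⟨A, hA⟩, ?_⟩
  ext
  show (((((d : ZMod N).val : ℕ) : ℤ) : ℤ) : ZMod N) = (d : ZMod N)
  simp

/-! ### invariant functions -/

variable {k : ℤ}

/-- `f` is invariant under `Γ₁(N)` in weight `k`. -/
def Inv1 (N : ℕ) (k : ℤ) (f : ℍ → ℂ) : Prop := ∀ γ ∈ Gamma1 N, f ∣[k] (γ : SL(2, ℤ)) = f

theorem Inv1.slash {f : ℍ → ℂ} (hf : Inv1 N k f) (σ : Gamma0 N) :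
    Inv1 N k (f ∣[k] (σ : SL(2, ℤ))) := by
  intro γ hγ
  have h1 : (σ : SL(2, ℤ)) * γ = ((σ : SL(2, ℤ)) * γ * (σ : SL(2, ℤ))⁻¹) * (σ : SL(2, ℤ)) := by
    group
  rw [← SlashAction.slash_mul, h1, SlashAction.slash_mul, hf _ (conj_mem_Gamma1 σ hγ)]

theorem Inv1.slash_eq_of_map_eq {f : ℍ → ℂ} (hf : Inv1 N k f) {σ σ' : Gamma0 N}
    (h : Gamma0Map N σ' = Gamma0Map N σ) :
    f ∣[k] (σ' : SL(2, ℤ)) = f ∣[k] (σ : SL(2, ℤ)) := by
  have h1 : (σ' : SL(2, ℤ)) = ((σ' : SL(2, ℤ)) * (σ : SL(2, ℤ))⁻¹) * (σ : SL(2, ℤ)) := by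
    group
  conv_lhs => rw [h1]
  rw [SlashAction.slash_mul, hf _ (mul_inv_mem_Gamma1 h)]

theorem Inv1.slash_eq_of_unitOf_eq {f : ℍ → ℂ} (hf : Inv1 N k f) {σ σ' : Gamma0 N}
    (h : unitOf σ' = unitOf σ) :
    f ∣[k] (σ' : SL(2, ℤ)) = f ∣[k] (σ : SL(2, ℤ)) :=
  hf.slash_eq_of_map_eq (by simpa using congrArg (fun u : (ZMod N)ˣ => (u : ZMod N)) h)

theorem Inv1.add {f g : ℍ → ℂ} (hf : Inv1 N k f) (hg : Inv1 N k g) : Inv1 N k (f + g) := by
  intro γ hγ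
  rw [SlashAction.add_slash, hf γ hγ, hg γ hγ]

theorem Inv1.smul {f : ℍ → ℂ} (hf : Inv1 N k f) (c : ℂ) : Inv1 N k (c • f) := by
  intro γ hγ
  rw [ModularForm.SL_smul_slash, hf γ hγ]

theorem Inv1.neg {f : ℍ → ℂ} (hf : Inv1 N k f) : Inv1 N k (-f) := by
  intro γ hγ
  rw [SlashAction.neg_slash, hf γ hγ]

theorem Inv1.sub {f g : ℍ → ℂ} (hf : Inv1 N k f) (hg : Inv1 N k g) : Inv1 N k (f - g) := by
  rw [sub_eq_add_neg]
  exact hf.add hg.neg

/-- forms on `Γ₁(N)` are invariant. -/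
theorem inv1_of_class {F : Type*} [FunLike F ℍ ℂ] [SlashInvariantFormClass F (Gamma1 N) k] (f : F) :
    Inv1 N k (⇑f) := fun _ hγ =>
  SlashInvariantFormClass.slash_action_eq f _ (Subgroup.mem_map_of_mem (mapGL ℝ) hγ)

/-- the converse, in the form needed to build forms. -/
theorem Inv1.slash_action_eq {f : ℍ → ℂ} (hf : Inv1 N k f) (γ : GL (Fin 2) ℝ)
    (hγ : γ ∈ (Gamma1 N : Subgroup (GL (Fin 2) ℝ))) : f ∣[k] γ = f := by
  obtain ⟨g, hg, rfl⟩ := hγ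
  exact hf g hg

/-! ### the chosen representatives -/

/-- a chosen element of `Γ₀(N)` with lower-right entry `d`. -/
def sigma [NeZero N] (d : (ZMod N)ˣ) : Gamma0 N := (exists_Gamma0_map_eq d).choose

@[simp] theorem unitOf_sigma [NeZero N] (d : (ZMod N)ˣ) : unitOf (sigma d) = d :=
  (exists_Gamma0_map_eq d).choose_spec

/-! ### cusps -/

theorem isCusp_smul_Gamma1 [NeZero N] {c : OnePoint ℝ}
    (hc : IsCusp c (Gamma1 N : Subgroup (GL (Fin 2) ℝ))) (σ : SL(2, ℤ)) :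
    IsCusp (mapGL ℝ σ • c) (Gamma1 N : Subgroup (GL (Fin 2) ℝ)) := by
  rw [Subgroup.IsArithmetic.isCusp_iff_isCusp_SL2Z] at hc ⊢
  exact hc.smul_of_mem ⟨σ, rfl⟩

/-! ### the diamond operators on cusp forms -/

variable [NeZero N]

/-- slash by an element of `Γ₀(N)`, as a map of cusp forms of `Γ₁(N)`. -/
def slashC (σ : Gamma0 N) (f : CuspForm (Gamma1 N) k) : CuspForm (Gamma1 N) k where
  toFun := ⇑f ∣[k] (σ : SL(2, ℤ))
  slash_action_eq' γ hγ := ((inv1_of_class f).slash σ).slash_action_eq γ hγ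
  holo' := (CuspFormClass.holo f).slash k _
  zero_at_cusps' {c} hc := by
    show OnePoint.IsZeroAt c (⇑f ∣[k] (mapGL ℝ (σ : SL(2, ℤ)))) k
    rw [← OnePoint.IsZeroAt.smul_iff]
    exact CuspFormClass.zero_at_cusps f (isCusp_smul_Gamma1 hc _)

@[simp] theorem coe_slashC (σ : Gamma0 N) (f : CuspForm (Gamma1 N) k) :
    ⇑(slashC σ f) = ⇑f ∣[k] (σ : SL(2, ℤ)) := rfl

/-- slash by an element of `Γ₀(N)`, as a map of modular forms of `Γ₁(N)`. -/
def slashM (σ : Gamma0 N) (f : ModularForm (Gamma1 N) k) : ModularForm (Gamma1 N) k where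
  toFun := ⇑f ∣[k] (σ : SL(2, ℤ))
  slash_action_eq' γ hγ := ((inv1_of_class f).slash σ).slash_action_eq γ hγ
  holo' := (ModularFormClass.holo f).slash k _
  bdd_at_cusps' {c} hc := by
    show OnePoint.IsBoundedAt c (⇑f ∣[k] (mapGL ℝ (σ : SL(2, ℤ)))) k
    rw [← OnePoint.IsBoundedAt.smul_iff]
    exact ModularFormClass.bdd_at_cusps f (isCusp_smul_Gamma1 hc _)

@[simp] theorem coe_slashM (σ : Gamma0 N) (f : ModularForm (Gamma1 N) k) :
    ⇑(slashM σ f) = ⇑f ∣[k] (σ : SL(2, ℤ)) := rfl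

/-- **the diamond operator `⟨d⟩` on cusp forms of `Γ₁(N)`.** -/
def diamondC (d : (ZMod N)ˣ) : CuspForm (Gamma1 N) k →ₗ[ℂ] CuspForm (Gamma1 N) k where
  toFun f := slashC (sigma d) f
  map_add' f g := DFunLike.coe_injective <| by
    show (⇑(f + g)) ∣[k] ((sigma d : Gamma0 N) : SL(2, ℤ)) = _
    rw [FunLike.coe_add, SlashAction.add_slash]
    rfl
  map_smul' c f := DFunLike.coe_injective <| by
    show (⇑(c • f)) ∣[k] ((sigma d : Gamma0 N) : SL(2, ℤ)) = _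
    rw [FunLike.coe_smul, ModularForm.SL_smul_slash]
    rfl

/-- the diamond operator is slash by ANY element of `Γ₀(N)` with lower-right entry `d`. -/
theorem coe_diamondC (d : (ZMod N)ˣ) (f : CuspForm (Gamma1 N) k) (σ : Gamma0 N)
    (hσ : unitOf σ = d) : ⇑(diamondC d f) = ⇑f ∣[k] (σ : SL(2, ℤ)) :=
  (inv1_of_class f).slash_eq_of_unitOf_eq (by rw [unitOf_sigma, hσ])

theorem diamondC_one (f : CuspForm (Gamma1 N) k) : diamondC 1 f = f :=
  DFunLike.coe_injective <| by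
    rw [coe_diamondC 1 f 1 unitOf_one]
    show ⇑f ∣[k] (1 : SL(2, ℤ)) = ⇑f
    exact SlashAction.slash_one k _

theorem diamondC_mul (d e : (ZMod N)ˣ) (f : CuspForm (Gamma1 N) k) :
    diamondC (d * e) f = diamondC e (diamondC d f) :=
  DFunLike.coe_injective <| by
    rw [coe_diamondC (d * e) f (sigma d * sigma e) (by rw [unitOf_mul, unitOf_sigma, unitOf_sigma]),
      coe_diamondC e _ (sigma e) (unitOf_sigma e), coe_diamondC d f (sigma d) (unitOf_sigma d)]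
    show ⇑f ∣[k] (((sigma d : Gamma0 N) : SL(2, ℤ)) * ((sigma e : Gamma0 N) : SL(2, ℤ))) = _
    exact SlashAction.slash_mul k _ _ _

theorem diamondC_comm (d e : (ZMod N)ˣ) (f : CuspForm (Gamma1 N) k) :
    diamondC d (diamondC e f) = diamondC e (diamondC d f) := by
  rw [← diamondC_mul, ← diamondC_mul, mul_comm]

theorem diamondC_inv_apply (d : (ZMod N)ˣ) (f : CuspForm (Gamma1 N) k) :
    diamondC d⁻¹ (diamondC d f) = f := by
  rw [← diamondC_mul, mul_inv_cancel, diamondC_one]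

theorem diamondC_apply_inv (d : (ZMod N)ˣ) (f : CuspForm (Gamma1 N) k) :
    diamondC d (diamondC d⁻¹ f) = f := by
  rw [← diamondC_mul, inv_mul_cancel, diamondC_one]

theorem diamondC_pow (d : (ZMod N)ˣ) (m : ℕ) (f : CuspForm (Gamma1 N) k) :
    diamondC (d ^ m) f = (diamondC d)^[m] f := by
  induction m generalizing f with
  | zero => simp [diamondC_one]
  | succ m ih =>
    rw [pow_succ, diamondC_mul, ih, Function.iterate_succ_apply']

/-- **the diamond operator `⟨d⟩` on modular forms of `Γ₁(N)`.** -/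
def diamondM (d : (ZMod N)ˣ) : ModularForm (Gamma1 N) k →ₗ[ℂ] ModularForm (Gamma1 N) k where
  toFun f := slashM (sigma d) f
  map_add' f g := DFunLike.coe_injective <| by
    show (⇑(f + g)) ∣[k] ((sigma d : Gamma0 N) : SL(2, ℤ)) = _
    rw [FunLike.coe_add, SlashAction.add_slash]
    rfl
  map_smul' c f := DFunLike.coe_injective <| by
    show (⇑(c • f)) ∣[k] ((sigma d : Gamma0 N) : SL(2, ℤ)) = _
    rw [FunLike.coe_smul, ModularForm.SL_smul_slash]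
    rfl

theorem coe_diamondM (d : (ZMod N)ˣ) (f : ModularForm (Gamma1 N) k) (σ : Gamma0 N)
    (hσ : unitOf σ = d) : ⇑(diamondM d f) = ⇑f ∣[k] (σ : SL(2, ℤ)) :=
  (inv1_of_class f).slash_eq_of_unitOf_eq (by rw [unitOf_sigma, hσ])

theorem diamondM_one (f : ModularForm (Gamma1 N) k) : diamondM 1 f = f :=
  DFunLike.coe_injective <| by
    rw [coe_diamondM 1 f 1 unitOf_one]
    show ⇑f ∣[k] (1 : SL(2, ℤ)) = ⇑f
    exact SlashAction.slash_one k _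

theorem diamondM_mul (d e : (ZMod N)ˣ) (f : ModularForm (Gamma1 N) k) :
    diamondM (d * e) f = diamondM e (diamondM d f) :=
  DFunLike.coe_injective <| by
    rw [coe_diamondM (d * e) f (sigma d * sigma e) (by rw [unitOf_mul, unitOf_sigma, unitOf_sigma]),
      coe_diamondM e _ (sigma e) (unitOf_sigma e), coe_diamondM d f (sigma d) (unitOf_sigma d)]
    show ⇑f ∣[k] (((sigma d : Gamma0 N) : SL(2, ℤ)) * ((sigma e : Gamma0 N) : SL(2, ℤ))) = _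
    exact SlashAction.slash_mul k _ _ _

end Fermat.Agent.M48.Diamond1
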