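/-
Programme M48, pillar (P1) — helper8.  **SHARED DEFINITIONS for the geometric side of (P1)**:
the objects about which the chapters [KUM1] (Kummer theory, Hecke compatibility) and [ESRED1]
(Eichler–Shimura relation on the special fibre) must agree LITERALLY.

For a field `K ⊇ ℚ` (used with `K = ℚbar` and `K = ℂ`):

* `FK K M L = K · fieldG10 M L ⊂ K((q))`, the function field of `X(Γ₁(M) ∩ Γ₀(M L))` over `K`
  (helper4's model, ruling R2 of report 162);
* `alpha1 K M ℓ : FK K M 1 →ₐ[K] FK K M ℓ` (inclusion; "forget the subgroup `C`"),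
  `beta1 K M ℓ : FK K M 1 →ₐ[K] FK K M ℓ` (`q ↦ q^ℓ`; "divide by `C`");
* `hecke1 K M ℓ := β_* α^*` on `Pic⁰ (FK K M 1)` (**ruling R4**: pull back along `α`, push forward
  along `β`; on points `[E, P] ↦ ∑_C [E/C, P mod C]`; on functions the norm `f ↦ ∏_δ f ∘ δ` over
  `Γ₁ \ Γ₁ diag(1,ℓ) Γ₁`, the double coset of helper1's `T_ℓ`), total (`0` if the inputs fail);
* `IsDiamondAut K M d δ` : `δ` is the `K`-automorphism of `FK K M 1` fixing `j(q^e)` (`e ∣ M`) with
  `δ g_{M,a} = g_{M, a d⁻¹}` (analytically `f ↦ f ∘ σ_d`, `σ_d ∈ Γ₀(M)` with lower right entry `d`);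
* `dia1 K M d` : the action of that automorphism on `Pic⁰` (= push-forward by `[E, P] ↦ [E, d P]`),
  total;
* `J1 M = Pic⁰ (FK ℚbar M 1)` with the Prelude's `Gal(ℚbar/ℚ)`-action.
-/
import Mathlib
import Fermat.Agent.M48.DictIface4
import Fermat.Prelude.Def_ModularCurve_HeckeOperator
import Fermat.Prelude.Thm_ModularCurve_coeffMap_qExpand

set_option autoImplicit false
set_option linter.unusedSectionVars false
set_option linter.style.haveILetI false

open AlgebraicCurve ModularCurve IntermediateField HahnSeries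

noncomputable section

namespace Fermat.Agent.M48.J1Defs8

open Fermat.Agent.M48.DictIface4

/-! ### Monotonicity of `laurentBaseChange` (public copies of the Prelude's private lemmas) -/

section Supply

variable (K : Type*) [Field K] [Algebra ℚ K]

theorem coeffEmb_qExpand (n : ℕ) [NeZero n] (x : LaurentSeries ℚ) :
    coeffEmb K (qExpand ℚ n x) = qExpand K n (coeffEmb K x) :=
  ModularCurve.coeffMap_qExpand _ n x

theorem laurentBaseChange_mono {F₀ F₁ : IntermediateField ℚ (LaurentSeries ℚ)} (h : F₀ ≤ F₁) :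
    laurentBaseChange K F₀ ≤ laurentBaseChange K F₁ := by
  rw [laurentBaseChange, IntermediateField.adjoin_le_iff]
  rintro _ ⟨y, hy, rfl⟩
  exact coeffEmb_mem_laurentBaseChange K (h hy)

variable {K} in
theorem qExpand_mem_laurentBaseChange {F₀ F₁ : IntermediateField ℚ (LaurentSeries ℚ)} (n : ℕ)
    [NeZero n] (hF : ∀ y ∈ F₀, qExpand ℚ n y ∈ F₁) {x : LaurentSeries K}
    (hx : x ∈ laurentBaseChange K F₀) : qExpand K n x ∈ laurentBaseChange K F₁ := by
  rw [mem_laurentBaseChange_iff] at hx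
  induction hx using Subfield.closure_induction with
  | mem y hy =>
      rcases hy with ⟨a, rfl⟩ | ⟨z, hz, rfl⟩
      · rw [algebraMap_laurentSeries_eq_single, qExpand_single, mul_zero,
          ← algebraMap_laurentSeries_eq_single]
        exact (laurentBaseChange K F₁).algebraMap_mem _
      · rw [← coeffEmb_qExpand]
        exact coeffEmb_mem_laurentBaseChange K (hF z hz)
  | one => simp
  | add x y _ _ hx hy => simpa using add_mem hx hy
  | neg x _ hx => simpa using neg_mem hx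
  | inv x _ hx => simpa using inv_mem hx
  | mul x y _ _ hx hy => simpa using mul_mem hx hy

end Supply

/-! ### The tower of fields `fieldG10 M L` -/

section Tower

theorem divisorExpansions_mono {N N' : ℕ} (h : N ∣ N') :
    divisorExpansions N ⊆ divisorExpansions N' := by
  rintro x ⟨d, hne, hd, rfl⟩
  exact ⟨d, hne, hd.trans h, rfl⟩

theorem gExpansions_mono (M : ℕ) {L L' : ℕ} (h : L ∣ L') : gExpansions M L ⊆ gExpansions M L' := by
  rintro x ⟨a, e, hne, he, rfl⟩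
  exact ⟨a, e, hne, he.trans h, rfl⟩

/-- `fieldG10 M L ≤ fieldG10 M L'` for `L ∣ L'` (the forgetful map `α`). -/
theorem fieldG10_mono (M : ℕ) {L L' : ℕ} (h : L ∣ L') : fieldG10 M L ≤ fieldG10 M L' :=
  IntermediateField.adjoin.mono ℚ _ _
    (Set.union_subset_union (divisorExpansions_mono (mul_dvd_mul_left M h)) (gExpansions_mono M h))

/-- `f(q) ↦ f(q^ℓ)` maps `fieldG10 M L` into `fieldG10 M (L * ℓ)` (the quotient map `β`). -/
theorem qExpand_mem_fieldG10 (M L ℓ : ℕ) [NeZero ℓ] {y : LaurentSeries ℚ} (hy : y ∈ fieldG10 M L) :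
    qExpand ℚ ℓ y ∈ fieldG10 M (L * ℓ) := by
  have hmap : (fieldG10 M L).map (qExpandₐ ℓ) ≤ fieldG10 M (L * ℓ) := by
    rw [fieldG10, IntermediateField.adjoin_map, IntermediateField.adjoin_le_iff]
    rintro x ⟨z, hz, rfl⟩
    rcases hz with ⟨d, hne, hd, rfl⟩ | ⟨a, e, hne, he, rfl⟩
    · haveI := hne
      haveI : NeZero (ℓ * d) := ⟨Nat.mul_ne_zero (NeZero.ne ℓ) (NeZero.ne d)⟩
      show qExpandₐ ℓ (qExpand ℚ d jq) ∈ _
      rw [qExpandₐ_apply, qExpand_qExpand]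
      refine IntermediateField.subset_adjoin ℚ _ (Or.inl ⟨ℓ * d, inferInstance, ?_, rfl⟩)
      rw [← mul_assoc, mul_comm ℓ d]
      exact mul_dvd_mul_right hd ℓ
    · haveI := hne
      haveI : NeZero (ℓ * e) := ⟨Nat.mul_ne_zero (NeZero.ne ℓ) (NeZero.ne e)⟩
      show qExpandₐ ℓ (qExpand ℚ e (gq M (a : ZMod M))) ∈ _
      rw [qExpandₐ_apply, qExpand_qExpand]
      refine IntermediateField.subset_adjoin ℚ _ (Or.inr ⟨a, ℓ * e, inferInstance, ?_, rfl⟩)
      rw [mul_comm ℓ e]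
      exact mul_dvd_mul_right he ℓ
  exact hmap ⟨y, hy, rfl⟩

end Tower

/-! ### The function fields over `K` and the two degeneracy maps -/

section Fields

variable (K : Type*) [Field K] [Algebra ℚ K]

/-- The function field of `X(Γ₁(M) ∩ Γ₀(M L))` over `K`. -/
abbrev FK (M L : ℕ) : IntermediateField K (LaurentSeries K) := laurentBaseChange K (fieldG10 M L)

/-- `α^*` : the inclusion `FK K M 1 ⊆ FK K M ℓ`. -/
def alpha1 (M ℓ : ℕ) : FK K M 1 →ₐ[K] FK K M ℓ :=
  IntermediateField.inclusion (laurentBaseChange_mono K (fieldG10_mono M (one_dvd ℓ)))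

@[simp]
theorem coe_alpha1 (M ℓ : ℕ) (x : FK K M 1) :
    (alpha1 K M ℓ x : LaurentSeries K) = (x : LaurentSeries K) :=
  IntermediateField.coe_inclusion _ x

theorem qExpand_mem_FK (M ℓ : ℕ) [NeZero ℓ] (x : FK K M 1) :
    qExpand K ℓ (x : LaurentSeries K) ∈ FK K M ℓ :=
  qExpand_mem_laurentBaseChange ℓ
    (fun y hy => by
      have h := qExpand_mem_fieldG10 M 1 ℓ hy
      rwa [one_mul] at h) x.2

/-- `β^*` as a ring homomorphism: `f(q) ↦ f(q^ℓ)`. -/
def beta1RingHom (M ℓ : ℕ) [NeZero ℓ] : FK K M 1 →+* FK K M ℓ where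
  toFun x := ⟨qExpand K ℓ (x : LaurentSeries K), qExpand_mem_FK K M ℓ x⟩
  map_one' := Subtype.ext (map_one (qExpand K ℓ))
  map_mul' _ _ := Subtype.ext (map_mul (qExpand K ℓ) _ _)
  map_zero' := Subtype.ext (map_zero (qExpand K ℓ))
  map_add' _ _ := Subtype.ext (map_add (qExpand K ℓ) _ _)

/-- `β^*` : `f(q) ↦ f(q^ℓ)`, `FK K M 1 → FK K M ℓ`. -/
def beta1 (M ℓ : ℕ) [NeZero ℓ] : FK K M 1 →ₐ[K] FK K M ℓ :=
  { beta1RingHom K M ℓ with
    commutes' := fun a => Subtype.ext <| by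
      show qExpand K ℓ (algebraMap K (LaurentSeries K) a) = algebraMap K (LaurentSeries K) a
      rw [algebraMap_laurentSeries_eq_single, qExpand_single, mul_zero] }

@[simp]
theorem coe_beta1 (M ℓ : ℕ) [NeZero ℓ] (x : FK K M 1) :
    (beta1 K M ℓ x : LaurentSeries K) = qExpand K ℓ (x : LaurentSeries K) :=
  rfl

/-! ### The Hecke correspondence `T_ℓ = β_* α^*` on `Pic⁰` -/

/-- The function-field inputs needed to define `β_* α^*` on `Pic⁰`. -/
def Hecke1Inputs (M ℓ : ℕ) [NeZero ℓ] : Prop :=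
  ∃ (hα : (alpha1 K M ℓ).toRingHom.IsIntegral) (_ : (beta1 K M ℓ).toRingHom.IsIntegral)
    (_ : HasPrincipalDivisors K (FK K M ℓ)) (hfin : FiniteAlong K (beta1 K M ℓ)),
    FundamentalIdentityAlong K (alpha1 K M ℓ) hα ∧ NormFormulaAlong K (beta1 K M ℓ) hfin

open Classical in
/-- **`T_ℓ` on `Pic⁰ (FK K M 1)`**: `β_* α^*` (pull back along `α`, push forward along `β`);
`0` if the inputs fail. -/
def hecke1 (M ℓ : ℕ) [NeZero ℓ] : Pic0 K (FK K M 1) →+ Pic0 K (FK K M 1) :=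
  if h : Hecke1Inputs K M ℓ then
    haveI := h.snd.snd.fst
    Pic0.correspondence (alpha1 K M ℓ) (beta1 K M ℓ) h.fst h.snd.fst h.snd.snd.snd.snd.1
      h.snd.snd.snd.fst h.snd.snd.snd.snd.2
  else 0

variable {K} in
theorem hecke1_eq {M ℓ : ℕ} [NeZero ℓ] (hα : (alpha1 K M ℓ).toRingHom.IsIntegral)
    (hβ : (beta1 K M ℓ).toRingHom.IsIntegral) [hP : HasPrincipalDivisors K (FK K M ℓ)]
    (hFI : FundamentalIdentityAlong K (alpha1 K M ℓ) hα) (hfin : FiniteAlong K (beta1 K M ℓ))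
    (hN : NormFormulaAlong K (beta1 K M ℓ) hfin) :
    hecke1 K M ℓ = Pic0.correspondence (alpha1 K M ℓ) (beta1 K M ℓ) hα hβ hFI hfin hN := by
  have h : Hecke1Inputs K M ℓ := ⟨hα, hβ, hP, hfin, hFI, hN⟩
  rw [hecke1, dif_pos h]

/-- `T_ℓ` for an arbitrary natural number `ℓ` (`0` for `ℓ = 0`). -/
def hecke1' (M ℓ : ℕ) : Pic0 K (FK K M 1) →+ Pic0 K (FK K M 1) :=
  if h : ℓ = 0 then 0 else
    haveI : NeZero ℓ := ⟨h⟩
    hecke1 K M ℓ

theorem hecke1'_eq (M ℓ : ℕ) [NeZero ℓ] : hecke1' K M ℓ = hecke1 K M ℓ := by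
  rw [hecke1', dif_neg (NeZero.ne ℓ)]

/-! ### The diamond automorphisms -/

/-- `δ` is **the diamond automorphism `⟨d⟩`** of `FK K M 1`: it fixes `j(q^e)` (`e ∣ M`) and maps
`g_{M,a}` to `g_{M, a d⁻¹}`.  (Analytically `δ f = f ∘ σ_d`, `σ_d ∈ Γ₀(M)` with lower right entry
`≡ d`; on the curve, `δ •` is the push-forward by `[E, P] ↦ [E, d P]`.) -/
def IsDiamondAut (M : ℕ) (d : (ZMod M)ˣ) (δ : FK K M 1 ≃ₐ[K] FK K M 1) : Prop :=
  (∀ (e : ℕ) [NeZero e], e ∣ M → ∀ y : FK K M 1,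
      (y : LaurentSeries K) = coeffEmb K (qExpand ℚ e jq) → δ y = y) ∧
  ∀ (a : (ZMod M)ˣ) (y : FK K M 1), (y : LaurentSeries K) = coeffEmb K (gq M (a : ZMod M)) →
    ((δ y : FK K M 1) : LaurentSeries K) = coeffEmb K (gq M ((a * d⁻¹ : (ZMod M)ˣ) : ZMod M))

open Classical in
/-- **`⟨d⟩` on `Pic⁰ (FK K M 1)`** (push-forward by `[E, P] ↦ [E, d P]`); `0` if the automorphism
does not exist. -/
def dia1 (M : ℕ) (d : (ZMod M)ˣ) : Pic0 K (FK K M 1) →+ Pic0 K (FK K M 1) :=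
  if h : ∃ δ : FK K M 1 ≃ₐ[K] FK K M 1, IsDiamondAut K M d δ then
    DistribSMul.toAddMonoidHom (Pic0 K (FK K M 1)) (SemilinearAut.ofAlgAut h.choose)
  else 0

end Fields

/-! ### `J₁(M)` -/

/-- `ℚbar`. -/
local notation "Qb" => AlgebraicClosure ℚ

/-- **`J₁(M)(ℚbar)`**: `Pic⁰` of the function field of `X₁(M)` over `ℚbar`. -/
abbrev J1 (M : ℕ) : Type := Pic0 Qb (FK Qb M 1)

example (M : ℕ) : DistribMulAction (Qb ≃ₐ[ℚ] Qb) (J1 M) := inferInstance

end Fermat.Agent.M48.J1Defs8
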