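/-
M48 (P1), chapters [KUM1]/[GAL1]/[ESRED1] (helper5): **EXISTENCE AND UNIQUENESS OF THE DIAMOND
AUTOMORPHISMS** of `FK K M 1 = K · fieldG10 M 1` (the function field of `X₁(M)` over `K`), i.e. the
hypothesis under which helper8's `J1Defs8.dia1` is the honest diamond operator.

* Part A (generic, any `A : AnModel Γ N F₀`): a `σ ∈ SL(2, ℤ)` normalising `Γ` acts on the function
  field: `autOf A hσ hσ' : A.F ≃ₐ[ℂ] A.F` with `realMer A (autOf … f) = slMer σ (realMer A f)`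
  (`f ↦ f ∘ σ`; from helper4's exactness `Θ(F) = Frac 𝒜(Γ)`), `autOf_coe`;
* analytic: `eis12_slash`, `compSL_gFun : gFun M a ∘ σ = gFun M (a σ₀₀)` for `σ ∈ Γ₀(M)`;
* Part B: for a model `A` of `Γ₁(M) = Gamma10 M (M * 1)` with the generators realised by `jdFun`,
  `gFun` (`JReal A`, `GReal A` = the two clauses of `DictIface4.G10ModelStmt` at `L = 1`):
  `diaC A σ hσ`, `isDiamondAut_diaC : IsDiamondAut ℂ M d (diaC A σ hσ)` if `σ₁₁ ≡ d`;
* Part C: `FK_induction` (induction principle for `FK K M 1 = K(j(q^e), g_{M,a})`), generators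
  `jGen`, `gGen`, `algHom_ext_FK`, `isDiamondAut_iff`, `diaAut_unique`, `diaAut_symm`, `diaAut_trans`,
  `isDiamondAut_one`; descent along any `ι : K →+* ℂ`: `inclC ι : FK K M 1 →+* FK ℂ M 1`,
  `descAut hδ : FK K M 1 ≃ₐ[K] FK K M 1`, `inclC_descAut`, `isDiamondAut_descAut`;
* Part D: `diaAut_comm_arithmetic` (a diamond automorphism commutes with the coefficientwise action
  of `Aut(K/ℚ)`), **`dia1_smul : dia1 K M d (τ • y) = τ • dia1 K M d y`** (= the clause `dia_smul` of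
  `P1Jac8.GAL1`, unconditionally);
* main: **`exists_isDiamondAut_complex`, `exists_isDiamondAut_of_emb`, `exists_isDiamondAut_Qbar`**
  (from `G10ModelStmt`, `2 ≤ M`), `realMer_of_isDiamondAut` (the diamond automorphism is `f ↦ f ∘ σ_d`
  on realisations), `dia1_eq`.
-/
import Fermat.Agent.M48.AnRatio4
import Fermat.Agent.M48.J1Defs8
import Fermat.Agent.M48.Diamond1

set_option autoImplicit false
set_option linter.unusedSectionVars false
set_option linter.style.haveILetI false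
set_option synthInstance.maxHeartbeats 400000

open UpperHalfPlane ModularCurve AlgebraicCurve CongruenceSubgroup
open scoped MatrixGroups ModularForm

noncomputable section

namespace Fermat.Agent.M48.DiamondAut5

open Fermat.Agent.X0 Fermat.Agent.X0.Analytic Fermat.Agent.X0.SurjPoint Fermat.Agent.ES.KUM
open Fermat.Agent.M48.DictIface4 Fermat.Agent.M48.AnReal4 Fermat.Agent.M48.AnRatio4

/-! ### Part A: a normalising element of `SL(2, ℤ)` acts on the function field of a model -/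

section Generic

variable {Γ : Subgroup SL(2, ℤ)} {N : ℕ} {F₀ : IntermediateField ℚ (LaurentSeries ℚ)}
  (A : AnModel Γ N F₀) [NeZero N]

/-- `σ` normalises `Γ` (in the form needed: `σ Γ σ⁻¹ ⊆ Γ`). -/
def Normalizes (Γ : Subgroup SL(2, ℤ)) (σ : SL(2, ℤ)) : Prop := ∀ γ ∈ Γ, σ * γ * σ⁻¹ ∈ Γ

theorem compSLHom_mem_algA {σ : SL(2, ℤ)} (hσ : Normalizes Γ σ) {a : HolH} (ha : a ∈ algA Γ) :
    compSLHom σ a ∈ algA Γ := by
  obtain ⟨hinv, m, hm⟩ := ha
  refine ⟨fun γ hγ => ?_, m, fun γ => ?_⟩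
  · funext z
    show a.1 (σ • (γ • z)) = a.1 (σ • z)
    have h1 : σ • (γ • z) = (σ * γ * σ⁻¹) • (σ • z) := by
      rw [← mul_smul, ← mul_smul]
      congr 1
      group
    rw [h1]
    exact congrFun (hinv _ (hσ γ hγ)) (σ • z)
  · have : compSL (compSLHom σ a).1 γ = compSL a.1 (σ * γ) := by
      funext z
      show a.1 (σ • (γ • z)) = a.1 ((σ * γ) • z)
      rw [mul_smul]
    rw [this]
    exact hm (σ * γ)

theorem slMer_mem_fracA {σ : SL(2, ℤ)} (hσ : Normalizes Γ σ) {y : MerH} (hy : y ∈ fracA Γ) :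
    slMer σ y ∈ fracA Γ := by
  obtain ⟨a, b, ha, hb, hb0, rfl⟩ := (mem_fracA_iff Γ y).mp hy
  rw [slMer_div]
  refine (mem_fracA_iff Γ _).mpr ⟨compSLHom σ a, compSLHom σ b, compSLHom_mem_algA hσ ha,
    compSLHom_mem_algA hσ hb, ?_, rfl⟩
  intro h0
  exact hb0 (compSLHom_injective σ (h0.trans (map_zero _).symm))

theorem exists_realMer_eq_slMer {σ : SL(2, ℤ)} (hσ : Normalizes Γ σ) (f : A.F) :
    ∃ f' : A.F, realMer A f' = slMer σ (realMer A f) :=
  exists_realMer_eq_of_mem_fracA A (slMer_mem_fracA hσ (realMer_mem_fracA A f))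

/-- the underlying function of the automorphism. -/
def autFun {σ : SL(2, ℤ)} (hσ : Normalizes Γ σ) (f : A.F) : A.F :=
  (exists_realMer_eq_slMer A hσ f).choose

theorem realMer_autFun {σ : SL(2, ℤ)} (hσ : Normalizes Γ σ) (f : A.F) :
    realMer A (autFun A hσ f) = slMer σ (realMer A f) :=
  (exists_realMer_eq_slMer A hσ f).choose_spec

theorem realMer_injective : Function.Injective (realMer A) := emb_injective A 1

/-- `f ↦ f ∘ σ` as a `ℂ`-algebra endomorphism of the function field. -/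
def autHom {σ : SL(2, ℤ)} (hσ : Normalizes Γ σ) : A.F →ₐ[ℂ] A.F where
  toFun := autFun A hσ
  map_one' := by
    apply realMer_injective A
    rw [realMer_autFun, RingHom.map_one, RingHom.map_one]
  map_mul' x y := by
    apply realMer_injective A
    rw [realMer_autFun, RingHom.map_mul, RingHom.map_mul, RingHom.map_mul, realMer_autFun,
      realMer_autFun]
  map_zero' := by
    apply realMer_injective A
    rw [realMer_autFun, RingHom.map_zero, RingHom.map_zero]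
  map_add' x y := by
    apply realMer_injective A
    rw [realMer_autFun, RingHom.map_add, RingHom.map_add, RingHom.map_add, realMer_autFun,
      realMer_autFun]
  commutes' c := by
    apply realMer_injective A
    rw [realMer_autFun, AnReal4.realMer_algebraMap, slMer_const]

@[simp] theorem realMer_autHom {σ : SL(2, ℤ)} (hσ : Normalizes Γ σ) (f : A.F) :
    realMer A (autHom A hσ f) = slMer σ (realMer A f) := realMer_autFun A hσ f

theorem normalizes_inv {σ : SL(2, ℤ)} (hσ' : Normalizes Γ σ⁻¹) : Normalizes Γ σ⁻¹ := hσ'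

/-- **`f ↦ f ∘ σ` as a `ℂ`-algebra automorphism of the function field** (`σ` and `σ⁻¹` normalise
`Γ`). -/
def autOf {σ : SL(2, ℤ)} (hσ : Normalizes Γ σ) (hσ' : Normalizes Γ σ⁻¹) : A.F ≃ₐ[ℂ] A.F :=
  AlgEquiv.ofAlgHom (autHom A hσ) (autHom A hσ')
    (AlgHom.ext fun f => by
      apply realMer_injective A
      rw [AlgHom.comp_apply, realMer_autHom, realMer_autHom, AlgHom.id_apply]
      exact slMer_inv_cancel σ _)
    (AlgHom.ext fun f => by
      apply realMer_injective A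
      rw [AlgHom.comp_apply, realMer_autHom, realMer_autHom, AlgHom.id_apply]
      exact slMer_cancel_inv σ _)

@[simp] theorem realMer_autOf {σ : SL(2, ℤ)} (hσ : Normalizes Γ σ) (hσ' : Normalizes Γ σ⁻¹)
    (f : A.F) : realMer A (autOf A hσ hσ' f) = slMer σ (realMer A f) := realMer_autFun A hσ f

/-- on `R`: if `Θ u' = Θ u ∘ σ` then the automorphism maps `u` to `u'`. -/
theorem autOf_coe {σ : SL(2, ℤ)} (hσ : Normalizes Γ σ) (hσ' : Normalizes Γ σ⁻¹) (u u' : A.R)
    (h : ((A.Θ u' : HolH) : ℍ → ℂ) = compSL ((A.Θ u : HolH) : ℍ → ℂ) σ) :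
    autOf A hσ hσ' ((u : A.R) : A.F) = ((u' : A.R) : A.F) := by
  apply realMer_injective A
  rw [realMer_autOf, AnReal4.realMer_coe, AnReal4.realMer_coe, slMer_algebraMap]
  congr 1
  exact Subtype.ext h.symm

end Generic

section Analytic

open Matrix in
/-- the first coordinate of `v σ⁻¹` modulo `M`, for `σ ∈ Γ₀(M)`. -/
theorem vecMul_inv_zero (M : ℕ) (σ : SL(2, ℤ)) (hσ : σ ∈ Gamma0 M) (v : Fin 2 → ℤ) :
    (((v ᵥ* ((σ⁻¹ : SL(2, ℤ)) : Matrix (Fin 2) (Fin 2) ℤ)) 0 : ℤ) : ZMod M) =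
      ((v 0 : ℤ) : ZMod M) * ((σ 1 1 : ℤ) : ZMod M) := by
  rw [Gamma0_mem] at hσ
  rw [Matrix.SpecialLinearGroup.coe_inv, Matrix.adjugate_fin_two]
  simp only [Matrix.vecMul, dotProduct, Fin.sum_univ_two, Matrix.of_apply, Matrix.cons_val_zero,
    Matrix.cons_val_one]
  push_cast
  rw [hσ]
  ring

/-- `σ₀₀ σ₁₁ ≡ 1 (mod M)` for `σ ∈ Γ₀(M)`. -/
theorem Gamma0_diag_mul (M : ℕ) (σ : SL(2, ℤ)) (hσ : σ ∈ Gamma0 M) :
    ((σ 0 0 : ℤ) : ZMod M) * ((σ 1 1 : ℤ) : ZMod M) = 1 := by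
  rw [Gamma0_mem] at hσ
  have hdet := Matrix.SpecialLinearGroup.det_coe σ
  rw [Matrix.det_fin_two] at hdet
  have h := congrArg (fun x : ℤ => (x : ZMod M)) hdet
  simp only [Int.cast_sub, Int.cast_mul, Int.cast_one] at h
  rw [hσ, mul_zero, sub_zero] at h
  exact h

/-- **`E₁₂^{(a)} ∣ σ = E₁₂^{(a σ₀₀)}`** for `σ ∈ Γ₀(M)`. -/
theorem eis12_slash (M : ℕ) (a : ZMod M) (σ : SL(2, ℤ)) (hσ : σ ∈ Gamma0 M) :
    eis12 M a ∣[(12 : ℤ)] σ = eis12 M (a * ((σ 0 0 : ℤ) : ZMod M)) := by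
  unfold eis12
  rw [EisChar20.eisW_slash]
  congr 1
  funext v
  unfold wInd
  rw [vecMul_inv_zero M σ hσ v]
  have h1 := Gamma0_diag_mul M σ hσ
  congr 1
  apply propext
  constructor
  · intro h
    rw [← h, mul_assoc, mul_comm ((σ 1 1 : ℤ) : ZMod M), h1, mul_one]
  · intro h
    rw [h, mul_assoc, h1, mul_one]

/-- **`g_{M,a} ∘ σ = g_{M, a σ₀₀}`** for `σ ∈ Γ₀(M)`. -/
theorem compSL_gFun (M : ℕ) (a : ZMod M) (σ : SL(2, ℤ)) (hσ : σ ∈ Gamma0 M) :
    compSL (gFun M a) σ = gFun M (a * ((σ 0 0 : ℤ) : ZMod M)) := by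
  funext z
  have h1 := congrFun (eis12_slash M a σ hσ) z
  rw [ModularForm.SL_slash_apply] at h1
  have hd : denom σ z ≠ 0 := denom_ne_zero σ z
  have hΔ : ModularForm.discriminant z ≠ 0 := ModularForm.discriminant_ne_zero z
  show gFun M a (σ • z) = _
  unfold gFun
  rw [← h1, discriminant_smul]
  have hd12 : denom σ z ^ (12 : ℤ) ≠ 0 := zpow_ne_zero _ hd
  rw [_root_.zpow_neg]
  field_simp

end Analytic

/-! ### Part B: the diamond automorphism over `ℂ` from a model of `Γ₁(M)` -/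

section Instance

open Fermat.Agent.M48.Diamond1 Fermat.Agent.M48.J1Defs8

variable {M : ℕ} [NeZero M]

theorem scaleH_one' (z : ℍ) : scaleH 1 z = z := by
  apply UpperHalfPlane.ext
  rw [coe_scaleH]
  push_cast
  ring

theorem gamma10_mul_one : Gamma10 M (M * 1) = Gamma1 M := by
  unfold Gamma10
  rw [mul_one]
  exact inf_eq_left.mpr (Gamma1_in_Gamma0 M)

/-- elements of `Γ₀(M)` normalise `Γ₁(M) = Gamma10 M (M * 1)`. -/
theorem normalizes_of_mem_Gamma0 (σ : SL(2, ℤ)) (hσ : σ ∈ Gamma0 M) :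
    Normalizes (Gamma10 M (M * 1)) σ := by
  intro γ hγ
  rw [gamma10_mul_one] at hγ ⊢
  exact conj_mem_Gamma1 ⟨σ, hσ⟩ hγ

variable (A : AnModel (Gamma10 M (M * 1)) (M * 1) (fieldG10 M 1))

/-- the hypothesis on `j(q^d)`: realised by `jdFun d`. -/
def JReal : Prop :=
  ∀ (d : ℕ) [NeZero d], d ∣ M * 1 → ∃ u : A.R,
    (((u : A.R) : A.F) : LaurentSeries ℂ) = coeffEmb ℂ (qExpand ℚ d jq) ∧
    ((A.Θ u : HolH) : ℍ → ℂ) = jdFun d

/-- the hypothesis on `g_{M,a}(q^e)`: realised by `z ↦ gFun M a (e z)`. -/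
def GReal : Prop :=
  ∀ (a : (ZMod M)ˣ) (e : ℕ) [NeZero e], e ∣ 1 → ∃ u : A.R,
    (((u : A.R) : A.F) : LaurentSeries ℂ) = coeffEmb ℂ (qExpand ℚ e (gq M (a : ZMod M))) ∧
    ((A.Θ u : HolH) : ℍ → ℂ) = fun z => gFun M (a : ZMod M) (scaleH e z)

/-- **the automorphism `f ↦ f ∘ σ`** of `FK ℂ M 1` for `σ ∈ Γ₀(M)`. -/
def diaC (σ : SL(2, ℤ)) (hσ : σ ∈ Gamma0 M) : FK ℂ M 1 ≃ₐ[ℂ] FK ℂ M 1 :=
  autOf A (normalizes_of_mem_Gamma0 σ hσ) (normalizes_of_mem_Gamma0 σ⁻¹ (inv_mem hσ))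

theorem realMer_diaC (σ : SL(2, ℤ)) (hσ : σ ∈ Gamma0 M) (f : A.F) :
    realMer A (diaC A σ hσ f) = slMer σ (realMer A f) :=
  realMer_autOf A _ _ f

theorem isDiamondAut_diaC (hj : JReal A) (hg : GReal A) (σ : SL(2, ℤ)) (hσ : σ ∈ Gamma0 M)
    (d : (ZMod M)ˣ) (hd : ((σ 1 1 : ℤ) : ZMod M) = (d : ZMod M)) :
    IsDiamondAut ℂ M d (diaC A σ hσ) := by
  have hσ10 : (M : ℤ) ∣ σ 1 0 := by
    rw [Gamma0_mem] at hσ
    exact (ZMod.intCast_zmod_eq_zero_iff_dvd _ _).mp hσ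
  constructor
  · intro e _ he y hy
    obtain ⟨u, hu1, hu2⟩ := hj e (by rw [mul_one]; exact he)
    have hyu : y = ((u : A.R) : A.F) := Subtype.ext (hy.trans hu1.symm)
    rw [hyu]
    refine autOf_coe A _ _ u u ?_
    rw [hu2]
    funext z
    have he' : (e : ℤ) ∣ σ 1 0 := (Int.natCast_dvd_natCast.mpr he).trans hσ10
    exact (jdFun_smul_of_dvd σ e he' z).symm
  · intro a y hy
    obtain ⟨u, hu1, hu2⟩ := hg a 1 dvd_rfl
    obtain ⟨u', hu1', hu2'⟩ := hg (a * d⁻¹) 1 dvd_rfl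
    rw [qExpand_one_apply] at hu1 hu1'
    have hyu : y = ((u : A.R) : A.F) := Subtype.ext (hy.trans hu1.symm)
    rw [hyu]
    have key : diaC A σ hσ ((u : A.R) : A.F) = ((u' : A.R) : A.F) := by
      refine autOf_coe A _ _ u u' ?_
      rw [hu2, hu2']
      have h00 : ((σ 0 0 : ℤ) : ZMod M) = ((d⁻¹ : (ZMod M)ˣ) : ZMod M) := by
        have h1 := Gamma0_diag_mul M σ hσ
        rw [hd] at h1
        have h2 : ((d⁻¹ : (ZMod M)ˣ) : ZMod M) * (d : ZMod M) = 1 := by
          rw [← Units.val_mul, inv_mul_cancel, Units.val_one]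
        calc ((σ 0 0 : ℤ) : ZMod M) = ((σ 0 0 : ℤ) : ZMod M) * (((d⁻¹ : (ZMod M)ˣ) : ZMod M) * d) := by
              rw [h2, mul_one]
          _ = (((σ 0 0 : ℤ) : ZMod M) * d) * ((d⁻¹ : (ZMod M)ˣ) : ZMod M) := by ring
          _ = _ := by rw [h1, one_mul]
      have h3 : (fun z => gFun M ((a : ZMod M)) (scaleH 1 z)) = gFun M (a : ZMod M) := by
        funext z
        rw [scaleH_one']
      have h4 : (fun z => gFun M (((a * d⁻¹ : (ZMod M)ˣ)) : ZMod M) (scaleH 1 z)) =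
          gFun M (((a * d⁻¹ : (ZMod M)ˣ)) : ZMod M) := by
        funext z
        rw [scaleH_one']
      rw [h3, h4, compSL_gFun M _ σ hσ, h00, Units.val_mul]
    rw [key]
    exact hu1'

end Instance

/-! ### Part C: induction on `FK K M 1`, uniqueness, descent along `K → ℂ` -/

section Induction

open Fermat.Agent.M48.J1Defs8

variable {K : Type*} [Field K] [Algebra ℚ K] {M : ℕ}

theorem coeffEmb_algebraMap (q : ℚ) :
    coeffEmb K (algebraMap ℚ (LaurentSeries ℚ) q) =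
      algebraMap K (LaurentSeries K) (algebraMap ℚ K q) := by
  rw [algebraMap_laurentSeries_eq_single, algebraMap_laurentSeries_eq_single, coeffEmb,
    coeffMap_single]

/-- **Induction principle for `FK K M 1 = K(j(q^e), g_{M,a})`.** -/
theorem FK_induction (P : FK K M 1 → Prop)
    (hj : ∀ (e : ℕ) [NeZero e], e ∣ M → ∀ y : FK K M 1,
      (y : LaurentSeries K) = coeffEmb K (qExpand ℚ e jq) → P y)
    (hg : ∀ (a : (ZMod M)ˣ) (y : FK K M 1),
      (y : LaurentSeries K) = coeffEmb K (gq M (a : ZMod M)) → P y)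
    (hc : ∀ c : K, P (algebraMap K (FK K M 1) c))
    (hadd : ∀ x y, P x → P y → P (x + y))
    (hmul : ∀ x y, P x → P y → P (x * y))
    (hinv : ∀ x, P x → P x⁻¹) : ∀ x, P x := by
  -- the predicate on series
  let Q : LaurentSeries K → Prop := fun x => ∃ hx : x ∈ FK K M 1, P ⟨x, hx⟩
  have hQc : ∀ c : K, Q (algebraMap K (LaurentSeries K) c) := fun c =>
    ⟨(FK K M 1).algebraMap_mem c, hc c⟩
  have hQadd : ∀ x y, Q x → Q y → Q (x + y) := by
    rintro x y ⟨hx, px⟩ ⟨hy, py⟩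
    exact ⟨add_mem hx hy, hadd ⟨x, hx⟩ ⟨y, hy⟩ px py⟩
  have hQmul : ∀ x y, Q x → Q y → Q (x * y) := by
    rintro x y ⟨hx, px⟩ ⟨hy, py⟩
    exact ⟨mul_mem hx hy, hmul ⟨x, hx⟩ ⟨y, hy⟩ px py⟩
  have hQinv : ∀ x, Q x → Q x⁻¹ := by
    rintro x ⟨hx, px⟩
    exact ⟨inv_mem hx, hinv ⟨x, hx⟩ px⟩
  have hQ0 : ∀ z : LaurentSeries ℚ,
      z ∈ IntermediateField.adjoin ℚ (divisorExpansions (M * 1) ∪ gExpansions M 1) →
        Q (coeffEmb K z) := by
    intro z hz
    induction hz using IntermediateField.adjoin_induction with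
    | mem z hz =>
        rcases hz with ⟨e, hne, he, rfl⟩ | ⟨a, e, hne, he, rfl⟩
        · haveI := hne
          have hmem : qExpand ℚ e jq ∈ fieldG10 M 1 :=
            IntermediateField.subset_adjoin ℚ _ (Or.inl ⟨e, hne, he, rfl⟩)
          exact ⟨coeffEmb_mem_laurentBaseChange K hmem, hj e (by simpa using he) _ rfl⟩
        · have he1 : e = 1 := Nat.dvd_one.mp he
          subst he1
          have hmem : qExpand ℚ 1 (gq M (a : ZMod M)) ∈ fieldG10 M 1 :=
            IntermediateField.subset_adjoin ℚ _ (Or.inr ⟨a, 1, hne, he, rfl⟩)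
          exact ⟨coeffEmb_mem_laurentBaseChange K hmem,
            hg a _ (congrArg (coeffEmb K) (qExpand_one_apply _))⟩
    | algebraMap q =>
        rw [coeffEmb_algebraMap]
        exact hQc _
    | add x y hx hy ihx ihy =>
        rw [map_add]
        exact hQadd _ _ ihx ihy
    | inv x hx ihx =>
        rw [map_inv₀]
        exact hQinv _ ihx
    | mul x y hx hy ihx ihy =>
        rw [map_mul]
        exact hQmul _ _ ihx ihy
  have hQall : ∀ x : LaurentSeries K, x ∈ IntermediateField.adjoin K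
        (⇑(coeffEmb K) '' ((fieldG10 M 1 : IntermediateField ℚ (LaurentSeries ℚ)) :
          Set (LaurentSeries ℚ))) → Q x := by
    intro x hx
    induction hx using IntermediateField.adjoin_induction with
    | mem x hx =>
        obtain ⟨z, hz, rfl⟩ := hx
        exact hQ0 z hz
    | algebraMap c => exact hQc c
    | add x y hx hy ihx ihy => exact hQadd _ _ ihx ihy
    | inv x hx ihx => exact hQinv _ ihx
    | mul x y hx hy ihx ihy => exact hQmul _ _ ihx ihy
  rintro ⟨x, hx⟩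
  obtain ⟨_, h⟩ := hQall x hx
  exact h

end Induction

/-! ### uniqueness and inverses -/

section Unique

open Fermat.Agent.M48.J1Defs8

variable {K : Type*} [Field K] [Algebra ℚ K] {M : ℕ}

theorem jq_mem (e : ℕ) [NeZero e] (he : e ∣ M) : qExpand ℚ e jq ∈ fieldG10 M 1 :=
  IntermediateField.subset_adjoin ℚ _ (Or.inl ⟨e, inferInstance, by simpa using he, rfl⟩)

theorem gq_mem (a : (ZMod M)ˣ) : gq M (a : ZMod M) ∈ fieldG10 M 1 :=
  IntermediateField.subset_adjoin ℚ _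
    (Or.inr ⟨a, 1, inferInstance, dvd_rfl, (qExpand_one_apply _).symm⟩)

/-- the generator `j(q^e)` of `FK K M 1`. -/
def jGen (K : Type*) [Field K] [Algebra ℚ K] (M e : ℕ) [NeZero e] (he : e ∣ M) : FK K M 1 :=
  ⟨coeffEmb K (qExpand ℚ e jq), coeffEmb_mem_laurentBaseChange K (jq_mem e he)⟩

/-- the generator `g_{M,a}` of `FK K M 1`. -/
def gGen (K : Type*) [Field K] [Algebra ℚ K] (M : ℕ) (a : (ZMod M)ˣ) : FK K M 1 :=
  ⟨coeffEmb K (gq M (a : ZMod M)), coeffEmb_mem_laurentBaseChange K (gq_mem a)⟩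

/-- two `K`-algebra homomorphisms out of `FK K M 1` which agree on the generators are equal. -/
theorem algHom_ext_FK {B : Type*} [Field B] [Algebra K B] (φ ψ : FK K M 1 →ₐ[K] B)
    (hj : ∀ (e : ℕ) [NeZero e] (he : e ∣ M), φ (jGen K M e he) = ψ (jGen K M e he))
    (hg : ∀ a : (ZMod M)ˣ, φ (gGen K M a) = ψ (gGen K M a)) : φ = ψ := by
  refine AlgHom.ext (FK_induction (fun x => φ x = ψ x) ?_ ?_ ?_ ?_ ?_ ?_)
  · intro e _ he y hy
    have : y = jGen K M e he := Subtype.ext hy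
    rw [this]
    exact hj e he
  · intro a y hy
    have : y = gGen K M a := Subtype.ext hy
    rw [this]
    exact hg a
  · intro c
    rw [AlgHom.commutes, AlgHom.commutes]
  · intro x y hx hy
    rw [map_add, map_add, hx, hy]
  · intro x y hx hy
    rw [map_mul, map_mul, hx, hy]
  · intro x hx
    rw [map_inv₀, map_inv₀, hx]

theorem diaAut_jGen {d : (ZMod M)ˣ} {δ : FK K M 1 ≃ₐ[K] FK K M 1}
    (h : IsDiamondAut K M d δ) (e : ℕ) [NeZero e] (he : e ∣ M) :
    δ (jGen K M e he) = jGen K M e he :=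
  h.1 e he _ rfl

theorem diaAut_gGen {d : (ZMod M)ˣ} {δ : FK K M 1 ≃ₐ[K] FK K M 1}
    (h : IsDiamondAut K M d δ) (a : (ZMod M)ˣ) :
    δ (gGen K M a) = gGen K M (a * d⁻¹) :=
  Subtype.ext (h.2 a _ rfl)

theorem isDiamondAut_iff {d : (ZMod M)ˣ} {δ : FK K M 1 ≃ₐ[K] FK K M 1} :
    IsDiamondAut K M d δ ↔
      (∀ (e : ℕ) [NeZero e] (he : e ∣ M), δ (jGen K M e he) = jGen K M e he) ∧
      ∀ a : (ZMod M)ˣ, δ (gGen K M a) = gGen K M (a * d⁻¹) := by
  constructor
  · intro h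
    exact ⟨fun e _ he => diaAut_jGen h e he, fun a => diaAut_gGen h a⟩
  · rintro ⟨h1, h2⟩
    refine ⟨fun e _ he y hy => ?_, fun a y hy => ?_⟩
    · have : y = jGen K M e he := Subtype.ext hy
      rw [this]
      exact h1 e he
    · have : y = gGen K M a := Subtype.ext hy
      rw [this, h2 a]
      rfl

/-- **uniqueness of the diamond automorphism.** -/
theorem diaAut_unique {d : (ZMod M)ˣ} {δ δ' : FK K M 1 ≃ₐ[K] FK K M 1}
    (h : IsDiamondAut K M d δ) (h' : IsDiamondAut K M d δ') : δ = δ' := by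
  have : (δ : FK K M 1 →ₐ[K] FK K M 1) = (δ' : FK K M 1 →ₐ[K] FK K M 1) := by
    apply algHom_ext_FK
    · intro e _ he
      show δ _ = δ' _
      rw [diaAut_jGen h, diaAut_jGen h']
    · intro a
      show δ _ = δ' _
      rw [diaAut_gGen h, diaAut_gGen h']
  exact AlgEquiv.ext fun x => congrArg (fun φ : FK K M 1 →ₐ[K] FK K M 1 => φ x) this

theorem diaAut_symm {d : (ZMod M)ˣ} {δ : FK K M 1 ≃ₐ[K] FK K M 1}
    (h : IsDiamondAut K M d δ) : IsDiamondAut K M d⁻¹ δ.symm := by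
  rw [isDiamondAut_iff]
  refine ⟨fun e _ he => ?_, fun a => ?_⟩
  · rw [AlgEquiv.symm_apply_eq, diaAut_jGen h]
  · rw [AlgEquiv.symm_apply_eq, diaAut_gGen h, inv_inv, mul_inv_cancel_right]

theorem diaAut_trans {d d' : (ZMod M)ˣ} {δ δ' : FK K M 1 ≃ₐ[K] FK K M 1}
    (h : IsDiamondAut K M d δ) (h' : IsDiamondAut K M d' δ') :
    IsDiamondAut K M (d * d') (δ.trans δ') := by
  rw [isDiamondAut_iff]
  refine ⟨fun e _ he => ?_, fun a => ?_⟩
  · rw [AlgEquiv.trans_apply, diaAut_jGen h, diaAut_jGen h']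
  · rw [AlgEquiv.trans_apply, diaAut_gGen h, diaAut_gGen h', mul_inv_rev, mul_assoc,
      mul_comm d'⁻¹ d⁻¹]

theorem isDiamondAut_one : IsDiamondAut K M 1 (AlgEquiv.refl : FK K M 1 ≃ₐ[K] FK K M 1) := by
  rw [isDiamondAut_iff]
  refine ⟨fun e _ he => rfl, fun a => ?_⟩
  rw [inv_one, mul_one]
  rfl

end Unique

/-! ### descent along an embedding `K → ℂ` -/

section Descent

open Fermat.Agent.M48.J1Defs8

variable {K : Type*} [Field K] [Algebra ℚ K] {M : ℕ} (ι : K →+* ℂ)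

theorem coeffMap_coeffEmb' (z : LaurentSeries ℚ) : coeffMap ι (coeffEmb K z) = coeffEmb ℂ z := by
  rw [coeffEmb, coeffEmb, coeffMap_coeffMap]
  exact coeffMap_congr (Subsingleton.elim _ _) z

theorem coeffMap_algebraMap' (c : K) :
    coeffMap ι (algebraMap K (LaurentSeries K) c) = algebraMap ℂ (LaurentSeries ℂ) (ι c) := by
  rw [algebraMap_laurentSeries_eq_single, algebraMap_laurentSeries_eq_single, coeffMap_single]

theorem coeffMap_injective' : Function.Injective (coeffMap ι : LaurentSeries K →+* LaurentSeries ℂ) :=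
  (coeffMap ι).injective

theorem coeffMap_mem_FK (x : FK K M 1) : coeffMap ι (x : LaurentSeries K) ∈ FK ℂ M 1 := by
  revert x
  refine FK_induction _ ?_ ?_ ?_ ?_ ?_ ?_
  · intro e _ he y hy
    rw [hy, coeffMap_coeffEmb']
    exact coeffEmb_mem_laurentBaseChange ℂ (jq_mem e he)
  · intro a y hy
    rw [hy, coeffMap_coeffEmb']
    exact coeffEmb_mem_laurentBaseChange ℂ (gq_mem a)
  · intro c
    show coeffMap ι (algebraMap K (LaurentSeries K) c) ∈ _
    rw [coeffMap_algebraMap']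
    exact (FK ℂ M 1).algebraMap_mem _
  · intro x y hx hy
    show coeffMap ι ((x : LaurentSeries K) + (y : LaurentSeries K)) ∈ _
    rw [map_add]
    exact add_mem hx hy
  · intro x y hx hy
    show coeffMap ι ((x : LaurentSeries K) * (y : LaurentSeries K)) ∈ _
    rw [map_mul]
    exact mul_mem hx hy
  · intro x hx
    show coeffMap ι ((x : LaurentSeries K)⁻¹) ∈ _
    rw [map_inv₀]
    exact inv_mem hx

/-- the embedding `FK K M 1 → FK ℂ M 1` induced by `ι : K → ℂ`. -/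
def inclC : FK K M 1 →+* FK ℂ M 1 where
  toFun x := ⟨coeffMap ι (x : LaurentSeries K), coeffMap_mem_FK ι x⟩
  map_one' := Subtype.ext (map_one (coeffMap ι))
  map_mul' _ _ := Subtype.ext (map_mul (coeffMap ι) _ _)
  map_zero' := Subtype.ext (map_zero (coeffMap ι))
  map_add' _ _ := Subtype.ext (map_add (coeffMap ι) _ _)

@[simp] theorem coe_inclC (x : FK K M 1) :
    ((inclC ι x : FK ℂ M 1) : LaurentSeries ℂ) = coeffMap ι (x : LaurentSeries K) := rfl

theorem inclC_injective : Function.Injective (inclC (M := M) ι) := (inclC ι).injective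

theorem inclC_jGen (e : ℕ) [NeZero e] (he : e ∣ M) : inclC ι (jGen K M e he) = jGen ℂ M e he :=
  Subtype.ext (coeffMap_coeffEmb' ι _)

theorem inclC_gGen (a : (ZMod M)ˣ) : inclC ι (gGen K M a) = gGen ℂ M a :=
  Subtype.ext (coeffMap_coeffEmb' ι _)

theorem inclC_algebraMap (c : K) :
    inclC (M := M) ι (algebraMap K (FK K M 1) c) = algebraMap ℂ (FK ℂ M 1) (ι c) :=
  Subtype.ext (coeffMap_algebraMap' ι c)

variable {ι}

/-- a diamond automorphism over `ℂ` preserves the image of `FK K M 1`. -/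
theorem exists_inclC_eq {d : (ZMod M)ˣ} {δ : FK ℂ M 1 ≃ₐ[ℂ] FK ℂ M 1} (hδ : IsDiamondAut ℂ M d δ)
    (x : FK K M 1) : ∃ x' : FK K M 1, inclC ι x' = δ (inclC ι x) := by
  revert x
  refine FK_induction _ ?_ ?_ ?_ ?_ ?_ ?_
  · intro e _ he y hy
    have : y = jGen K M e he := Subtype.ext hy
    rw [this, inclC_jGen, diaAut_jGen hδ]
    exact ⟨jGen K M e he, inclC_jGen ι e he⟩
  · intro a y hy
    have : y = gGen K M a := Subtype.ext hy
    rw [this, inclC_gGen, diaAut_gGen hδ]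
    exact ⟨gGen K M (a * d⁻¹), inclC_gGen ι _⟩
  · intro c
    rw [inclC_algebraMap, AlgEquiv.commutes]
    exact ⟨_, inclC_algebraMap ι c⟩
  · rintro x y ⟨x', hx⟩ ⟨y', hy⟩
    exact ⟨x' + y', by rw [map_add, map_add, map_add, hx, hy]⟩
  · rintro x y ⟨x', hx⟩ ⟨y', hy⟩
    exact ⟨x' * y', by rw [map_mul, map_mul, map_mul, hx, hy]⟩
  · rintro x ⟨x', hx⟩
    exact ⟨x'⁻¹, by rw [map_inv₀, map_inv₀, map_inv₀, hx]⟩

/-- the descended map. -/
def descFun {d : (ZMod M)ˣ} {δ : FK ℂ M 1 ≃ₐ[ℂ] FK ℂ M 1} (hδ : IsDiamondAut ℂ M d δ)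
    (x : FK K M 1) : FK K M 1 := (exists_inclC_eq (ι := ι) hδ x).choose

theorem inclC_descFun {d : (ZMod M)ˣ} {δ : FK ℂ M 1 ≃ₐ[ℂ] FK ℂ M 1} (hδ : IsDiamondAut ℂ M d δ)
    (x : FK K M 1) : inclC ι (descFun (ι := ι) hδ x) = δ (inclC ι x) :=
  (exists_inclC_eq (ι := ι) hδ x).choose_spec

/-- the descended `K`-algebra endomorphism. -/
def descHom {d : (ZMod M)ˣ} {δ : FK ℂ M 1 ≃ₐ[ℂ] FK ℂ M 1} (hδ : IsDiamondAut ℂ M d δ) :
    FK K M 1 →ₐ[K] FK K M 1 where
  toFun := descFun (ι := ι) hδ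
  map_one' := by
    apply inclC_injective ι
    rw [inclC_descFun, map_one, map_one]
  map_mul' x y := by
    apply inclC_injective ι
    rw [inclC_descFun, map_mul, map_mul, map_mul, inclC_descFun, inclC_descFun]
  map_zero' := by
    apply inclC_injective ι
    rw [inclC_descFun, map_zero, map_zero]
  map_add' x y := by
    apply inclC_injective ι
    rw [inclC_descFun, map_add, map_add, map_add, inclC_descFun, inclC_descFun]
  commutes' c := by
    apply inclC_injective ι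
    rw [inclC_descFun, inclC_algebraMap, AlgEquiv.commutes]

@[simp] theorem inclC_descHom {d : (ZMod M)ˣ} {δ : FK ℂ M 1 ≃ₐ[ℂ] FK ℂ M 1}
    (hδ : IsDiamondAut ℂ M d δ) (x : FK K M 1) :
    inclC ι (descHom (ι := ι) hδ x) = δ (inclC ι x) := inclC_descFun hδ x

/-- **the descended diamond automorphism** of `FK K M 1`. -/
def descAut {d : (ZMod M)ˣ} {δ : FK ℂ M 1 ≃ₐ[ℂ] FK ℂ M 1} (hδ : IsDiamondAut ℂ M d δ) :
    FK K M 1 ≃ₐ[K] FK K M 1 :=
  AlgEquiv.ofAlgHom (descHom (ι := ι) hδ) (descHom (ι := ι) (diaAut_symm hδ))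
    (AlgHom.ext fun x => by
      apply inclC_injective ι
      rw [AlgHom.comp_apply, inclC_descHom, inclC_descHom, AlgHom.id_apply,
        AlgEquiv.apply_symm_apply])
    (AlgHom.ext fun x => by
      apply inclC_injective ι
      rw [AlgHom.comp_apply, inclC_descHom, inclC_descHom, AlgHom.id_apply,
        AlgEquiv.symm_apply_apply])

@[simp] theorem inclC_descAut {d : (ZMod M)ˣ} {δ : FK ℂ M 1 ≃ₐ[ℂ] FK ℂ M 1}
    (hδ : IsDiamondAut ℂ M d δ) (x : FK K M 1) :
    inclC ι (descAut (ι := ι) hδ x) = δ (inclC ι x) := inclC_descFun hδ x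

theorem isDiamondAut_descAut {d : (ZMod M)ˣ} {δ : FK ℂ M 1 ≃ₐ[ℂ] FK ℂ M 1}
    (hδ : IsDiamondAut ℂ M d δ) : IsDiamondAut K M d (descAut (ι := ι) hδ) := by
  rw [isDiamondAut_iff]
  refine ⟨fun e _ he => ?_, fun a => ?_⟩
  · apply inclC_injective ι
    rw [inclC_descAut, inclC_jGen, diaAut_jGen hδ]
  · apply inclC_injective ι
    rw [inclC_descAut, inclC_gGen, inclC_gGen, diaAut_gGen hδ]

end Descent



/-! ### Part D: the diamond operator on `Pic⁰` commutes with the coefficientwise Galois action -/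

section Galois

open Fermat.Agent.M48.J1Defs8

variable {K : Type*} [Field K] [Algebra ℚ K] {M : ℕ}

/-- two ring homomorphisms out of `FK K M 1` which agree on the generators and on the constants
are equal. -/
theorem ringHom_ext_FK {B : Type*} [Field B] (φ ψ : FK K M 1 →+* B)
    (hj : ∀ (e : ℕ) [NeZero e] (he : e ∣ M), φ (jGen K M e he) = ψ (jGen K M e he))
    (hg : ∀ a : (ZMod M)ˣ, φ (gGen K M a) = ψ (gGen K M a))
    (hc : ∀ c : K, φ (algebraMap K (FK K M 1) c) = ψ (algebraMap K (FK K M 1) c)) : φ = ψ := by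
  refine RingHom.ext (FK_induction (fun x => φ x = ψ x) ?_ ?_ hc ?_ ?_ ?_)
  · intro e _ he y hy
    have : y = jGen K M e he := Subtype.ext hy
    rw [this]
    exact hj e he
  · intro a y hy
    have : y = gGen K M a := Subtype.ext hy
    rw [this]
    exact hg a
  · intro x y hx hy
    rw [map_add, map_add, hx, hy]
  · intro x y hx hy
    rw [map_mul, map_mul, hx, hy]
  · intro x hx
    rw [map_inv₀, map_inv₀, hx]

theorem arithmeticRingAut_jGen (τ : K ≃ₐ[ℚ] K) (e : ℕ) [NeZero e] (he : e ∣ M) :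
    arithmeticRingAut (fieldG10 M 1) τ (jGen K M e he) = jGen K M e he :=
  Subtype.ext (coeffMap_coeffEmb τ _)

theorem arithmeticRingAut_gGen (τ : K ≃ₐ[ℚ] K) (a : (ZMod M)ˣ) :
    arithmeticRingAut (fieldG10 M 1) τ (gGen K M a) = gGen K M a :=
  Subtype.ext (coeffMap_coeffEmb τ _)

/-- a diamond automorphism commutes with the coefficientwise action of `Aut(K/ℚ)`. -/
theorem diaAut_comm_arithmetic {d : (ZMod M)ˣ} {δ : FK K M 1 ≃ₐ[K] FK K M 1}
    (hδ : IsDiamondAut K M d δ) (τ : K ≃ₐ[ℚ] K) (x : FK K M 1) :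
    δ (arithmeticRingAut (fieldG10 M 1) τ x) = arithmeticRingAut (fieldG10 M 1) τ (δ x) := by
  have h : ((δ : FK K M 1 ≃+* FK K M 1) : FK K M 1 →+* FK K M 1).comp
      ((arithmeticRingAut (fieldG10 M 1) τ : FK K M 1 ≃+* FK K M 1) : FK K M 1 →+* FK K M 1) =
      ((arithmeticRingAut (fieldG10 M 1) τ : FK K M 1 ≃+* FK K M 1) : FK K M 1 →+* FK K M 1).comp
        ((δ : FK K M 1 ≃+* FK K M 1) : FK K M 1 →+* FK K M 1) := by
    apply ringHom_ext_FK
    · intro e _ he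
      show δ (arithmeticRingAut (fieldG10 M 1) τ (jGen K M e he)) =
        arithmeticRingAut (fieldG10 M 1) τ (δ (jGen K M e he))
      rw [arithmeticRingAut_jGen, diaAut_jGen hδ, arithmeticRingAut_jGen]
    · intro a
      show δ (arithmeticRingAut (fieldG10 M 1) τ (gGen K M a)) =
        arithmeticRingAut (fieldG10 M 1) τ (δ (gGen K M a))
      rw [arithmeticRingAut_gGen, diaAut_gGen hδ, arithmeticRingAut_gGen]
    · intro c
      show δ (arithmeticRingAut (fieldG10 M 1) τ (algebraMap K (FK K M 1) c)) =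
        arithmeticRingAut (fieldG10 M 1) τ (δ (algebraMap K (FK K M 1) c))
      rw [arithmeticRingAut_algebraMap, AlgEquiv.commutes, AlgEquiv.commutes,
        arithmeticRingAut_algebraMap]
  exact congrArg (fun φ : FK K M 1 →+* FK K M 1 => φ x) h

/-- in the group of semilinear automorphisms, a diamond automorphism commutes with the arithmetic
Galois action. -/
theorem ofAlgAut_mul_arithmeticGalois {d : (ZMod M)ˣ} {δ : FK K M 1 ≃ₐ[K] FK K M 1}
    (hδ : IsDiamondAut K M d δ) (τ : K ≃ₐ[ℚ] K) :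
    SemilinearAut.ofAlgAut δ * arithmeticGalois (fieldG10 M 1) τ =
      arithmeticGalois (fieldG10 M 1) τ * SemilinearAut.ofAlgAut δ := by
  refine Subtype.ext (Prod.ext (RingEquiv.ext fun x => ?_) ?_)
  · exact diaAut_comm_arithmetic hδ τ x
  · show (1 : RingAut K) * τ.toRingEquiv = τ.toRingEquiv * 1
    rw [one_mul, mul_one]

/-- **[GAL1] `dia_smul`**: the diamond operator on `Pic⁰ (FK K M 1)` commutes with `Aut(K/ℚ)`
(unconditionally: if the diamond automorphism does not exist, `dia1 = 0`). -/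
theorem dia1_smul (d : (ZMod M)ˣ) (τ : K ≃ₐ[ℚ] K) (y : Pic0 K (FK K M 1)) :
    dia1 K M d (τ • y) = τ • dia1 K M d y := by
  by_cases h : ∃ δ : FK K M 1 ≃ₐ[K] FK K M 1, IsDiamondAut K M d δ
  · obtain ⟨δ, hδ⟩ := h
    have e : dia1 K M d =
        DistribSMul.toAddMonoidHom (Pic0 K (FK K M 1)) (SemilinearAut.ofAlgAut δ) := by
      have h : ∃ δ : FK K M 1 ≃ₐ[K] FK K M 1, IsDiamondAut K M d δ := ⟨δ, hδ⟩
      rw [dia1, dif_pos h, diaAut_unique h.choose_spec hδ]
    rw [e]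
    show SemilinearAut.ofAlgAut δ • (τ • y) = τ • (SemilinearAut.ofAlgAut δ • y)
    rw [galois_smul_pic0_def, galois_smul_pic0_def, ← mul_smul, ← mul_smul,
      ofAlgAut_mul_arithmeticGalois hδ τ]
  · rw [dia1, dif_neg h]
    simp

end Galois

/-! ### Main theorems -/

section Main

open Fermat.Agent.M48.Diamond1 Fermat.Agent.M48.J1Defs8

variable {M : ℕ} [NeZero M]

/-- **Existence of the diamond automorphism over `ℂ`** (from the model of `Γ₁(M)`). -/
theorem exists_isDiamondAut_complex (hG : G10ModelStmt) (hM : 2 ≤ M) (d : (ZMod M)ˣ) :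
    ∃ δ : FK ℂ M 1 ≃ₐ[ℂ] FK ℂ M 1, IsDiamondAut ℂ M d δ := by
  obtain ⟨A, hj, hg⟩ := hG M 1 hM
  obtain ⟨σ, hσ⟩ := exists_Gamma0_map_eq d
  refine ⟨diaC A σ.1 σ.2, isDiamondAut_diaC A hj hg σ.1 σ.2 d ?_⟩
  rw [← hσ]
  rfl

/-- **Existence of the diamond automorphism over any field `K` embedded in `ℂ`.** -/
theorem exists_isDiamondAut_of_emb (hG : G10ModelStmt) (hM : 2 ≤ M) {K : Type*} [Field K]
    [Algebra ℚ K] (ι : K →+* ℂ) (d : (ZMod M)ˣ) :
    ∃ δ : FK K M 1 ≃ₐ[K] FK K M 1, IsDiamondAut K M d δ := by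
  obtain ⟨δ, hδ⟩ := exists_isDiamondAut_complex hG hM d
  exact ⟨descAut (ι := ι) hδ, isDiamondAut_descAut hδ⟩

/-- **Existence of the diamond automorphism over `ℚbar`.** -/
theorem exists_isDiamondAut_Qbar (hG : G10ModelStmt) (hM : 2 ≤ M) (d : (ZMod M)ˣ) :
    ∃ δ : FK (AlgebraicClosure ℚ) M 1 ≃ₐ[AlgebraicClosure ℚ] FK (AlgebraicClosure ℚ) M 1,
      IsDiamondAut (AlgebraicClosure ℚ) M d δ :=
  exists_isDiamondAut_of_emb hG hM Fermat.Agent.X0.iotaK d

/-- **the diamond automorphism is `f ↦ f ∘ σ_d` on realisations** (any model of `Γ₁(M)` with the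
generators realised by `jdFun`, `gFun`; any `σ ∈ Γ₀(M)` with lower right entry `≡ d`). -/
theorem realMer_of_isDiamondAut (A : AnModel (Gamma10 M (M * 1)) (M * 1) (fieldG10 M 1))
    (hj : JReal A) (hg : GReal A) {d : (ZMod M)ˣ} {δ : FK ℂ M 1 ≃ₐ[ℂ] FK ℂ M 1}
    (hδ : IsDiamondAut ℂ M d δ) (σ : SL(2, ℤ)) (hσ : σ ∈ Gamma0 M)
    (hd : ((σ 1 1 : ℤ) : ZMod M) = (d : ZMod M)) (f : A.F) :
    realMer A (δ f) = slMer σ (realMer A f) := by
  rw [diaAut_unique hδ (isDiamondAut_diaC A hj hg σ hσ d hd)]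
  exact realMer_diaC A σ hσ f

/-- `dia1` unfolded along any diamond automorphism. -/
theorem dia1_eq {K : Type*} [Field K] [Algebra ℚ K] {d : (ZMod M)ˣ}
    {δ : FK K M 1 ≃ₐ[K] FK K M 1} (hδ : IsDiamondAut K M d δ) :
    dia1 K M d =
      DistribSMul.toAddMonoidHom (Pic0 K (FK K M 1)) (SemilinearAut.ofAlgAut δ) := by
  have h : ∃ δ : FK K M 1 ≃ₐ[K] FK K M 1, IsDiamondAut K M d δ := ⟨δ, hδ⟩
  rw [dia1, dif_pos h, diaAut_unique h.choose_spec hδ]

end Main

end Fermat.Agent.M48.DiamondAut5
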