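/-
M48 / (DICT) instance, leaf (I2) (helper5): the analytic generator
`gFun M a = (11!/(2 pi)^12) E_12^(a) / Delta` of helper4's `DictIface4` has the formal
`q`-expansion `gq M a` (for `a` nonzero mod `M`):

* `hasQExp_gFun (M) (a : ZMod M) (ha : a ≠ 0) :
    HasQExp (ModularCurve.coeffEmb ℂ (gq M a)) (gFun M a)`;
* `hasQExp_gFun_scale`, `hasQExp_gFun_unit`: the same for `z ↦ gFun M a (e z)` and
  `qExpand ℚ e (gq M a)`;
* `gFun_mem_HolH`, `gFun_scale_mem_HolH`: holomorphy on the upper half plane.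

Route: rows `∑_n (m z + n)^{-12}` (Lipschitz formula `qExpansion_identity_pnat`), divisor
rearrangement, then the disc function `eisDisc` with Taylor series `eisPS`, and
`Delta = q eta^24` (`X0.JQExp`).
-/
import Fermat.Agent.M48.DictIface4
import Fermat.Agent.X0.Analytic
import Fermat.Agent.X0.QExpRing

set_option autoImplicit false

open UpperHalfPlane hiding I
open Complex EisensteinSeries
open scoped Real MatrixGroups Nat

noncomputable section

namespace Fermat.Agent.M48.G10QExp5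

open Fermat.Agent.M48.DictIface4 Fermat.Agent.ES.KUM

variable (M : ℕ) (a : ZMod M)

/-- `ε(m) = [m ≡ a] + [m ≡ -a]`. -/
def eps (m : ℤ) : ℂ :=
  (if ((m : ℤ) : ZMod M) = a then 1 else 0) + (if ((m : ℤ) : ZMod M) = -a then 1 else 0)

/-- the row sum `∑_n (m z + n)^{-12}`. -/
def row (z : ℍ) (m : ℤ) : ℂ := ∑' n : ℤ, eisSummand 12 ![m, n] z

theorem norm_wInd_le (v : Fin 2 → ℤ) : ‖wInd M a v‖ ≤ 1 := by
  unfold wInd
  split_ifs <;> simp

theorem row_neg (z : ℍ) (m : ℤ) : row z (-m) = row z m := by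
  unfold row
  nth_rewrite 1 [← tsum_comp_neg]
  refine tsum_congr fun n => ?_
  simp only [eisSummand, Matrix.cons_val_zero, Matrix.cons_val_one, Int.cast_neg]
  have : (-(m : ℂ) * (z : ℂ) + -(n : ℂ)) = -((m : ℂ) * z + n) := by ring
  rw [this]
  exact Even.neg_zpow (by decide) _

/-- Step 1: rows. -/
theorem eis12_eq_tsum_row (z : ℍ) :
    eis12 M a z = ∑' m : ℤ, (if ((m : ℤ) : ZMod M) = a then (1 : ℂ) else 0) * row z m := by
  have hs : Summable fun x : ℤ × ℤ => wInd M a ![x.1, x.2] * eisSummand 12 ![x.1, x.2] z := by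
    refine Summable.of_norm_bounded (summable_prod_eisSummand (k := 12) (by norm_num) z).norm ?_
    intro x
    rw [norm_mul]
    calc ‖wInd M a ![x.1, x.2]‖ * ‖eisSummand 12 ![x.1, x.2] z‖
        ≤ 1 * ‖eisSummand 12 ![x.1, x.2] z‖ := by
          gcongr; exact norm_wInd_le M a _
      _ = _ := by rw [one_mul]; rfl
  unfold eis12 EisChar20.eisW
  rw [← (finTwoArrowEquiv ℤ).symm.tsum_eq]
  simp only [finTwoArrowEquiv_symm_apply]
  rw [Summable.tsum_prod hs]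
  refine tsum_congr fun m => ?_
  unfold row
  rw [← tsum_mul_left]
  refine tsum_congr fun n => ?_
  simp only [wInd, Matrix.cons_val_zero]
  rfl

/-- summability of the rows. -/
theorem summable_ind_mul_row (z : ℍ) :
    Summable fun m : ℤ => (if ((m : ℤ) : ZMod M) = a then (1 : ℂ) else 0) * row z m := by
  have hs : Summable fun x : ℤ × ℤ => wInd M a ![x.1, x.2] * eisSummand 12 ![x.1, x.2] z := by
    refine Summable.of_norm_bounded (summable_prod_eisSummand (k := 12) (by norm_num) z).norm ?_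
    intro x
    rw [norm_mul]
    calc ‖wInd M a ![x.1, x.2]‖ * ‖eisSummand 12 ![x.1, x.2] z‖
        ≤ 1 * ‖eisSummand 12 ![x.1, x.2] z‖ := by
          gcongr; exact norm_wInd_le M a _
      _ = _ := by rw [one_mul]; rfl
  refine hs.prod.congr fun m => ?_
  unfold row
  rw [← tsum_mul_left]
  refine tsum_congr fun n => ?_
  simp only [wInd, Matrix.cons_val_zero]
  rfl

/-- Step 2: positive rows only. -/
theorem eis12_eq_tsum_pnat (ha : a ≠ 0) (z : ℍ) :
    eis12 M a z = ∑' m : ℕ+, eps M a (m : ℤ) * row z (m : ℤ) := by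
  rw [eis12_eq_tsum_row, tsum_int_eq_zero_add_tsum_pnat (summable_ind_mul_row M a z)]
  have h0 : ((0 : ℤ) : ZMod M) ≠ a := by
    rw [Int.cast_zero]
    exact fun h => ha h.symm
  rw [if_neg h0, zero_mul, zero_add]
  have hs := summable_ind_mul_row M a z
  have h3 : Summable fun n : ℕ+ => (if (((n : ℕ) : ℤ) : ZMod M) = a then (1 : ℂ) else 0) *
      row z ((n : ℕ) : ℤ) :=
    (hs.comp_injective (i := fun n : ℕ+ => ((n : ℕ) : ℤ))
      (fun x y h => PNat.coe_injective (by simpa using h)))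
  have h4 : Summable fun n : ℕ+ => (if ((-((n : ℕ) : ℤ) : ℤ) : ZMod M) = a then (1 : ℂ) else 0) *
      row z (-((n : ℕ) : ℤ)) :=
    (hs.comp_injective (i := fun n : ℕ+ => -((n : ℕ) : ℤ))
      (fun x y h => PNat.coe_injective (by simpa using h)))
  rw [← h3.tsum_add h4]
  refine tsum_congr fun m => ?_
  rw [row_neg, ← add_mul]
  congr 1
  unfold eps
  congr 1
  have : ((-((m : ℕ) : ℤ) : ℤ) : ZMod M) = a ↔ (((m : ℕ) : ℤ) : ZMod M) = -a := by
    rw [Int.cast_neg, neg_eq_iff_eq_neg]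
  simp only [this]

/-- Rearrangement of a weighted Lambert-type double series into a power series. -/
theorem hasSum_divisor_rearr {q : ℂ} (hq : ‖q‖ < 1) (e : ℕ → ℂ) (he : ∀ m, ‖e m‖ ≤ 2) (k : ℕ) :
    HasSum (fun n : ℕ+ => (∑ d ∈ (n : ℕ).divisors, (d : ℂ) ^ k * e ((n : ℕ) / d)) * q ^ (n : ℕ))
      (∑' m : ℕ+, e m * ∑' d : ℕ+, (d : ℂ) ^ k * q ^ ((m : ℕ) * (d : ℕ))) := by
  set t : ℕ+ × ℕ+ → ℂ := fun c => e c.1 * ((c.2 : ℂ) ^ k * q ^ ((c.1 : ℕ) * (c.2 : ℕ))) with ht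
  have hs0 := summable_prod_mul_pow (𝕜 := ℂ) k hq
  have hts : Summable t := by
    refine Summable.of_norm_bounded (hs0.norm.mul_left 2) ?_
    intro c
    rw [ht, norm_mul]
    exact mul_le_mul_of_nonneg_right (he _) (norm_nonneg _)
  have h1 : ∑' c, t c = ∑' m : ℕ+, e m * ∑' d : ℕ+, (d : ℂ) ^ k * q ^ ((m : ℕ) * (d : ℕ)) := by
    rw [hts.tsum_prod]
    refine tsum_congr fun m => ?_
    rw [← tsum_mul_left]
  rw [← h1]
  have h2 : HasSum (t ∘ sigmaAntidiagonalEquivProd) (∑' c, t c) :=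
    (sigmaAntidiagonalEquivProd.hasSum_iff).mpr hts.hasSum
  refine h2.sigma fun n => ?_
  have h3 := hasSum_fintype (fun x : Nat.divisorsAntidiagonal (n : ℕ) =>
    (t ∘ sigmaAntidiagonalEquivProd) ⟨n, x⟩)
  convert h3 using 1
  rw [Finset.univ_eq_attach]
  have h4 : ∀ x : Nat.divisorsAntidiagonal (n : ℕ), (t ∘ sigmaAntidiagonalEquivProd) ⟨n, x⟩ =
      (fun y : ℕ × ℕ => e y.1 * ((y.2 : ℂ) ^ k * q ^ (y.1 * y.2))) x.1 := by
    intro x
    simp [ht, sigmaAntidiagonalEquivProd, divisorsAntidiagonalFactors]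
  simp_rw [h4]
  rw [Finset.sum_attach (Nat.divisorsAntidiagonal (n : ℕ))
    (fun y : ℕ × ℕ => e y.1 * ((y.2 : ℂ) ^ k * q ^ (y.1 * y.2)))]
  rw [Nat.sum_divisorsAntidiagonal' (fun x y => e x * ((y : ℂ) ^ k * q ^ (x * y))), Finset.sum_mul]
  refine Finset.sum_congr rfl fun d hd => ?_
  rw [Nat.div_mul_cancel (Nat.dvd_of_mem_divisors hd)]
  ring


/-- `q = exp(2πiz)`. -/
theorem qH_eq (z : ℍ) : Fermat.Agent.X0.Analytic.qH z = cexp (2 * π * I * z) := by
  simp [Fermat.Agent.X0.Analytic.qH, Function.Periodic.qParam]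

/-- Step 3: Lipschitz on a positive row. -/
theorem row_pnat (z : ℍ) (m : ℕ+) :
    row z ((m : ℕ) : ℤ) = ((-2 * π * I) ^ 12 / 11 !) *
      ∑' d : ℕ+, (d : ℂ) ^ 11 * Fermat.Agent.X0.Analytic.qH z ^ ((m : ℕ) * (d : ℕ)) := by
  have hmz : 0 < (((m : ℕ) : ℂ) * (z : ℂ)).im := by
    simpa using z.im_pos
  have H := qExpansion_identity_pnat (k := 11) (by norm_num) ⟨((m : ℕ) : ℂ) * z, hmz⟩
  simp only [show 11 + 1 = 12 by norm_num, one_div] at H
  have h1 : row z ((m : ℕ) : ℤ) = ∑' n : ℤ, ((((m : ℕ) : ℂ) * (z : ℂ) + n) ^ 12)⁻¹ := by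
    unfold row
    refine tsum_congr fun n => ?_
    simp only [eisSummand, Matrix.cons_val_zero, Matrix.cons_val_one, Int.cast_natCast]
    rw [zpow_neg]
    norm_cast
  rw [h1]
  rw [show (∑' n : ℤ, ((((m : ℕ) : ℂ) * (z : ℂ) + n) ^ 12)⁻¹) =
    ∑' n : ℤ, ((((⟨((m : ℕ) : ℂ) * z, hmz⟩ : ℍ) : ℂ) + n) ^ 12)⁻¹ from rfl, H]
  congr 1
  refine tsum_congr fun d => ?_
  congr 1
  rw [qH_eq, ← Complex.exp_nat_mul, ← Complex.exp_nat_mul]
  congr 1
  push_cast
  ring

theorem norm_eps_le (m : ℤ) : ‖eps M a m‖ ≤ 2 := by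
  unfold eps
  refine (norm_add_le _ _).trans ?_
  have h1 : ∀ P : Prop, ∀ [Decidable P], ‖(if P then (1 : ℂ) else 0)‖ ≤ 1 := by
    intro P _
    split_ifs <;> simp
  linarith [h1 (((m : ℤ) : ZMod M) = a), h1 (((m : ℤ) : ZMod M) = -a)]

/-- the coefficient `eisCoeff` as a complex divisor sum of `eps`. -/
theorem eisCoeff_cast (n : ℕ) :
    ((eisCoeff M a n : ℤ) : ℂ) = ∑ d ∈ n.divisors, (d : ℂ) ^ 11 * eps M a ((n / d : ℕ) : ℤ) := by
  unfold eisCoeff eps
  rw [Int.cast_sum]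
  refine Finset.sum_congr rfl fun d _ => ?_
  rw [Int.cast_mul, Int.cast_pow, Int.cast_natCast, Int.cast_add, Int.cast_natCast]
  congr 2 <;> split_ifs <;> simp

/-- **The `q`-expansion of `E₁₂^{(a)}`** (`a ≢ 0 mod M`), `ℕ+`-indexed. -/
theorem hasSum_eis12_pnat (ha : a ≠ 0) (z : ℍ) :
    HasSum (fun n : ℕ+ => ((eisCoeff M a n : ℤ) : ℂ) * Fermat.Agent.X0.Analytic.qH z ^ (n : ℕ))
      (((11 ! : ℂ) / (2 * (π : ℂ)) ^ 12) * eis12 M a z) := by
  have hq : ‖Fermat.Agent.X0.Analytic.qH z‖ < 1 := Fermat.Agent.X0.Analytic.norm_qH_lt_one z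
  have h1 := hasSum_divisor_rearr hq (fun m : ℕ => eps M a (m : ℤ))
    (fun m => norm_eps_le M a _) 11
  have h2 : ((11 ! : ℂ) / (2 * (π : ℂ)) ^ 12) * eis12 M a z =
      ∑' m : ℕ+, eps M a ((m : ℕ) : ℤ) *
        ∑' d : ℕ+, (d : ℂ) ^ 11 * Fermat.Agent.X0.Analytic.qH z ^ ((m : ℕ) * (d : ℕ)) := by
    rw [eis12_eq_tsum_pnat M a ha z, ← tsum_mul_left]
    refine tsum_congr fun m => ?_
    rw [row_pnat]
    have hπ : (π : ℂ) ≠ 0 := by exact_mod_cast Real.pi_ne_zero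
    have hI : (-2 * (π : ℂ) * I) ^ 12 = (2 * (π : ℂ)) ^ 12 := by
      rw [show (-2 * (π : ℂ) * I) = (2 * (π : ℂ)) * (-I) by ring, mul_pow]
      have : (-I) ^ 12 = 1 := by
        rw [show (12 : ℕ) = 2 * 6 by norm_num, pow_mul, neg_sq, I_sq]
        norm_num
      rw [this, mul_one]
    rw [hI]
    have h11 : ((11 ! : ℕ) : ℂ) ≠ 0 := by exact_mod_cast (Nat.factorial_ne_zero 11)
    field_simp
  rw [h2]
  refine h1.congr_fun ?_
  intro n
  rw [eisCoeff_cast]


/-! ### The disc function of `E₁₂^{(a)}` -/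

open Fermat.Agent.X0 Fermat.Agent.X0.Analytic Fermat.Agent.X0.JQExp

/-- the complex coefficients of `eisPS`. -/
def cE (n : ℕ) : ℂ := ((PowerSeries.coeff n (eisPS M a) : ℤ) : ℂ)

theorem cE_zero : cE M a 0 = 0 := by
  simp [cE, eisPS]

theorem cE_pos {n : ℕ} (hn : n ≠ 0) : cE M a n = ((eisCoeff M a n : ℤ) : ℂ) := by
  simp [cE, eisPS, hn]

theorem abs_eisCoeff_le (n : ℕ) : |eisCoeff M a n| ≤ 2 * (n : ℤ) ^ 12 := by
  unfold eisCoeff
  refine (Finset.abs_sum_le_sum_abs _ _).trans ?_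
  have h1 : ∀ d ∈ n.divisors, |(d : ℤ) ^ 11 *
      ((if ((n / d : ℕ) : ZMod M) = a then 1 else 0) +
        (if ((n / d : ℕ) : ZMod M) = -a then 1 else 0))| ≤ 2 * (n : ℤ) ^ 11 := by
    intro d hd
    have hdn : (d : ℤ) ≤ n := by exact_mod_cast Nat.divisor_le hd
    have hd0 : (0 : ℤ) ≤ d := by positivity
    have h2 : (d : ℤ) ^ 11 ≤ (n : ℤ) ^ 11 := pow_le_pow_left₀ hd0 hdn 11
    have h3 : (0 : ℤ) ≤ (d : ℤ) ^ 11 := by positivity
    rw [abs_mul, abs_of_nonneg h3]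
    have h4 : |((if ((n / d : ℕ) : ZMod M) = a then (1 : ℤ) else 0) +
        (if ((n / d : ℕ) : ZMod M) = -a then 1 else 0))| ≤ 2 := by
      split_ifs <;> norm_num
    calc (d : ℤ) ^ 11 * _ ≤ (n : ℤ) ^ 11 * 2 :=
          mul_le_mul h2 h4 (abs_nonneg _) (by positivity)
      _ = 2 * (n : ℤ) ^ 11 := by ring
  refine (Finset.sum_le_sum h1).trans ?_
  rw [Finset.sum_const, nsmul_eq_mul]
  have h5 : ((n.divisors.card : ℕ) : ℤ) ≤ n := by exact_mod_cast Nat.card_divisors_le_self n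
  calc ((n.divisors.card : ℕ) : ℤ) * (2 * (n : ℤ) ^ 11) ≤ (n : ℤ) * (2 * (n : ℤ) ^ 11) :=
        mul_le_mul_of_nonneg_right h5 (by positivity)
    _ = 2 * (n : ℤ) ^ 12 := by ring

theorem norm_cE_le (n : ℕ) : ‖cE M a n‖ ≤ 2 * (n : ℝ) ^ 12 := by
  rcases eq_or_ne n 0 with rfl | hn
  · simp [cE_zero]
  · rw [cE_pos M a hn, Complex.norm_intCast]
    have := abs_eisCoeff_le M a n
    have h2 : ((|eisCoeff M a n| : ℤ) : ℝ) ≤ ((2 * (n : ℤ) ^ 12 : ℤ) : ℝ) := by exact_mod_cast this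
    simpa using h2

theorem summable_cE_mul_pow {q : ℂ} (hq : ‖q‖ < 1) : Summable fun n : ℕ => cE M a n * q ^ n := by
  have h1 := summable_norm_pow_mul_geometric_of_norm_lt_one 12 hq
  refine Summable.of_norm_bounded (h1.mul_left 2) fun n => ?_
  rw [norm_mul, norm_mul, norm_pow, norm_pow, Complex.norm_natCast]
  calc ‖cE M a n‖ * ‖q‖ ^ n ≤ (2 * (n : ℝ) ^ 12) * ‖q‖ ^ n :=
        mul_le_mul_of_nonneg_right (norm_cE_le M a n) (by positivity)
    _ = 2 * ((n : ℝ) ^ 12 * ‖q‖ ^ n) := by ring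

/-- `∑ cE n qⁿ` on the unit disc. -/
def eisDisc (q : ℂ) : ℂ := ∑' n : ℕ, cE M a n * q ^ n

theorem hasSum_eisDisc {q : ℂ} (hq : ‖q‖ < 1) :
    HasSum (fun n : ℕ => cE M a n * q ^ n) (eisDisc M a q) :=
  (summable_cE_mul_pow M a hq).hasSum

theorem hasFPowerSeriesOnBall_eisDisc :
    HasFPowerSeriesOnBall (eisDisc M a) (FormalMultilinearSeries.ofScalars ℂ (cE M a)) 0 1 := by
  constructor
  · refine le_of_forall_lt_imp_le_of_dense fun r hr ↦ ?_
    lift r to NNReal using hr.ne_top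
    apply FormalMultilinearSeries.le_radius_of_summable
    have hr' : ‖((r : ℝ) : ℂ)‖ < 1 := by
      rw [Complex.norm_real, Real.norm_eq_abs, NNReal.abs_eq]
      exact_mod_cast hr
    simpa [norm_mul, mul_comm, mul_left_comm, mul_assoc] using
      (hasSum_eisDisc M a hr').summable.norm
  · simp
  · intro y hy
    rw [← ENNReal.coe_one, Metric.eball_coe, NNReal.coe_one, mem_ball_zero_iff] at hy
    simpa [mul_comm] using hasSum_eisDisc M a hy

theorem differentiableOn_eisDisc : DifferentiableOn ℂ (eisDisc M a) (Metric.ball 0 1) := by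
  have h := (hasFPowerSeriesOnBall_eisDisc M a).differentiableOn
  rwa [← ENNReal.coe_one, Metric.eball_coe, NNReal.coe_one] at h

theorem tps_eisDisc : tps (eisDisc M a) = (eisPS M a).map (Int.castRingHom ℂ) := by
  rw [tps_eq_of_hasSum (c := cE M a) (fun q hq => hasSum_eisDisc M a hq)]
  ext n
  simp [cE]

/-- `(11!/(2π)¹²) E₁₂^{(a)}(z) = eisDisc(q)`. -/
theorem eisDisc_qH (ha : a ≠ 0) (z : ℍ) :
    eisDisc M a (qH z) = ((11 ! : ℂ) / (2 * (π : ℂ)) ^ 12) * eis12 M a z := by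
  have h1 := hasSum_eis12_pnat M a ha z
  have h2 : HasSum (fun n : ℕ => cE M a n * qH z ^ n)
      (((11 ! : ℂ) / (2 * (π : ℂ)) ^ 12) * eis12 M a z) := by
    rw [← PNat.coe_injective.hasSum_iff]
    · refine h1.congr_fun fun n => ?_
      simp [cE_pos M a n.ne_zero]
    · intro n hn
      have : n = 0 := by
        by_contra h
        exact hn ⟨⟨n, Nat.pos_of_ne_zero h⟩, rfl⟩
      subst this
      simp [cE_zero]
  exact (hasSum_eisDisc M a (norm_qH_lt_one z)).unique h2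


/-! ### The `q`-expansion of `g_{M,a}` -/

/-- the formal generator as a `laurentOf`. -/
theorem gq_eq_laurentOf :
    gq M a = laurentOf 1 ((eisPS M a * ModularCurve.dedekindEtaUnitInv).map (Int.castRingHom ℚ)) := by
  unfold gq laurentOf
  norm_num

theorem coeffEmb_gq :
    ModularCurve.coeffEmb ℂ (gq M a) =
      lau 1 ((eisPS M a * ModularCurve.dedekindEtaUnitInv).map (Int.castRingHom ℂ)) := by
  rw [gq_eq_laurentOf, ModularCurve.coeffEmb, coeffMap_laurentOf, lau_eq_laurentOf]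
  have h : ∀ P : PowerSeries ℤ, (P.map (Int.castRingHom ℚ)).map (algebraMap ℚ ℂ) =
      P.map (Int.castRingHom ℂ) := by
    intro P
    ext n
    simp only [PowerSeries.coeff_map]
    simp
  rw [h]

/-- the disc function of `g_{M,a}`, times `q`. -/
def gDisc (q : ℂ) : ℂ := eisDisc M a q * (etaFun ^ 24)⁻¹ q

theorem differentiableOn_gDisc : DifferentiableOn ℂ (gDisc M a) (Metric.ball 0 1) := by
  unfold gDisc
  refine (differentiableOn_eisDisc M a).mul ?_
  refine DifferentiableOn.inv (differentiableOn_etaFun.pow 24) ?_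
  intro q hq
  exact pow_ne_zero _ (etaFun_ne_zero (mem_ball_zero_iff.mp hq))

theorem tps_gDisc :
    tps (gDisc M a) = (eisPS M a * ModularCurve.dedekindEtaUnitInv).map (Int.castRingHom ℂ) := by
  have h1 : AnalyticAt ℂ (eisDisc M a) 0 :=
    analyticAt_of_differentiableOn_ball (differentiableOn_eisDisc M a) (by simp)
  have he : AnalyticAt ℂ (etaFun ^ 24) 0 := (analyticAt_etaFun (by simp)).pow 24
  have h2 : gDisc M a = eisDisc M a * (etaFun ^ 24)⁻¹ := by
    funext q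
    simp [gDisc]
  rw [h2, tps_mul h1 (he.inv (by simp [etaFun_zero])), tps_eisDisc, tps_etaFun_pow_inv, map_mul]

/-- **(I2)**: the analytic generator `gFun M a = (11!/(2π)¹²) E₁₂^{(a)} / Δ` has the `q`-expansion
`gq M a` (`a ≢ 0 mod M`). -/
theorem hasQExp_gFun (ha : a ≠ 0) :
    HasQExp (ModularCurve.coeffEmb ℂ (gq M a)) (gFun M a) := by
  refine ⟨1, gDisc M a, differentiableOn_gDisc M a, ?_, fun z => ?_⟩
  · rw [coeffEmb_gq, tps_gDisc]
  · have hq0 : qH z ≠ 0 := qH_ne_zero z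
    have hq : ‖qH z‖ < 1 := norm_qH_lt_one z
    have he : etaFun (qH z) ^ 24 ≠ 0 := pow_ne_zero _ (etaFun_ne_zero hq)
    have hΔ : ModularForm.discriminant z = qH z * etaFun (qH z) ^ 24 := discriminant_eq_etaFun z
    unfold gFun gDisc
    rw [eisDisc_qH M a ha z, hΔ]
    simp only [Pi.inv_apply, Pi.pow_apply]
    field_simp

/-- the same at level `e`: `z ↦ g_{M,a}(e z)` has the `q`-expansion `g_{M,a}(q^e)`. -/
theorem hasQExp_gFun_scale (ha : a ≠ 0) (e : ℕ) [NeZero e] :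
    HasQExp (ModularCurve.coeffEmb ℂ (ModularCurve.qExpand ℚ e (gq M a)))
      (fun z => gFun M a (scaleH e z)) := by
  have h := (hasQExp_gFun M a ha).qExpand e
  have h2 : ModularCurve.coeffEmb ℂ (ModularCurve.qExpand ℚ e (gq M a)) =
      ModularCurve.qExpand ℂ e (ModularCurve.coeffEmb ℂ (gq M a)) := by
    rw [ModularCurve.coeffEmb, coeffMap_qExpand]
  rw [h2]
  exact h

/-- for units `a` of `ℤ/M`, `2 ≤ M`. -/
theorem hasQExp_gFun_unit (hM : 2 ≤ M) (a : (ZMod M)ˣ) (e : ℕ) [NeZero e] :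
    HasQExp (ModularCurve.coeffEmb ℂ (ModularCurve.qExpand ℚ e (gq M (a : ZMod M))))
      (fun z => gFun M (a : ZMod M) (scaleH e z)) := by
  have : Fact (1 < M) := ⟨by omega⟩
  exact hasQExp_gFun_scale M _ a.ne_zero e

/-- holomorphy of the analytic generator. -/
theorem gFun_mem_HolH (ha : a ≠ 0) : gFun M a ∈ Fermat.Agent.X0.HolH :=
  (hasQExp_gFun M a ha).mdifferentiable

theorem gFun_scale_mem_HolH (ha : a ≠ 0) (e : ℕ) [NeZero e] :
    (fun z => gFun M a (scaleH e z)) ∈ Fermat.Agent.X0.HolH :=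
  (hasQExp_gFun_scale M a ha e).mdifferentiable

end Fermat.Agent.M48.G10QExp5
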