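/-
Programme M48 (target S48), pillar (P1), chapter [DICT] for `Γ₁` (helper4), instance file I1:
**the analytic generator `g_{M,a} = (11!/(2π)¹²) E₁₂^{(a)} / Δ` under `SL(2, ℤ)`**.

* `gFun_smul` : `g_a(σ z) = c · eisW 12 (wTr M a σ)(z) / Δ(z)` for all `σ ∈ SL(2, ℤ)`
  (`wTr M a σ v = [ (v σ⁻¹)₀ ≡ a ]`);
* `gFun_smul_of_mem_Gamma0` : `g_a ∘ σ = g_{a σ₀₀}` for `σ ∈ Γ₀(M)`; `gFun_smul_of_mem_Gamma1`;
* `isBoundedAtImInfty_gFun_smul` : `(g_a ∘ σ) Δ` is bounded at `i∞`; `gFun_smul_vadd` (`M`-periodic);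
* `exists_isQExp_compSL_gFun` : every `g_a ∘ σ` has a `q_M`-expansion;
* `gFun_scale_smul_of_mem` : `z ↦ g_a(e z)` is invariant under `Γ₁(M) ∩ Γ₀(M e)`.
-/
import Fermat.Agent.M48.G10QExp5
import Fermat.Agent.M48.AnCuspExp4
import Fermat.Agent.ES.KUM.EisPack20

set_option autoImplicit false
set_option linter.unusedSectionVars false

open UpperHalfPlane ModularCurve Matrix
open scoped MatrixGroups ModularForm

noncomputable section

namespace Fermat.Agent.M48.G10Eis4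

open Fermat.Agent.X0 Fermat.Agent.ES.KUM Fermat.Agent.ES.KUM.EisChar20
open Fermat.Agent.ES.KUM.EisPack20
open Fermat.Agent.M48.DictIface4 Fermat.Agent.M48.AnCuspExp4

local notation "Δ" => ModularForm.discriminant

variable (M : ℕ) (a : ZMod M)

/-- the normalising constant `11!/(2π)¹²`. -/
def cst : ℂ := (Nat.factorial 11 : ℂ) / (2 * (Real.pi : ℂ)) ^ 12

theorem gFun_eq (z : ℍ) : gFun M a z = cst * eis12 M a z / Δ z := rfl

/-- the translated weight `v ↦ [ (v σ⁻¹)₀ ≡ a ]`. -/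
def wTr (σ : SL(2, ℤ)) (v : Fin 2 → ℤ) : ℂ :=
  wInd M a (v ᵥ* ((σ⁻¹ : SL(2, ℤ)) : Matrix (Fin 2) (Fin 2) ℤ))

theorem norm_wInd_le (v : Fin 2 → ℤ) : ‖wInd M a v‖ ≤ 1 := by
  unfold wInd
  split_ifs <;> simp

theorem norm_wTr_le (σ : SL(2, ℤ)) (v : Fin 2 → ℤ) : ‖wTr M a σ v‖ ≤ 1 :=
  norm_wInd_le M a _

theorem eis12_slash (σ : SL(2, ℤ)) : eis12 M a ∣[(12 : ℤ)] σ = eisW 12 (wTr M a σ) :=
  eisW_slash 12 (wInd M a) σ

/-- `wInd` only depends on the first coordinate modulo `M`. -/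
theorem wInd_congr {u v : Fin 2 → ℤ} (h : ((u 0 : ℤ) : ZMod M) = ((v 0 : ℤ) : ZMod M)) :
    wInd M a u = wInd M a v := by
  unfold wInd
  rw [h]

theorem vecMul_zero_apply (v : Fin 2 → ℤ) (A : Matrix (Fin 2) (Fin 2) ℤ) :
    (v ᵥ* A) 0 = v 0 * A 0 0 + v 1 * A 1 0 := by
  simp [Matrix.vecMul, dotProduct, Fin.sum_univ_two]

/-- `T^M` stabilises every translated weight. -/
theorem T_pow_mem_stabW (σ : SL(2, ℤ)) : ModularGroup.T ^ (M : ℤ) ∈ stabW (wTr M a σ) := by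
  rw [mem_stabW]
  intro v
  unfold wTr
  apply wInd_congr
  generalize ((σ⁻¹ : SL(2, ℤ)) : Matrix (Fin 2) (Fin 2) ℤ) = A
  rw [vecMul_T_zpow, vecMul_zero_apply, vecMul_zero_apply]
  simp only [Matrix.cons_val_zero, Matrix.cons_val_one]
  push_cast
  rw [ZMod.natCast_self, zero_mul, zero_add]

/-- **all translates**: `g_a(σ z) = c · eisW 12 (wTr M a σ)(z) / Δ(z)`. -/
theorem gFun_smul (σ : SL(2, ℤ)) (z : ℍ) :
    gFun M a (σ • z) = cst * eisW 12 (wTr M a σ) z / Δ z := by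
  have h1 := congrFun (eis12_slash M a σ) z
  rw [ModularForm.SL_slash_apply] at h1
  have hd : denom σ z ≠ 0 := denom_ne_zero σ z
  have hΔ : Δ z ≠ 0 := ModularForm.discriminant_ne_zero z
  have hd12 : denom σ z ^ (12 : ℤ) ≠ 0 := zpow_ne_zero _ hd
  rw [gFun_eq, Fermat.Agent.X0.lof_discriminant_smul, ← h1, _root_.zpow_neg]
  field_simp

theorem compSL_gFun (σ : SL(2, ℤ)) :
    compSL (gFun M a) σ = fun z => cst * eisW 12 (wTr M a σ) z / Δ z :=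
  funext fun z => gFun_smul M a σ z

/-- `(g_a ∘ σ) Δ` is bounded at `i∞`. -/
theorem isBoundedAtImInfty_gFun_smul [NeZero M] (σ : SL(2, ℤ)) :
    IsBoundedAtImInfty (fun z => gFun M a (σ • z) * Δ z ^ 1) := by
  have h := isBoundedAtImInfty_eisW (k := 12) (by norm_num) (norm_wTr_le M a σ)
    (Nat.pos_of_ne_zero (NeZero.ne M)) (T_pow_mem_stabW M a σ)
  have h2 : IsBoundedAtImInfty (fun z => cst * eisW 12 (wTr M a σ) z) := by
    have := (Filter.const_boundedAtFilter atImInfty cst).mul h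
    exact this
  have e : (fun z => gFun M a (σ • z) * Δ z ^ 1) = fun z => cst * eisW 12 (wTr M a σ) z := by
    funext z
    rw [gFun_smul, pow_one, div_mul_cancel₀ _ (ModularForm.discriminant_ne_zero z)]
  rw [e]
  exact h2

/-- `g_a ∘ σ` is `M`-periodic. -/
theorem gFun_smul_vadd (σ : SL(2, ℤ)) (z : ℍ) :
    gFun M a (σ • (((M : ℕ) : ℝ) +ᵥ z)) = gFun M a (σ • z) := by
  rw [gFun_smul, gFun_smul, discriminant_vadd]
  congr 2
  have := eisW_vadd (k := 12) (m := (M : ℤ)) (mem_stabW.mp (T_pow_mem_stabW M a σ)) z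
  simpa using this

/-- every `g_a ∘ σ` has a `q_M`-expansion. -/
theorem exists_isQExp_compSL_gFun [NeZero M] (ha : a ≠ 0) (σ : SL(2, ℤ)) :
    ∃ (m : ℕ) (P : PowerSeries ℂ), IsQExp M (compSL (gFun M a) σ) m P :=
  exists_isQExp_of_periodic (compSL_mem_HolH (G10QExp5.gFun_mem_HolH M a ha) σ)
    (fun z => gFun_smul_vadd M a σ z) (isBoundedAtImInfty_gFun_smul M a σ)

/-! ### `Γ₀(M)` and `Γ₁(M)` -/

theorem coe_inv_zero_zero (σ : SL(2, ℤ)) :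
    ((σ⁻¹ : SL(2, ℤ)) : Matrix (Fin 2) (Fin 2) ℤ) 0 0 = σ 1 1 := by
  rw [Matrix.SpecialLinearGroup.coe_inv, Matrix.adjugate_fin_two]
  simp

theorem coe_inv_one_zero (σ : SL(2, ℤ)) :
    ((σ⁻¹ : SL(2, ℤ)) : Matrix (Fin 2) (Fin 2) ℤ) 1 0 = -σ 1 0 := by
  rw [Matrix.SpecialLinearGroup.coe_inv, Matrix.adjugate_fin_two]
  simp

theorem Gamma0_cast_eq_zero {σ : SL(2, ℤ)} (hσ : σ ∈ CongruenceSubgroup.Gamma0 M) :
    ((σ 1 0 : ℤ) : ZMod M) = 0 := by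
  rwa [CongruenceSubgroup.Gamma0_mem] at hσ

theorem Gamma0_cast_mul_eq_one {σ : SL(2, ℤ)} (hσ : σ ∈ CongruenceSubgroup.Gamma0 M) :
    ((σ 0 0 : ℤ) : ZMod M) * ((σ 1 1 : ℤ) : ZMod M) = 1 := by
  have hdet : σ 0 0 * σ 1 1 - σ 0 1 * σ 1 0 = 1 := by
    have := σ.det_coe
    rw [Matrix.det_fin_two] at this
    exact this
  have h := congrArg (fun t : ℤ => (t : ZMod M)) hdet
  simp only [Int.cast_sub, Int.cast_mul, Int.cast_one] at h
  rw [Gamma0_cast_eq_zero M hσ, mul_zero, sub_zero] at h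
  exact h

/-- for `σ ∈ Γ₀(M)` the translated weight is `wInd M (a σ₀₀)`. -/
theorem wTr_of_mem_Gamma0 {σ : SL(2, ℤ)} (hσ : σ ∈ CongruenceSubgroup.Gamma0 M) :
    wTr M a σ = wInd M (a * ((σ 0 0 : ℤ) : ZMod M)) := by
  funext v
  unfold wTr wInd
  rw [vecMul_zero_apply, coe_inv_zero_zero, coe_inv_one_zero]
  push_cast
  rw [Gamma0_cast_eq_zero M hσ, neg_zero, mul_zero, add_zero]
  have h1 := Gamma0_cast_mul_eq_one M hσ
  have hiff : ((v 0 : ℤ) : ZMod M) * ((σ 1 1 : ℤ) : ZMod M) = a ↔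
      ((v 0 : ℤ) : ZMod M) = a * ((σ 0 0 : ℤ) : ZMod M) := by
    constructor
    · intro h
      rw [← h, mul_assoc, mul_comm ((σ 1 1 : ℤ) : ZMod M), h1, mul_one]
    · intro h
      rw [h, mul_assoc, h1, mul_one]
  by_cases h : ((v 0 : ℤ) : ZMod M) * ((σ 1 1 : ℤ) : ZMod M) = a
  · rw [if_pos h, if_pos (hiff.mp h)]
  · rw [if_neg h, if_neg (fun h' => h (hiff.mpr h'))]

/-- **`g_a ∘ σ = g_{a σ₀₀}` for `σ ∈ Γ₀(M)`.** -/
theorem gFun_smul_of_mem_Gamma0 {σ : SL(2, ℤ)} (hσ : σ ∈ CongruenceSubgroup.Gamma0 M) (z : ℍ) :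
    gFun M a (σ • z) = gFun M (a * ((σ 0 0 : ℤ) : ZMod M)) z := by
  rw [gFun_smul, wTr_of_mem_Gamma0 M a hσ]
  rfl

theorem Gamma1_cast_eq_one {σ : SL(2, ℤ)} (hσ : σ ∈ CongruenceSubgroup.Gamma1 M) :
    ((σ 0 0 : ℤ) : ZMod M) = 1 := by
  rw [CongruenceSubgroup.Gamma1_mem] at hσ
  exact hσ.1

/-- **`g_a` is invariant under `Γ₁(M)`.** -/
theorem gFun_smul_of_mem_Gamma1 {σ : SL(2, ℤ)} (hσ : σ ∈ CongruenceSubgroup.Gamma1 M) (z : ℍ) :
    gFun M a (σ • z) = gFun M a z := by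
  rw [gFun_smul_of_mem_Gamma0 M a (CongruenceSubgroup.Gamma1_in_Gamma0 M hσ),
    Gamma1_cast_eq_one M hσ, mul_one]

/-! ### the scaled generators `z ↦ g_a(e z)` -/

theorem conjMat_mem_Gamma1 {σ : SL(2, ℤ)} {e : ℕ} (hσ1 : σ ∈ CongruenceSubgroup.Gamma1 M)
    (hd : (e : ℤ) ∣ σ 1 0) (hMe : ((M * e : ℕ) : ℤ) ∣ σ 1 0) (he : e ≠ 0) :
    Analytic.conjMat σ e hd ∈ CongruenceSubgroup.Gamma1 M := by
  rw [CongruenceSubgroup.Gamma1_mem] at hσ1 ⊢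
  obtain ⟨h00, h11, -⟩ := hσ1
  refine ⟨?_, ?_, ?_⟩
  · simpa [Analytic.conjMat] using h00
  · simpa [Analytic.conjMat] using h11
  · have h10 : (Analytic.conjMat σ e hd) 1 0 = σ 1 0 / (e : ℤ) := by
      simp [Analytic.conjMat]
    rw [h10, ZMod.intCast_zmod_eq_zero_iff_dvd]
    obtain ⟨c, hc⟩ := hMe
    have he' : (e : ℤ) ≠ 0 := by exact_mod_cast he
    refine ⟨c, ?_⟩
    rw [hc]
    push_cast
    rw [mul_comm (M : ℤ) (e : ℤ), mul_assoc, Int.mul_ediv_cancel_left _ he']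

/-- **`z ↦ g_a(e z)` is invariant under `Γ₁(M) ∩ Γ₀(M e)`.** -/
theorem gFun_scale_smul_of_mem {σ : SL(2, ℤ)} {e : ℕ} [NeZero e]
    (hσ1 : σ ∈ CongruenceSubgroup.Gamma1 M) (hσ0 : σ ∈ CongruenceSubgroup.Gamma0 (M * e)) (z : ℍ) :
    gFun M a (scaleH e (σ • z)) = gFun M a (scaleH e z) := by
  have hMe : ((M * e : ℕ) : ℤ) ∣ σ 1 0 := by
    rw [CongruenceSubgroup.Gamma0_mem] at hσ0
    exact (ZMod.intCast_zmod_eq_zero_iff_dvd _ _).mp hσ0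
  have hd : (e : ℤ) ∣ σ 1 0 := (Int.natCast_dvd_natCast.mpr (Dvd.intro_left M rfl)).trans hMe
  rw [Analytic.scaleH_smul σ e hd,
    gFun_smul_of_mem_Gamma1 M a (conjMat_mem_Gamma1 M hσ1 hd hMe (NeZero.ne e))]

end Fermat.Agent.M48.G10Eis4
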