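/-
Programme M48 (target S48), pillar (P1), chapter [DICT] for `Γ₁` (helper4), instance file I2:
**the cusp condition for the generators of the model of `Γ₁(M) ∩ Γ₀(M L)`**.

`CuspQ N f` : every `SL(2, ℤ)`-translate of `f` has a `q_N`-expansion (closed under `+`, `*`,
constants; implies the boundedness form `f(γ z) Δ(z)^m` used by `AnModel.cusp`).

* `cuspQ_jdFun` : `j(d z)`, `d ∣ N`;
* `cuspQ_gFun_scale` : `g_a(e z)`, `e ∣ L`, at level `N = M L` (Hermite normal form of
  `diag(e, 1) γ` + the `q_M`-expansion of `g_a ∘ δ` + affine substitution).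
-/
import Fermat.Agent.M48.G10Eis4
import Fermat.Agent.X0.CuspGen
import Fermat.Agent.X0.HermiteFull
import Fermat.Agent.X0.Integrality
import Fermat.Agent.X0.QExpRing

set_option autoImplicit false
set_option linter.unusedSectionVars false

open UpperHalfPlane ModularCurve Matrix
open scoped MatrixGroups ModularForm

noncomputable section

namespace Fermat.Agent.M48.G10Cusp4

open Fermat.Agent.X0 Fermat.Agent.X0.Analytic Fermat.Agent.M48.DictIface4 Fermat.Agent.M48.G10Eis4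

local notation "Δ" => ModularForm.discriminant

/-- every `SL(2, ℤ)`-translate of `f` has a `q_N`-expansion. -/
def CuspQ (N : ℕ) (f : ℍ → ℂ) : Prop :=
  ∀ γ : SL(2, ℤ), ∃ (m : ℕ) (P : PowerSeries ℂ), IsQExp N (compSL f γ) m P

namespace CuspQ

variable {N : ℕ} [NeZero N] {f g : ℍ → ℂ}

theorem const (c : ℂ) : CuspQ N (fun _ => c) := fun _ => ⟨0, _, isQExp_const N c⟩

theorem add (hf : CuspQ N f) (hg : CuspQ N g) : CuspQ N (f + g) := fun γ => by
  obtain ⟨m, P, hP⟩ := hf γ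
  obtain ⟨m', Q, hQ⟩ := hg γ
  exact ⟨_, _, hP.add hQ⟩

theorem mul (hf : CuspQ N f) (hg : CuspQ N g) : CuspQ N (f * g) := fun γ => by
  obtain ⟨m, P, hP⟩ := hf γ
  obtain ⟨m', Q, hQ⟩ := hg γ
  exact ⟨_, _, hP.mul hQ⟩

/-- finite order poles at all cusps. -/
theorem bounded (hf : CuspQ N f) (γ : SL(2, ℤ)) :
    ∃ m : ℕ, IsBoundedAtImInfty (fun z : ℍ => f (γ • z) * Δ z ^ m) := by
  obtain ⟨m, P, hP⟩ := hf γ
  exact intg_qn_bounded N (intg_qn_of_isQExp N hP)

end CuspQ

/-- `j(d z)`, `d ∣ N`. -/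
theorem cuspQ_jdFun (N : ℕ) [NeZero N] (d : ℕ) [NeZero d] (hd : d ∣ N) : CuspQ N (jdFun d) :=
  fun γ => by
    obtain ⟨m, P, hP⟩ := CuspGen.exists_isQExp_compSL_jdFun' N d hd γ
    exact ⟨m, _, hP⟩

/-- from a `q_M`-expansion of `G` to a `q`-expansion of `G(M z)`. -/
theorem isQExp_one_comp_scaleH {M : ℕ} [NeZero M] {G : ℍ → ℂ} {m : ℕ} {P : PowerSeries ℂ}
    (h : IsQExp M G m P) : IsQExp 1 (fun z => G (scaleH M z)) m P := by
  intro z
  have := h (scaleH M z)
  rw [intg_qh_scaleH] at this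
  have hq1 : qh 1 z = qH z := by unfold qh qH; rw [Nat.cast_one]
  rw [hq1]
  exact this

theorem scaleH_affH {M a e : ℕ} [NeZero M] (b : ℤ) (ha : 0 < a) (he : 0 < e) (z : ℍ) :
    scaleH M (Hermite.affH a (e * M) b ha (Nat.mul_pos he (Nat.pos_of_ne_zero (NeZero.ne M))) z) =
      Hermite.affH a e b ha he z := by
  apply UpperHalfPlane.ext
  rw [coe_scaleH, Hermite.coe_affH, Hermite.coe_affH]
  have hM : (M : ℂ) ≠ 0 := by exact_mod_cast NeZero.ne M
  have heC : (e : ℂ) ≠ 0 := by exact_mod_cast he.ne'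
  push_cast
  field_simp

/-- `g_a(e z)`, `e ∣ L`, at level `M L`. -/
theorem cuspQ_gFun_scale (M L : ℕ) [NeZero M] [NeZero L] (a : ZMod M) (ha : a ≠ 0)
    (e : ℕ) [NeZero e] (he : e ∣ L) :
    CuspQ (M * L) (fun z => gFun M a (scaleH e z)) := by
  intro γ
  obtain ⟨δ, a', e', b, ha', he', hae, -, -, -, -, -, hz, -⟩ := HermiteFull.exists_hermite_full γ e
  obtain ⟨m, P, hP⟩ := exists_isQExp_compSL_gFun M a ha δ
  have hP1 := isQExp_one_comp_scaleH hP
  have hM : 0 < M := Nat.pos_of_ne_zero (NeZero.ne M)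
  have hdvd : e' * M ∣ M * L := by
    rw [mul_comm M L]
    exact Nat.mul_dvd_mul ((Dvd.intro_left a' hae).trans he) dvd_rfl
  have key := QExpAffine.isQExp_affine (N := M * L) hP1 b ha' (Nat.mul_pos he' hM) hdvd
  refine ⟨m * (a' * (M * L / (e' * M))),
    QExpAffine.affQ P m (a' * (M * L / (e' * M))) b (QExpAffine.zetaC (e' * M)), ?_⟩
  have hfun : compSL (fun z => gFun M a (scaleH e z)) γ =
      fun z => (fun z => compSL (gFun M a) δ (scaleH M z))
        (Hermite.affH a' (e' * M) b ha' (Nat.mul_pos he' hM) z) := by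
    funext z
    show gFun M a (scaleH e (γ • z)) = gFun M a (δ • scaleH M _)
    rw [hz, scaleH_affH]
  rw [hfun]
  exact key

end Fermat.Agent.M48.G10Cusp4
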