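/-
Programme M48 (target S48), pillar (P1), chapter [DICT] for `Γ₁` (helper4), instance file I3:
**separation**: an element of `SL(2, ℤ)` fixing `j(M L z)` and `g_{M,1}` lies in
`±(Γ₁(M) ∩ Γ₀(M L))`.

`j(M L ·) ∘ γ = j(M L ·)` forces `γ ∈ Γ₀(M L)` (`ES/KUM/CSurj25`); then `g_1 ∘ γ = g_α`, `α = γ₀₀`,
and `g_α = g_1` forces (first coefficient of the `q`-expansion) `α = ± 1`.
-/
import Fermat.Agent.M48.G10Eis4
import Fermat.Agent.ES.KUM.CSurj25
import Fermat.Agent.X0.QExpRing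

set_option autoImplicit false
set_option linter.unusedSectionVars false

open UpperHalfPlane ModularCurve Matrix
open scoped MatrixGroups ModularForm

noncomputable section

namespace Fermat.Agent.M48.G10Sep4

open Fermat.Agent.X0 Fermat.Agent.X0.Analytic Fermat.Agent.M48.DictIface4 Fermat.Agent.M48.G10Eis4

variable (M : ℕ)

theorem eisCoeff_one (c : ZMod M) :
    eisCoeff M c 1 =
      (if (1 : ZMod M) = c then 1 else 0) + (if (1 : ZMod M) = -c then 1 else 0) := by
  unfold eisCoeff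
  simp

theorem coeff_one_eisPS_mul (c : ZMod M) :
    PowerSeries.coeff 1 (eisPS M c * dedekindEtaUnitInv) = eisCoeff M c 1 := by
  have h0 : PowerSeries.coeff 0 (eisPS M c) = 0 := by
    unfold eisPS
    rw [PowerSeries.coeff_mk, if_pos rfl]
  have h1 : PowerSeries.coeff 1 (eisPS M c) = eisCoeff M c 1 := by
    unfold eisPS
    rw [PowerSeries.coeff_mk, if_neg one_ne_zero]
  have h2 : PowerSeries.coeff 0 dedekindEtaUnitInv = 1 := by
    rw [PowerSeries.coeff_zero_eq_constantCoeff]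
    exact constantCoeff_dedekindEtaUnitInv
  have hanti : Finset.HasAntidiagonal.antidiagonal 1 = ({(0, 1), (1, 0)} : Finset (ℕ × ℕ)) := by decide
  rw [PowerSeries.coeff_mul, hanti, Finset.sum_pair (by decide)]
  simp only [h0, h1, h2, zero_mul, zero_add, mul_one]

/-- equal functions have equal first coefficients. -/
theorem eisCoeff_one_eq_of_gFun_eq (c c' : ZMod M) (hc : c ≠ 0) (hc' : c' ≠ 0)
    (h : gFun M c = gFun M c') : eisCoeff M c 1 = eisCoeff M c' 1 := by
  have h1 := G10QExp5.hasQExp_gFun M c hc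
  have h2 := G10QExp5.hasQExp_gFun M c' hc'
  rw [h] at h1
  have h3 := h1.unique_left h2
  rw [G10QExp5.coeffEmb_gq, G10QExp5.coeffEmb_gq, lau_eq_laurentOf, lau_eq_laurentOf] at h3
  have h4 := laurentOf_injective 1 h3
  have h5 := congrArg (PowerSeries.coeff 1) h4
  rw [PowerSeries.coeff_map, PowerSeries.coeff_map, coeff_one_eisPS_mul, coeff_one_eisPS_mul] at h5
  simp only [eq_intCast] at h5
  exact_mod_cast h5

/-- `g_α = g_1` forces `α = ± 1`. -/
theorem eq_or_eq_neg_of_gFun_eq (hM : 2 ≤ M) (α : ZMod M) (hα : α ≠ 0)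
    (h : gFun M α = gFun M 1) : α = 1 ∨ α = -1 := by
  have : Fact (1 < M) := ⟨by omega⟩
  have h1 := eisCoeff_one_eq_of_gFun_eq M α 1 hα one_ne_zero h
  rw [eisCoeff_one, eisCoeff_one, if_pos rfl] at h1
  by_contra hcon
  rw [not_or] at hcon
  have e1 : ¬ (1 : ZMod M) = α := fun e => hcon.1 e.symm
  have e2 : ¬ (1 : ZMod M) = -α := fun e => hcon.2 (by rw [e, neg_neg])
  rw [if_neg e1, if_neg e2] at h1
  split_ifs at h1 <;> omega

/-- **separation.** -/
theorem mem_pm_of_fixes (L : ℕ) [NeZero M] [NeZero L] (hM : 2 ≤ M) (γ : SL(2, ℤ))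
    (hj : compSL (jdFun (M * L)) γ = jdFun (M * L))
    (hg : compSL (gFun M 1) γ = gFun M 1) : γ ∈ pm (Gamma10 M (M * L)) := by
  have : Fact (1 < M) := ⟨by omega⟩
  -- `γ ∈ Γ₀(M L)`
  have h0 : γ ∈ CongruenceSubgroup.Gamma0 (M * L) := by
    have := Fermat.Agent.ES.KUM.CSurj25.mem_Gamma0_of_compSL_jdFun_eq (M * L) γ 1
      (by rw [compSL_one]; exact hj)
    rw [one_mul] at this
    simpa using inv_mem this
  have hML : ((M * L : ℕ) : ℤ) ∣ γ 1 0 := by
    rw [CongruenceSubgroup.Gamma0_mem] at h0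
    exact (ZMod.intCast_zmod_eq_zero_iff_dvd _ _).mp h0
  have hMd : (M : ℤ) ∣ γ 1 0 := (Int.natCast_dvd_natCast.mpr (Dvd.intro L rfl)).trans hML
  have h0M : γ ∈ CongruenceSubgroup.Gamma0 M := by
    rw [CongruenceSubgroup.Gamma0_mem]
    exact (ZMod.intCast_zmod_eq_zero_iff_dvd _ _).mpr hMd
  have hc0 : ((γ 1 0 : ℤ) : ZMod M) = 0 := Gamma0_cast_eq_zero M h0M
  have hαδ := Gamma0_cast_mul_eq_one M h0M
  set α : ZMod M := ((γ 0 0 : ℤ) : ZMod M) with hα
  have hαne : α ≠ 0 := by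
    intro h
    rw [h, zero_mul] at hαδ
    exact zero_ne_one hαδ
  have hfun : gFun M α = gFun M 1 := by
    rw [← hg]
    funext z
    show gFun M α z = gFun M 1 (γ • z)
    rw [gFun_smul_of_mem_Gamma0 M 1 h0M, one_mul]
  rcases eq_or_eq_neg_of_gFun_eq M hM α hαne hfun with h1 | h1
  · have hG1 : γ ∈ CongruenceSubgroup.Gamma1 M := by
      rw [CongruenceSubgroup.Gamma1_mem]
      refine ⟨h1, ?_, hc0⟩
      rw [h1, one_mul] at hαδ
      exact hαδ
    exact Or.inl (Subgroup.mem_inf.mpr ⟨hG1, h0⟩)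
  · have hG1 : -γ ∈ CongruenceSubgroup.Gamma1 M := by
      rw [CongruenceSubgroup.Gamma1_mem]
      refine ⟨?_, ?_, ?_⟩
      · simp [← hα, h1]
      · rw [h1] at hαδ
        have : ((γ 1 1 : ℤ) : ZMod M) = -1 := by
          have := congrArg (fun t => -t) hαδ
          simpa using this
        simp [this]
      · simp [hc0]
    have hG0 : -γ ∈ CongruenceSubgroup.Gamma0 (M * L) := by
      rw [CongruenceSubgroup.Gamma0_mem]
      rw [CongruenceSubgroup.Gamma0_mem] at h0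
      simp [h0]
    exact Or.inr (Subgroup.mem_inf.mpr ⟨hG1, hG0⟩)

end Fermat.Agent.M48.G10Sep4
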