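/-
Programme M48 (target S48), pillar (P1), chapter [DICT] for `Γ₁` (helper4), instance file I4:
**the analytic model of `Γ₁(M) ∩ Γ₀(M L)`** (`2 ≤ M`): proof of `DictIface4.G10ModelStmt`.

* `FG M L = ℂ · fieldG10 M L ⊂ ℂ((q))`, generators `jdG d` (`d ∣ M L`), `gaG a e`
  (`a ∈ (ℤ/M)ˣ`, `e ∣ L`), the subalgebra `RG M L` they generate, `Frac (RG M L) = FG M L`;
* `realG : RG M L →+* HolH` (`j_d ↦ j(d z)`, `g_{a,e} ↦ g_a(e z)`), convergent `q`-expansions;
* invariance under `Γ₁(M) ∩ Γ₀(M L)`, cusp condition (`G10Cusp4`), separation (`G10Sep4`), level;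
* `model M L hM : AnModel (Gamma10 M (M * L)) (M * L) (fieldG10 M L)` and `g10ModelStmt`.

Port of `ES/KUM/CReal5` (which is the case of `Γ₀(N)`).
-/
import Fermat.Agent.M48.G10Cusp4
import Fermat.Agent.M48.G10Sep4
import Fermat.Agent.ES.KUM.CReal5

set_option autoImplicit false
set_option linter.unusedSectionVars false

open UpperHalfPlane ModularCurve HahnSeries
open scoped MatrixGroups ModularForm

noncomputable section

namespace Fermat.Agent.M48.G10Model4

open Fermat.Agent.X0 Fermat.Agent.X0.Analytic Fermat.Agent.ES.KUM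
open Fermat.Agent.M48.DictIface4 Fermat.Agent.M48.G10Eis4 Fermat.Agent.M48.G10Cusp4
open IntermediateField

variable (M L : ℕ) [NeZero M] [NeZero L]

/-- The function field `ℂ · fieldG10 M L ⊆ ℂ((q))` of `X(Γ₁(M) ∩ Γ₀(M L))` over `ℂ`. -/
abbrev FG : Type := ↥(laurentBaseChange ℂ (fieldG10 M L))

theorem jqd_mem_fieldG10 {d : ℕ} [NeZero d] (hd : d ∣ M * L) :
    qExpand ℚ d jq ∈ fieldG10 M L :=
  IntermediateField.subset_adjoin ℚ _ (Or.inl (mem_divisorExpansions (M * L) hd))

theorem gq_mem_fieldG10 (a : (ZMod M)ˣ) {e : ℕ} [NeZero e] (he : e ∣ L) :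
    qExpand ℚ e (gq M (a : ZMod M)) ∈ fieldG10 M L :=
  IntermediateField.subset_adjoin ℚ _ (Or.inr ⟨a, e, inferInstance, he, rfl⟩)

/-- the formal `j(q^d)`, `d ∣ M L`. -/
def jdG (d : ℕ) [NeZero d] (hd : d ∣ M * L) : FG M L :=
  ⟨coeffEmb ℂ (qExpand ℚ d jq), coeffEmb_mem_laurentBaseChange ℂ (jqd_mem_fieldG10 M L hd)⟩

/-- the formal `g_{M,a}(q^e)`, `e ∣ L`. -/
def gaG (a : (ZMod M)ˣ) (e : ℕ) [NeZero e] (he : e ∣ L) : FG M L :=
  ⟨coeffEmb ℂ (qExpand ℚ e (gq M (a : ZMod M))),
    coeffEmb_mem_laurentBaseChange ℂ (gq_mem_fieldG10 M L a he)⟩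

/-- the generators. -/
def genSet : Set (FG M L) :=
  {x | (∃ (d : ℕ) (_ : NeZero d) (hd : d ∣ M * L), x = jdG M L d hd) ∨
    (∃ (a : (ZMod M)ˣ) (e : ℕ) (_ : NeZero e) (he : e ∣ L), x = gaG M L a e he)}

/-- the `ℂ`-subalgebra generated by the generators. -/
def RG : Subalgebra ℂ (FG M L) := Algebra.adjoin ℂ (genSet M L)

theorem jdG_mem_genSet (d : ℕ) [NeZero d] (hd : d ∣ M * L) : jdG M L d hd ∈ genSet M L :=
  Or.inl ⟨d, inferInstance, hd, rfl⟩

theorem gaG_mem_genSet (a : (ZMod M)ˣ) (e : ℕ) [NeZero e] (he : e ∣ L) :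
    gaG M L a e he ∈ genSet M L :=
  Or.inr ⟨a, e, inferInstance, he, rfl⟩

def jdRG (d : ℕ) [NeZero d] (hd : d ∣ M * L) : RG M L :=
  ⟨jdG M L d hd, Algebra.subset_adjoin (jdG_mem_genSet M L d hd)⟩

def gaRG (a : (ZMod M)ˣ) (e : ℕ) [NeZero e] (he : e ∣ L) : RG M L :=
  ⟨gaG M L a e he, Algebra.subset_adjoin (gaG_mem_genSet M L a e he)⟩

theorem coe_jdRG (d : ℕ) [NeZero d] (hd : d ∣ M * L) :
    (((jdRG M L d hd : RG M L) : FG M L) : LaurentSeries ℂ) = coeffEmb ℂ (qExpand ℚ d jq) := rfl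

theorem coe_gaRG (a : (ZMod M)ˣ) (e : ℕ) [NeZero e] (he : e ∣ L) :
    (((gaRG M L a e he : RG M L) : FG M L) : LaurentSeries ℂ) =
      coeffEmb ℂ (qExpand ℚ e (gq M (a : ZMod M))) := rfl

theorem coe_jdRG_one :
    (((jdRG M L 1 (one_dvd _) : RG M L) : FG M L) : LaurentSeries ℂ) = jqModC ℂ := by
  rw [coe_jdRG, qExpand_one_apply, coeffEmbC_jq]

/-- Induction principle for `RG`. -/
theorem RG_induction {p : RG M L → Prop}
    (hj : ∀ (d : ℕ) [NeZero d] (hd : d ∣ M * L), p (jdRG M L d hd))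
    (hg : ∀ (a : (ZMod M)ˣ) (e : ℕ) [NeZero e] (he : e ∣ L), p (gaRG M L a e he))
    (hconst : ∀ c : ℂ, p (algebraMap ℂ (RG M L) c))
    (hadd : ∀ u v, p u → p v → p (u + v))
    (hmul : ∀ u v, p u → p v → p (u * v)) (u : RG M L) : p u := by
  obtain ⟨x, hx⟩ := u
  induction hx using Algebra.adjoin_induction with
  | mem y hy =>
      rcases hy with ⟨d, hne, hd, rfl⟩ | ⟨a, e, hne, he, rfl⟩
      · have := hne
        exact hj d hd
      · have := hne
        exact hg a e he
  | algebraMap c => exact hconst c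
  | add x y hx hy ihx ihy => exact hadd ⟨x, hx⟩ ⟨y, hy⟩ ihx ihy
  | mul x y hx hy ihx ihy => exact hmul ⟨x, hx⟩ ⟨y, hy⟩ ihx ihy

/-! ### `FG = Frac RG` -/

theorem coeffEmb_mem_map {x : LaurentSeries ℚ} (hx : x ∈ fieldG10 M L) :
    coeffEmb ℂ x ∈
      (IntermediateField.adjoin ℂ (genSet M L)).map
        (laurentBaseChange ℂ (fieldG10 M L)).val := by
  unfold fieldG10 at hx
  induction hx using IntermediateField.adjoin_induction with
  | mem y hy =>
      rcases hy with ⟨d, hne, hd, rfl⟩ | ⟨a, e, hne, he, rfl⟩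
      · have := hne
        exact ⟨jdG M L d hd, IntermediateField.subset_adjoin _ _ (jdG_mem_genSet M L d hd), rfl⟩
      · have := hne
        exact ⟨gaG M L a e he, IntermediateField.subset_adjoin _ _ (gaG_mem_genSet M L a e he),
          rfl⟩
  | algebraMap r =>
      rw [coeffEmbC_algebraMap]
      exact IntermediateField.algebraMap_mem _ _
  | add x y _ _ hx hy => rw [map_add]; exact add_mem hx hy
  | inv x _ hx => rw [map_inv₀]; exact inv_mem hx
  | mul x y _ _ hx hy => rw [map_mul]; exact mul_mem hx hy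

theorem FG_eq_adjoin :
    (⊤ : IntermediateField ℂ (FG M L)) = IntermediateField.adjoin ℂ (genSet M L) := by
  symm
  rw [eq_top_iff]
  intro y _
  have hle : laurentBaseChange ℂ (fieldG10 M L) ≤
      (IntermediateField.adjoin ℂ (genSet M L)).map
        (laurentBaseChange ℂ (fieldG10 M L)).val := by
    unfold laurentBaseChange
    rw [IntermediateField.adjoin_le_iff]
    rintro _ ⟨x, hx, rfl⟩
    exact coeffEmb_mem_map M L hx
  obtain ⟨a, ha, hay⟩ := hle y.2
  have : a = y := Subtype.ext hay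
  rw [← this]
  exact ha

theorem mem_adjoin_genSet (y : FG M L) : y ∈ IntermediateField.adjoin ℂ (genSet M L) := by
  rw [← FG_eq_adjoin]
  exact IntermediateField.mem_top

theorem exists_div (y : FG M L) : ∃ r s : RG M L, y = (r : FG M L) / (s : FG M L) := by
  obtain ⟨r, hr, s, hs, h⟩ := IntermediateField.mem_adjoin_iff_div.mp (mem_adjoin_genSet M L y)
  exact ⟨⟨r, hr⟩, ⟨s, hs⟩, h⟩

instance isFractionRingG : IsFractionRing (RG M L) (FG M L) :=
  IsFractionRing.of_field _ _ fun y => by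
    obtain ⟨r, s, h⟩ := exists_div M L y
    exact ⟨r, s, h⟩

/-! ### convergent `q`-expansions -/

variable (hM : 2 ≤ M)

include hM in
theorem exists_hasQExp_of_mem {x : FG M L} (hx : x ∈ RG M L) :
    ∃ g : ℍ → ℂ, HasQExp (x : LaurentSeries ℂ) g := by
  unfold RG at hx
  induction hx using Algebra.adjoin_induction with
  | mem y hy =>
      rcases hy with ⟨d, hne, hd, rfl⟩ | ⟨a, e, hne, he, rfl⟩
      · exact ⟨jdFun d, hasQExp_jdC d⟩
      · exact ⟨_, G10QExp5.hasQExp_gFun_unit M hM a e⟩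
  | algebraMap c =>
      refine ⟨fun _ => c, ?_⟩
      have : ((algebraMap ℂ (FG M L) c : FG M L) : LaurentSeries ℂ)
          = algebraMap ℂ (LaurentSeries ℂ) c := rfl
      rw [this, algebraMapC_eq_C]
      exact HasQExp.const _
  | add y z _ _ hy hz =>
      obtain ⟨g₁, h₁⟩ := hy
      obtain ⟨g₂, h₂⟩ := hz
      refine ⟨g₁ + g₂, ?_⟩
      have : ((y + z : FG M L) : LaurentSeries ℂ) = (y : LaurentSeries ℂ) + z := rfl
      rw [this]
      exact h₁.add h₂
  | mul y z _ _ hy hz =>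
      obtain ⟨g₁, h₁⟩ := hy
      obtain ⟨g₂, h₂⟩ := hz
      refine ⟨g₁ * g₂, ?_⟩
      have : ((y * z : FG M L) : LaurentSeries ℂ) = (y : LaurentSeries ℂ) * z := rfl
      rw [this]
      exact h₁.mul h₂

/-- the holomorphic function attached to an element of `RG`. -/
def anFun (u : RG M L) : ℍ → ℂ := (exists_hasQExp_of_mem M L hM u.2).choose

theorem hasQExp_anFun (u : RG M L) :
    HasQExp (((u : FG M L)) : LaurentSeries ℂ) (anFun M L hM u) :=
  (exists_hasQExp_of_mem M L hM u.2).choose_spec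

theorem anFun_eq {u : RG M L} {g : ℍ → ℂ}
    (h : HasQExp (((u : FG M L)) : LaurentSeries ℂ) g) : anFun M L hM u = g :=
  (hasQExp_anFun M L hM u).unique_right h

theorem anFun_mem_HolH (u : RG M L) : anFun M L hM u ∈ HolH :=
  (hasQExp_anFun M L hM u).mdifferentiable

/-- The analytic realisation `RG → Hol(ℍ)`. -/
def realG : RG M L →+* HolH where
  toFun u := ⟨anFun M L hM u, anFun_mem_HolH M L hM u⟩
  map_one' := by
    apply Subtype.ext
    refine anFun_eq M L hM ?_
    have : (((1 : RG M L) : FG M L) : LaurentSeries ℂ) = 1 := rfl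
    rw [this]
    have h := HasQExp.const 1
    rw [map_one] at h
    exact h
  map_mul' u w := by
    apply Subtype.ext
    refine anFun_eq M L hM ?_
    have : (((u * w : RG M L) : FG M L) : LaurentSeries ℂ)
        = ((u : FG M L) : LaurentSeries ℂ) * ((w : FG M L) : LaurentSeries ℂ) := rfl
    rw [this]
    exact (hasQExp_anFun M L hM u).mul (hasQExp_anFun M L hM w)
  map_zero' := by
    apply Subtype.ext
    refine anFun_eq M L hM ?_
    have : (((0 : RG M L) : FG M L) : LaurentSeries ℂ) = 0 := rfl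
    rw [this]
    have h := HasQExp.const 0
    rw [map_zero] at h
    exact h
  map_add' u w := by
    apply Subtype.ext
    refine anFun_eq M L hM ?_
    have : (((u + w : RG M L) : FG M L) : LaurentSeries ℂ)
        = ((u : FG M L) : LaurentSeries ℂ) + ((w : FG M L) : LaurentSeries ℂ) := rfl
    rw [this]
    exact (hasQExp_anFun M L hM u).add (hasQExp_anFun M L hM w)

theorem hasQExp_realG (u : RG M L) :
    HasQExp (((u : FG M L)) : LaurentSeries ℂ) ((realG M L hM u : HolH) : ℍ → ℂ) :=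
  hasQExp_anFun M L hM u

theorem realG_eq_of_hasQExp {u : RG M L} {g : ℍ → ℂ}
    (h : HasQExp (((u : FG M L)) : LaurentSeries ℂ) g) :
    ((realG M L hM u : HolH) : ℍ → ℂ) = g :=
  anFun_eq M L hM h

theorem realG_algebraMap (c : ℂ) :
    ((realG M L hM (algebraMap ℂ (RG M L) c) : HolH) : ℍ → ℂ) = fun _ => c := by
  refine realG_eq_of_hasQExp M L hM ?_
  have : (((algebraMap ℂ (RG M L) c : RG M L) : FG M L) : LaurentSeries ℂ)
      = algebraMap ℂ (LaurentSeries ℂ) c := rfl
  rw [this, algebraMapC_eq_C]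
  exact HasQExp.const _

theorem realG_jdRG (d : ℕ) [NeZero d] (hd : d ∣ M * L) :
    ((realG M L hM (jdRG M L d hd) : HolH) : ℍ → ℂ) = jdFun d := by
  refine realG_eq_of_hasQExp M L hM ?_
  exact hasQExp_jdC d

theorem realG_gaRG (a : (ZMod M)ˣ) (e : ℕ) [NeZero e] (he : e ∣ L) :
    ((realG M L hM (gaRG M L a e he) : HolH) : ℍ → ℂ) =
      fun z => gFun M (a : ZMod M) (scaleH e z) := by
  refine realG_eq_of_hasQExp M L hM ?_
  exact G10QExp5.hasQExp_gFun_unit M hM a e

/-! ### invariance -/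

theorem realG_invariant (u : RG M L) (γ : SL(2, ℤ)) (hγ : γ ∈ Gamma10 M (M * L)) :
    compSL ((realG M L hM u : HolH) : ℍ → ℂ) γ = ((realG M L hM u : HolH) : ℍ → ℂ) := by
  obtain ⟨hγ1, hγ0⟩ := Subgroup.mem_inf.mp hγ
  have hN : ((M * L : ℕ) : ℤ) ∣ γ 1 0 := by
    rw [CongruenceSubgroup.Gamma0_mem] at hγ0
    exact (ZMod.intCast_zmod_eq_zero_iff_dvd _ _).mp hγ0
  induction u using RG_induction with
  | hj d hd =>
      rw [realG_jdRG]
      funext z
      have hd' : (d : ℤ) ∣ γ 1 0 := (Int.natCast_dvd_natCast.mpr hd).trans hN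
      exact Analytic.jdFun_smul_of_dvd γ d hd' z
  | hg a e he =>
      rw [realG_gaRG]
      funext z
      have h0 : γ ∈ CongruenceSubgroup.Gamma0 (M * e) := by
        rw [CongruenceSubgroup.Gamma0_mem, ZMod.intCast_zmod_eq_zero_iff_dvd]
        exact (Int.natCast_dvd_natCast.mpr (Nat.mul_dvd_mul_left M he)).trans hN
      exact gFun_scale_smul_of_mem M (a : ZMod M) hγ1 h0 z
  | hconst c =>
      rw [realG_algebraMap]
      rfl
  | hadd u v ihu ihv =>
      rw [map_add]
      show compSL ((realG M L hM u : HolH) : ℍ → ℂ) γ +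
        compSL ((realG M L hM v : HolH) : ℍ → ℂ) γ = _
      rw [ihu, ihv]
      rfl
  | hmul u v ihu ihv =>
      rw [map_mul]
      show compSL ((realG M L hM u : HolH) : ℍ → ℂ) γ *
        compSL ((realG M L hM v : HolH) : ℍ → ℂ) γ = _
      rw [ihu, ihv]
      rfl

/-! ### cusps -/

theorem cuspQ_realG (u : RG M L) : CuspQ (M * L) ((realG M L hM u : HolH) : ℍ → ℂ) := by
  induction u using RG_induction with
  | hj d hd =>
      rw [realG_jdRG]
      exact cuspQ_jdFun (M * L) d hd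
  | hg a e he =>
      rw [realG_gaRG]
      have : Fact (1 < M) := ⟨by omega⟩
      exact cuspQ_gFun_scale M L (a : ZMod M) a.ne_zero e he
  | hconst c =>
      rw [realG_algebraMap]
      exact CuspQ.const c
  | hadd u v ihu ihv =>
      rw [map_add]
      exact ihu.add ihv
  | hmul u v ihu ihv =>
      rw [map_mul]
      exact ihu.mul ihv

/-! ### separation -/

theorem scaleH_one (z : ℍ) : scaleH 1 z = z := by
  apply UpperHalfPlane.ext
  rw [coe_scaleH]
  simp

theorem realG_sep (γ : SL(2, ℤ))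
    (h : ∀ u : RG M L, compSL ((realG M L hM u : HolH) : ℍ → ℂ) γ = realG M L hM u) :
    γ ∈ pm (Gamma10 M (M * L)) := by
  apply G10Sep4.mem_pm_of_fixes M L hM γ
  · have := h (jdRG M L (M * L) dvd_rfl)
    rw [realG_jdRG] at this
    exact this
  · have := h (gaRG M L 1 1 (one_dvd L))
    rw [realG_gaRG] at this
    have e : (fun z => gFun M ((1 : (ZMod M)ˣ) : ZMod M) (scaleH 1 z)) = gFun M 1 := by
      funext z
      rw [scaleH_one, Units.val_one]
    rw [e] at this
    exact this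

/-! ### level -/

theorem cast_eq_of_dvd {m n : ℕ} (h : m ∣ n) {x y : ℤ} (hx : (x : ZMod n) = (y : ZMod n)) :
    (x : ZMod m) = (y : ZMod m) := by
  have := congrArg (ZMod.castHom h (ZMod m)) hx
  simpa using this

theorem Gamma_le_Gamma10 : CongruenceSubgroup.Gamma (M * L) ≤ Gamma10 M (M * L) := by
  intro γ hγ
  rw [CongruenceSubgroup.Gamma_mem] at hγ
  obtain ⟨h00, -, h10, h11⟩ := hγ
  have hd : M ∣ M * L := Dvd.intro L rfl
  refine Subgroup.mem_inf.mpr ⟨?_, ?_⟩
  · rw [CongruenceSubgroup.Gamma1_mem]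
    refine ⟨?_, ?_, ?_⟩
    · have := cast_eq_of_dvd hd (x := γ 0 0) (y := 1) (by simpa using h00)
      simpa using this
    · have := cast_eq_of_dvd hd (x := γ 1 1) (y := 1) (by simpa using h11)
      simpa using this
    · have := cast_eq_of_dvd hd (x := γ 1 0) (y := 0) (by simpa using h10)
      simpa using this
  · rw [CongruenceSubgroup.Gamma0_mem]
    exact h10

/-! ### the model -/

/-- **The analytic model of `Γ₁(M) ∩ Γ₀(M L)`.** -/
def model : AnModel (Gamma10 M (M * L)) (M * L) (fieldG10 M L) where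
  R := RG M L
  frac := isFractionRingG M L
  Θ := realG M L hM
  qexp := hasQExp_realG M L hM
  jR := jdRG M L 1 (one_dvd _)
  coe_jR := coe_jdRG_one M L
  inv := fun u γ hγ => realG_invariant M L hM u γ hγ
  sep := realG_sep M L hM
  hpos := Nat.pos_of_ne_zero (NeZero.ne _)
  level := Gamma_le_Gamma10 M L
  cusp := fun u γ => (cuspQ_realG M L hM u).bounded γ

/-- **`G10ModelStmt`.** -/
theorem g10ModelStmt : G10ModelStmt := by
  intro M L _ _ hM
  refine ⟨model M L hM, ?_, ?_⟩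
  · intro d _ hd
    exact ⟨jdRG M L d hd, coe_jdRG M L d hd, realG_jdRG M L hM d hd⟩
  · intro a e _ he
    exact ⟨gaRG M L a e he, coe_gaRG M L a e he, realG_gaRG M L hM a e he⟩

end Fermat.Agent.M48.G10Model4
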