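/-
Programme M48 (target S48), pillar (P1), chapter [IG1] / shared leaf — helper6.
**The `q_M`-expansion at `∞` of a weighted Eisenstein series `EisChar20.eisW k w` for an ARBITRARY
`M`-periodic weight function `w` on `ℤ²`** (`k ≥ 3`, `q_M = exp(2πi z / M)`, `ζ = exp(2πi / M)`):

  `eisW k w z = row₀ + ((-2πi)^k / ((k-1)! M^k)) ∑_{N ≥ 1} A_N q_M^N`,
  `A_N = ∑_{d ∣ N} d^{k-1} ∑_{b mod M} (w(N/d, b) ζ^{b d} + (-1)^k w(-N/d, -b) ζ^{b d})`,
  `row₀ = ∑_{n ≠ 0} w(0, n) n^{-k}`.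

(Rows `m ≠ 0` by the Lipschitz formula `EisensteinSeries.qExpansion_identity_pnat` on each residue
class `n ≡ b (M)`; divisor rearrangement.)  Consumers: the full-level generators of [IG1], the cusp
expansions of the `Γ₁(M)`-generators `g_{M,a}` at all cusps (RED.CUSP / BASE / LVL twins).
-/
import Mathlib
import Fermat.Agent.ES.KUM.EisChar20
import Fermat.Agent.X0.QExpRing
import Fermat.Agent.X0.QExpAffine
import Fermat.Agent.M48.EisConst6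

set_option autoImplicit false

open UpperHalfPlane hiding I
open Complex EisensteinSeries
open scoped Real Nat

noncomputable section

namespace Fermat.Agent.M48.EisCuspExp6

open Fermat.Agent.ES.KUM.EisChar20 Fermat.Agent.X0 Fermat.Agent.X0.QExpAffine
open Fermat.Agent.M48.EisConst6

/-! ### Residue classes -/

/-- Summation over `ℤ` by residue classes modulo `M`. -/
theorem tsum_int_eq_sum_fin_tsum (M : ℕ) [NeZero M] {f : ℤ → ℂ} (hf : Summable f) :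
    ∑' n : ℤ, f n = ∑ b : Fin M, ∑' t : ℤ, f (t * M + (b : ℕ)) := by
  have h1 : ∑' n : ℤ, f n = ∑' p : ℤ × Fin M, f (p.1 * M + ((p.2 : ℕ) : ℤ)) := by
    rw [← (Int.divModEquiv M).symm.tsum_eq]
    rfl
  have hs : Summable fun p : ℤ × Fin M => f (p.1 * M + ((p.2 : ℕ) : ℤ)) := by
    have := (Int.divModEquiv M).symm.summable_iff.mpr hf
    exact this
  have hs' : Summable fun p : Fin M × ℤ => f (p.2 * M + ((p.1 : ℕ) : ℤ)) :=
    (Equiv.prodComm (Fin M) ℤ).summable_iff.mpr hs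
  rw [h1, ← (Equiv.prodComm (Fin M) ℤ).tsum_eq]
  rw [show (fun c : Fin M × ℤ => f (((Equiv.prodComm (Fin M) ℤ) c).1 * M +
      (((((Equiv.prodComm (Fin M) ℤ) c).2 : Fin M) : ℕ) : ℤ))) =
      fun p : Fin M × ℤ => f (p.2 * M + ((p.1 : ℕ) : ℤ)) from rfl]
  rw [hs'.tsum_prod, tsum_fintype]

/-! ### One residue class of one row: the Lipschitz formula -/

/-- `exp(2πi (m z + b)/M) = ζ_M^b q_M^m`. -/
theorem cexp_eq (M : ℕ) [NeZero M] (z : ℍ) (m : ℕ) (b : ℤ) :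
    cexp (2 * π * I * (((m : ℂ) * z + b) / M)) = zetaC M ^ b * qh M z ^ m := by
  have hM : (M : ℂ) ≠ 0 := by exact_mod_cast NeZero.ne M
  simp only [zetaC, qh, Function.Periodic.qParam]
  rw [← Complex.exp_int_mul, ← Complex.exp_nat_mul, ← Complex.exp_add]
  congr 1
  push_cast
  field_simp
  ring

/-- **Lipschitz on a residue class.** -/
theorem tsum_class (M : ℕ) [NeZero M] {k : ℕ} (hk : 2 ≤ k) (z : ℍ) (m : ℕ+) (b : ℤ) :
    ∑' t : ℤ, ((((m : ℕ) : ℂ) * z + ((t * M + b : ℤ) : ℂ)) ^ k)⁻¹ =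
      ((-2 * π * I) ^ k / ((k - 1)! * (M : ℂ) ^ k)) *
        ∑' d : ℕ+, ((d : ℕ) : ℂ) ^ (k - 1) * (zetaC M ^ b * qh M z ^ (m : ℕ)) ^ (d : ℕ) := by
  have hM : (M : ℂ) ≠ 0 := by exact_mod_cast NeZero.ne M
  have hMpos : (0 : ℝ) < M := by exact_mod_cast Nat.pos_of_ne_zero (NeZero.ne M)
  have him : 0 < ((((m : ℕ) : ℂ) * z + b) / M).im := by
    have : ((((m : ℕ) : ℂ) * z + b) / M).im = (m : ℕ) * z.im / M := by
      rw [Complex.div_natCast_im]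
      simp
    rw [this]
    have hm : (0 : ℝ) < (m : ℕ) := by exact_mod_cast m.pos
    positivity
  have H := qExpansion_identity_pnat (k := k - 1) (by omega) ⟨_, him⟩
  rw [show k - 1 + 1 = k by omega] at H
  rw [cexp_eq] at H
  have h1 : ∀ t : ℤ, ((((m : ℕ) : ℂ) * z + ((t * M + b : ℤ) : ℂ)) ^ k)⁻¹ =
      ((M : ℂ) ^ k)⁻¹ * (1 / (((((m : ℕ) : ℂ) * z + b) / M) + t) ^ k) := by
    intro t
    have : (((m : ℕ) : ℂ) * z + ((t * M + b : ℤ) : ℂ)) =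
        (M : ℂ) * ((((m : ℕ) : ℂ) * z + b) / M + t) := by
      push_cast
      field_simp
      ring
    rw [this, mul_pow, mul_inv, one_div]
  simp_rw [h1]
  rw [tsum_mul_left, H]
  have hfac : ((k - 1)! : ℂ) ≠ 0 := by exact_mod_cast (Nat.factorial_ne_zero _)
  field_simp

/-! ### Periodic weights and rows -/

/-- `w` is `M`-periodic in both variables. -/
def IsPeriodic (M : ℕ) (w : (Fin 2 → ℤ) → ℂ) : Prop :=
  ∀ v u : Fin 2 → ℤ, w (v + (M : ℤ) • u) = w v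

theorem IsPeriodic.apply_add {M : ℕ} {w : (Fin 2 → ℤ) → ℂ} (hw : IsPeriodic M w) (m b t : ℤ) :
    w ![m, t * M + b] = w ![m, b] := by
  have := hw ![m, b] ![0, t]
  rw [← this]
  congr 1
  ext i
  fin_cases i <;> simp [mul_comm, add_comm]

/-- The reflected weight `v ↦ w (-v)`. -/
def refl (w : (Fin 2 → ℤ) → ℂ) : (Fin 2 → ℤ) → ℂ := fun v => w (-v)

theorem IsPeriodic.refl {M : ℕ} {w : (Fin 2 → ℤ) → ℂ} (hw : IsPeriodic M w) :
    IsPeriodic M (refl w) := by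
  intro v u
  show w (-(v + (M : ℤ) • u)) = w (-v)
  rw [neg_add, ← smul_neg]
  exact hw _ _

/-- The finite Fourier coefficient `∑_{b mod M} w(m, b) ζ^{b d}`. -/
def Tw (M : ℕ) (w : (Fin 2 → ℤ) → ℂ) (m : ℤ) (d : ℕ) : ℂ :=
  ∑ b : Fin M, w ![m, ((b : ℕ) : ℤ)] * zetaC M ^ ((b : ℕ) * d)

theorem norm_zetaC (M : ℕ) : ‖zetaC M‖ = 1 := by
  rw [zetaC, Complex.norm_exp]
  have : (2 * (π : ℂ) * I / M).re = 0 := by
    rw [Complex.div_natCast_re]
    simp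
  rw [this, Real.exp_zero]

theorem norm_Tw_le (M : ℕ) {w : (Fin 2 → ℤ) → ℂ} (hw1 : ∀ v, ‖w v‖ ≤ 1) (m : ℤ) (d : ℕ) :
    ‖Tw M w m d‖ ≤ M := by
  unfold Tw
  refine (norm_sum_le _ _).trans ?_
  calc ∑ b : Fin M, ‖w ![m, ((b : ℕ) : ℤ)] * zetaC M ^ ((b : ℕ) * d)‖
      ≤ ∑ _b : Fin M, (1 : ℝ) := by
        refine Finset.sum_le_sum fun b _ => ?_
        rw [norm_mul, norm_pow, norm_zetaC, one_pow, mul_one]
        exact hw1 _
    _ = M := by simp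

/-- The constant `(-2πi)^k / ((k-1)! M^k)`. -/
def cst (M k : ℕ) : ℂ := (-2 * π * I) ^ k / ((k - 1)! * (M : ℂ) ^ k)

theorem summable_row {k : ℕ} (hk : 3 ≤ k) {w : (Fin 2 → ℤ) → ℂ} (hw1 : ∀ v, ‖w v‖ ≤ 1) (z : ℍ)
    (m : ℤ) : Summable fun n : ℤ => w ![m, n] * eisSummand k ![m, n] z := by
  have hs : Summable fun x : ℤ × ℤ => w ![x.1, x.2] * eisSummand k ![x.1, x.2] z := by
    refine Summable.of_norm_bounded (summable_prod_eisSummand (k := k) hk z).norm ?_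
    intro x
    rw [norm_mul]
    calc ‖w ![x.1, x.2]‖ * ‖eisSummand k ![x.1, x.2] z‖
        ≤ 1 * ‖eisSummand k ![x.1, x.2] z‖ := by
          gcongr; exact hw1 _
      _ = _ := by rw [one_mul]
  exact hs.prod_factor m

/-- **A positive row.** -/
theorem row_pnat (M : ℕ) [NeZero M] {k : ℕ} (hk : 3 ≤ k) {w : (Fin 2 → ℤ) → ℂ}
    (hw1 : ∀ v, ‖w v‖ ≤ 1) (hper : IsPeriodic M w) (z : ℍ) (m : ℕ+) :
    ∑' n : ℤ, w ![((m : ℕ) : ℤ), n] * eisSummand k ![((m : ℕ) : ℤ), n] z =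
      cst M k * ∑' d : ℕ+, ((d : ℕ) : ℂ) ^ (k - 1) * Tw M w ((m : ℕ) : ℤ) d *
        qh M z ^ ((m : ℕ) * (d : ℕ)) := by
  rw [tsum_int_eq_sum_fin_tsum M (summable_row hk hw1 z _)]
  have hq : ‖qh M z‖ < 1 := norm_qh_lt_one M z
  have hcls : ∀ b : Fin M, ∑' t : ℤ, w ![((m : ℕ) : ℤ), t * M + ((b : ℕ) : ℤ)] *
      eisSummand k ![((m : ℕ) : ℤ), t * M + ((b : ℕ) : ℤ)] z =
      w ![((m : ℕ) : ℤ), ((b : ℕ) : ℤ)] * (cst M k *
        ∑' d : ℕ+, ((d : ℕ) : ℂ) ^ (k - 1) *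
          (zetaC M ^ (((b : ℕ) : ℤ)) * qh M z ^ (m : ℕ)) ^ (d : ℕ)) := by
    intro b
    rw [cst, ← tsum_class M (k := k) (by omega) z m ((b : ℕ) : ℤ), ← tsum_mul_left]
    refine tsum_congr fun t => ?_
    rw [hper.apply_add]
    congr 1
    simp only [eisSummand, Matrix.cons_val_zero, Matrix.cons_val_one, zpow_neg, zpow_natCast]
    push_cast
    rfl
  simp_rw [hcls]
  have hnorm : ∀ b : Fin M, ‖zetaC M ^ (((b : ℕ) : ℤ)) * qh M z ^ (m : ℕ)‖ < 1 := by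
    intro b
    rw [norm_mul, norm_zpow, norm_zetaC, one_zpow, one_mul, norm_pow]
    exact pow_lt_one₀ (norm_nonneg _) hq (PNat.ne_zero m)
  have hsum : ∀ b : Fin M, Summable fun d : ℕ+ => ((d : ℕ) : ℂ) ^ (k - 1) *
      (zetaC M ^ (((b : ℕ) : ℤ)) * qh M z ^ (m : ℕ)) ^ (d : ℕ) := by
    intro b
    have := summable_pow_mul_geometric_of_norm_lt_one (k - 1) (hnorm b)
    exact this.subtype _
  -- pull out the constant and swap the finite sum with the series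
  have h1 : ∑ b : Fin M, w ![((m : ℕ) : ℤ), ((b : ℕ) : ℤ)] * (cst M k *
        ∑' d : ℕ+, ((d : ℕ) : ℂ) ^ (k - 1) *
          (zetaC M ^ (((b : ℕ) : ℤ)) * qh M z ^ (m : ℕ)) ^ (d : ℕ)) =
      cst M k * ∑ b : Fin M, ∑' d : ℕ+, w ![((m : ℕ) : ℤ), ((b : ℕ) : ℤ)] *
        (((d : ℕ) : ℂ) ^ (k - 1) * (zetaC M ^ (((b : ℕ) : ℤ)) * qh M z ^ (m : ℕ)) ^ (d : ℕ)) := by
    rw [Finset.mul_sum]
    refine Finset.sum_congr rfl fun b _ => ?_
    rw [tsum_mul_left]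
    ring
  rw [h1]
  congr 1
  rw [← Summable.tsum_finsetSum (fun b _ => (hsum b).mul_left _)]
  refine tsum_congr fun d => ?_
  unfold Tw
  rw [Finset.mul_sum, Finset.sum_mul]
  refine Finset.sum_congr rfl fun b _ => ?_
  rw [mul_pow, ← pow_mul, zpow_natCast, ← pow_mul]
  ring

/-- A negative row is `(-1)^k` times the positive row of the reflected weight. -/
theorem row_neg {k : ℕ} (w : (Fin 2 → ℤ) → ℂ) (z : ℍ) (m : ℤ) :
    ∑' n : ℤ, w ![-m, n] * eisSummand k ![-m, n] z =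
      (-1) ^ k * ∑' n : ℤ, refl w ![m, n] * eisSummand k ![m, n] z := by
  rw [← tsum_comp_neg, ← tsum_mul_left]
  refine tsum_congr fun n => ?_
  have hv : (![-m, -n] : Fin 2 → ℤ) = -![m, n] := by
    ext i; fin_cases i <;> simp
  have h1 : w ![-m, -n] = refl w ![m, n] := by
    show w ![-m, -n] = w (-![m, n])
    rw [hv]
  have h2 : eisSummand k ![-m, -n] z = (-1) ^ k * eisSummand k ![m, n] z := by
    simp only [eisSummand, Matrix.cons_val_zero, Matrix.cons_val_one, zpow_neg, zpow_natCast]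
    push_cast
    have : (-(m : ℂ) * (z : ℂ) + -(n : ℂ)) = -((m : ℂ) * z + n) := by ring
    rw [this, neg_pow, mul_inv, ← inv_pow]
    norm_num
  rw [h1, h2]
  ring

/-- Rearrangement of a weighted Lambert-type double series into a power series. -/
theorem hasSum_divisor_rearr {q : ℂ} (hq : ‖q‖ < 1) (t : ℕ → ℕ → ℂ) (B : ℝ)
    (ht : ∀ m d, ‖t m d‖ ≤ B) (j : ℕ) :
    HasSum (fun n : ℕ+ => (∑ d ∈ (n : ℕ).divisors, (d : ℂ) ^ j * t ((n : ℕ) / d) d) *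
        q ^ (n : ℕ))
      (∑' m : ℕ+, ∑' d : ℕ+, ((d : ℕ) : ℂ) ^ j * t m d * q ^ ((m : ℕ) * (d : ℕ))) := by
  set T : ℕ+ × ℕ+ → ℂ := fun c =>
    t c.1 c.2 * (((c.2 : ℕ) : ℂ) ^ j * q ^ ((c.1 : ℕ) * (c.2 : ℕ))) with hT
  have hs0 := summable_prod_mul_pow (𝕜 := ℂ) j hq
  have hB : 0 ≤ B := (norm_nonneg _).trans (ht 0 0)
  have hts : Summable T := by
    refine Summable.of_norm_bounded (hs0.norm.mul_left B) ?_
    intro c
    rw [hT, norm_mul]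
    exact mul_le_mul_of_nonneg_right (ht _ _) (norm_nonneg _)
  have h1 : ∑' c, T c =
      ∑' m : ℕ+, ∑' d : ℕ+, ((d : ℕ) : ℂ) ^ j * t m d * q ^ ((m : ℕ) * (d : ℕ)) := by
    rw [hts.tsum_prod]
    refine tsum_congr fun m => tsum_congr fun d => ?_
    rw [hT]
    ring
  rw [← h1]
  have h2 : HasSum (T ∘ sigmaAntidiagonalEquivProd) (∑' c, T c) :=
    (sigmaAntidiagonalEquivProd.hasSum_iff).mpr hts.hasSum
  refine h2.sigma fun n => ?_
  have h3 := hasSum_fintype (fun x : Nat.divisorsAntidiagonal (n : ℕ) =>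
    (T ∘ sigmaAntidiagonalEquivProd) ⟨n, x⟩)
  convert h3 using 1
  rw [Finset.univ_eq_attach]
  have h4 : ∀ x : Nat.divisorsAntidiagonal (n : ℕ), (T ∘ sigmaAntidiagonalEquivProd) ⟨n, x⟩ =
      (fun y : ℕ × ℕ => t y.1 y.2 * ((y.2 : ℂ) ^ j * q ^ (y.1 * y.2))) x.1 := by
    intro x
    simp [hT, sigmaAntidiagonalEquivProd, divisorsAntidiagonalFactors]
  simp_rw [h4]
  rw [Finset.sum_attach (Nat.divisorsAntidiagonal (n : ℕ))
    (fun y : ℕ × ℕ => t y.1 y.2 * ((y.2 : ℂ) ^ j * q ^ (y.1 * y.2)))]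
  rw [Nat.sum_divisorsAntidiagonal' (fun x y => t x y * ((y : ℂ) ^ j * q ^ (x * y))),
    Finset.sum_mul]
  refine Finset.sum_congr rfl fun d hd => ?_
  rw [Nat.div_mul_cancel (Nat.dvd_of_mem_divisors hd)]
  ring

/-! ### The expansion -/

/-- The `N`-th coefficient (up to the constant `cst M k`). -/
def coeffN (M k : ℕ) (w : (Fin 2 → ℤ) → ℂ) (N : ℕ) : ℂ :=
  ∑ d ∈ N.divisors, (d : ℂ) ^ (k - 1) *
    (Tw M w ((N / d : ℕ) : ℤ) d + (-1) ^ k * Tw M (refl w) ((N / d : ℕ) : ℤ) d)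

/-- The row `m = 0`: `∑_{n ≠ 0} w(0, n) n^{-k}`. -/
def row0 (k : ℕ) (w : (Fin 2 → ℤ) → ℂ) : ℂ := ∑' n : ℤ, w ![0, n] * ((n : ℂ) ^ k)⁻¹

theorem norm_refl_le {w : (Fin 2 → ℤ) → ℂ} (hw1 : ∀ v, ‖w v‖ ≤ 1) (v : Fin 2 → ℤ) :
    ‖refl w v‖ ≤ 1 := hw1 _

/-- **The `q_M`-expansion of a weighted Eisenstein series** (`ℕ+`-indexed, constant term moved to
the left). -/
theorem hasSum_eisW (M : ℕ) [NeZero M] {k : ℕ} (hk : 3 ≤ k) {w : (Fin 2 → ℤ) → ℂ}
    (hw1 : ∀ v, ‖w v‖ ≤ 1) (hper : IsPeriodic M w) (z : ℍ) :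
    HasSum (fun N : ℕ+ => cst M k * coeffN M k w N * qh M z ^ (N : ℕ))
      (eisW k w z - row0 k w) := by
  have hq : ‖qh M z‖ < 1 := norm_qh_lt_one M z
  -- rows
  have hs : Summable fun x : ℤ × ℤ => w ![x.1, x.2] * eisSummand k ![x.1, x.2] z := by
    refine Summable.of_norm_bounded (summable_prod_eisSummand (k := k) hk z).norm ?_
    intro x
    rw [norm_mul]
    calc ‖w ![x.1, x.2]‖ * ‖eisSummand k ![x.1, x.2] z‖
        ≤ 1 * ‖eisSummand k ![x.1, x.2] z‖ := by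
          gcongr; exact hw1 _
      _ = _ := by rw [one_mul]
  have hrows : eisW k w z = ∑' m : ℤ, ∑' n : ℤ, w ![m, n] * eisSummand k ![m, n] z := by
    unfold eisW
    rw [← (finTwoArrowEquiv ℤ).symm.tsum_eq]
    simp only [finTwoArrowEquiv_symm_apply]
    rw [Summable.tsum_prod hs]
  have hrow0 : ∑' n : ℤ, w ![0, n] * eisSummand k ![0, n] z = row0 k w := by
    unfold row0
    refine tsum_congr fun n => ?_
    simp [eisSummand]
  rw [hrows, tsum_int_eq_zero_add_tsum_pnat hs.prod, hrow0]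
  -- the positive and negative rows
  have hpos : ∀ m : ℕ+, ∑' n : ℤ, w ![((m : ℕ) : ℤ), n] * eisSummand k ![((m : ℕ) : ℤ), n] z +
      ∑' n : ℤ, w ![-((m : ℕ) : ℤ), n] * eisSummand k ![-((m : ℕ) : ℤ), n] z =
      cst M k * ∑' d : ℕ+, ((d : ℕ) : ℂ) ^ (k - 1) *
        (Tw M w ((m : ℕ) : ℤ) d + (-1) ^ k * Tw M (refl w) ((m : ℕ) : ℤ) d) *
        qh M z ^ ((m : ℕ) * (d : ℕ)) := by
    intro m
    rw [row_neg, row_pnat M hk hw1 hper z m,
      row_pnat M hk (norm_refl_le hw1) hper.refl z m]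
    have hsum : ∀ (u : (Fin 2 → ℤ) → ℂ) (_ : ∀ v, ‖u v‖ ≤ 1), Summable fun d : ℕ+ =>
        ((d : ℕ) : ℂ) ^ (k - 1) * Tw M u ((m : ℕ) : ℤ) d * qh M z ^ ((m : ℕ) * (d : ℕ)) := by
      intro u hu
      have hqm : ‖qh M z ^ (m : ℕ)‖ < 1 := by
        rw [norm_pow]; exact pow_lt_one₀ (norm_nonneg _) hq (PNat.ne_zero m)
      have h0' : Summable fun d : ℕ+ => ((d : ℕ) : ℂ) ^ (k - 1) * (qh M z ^ (m : ℕ)) ^ (d : ℕ) :=
        (summable_pow_mul_geometric_of_norm_lt_one (k - 1) hqm).comp_injective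
          PNat.coe_injective
      refine Summable.of_norm_bounded (h0'.norm.mul_left (M : ℝ)) ?_
      intro d
      rw [norm_mul, norm_mul, norm_mul, ← pow_mul]
      calc ‖((d : ℕ) : ℂ) ^ (k - 1)‖ * ‖Tw M u ((m : ℕ) : ℤ) d‖ * ‖qh M z ^ ((m : ℕ) * (d : ℕ))‖
          ≤ ‖((d : ℕ) : ℂ) ^ (k - 1)‖ * M * ‖qh M z ^ ((m : ℕ) * (d : ℕ))‖ := by
            gcongr; exact norm_Tw_le M hu _ _
        _ = _ := by ring
    rw [← mul_assoc, mul_comm ((-1 : ℂ) ^ k) (cst M k), mul_assoc, ← mul_add,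
      ← tsum_mul_left, ← (hsum w hw1).tsum_add ((hsum _ (norm_refl_le hw1)).mul_left _)]
    congr 1
    refine tsum_congr fun d => ?_
    ring
  have hsp : Summable fun m : ℕ+ =>
      ∑' n : ℤ, w ![((m : ℕ) : ℤ), n] * eisSummand k ![((m : ℕ) : ℤ), n] z :=
    hs.prod.comp_injective (i := fun m : ℕ+ => ((m : ℕ) : ℤ))
      (fun x y h => PNat.coe_injective (by simpa using h))
  have hsn : Summable fun m : ℕ+ =>
      ∑' n : ℤ, w ![-((m : ℕ) : ℤ), n] * eisSummand k ![-((m : ℕ) : ℤ), n] z :=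
    hs.prod.comp_injective (i := fun m : ℕ+ => -((m : ℕ) : ℤ))
      (fun x y h => PNat.coe_injective (by simpa using h))
  rw [add_assoc, ← hsp.tsum_add hsn, add_sub_cancel_left]
  simp_rw [hpos]
  rw [tsum_mul_left]
  have h5 := hasSum_divisor_rearr hq
    (fun m d => Tw M w (m : ℤ) d + (-1) ^ k * Tw M (refl w) (m : ℤ) d) (2 * M)
    (fun m d => by
      refine (norm_add_le _ _).trans ?_
      rw [norm_mul, norm_pow, norm_neg, norm_one, one_pow, one_mul]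
      have h1 := norm_Tw_le M hw1 (m : ℤ) d
      have h2 := norm_Tw_le M (norm_refl_le hw1) (m : ℤ) d
      linarith) (k - 1)
  have h6 := h5.mul_left (cst M k)
  refine h6.congr_fun fun N => ?_
  unfold coeffN
  ring

/-! ### The constant term -/

theorem zetaC_zpow (M : ℕ) [NeZero M] (b : ℤ) :
    zetaC M ^ b = cexp (2 * π * I * ((b / M : ℝ) : ℂ)) := by
  have hM : (M : ℂ) ≠ 0 := by exact_mod_cast NeZero.ne M
  rw [zetaC, ← Complex.exp_int_mul]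
  congr 1
  push_cast
  field_simp

/-- A residue class `b ≢ 0 (M)` of the row `m = 0`. -/
theorem tsum_class_zero (M : ℕ) [NeZero M] {k : ℕ} (hk : 2 ≤ k) {b : ℤ} (hb : ¬ (M : ℤ) ∣ b) :
    ∑' t : ℤ, (((t * M + b : ℤ) : ℂ) ^ k)⁻¹ = cst M k * liF (k - 1) (zetaC M ^ b) := by
  have hM : (M : ℂ) ≠ 0 := by exact_mod_cast NeZero.ne M
  have hMR : (M : ℝ) ≠ 0 := by exact_mod_cast NeZero.ne M
  have hx : ∀ n : ℤ, (b / M : ℝ) ≠ n := by
    intro n h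
    apply hb
    refine ⟨n, ?_⟩
    have : (b : ℝ) = M * n := by
      field_simp at h
      exact h
    have h2 : (b : ℝ) = ((M * n : ℤ) : ℝ) := by push_cast; rw [this]
    exact_mod_cast h2
  have H := tsum_int_real_eq hk hx
  have h1 : ∀ t : ℤ, (((t * M + b : ℤ) : ℂ) ^ k)⁻¹ =
      ((M : ℂ) ^ k)⁻¹ * ((((b / M : ℝ) : ℂ) + t) ^ k)⁻¹ := by
    intro t
    have : ((t * M + b : ℤ) : ℂ) = (M : ℂ) * (((b / M : ℝ) : ℂ) + t) := by
      push_cast
      field_simp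
      ring
    rw [this, mul_pow, mul_inv]
  simp_rw [h1]
  rw [tsum_mul_left, H, zetaC_zpow, cst]
  have hfac : ((k - 1)! : ℂ) ≠ 0 := by exact_mod_cast (Nat.factorial_ne_zero _)
  field_simp

/-- The normalised constant term `∑_{b ≢ 0} w(0, b) Li_{1-k}(ζ^b)`. -/
def c0 (M k : ℕ) (w : (Fin 2 → ℤ) → ℂ) : ℂ :=
  ∑ b : Fin M, if (b : ℕ) = 0 then 0 else
    w ![0, ((b : ℕ) : ℤ)] * liF (k - 1) (zetaC M ^ (b : ℕ))

theorem row0_eq (M : ℕ) [NeZero M] {k : ℕ} (hk : 2 ≤ k) {w : (Fin 2 → ℤ) → ℂ}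
    (hw1 : ∀ v, ‖w v‖ ≤ 1) (hper : IsPeriodic M w) (h00 : w ![0, 0] = 0) :
    row0 k w = cst M k * c0 M k w := by
  have hs : Summable fun n : ℤ => w ![0, n] * ((n : ℂ) ^ k)⁻¹ := by
    have h0 := (EisensteinSeries.linear_right_summable (0 : ℂ) 1 (k := k) (by omega)).norm
    refine Summable.of_norm_bounded h0 fun n => ?_
    rw [norm_mul]
    calc ‖w ![0, n]‖ * ‖((n : ℂ) ^ k)⁻¹‖ ≤ 1 * ‖((n : ℂ) ^ k)⁻¹‖ := by
          gcongr; exact hw1 _
      _ = _ := by simp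
  unfold row0 c0
  rw [tsum_int_eq_sum_fin_tsum M hs, Finset.mul_sum]
  refine Finset.sum_congr rfl fun b _ => ?_
  have h1 : ∀ t : ℤ, w ![0, t * M + ((b : ℕ) : ℤ)] * (((t * M + ((b : ℕ) : ℤ) : ℤ) : ℂ) ^ k)⁻¹ =
      w ![0, ((b : ℕ) : ℤ)] * (((t * M + ((b : ℕ) : ℤ) : ℤ) : ℂ) ^ k)⁻¹ := by
    intro t
    rw [hper.apply_add]
  rw [tsum_congr h1, tsum_mul_left]
  by_cases hb : (b : ℕ) = 0
  · rw [if_pos hb, hb]
    simp [h00]
  · rw [if_neg hb, tsum_class_zero M hk, zpow_natCast]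
    · ring
    · intro hdvd
      have h2 := Int.natCast_dvd_natCast.mp hdvd
      exact hb (Nat.eq_zero_of_dvd_of_lt h2 b.isLt)

/-- The normalised `q_M`-expansion. -/
def nPS (M k : ℕ) (w : (Fin 2 → ℤ) → ℂ) : PowerSeries ℂ :=
  PowerSeries.mk fun N => if N = 0 then c0 M k w else coeffN M k w N

theorem cst_ne_zero (M : ℕ) [NeZero M] (k : ℕ) : cst M k ≠ 0 := by
  have hM : (M : ℂ) ≠ 0 := by exact_mod_cast NeZero.ne M
  have hfac : ((k - 1)! : ℂ) ≠ 0 := by exact_mod_cast (Nat.factorial_ne_zero _)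
  unfold cst
  refine div_ne_zero (pow_ne_zero _ ?_) (mul_ne_zero hfac (pow_ne_zero _ hM))
  simp [Real.pi_ne_zero, I_ne_zero]

/-- **`cst⁻¹ · eisW k w` has the `q_M`-expansion `nPS M k w`** (`w` periodic, `w(0,0) = 0`). -/
theorem isQExp_eisW (M : ℕ) [NeZero M] {k : ℕ} (hk : 3 ≤ k) {w : (Fin 2 → ℤ) → ℂ}
    (hw1 : ∀ v, ‖w v‖ ≤ 1) (hper : IsPeriodic M w) (h00 : w ![0, 0] = 0) :
    IsQExp M (fun z => (cst M k)⁻¹ * eisW k w z) 0 (nPS M k w) := by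
  intro z
  have hc := cst_ne_zero M k
  have h1 := (hasSum_eisW M hk hw1 hper z).mul_left (cst M k)⁻¹
  rw [row0_eq M (by omega) hw1 hper h00, mul_sub, ← mul_assoc, inv_mul_cancel₀ hc, one_mul] at h1
  have h2 : HasSum (fun n : ℕ => PowerSeries.coeff (n + 1) (nPS M k w) * qh M z ^ (n + 1))
      ((cst M k)⁻¹ * eisW k w z - c0 M k w) := by
    rw [← Equiv.pnatEquivNat.symm.hasSum_iff] at h1
    refine h1.congr_fun fun n => ?_
    simp only [Function.comp_apply, nPS, PowerSeries.coeff_mk, if_neg (Nat.succ_ne_zero n)]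
    rw [← mul_assoc, ← mul_assoc, inv_mul_cancel₀ hc, one_mul]
    rfl
  have h3 := (hasSum_nat_add_iff' (f := fun n : ℕ => PowerSeries.coeff n (nPS M k w) *
    qh M z ^ n) 1).mp (by
      simpa [nPS] using h2)
  simpa using h3

end Fermat.Agent.M48.EisCuspExp6
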