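/-
Programme M48 (target S48), pillar (P1), chapters [IG1] / [RED1]-(MF2) — helper6.
**The cusp expansions of the `Γ₁(M)`-generators `g_{M,a}` at ALL cusps, with coefficients in
`ℤ[ζ_M, 1/M, (1 - ζ^b)⁻¹]`.**

`K` a field, `ι : K →+* ℂ`, `ζ : K` with `ι ζ = exp(2πi/M)`.  For an indicator weight
`indW S` (`S` a set of vectors of `ℤ²`, `M`-periodic, `(0,0) ∉ S`) the normalised Eisenstein series
`cst⁻¹ · eisW k (indW S)` has the `q_M`-expansion `(nPSK ζ M k S).map ι`, a power series over `K`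
whose coefficients lie in every subring containing `ζ` and the `(1 - ζ^b)⁻¹`, `0 < b < M`.
Consequence (`exists_rel_compSL_gFun`): every translate `g_{M,a} ∘ σ`, `σ ∈ SL(2, ℤ)`, has a
`q_M`-expansion `X ∈ K((Q))` with coefficients in every subring containing `ζ`, `1/M` and the
`(1 - ζ^b)⁻¹` — in particular in every valuation ring of `K` of residue characteristic `ℓ ∤ M`.
-/
import Mathlib
import Fermat.Agent.M48.EisCuspExp6
import Fermat.Agent.M48.FullLevelGen6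
import Fermat.Agent.M48.G10Eis4

set_option autoImplicit false
set_option linter.unusedSectionVars false

open UpperHalfPlane hiding I
open Complex
open scoped Real Nat MatrixGroups Matrix

noncomputable section

namespace Fermat.Agent.M48.EisRat6

open Fermat.Agent.ES.KUM.EisChar20 Fermat.Agent.X0 Fermat.Agent.X0.QExpAffine
open Fermat.Agent.M48.EisConst6 Fermat.Agent.M48.EisCuspExp6 Fermat.Agent.M48.FullLevelGen6

/-! ### Indicator weights -/

open Classical in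
/-- The indicator function of a set of vectors. -/
def indW (S : (Fin 2 → ℤ) → Prop) : (Fin 2 → ℤ) → ℂ := fun v => if S v then 1 else 0

theorem norm_indW_le (S : (Fin 2 → ℤ) → Prop) (v : Fin 2 → ℤ) : ‖indW S v‖ ≤ 1 := by
  unfold indW
  split_ifs <;> simp

theorem refl_indW (S : (Fin 2 → ℤ) → Prop) : refl (indW S) = indW (fun v => S (-v)) := rfl

theorem isPeriodic_indW {M : ℕ} {S : (Fin 2 → ℤ) → Prop}
    (hS : ∀ v u : Fin 2 → ℤ, S (v + (M : ℤ) • u) ↔ S v) : IsPeriodic M (indW S) := by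
  intro v u
  unfold indW
  have h := hS v u
  by_cases hv : S v
  · rw [if_pos hv, if_pos (h.mpr hv)]
  · rw [if_neg hv, if_neg (fun h' => hv (h.mp h'))]

/-! ### The expansion over `K` -/

section Rat

variable {K : Type} [Field K] (ι : K →+* ℂ) (M : ℕ) [NeZero M] (ζ : K)

open Classical in
/-- The finite Fourier sum over `K`. -/
def TwK (S : (Fin 2 → ℤ) → Prop) (m : ℤ) (d : ℕ) : K :=
  ∑ b : Fin M, if S ![m, ((b : ℕ) : ℤ)] then ζ ^ ((b : ℕ) * d) else 0

variable {ι M ζ}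

theorem map_TwK (hζ : ι ζ = zetaC M) (S : (Fin 2 → ℤ) → Prop) (m : ℤ) (d : ℕ) :
    ι (TwK M ζ S m d) = Tw M (indW S) m d := by
  unfold TwK Tw indW
  rw [map_sum]
  refine Finset.sum_congr rfl fun b _ => ?_
  split_ifs
  · rw [map_pow, hζ, one_mul]
  · rw [map_zero, zero_mul]

theorem TwK_mem (R : Subring K) (hζR : ζ ∈ R) (S : (Fin 2 → ℤ) → Prop) (m : ℤ) (d : ℕ) :
    TwK M ζ S m d ∈ R := by
  unfold TwK
  refine sum_mem fun b _ => ?_
  split_ifs
  · exact pow_mem hζR _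
  · exact zero_mem R

variable (M ζ)

/-- The `N`-th coefficient over `K`. -/
def coeffNK (k : ℕ) (S : (Fin 2 → ℤ) → Prop) (N : ℕ) : K :=
  ∑ d ∈ N.divisors, (d : K) ^ (k - 1) *
    (TwK M ζ S ((N / d : ℕ) : ℤ) d + (-1) ^ k * TwK M ζ (fun v => S (-v)) ((N / d : ℕ) : ℤ) d)

open Classical in
/-- The constant term over `K`. -/
def c0K (k : ℕ) (S : (Fin 2 → ℤ) → Prop) : K :=
  ∑ b : Fin M, if (b : ℕ) = 0 then 0 else
    if S ![0, ((b : ℕ) : ℤ)] then liF (k - 1) (ζ ^ (b : ℕ)) else 0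

/-- The normalised expansion over `K`. -/
def nPSK (k : ℕ) (S : (Fin 2 → ℤ) → Prop) : PowerSeries K :=
  PowerSeries.mk fun N => if N = 0 then c0K M ζ k S else coeffNK M ζ k S N

variable {M ζ}

theorem map_coeffNK (hζ : ι ζ = zetaC M) (k : ℕ) (S : (Fin 2 → ℤ) → Prop) (N : ℕ) :
    ι (coeffNK M ζ k S N) = coeffN M k (indW S) N := by
  unfold coeffNK coeffN
  rw [map_sum]
  refine Finset.sum_congr rfl fun d _ => ?_
  rw [map_mul, map_pow, map_natCast, map_add, map_mul, map_pow, map_neg, map_one,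
    map_TwK hζ, map_TwK hζ, refl_indW]

theorem map_c0K (hζ : ι ζ = zetaC M) (k : ℕ) (S : (Fin 2 → ℤ) → Prop) :
    ι (c0K M ζ k S) = c0 M k (indW S) := by
  unfold c0K c0 indW
  rw [map_sum]
  refine Finset.sum_congr rfl fun b _ => ?_
  split_ifs
  · rw [map_zero]
  · rw [map_liF, map_pow, hζ, one_mul]
  · rw [map_zero, zero_mul]

theorem map_nPSK (hζ : ι ζ = zetaC M) (k : ℕ) (S : (Fin 2 → ℤ) → Prop) :
    (nPSK M ζ k S).map ι = nPS M k (indW S) := by
  ext N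
  rw [PowerSeries.coeff_map, nPSK, nPS, PowerSeries.coeff_mk, PowerSeries.coeff_mk]
  split_ifs
  · exact map_c0K hζ k S
  · exact map_coeffNK hζ k S N

theorem liF_mem (R : Subring K) (e : ℕ) {ξ : K} (hξ : (1 - ξ)⁻¹ ∈ R) : liF e ξ ∈ R := by
  unfold liF
  refine sum_mem fun j _ => ?_
  rw [div_eq_mul_inv, ← inv_pow]
  exact mul_mem (intCast_mem R _) (pow_mem hξ _)

theorem coeff_nPSK_mem (R : Subring K) (hζR : ζ ∈ R)
    (hinv : ∀ b : ℕ, 0 < b → b < M → (1 - ζ ^ b)⁻¹ ∈ R) (k : ℕ) (S : (Fin 2 → ℤ) → Prop)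
    (N : ℕ) : PowerSeries.coeff N (nPSK M ζ k S) ∈ R := by
  rw [nPSK, PowerSeries.coeff_mk]
  split_ifs
  · unfold c0K
    refine sum_mem fun b _ => ?_
    split_ifs with hb hS
    · exact zero_mem R
    · exact liF_mem R _ (hinv b (Nat.pos_of_ne_zero hb) b.isLt)
    · exact zero_mem R
  · unfold coeffNK
    refine sum_mem fun d _ => ?_
    refine mul_mem (pow_mem (natCast_mem R d) _) (add_mem (TwK_mem R hζR _ _ _) ?_)
    exact mul_mem (pow_mem (neg_mem (one_mem R)) _) (TwK_mem R hζR _ _ _)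

/-- **The expansion over `K` of a normalised Eisenstein series with indicator weight.** -/
theorem isQExp_eisW_indW (hζ : ι ζ = zetaC M) {k : ℕ} (hk : 3 ≤ k) {S : (Fin 2 → ℤ) → Prop}
    (hS : ∀ v u : Fin 2 → ℤ, S (v + (M : ℤ) • u) ↔ S v) (h00 : ¬ S ![0, 0]) :
    IsQExp M (fun z => (cst M k)⁻¹ * eisW k (indW S) z) 0 ((nPSK M ζ k S).map ι) := by
  rw [map_nPSK hζ]
  refine isQExp_eisW M hk (norm_indW_le S) (isPeriodic_indW hS) ?_
  unfold indW
  rw [if_neg h00]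

end Rat

/-! ### Power series with coefficients in a subring -/

section Sub

variable {K : Type} [Field K]

theorem coeff_mul_mem (R : Subring K) {P Q : PowerSeries K}
    (hP : ∀ n, PowerSeries.coeff n P ∈ R) (hQ : ∀ n, PowerSeries.coeff n Q ∈ R) (n : ℕ) :
    PowerSeries.coeff n (P * Q) ∈ R := by
  rw [PowerSeries.coeff_mul]
  exact sum_mem fun p _ => mul_mem (hP _) (hQ _)

theorem coeff_etaUInv_expand_mem (R : Subring K) (M : ℕ) (hM : M ≠ 0) (n : ℕ) :
    PowerSeries.coeff n ((Fermat.Agent.IG.AN.DeltaAffine11.etaUInv K).expand M hM) ∈ R := by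
  rw [PowerSeries.coeff_expand]
  split_ifs
  · rw [Fermat.Agent.IG.AN.DeltaAffine11.etaUInv, PowerSeries.coeff_map]
    exact intCast_mem R _
  · exact zero_mem R

theorem coeff_laurentOf_mem (R : Subring K) (m : ℕ) {P : PowerSeries K}
    (hP : ∀ n, PowerSeries.coeff n P ∈ R) (k : ℤ) : (laurentOf m P).coeff k ∈ R := by
  rw [laurentOf_coeff]
  split_ifs
  · exact hP _
  · exact zero_mem R

end Sub

/-! ### The translates of `g_{M,a}` -/

section GFun

open Fermat.Agent.M48.DictIface4 Fermat.Agent.M48.G10Eis4 Fermat.Agent.M48.AnCuspExp4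
open Fermat.Agent.IG.AN.DeltaAffine11

variable {K : Type} [Field K] {ι : K →+* ℂ} (M : ℕ) [NeZero M] {ζ : K}

/-- the support of the translated weight. -/
def STr (a : ZMod M) (σ : SL(2, ℤ)) (v : Fin 2 → ℤ) : Prop :=
  (((v ᵥ* ((σ⁻¹ : SL(2, ℤ)) : Matrix (Fin 2) (Fin 2) ℤ)) 0 : ℤ) : ZMod M) = a

theorem wTr_eq_indW (a : ZMod M) (σ : SL(2, ℤ)) : wTr M a σ = indW (STr M a σ) := by
  funext v
  unfold wTr wInd indW STr
  split_ifs <;> rfl

theorem STr_periodic (a : ZMod M) (σ : SL(2, ℤ)) (v u : Fin 2 → ℤ) :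
    STr M a σ (v + (M : ℤ) • u) ↔ STr M a σ v := by
  unfold STr
  rw [Matrix.add_vecMul, Matrix.smul_vecMul]
  simp only [Pi.add_apply, Pi.smul_apply, smul_eq_mul]
  push_cast
  rw [ZMod.natCast_self, zero_mul, add_zero]

theorem not_STr_zero {a : ZMod M} (ha : a ≠ 0) (σ : SL(2, ℤ)) : ¬ STr M a σ ![0, 0] := by
  unfold STr
  have : (![0, 0] : Fin 2 → ℤ) = 0 := by
    ext i; fin_cases i <;> rfl
  rw [this, Matrix.zero_vecMul]
  simpa using ha.symm

theorem cst_eq (M : ℕ) [NeZero M] :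
    G10Eis4.cst = ((M : ℂ) ^ 12)⁻¹ * (EisCuspExp6.cst M 12)⁻¹ := by
  have hM : (M : ℂ) ≠ 0 := by exact_mod_cast NeZero.ne M
  have hpi : (π : ℂ) ≠ 0 := by exact_mod_cast Real.pi_ne_zero
  unfold G10Eis4.cst EisCuspExp6.cst
  have hI : (-2 * (π : ℂ) * I) ^ 12 = (2 * (π : ℂ)) ^ 12 := by
    have : (-2 * (π : ℂ) * I) ^ 12 = (2 * (π : ℂ)) ^ 12 * (I ^ 4) ^ 3 := by ring
    rw [this, Complex.I_pow_four, one_pow, mul_one]
  rw [hI]
  have hfac : ((12 - 1)! : ℂ) ≠ 0 := by exact_mod_cast (Nat.factorial_ne_zero _)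
  have h11 : ((12 - 1)! : ℂ) = (Nat.factorial 11 : ℂ) := rfl
  rw [h11] at hfac ⊢
  field_simp

/-- The expansion of `g_{M,a} ∘ σ` over `K`. -/
def gExp (ζ : K) (a : ZMod M) (σ : SL(2, ℤ)) : LaurentSeries K :=
  laurentOf M (PowerSeries.C (((M : K) ^ 12)⁻¹) * nPSK M ζ 12 (STr M a σ) *
    (etaUInv K).expand M (NeZero.ne M))

/-- **Every translate of `g_{M,a}` has the `q_M`-expansion `gExp`.** -/
theorem rel_gExp (hζ : ι ζ = zetaC M) {a : ZMod M} (ha : a ≠ 0) (σ : SL(2, ℤ)) :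
    Rel ι M (gExp M ζ a σ) (compSL (gFun M a) σ) := by
  have h1 := isQExp_eisW_indW (ι := ι) hζ (k := 12) (by norm_num) (STr_periodic M a σ)
    (not_STr_zero M ha σ)
  have h2 := (h1.smul (((M : ℂ) ^ 12)⁻¹)).mul (isQExp_discriminant_inv_level M)
  refine ⟨0 + M, ((M : ℂ) ^ 12)⁻¹ • (PowerSeries.map ι) (nPSK M ζ 12 (STr M a σ)) *
    (etaUInv ℂ).expand M (NeZero.ne M), ?_, ?_⟩
  · have hfun : compSL (gFun M a) σ = (((M : ℂ) ^ 12)⁻¹ • fun z =>
        (EisCuspExp6.cst M 12)⁻¹ * eisW ((12 : ℕ) : ℤ) (indW (STr M a σ)) z) *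
        fun z => (ModularForm.discriminant z)⁻¹ := by
      funext z
      rw [compSL, gFun_smul, cst_eq M, wTr_eq_indW]
      simp only [Pi.mul_apply, Pi.smul_apply, smul_eq_mul]
      push_cast
      ring
    rw [hfun]
    exact h2
  · rw [gExp, zero_add, coeffMap_laurentOf]
    congr 1
    rw [map_mul, map_mul, PowerSeries.map_C, PowerSeries.map_expand, map_etaUInv, map_inv₀,
      map_pow, map_natCast, PowerSeries.smul_eq_C_mul]

/-- The coefficients of `gExp` lie in every subring containing `ζ`, `1/M`, `(1 - ζ^b)⁻¹`. -/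
theorem coeff_gExp_mem (R : Subring K) (hζR : ζ ∈ R) (hM : ((M : K))⁻¹ ∈ R)
    (hinv : ∀ b : ℕ, 0 < b → b < M → (1 - ζ ^ b)⁻¹ ∈ R) (a : ZMod M) (σ : SL(2, ℤ)) (k : ℤ) :
    (gExp M ζ a σ).coeff k ∈ R := by
  refine coeff_laurentOf_mem R M (fun n => ?_) k
  refine coeff_mul_mem R (fun n => coeff_mul_mem R (fun n => ?_)
    (fun n => coeff_nPSK_mem R hζR hinv 12 _ n) n)
    (fun n => coeff_etaUInv_expand_mem R M _ n) n
  rw [PowerSeries.coeff_C]
  split_ifs
  · rw [← inv_pow]; exact pow_mem hM _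
  · exact zero_mem R

end GFun

end Fermat.Agent.M48.EisRat6
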