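/-
Programme M48 (target S48), pillar (P1), chapter [IG1] — helper6.
**(GEN): the automorphisms of a field of `q_n`-expansions coming from the action of `SL(2, ℤ)` on the
analytic realisations.**

`K` a field with `ι : K →+* ℂ`, `n ≥ 1`.  `Rel ι n a h` : the Laurent series `a ∈ K((Q))` is the
`q_n`-expansion (`Q = q^{1/n}`) of the function `h : ℍ → ℂ` (closed under `+`, `*`, constants;
`a` determines `h` and `h` determines `a`).  A family `F : RealFam ι n` of realised functions
`f i ↔ x i`, stable under `SL(2, ℤ)` (`compSL (f i) γ = f i'`), generates the `K`-algebra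
`A = K[x i]` and the field `N = K(x i) ⊂ K((Q))`; then

* `real : A →+* (ℍ → ℂ)` (injective, `Rel a (real a)`),
* `act γ : A ≃ₐ[K] A` with `real (act γ a) = compSL (real a) γ⁻¹`,
* **`rho : SL(2, ℤ) →* (N ≃ₐ[K] N)`** extending `act`.
-/
import Mathlib
import Fermat.Agent.X0.QExpRing
import Fermat.Agent.X0.Integrality
import Fermat.Agent.X0.CuspEquiv
import Fermat.Agent.X0.QExpAffine

set_option autoImplicit false
set_option linter.unusedSectionVars false

open UpperHalfPlane ModularCurve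
open scoped MatrixGroups

noncomputable section

namespace Fermat.Agent.M48.FullLevelGen6

open Fermat.Agent.X0

/-! ### `compSL` is a ring homomorphism and a right action -/

theorem compSL_add' (f g : ℍ → ℂ) (γ : SL(2, ℤ)) : compSL (f + g) γ = compSL f γ + compSL g γ :=
  rfl

theorem compSL_mul' (f g : ℍ → ℂ) (γ : SL(2, ℤ)) : compSL (f * g) γ = compSL f γ * compSL g γ :=
  rfl

theorem compSL_const' (c : ℂ) (γ : SL(2, ℤ)) : compSL (fun _ => c) γ = fun _ => c := rfl

theorem compSL_compSL (f : ℍ → ℂ) (α β : SL(2, ℤ)) : compSL (compSL f α) β = compSL f (α * β) := by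
  funext z
  simp only [compSL, mul_smul]

theorem compSL_one' (f : ℍ → ℂ) : compSL f 1 = f := by
  funext z
  simp only [compSL, one_smul]

theorem compSL_inj {f g : ℍ → ℂ} (γ : SL(2, ℤ)) (h : compSL f γ = compSL g γ) : f = g := by
  have := congrArg (fun u => compSL u γ⁻¹) h
  simpa [compSL_compSL, compSL_one'] using this

/-! ### Expansions with coefficients in `K` -/

section Rel

variable {K : Type} [Field K] (ι : K →+* ℂ) (n : ℕ) [NeZero n]

theorem coeffMap_injective : Function.Injective (coeffMap ι : LaurentSeries K → LaurentSeries ℂ) := by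
  intro a b hab
  ext k
  have := congrArg (fun s : LaurentSeries ℂ => s.coeff k) hab
  simp only [coeffMap_coeff] at this
  exact ι.injective this

/-- `a ∈ K((Q))` is the `q_n`-expansion of `h`. -/
def Rel (a : LaurentSeries K) (h : ℍ → ℂ) : Prop :=
  ∃ (m : ℕ) (P : PowerSeries ℂ), IsQExp n h m P ∧ laurentOf m P = coeffMap ι a

variable {ι n}

theorem Rel.add {a b : LaurentSeries K} {h g : ℍ → ℂ} (ha : Rel ι n a h) (hb : Rel ι n b g) :
    Rel ι n (a + b) (h + g) := by
  obtain ⟨m, P, hP, e1⟩ := ha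
  obtain ⟨m', Q, hQ, e2⟩ := hb
  refine ⟨m + m', _, hP.add hQ, ?_⟩
  rw [laurentOf_add, laurentOf_shift, add_comm m m', laurentOf_shift, e1, e2, map_add]

theorem Rel.mul {a b : LaurentSeries K} {h g : ℍ → ℂ} (ha : Rel ι n a h) (hb : Rel ι n b g) :
    Rel ι n (a * b) (h * g) := by
  obtain ⟨m, P, hP, e1⟩ := ha
  obtain ⟨m', Q, hQ, e2⟩ := hb
  refine ⟨m + m', _, hP.mul hQ, ?_⟩
  rw [laurentOf_mul, e1, e2, map_mul]

theorem rel_algebraMap (c : K) :
    Rel ι n (algebraMap K (LaurentSeries K) c) (fun _ => ι c) := by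
  refine ⟨0, PowerSeries.C (ι c), isQExp_const n (ι c), ?_⟩
  rw [laurentOf_zero_left, algebraMap_laurentSeries_eq_single, coeffMap_single,
    HahnSeries.ofPowerSeries_C]
  rfl

theorem Rel.left_unique {a b : LaurentSeries K} {h : ℍ → ℂ} (ha : Rel ι n a h)
    (hb : Rel ι n b h) : a = b := by
  obtain ⟨m, P, hP, e1⟩ := ha
  obtain ⟨m', Q, hQ, e2⟩ := hb
  apply coeffMap_injective ι
  rw [← e1, ← e2]
  exact hP.unique hQ

theorem Rel.right_unique {a : LaurentSeries K} {h g : ℍ → ℂ} (ha : Rel ι n a h)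
    (hb : Rel ι n a g) : h = g := by
  obtain ⟨m, P, hP, e1⟩ := ha
  obtain ⟨m', Q, hQ, e2⟩ := hb
  exact hP.ext hQ (e1.trans e2.symm)

theorem Rel.eq_zero_iff {a : LaurentSeries K} {h : ℍ → ℂ} (ha : Rel ι n a h) : h = 0 ↔ a = 0 := by
  obtain ⟨m, P, hP, e1⟩ := ha
  rw [hP.eq_zero_iff, ← laurentOf_eq_zero_iff m P, e1]
  constructor
  · intro h0
    apply coeffMap_injective ι
    rw [h0, map_zero]
  · rintro rfl
    rw [map_zero]

end Rel

/-! ### Realised families -/

/-- A family of realised functions, stable under `SL(2, ℤ)`. -/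
structure RealFam {K : Type} [Field K] (ι : K →+* ℂ) (n : ℕ) where
  /-- the index type -/
  I : Type
  /-- the functions -/
  f : I → ℍ → ℂ
  /-- their expansions -/
  x : I → LaurentSeries K
  rel : ∀ i, Rel ι n (x i) (f i)
  perm : ∀ (γ : SL(2, ℤ)) (i : I), ∃ i', compSL (f i) γ = f i'

namespace RealFam

variable {K : Type} [Field K] {ι : K →+* ℂ} {n : ℕ} [NeZero n] (F : RealFam ι n)

/-- `K[x i]`. -/
abbrev A : Subalgebra K (LaurentSeries K) := Algebra.adjoin K (Set.range F.x)

/-- `K(x i)`. -/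
abbrev N : IntermediateField K (LaurentSeries K) := IntermediateField.adjoin K (Set.range F.x)

theorem exists_rel {a : LaurentSeries K} (ha : a ∈ F.A) :
    ∃ h, Rel ι n a h ∧ ∀ γ : SL(2, ℤ), ∃ a' ∈ F.A, Rel ι n a' (compSL h γ) := by
  induction ha using Algebra.adjoin_induction with
  | mem a ha =>
    obtain ⟨i, rfl⟩ := ha
    refine ⟨F.f i, F.rel i, fun γ => ?_⟩
    obtain ⟨i', hi'⟩ := F.perm γ i
    exact ⟨F.x i', Algebra.subset_adjoin ⟨i', rfl⟩, hi' ▸ F.rel i'⟩
  | algebraMap c =>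
    exact ⟨fun _ => ι c, rel_algebraMap c, fun γ =>
      ⟨_, Subalgebra.algebraMap_mem _ c, rel_algebraMap c⟩⟩
  | add a b _ _ iha ihb =>
    obtain ⟨h, hr, hc⟩ := iha
    obtain ⟨g, gr, gc⟩ := ihb
    refine ⟨h + g, hr.add gr, fun γ => ?_⟩
    obtain ⟨a', ha', hra'⟩ := hc γ
    obtain ⟨b', hb', hrb'⟩ := gc γ
    exact ⟨a' + b', Subalgebra.add_mem _ ha' hb', hra'.add hrb'⟩
  | mul a b _ _ iha ihb =>
    obtain ⟨h, hr, hc⟩ := iha
    obtain ⟨g, gr, gc⟩ := ihb
    refine ⟨h * g, hr.mul gr, fun γ => ?_⟩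
    obtain ⟨a', ha', hra'⟩ := hc γ
    obtain ⟨b', hb', hrb'⟩ := gc γ
    exact ⟨a' * b', Subalgebra.mul_mem _ ha' hb', hra'.mul hrb'⟩

/-- The analytic realisation of an element of `A`. -/
def real (a : F.A) : ℍ → ℂ := (F.exists_rel a.2).choose

theorem rel_real (a : F.A) : Rel ι n (a : LaurentSeries K) (F.real a) :=
  (F.exists_rel a.2).choose_spec.1

theorem real_eq_of_rel {a : F.A} {h : ℍ → ℂ} (hr : Rel ι n (a : LaurentSeries K) h) :
    F.real a = h :=
  (F.rel_real a).right_unique hr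

theorem real_x (i : F.I) : F.real ⟨F.x i, Algebra.subset_adjoin ⟨i, rfl⟩⟩ = F.f i :=
  F.real_eq_of_rel (F.rel i)

theorem real_algebraMap (c : K) : F.real (algebraMap K F.A c) = fun _ => ι c :=
  F.real_eq_of_rel (rel_algebraMap c)

theorem real_add (a b : F.A) : F.real (a + b) = F.real a + F.real b :=
  F.real_eq_of_rel ((F.rel_real a).add (F.rel_real b))

theorem real_mul (a b : F.A) : F.real (a * b) = F.real a * F.real b :=
  F.real_eq_of_rel ((F.rel_real a).mul (F.rel_real b))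

/-- `real` as a ring homomorphism. -/
def realHom : F.A →+* (ℍ → ℂ) where
  toFun := F.real
  map_one' := by
    have := F.real_algebraMap 1
    rw [map_one] at this
    rw [this, map_one]; rfl
  map_mul' := F.real_mul
  map_zero' := by
    have := F.real_algebraMap 0
    rw [map_zero] at this
    rw [this, map_zero]; rfl
  map_add' := F.real_add

@[simp] theorem realHom_apply (a : F.A) : F.realHom a = F.real a := rfl

theorem real_injective : Function.Injective F.real := by
  intro a b hab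
  apply Subtype.ext
  have hb := F.rel_real b
  rw [← hab] at hb
  exact (F.rel_real a).left_unique hb

theorem exists_act (γ : SL(2, ℤ)) (a : F.A) : ∃ a' : F.A, F.real a' = compSL (F.real a) γ := by
  obtain ⟨h, hr, hc⟩ := F.exists_rel a.2
  obtain ⟨a', ha', hra'⟩ := hc γ
  refine ⟨⟨a', ha'⟩, ?_⟩
  rw [F.real_eq_of_rel hr]
  exact F.real_eq_of_rel hra'

/-- The action of `γ` on `A`: `real (actFun γ a) = real a ∘ γ⁻¹`. -/
def actFun (γ : SL(2, ℤ)) (a : F.A) : F.A := (F.exists_act γ⁻¹ a).choose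

theorem real_actFun (γ : SL(2, ℤ)) (a : F.A) :
    F.real (F.actFun γ a) = compSL (F.real a) γ⁻¹ :=
  (F.exists_act γ⁻¹ a).choose_spec

theorem actFun_eq {γ : SL(2, ℤ)} {a a' : F.A} (h : F.real a' = compSL (F.real a) γ⁻¹) :
    F.actFun γ a = a' :=
  F.real_injective ((F.real_actFun γ a).trans h.symm)

/-- The action of `γ` on `A` as an algebra automorphism. -/
def act (γ : SL(2, ℤ)) : F.A ≃ₐ[K] F.A where
  toFun := F.actFun γ
  invFun := F.actFun γ⁻¹
  left_inv a := F.actFun_eq (by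
    rw [inv_inv, F.real_actFun, compSL_compSL, inv_mul_cancel, compSL_one'])
  right_inv a := F.actFun_eq (by
    rw [F.real_actFun, inv_inv, compSL_compSL, mul_inv_cancel, compSL_one'])
  map_mul' a b := F.actFun_eq (by
    rw [F.real_mul, F.real_mul, F.real_actFun, F.real_actFun, compSL_mul'])
  map_add' a b := F.actFun_eq (by
    rw [F.real_add, F.real_add, F.real_actFun, F.real_actFun, compSL_add'])
  commutes' c := F.actFun_eq (by
    rw [F.real_algebraMap, compSL_const'])

theorem real_act (γ : SL(2, ℤ)) (a : F.A) : F.real (F.act γ a) = compSL (F.real a) γ⁻¹ :=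
  F.real_actFun γ a

theorem act_mul (γ δ : SL(2, ℤ)) (a : F.A) : F.act (γ * δ) a = F.act γ (F.act δ a) :=
  F.actFun_eq (by
    rw [F.real_act, F.real_act, compSL_compSL, mul_inv_rev])

theorem act_one (a : F.A) : F.act 1 a = a :=
  F.actFun_eq (by rw [inv_one, compSL_one'])

open scoped IntermediateField.algebraAdjoinAdjoin in
/-- **The action of `SL(2, ℤ)` on `N = K(x i)`.** -/
def rho : SL(2, ℤ) →* (F.N ≃ₐ[K] F.N) where
  toFun γ := IsFractionRing.algEquivOfAlgEquiv (F.act γ)
  map_one' := by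
    ext y
    obtain ⟨a, b, -, rfl⟩ := IsFractionRing.div_surjective (A := F.A) y
    simp [F.act_one]
  map_mul' γ δ := by
    ext y
    obtain ⟨a, b, -, rfl⟩ := IsFractionRing.div_surjective (A := F.A) y
    simp [F.act_mul]

open scoped IntermediateField.algebraAdjoinAdjoin in
theorem rho_algebraMap (γ : SL(2, ℤ)) (a : F.A) :
    F.rho γ (algebraMap F.A F.N a) = algebraMap F.A F.N (F.act γ a) :=
  IsFractionRing.algEquivOfAlgEquiv_algebraMap (F.act γ) a

open scoped IntermediateField.algebraAdjoinAdjoin in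
theorem coe_rho_algebraMap (γ : SL(2, ℤ)) (a : F.A) :
    ((F.rho γ (algebraMap F.A F.N a) : F.N) : LaurentSeries K) = (F.act γ a : LaurentSeries K) := by
  rw [F.rho_algebraMap]
  rfl

/-- `ρ(γ)` on an element of `A` with a known realisation. -/
theorem rho_eq_of_rel (γ : SL(2, ℤ)) {a a' : LaurentSeries K} (ha : a ∈ F.A) (ha' : a' ∈ F.A)
    {h : ℍ → ℂ} (hr : Rel ι n a h) (hr' : Rel ι n a' (compSL h γ⁻¹))
    (haN : a ∈ F.N) : ((F.rho γ ⟨a, haN⟩ : F.N) : LaurentSeries K) = a' := by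
  have h1 := F.coe_rho_algebraMap γ ⟨a, ha⟩
  have h2 : F.act γ ⟨a, ha⟩ = ⟨a', ha'⟩ := F.actFun_eq (by
    rw [F.real_eq_of_rel (a := ⟨a', ha'⟩) hr', F.real_eq_of_rel (a := ⟨a, ha⟩) hr])
  rw [h2] at h1
  exact h1

theorem mem_N_of_mem_A {a : LaurentSeries K} (ha : a ∈ F.A) : a ∈ F.N :=
  IntermediateField.algebra_adjoin_le_adjoin K _ ha

open scoped IntermediateField.algebraAdjoinAdjoin in
/-- `ρ(γ) = 1` as soon as `γ` fixes all the functions of the family. -/
theorem rho_eq_one_of_fix {γ : SL(2, ℤ)} (h : ∀ i, compSL (F.f i) γ = F.f i) : F.rho γ = 1 := by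
  have hγ : ∀ i, compSL (F.f i) γ⁻¹ = F.f i := fun i => by
    have := congrArg (fun u => compSL u γ⁻¹) (h i)
    simp only [compSL_compSL, mul_inv_cancel, compSL_one'] at this
    exact this.symm
  have hact : ∀ a : F.A, F.act γ a = a := by
    intro a
    apply F.actFun_eq
    obtain ⟨a, ha⟩ := a
    induction ha using Algebra.adjoin_induction with
    | mem a ha =>
      obtain ⟨i, rfl⟩ := ha
      rw [F.real_x i, hγ i]
    | algebraMap c =>
      have : (⟨algebraMap K (LaurentSeries K) c, Subalgebra.algebraMap_mem _ c⟩ : F.A) =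
        algebraMap K F.A c := rfl
      rw [this, F.real_algebraMap, compSL_const']
    | add a b ha hb iha ihb =>
      have : (⟨a + b, Subalgebra.add_mem _ ha hb⟩ : F.A) = ⟨a, ha⟩ + ⟨b, hb⟩ := rfl
      rw [this, F.real_add, compSL_add', ← iha, ← ihb]
    | mul a b ha hb iha ihb =>
      have : (⟨a * b, Subalgebra.mul_mem _ ha hb⟩ : F.A) = ⟨a, ha⟩ * ⟨b, hb⟩ := rfl
      rw [this, F.real_mul, compSL_mul', ← iha, ← ihb]
  ext y
  obtain ⟨a, b, -, rfl⟩ := IsFractionRing.div_surjective (A := F.A) y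
  rw [map_div₀, F.rho_algebraMap, F.rho_algebraMap, hact, hact]
  rfl

/-! ### Holomorphy, growth, and the fixed ring -/

theorem real_mem_HolH (hhol : ∀ i, F.f i ∈ HolH) (a : F.A) : F.real a ∈ HolH := by
  obtain ⟨a, ha⟩ := a
  induction ha using Algebra.adjoin_induction with
  | mem a ha =>
    obtain ⟨i, rfl⟩ := ha
    rw [F.real_x i]
    exact hhol i
  | algebraMap c =>
    have : (⟨algebraMap K (LaurentSeries K) c, Subalgebra.algebraMap_mem _ c⟩ : F.A) =
      algebraMap K F.A c := rfl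
    rw [this, F.real_algebraMap]
    exact HolH.algebraMap_mem (ι c)
  | add a b ha hb iha ihb =>
    have : (⟨a + b, Subalgebra.add_mem _ ha hb⟩ : F.A) = ⟨a, ha⟩ + ⟨b, hb⟩ := rfl
    rw [this, F.real_add]
    exact HolH.add_mem iha ihb
  | mul a b ha hb iha ihb =>
    have : (⟨a * b, Subalgebra.mul_mem _ ha hb⟩ : F.A) = ⟨a, ha⟩ * ⟨b, hb⟩ := rfl
    rw [this, F.real_mul]
    exact HolH.mul_mem iha ihb

theorem exists_bounded (a : F.A) :
    ∃ m : ℕ, UpperHalfPlane.IsBoundedAtImInfty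
      (fun z => F.real a z * ModularForm.discriminant z ^ m) := by
  obtain ⟨m, P, hP, -⟩ := F.rel_real a
  exact intg_qn_bounded n (intg_qn_of_isQExp n hP)

end RealFam

/-- Polynomials in a realised function. -/
theorem rel_aeval {K : Type} [Field K] {n : ℕ} [NeZero n] {Jc : LaurentSeries ℂ} {j : ℍ → ℂ}
    (hJ : Rel (RingHom.id ℂ) n Jc j) (P : Polynomial ℂ) :
    Rel (RingHom.id ℂ) n (Polynomial.aeval Jc P) (fun z => P.eval (j z)) := by
  induction P using Polynomial.induction_on' with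
  | add p q hp hq =>
    have := hp.add hq
    rw [map_add]
    convert this using 1
    funext z
    simp
  | monomial k c =>
    rw [← Polynomial.C_mul_X_pow_eq_monomial, map_mul, Polynomial.aeval_C, map_pow,
      Polynomial.aeval_X]
    have h1 : Rel (RingHom.id ℂ) n (algebraMap ℂ (LaurentSeries ℂ) c) (fun _ => c) :=
      rel_algebraMap (ι := RingHom.id ℂ) (n := n) c
    have h2 : Rel (RingHom.id ℂ) n (Jc ^ k) (j ^ k) := by
      induction k with
      | zero =>
        have := rel_algebraMap (ι := RingHom.id ℂ) (n := n) (1 : ℂ)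
        rw [map_one] at this
        rw [pow_zero, pow_zero]
        exact this
      | succ k ih =>
        rw [pow_succ, pow_succ]
        exact ih.mul hJ
    have := h1.mul h2
    convert this using 1
    funext z
    simp

namespace RealFam

variable {K : Type} [Field K] {ι : K →+* ℂ} {n : ℕ} [NeZero n] (F : RealFam ι n)

open Polynomial in
/-- **The fixed ring**: an element of `A` fixed by all `act γ` is a polynomial in `J`. -/
theorem exists_aeval_of_act_fixed (hhol : ∀ i, F.f i ∈ HolH) {r : ℕ} (hr : 0 < r)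
    {U : PowerSeries K} (hU0 : PowerSeries.constantCoeff U = 1)
    (hJ : Rel ι n (laurentOf r U) jFun) (a : F.A) (ha : ∀ γ, F.act γ a = a) :
    ∃ p : K[X], (a : LaurentSeries K) = aeval (laurentOf r U) p := by
  have hinv : ∀ (γ : SL(2, ℤ)) (z : ℍ), F.real a (γ • z) = F.real a z := by
    intro γ z
    have h1 := F.real_act γ⁻¹ a
    rw [ha, inv_inv] at h1
    exact (congrFun h1 z).symm
  obtain ⟨m, hm⟩ := F.exists_bounded a
  obtain ⟨P, -, hP⟩ := exists_polynomial_jFun (F.real_mem_HolH hhol a) hinv m hm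
  have hJc : Rel (RingHom.id ℂ) n (coeffMap ι (laurentOf r U)) jFun := by
    obtain ⟨m', P', hP', e⟩ := hJ
    exact ⟨m', P', hP', by rw [e]; exact (coeffMap_id _).symm⟩
  have h1 := rel_aeval (K := K) hJc P
  have h2 : Rel (RingHom.id ℂ) n (coeffMap ι (a : LaurentSeries K)) (F.real a) := by
    obtain ⟨m', P', hP', e⟩ := F.rel_real a
    exact ⟨m', P', hP', by rw [e]; exact (coeffMap_id _).symm⟩
  have h3 : (fun z => P.eval (jFun z)) = F.real a := (funext hP).symm
  rw [h3] at h1
  have h4 := h1.left_unique h2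
  obtain ⟨p, -, hp⟩ := lor_exists_aeval_eq ι ι.injective r hr U hU0 P (a : LaurentSeries K) h4
  exact ⟨p, hp⟩

open scoped IntermediateField.algebraAdjoinAdjoin in
open Polynomial in
/-- **The fixed field**: an element of `N` fixed by all `ρ(γ)` lies in `K(J)`. -/
theorem mem_adjoin_of_rho_fixed (hfin : Finite F.rho.range) (hhol : ∀ i, F.f i ∈ HolH) {r : ℕ}
    (hr : 0 < r) {U : PowerSeries K} (hU0 : PowerSeries.constantCoeff U = 1)
    (hJ : Rel ι n (laurentOf r U) jFun) (y : F.N) (hy : ∀ γ, F.rho γ y = y) :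
    (y : LaurentSeries K) ∈ IntermediateField.adjoin K {laurentOf r U} := by
  classical
  have : Fintype F.rho.range := Fintype.ofFinite _
  obtain ⟨a, b, hb, rfl⟩ := IsFractionRing.div_surjective (A := F.A) y
  have hb0 : algebraMap F.A F.N b ≠ 0 := by
    intro h0
    have := (IsFractionRing.injective F.A F.N) (h0.trans (map_zero _).symm)
    exact nonZeroDivisors.ne_zero hb this
  set bN : F.N := algebraMap F.A F.N b with hbN
  -- the norm of `b`
  set nm : F.N := ∏ g : F.rho.range, (g : F.N ≃ₐ[K] F.N) bN with hnm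
  have hnm_fix : ∀ γ, F.rho γ nm = nm := by
    intro γ
    rw [hnm, map_prod]
    exact Fintype.prod_equiv (Equiv.mulLeft (⟨F.rho γ, γ, rfl⟩ : F.rho.range)) _ _ fun g => rfl
  have hnm0 : nm ≠ 0 := by
    rw [hnm, Finset.prod_ne_zero_iff]
    intro g _
    exact (map_ne_zero_iff _ (g : F.N ≃ₐ[K] F.N).injective).mpr hb0
  have hmemS : ∀ g : F.rho.range, (g : F.N ≃ₐ[K] F.N) bN ∈ (algebraMap F.A F.N).range := by
    rintro ⟨_, γ, rfl⟩
    exact ⟨F.act γ b, (F.rho_algebraMap γ b).symm⟩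
  have hnmS : nm ∈ (algebraMap F.A F.N).range := prod_mem fun g _ => hmemS g
  have hsplit : nm = bN * ∏ g ∈ (Finset.univ.erase (1 : F.rho.range)),
      (g : F.N ≃ₐ[K] F.N) bN := by
    rw [hnm, ← Finset.mul_prod_erase Finset.univ _ (Finset.mem_univ (1 : F.rho.range))]
    rfl
  have hyS : algebraMap F.A F.N a / bN * nm ∈ (algebraMap F.A F.N).range := by
    have : algebraMap F.A F.N a / bN * nm = algebraMap F.A F.N a *
        ∏ g ∈ (Finset.univ.erase (1 : F.rho.range)), (g : F.N ≃ₐ[K] F.N) bN := by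
      rw [hsplit]
      field_simp
    rw [this]
    exact mul_mem ⟨a, rfl⟩ (prod_mem fun g _ => hmemS g)
  obtain ⟨d, hd⟩ := hnmS
  obtain ⟨c, hc⟩ := hyS
  have hinj := IsFractionRing.injective F.A F.N
  have hdfix : ∀ γ, F.act γ d = d := fun γ => hinj (by
    rw [← F.rho_algebraMap, hd, hnm_fix])
  have hcfix : ∀ γ, F.act γ c = c := fun γ => hinj (by
    rw [← F.rho_algebraMap, hc, map_mul, hy, hnm_fix])
  obtain ⟨p, hp⟩ := F.exists_aeval_of_act_fixed hhol hr hU0 hJ c hcfix
  obtain ⟨p', hp'⟩ := F.exists_aeval_of_act_fixed hhol hr hU0 hJ d hdfix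
  have hmem : ∀ q : K[X], aeval (laurentOf r U) q ∈
      IntermediateField.adjoin K {laurentOf r U} := fun q =>
    IntermediateField.algebra_adjoin_le_adjoin K _ (Polynomial.aeval_mem_adjoin_singleton K _)
  have hfin : ((algebraMap F.A F.N a / bN : F.N) : LaurentSeries K) =
      (c : LaurentSeries K) / (d : LaurentSeries K) := by
    have h1 : (algebraMap F.A F.N a / bN : F.N) = algebraMap F.A F.N c / algebraMap F.A F.N d := by
      rw [hc, hd]
      field_simp
    rw [h1]
    rfl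
  rw [hfin, hp, hp']
  exact div_mem (hmem p) (hmem p')

end RealFam

/-! ### The translation `T` acts by the twist `Q ↦ ζ Q` -/

section Twist

open Fermat.Agent.X0.QExpAffine Fermat.Agent.X0.CuspEquiv

variable {K : Type} [Field K] {ι : K →+* ℂ} {n : ℕ} [NeZero n]

theorem qh_T_smul' (z : ℍ) : qh n (ModularGroup.T • z) = zetaC n * qh n z := by
  rw [zetaC, qh, qh, Function.Periodic.qParam, Function.Periodic.qParam,
    UpperHalfPlane.modular_T_smul, ← Complex.exp_add]
  congr 1
  rw [UpperHalfPlane.coe_vadd]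
  push_cast
  ring

theorem zetaC_ne_zero (n : ℕ) : zetaC n ≠ 0 := Complex.exp_ne_zero _

theorem isQExp_comp_T' {g : ℍ → ℂ} {m : ℕ} {P : PowerSeries ℂ} (hP : IsQExp n g m P) :
    IsQExp n (compSL g ModularGroup.T) m
      (PowerSeries.mk fun k => zetaC n ^ ((k : ℤ) - m) * PowerSeries.coeff k P) := by
  intro z
  have hζ : zetaC n ≠ 0 := zetaC_ne_zero n
  have h := (hP (ModularGroup.T • z)).mul_left ((zetaC n)⁻¹ ^ m)
  rw [qh_T_smul'] at h
  have hval : (zetaC n)⁻¹ ^ m * (g (ModularGroup.T • z) * (zetaC n * qh n z) ^ m)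
      = compSL g ModularGroup.T z * qh n z ^ m := by
    rw [mul_pow, inv_pow, compSL]
    field_simp
  rw [hval] at h
  refine h.congr_fun fun k => ?_
  rw [PowerSeries.coeff_mk, zpow_sub₀ hζ, zpow_natCast, zpow_natCast, mul_pow, inv_pow]
  field_simp

theorem Rel.twist {ζ : K} (hζ0 : ζ ≠ 0) (hζ : ι ζ = zetaC n) {a : LaurentSeries K} {h : ℍ → ℂ}
    (hr : Rel ι n a h) : Rel ι n (twist ζ hζ0 a) (compSL h ModularGroup.T) := by
  obtain ⟨m, P, hP, e⟩ := hr
  refine ⟨m, _, isQExp_comp_T' hP, ?_⟩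
  rw [← twist_laurentOf (zetaC n) (zetaC_ne_zero n), e]
  ext k
  rw [twist_coeff, coeffMap_coeff, coeffMap_coeff, twist_coeff, map_mul, map_zpow₀, hζ]

namespace RealFam

variable (F : RealFam ι n)

theorem twist_mem_A {ζ : K} (hζ0 : ζ ≠ 0) (hζ : ι ζ = zetaC n) {a : LaurentSeries K}
    (ha : a ∈ F.A) : twist ζ hζ0 a ∈ F.A := by
  obtain ⟨h, hr, hc⟩ := F.exists_rel ha
  obtain ⟨a', ha', hra'⟩ := hc ModularGroup.T
  rwa [← hra'.left_unique (hr.twist hζ0 hζ)]

open scoped IntermediateField.algebraAdjoinAdjoin in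
/-- **`ρ(T⁻¹)` is the twist `Q ↦ ζ Q`.** -/
theorem coe_rho_T_inv {ζ : K} (hζ0 : ζ ≠ 0) (hζ : ι ζ = zetaC n) (y : F.N) :
    ((F.rho ModularGroup.T⁻¹ y : F.N) : LaurentSeries K) = twist ζ hζ0 (y : LaurentSeries K) := by
  obtain ⟨a, b, -, rfl⟩ := IsFractionRing.div_surjective (A := F.A) y
  have key : ∀ a : F.A, ((F.rho ModularGroup.T⁻¹ (algebraMap F.A F.N a) : F.N) : LaurentSeries K) =
      twist ζ hζ0 (a : LaurentSeries K) := by
    intro a
    have hr := F.rel_real a
    have := F.rho_eq_of_rel ModularGroup.T⁻¹ a.2 (F.twist_mem_A hζ0 hζ a.2) hr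
      (by rw [inv_inv]; exact hr.twist hζ0 hζ) (F.mem_N_of_mem_A a.2)
    exact this
  rw [map_div₀]
  show ((F.rho ModularGroup.T⁻¹ (algebraMap F.A F.N a) : F.N) : LaurentSeries K) /
    ((F.rho ModularGroup.T⁻¹ (algebraMap F.A F.N b) : F.N) : LaurentSeries K) = _
  rw [key, key]
  show _ = twist ζ hζ0 ((a : LaurentSeries K) / (b : LaurentSeries K))
  rw [map_div₀]

end RealFam

end Twist

end Fermat.Agent.M48.FullLevelGen6
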