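/-
Programme M48 (target S48), pillar (P1), chapter [IG1] — lead.  **The Gauss valuation of `K(j)` has ONE
extension to the `Γ₀(M)`-field, in the form consumed by `DecompGalois6.smul_mem_nonunits_iff`
(input `huniq`).**

`K` a field of characteristic `0`, `O` a DVR of `K` of residue characteristic `ℓ ∤ M`,
`E₀ = modularFunctionFieldFullC K M = K(j(q^d) : d ∣ M) ⊂ K((q))`.

* `mem_gaussRing_iff_of_map_j` : for EVERY `K`-algebra embedding `ψ : E₀ → Frac O((q))` with
  `ψ j = j(q^d)` (some `d ≥ 1`) and every `x ∈ E₀` :  `x ∈ gaussRing O ↔ ψ x ∈ gaussRing O`.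
  (Twin of `IsoM25.O2N_eq_OvE`: `GaussVTwoFam25.isometry_mem_iff` = `UniqueExt20` for the parameter `j`,
  with the `ψ(M)` residually independent elements of Program H's Igusa theorem
  `GaussInst25.exists_degLe_irr_fullC`.)
* `gauss_iff_of_fix` : let `N ⊂ Frac O((Q))` be a field containing `x(Q^M)` for all `x ∈ E₀`
  (`Q = q^{1/M}`), and `φ : N →ₐ[K] N` with `φ (j(Q^M)) = j(Q^M)`.  Then for `x ∈ E₀`
  `φ (x(Q^M)) ∈ gaussRing O ↔ x(Q^M) ∈ gaussRing O`.

Imported by no statement.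
-/
import Mathlib
import Fermat.Agent.ES.N34.IsoM25
import Fermat.Agent.RED.PUR.GaussInst25

set_option autoImplicit false
set_option linter.unusedSectionVars false
set_option synthInstance.maxHeartbeats 400000
set_option maxHeartbeats 1000000

noncomputable section

open HahnSeries ModularCurve IntermediateField

namespace Fermat.Agent.M48.FullUniq0

open Fermat.Agent.RED.PUR.GaussGen8 Fermat.Agent.RED.PUR.KtGauss8 Fermat.Agent.RED.PUR.G1Package8
  Fermat.Agent.RED.PUR.GaussBridge10 Fermat.Agent.RED.PUR.GaussInst25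
open Fermat.Agent.ES.N34.GaussEmb22 Fermat.Agent.ES.N34.IsoM25

variable {K : Type} [Field K] (O : ValuationSubring K)

/-! ### Pull-backs of the Gauss ring along an arbitrary embedding -/

section Pull

variable {O} {π : ↥O} {F : Type*} [Field F] [Algebra K F]

/-- The pull-back of the Gauss ring along `ι : F → Frac O((q))`, as a valuation subring of `F`. -/
def pullVS (hπ : IsUnif O π) (ι : F →ₐ[K] LaurentSeries K) (hι : ∀ x, ι x ∈ fracField O) :
    ValuationSubring F where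
  carrier := {x | ι x ∈ gaussRing O}
  mul_mem' := fun {a b} ha hb => by
    show ι (a * b) ∈ gaussRing O
    rw [map_mul]; exact mul_mem ha hb
  one_mem' := by
    show ι 1 ∈ gaussRing O
    rw [map_one]; exact one_mem _
  add_mem' := fun {a b} ha hb => by
    show ι (a + b) ∈ gaussRing O
    rw [map_add]; exact add_mem ha hb
  zero_mem' := by
    show ι 0 ∈ gaussRing O
    rw [map_zero]; exact zero_mem _
  neg_mem' := fun {a} ha => by
    show ι (-a) ∈ gaussRing O
    rw [map_neg]; exact neg_mem ha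
  mem_or_inv_mem' := fun f => by
    have h := mem_or_inv_mem hπ (hι f)
    rw [← map_inv₀] at h
    exact h

theorem isGaussPullback_pullVS (hπ : IsUnif O π) (ι : F →ₐ[K] LaurentSeries K)
    (hι : ∀ x, ι x ∈ fracField O) : IsGaussPullback O ι (pullVS hπ ι hι) := fun _ => Iff.rfl

end Pull

/-! ### Uniqueness -/

section Uniq

variable [CharZero K] [IsDiscreteValuationRing ↥O] {π : ↥O}

/-- `j` as an element of `E₀`. -/
def jE (M : ℕ) [NeZero M] : ↥(modularFunctionFieldFullC K M) := ⟨jqModC K, jqModC_mem_full K M⟩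

/-- **One extension of the Gauss valuation to `K(j(q^d) : d ∣ M)`**: a `K`-embedding `ψ` of
`E₀` into `Frac O((q))` with `ψ j = j(q^d)` preserves the Gauss ring, both ways. -/
theorem mem_gaussRing_iff_of_map_j (hπ : Irreducible π) (ℓ : ℕ) [Fact ℓ.Prime] [CharP (Res O) ℓ]
    (M : ℕ) [NeZero M] (hℓM : ¬ ℓ ∣ M)
    (ψ : ↥(modularFunctionFieldFullC K M) →ₐ[K] LaurentSeries K)
    (hψ : ∀ x, ψ x ∈ fracField O) (d : ℕ) [NeZero d]
    (hψj : ψ (jE M) = qExpand K d (jqModC K))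
    (x : ↥(modularFunctionFieldFullC K M)) :
    (x : LaurentSeries K) ∈ gaussRing O ↔ ψ x ∈ gaussRing O := by
  classical
  have hπu := isUnif_of_irreducible O hπ
  have hE := fullC_le_fracField O M
  have hV₁ : IsGaussPullback O (modularFunctionFieldFullC K M).val
      (OvE O hπ (modularFunctionFieldFullC K M) hE) :=
    Fermat.Agent.ES.N34.G2Out22.isGaussPullback_OvE hπ hE
  have hV₂ := isGaussPullback_pullVS hπu ψ hψ
  have hj₁ : (modularFunctionFieldFullC K M).val (jE M) ∈ gaussRing O := (jG O).2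
  have hjtr₁ : Transcendental (Res O)
      (gaussRed O ⟨(modularFunctionFieldFullC K M).val (jE M), hj₁⟩) := by
    have h1 : (⟨(modularFunctionFieldFullC K M).val (jE M), hj₁⟩ : ↥(gaussRing O)) = jG O := rfl
    rw [h1, gaussRed_jG]
    exact Fermat.Agent.IG.VAL.OvBasics22.transcendental_jqModC (Res O)
  have hj₂ : ψ (jE M) ∈ gaussRing O := by
    rw [hψj]; exact jqd_mem_gaussRing O d
  have hjtr₂ : Transcendental (Res O) (gaussRed O ⟨ψ (jE M), hj₂⟩) := by
    have h1 : (⟨ψ (jE M), hj₂⟩ : ↥(gaussRing O)) =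
        ⟨qExpand K d (jqModC K), jqd_mem_gaussRing O d⟩ := Subtype.ext hψj
    rw [h1]
    exact transcendental_gaussRed_jqd O d
  have hjj : jqModC K ∈ Kt O (jG O) := by
    show jqModC K ∈ K⟮jqModC K⟯
    exact mem_adjoin_simple_self _ _
  obtain ⟨n, hn0, hdeg, hirr⟩ := exists_degLe_irr_fullC O hπ ℓ M hℓM (jG O)
    (jqModC_mem_full K M) hjj
  have hle : Kt O (jG O) ≤ modularFunctionFieldFullC K M := by
    show K⟮jqModC K⟯ ≤ _
    rw [adjoin_simple_le_iff]
    exact jqModC_mem_full K M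
  have hrel : relfinrank (Kt O (jG O)) (modularFunctionFieldFullC K M) ≤ n :=
    Fermat.Agent.IG.PR.FamilyForm20.relfinrank_le_of_family_bound hle n hdeg
  have hψ0 : dedekindPsi M ≠ 0 :=
    (Fermat.Agent.X0.GNPsi.gnp_dedekindPsi_pos (NeZero.ne M)).ne'
  have hrel0 : relfinrank (Kt O ⟨((jE M : ↥(modularFunctionFieldFullC K M)) : LaurentSeries K),
      hj₁⟩) (modularFunctionFieldFullC K M) ≠ 0 := by
    have h := Fermat.Agent.RED.PUR.DegBaseChange25.relfinrank_fullC_eq_psi_of_charZero K M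
    show relfinrank K⟮jqModC K⟯ (modularFunctionFieldFullC K M) ≠ 0
    rw [h]
    exact hψ0
  have := finite_of_relfinrank (O := O) (jE M) hj₁ hrel0
  have hmj : Module.finrank ↥(IntermediateField.adjoin K {jE (K := K) M})
      ↥(modularFunctionFieldFullC K M) ≤ n := by
    rw [finrank_eq_relfinrank (O := O) (jE M) hj₁]
    exact hrel
  obtain ⟨b, hb, hli⟩ := exists_family_of_irr hπ hE (jE M) hj₁ hirr
  exact Fermat.Agent.ES.N34.GaussVTwoFam25.isometry_mem_iff hV₁ hV₂ hπ hj₁ hjtr₁ hj₂ hjtr₂ hmj b hb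
    hli x

/-- **The `huniq` input.**  `N ⊂ Frac O((Q))` a field containing `x(Q^M)` for all `x ∈ E₀`, and
`φ : N →ₐ[K] N` fixing `j(Q^M)`: then `φ` preserves the Gauss ring on the image of `E₀`. -/
theorem gauss_iff_of_fix (hπ : Irreducible π) (ℓ : ℕ) [Fact ℓ.Prime] [CharP (Res O) ℓ]
    (M : ℕ) [NeZero M] (hℓM : ¬ ℓ ∣ M)
    (N : IntermediateField K (LaurentSeries K)) (hN : N ≤ fracField O)
    (hE₀N : ∀ x ∈ modularFunctionFieldFullC K M, qExpand K M x ∈ N)
    (φ : ↥N →ₐ[K] ↥N)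
    (hφJ : φ ⟨qExpand K M (jqModC K), hE₀N _ (jqModC_mem_full K M)⟩ =
      ⟨qExpand K M (jqModC K), hE₀N _ (jqModC_mem_full K M)⟩)
    (x₀ : LaurentSeries K) (hx₀ : x₀ ∈ modularFunctionFieldFullC K M) :
    ((φ ⟨qExpand K M x₀, hE₀N x₀ hx₀⟩ : ↥N) : LaurentSeries K) ∈ gaussRing O ↔
      qExpand K M x₀ ∈ gaussRing O := by
  -- the embedding `x ↦ x(Q^M)` of `E₀` into `N`
  let incl : ↥(modularFunctionFieldFullC K M) →ₐ[K] ↥N :=
    AlgHom.codRestrict ((qExpandAlgHomC K M).comp (modularFunctionFieldFullC K M).val)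
      N.toSubalgebra (fun x => hE₀N x x.2)
  have hincl : ∀ x : ↥(modularFunctionFieldFullC K M),
      ((incl x : ↥N) : LaurentSeries K) = qExpand K M (x : LaurentSeries K) := fun _ => rfl
  let ψ₁ : ↥(modularFunctionFieldFullC K M) →ₐ[K] LaurentSeries K := N.val.comp (φ.comp incl)
  let ψ₂ : ↥(modularFunctionFieldFullC K M) →ₐ[K] LaurentSeries K := N.val.comp incl
  have hψ₁ : ∀ x, ψ₁ x ∈ fracField O := fun x => hN (φ (incl x)).2
  have hψ₂ : ∀ x, ψ₂ x ∈ fracField O := fun x => hN (incl x).2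
  have hinclJ : incl (jE M) = ⟨qExpand K M (jqModC K), hE₀N _ (jqModC_mem_full K M)⟩ :=
    Subtype.ext (hincl _)
  have hψ₁j : ψ₁ (jE M) = qExpand K M (jqModC K) := by
    show ((φ (incl (jE M)) : ↥N) : LaurentSeries K) = _
    rw [hinclJ, hφJ]
  have hψ₂j : ψ₂ (jE M) = qExpand K M (jqModC K) := hincl _
  have h1 := mem_gaussRing_iff_of_map_j O hπ ℓ M hℓM ψ₁ hψ₁ M hψ₁j ⟨x₀, hx₀⟩
  have h2 := mem_gaussRing_iff_of_map_j O hπ ℓ M hℓM ψ₂ hψ₂ M hψ₂j ⟨x₀, hx₀⟩
  have e1 : ψ₁ ⟨x₀, hx₀⟩ = ((φ ⟨qExpand K M x₀, hE₀N x₀ hx₀⟩ : ↥N) : LaurentSeries K) := rfl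
  have e2 : ψ₂ ⟨x₀, hx₀⟩ = qExpand K M x₀ := rfl
  rw [← e1, ← e2]
  exact h1.symm.trans h2

end Uniq

end Fermat.Agent.M48.FullUniq0
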