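/-
Programme M48 (target S48), pillar (P1), chapter [IG1] — helper6.
**Coefficientwise criteria for the Gauss ring** (`RED/PUR/GaussGen8`): a Laurent series over `K` all
of whose coefficients lie in the valuation ring `O` lies in `gaussRing O`, and its residue is
computed coefficientwise; the twist `Q ↦ ζ Q` by a unit `ζ` of `O` preserves the Gauss ring (both
ways); reduction is injective on roots of unity of order prime to the residue characteristic.
-/
import Mathlib
import Fermat.Agent.RED.PUR.GaussGen8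
import Fermat.Agent.X0.CuspEquiv

set_option autoImplicit false
set_option linter.unusedSectionVars false

open HahnSeries ModularCurve

noncomputable section

namespace Fermat.Agent.M48.GaussCoeff6

open Fermat.Agent.RED.PUR.GaussGen8 Fermat.Agent.X0.CuspEquiv

variable {K : Type*} [Field K] (O : ValuationSubring K)

/-- The series over `O` with the same coefficients. -/
def liftO (x : LaurentSeries K) (h : ∀ k, x.coeff k ∈ O) : LaurentSeries ↥O where
  coeff k := ⟨x.coeff k, h k⟩
  isPWO_support' := x.isPWO_support.mono fun k hk => by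
    simp only [Function.mem_support, ne_eq] at hk
    rw [HahnSeries.mem_support]
    intro h0
    apply hk
    exact Subtype.ext (by simp [h0])

@[simp] theorem liftO_coeff (x : LaurentSeries K) (h : ∀ k, x.coeff k ∈ O) (k : ℤ) :
    (liftO O x h).coeff k = ⟨x.coeff k, h k⟩ := rfl

theorem embK_liftO (x : LaurentSeries K) (h : ∀ k, x.coeff k ∈ O) : embK O (liftO O x h) = x := by
  ext k
  rw [embK_coeff, liftO_coeff]

/-- Integral coefficients ⇒ Gauss ring. -/
theorem mem_gaussRing_of_coeff {x : LaurentSeries K} (h : ∀ k, x.coeff k ∈ O) :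
    x ∈ gaussRing O := by
  rw [← embK_liftO O x h]
  exact embK_mem O _

/-- The residue of a series with integral coefficients is computed coefficientwise. -/
theorem gaussRed_coeff {x : LaurentSeries K} (h : ∀ k, x.coeff k ∈ O) (k : ℤ) :
    (gaussRed O ⟨x, mem_gaussRing_of_coeff O h⟩).coeff k = res0 O ⟨x.coeff k, h k⟩ := by
  have e : (⟨x, mem_gaussRing_of_coeff O h⟩ : gaussRing O) =
      ⟨embK O (liftO O x h), embK_mem O _⟩ := Subtype.ext (embK_liftO O x h).symm
  rw [e, gaussRed_embK, redL_coeff, liftO_coeff]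

/-- Independent of the membership proof. -/
theorem gaussRed_coeff' {x : LaurentSeries K} (h : ∀ k, x.coeff k ∈ O) (hx : x ∈ gaussRing O)
    (k : ℤ) : (gaussRed O ⟨x, hx⟩).coeff k = res0 O ⟨x.coeff k, h k⟩ :=
  gaussRed_coeff O h k

/-! ### The twist -/

theorem zpow_mem_of_unit {ζ : K} (h1 : ζ ∈ O) (h2 : ζ⁻¹ ∈ O) (k : ℤ) : ζ ^ k ∈ O := by
  rcases Int.eq_nat_or_neg k with ⟨n, rfl | rfl⟩
  · rw [zpow_natCast]; exact pow_mem h1 n
  · rw [zpow_neg, zpow_natCast, ← inv_pow]; exact pow_mem h2 n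

theorem twist_embK_mem {ζ : K} (hζ0 : ζ ≠ 0) (h1 : ζ ∈ O) (h2 : ζ⁻¹ ∈ O) (s : LaurentSeries ↥O)
    (k : ℤ) : (twist ζ hζ0 (embK O s)).coeff k ∈ O := by
  rw [twist_coeff, embK_coeff]
  exact O.mul_mem _ _ (zpow_mem_of_unit O h1 h2 k) (s.coeff k).2

/-- The twist by a unit of `O` preserves the Gauss ring. -/
theorem twist_mem_gaussRing {ζ : K} (hζ0 : ζ ≠ 0) (h1 : ζ ∈ O) (h2 : ζ⁻¹ ∈ O)
    {f : LaurentSeries K} (hf : f ∈ gaussRing O) : twist ζ hζ0 f ∈ gaussRing O := by
  obtain ⟨a, s, hs, hfs⟩ := hf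
  refine ⟨liftO O _ (twist_embK_mem O hζ0 h1 h2 a), liftO O _ (twist_embK_mem O hζ0 h1 h2 s),
    ?_, ?_⟩
  · -- the reduction of the twisted denominator is nonzero
    intro h0
    apply hs
    ext k
    have hk := congrArg (fun y : LaurentSeries (Res O) => y.coeff k) h0
    simp only [redL_coeff, liftO_coeff, HahnSeries.coeff_zero] at hk
    rw [redL_coeff, HahnSeries.coeff_zero]
    have e : (⟨(twist ζ hζ0 (embK O s)).coeff k, twist_embK_mem O hζ0 h1 h2 s k⟩ : ↥O) =
        ⟨ζ ^ k, zpow_mem_of_unit O h1 h2 k⟩ * s.coeff k := Subtype.ext (by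
      simp [twist_coeff])
    rw [e, map_mul] at hk
    have hu : res0 O ⟨ζ ^ k, zpow_mem_of_unit O h1 h2 k⟩ ≠ 0 := by
      have hmul : (⟨ζ ^ k, zpow_mem_of_unit O h1 h2 k⟩ : ↥O) *
          ⟨ζ ^ (-k), zpow_mem_of_unit O h1 h2 (-k)⟩ = 1 := Subtype.ext (by
        show ζ ^ k * ζ ^ (-k) = 1
        rw [← zpow_add₀ hζ0, add_neg_cancel, zpow_zero])
      intro h0'
      have := congrArg (res0 O) hmul
      rw [map_mul, h0', zero_mul, map_one] at this
      exact zero_ne_one this
    exact (mul_eq_zero.mp hk).resolve_left hu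
  · rw [embK_liftO, embK_liftO, ← map_mul, hfs]

theorem twist_twist_inv {ζ : K} (hζ0 : ζ ≠ 0) (f : LaurentSeries K) :
    twist ζ⁻¹ (inv_ne_zero hζ0) (twist ζ hζ0 f) = f := by
  ext k
  rw [twist_coeff, twist_coeff, ← mul_assoc, inv_zpow, inv_mul_cancel₀ (zpow_ne_zero k hζ0),
    one_mul]

theorem twist_mem_gaussRing_iff {ζ : K} (hζ0 : ζ ≠ 0) (h1 : ζ ∈ O) (h2 : ζ⁻¹ ∈ O)
    {f : LaurentSeries K} : twist ζ hζ0 f ∈ gaussRing O ↔ f ∈ gaussRing O := by
  refine ⟨fun h => ?_, twist_mem_gaussRing O hζ0 h1 h2⟩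
  have := twist_mem_gaussRing O (inv_ne_zero hζ0) h2 (by rwa [inv_inv]) h
  rwa [twist_twist_inv] at this

/-! ### Roots of unity modulo the maximal ideal -/

/-- A root of unity of order prime to the residue characteristic which reduces to `1` is `1`. -/
theorem eq_one_of_res_eq_one {ℓ : ℕ} [CharP (Res O) ℓ] {e : ℕ} (he : ¬ ℓ ∣ e) (η : ↥O)
    (hη : η ^ e = 1) (hres : res0 O η = 1) : η = 1 := by
  by_contra hne
  have h1 : (η - 1) * ∑ i ∈ Finset.range e, η ^ i = 0 := by
    rw [mul_comm, geom_sum_mul, hη, sub_self]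
  have h2 : ∑ i ∈ Finset.range e, η ^ i = 0 :=
    (mul_eq_zero.mp h1).resolve_left (sub_ne_zero.mpr hne)
  have h3 := congrArg (res0 O) h2
  rw [map_sum, map_zero] at h3
  simp only [map_pow, hres, one_pow, Finset.sum_const, Finset.card_range, nsmul_eq_mul,
    mul_one] at h3
  exact he ((CharP.cast_eq_zero_iff (Res O) ℓ e).mp h3)

end Fermat.Agent.M48.GaussCoeff6
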