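/-
Programme M48 (target S48), pillar (P1), ES.HECKE twin (helper2), file 1:
**base change of constants for subfields of Laurent series fields.**

For fields `k ⊆ K` the coefficientwise map `Φ : k((q)) → K((q))` maps `k`-linearly independent
families to `K`-linearly independent families (`K` and `k((q))` are linearly disjoint over `k`
inside `K((q))`).  Consequently, for `x ∈ k((q))` transcendental over `k`, a family which is
linearly independent over `k(x)` stays linearly independent over `K(Φ x)`, and
`[K(Φ S) : K(Φ x)] = [k(S) : k(x)]` as soon as one of the two degrees is finite.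

(Linear independence over the constants is stated in "multiplicative form", with
`algebraMap _ _ c * f` instead of `c • f`, because `LaurentSeries K` carries two propositionally
equal `K`-module structures.)
-/
import Mathlib
import Fermat.Prelude.Def_ModularCurve_LaurentCoeff
import Fermat.Agent.IG.PR.FamilyForm20
import Fermat.Agent.RED.PUR.DegBaseChange25

set_option autoImplicit false
set_option linter.unusedSectionVars false

open HahnSeries IntermediateField ModularCurve Polynomial

noncomputable section

namespace Fermat.Agent.M48.ConstBC2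

section LD

variable {k K : Type*} [Field k] [Field K] [Algebra k K]

theorem coeff_algebraMap_mul (c : K) (z : LaurentSeries K) (n : ℤ) :
    (algebraMap K (LaurentSeries K) c * z).coeff n = c * z.coeff n := by
  rw [algebraMap_laurentSeries_eq_single, HahnSeries.coeff_single_zero_mul]

/-- **Linear disjointness of `K` and `k((q))` over `k`** (multiplicative form): the coefficientwise
map `k((q)) → K((q))` maps `k`-linearly independent families to `K`-linearly independent
families. -/
theorem coeffMap_indep {ι : Type*} {f : ι → LaurentSeries k}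
    (hf : ∀ (s : Finset ι) (a : ι → k),
      ∑ i ∈ s, algebraMap k (LaurentSeries k) (a i) * f i = 0 → ∀ i ∈ s, a i = 0)
    (s : Finset ι) (c : ι → K)
    (hc : ∑ i ∈ s, algebraMap K (LaurentSeries K) (c i) * coeffMap (algebraMap k K) (f i) = 0) :
    ∀ i ∈ s, c i = 0 := by
  classical
  intro i hi
  let B := Module.Free.chooseBasis k K
  -- every coordinate of every coefficient vanishes
  have key : ∀ t, ∑ j ∈ s, algebraMap k (LaurentSeries k) (B.coord t (c j)) * f j = 0 := by
    intro t
    ext n
    have h1 := congrArg (fun z : LaurentSeries K => z.coeff n) hc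
    simp only [HahnSeries.coeff_sum, coeff_algebraMap_mul, coeffMap_coeff,
      HahnSeries.coeff_zero] at h1
    have h2 := congrArg (B.coord t) h1
    rw [map_sum, map_zero] at h2
    rw [HahnSeries.coeff_sum, HahnSeries.coeff_zero, ← h2]
    refine Finset.sum_congr rfl fun j _ => ?_
    rw [coeff_algebraMap_mul, mul_comm (c j), ← Algebra.smul_def, map_smul,
      smul_eq_mul, mul_comm]
  have h3 : ∀ t, B.coord t (c i) = 0 := fun t => hf s _ (key t) i hi
  have h4 : B.repr (c i) = 0 := by
    ext t
    exact h3 t
  exact (B.repr.map_eq_zero_iff).mp h4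

/-- The powers of a transcendental element are linearly independent. -/
theorem linearIndependent_pow_of_transcendental {A : Type*} [CommRing A] [Algebra k A] {x : A}
    (hx : Transcendental k x) : LinearIndependent k (fun m : ℕ => x ^ m) := by
  have h := (Polynomial.basisMonomials k).linearIndependent.map' (aeval x).toLinearMap
    (LinearMap.ker_eq_bot.mpr (transcendental_iff_injective.mp hx))
  have h2 : (fun m : ℕ => x ^ m) = (aeval x).toLinearMap ∘ (Polynomial.basisMonomials k) := by
    funext m
    simp [Polynomial.coe_basisMonomials, aeval_monomial]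
  rw [h2]
  exact h

open scoped IntermediateField.algebraAdjoinAdjoin in
/-- **Linear disjointness over `k(x)`**: for `x` transcendental over `k`, a family of Laurent series
which is linearly independent over `k(x)` stays linearly independent over `K(Φ x)`. -/
theorem linearIndependent_coeffMap_adjoin {x : LaurentSeries k} (hx : Transcendental k x)
    {ι : Type*} {b : ι → LaurentSeries k} (hb : LinearIndependent ↥k⟮x⟯ b) :
    LinearIndependent ↥K⟮coeffMap (algebraMap k K) x⟯
      (fun i => coeffMap (algebraMap k K) (b i)) := by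
  classical
  set Φ := coeffMap (algebraMap k K) with hΦ
  set y := Φ x with hy
  -- the `k`-independent family `x ^ m * b i`
  have hG0 : ∀ (S : Finset (ℕ × ι)) (a : ℕ × ι → k),
      ∑ p ∈ S, algebraMap k (LaurentSeries k) (a p) * (x ^ p.1 * b p.2) = 0 →
        ∀ p ∈ S, a p = 0 := by
    let _ : Module k (LaurentSeries k) := Algebra.toModule
    let pw : ℕ → ↥k⟮x⟯ := fun m => (AdjoinSimple.gen k x) ^ m
    have hpw : LinearIndependent k pw := by
      refine LinearIndependent.of_comp (k⟮x⟯.val.toLinearMap) ?_
      have h1 := linearIndependent_pow_of_transcendental hx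
      have h2 : (k⟮x⟯.val.toLinearMap) ∘ pw = fun m : ℕ => x ^ m := by
        funext m
        simp [pw]
      rw [h2]
      exact h1
    have h3 : LinearIndependent k (fun p : ℕ × ι => pw p.1 • b p.2) :=
      linearIndependent_smul hpw hb
    intro S a hS
    refine linearIndependent_iff'.mp h3 S a ?_
    rw [← hS]
    refine Finset.sum_congr rfl fun p _ => ?_
    rw [Algebra.smul_def, IntermediateField.smul_def, smul_eq_mul]
    simp [pw]
  have hG := coeffMap_indep (K := K) hG0
  -- independence over the polynomial ring `K[y]`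
  rw [← LinearIndependent.iff_fractionRing (Algebra.adjoin K {y}) ↥K⟮y⟯]
  rw [linearIndependent_iff']
  intro s a ha i hi
  have hex : ∀ j, ∃ p : K[X], aeval y p = ((a j : Algebra.adjoin K {y}) : LaurentSeries K) := by
    intro j
    have h1 : ((a j : Algebra.adjoin K {y}) : LaurentSeries K) ∈ (aeval y : K[X] →ₐ[K] _).range := by
      rw [← Algebra.adjoin_singleton_eq_range_aeval]
      exact (a j).2
    exact h1
  choose p hp using hex
  set N := (s.sup fun j => (p j).natDegree) + 1 with hN
  have hdeg : ∀ j ∈ s, (p j).natDegree < N := fun j hj =>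
    Nat.lt_succ_of_le (Finset.le_sup (f := fun j => (p j).natDegree) hj)
  have hsum : ∑ q ∈ Finset.range N ×ˢ s,
      algebraMap K (LaurentSeries K) ((p q.2).coeff q.1) * Φ (x ^ q.1 * b q.2) = 0 := by
    rw [Finset.sum_product_right]
    rw [← ha]
    refine Finset.sum_congr rfl fun j hj => ?_
    have h1 : a j • Φ (b j) = aeval y (p j) * Φ (b j) := by
      rw [hp j]; rfl
    rw [h1, aeval_eq_sum_range' (hdeg j hj), Finset.sum_mul]
    refine Finset.sum_congr rfl fun m _ => ?_
    rw [Algebra.smul_def, map_mul, map_pow, mul_assoc]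
  have hzero := hG _ _ hsum
  have hpi : p i = 0 := by
    ext m
    rw [Polynomial.coeff_zero]
    by_cases hm : m < N
    · exact hzero (m, i) (Finset.mem_product.mpr ⟨Finset.mem_range.mpr hm, hi⟩)
    · exact Polynomial.coeff_eq_zero_of_natDegree_lt (lt_of_lt_of_le (hdeg i hi) (not_lt.mp hm))
  apply Subtype.ext
  rw [← hp i, hpi, map_zero]
  rfl

end LD

/-! ### Degrees -/

section FamilyForm

variable {F E : Type*} [Field F] [Field E] [Algebra F E] {A B : IntermediateField F E}

/-- A uniform bound on the size of the `A`-linearly independent families of `B` makes `B` finite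
over `A`. -/
theorem relfinrank_ne_zero_of_family_bound (h : A ≤ B) (m : ℕ)
    (hub : ∀ (n : ℕ) (c : Fin n → E), (∀ i, c i ∈ B) → LinearIndependent ↥A c → n ≤ m) :
    relfinrank A B ≠ 0 := by
  classical
  rw [relfinrank_eq_finrank_of_le h]
  have hrank : Module.rank ↥A ↥(extendScalars h) ≤ m := by
    apply rank_le
    intro s hs
    have h1 : LinearIndependent ↥A
        (fun i : Fin s.card => (((s.equivFin.symm i : ↥s) : ↥(extendScalars h)) : E)) := by
      have h2 : LinearIndependent ↥A
          (fun i : Fin s.card => ((s.equivFin.symm i : ↥s) : ↥(extendScalars h))) :=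
        hs.comp _ s.equivFin.symm.injective
      exact h2.map' (extendScalars h).val.toLinearMap
        (LinearMap.ker_eq_bot.mpr (extendScalars h).val.injective)
    exact hub s.card _ (fun i => (mem_extendScalars h).mp (s.equivFin.symm i : ↥s).1.2) h1
  have hfin : Module.Finite ↥A ↥(extendScalars h) := by
    rw [← Module.rank_lt_aleph0_iff]
    exact lt_of_le_of_lt hrank Cardinal.natCast_lt_aleph0
  exact (Module.finrank_pos).ne'

end FamilyForm

section Degree

open Fermat.Agent.IG.PR.FamilyForm20 Fermat.Agent.RED.PUR.DegBaseChange25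

variable {k K : Type*} [Field k] [Field K] [Algebra k K]

theorem coeffMap_mem_adjoin (S : Set (LaurentSeries k)) {x : LaurentSeries k}
    (hx : x ∈ adjoin k S) :
    coeffMap (algebraMap k K) x ∈ adjoin K (coeffMap (algebraMap k K) '' S) :=
  map_mem_adjoin (algebraMap k K) (coeffMap (algebraMap k K))
    (coeffMap_algebraMap' (algebraMap k K)) S hx

theorem adjoin_simple_le_of_mem (S : Set (LaurentSeries k)) {x : LaurentSeries k}
    (hx : x ∈ adjoin k S) :
    K⟮coeffMap (algebraMap k K) x⟯ ≤ adjoin K (coeffMap (algebraMap k K) '' S) := by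
  rw [adjoin_simple_le_iff]
  exact coeffMap_mem_adjoin S hx

/-- If the degree upstairs is finite, so is the degree downstairs, and it is not larger. -/
theorem relfinrank_le_of_ne_zero (S : Set (LaurentSeries k)) {x : LaurentSeries k}
    (hxS : x ∈ adjoin k S) (hx : Transcendental k x)
    (hfin : relfinrank K⟮coeffMap (algebraMap k K) x⟯
      (adjoin K (coeffMap (algebraMap k K) '' S)) ≠ 0) :
    relfinrank k⟮x⟯ (adjoin k S) ≠ 0 ∧
      relfinrank k⟮x⟯ (adjoin k S) ≤
        relfinrank K⟮coeffMap (algebraMap k K) x⟯
          (adjoin K (coeffMap (algebraMap k K) '' S)) := by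
  have hle : k⟮x⟯ ≤ adjoin k S := adjoin_simple_le_iff.mpr hxS
  have hub : ∀ (n : ℕ) (c : Fin n → LaurentSeries k), (∀ i, c i ∈ adjoin k S) →
      LinearIndependent ↥k⟮x⟯ c →
      n ≤ relfinrank K⟮coeffMap (algebraMap k K) x⟯
        (adjoin K (coeffMap (algebraMap k K) '' S)) := by
    intro n c hc hli
    exact le_relfinrank_of_family (adjoin_simple_le_of_mem S hxS) n hfin
      (fun i => coeffMap (algebraMap k K) (c i)) (fun i => coeffMap_mem_adjoin S (hc i))
      (linearIndependent_coeffMap_adjoin hx hli)
  exact ⟨relfinrank_ne_zero_of_family_bound hle _ hub, relfinrank_le_of_family_bound hle _ hub⟩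

/-- If the degree downstairs is finite, the degree upstairs is not larger. -/
theorem relfinrank_le_of_ne_zero' (S : Set (LaurentSeries k)) {x : LaurentSeries k}
    (hxS : x ∈ adjoin k S) (hfin : relfinrank k⟮x⟯ (adjoin k S) ≠ 0) :
    relfinrank K⟮coeffMap (algebraMap k K) x⟯ (adjoin K (coeffMap (algebraMap k K) '' S)) ≤
      relfinrank k⟮x⟯ (adjoin k S) := by
  have hle : k⟮x⟯ ≤ adjoin k S := adjoin_simple_le_iff.mpr hxS
  have hub : ∀ (n : ℕ) (c : Fin n → LaurentSeries k), (∀ i, c i ∈ adjoin k S) →
      LinearIndependent ↥(adjoin k ({x} : Set (LaurentSeries k))) c →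
      n ≤ relfinrank k⟮x⟯ (adjoin k S) :=
    fun n c hc hli => le_relfinrank_of_family hle n hfin c hc hli
  refine relfinrank_le_of_family_bound (adjoin_simple_le_of_mem S hxS) _ ?_
  intro n c hc hli
  refine family_bound_map (algebraMap k K) (coeffMap (algebraMap k K))
    (coeffMap_algebraMap' (algebraMap k K)) {x} S hle _ hub n c hc ?_
  rw [Set.image_singleton]
  exact hli

/-- **Base change of constants**: `[K(Φ S) : K(Φ x)] = [k(S) : k(x)]` for `x ∈ k(S)` transcendental
over `k`, as soon as one of the two degrees is finite. -/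
theorem relfinrank_coeffMap_eq (S : Set (LaurentSeries k)) {x : LaurentSeries k}
    (hxS : x ∈ adjoin k S) (hx : Transcendental k x)
    (h : relfinrank K⟮coeffMap (algebraMap k K) x⟯
        (adjoin K (coeffMap (algebraMap k K) '' S)) ≠ 0 ∨
      relfinrank k⟮x⟯ (adjoin k S) ≠ 0) :
    relfinrank K⟮coeffMap (algebraMap k K) x⟯ (adjoin K (coeffMap (algebraMap k K) '' S)) =
      relfinrank k⟮x⟯ (adjoin k S) := by
  rcases h with h | h
  · obtain ⟨h1, h2⟩ := relfinrank_le_of_ne_zero S hxS hx h
    exact le_antisymm (relfinrank_le_of_ne_zero' S hxS h1) h2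
  · have h1 := relfinrank_le_of_ne_zero' (K := K) S hxS h
    by_cases h0 : relfinrank K⟮coeffMap (algebraMap k K) x⟯
        (adjoin K (coeffMap (algebraMap k K) '' S)) = 0
    · exfalso
      -- the degree upstairs is finite because it is bounded by the one downstairs
      have hle : k⟮x⟯ ≤ adjoin k S := adjoin_simple_le_iff.mpr hxS
      have hub : ∀ (n : ℕ) (c : Fin n → LaurentSeries k), (∀ i, c i ∈ adjoin k S) →
          LinearIndependent ↥(adjoin k ({x} : Set (LaurentSeries k))) c →
          n ≤ relfinrank k⟮x⟯ (adjoin k S) :=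
        fun n c hc hli => le_relfinrank_of_family hle n h c hc hli
      refine relfinrank_ne_zero_of_family_bound (adjoin_simple_le_of_mem (K := K) S hxS)
        (relfinrank k⟮x⟯ (adjoin k S)) ?_ h0
      intro n c hc hli
      refine family_bound_map (algebraMap k K) (coeffMap (algebraMap k K))
        (coeffMap_algebraMap' (algebraMap k K)) {x} S hle _ hub n c hc ?_
      rw [Set.image_singleton]
      exact hli
    · exact le_antisymm h1 (relfinrank_le_of_ne_zero S hxS hx h0).2

end Degree

/-! ### The Prelude's `laurentBaseChange` -/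

section Rat

variable (K : Type*) [Field K] [Algebra ℚ K] (F₀ : IntermediateField ℚ (LaurentSeries ℚ))

/-- **Base change of constants for `laurentBaseChange`**: `[K · F₀ : K(x)] = [F₀ : ℚ(x)]` for
`x ∈ F₀` transcendental, as soon as one of the two degrees is finite. -/
theorem relfinrank_laurentBaseChange_eq {x : LaurentSeries ℚ} (hx : x ∈ F₀)
    (htr : Transcendental ℚ x)
    (h : relfinrank K⟮coeffEmb K x⟯ (laurentBaseChange K F₀) ≠ 0 ∨ relfinrank ℚ⟮x⟯ F₀ ≠ 0) :
    relfinrank K⟮coeffEmb K x⟯ (laurentBaseChange K F₀) = relfinrank ℚ⟮x⟯ F₀ := by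
  have h1 := relfinrank_coeffMap_eq (K := K) (F₀ : Set (LaurentSeries ℚ)) (x := x)
    (by rw [adjoin_self]; exact hx) htr
  rw [adjoin_self] at h1
  exact h1 h

/-- Comparison of two fields of constants. -/
theorem relfinrank_laurentBaseChange_eq_of (K' : Type*) [Field K'] [Algebra ℚ K']
    {x : LaurentSeries ℚ} (hx : x ∈ F₀) (htr : Transcendental ℚ x)
    (h : relfinrank K⟮coeffEmb K x⟯ (laurentBaseChange K F₀) ≠ 0) :
    relfinrank K'⟮coeffEmb K' x⟯ (laurentBaseChange K' F₀) =
      relfinrank K⟮coeffEmb K x⟯ (laurentBaseChange K F₀) := by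
  have h1 := relfinrank_laurentBaseChange_eq K F₀ hx htr (Or.inl h)
  rw [h1]
  exact relfinrank_laurentBaseChange_eq K' F₀ hx htr (Or.inr (h1 ▸ h))

end Rat

end Fermat.Agent.M48.ConstBC2
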