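/-
Programme M48 (target S48), pillar (P1), ES.HECKE twin (helper2), file 2:
**the degree of `j` on the function field of `X(Γ₁(M) ∩ Γ₀(M L))` over EVERY field `K ⊇ ℚ`.**

From the analytic degree `[ℂ · F₀ : ℂ(j)] = #(SL(2,ℤ) ⧸ ±Γ)` (`AnDegree4.finrank_eq` for helper4's
model `G10Model4.model M L hM`) and the base change of constants `ConstBC2`:
`[K · F₀ : K(j)] = #(SL(2,ℤ) ⧸ ±Γ)` for every field `K ⊇ ℚ`, `F₀ = fieldG10 M L`,
`Γ = Γ₁(M) ∩ Γ₀(M L)`; in particular `j` is a transcendental generator of `FK K M L` over `K`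
(`X0.FF.IsGen`), and `FK ℚbar M L` has principal divisors.
-/
import Mathlib
import Fermat.Agent.M48.ConstBC2
import Fermat.Agent.M48.G10Model4
import Fermat.Agent.M48.AnDegree4
import Fermat.Agent.M48.J1Defs8
import Fermat.Agent.ES.RED.SpecialGen25
import Fermat.Agent.X0.FFGenus

set_option autoImplicit false
set_option linter.unusedSectionVars false

open HahnSeries IntermediateField ModularCurve AlgebraicCurve
open scoped MatrixGroups

noncomputable section

namespace Fermat.Agent.M48.G10Degree2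

open Fermat.Agent.M48.DictIface4 Fermat.Agent.M48.J1Defs8 Fermat.Agent.X0
open Fermat.Agent.ES.RED.SpecialGen25

variable (M L : ℕ) [NeZero M] [NeZero L]

theorem jq_mem_fieldG10 : jq ∈ fieldG10 M L := by
  have h := G10Model4.jqd_mem_fieldG10 M L (d := 1) (one_dvd _)
  rwa [qExpand_one_apply] at h

theorem coeffEmb_jq (K : Type*) [Field K] [Algebra ℚ K] : coeffEmb K jq = jqModC K := by
  rw [← jqModC_rat]
  exact coeffMap_jqModC (algebraMap ℚ K)

theorem jqModC_mem_FK (K : Type*) [Field K] [Algebra ℚ K] : jqModC K ∈ FK K M L := by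
  rw [← coeffEmb_jq]
  exact coeffEmb_mem_laurentBaseChange K (jq_mem_fieldG10 M L)

/-- The degree over `ℂ`, in `relfinrank` form. -/
theorem relfinrank_complex (hM : 2 ≤ M) :
    relfinrank ℂ⟮jqModC ℂ⟯ (laurentBaseChange ℂ (fieldG10 M L)) =
      Nat.card (SL(2, ℤ) ⧸ pm (Gamma10 M (M * L))) := by
  have h := AnDegree4.finrank_eq (G10Model4.model M L hM)
  rw [finrank_adjoin_simple_eq_relfinrank] at h
  rw [← h]
  have h2 : (((G10Model4.model M L hM).jF : (G10Model4.model M L hM).F) : LaurentSeries ℂ) =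
      jqModC ℂ := (G10Model4.model M L hM).coe_jR
  rw [h2]

theorem card_quotient_ne_zero (hM : 2 ≤ M) :
    Nat.card (SL(2, ℤ) ⧸ pm (Gamma10 M (M * L))) ≠ 0 := by
  have := AnDegree4.finite_quotient (G10Model4.model M L hM)
  exact Nat.card_pos.ne'

/-- **The degree of `j` over every field of constants**:
`[K · fieldG10 M L : K(j)] = #(SL(2,ℤ) ⧸ ±(Γ₁(M) ∩ Γ₀(M L)))`. -/
theorem relfinrank_FK (hM : 2 ≤ M) (K : Type*) [Field K] [Algebra ℚ K] :
    relfinrank K⟮jqModC K⟯ (FK K M L) = Nat.card (SL(2, ℤ) ⧸ pm (Gamma10 M (M * L))) := by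
  have htr : Transcendental ℚ jq := by
    rw [← jqModC_rat]
    exact Fermat.Agent.IG.VAL.OvBasics22.transcendental_jqModC ℚ
  have hC : relfinrank ℂ⟮coeffEmb ℂ jq⟯ (laurentBaseChange ℂ (fieldG10 M L)) ≠ 0 := by
    rw [coeffEmb_jq, relfinrank_complex M L hM]
    exact card_quotient_ne_zero M L hM
  have h := ConstBC2.relfinrank_laurentBaseChange_eq_of ℂ (fieldG10 M L) K (jq_mem_fieldG10 M L)
    htr hC
  rw [coeffEmb_jq, coeffEmb_jq, relfinrank_complex M L hM] at h
  exact h

/-- `j` as an element of `FK K M L`. -/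
def jK (K : Type*) [Field K] [Algebra ℚ K] : FK K M L := ⟨jqModC K, jqModC_mem_FK M L K⟩

@[simp]
theorem coe_jK (K : Type*) [Field K] [Algebra ℚ K] :
    ((jK M L K : FK K M L) : LaurentSeries K) = jqModC K := rfl

/-- **`j` is a transcendental generator of `FK K M L / K`.** -/
theorem isGen_jK (hM : 2 ≤ M) (K : Type*) [Field K] [Algebra ℚ K] : FF.IsGen K (jK M L K) := by
  refine isGen_of_relfinrank_ne_zero _ _
    (Fermat.Agent.IG.VAL.OvBasics22.transcendental_jqModC K) ?_
  rw [coe_jK, relfinrank_FK M L hM K]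
  exact card_quotient_ne_zero M L hM

/-- The degree of `j`, computed inside `FK K M L`. -/
theorem finrank_jK (hM : 2 ≤ M) (K : Type*) [Field K] [Algebra ℚ K] :
    Module.finrank ↥(K⟮jK M L K⟯ : IntermediateField K ↥(FK K M L)) ↥(FK K M L) =
      Nat.card (SL(2, ℤ) ⧸ pm (Gamma10 M (M * L))) := by
  rw [finrank_adjoin_simple_eq_relfinrank]
  exact relfinrank_FK M L hM K

/-- Principal divisors of `FK K M L` exist and have degree `0`. -/
theorem hasPrincipalDivisors_FK (hM : 2 ≤ M) (K : Type*) [Field K] [Algebra ℚ K]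
    [IsAlgClosed K] :
    HasPrincipalDivisors K ↥(FK K M L) :=
  have : CharZero K := algebraRat.charZero K
  FFGenus.hasPrincipalDivisors (isGen_jK M L hM K)

end Fermat.Agent.M48.G10Degree2
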