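/-
Programme M48, pillar (P1), chapter [QMODEL] — helper8.  **The model of `X(Γ₁(M) ∩ Γ₀(M L))` over an
ARBITRARY field `k`** (in particular in characteristic `ℓ ∤ M L`: the function field of the special
fibre), the twin of the Prelude's `modularFunctionFieldFullC`.

* `gqR R M a : LaurentSeries R` : the generator `g_{M,a} = E₁₂^{(a)} / Δ` with coefficients in any
  commutative ring `R` (the series has integer coefficients); `gqR_rat : gqR ℚ M a = gq M a`,
  `coeffMap_gqR : coeffMap f (gqR R M a) = gqR S M a`;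
* `gExpansionsC k M L`, **`fieldG10C k M L`** `= k(j(q^d) : d ∣ M L;  g_{M,a}(q^e) : e ∣ L) ⊂ k((q))`;
  `fieldG10C_rat : fieldG10C ℚ M L = fieldG10 M L`;
  `fieldG10C_eq_laurentBaseChange : fieldG10C K M L = laurentBaseChange K (fieldG10 M L)` for every
  field `K ⊇ ℚ` (so `J1Defs8.FK K M L = fieldG10C K M L`);
* `fieldG10C_mono`, `qExpand_mem_fieldG10C` : the tower in every characteristic;
* `alphaC k M h : fieldG10C k M L →ₐ[k] fieldG10C k M L'` (`h : L ∣ L'`, inclusion) and
  `betaC k M ℓ h : fieldG10C k M L →ₐ[k] fieldG10C k M L'` (`h : L * ℓ ∣ L'`, `q ↦ q^ℓ`);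
* `coeffMap_mem_fieldG10C` : `fieldG10C k M L` is stable under the coefficientwise action of every
  ring endomorphism of `k` (Frobenius, Galois), because the generators have prime-ring coefficients;
* `modularFunctionFieldFullC_le_fieldG10C`.
-/
import Mathlib
import Fermat.Agent.M48.DictIface4
import Fermat.Agent.M48.J1Defs8
import Fermat.Prelude.Def_ModularCurve_X0ModL

set_option autoImplicit false
set_option linter.unusedSectionVars false
set_option linter.style.haveILetI false

open AlgebraicCurve ModularCurve IntermediateField HahnSeries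

noncomputable section

namespace Fermat.Agent.M48.QModel8

open Fermat.Agent.M48.DictIface4 Fermat.Agent.M48.J1Defs8

/-! ### The generator `g_{M,a}` over an arbitrary ring -/

section Gen

variable (R : Type*) [CommRing R]

/-- `g_{M,a} = E₁₂^{(a)} / Δ` with coefficients in `R`. -/
def gqR (M : ℕ) (a : ZMod M) : LaurentSeries R :=
  HahnSeries.single (-1 : ℤ) 1 *
    HahnSeries.ofPowerSeries ℤ R ((eisPS M a * dedekindEtaUnitInv).map (Int.castRingHom R))

theorem gqR_rat (M : ℕ) (a : ZMod M) : gqR ℚ M a = gq M a := rfl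

variable {R} in
theorem coeffMap_gqR {S : Type*} [CommRing S] (f : R →+* S) (M : ℕ) (a : ZMod M) :
    coeffMap f (gqR R M a) = gqR S M a := by
  rw [gqR, map_mul, coeffMap_single, map_one, coeffMap_ofPowerSeries,
    ← RingHom.comp_apply (PowerSeries.map f) (PowerSeries.map (Int.castRingHom R)),
    ← PowerSeries.map_comp, RingHom.ext_int (f.comp (Int.castRingHom R)) (Int.castRingHom S)]
  rfl

theorem coeffEmb_gq (K : Type*) [Field K] [Algebra ℚ K] (M : ℕ) (a : ZMod M) :
    coeffEmb K (gq M a) = gqR K M a := by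
  rw [← gqR_rat, coeffEmb, coeffMap_gqR]

end Gen

/-! ### The field over an arbitrary field `k` -/

section Field

variable (k : Type*) [Field k]

/-- The extra generators over `k`. -/
def gExpansionsC (M L : ℕ) : Set (LaurentSeries k) :=
  {x | ∃ (a : (ZMod M)ˣ) (e : ℕ) (_ : NeZero e), e ∣ L ∧ x = qExpand k e (gqR k M (a : ZMod M))}

/-- **The function field of `X(Γ₁(M) ∩ Γ₀(M L))` over `k`**, inside `k((q))`. -/
def fieldG10C (M L : ℕ) : IntermediateField k (LaurentSeries k) :=
  IntermediateField.adjoin k (divisorExpansionsC k (M * L) ∪ gExpansionsC k M L)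

theorem fieldG10C_rat (M L : ℕ) : fieldG10C ℚ M L = fieldG10 M L := rfl

theorem jqd_mem_fieldG10C (M L : ℕ) {d : ℕ} [NeZero d] (hd : d ∣ M * L) :
    qExpand k d (jqModC k) ∈ fieldG10C k M L :=
  IntermediateField.subset_adjoin k _ (Or.inl ⟨d, inferInstance, hd, rfl⟩)

theorem gqe_mem_fieldG10C (M L : ℕ) (a : (ZMod M)ˣ) {e : ℕ} [NeZero e] (he : e ∣ L) :
    qExpand k e (gqR k M (a : ZMod M)) ∈ fieldG10C k M L :=
  IntermediateField.subset_adjoin k _ (Or.inr ⟨a, e, inferInstance, he, rfl⟩)

theorem modularFunctionFieldFullC_le_fieldG10C (M L : ℕ) :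
    modularFunctionFieldFullC k (M * L) ≤ fieldG10C k M L :=
  IntermediateField.adjoin.mono k _ _ Set.subset_union_left

theorem divisorExpansionsC_mono {N N' : ℕ} (h : N ∣ N') :
    divisorExpansionsC k N ⊆ divisorExpansionsC k N' := by
  rintro x ⟨d, hne, hd, rfl⟩
  exact ⟨d, hne, hd.trans h, rfl⟩

theorem gExpansionsC_mono (M : ℕ) {L L' : ℕ} (h : L ∣ L') :
    gExpansionsC k M L ⊆ gExpansionsC k M L' := by
  rintro x ⟨a, e, hne, he, rfl⟩
  exact ⟨a, e, hne, he.trans h, rfl⟩

/-- `fieldG10C k M L ≤ fieldG10C k M L'` for `L ∣ L'`. -/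
theorem fieldG10C_mono (M : ℕ) {L L' : ℕ} (h : L ∣ L') : fieldG10C k M L ≤ fieldG10C k M L' :=
  IntermediateField.adjoin.mono k _ _
    (Set.union_subset_union (divisorExpansionsC_mono k (mul_dvd_mul_left M h))
      (gExpansionsC_mono k M h))

/-- `f(q) ↦ f(q^ℓ)` maps `fieldG10C k M L` into `fieldG10C k M L'` for `L * ℓ ∣ L'`. -/
theorem qExpand_mem_fieldG10C (M : ℕ) {L L' : ℕ} (ℓ : ℕ) [NeZero ℓ] (h : L * ℓ ∣ L')
    {y : LaurentSeries k} (hy : y ∈ fieldG10C k M L) : qExpand k ℓ y ∈ fieldG10C k M L' := by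
  have hmap : (fieldG10C k M L).map (qExpandAlgHomC k ℓ) ≤ fieldG10C k M L' := by
    rw [fieldG10C, IntermediateField.adjoin_map, IntermediateField.adjoin_le_iff]
    rintro x ⟨z, hz, rfl⟩
    rcases hz with ⟨d, hne, hd, rfl⟩ | ⟨a, e, hne, he, rfl⟩
    · haveI := hne
      haveI : NeZero (ℓ * d) := ⟨Nat.mul_ne_zero (NeZero.ne ℓ) (NeZero.ne d)⟩
      show qExpandAlgHomC k ℓ (qExpand k d (jqModC k)) ∈ _
      rw [qExpandAlgHomC_apply, qExpand_qExpand]
      refine jqd_mem_fieldG10C k M L' ?_
      refine Dvd.dvd.trans ?_ (mul_dvd_mul_left M h)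
      rw [← mul_assoc, mul_comm ℓ d]
      exact mul_dvd_mul_right hd ℓ
    · haveI := hne
      haveI : NeZero (ℓ * e) := ⟨Nat.mul_ne_zero (NeZero.ne ℓ) (NeZero.ne e)⟩
      show qExpandAlgHomC k ℓ (qExpand k e (gqR k M (a : ZMod M))) ∈ _
      rw [qExpandAlgHomC_apply, qExpand_qExpand]
      refine gqe_mem_fieldG10C k M L' a ?_
      rw [mul_comm ℓ e]
      exact (mul_dvd_mul_right he ℓ).trans h
  exact hmap ⟨y, hy, rfl⟩

/-! ### The degeneracy maps in every characteristic -/

/-- `α^*` : the inclusion `fieldG10C k M L ⊆ fieldG10C k M L'` (`L ∣ L'`). -/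
def alphaC (M : ℕ) {L L' : ℕ} (h : L ∣ L') : fieldG10C k M L →ₐ[k] fieldG10C k M L' :=
  IntermediateField.inclusion (fieldG10C_mono k M h)

@[simp]
theorem coe_alphaC (M : ℕ) {L L' : ℕ} (h : L ∣ L') (x : fieldG10C k M L) :
    (alphaC k M h x : LaurentSeries k) = (x : LaurentSeries k) :=
  IntermediateField.coe_inclusion _ x

/-- `β^*` as a ring homomorphism. -/
def betaCRingHom (M : ℕ) {L L' : ℕ} (ℓ : ℕ) [NeZero ℓ] (h : L * ℓ ∣ L') :
    fieldG10C k M L →+* fieldG10C k M L' where
  toFun x := ⟨qExpand k ℓ (x : LaurentSeries k), qExpand_mem_fieldG10C k M ℓ h x.2⟩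
  map_one' := Subtype.ext (map_one (qExpand k ℓ))
  map_mul' _ _ := Subtype.ext (map_mul (qExpand k ℓ) _ _)
  map_zero' := Subtype.ext (map_zero (qExpand k ℓ))
  map_add' _ _ := Subtype.ext (map_add (qExpand k ℓ) _ _)

/-- `β^*` : `f(q) ↦ f(q^ℓ)`, `fieldG10C k M L → fieldG10C k M L'` (`L * ℓ ∣ L'`). -/
def betaC (M : ℕ) {L L' : ℕ} (ℓ : ℕ) [NeZero ℓ] (h : L * ℓ ∣ L') :
    fieldG10C k M L →ₐ[k] fieldG10C k M L' :=
  { betaCRingHom k M ℓ h with
    commutes' := fun a => Subtype.ext <| by
      show qExpand k ℓ (algebraMap k (LaurentSeries k) a) = algebraMap k (LaurentSeries k) a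
      rw [algebraMap_laurentSeries_eq_single, qExpand_single, mul_zero] }

@[simp]
theorem coe_betaC (M : ℕ) {L L' : ℕ} (ℓ : ℕ) [NeZero ℓ] (h : L * ℓ ∣ L') (x : fieldG10C k M L) :
    (betaC k M ℓ h x : LaurentSeries k) = qExpand k ℓ (x : LaurentSeries k) :=
  rfl

/-! ### Stability under coefficientwise ring endomorphisms -/

variable {k} in
/-- The generators of `fieldG10C` have prime-ring coefficients: the field is stable under the
coefficientwise action of every ring endomorphism of `k`. -/
theorem coeffMap_mem_fieldG10C (φ : k →+* k) (M L : ℕ) {x : LaurentSeries k}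
    (hx : x ∈ fieldG10C k M L) : coeffMap φ x ∈ fieldG10C k M L := by
  have hx' : x ∈ Subfield.closure (Set.range (algebraMap k (LaurentSeries k)) ∪
      (divisorExpansionsC k (M * L) ∪ gExpansionsC k M L)) := hx
  clear hx
  induction hx' using Subfield.closure_induction with
  | mem y hy =>
      rcases hy with ⟨a, rfl⟩ | ⟨d, hne, hd, rfl⟩ | ⟨a, e, hne, he, rfl⟩
      · rw [algebraMap_laurentSeries_eq_single, coeffMap_single,
          ← algebraMap_laurentSeries_eq_single]
        exact (fieldG10C k M L).algebraMap_mem _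
      · haveI := hne
        rw [coeffMap_qExpand, coeffMap_jqModC]
        exact jqd_mem_fieldG10C k M L hd
      · haveI := hne
        rw [coeffMap_qExpand, coeffMap_gqR]
        exact gqe_mem_fieldG10C k M L a he
  | one => rw [map_one]; exact one_mem _
  | add x y _ _ hx hy => rw [map_add]; exact add_mem hx hy
  | neg x _ hx => rw [map_neg]; exact neg_mem hx
  | inv x _ hx => rw [map_inv₀]; exact inv_mem hx
  | mul x y _ _ hx hy => rw [map_mul]; exact mul_mem hx hy

end Field

/-! ### Characteristic zero: `fieldG10C K M L = K · fieldG10 M L` -/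

section CharZero

variable (K : Type*) [Field K] [Algebra ℚ K]

theorem coeffEmb_jq : coeffEmb K jq = jqModC K := by
  rw [← jqModC_rat, coeffEmb, coeffMap_jqModC]

/-- `fieldG10C K M L` is the base change of `fieldG10 M L`. -/
theorem fieldG10C_eq_laurentBaseChange (M L : ℕ) :
    fieldG10C K M L = laurentBaseChange K (fieldG10 M L) := by
  apply le_antisymm
  · rw [fieldG10C, IntermediateField.adjoin_le_iff]
    rintro x (⟨d, hne, hd, rfl⟩ | ⟨a, e, hne, he, rfl⟩)
    · haveI := hne
      rw [← coeffEmb_jq, ← J1Defs8.coeffEmb_qExpand]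
      exact coeffEmb_mem_laurentBaseChange K
        (IntermediateField.subset_adjoin ℚ _ (Or.inl ⟨d, inferInstance, hd, rfl⟩))
    · haveI := hne
      rw [← coeffEmb_gq, ← J1Defs8.coeffEmb_qExpand]
      exact coeffEmb_mem_laurentBaseChange K
        (IntermediateField.subset_adjoin ℚ _ (Or.inr ⟨a, e, inferInstance, he, rfl⟩))
  · rw [laurentBaseChange, IntermediateField.adjoin_le_iff]
    rintro _ ⟨y, hy, rfl⟩
    have hy' : y ∈ Subfield.closure (Set.range (algebraMap ℚ (LaurentSeries ℚ)) ∪
        (divisorExpansions (M * L) ∪ gExpansions M L)) := hy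
    clear hy
    induction hy' using Subfield.closure_induction with
    | mem z hz =>
        rcases hz with ⟨c, rfl⟩ | ⟨d, hne, hd, rfl⟩ | ⟨a, e, hne, he, rfl⟩
        · have : coeffEmb K (algebraMap ℚ (LaurentSeries ℚ) c)
              = algebraMap K (LaurentSeries K) (algebraMap ℚ K c) := by
            rw [algebraMap_laurentSeries_eq_single, algebraMap_laurentSeries_eq_single, coeffEmb,
              coeffMap_single]
          rw [this]
          exact (fieldG10C K M L).algebraMap_mem _
        · haveI := hne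
          rw [J1Defs8.coeffEmb_qExpand, coeffEmb_jq]
          exact jqd_mem_fieldG10C K M L hd
        · haveI := hne
          rw [J1Defs8.coeffEmb_qExpand, coeffEmb_gq]
          exact gqe_mem_fieldG10C K M L a he
    | one => rw [map_one]; exact one_mem _
    | add x y _ _ hx hy => rw [map_add]; exact add_mem hx hy
    | neg x _ hx => rw [map_neg]; exact neg_mem hx
    | inv x _ hx => rw [map_inv₀]; exact inv_mem hx
    | mul x y _ _ hx hy => rw [map_mul]; exact mul_mem hx hy

/-- `J1Defs8.FK K M L` is `fieldG10C K M L`. -/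
theorem FK_eq (M L : ℕ) : FK K M L = fieldG10C K M L :=
  (fieldG10C_eq_laurentBaseChange K M L).symm

end CharZero

end Fermat.Agent.M48.QModel8
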