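/-
M48 (P1), [RED1], chapter [PUR1] (helper1), file 1: **the Gauss bridge for the `Γ₁(M) ∩ Γ₀(M L)` model**
(twin of `RED/PUR/GaussBridge10`, `GaussInst25`, `GaussInstN25` with `modularFunctionFieldFullC K M`
replaced by helper8's `QModel8.fieldG10C K M L`).

* `gqe_mem_gaussRing`, `gaussRed_gqe` : the extra generators `g_{M,a}(q^e)` lie in the Gauss ring of every
  valuation subring `O ⊂ K` and reduce to `g_{M,a}(q^e)` over the residue field;
* `fieldG10C_le_fracField`, `laurentBaseChange_le_fracField` : `K · fieldG10 M L ⊂ Frac O((q))`;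
* `fieldG10C_le_resField` : (RES) every element of `fieldG10C κ M L` is the residue of an element of
  `gaussRing O ∩ fieldG10C K M L`;
* `IG1 M L` : the LITERAL form of the Igusa input (MF3) (lower bound for the degree in characteristic
  `ℓ ∤ M L`), and `degLe_irr_fieldG10C`, `degLe_irr_laurentBaseChange` : (DEG) + (IRR) of `G1Package8` for every
  `t ∈ gaussRing ∩ E` with `j ∈ K(t)`, `n = [E : K(t)]` explicit, given `IG1 M L` (degree in characteristic `0`:
  helper2's `G10Degree2.relfinrank_FK`).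

Imported by no statement.
-/
import Mathlib
import Fermat.Agent.RED.PUR.GaussInst25
import Fermat.Agent.M48.QModel8
import Fermat.Agent.M48.G10Degree2

set_option autoImplicit false
set_option linter.unusedSectionVars false

noncomputable section

open HahnSeries ModularCurve IntermediateField
open scoped MatrixGroups

namespace Fermat.Agent.M48.PurGauss1

open Fermat.Agent.RED.PUR.GaussGen8 Fermat.Agent.RED.PUR.KtGauss8 Fermat.Agent.RED.PUR.G1Package8
  Fermat.Agent.RED.PUR.GaussBridge10 Fermat.Agent.RED.PUR.GaussInst25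
open Fermat.Agent.M48.DictIface4 Fermat.Agent.M48.QModel8 Fermat.Agent.M48.J1Defs8

section Generators

variable {K : Type*} [Field K] (O : ValuationSubring K)

/-- The integral generator `g_{M,a}(q^e)` over `O`. -/
def gqeO (M : ℕ) (a : ZMod M) (e : ℕ) [NeZero e] : LaurentSeries ↥O :=
  qExpand ↥O e (gqR ↥O M a)

theorem embK_gqeO (M : ℕ) (a : ZMod M) (e : ℕ) [NeZero e] :
    embK O (gqeO O M a e) = qExpand K e (gqR K M a) := by
  unfold gqeO embK
  rw [coeffMap_qExpand, coeffMap_gqR]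

theorem redL_gqeO (M : ℕ) (a : ZMod M) (e : ℕ) [NeZero e] :
    redL O (gqeO O M a e) = qExpand (Res O) e (gqR (Res O) M a) := by
  unfold gqeO redL
  rw [coeffMap_qExpand, coeffMap_gqR]

/-- the extra generators lie in the Gauss ring. -/
theorem gqe_mem_gaussRing (M : ℕ) (a : ZMod M) (e : ℕ) [NeZero e] :
    qExpand K e (gqR K M a) ∈ gaussRing O := by
  rw [← embK_gqeO O M a e]; exact embK_mem O _

theorem gaussRed_gqe (M : ℕ) (a : ZMod M) (e : ℕ) [NeZero e] :
    gaussRed O ⟨qExpand K e (gqR K M a), gqe_mem_gaussRing O M a e⟩ =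
      qExpand (Res O) e (gqR (Res O) M a) := by
  have h : (⟨qExpand K e (gqR K M a), gqe_mem_gaussRing O M a e⟩ : gaussRing O) =
      ⟨embK O (gqeO O M a e), embK_mem O _⟩ := Subtype.ext (embK_gqeO O M a e).symm
  rw [h, gaussRed_embK, redL_gqeO]

/-- **(GB1)** `fieldG10C K M L ⊂ Frac O((q))`. -/
theorem fieldG10C_le_fracField (M L : ℕ) : fieldG10C K M L ≤ fracField O := by
  unfold fieldG10C
  rw [IntermediateField.adjoin_le_iff]
  rintro _ (⟨d, hne, hd, rfl⟩ | ⟨a, e, hne, he, rfl⟩)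
  · rw [← embK_jdO O d]
    exact embK_mem_fracField O _
  · rw [← embK_gqeO O M a e]
    exact embK_mem_fracField O _

/-- **(RES)** every element of `fieldG10C κ M L` is the residue of an element of
`gaussRing O ∩ fieldG10C K M L`. -/
theorem fieldG10C_le_resField (M L : ℕ) :
    fieldG10C (Res O) M L ≤ resField O (fieldG10C K M L) := by
  unfold fieldG10C
  rw [IntermediateField.adjoin_le_iff]
  rintro _ (⟨d, hne, hd, rfl⟩ | ⟨a, e, hne, he, rfl⟩)
  · exact ⟨qExpand K d (jqModC K), jqd_mem_gaussRing O d,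
      IntermediateField.subset_adjoin K _ (Or.inl ⟨d, hne, hd, rfl⟩), gaussRed_jqd O d⟩
  · exact ⟨qExpand K e (gqR K M a), gqe_mem_gaussRing O M a e,
      IntermediateField.subset_adjoin K _ (Or.inr ⟨a, e, hne, he, rfl⟩), gaussRed_gqe O M a e⟩

theorem jqModC_mem_fieldG10C (k : Type*) [Field k] (M L : ℕ) : jqModC k ∈ fieldG10C k M L := by
  have h := jqd_mem_fieldG10C k M L (d := 1) (one_dvd _)
  rwa [qExpand_one_apply] at h

end Generators

section BaseChange

variable {K : Type*} [Field K] [Algebra ℚ K] (O : ValuationSubring K)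

/-- **(GB1)** `K · fieldG10 M L ⊂ Frac O((q))`. -/
theorem laurentBaseChange_le_fracField (M L : ℕ) :
    laurentBaseChange K (fieldG10 M L) ≤ fracField O := by
  rw [← fieldG10C_eq_laurentBaseChange]
  exact fieldG10C_le_fracField O M L

/-- **(RES)** for `K · fieldG10 M L`. -/
theorem fieldG10C_le_resField_laurentBaseChange (M L : ℕ) :
    fieldG10C (Res O) M L ≤ resField O (laurentBaseChange K (fieldG10 M L)) := by
  rw [← fieldG10C_eq_laurentBaseChange]
  exact fieldG10C_le_resField O M L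

end BaseChange

/-! ### (DEG) + (IRR) -/

/-- **(MF3), literal form of the Igusa input**: in characteristic `ℓ ∤ M L` the degree of
`κ(j(q^d), g_{M,a}(q^e))` over `κ(j)` is at least the index of `±(Γ₁(M) ∩ Γ₀(M L))`. -/
def IG1 (M L : ℕ) : Prop :=
  ∀ (ℓ : ℕ) [Fact ℓ.Prime] (κ : Type) [Field κ] [CharP κ ℓ], ¬ ℓ ∣ M * L →
    Nat.card (SL(2, ℤ) ⧸ pm (Gamma10 M (M * L))) ≤
      relfinrank κ⟮jqModC κ⟯ (fieldG10C κ M L)

section Deg

variable {K : Type} [Field K] [CharZero K] (O : ValuationSubring K) [IsDiscreteValuationRing ↥O]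
  {π : ↥O}

/-- **(DEG) + (IRR)** with `n = [E : K(t)]` explicit, `E = fieldG10C K M L`. -/
theorem degLe_irr_fieldG10C (hπ : Irreducible π) (ℓ : ℕ) [Fact ℓ.Prime] [CharP (Res O) ℓ]
    (M L : ℕ) [NeZero M] [NeZero L] (hM : 2 ≤ M) (hℓ : ¬ ℓ ∣ M * L) (hIG : IG1 M L)
    (tG : ↥(gaussRing O)) (htE : (tG : LaurentSeries K) ∈ fieldG10C K M L)
    (hjt : jqModC K ∈ Kt O tG) :
    relfinrank (Kt O tG) (fieldG10C K M L) ≠ 0 ∧
      DegLe O (fieldG10C K M L) tG (relfinrank (Kt O tG) (fieldG10C K M L)) ∧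
      Irr O (fieldG10C K M L) tG (relfinrank (Kt O tG) (fieldG10C K M L)) := by
  let _ : Algebra ℚ K := DivisionRing.toRatAlgebra
  have hjtr : Transcendental (Res O) (gaussRed O (jG O)) := by
    rw [gaussRed_jG]
    exact Fermat.Agent.IG.VAL.OvBasics22.transcendental_jqModC (Res O)
  have hψ0 : Nat.card (SL(2, ℤ) ⧸ pm (Gamma10 M (M * L))) ≠ 0 :=
    G10Degree2.card_quotient_ne_zero M L hM
  have hψ : relfinrank (Kt O (jG O)) (fieldG10C K M L) =
      Nat.card (SL(2, ℤ) ⧸ pm (Gamma10 M (M * L))) := by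
    have h := G10Degree2.relfinrank_FK M L hM K
    rw [FK_eq] at h
    exact h
  have hψ' : Nat.card (SL(2, ℤ) ⧸ pm (Gamma10 M (M * L))) ≤
      relfinrank (kt O (jG O)) (fieldG10C (Res O) M L) := by
    have h1 := hIG ℓ (Res O) hℓ
    have h2 : kt O (jG O) = (Res O)⟮jqModC (Res O)⟯ := by
      show (Res O)⟮gaussRed O (jG O)⟯ = _
      rw [gaussRed_jG]
    rw [h2]
    exact h1
  have hjF' : gaussRed O (jG O) ∈ fieldG10C (Res O) M L := by
    rw [gaussRed_jG]
    exact jqModC_mem_fieldG10C (Res O) M L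
  have hres : ∀ y ∈ fieldG10C (Res O) M L, ∃ b : ↥(gaussRing O),
      (b : LaurentSeries K) ∈ fieldG10C K M L ∧ gaussRed O b = y := by
    intro y hy
    obtain ⟨f, hf, hfE, hfy⟩ := fieldG10C_le_resField O M L hy
    exact ⟨⟨f, hf⟩, hfE, hfy⟩
  obtain ⟨hn0, hdeg, b, hbE, hbli⟩ :=
    Fermat.Agent.RED.PUR.GaussDeg25.exists_residually_independent hπ hjtr
    (show ((jG O : ↥(gaussRing O)) : LaurentSeries K) ∈ Kt O tG from hjt)
    (fieldG10C K M L) htE (fieldG10C (Res O) M L) hjF'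
    (Nat.card (SL(2, ℤ) ⧸ pm (Gamma10 M (M * L)))) hψ0 hψ hψ' hres
  exact ⟨hn0, hdeg, b, hbE, hbli⟩

end Deg

section DegBC

variable {L' : Type} [Field L'] [Algebra ℚ L'] (O : ValuationSubring L')
  [IsDiscreteValuationRing ↥O] {π : ↥O}

/-- The same for `E = laurentBaseChange L' (fieldG10 M L)`. -/
theorem degLe_irr_laurentBaseChange (hπ : Irreducible π) (ℓ : ℕ) [Fact ℓ.Prime]
    [CharP (Res O) ℓ] (M L : ℕ) [NeZero M] [NeZero L] (hM : 2 ≤ M) (hℓ : ¬ ℓ ∣ M * L)
    (hIG : IG1 M L) (tG : ↥(gaussRing O))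
    (htE : (tG : LaurentSeries L') ∈ laurentBaseChange L' (fieldG10 M L))
    (hjt : jqModC L' ∈ Kt O tG) :
    relfinrank (Kt O tG) (laurentBaseChange L' (fieldG10 M L)) ≠ 0 ∧
      DegLe O (laurentBaseChange L' (fieldG10 M L)) tG
        (relfinrank (Kt O tG) (laurentBaseChange L' (fieldG10 M L))) ∧
      Irr O (laurentBaseChange L' (fieldG10 M L)) tG
        (relfinrank (Kt O tG) (laurentBaseChange L' (fieldG10 M L))) := by
  have : CharZero L' := algebraRat.charZero L'
  rw [← fieldG10C_eq_laurentBaseChange] at htE ⊢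
  exact degLe_irr_fieldG10C O hπ ℓ M L hM hℓ hIG tG htE hjt

end DegBC

end Fermat.Agent.M48.PurGauss1
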