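/-
Programme M48, pillar (P1), chapter [RED1], special-fibre facts — helper9.  **(GB2) + (R-gen) for the
model `fieldG10 M L` of `X(Γ₁(M) ∩ Γ₀(M L))`** (twin of `ES/RED/GaussUnit25`, which is the `Γ₀` case).

Everything is conditional on the single Igusa-type input `PurGauss1.IG1 M L` (helper6, [IG1]): in
characteristic `ℓ ∤ M L` the degree of `κ(j(q^d), g_{M,a}(q^e))` over `κ(j)` is at least
`#(SL(2,ℤ) ⧸ ±(Γ₁(M) ∩ Γ₀(M L)))`.

* `coeffMap_mem_fieldG10C_of_hom` : `coeffMap φ` maps `fieldG10C k M L` into `fieldG10C κ M L` for every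
  field hom `φ : k → κ`;
* `family_bound_res`, `relfinrank_res_le` : (upper bound by lifting) for a DVR `O ⊂ K`, `char K = 0`:
  `[κ(j(q^d), g(q^e)) : κ(j)] ≤ #(SL(2,ℤ) ⧸ ±Γ)`, `κ = Res O`; `relfinrank_res_eq` : equality, given
  `IG1`; `relfinrank_le_of_hom`, `relfinrank_eq_of_hom` : the same over every extension of `κ`;
* **(GB2)** `resField_fieldG10C_eq` : `resField O (fieldG10C K M L) = fieldG10C (Res O) M L`;
* `isIntFrac_of_mem_fieldG10C`, `exists_integral_fraction` : every nonzero `f ∈ fieldG10C K M L` is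
  `c · a / b` with `c ∈ Kˣ`, `a, b ∈ O((q)) ∩ fieldG10C K M L` of nonzero reduction;
* `resField_FK_eq`, `mem_integralPrincipal`, **`principalGenByIntegral`** : (R-gen) of `SP1Top8`:
  `RedSpec8.PrincipalGenByIntegral A (residue A) (FK ℚ̄ M L) (fieldG10C κ_A M L)` for `A` over
  `ℓ ∤ M L`, `2 ≤ M`.

Nothing is left unproved in this file.  Imported by no statement.
-/
import Mathlib
import Fermat.Agent.ES.RED.GaussUnit25
import Fermat.Agent.M48.PurGauss1
import Fermat.Agent.M48.RedSpec8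

set_option autoImplicit false
set_option linter.unusedSectionVars false
set_option linter.style.haveILetI false

noncomputable section

open HahnSeries ModularCurve IntermediateField
open scoped MatrixGroups

namespace Fermat.Agent.M48.GaussUnitG9

open Fermat.Agent.RED.PUR.GaussGen8 Fermat.Agent.RED.PUR.KtGauss8
open Fermat.Agent.RED.PUR.GaussBridge10 Fermat.Agent.RED.PUR.GaussInst25
open Fermat.Agent.RED.PUR Fermat.Agent.IG.PR Fermat.Agent.ES.RED.GaussUnit25
open Fermat.Agent.M48.DictIface4 Fermat.Agent.M48.QModel8 Fermat.Agent.M48.J1Defs8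
  Fermat.Agent.M48.PurGauss1

/-! ### Base change of constants for `fieldG10C` -/

section BaseChange

variable {k κ : Type*} [Field k] [Field κ] (φ : k →+* κ)

/-- the generating set of `fieldG10C k M L`. -/
def gens (k : Type*) [Field k] (M L : ℕ) : Set (LaurentSeries k) :=
  divisorExpansionsC k (M * L) ∪ gExpansionsC k M L

theorem fieldG10C_eq_adjoin (k : Type*) [Field k] (M L : ℕ) :
    fieldG10C k M L = IntermediateField.adjoin k (gens k M L) := rfl

theorem image_gens (M L : ℕ) : (coeffMap φ) '' (gens k M L) = gens κ M L := by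
  ext y
  constructor
  · rintro ⟨x, (⟨d, hd, hdM, rfl⟩ | ⟨a, e, he, heL, rfl⟩), rfl⟩
    · exact Or.inl ⟨d, hd, hdM, by rw [coeffMap_qExpand, coeffMap_jqModC]⟩
    · exact Or.inr ⟨a, e, he, heL, by rw [coeffMap_qExpand, coeffMap_gqR]⟩
  · rintro (⟨d, hd, hdM, rfl⟩ | ⟨a, e, he, heL, rfl⟩)
    · exact ⟨qExpand k d (jqModC k), Or.inl ⟨d, hd, hdM, rfl⟩,
        by rw [coeffMap_qExpand, coeffMap_jqModC]⟩
    · exact ⟨qExpand k e (gqR k M (a : ZMod M)), Or.inr ⟨a, e, he, heL, rfl⟩,
        by rw [coeffMap_qExpand, coeffMap_gqR]⟩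

/-- `coeffMap φ` maps `fieldG10C k M L` into `fieldG10C κ M L`. -/
theorem coeffMap_mem_fieldG10C_of_hom (M L : ℕ) {x : LaurentSeries k}
    (hx : x ∈ fieldG10C k M L) : coeffMap φ x ∈ fieldG10C κ M L := by
  have := DegBaseChange25.map_mem_adjoin φ (coeffMap φ) (DegBaseChange25.coeffMap_algebraMap' φ)
    (gens k M L) hx
  rwa [image_gens] at this

theorem adjoin_j_le (k : Type*) [Field k] (M L : ℕ) : k⟮jqModC k⟯ ≤ fieldG10C k M L :=
  adjoin_simple_le_iff.mpr (jqModC_mem_fieldG10C k M L)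

include φ in
/-- base change of constants, family form. -/
theorem family_bound_of_hom (M L : ℕ) (m : ℕ)
    (hub : ∀ (n : ℕ) (c : Fin n → LaurentSeries k), (∀ i, c i ∈ fieldG10C k M L) →
      LinearIndependent ↥(k⟮jqModC k⟯) c → n ≤ m)
    (n : ℕ) (c : Fin n → LaurentSeries κ) (hc : ∀ i, c i ∈ fieldG10C κ M L)
    (hli : LinearIndependent ↥(κ⟮jqModC κ⟯) c) : n ≤ m := by
  have hTS : adjoin k ({jqModC k} : Set (LaurentSeries k)) ≤ adjoin k (gens k M L) :=
    adjoin_j_le k M L
  refine DegBaseChange25.family_bound_map φ (coeffMap φ) (DegBaseChange25.coeffMap_algebraMap' φ)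
    {jqModC k} (gens k M L) hTS m hub n c ?_ ?_
  · rw [image_gens]
    exact hc
  · rw [DegBaseChange25.image_singleton_jqModC]
    exact hli

include φ in
/-- base change of constants does not increase the degree over `κ(j)`. -/
theorem relfinrank_le_of_hom (M L : ℕ) (hfin : relfinrank k⟮jqModC k⟯ (fieldG10C k M L) ≠ 0) :
    relfinrank κ⟮jqModC κ⟯ (fieldG10C κ M L) ≤ relfinrank k⟮jqModC k⟯ (fieldG10C k M L) :=
  FamilyForm20.relfinrank_le_of_family_bound (adjoin_j_le κ M L) _
    (family_bound_of_hom φ M L _ fun n c hc hli =>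
      FamilyForm20.le_relfinrank_of_family (adjoin_j_le k M L) n hfin c hc hli)

end BaseChange

/-! ### (GB2) -/

section GB2

variable {K : Type} [Field K] [CharZero K] (O : ValuationSubring K) [IsDiscreteValuationRing ↥O]
  {π : ↥O}

theorem transcendental_gaussRed_jG : Transcendental (Res O) (gaussRed O (jG O)) := by
  rw [gaussRed_jG]
  exact Fermat.Agent.IG.VAL.OvBasics22.transcendental_jqModC (Res O)

theorem kt_jG : kt O (jG O) = (Res O)⟮jqModC (Res O)⟯ := by
  show (Res O)⟮gaussRed O (jG O)⟯ = _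
  rw [gaussRed_jG]

theorem relfinrank_Kt_jG (M L : ℕ) [NeZero M] [NeZero L] (hM : 2 ≤ M) :
    relfinrank (Kt O (jG O)) (fieldG10C K M L) =
      Nat.card (SL(2, ℤ) ⧸ pm (Gamma10 M (M * L))) := by
  let _ : Algebra ℚ K := DivisionRing.toRatAlgebra
  have h := G10Degree2.relfinrank_FK M L hM K
  rw [FK_eq] at h
  exact h

/-- **Upper bound by lifting**, family form: residually independent elements of the special-fibre
field lift to independent elements of `fieldG10C K M L` over `K(j)`. -/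
theorem family_bound_res (hπ : Irreducible π) (M L : ℕ) [NeZero M] [NeZero L] (hM : 2 ≤ M)
    (n : ℕ) (c : Fin n → LaurentSeries (Res O)) (hc : ∀ i, c i ∈ resField O (fieldG10C K M L))
    (hli : LinearIndependent ↥((Res O)⟮jqModC (Res O)⟯) c) :
    n ≤ Nat.card (SL(2, ℤ) ⧸ pm (Gamma10 M (M * L))) := by
  have hres : ∀ i, ∃ b : ↥(gaussRing O), (b : LaurentSeries K) ∈ fieldG10C K M L ∧
      gaussRed O b = c i := by
    intro i
    obtain ⟨f, hf, hfE, hfy⟩ := hc i
    exact ⟨⟨f, hf⟩, hfE, hfy⟩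
  choose b hbE hb using hres
  have hliK := GaussDeg25.linearIndependent_of_gaussRed hπ (transcendental_gaussRed_jG O) b
    (by
      have : (fun i => gaussRed O (b i)) = c := funext hb
      rw [this, kt_jG]
      exact hli)
  have hTF : Kt O (jG O) ≤ fieldG10C K M L := adjoin_j_le K M L
  have := FamilyForm20.le_relfinrank_of_family hTF n
    (by rw [relfinrank_Kt_jG O M L hM]; exact G10Degree2.card_quotient_ne_zero M L hM) _ hbE hliK
  rwa [relfinrank_Kt_jG O M L hM] at this

/-- **Upper bound in residue characteristic**: `[κ(j(q^d), g(q^e)) : κ(j)] ≤ #(SL(2,ℤ) ⧸ ±Γ)`,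
`κ = Res O`. -/
theorem relfinrank_res_le (hπ : Irreducible π) (M L : ℕ) [NeZero M] [NeZero L] (hM : 2 ≤ M) :
    relfinrank (Res O)⟮jqModC (Res O)⟯ (fieldG10C (Res O) M L) ≤
      Nat.card (SL(2, ℤ) ⧸ pm (Gamma10 M (M * L))) :=
  FamilyForm20.relfinrank_le_of_family_bound (adjoin_j_le (Res O) M L) _
    fun n c hc hli => family_bound_res O hπ M L hM n c
      (fun i => fieldG10C_le_resField O M L (hc i)) hli

/-- **The degree of the special fibre**, given `IG1`. -/
theorem relfinrank_res_eq (hπ : Irreducible π) (ℓ : ℕ) [Fact ℓ.Prime] [CharP (Res O) ℓ]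
    (M L : ℕ) [NeZero M] [NeZero L] (hM : 2 ≤ M) (hℓ : ¬ ℓ ∣ M * L) (hIG : IG1 M L) :
    relfinrank (Res O)⟮jqModC (Res O)⟯ (fieldG10C (Res O) M L) =
      Nat.card (SL(2, ℤ) ⧸ pm (Gamma10 M (M * L))) :=
  le_antisymm (relfinrank_res_le O hπ M L hM) (hIG ℓ (Res O) hℓ)

/-- **(GB2)** The residue field of the Gauss valuation on `K(j(q^d), g_{M,a}(q^e))`. -/
theorem resField_fieldG10C_eq (hπ : Irreducible π) (ℓ : ℕ) [Fact ℓ.Prime] [CharP (Res O) ℓ]
    (M L : ℕ) [NeZero M] [NeZero L] (hM : 2 ≤ M) (hℓ : ¬ ℓ ∣ M * L) (hIG : IG1 M L) :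
    resField O (fieldG10C K M L) = fieldG10C (Res O) M L := by
  classical
  refine le_antisymm ?_ (fieldG10C_le_resField O M L)
  intro y hy
  by_contra hny
  set ψ := Nat.card (SL(2, ℤ) ⧸ pm (Gamma10 M (M * L))) with hψdef
  have hle : (Res O)⟮jqModC (Res O)⟯ ≤ fieldG10C (Res O) M L := adjoin_j_le (Res O) M L
  -- `ψ` residually independent elements of `F̃`
  obtain ⟨c, hc, hli⟩ := FamilyForm20.exists_family_of_le_relfinrank hle ψ (hIG ℓ (Res O) hℓ)
  -- `y` is not in their span
  have hspan : ∀ z ∈ Submodule.span ↥((Res O)⟮jqModC (Res O)⟯) (Set.range c),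
      z ∈ fieldG10C (Res O) M L := by
    intro z hz
    induction hz using Submodule.span_induction with
    | mem z hz =>
      obtain ⟨i, rfl⟩ := hz
      exact hc i
    | zero => exact zero_mem _
    | add z w _ _ hz hw => exact add_mem hz hw
    | smul a z _ hz =>
      rw [Algebra.smul_def]
      exact mul_mem (hle a.2) hz
  have hli' : LinearIndependent ↥((Res O)⟮jqModC (Res O)⟯)
      (Fin.cons y c : Fin (ψ + 1) → _) := by
    rw [linearIndependent_finCons]
    exact ⟨hli, fun h => hny (hspan y h)⟩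
  have hmem : ∀ i, (Fin.cons y c : Fin (ψ + 1) → _) i ∈ resField O (fieldG10C K M L) := by
    intro i
    refine Fin.cases ?_ (fun j => ?_) i
    · simpa using hy
    · simpa using fieldG10C_le_resField O M L (hc j)
  have := family_bound_res O hπ M L hM (ψ + 1) _ hmem hli'
  omega

end GB2

/-! ### Integral fractions -/

section Fraction

variable {K : Type*} [Field K] (O : ValuationSubring K)

/-- every element of `fieldG10C K M L` is a quotient of elements of `O((q)) ∩ fieldG10C K M L`. -/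
theorem isIntFrac_of_mem_fieldG10C (M L : ℕ) {f : LaurentSeries K}
    (hf : f ∈ fieldG10C K M L) : IsIntFrac O (fieldG10C K M L) f := by
  unfold fieldG10C at hf
  induction hf using IntermediateField.adjoin_induction with
  | mem x hx =>
    rcases hx with ⟨d, hne, hd, rfl⟩ | ⟨a, e, hne, he, rfl⟩
    · haveI := hne
      rw [← embK_jdO O d]
      refine isIntFrac_of_embK O _ _ ?_
      rw [embK_jdO O d]
      exact jqd_mem_fieldG10C K M L hd
    · haveI := hne
      rw [← embK_gqeO O M (a : ZMod M) e]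
      refine isIntFrac_of_embK O _ _ ?_
      rw [embK_gqeO O M (a : ZMod M) e]
      exact gqe_mem_fieldG10C K M L a he
  | algebraMap c => exact isIntFrac_algebraMap O _ c
  | add x y _ _ hx hy => exact hx.add hy
  | inv x _ hx => exact hx.inv
  | mul x y _ _ hx hy => exact hx.mul hy

/-- **Integral fraction with Gauss units**: every nonzero `f ∈ E = fieldG10C K M L` is
`c · a / b` with `c ∈ Kˣ` and `a, b ∈ O((q)) ∩ E` of nonzero reduction. -/
theorem exists_integral_fraction {π : ↥O} (hπ : IsUnif O π) (M L : ℕ)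
    {f : LaurentSeries K} (hf : f ∈ fieldG10C K M L) (hf0 : f ≠ 0) :
    ∃ (c : K) (a b : LaurentSeries ↥O), c ≠ 0 ∧
      embK O a ∈ fieldG10C K M L ∧ embK O b ∈ fieldG10C K M L ∧
      redL O a ≠ 0 ∧ redL O b ≠ 0 ∧ f * embK O b = HahnSeries.C c * embK O a := by
  obtain ⟨a, b, hb, haE, hbE, h⟩ := isIntFrac_of_mem_fieldG10C (O := O) M L hf
  have hb' : embK O b ≠ 0 := fun hh => hb ((embK_eq_zero_iff O b).mp hh)
  have ha : a ≠ 0 := by
    rintro rfl
    rw [map_zero] at h
    exact hf0 ((mul_eq_zero.mp h).resolve_right hb')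
  obtain ⟨i, a₀, rfl, ha₀⟩ := exists_eq_pow_mul hπ a ha
  obtain ⟨j, b₀, rfl, hb₀⟩ := exists_eq_pow_mul hπ b hb
  have hπK : ((π : ↥O) : K) ≠ 0 := fun h0 => hπ.ne_zero (Subtype.ext h0)
  have hCπ : (HahnSeries.C ((π : ↥O) : K) : LaurentSeries K) ≠ 0 := by
    intro h0
    have := congrArg (fun z : LaurentSeries K => z.coeff 0) h0
    simp only [HahnSeries.C_apply, HahnSeries.coeff_single_same, HahnSeries.coeff_zero] at this
    exact hπK this
  have hCmem : (HahnSeries.C ((π : ↥O) : K) : LaurentSeries K) ∈ fieldG10C K M L := by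
    rw [← algebraMap_eq_C (K := K)]
    exact (fieldG10C K M L).algebraMap_mem _
  simp only [map_mul, map_pow, embK_C] at haE hbE h
  have ha₀E : embK O a₀ ∈ fieldG10C K M L := by
    have := mul_mem (inv_mem (pow_mem hCmem i)) haE
    rwa [← mul_assoc, inv_mul_cancel₀ (pow_ne_zero i hCπ), one_mul] at this
  have hb₀E : embK O b₀ ∈ fieldG10C K M L := by
    have := mul_mem (inv_mem (pow_mem hCmem j)) hbE
    rwa [← mul_assoc, inv_mul_cancel₀ (pow_ne_zero j hCπ), one_mul] at this
  refine ⟨((π : ↥O) : K) ^ i * (((π : ↥O) : K) ^ j)⁻¹, a₀, b₀,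
    mul_ne_zero (pow_ne_zero i hπK) (inv_ne_zero (pow_ne_zero j hπK)), ha₀E, hb₀E, ha₀, hb₀, ?_⟩
  rw [map_mul, map_pow, map_inv₀, map_pow]
  have hj := pow_ne_zero j hCπ
  field_simp
  rw [← h]
  ring

end Fraction

/-! ### (R-gen) -/

section Concrete

open Fermat.Agent.RED.Interface4 (Qbar AK)
open Fermat.Agent.RED.DESC Fermat.Agent.RED.DESC.NumberFieldDVR27
open AlgebraicCurve Fermat.Agent.M48.RedSpec8

variable (A : ValuationSubring Qbar) (K : IntermediateField ℚ Qbar)

/-- **(GB2)** for the contract objects: the residue field of the Gauss valuation on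
`K · fieldG10 M L`. -/
theorem resField_FK_eq [FiniteDimensional ℚ K] (ℓ : ℕ) [Fact ℓ.Prime]
    (hA : A.LiesOverPrime ℓ) (M L : ℕ) [NeZero M] [NeZero L] (hM : 2 ≤ M) (hℓ : ¬ ℓ ∣ M * L)
    (hIG : IG1 M L) :
    resField (AK A K) (J1Defs8.FK ↥K M L) = fieldG10C (Res (AK A K)) M L := by
  haveI : IsDiscreteValuationRing ↥(AK A K) :=
    isDiscreteValuationRing_AK A K (Fact.out : ℓ.Prime).ne_zero hA
  haveI : CharP (Res (AK A K)) ℓ := charP_residueField_AK A K Fact.out hA
  obtain ⟨π, hπ⟩ := IsDiscreteValuationRing.exists_irreducible ↥(AK A K)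
  rw [FK_eq]
  exact resField_fieldG10C_eq (AK A K) hπ ℓ M L hM hℓ hIG

/-- An integral series over `A ∩ K` lying in `K · fieldG10 M L` with nonzero reduction gives an
element of `RedSpec8.integralPrincipal`. -/
theorem mem_integralPrincipal [FiniteDimensional ℚ K] (ℓ : ℕ) [Fact ℓ.Prime]
    (hA : A.LiesOverPrime ℓ) (M L : ℕ) [NeZero M] [NeZero L] (hM : 2 ≤ M) (hℓ : ¬ ℓ ∣ M * L)
    (hIG : IG1 M L)
    (a : LaurentSeries ↥(AK A K)) (haE : embK (AK A K) a ∈ fieldG10C ↥K M L)
    (hared : redL (AK A K) a ≠ 0)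
    (hy : coeffMap A.subtype (coeffMap (incl A K) a) ∈ J1Defs8.FK Qbar M L)
    (D : Divisor Qbar ↥(J1Defs8.FK Qbar M L))
    (hD : ∀ P, D P = P.ord (⟨coeffMap A.subtype (coeffMap (incl A K) a), hy⟩ :
      ↥(J1Defs8.FK Qbar M L))) :
    D ∈ integralPrincipal A (IsLocalRing.residue ↥A) (J1Defs8.FK Qbar M L)
      (fieldG10C (IsLocalRing.ResidueField ↥A) M L) := by
  haveI : IsDiscreteValuationRing ↥(AK A K) :=
    isDiscreteValuationRing_AK A K (Fact.out : ℓ.Prime).ne_zero hA
  haveI : CharP (Res (AK A K)) ℓ := charP_residueField_AK A K Fact.out hA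
  obtain ⟨π, hπ⟩ := IsDiscreteValuationRing.exists_irreducible ↥(AK A K)
  refine ⟨coeffMap (incl A K) a, hy, ?_, ?_, hD⟩
  · rw [coeffMap_residue_incl]
    refine coeffMap_mem_fieldG10C_of_hom (resMap A K) M L ?_
    rw [← resField_fieldG10C_eq (AK A K) hπ ℓ M L hM hℓ hIG]
    exact ⟨embK (AK A K) a, embK_mem _ a, haE, gaussRed_embK _ a⟩
  · rw [coeffMap_residue_incl]
    intro h
    apply hared
    exact CoeffDescent1.coeffMap_injective_of_injective (resMap A K) (resMap_injective A K)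
      (h.trans (map_zero _).symm)

/-- **(R-gen)** Principal divisors of `FK ℚ̄ M L` are generated by the divisors of integral functions
with nonzero reduction in `fieldG10C κ_A M L`, for `A` over a prime `ℓ ∤ M L`. -/
theorem principalGenByIntegral (ℓ : ℕ) [Fact ℓ.Prime] (hA : A.LiesOverPrime ℓ)
    (M L : ℕ) [NeZero M] [NeZero L] (hM : 2 ≤ M) (hℓ : ¬ ℓ ∣ M * L) (hIG : IG1 M L) :
    PrincipalGenByIntegral A (IsLocalRing.residue ↥A) (J1Defs8.FK Qbar M L)
      (fieldG10C (IsLocalRing.ResidueField ↥A) M L) := by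
  intro D hD
  obtain ⟨f, hf0, hDf⟩ := hD
  haveI := isAlgebraic_Qbar
  obtain ⟨K, -, hfin, x', hx', hx'f⟩ :=
    CoeffDescent1.exists_finite_descent (L := Qbar) (F₀ := fieldG10 M L) ⊥ f.2
  haveI := hfin
  haveI : IsDiscreteValuationRing ↥(AK A K) :=
    isDiscreteValuationRing_AK A K (Fact.out : ℓ.Prime).ne_zero hA
  obtain ⟨π, hπ⟩ := IsDiscreteValuationRing.exists_irreducible ↥(AK A K)
  have hu := isUnif_of_irreducible (AK A K) hπ
  have hx'C : x' ∈ fieldG10C ↥K M L := by
    rw [fieldG10C_eq_laurentBaseChange]; exact hx'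
  have hx'0 : x' ≠ 0 := by
    rintro rfl
    rw [map_zero] at hx'f
    exact hf0 (Subtype.ext hx'f.symm)
  obtain ⟨c, a, b, hc0, haE, hbE, hared, hbred, hrel⟩ :=
    exists_integral_fraction (AK A K) hu M L hx'C hx'0
  -- the two integral functions over `Qbar`
  have hmemQ : ∀ z : LaurentSeries ↥(AK A K), embK (AK A K) z ∈ fieldG10C ↥K M L →
      coeffMap A.subtype (coeffMap (incl A K) z) ∈ J1Defs8.FK Qbar M L := by
    intro z hz
    rw [coeffMap_subtype_incl]
    refine CoeffDescent1.coeffMap_mem_laurentBaseChange_of_algHom (algebraMap K Qbar)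
      (fieldG10 M L) ?_
    rw [← fieldG10C_eq_laurentBaseChange]; exact hz
  have hya := hmemQ a haE
  have hyb := hmemQ b hbE
  set ya : ↥(J1Defs8.FK Qbar M L) :=
    ⟨coeffMap A.subtype (coeffMap (incl A K) a), hya⟩ with hyadef
  set yb : ↥(J1Defs8.FK Qbar M L) :=
    ⟨coeffMap A.subtype (coeffMap (incl A K) b), hyb⟩ with hybdef
  have hne : ∀ z : LaurentSeries ↥(AK A K), redL (AK A K) z ≠ 0 →
      coeffMap A.subtype (coeffMap (incl A K) z) ≠ 0 := by
    intro z hz h0
    apply hz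
    rw [coeffMap_subtype_incl] at h0
    have h1 : embK (AK A K) z = 0 :=
      CoeffDescent1.coeffMap_injective_of_injective (algebraMap K Qbar)
        (algebraMap K Qbar).injective (h0.trans (map_zero _).symm)
    rw [(embK_eq_zero_iff (AK A K) z).mp h1, map_zero]
  have hya0 : ya ≠ 0 := fun h => hne a hared (congrArg Subtype.val h)
  have hyb0 : yb ≠ 0 := fun h => hne b hbred (congrArg Subtype.val h)
  -- the relation `f * yb = c * ya`
  have hrelQ : f * yb = algebraMap Qbar _ (algebraMap K Qbar c) * ya := by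
    apply Subtype.ext
    show (f : LaurentSeries Qbar) * coeffMap A.subtype (coeffMap (incl A K) b) =
      algebraMap Qbar (LaurentSeries Qbar) (algebraMap K Qbar c) *
        coeffMap A.subtype (coeffMap (incl A K) a)
    rw [coeffMap_subtype_incl, coeffMap_subtype_incl, ← hx'f, ← map_mul, hrel, map_mul,
      GaussGen8.coeffMap_C, algebraMap_eq_C (K := Qbar)]
  have hcQ : algebraMap K Qbar c ≠ 0 := by
    rw [Ne, map_eq_zero]; exact hc0
  -- divisors
  have hpd := G10Degree2.hasPrincipalDivisors_FK M L hM Qbar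
  obtain ⟨Da, hDa, -⟩ := hpd.exists_divisor ya hya0
  obtain ⟨Db, hDb, -⟩ := hpd.exists_divisor yb hyb0
  have hDeq : D = Da - Db := by
    ext P
    rw [Finsupp.sub_apply, hDf P, hDa P, hDb P]
    have h1 := congrArg P.ord hrelQ
    rw [P.ord_mul hf0 hyb0,
      P.ord_mul (by rw [Ne, map_eq_zero]; exact hcQ) hya0,
      Fermat.Agent.X0.FF.ord_algebraMap] at h1
    omega
  rw [hDeq]
  refine AddSubgroup.sub_mem _ (AddSubgroup.subset_closure ?_) (AddSubgroup.subset_closure ?_)
  · exact mem_integralPrincipal A K ℓ hA M L hM hℓ hIG a haE hared hya Da hDa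
  · exact mem_integralPrincipal A K ℓ hA M L hM hℓ hIG b hbE hbred hyb Db hDb

end Concrete

end Fermat.Agent.M48.GaussUnitG9
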