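/-
Programme M48 (target S48), pillar (P1), chapter [IG1] (Igusa irreducibility at full level by
decomposition groups) — helper6.  Leaf (L-IG1a): **the Galois / valuation plumbing**, Mathlib only.

`N` a field, `G` a finite group acting on `N`, `W` a valuation subring of `N` with maximal ideal
`𝔪 = W.nonunits`.  `core G W = ⋂_g g⁻¹ W` is the largest `G`-stable subring of `W`, `P = 𝔪 ∩ core`.

* `smul_mem_nonunits_iff` **(decomposition group = everything)**: let `u ∈ G` preserve `W`, let
  `H ≤ G` be such that `W` and all its conjugates `g W` have the same trace on the fixed field `N^H`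
  (in the application: the valuation `W ∩ N^G` has a UNIQUE extension to `N^H`), and assume the
  group-theoretic input "a subgroup `D ∋ u` with `D · H = G` is everything".  Then `P` is `G`-stable:
  `g x ∈ 𝔪 ↔ x ∈ 𝔪` for `x ∈ core`.
  (Proof: `H` is transitive on the primes of `core` above a prime of `core^H`
  [`Algebra.IsInvariant.exists_smul_of_under_eq`], so the stabiliser `D` of `P` satisfies
  `G = H · D`.)  No Dedekind domains, no approximation theorem.
* `exists_linearIndependent_of_injective` (Dedekind–Artin): pairwise distinct ring homomorphisms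
  `φ_i : R → k` (`i ∈ ι` finite) into a field have `y_j ∈ R` (`j ∈ ι`) with the vectors
  `(φ_i (y_j))_i` linearly independent.
* `exists_residually_independent` **(residue degree)**: if `P` is `G`-stable and `G` acts faithfully
  on the residues of `core`, then for every subgroup `H' ≤ G` there are `[G : H']` elements of
  `core ∩ N^{H'}` whose residues are linearly independent over (any field of) residues of
  `G`-invariant elements.
-/
import Mathlib

set_option autoImplicit false

open scoped Pointwise

namespace Fermat.Agent.M48.DecompGalois6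

/-! ### Dedekind–Artin -/

section Artin

variable {R : Type*} [CommRing R] {k : Type*} [Field k] {ι : Type*} [Fintype ι]

omit [Fintype ι] in
/-- Pairwise distinct ring homomorphisms into a field are linearly independent (Dedekind). -/
theorem linearIndependent_ringHom (φ : ι → R →+* k) (hφ : Function.Injective φ) :
    LinearIndependent k (fun i => (φ i : R → k)) := by
  have h := linearIndependent_monoidHom R k
  have hinj : Function.Injective (fun i => ((φ i : R →+* k) : R →* k)) := by
    intro i j hij
    apply hφ
    ext x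
    exact DFunLike.congr_fun hij x
  exact h.comp _ hinj

/-- **Dedekind–Artin, matrix form.**  For pairwise distinct ring homomorphisms `φ_i : R → k`,
`i ∈ ι`, there are `y_j ∈ R`, `j ∈ ι`, such that the vectors `(φ_i (y_j))_i ∈ k^ι` are linearly
independent. -/
theorem exists_linearIndependent_of_injective (φ : ι → R →+* k) (hφ : Function.Injective φ) :
    ∃ y : ι → R, LinearIndependent k (fun j => (fun i => φ i (y j) : ι → k)) := by
  classical
  set v : R → (ι → k) := fun y i => φ i y with hv
  -- the vectors `v y` span `k^ι`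
  have hspan : Submodule.span k (Set.range v) = ⊤ := by
    by_contra hne
    obtain ⟨f, hf0, hf⟩ := Submodule.exists_le_ker_of_lt_top _ (lt_top_iff_ne_top.mpr hne)
    apply hf0
    have hli := linearIndependent_ringHom φ hφ
    rw [Fintype.linearIndependent_iff] at hli
    have hc : ∀ i, f (fun j => if i = j then 1 else 0) = 0 := by
      apply hli
      funext y
      have hy : f (v y) = 0 := hf (Submodule.subset_span ⟨y, rfl⟩)
      rw [LinearMap.pi_apply_eq_sum_univ] at hy
      simp only [Finset.sum_apply, Pi.smul_apply, smul_eq_mul, Pi.zero_apply]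
      refine Eq.trans (Finset.sum_congr rfl fun i _ => ?_) hy
      rw [mul_comm, smul_eq_mul]
    refine LinearMap.ext fun w => ?_
    rw [LinearMap.pi_apply_eq_sum_univ]
    simp [hc]
  obtain ⟨b, hb_sub, hb_span, hb_li⟩ := exists_linearIndependent k (Set.range v)
  rw [hspan] at hb_span
  let B : Module.Basis b k (ι → k) := Module.Basis.mk hb_li (by rw [Subtype.range_coe, hb_span])
  have : Fintype b := FiniteDimensional.fintypeBasisIndex B
  have hcard : Fintype.card ι = Fintype.card b := by
    rw [← Module.finrank_eq_card_basis B, Module.finrank_fintype_fun_eq_card]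
  let e : ι ≃ b := Fintype.equivOfCardEq hcard
  have hy : ∀ j : ι, ∃ y : R, v y = (e j : ι → k) := fun j => hb_sub (e j).2
  choose y hy using hy
  refine ⟨y, ?_⟩
  have : (fun j => (fun i => φ i (y j) : ι → k)) = (Subtype.val : b → (ι → k)) ∘ e := by
    funext j
    exact hy j
  rw [this]
  exact hb_li.comp _ e.injective

end Artin

/-! ### The `G`-stable core of a valuation ring -/

section Core

variable {N : Type*} [Field N] (G : Type*) [Group G] [MulSemiringAction G N]
  (W : ValuationSubring N)

/-- The largest `G`-stable subring of `W`. -/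
def core : Subring N where
  carrier := {x | ∀ g : G, g • x ∈ W}
  mul_mem' := fun ha hb g => by rw [smul_mul']; exact W.mul_mem _ _ (ha g) (hb g)
  one_mem' := fun g => by rw [smul_one]; exact W.one_mem
  add_mem' := fun ha hb g => by rw [smul_add]; exact W.add_mem _ _ (ha g) (hb g)
  zero_mem' := fun g => by rw [smul_zero]; exact W.zero_mem
  neg_mem' := fun ha g => by rw [smul_neg]; exact W.neg_mem _ (ha g)

variable {G W}

theorem mem_core {x : N} : x ∈ core G W ↔ ∀ g : G, g • x ∈ W := Iff.rfl

theorem mem_of_mem_core {x : N} (hx : x ∈ core G W) : x ∈ W := by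
  have := hx 1
  rwa [one_smul] at this

theorem smul_mem_core (g : G) {x : N} (hx : x ∈ core G W) : g • x ∈ core G W := fun g' => by
  rw [← mul_smul]
  exact hx _

theorem mem_core_of_fixed {x : N} (hx : x ∈ W) (hfix : ∀ g : G, g • x = x) : x ∈ core G W :=
  fun g => by rw [hfix]; exact hx

instance : IsInvariantSubring G (core G W) := ⟨fun g _ hx => smul_mem_core g hx⟩

theorem coe_smul_core (g : G) (x : core G W) : ((g • x : core G W) : N) = g • (x : N) := rfl

variable (G W)

/-- The inclusion `core → W`. -/
def coreToW : core G W →+* W where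
  toFun x := ⟨x, mem_of_mem_core x.2⟩
  map_one' := rfl
  map_mul' _ _ := rfl
  map_zero' := rfl
  map_add' _ _ := rfl

/-- `P = 𝔪 ∩ core`, a prime ideal of the core. -/
def cen : Ideal (core G W) := (IsLocalRing.maximalIdeal W).comap (coreToW G W)

instance : (cen G W).IsPrime := Ideal.comap_isPrime _ _

variable {G W}

theorem mem_cen {x : core G W} : x ∈ cen G W ↔ (x : N) ∈ W.nonunits := by
  rw [cen, Ideal.mem_comap, ValuationSubring.valuation_lt_one_iff, ValuationSubring.mem_nonunits_iff]
  rfl

theorem mem_smul_cen {g : G} {x : core G W} : x ∈ g • cen G W ↔ g⁻¹ • (x : N) ∈ W.nonunits := by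
  rw [Ideal.mem_pointwise_smul_iff_inv_smul_mem, mem_cen, coe_smul_core]

/-- If `g` preserves `W` on an inverse-closed set, it preserves the non-units there. -/
theorem smul_mem_nonunits_iff_of_mem_iff {g : G} {x : N} (h2 : g • x⁻¹ ∈ W ↔ x⁻¹ ∈ W) :
    g • x ∈ W.nonunits ↔ x ∈ W.nonunits := by
  rw [ValuationSubring.mem_nonunits_iff_or, ValuationSubring.mem_nonunits_iff_or, ← smul_inv'', h2,
    smul_eq_zero_iff_eq]

end Core

/-! ### The decomposition group is everything -/

section Decomposition

variable {N : Type*} [Field N] {G : Type*} [Group G] [Finite G] [MulSemiringAction G N]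
  {W : ValuationSubring N}

/-- **(L-IG1a), main step.**  `u ∈ G` preserves `W`; for `x` fixed by `H`, `g x ∈ W ↔ x ∈ W` for all
`g` (unique extension of the valuation of `N^G` to `N^H`); every subgroup `D ∋ u` with `D · H = G`
is everything.  Then the prime `𝔪 ∩ core` of the core is `G`-stable. -/
theorem smul_mem_nonunits_iff (H : Subgroup G) (u : G)
    (hu : ∀ x : N, u • x ∈ W ↔ x ∈ W)
    (huniq : ∀ (g : G) (x : N), (∀ h ∈ H, h • x = x) → (g • x ∈ W ↔ x ∈ W))
    (hGT : ∀ D : Subgroup G, u ∈ D → (∀ g : G, ∃ d ∈ D, ∃ h ∈ H, g = d * h) → D = ⊤)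
    (g : G) {x : N} (hx : x ∈ core G W) : g • x ∈ W.nonunits ↔ x ∈ W.nonunits := by
  -- the stabiliser of `P`
  set D : Subgroup G := MulAction.stabilizer G (cen G W) with hD
  have hmemD : ∀ a : G, a ∈ D ↔ ∀ y : core G W, a⁻¹ • (y : N) ∈ W.nonunits ↔ (y : N) ∈ W.nonunits := by
    intro a
    rw [hD, MulAction.mem_stabilizer_iff]
    constructor
    · intro h y
      rw [← mem_smul_cen, h, mem_cen]
    · intro h
      ext y
      rw [mem_smul_cen, h, mem_cen]
  have huD : u ∈ D := by
    rw [hmemD]
    intro y
    have h1 := smul_mem_nonunits_iff_of_mem_iff (hu (u⁻¹ • (y : N))⁻¹)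
    rw [smul_inv_smul] at h1
    exact h1.symm
  have hDH : ∀ a : G, ∃ d ∈ D, ∃ h ∈ H, a = d * h := by
    intro a
    -- apply transitivity of `H` to the primes `P` and `a⁻¹ • P`
    have hunder : Ideal.under (FixedPoints.subring (core G W) H) (cen G W) =
        Ideal.under (FixedPoints.subring (core G W) H) (a⁻¹ • cen G W) := by
      ext y
      rw [Ideal.under_def, Ideal.under_def, Ideal.mem_comap, Ideal.mem_comap, mem_cen, mem_smul_cen,
        inv_inv]
      have hyfix : ∀ h ∈ H, h • (((y : core G W)) : N) = ((y : core G W) : N) := by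
        intro h hh
        have := y.2 ⟨h, hh⟩
        exact congrArg Subtype.val this
      have hyinv : ∀ h ∈ H, h • (((y : core G W)) : N)⁻¹ = ((y : core G W) : N)⁻¹ := by
        intro h hh
        rw [smul_inv'', hyfix h hh]
      exact (smul_mem_nonunits_iff_of_mem_iff (huniq a _ hyinv)).symm
    have : Algebra.IsInvariant (FixedPoints.subring (core G W) H) (core G W) H :=
      ⟨fun b hb => ⟨⟨b, hb⟩, rfl⟩⟩
    have hprime : (a⁻¹ • cen G W).IsPrime := Ideal.IsPrime.smul _
    obtain ⟨h, hh⟩ := Algebra.IsInvariant.exists_smul_of_under_eq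
      (FixedPoints.subring (core G W) H) (core G W) H (cen G W) (a⁻¹ • cen G W) hunder
    -- `a⁻¹ • P = h • P`, so `a * h ∈ D`
    refine ⟨a * h, ?_, (h : G)⁻¹, H.inv_mem h.2, by group⟩
    rw [hD, MulAction.mem_stabilizer_iff, mul_smul]
    have h' : ((h : G) • cen G W) = a⁻¹ • cen G W := hh.symm
    rw [h', smul_inv_smul]
  have htop := hGT D huD hDH
  have hg : g⁻¹ ∈ D := by rw [htop]; trivial
  have := (hmemD g⁻¹).mp hg ⟨x, hx⟩
  rwa [inv_inv] at this

end Decomposition

/-! ### Residue degrees -/

section Residue

variable {N : Type*} [Field N] {G : Type*} [Group G] [Finite G] [MulSemiringAction G N]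
  {W : ValuationSubring N} {k : Type*} [Field k]

/-- The reduction map on the core. -/
def redC (red : W →+* k) : core G W →+* k := red.comp (coreToW G W)

omit [Finite G] in
theorem redC_eq_zero_iff (red : W →+* k) (hker : ∀ x : W, red x = 0 ↔ (x : N) ∈ W.nonunits)
    (x : core G W) : redC red x = 0 ↔ (x : N) ∈ W.nonunits := by
  rw [redC, RingHom.comp_apply, hker]
  rfl

/-- `x ↦ red (a • x)`. -/
def psi (red : W →+* k) (a : G) : core G W →+* k :=
  (redC red).comp (MulSemiringAction.toRingHom G (core G W) a)

omit [Finite G] in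
theorem psi_apply (red : W →+* k) (a : G) (x : core G W) : psi red a x = redC red (a • x) := rfl

omit [Finite G] in
theorem psi_smul (red : W →+* k) (a b : G) (x : core G W) :
    psi red a (b • x) = psi red (a * b) x := by
  rw [psi_apply, psi_apply, mul_smul]

omit [Finite G] in
/-- Faithfulness on residues makes the `psi a` pairwise distinct. -/
theorem psi_injective (red : W →+* k) (hker : ∀ x : W, red x = 0 ↔ (x : N) ∈ W.nonunits)
    (hstab : ∀ (g : G) (x : N), x ∈ core G W → (g • x ∈ W.nonunits ↔ x ∈ W.nonunits))
    (hfaith : ∀ g : G, g ≠ 1 → ∃ x ∈ core G W, g • x - x ∉ W.nonunits) :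
    Function.Injective (psi (G := G) red) := by
  intro a b hab
  by_contra hne
  have hne' : b⁻¹ * a ≠ 1 := fun h => hne (by rw [inv_mul_eq_one] at h; exact h.symm)
  obtain ⟨x, hx, hxn⟩ := hfaith _ hne'
  apply hxn
  have h1 : psi red a ⟨x, hx⟩ = psi red b ⟨x, hx⟩ := by rw [hab]
  rw [psi_apply, psi_apply, ← sub_eq_zero, ← map_sub, redC_eq_zero_iff red hker] at h1
  have h2 := (hstab b⁻¹ _ (Subtype.mem _)).mpr h1
  have h3 : b⁻¹ • (((a • (⟨x, hx⟩ : core G W) - b • (⟨x, hx⟩ : core G W) : core G W)) : N) =
      (b⁻¹ * a) • x - x := by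
    show b⁻¹ • (a • x - b • x) = _
    rw [smul_sub, inv_smul_smul, mul_smul]
  rwa [h3] at h2

/-- **(L-IG1a), residue degree.**  Assume `𝔪 ∩ core` is `G`-stable and `G` acts faithfully on the
residues of the core.  Let `red : W → k` be a reduction map (kernel `𝔪`) and `κ₀ ⊆ k` a subfield
consisting of residues of `G`-invariant elements.  Then for every subgroup `H' ≤ G` there are
`[G : H']` elements of `core ∩ N^{H'}` whose residues are linearly independent over `κ₀`. -/
theorem exists_residually_independent (red : W →+* k)
    (hker : ∀ x : W, red x = 0 ↔ (x : N) ∈ W.nonunits)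
    (hstab : ∀ (g : G) (x : N), x ∈ core G W → (g • x ∈ W.nonunits ↔ x ∈ W.nonunits))
    (hfaith : ∀ g : G, g ≠ 1 → ∃ x ∈ core G W, g • x - x ∉ W.nonunits)
    (κ₀ : Subfield k)
    (hκ₀ : ∀ c ∈ κ₀, ∃ a : W, (∀ g : G, g • (a : N) = a) ∧ red a = c)
    (H' : Subgroup G) :
    ∃ y : G ⧸ H' → W, (∀ c, ((y c : W) : N) ∈ core G W) ∧
      (∀ c, ∀ h ∈ H', h • ((y c : W) : N) = y c) ∧
      LinearIndependent κ₀ (fun c => red (y c)) := by
  classical
  have : Fintype G := Fintype.ofFinite G
  have : Fintype (G ⧸ H') := Fintype.ofFinite _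
  -- the ring homomorphisms `φ c` on the `H'`-invariants of the core
  let φ : G ⧸ H' → FixedPoints.subring (core G W) H' →+* k := fun c =>
    (psi red (Quotient.out c)).comp (Subring.subtype _)
  -- the trace
  have htr_mem : ∀ x : core G W, (∑ h : H', h • x) ∈ FixedPoints.subring (core G W) H' := by
    intro x h'
    rw [Finset.smul_sum]
    refine Fintype.sum_equiv (Equiv.mulLeft h') _ _ fun h => ?_
    rw [Equiv.coe_mulLeft, mul_smul]
  have hφtr : ∀ (c : G ⧸ H') (x : core G W),
      φ c ⟨∑ h : H', h • x, htr_mem x⟩ = ∑ h : H', psi red (Quotient.out c * (h : G)) x := by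
    intro c x
    show psi red (Quotient.out c) (∑ h : H', h • x) = _
    rw [map_sum]
    refine Finset.sum_congr rfl fun h _ => ?_
    exact psi_smul red _ _ x
  have hψ := linearIndependent_ringHom (psi (G := G) red) (psi_injective red hker hstab hfaith)
  have hφ : Function.Injective φ := by
    intro c c' hcc
    by_contra hne
    set g := Quotient.out c with hg
    set g' := Quotient.out c' with hg'
    have hgg' : ∀ h : H', g' * (h : G) ≠ g := by
      intro h hh
      apply hne
      rw [← QuotientGroup.out_eq' c, ← QuotientGroup.out_eq' c', QuotientGroup.eq]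
      show g⁻¹ * g' ∈ H'
      rw [← hh, mul_inv_rev, inv_mul_cancel_right]
      exact H'.inv_mem h.2
    -- the two finitely supported coefficient vectors
    let l₁ : G →₀ k := ∑ h : H', Finsupp.single (g * (h : G)) 1
    let l₂ : G →₀ k := ∑ h : H', Finsupp.single (g' * (h : G)) 1
    have hl : ∀ (a : G) (l : G →₀ k), l = ∑ h : H', Finsupp.single (a * (h : G)) 1 →
        Finsupp.linearCombination k (fun a => (psi red a : core G W → k)) l =
          ∑ h : H', (psi red (a * (h : G)) : core G W → k) := by
      intro a l hl
      rw [hl, map_sum]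
      refine Finset.sum_congr rfl fun h _ => ?_
      rw [Finsupp.linearCombination_single, one_smul]
    have heq : Finsupp.linearCombination k (fun a => (psi red a : core G W → k)) l₁ =
        Finsupp.linearCombination k (fun a => (psi red a : core G W → k)) l₂ := by
      rw [hl g l₁ rfl, hl g' l₂ rfl]
      funext x
      rw [Finset.sum_apply, Finset.sum_apply, ← hφtr c x, ← hφtr c' x, hcc]
    have h12 : l₁ = l₂ := hψ heq
    have h1 : l₁ g = 1 := by
      show (∑ h : H', Finsupp.single (g * (h : G)) (1 : k)) g = 1
      rw [Finsupp.finsetSum_apply, Finset.sum_eq_single (1 : H')]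
      · simp
      · intro h _ hh
        rw [Finsupp.single_apply, if_neg]
        intro h'
        apply hh
        have : (h : G) = 1 := by simpa using h'
        exact Subtype.ext this
      · intro h
        exact absurd (Finset.mem_univ _) h
    have h2 : l₂ g = 0 := by
      show (∑ h : H', Finsupp.single (g' * (h : G)) (1 : k)) g = 0
      rw [Finsupp.finsetSum_apply]
      refine Finset.sum_eq_zero fun h _ => ?_
      rw [Finsupp.single_apply, if_neg (hgg' h)]
    rw [h12, h2] at h1
    exact zero_ne_one h1
  obtain ⟨y, hy⟩ := exists_linearIndependent_of_injective φ hφ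
  refine ⟨fun c => coreToW G W (y c : core G W), fun c => (y c : core G W).2, ?_, ?_⟩
  · intro c h hh
    have := (y c).2 ⟨h, hh⟩
    exact congrArg Subtype.val this
  · rw [Fintype.linearIndependent_iff]
    intro cf hcf c₀
    -- lift the coefficients
    have hlift : ∀ c, ∃ a : W, (∀ g : G, g • (a : N) = a) ∧ red a = (cf c : k) :=
      fun c => hκ₀ _ (cf c).2
    choose a hafix hared using hlift
    have hacore : ∀ c, ((a c : W) : N) ∈ core G W := fun c =>
      mem_core_of_fixed (a c).2 (hafix c)
    let z : core G W := ∑ c, (⟨_, hacore c⟩ : core G W) * (y c : core G W)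
    have hz : redC red z = 0 := by
      rw [map_sum]
      rw [← hcf]
      refine Finset.sum_congr rfl fun c _ => ?_
      rw [map_mul, Subfield.smul_def, smul_eq_mul]
      congr 1
      exact hared c
    have hz' : ∀ g : G, redC red (g • z) = 0 := by
      intro g
      rw [redC_eq_zero_iff red hker] at hz ⊢
      rw [coe_smul_core]
      exact (hstab g _ z.2).mpr hz
    rw [Fintype.linearIndependent_iff] at hy
    have hvec : ∑ c, (cf c : k) • (fun c' => φ c' (y c) : G ⧸ H' → k) = 0 := by
      funext c'
      rw [Finset.sum_apply, Pi.zero_apply, ← hz' (Quotient.out c')]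
      rw [Finset.smul_sum, map_sum]
      refine Finset.sum_congr rfl fun c _ => ?_
      rw [Pi.smul_apply, smul_eq_mul, smul_mul', map_mul]
      congr 1
      have : (Quotient.out c') • (⟨_, hacore c⟩ : core G W) = ⟨_, hacore c⟩ :=
        Subtype.ext (hafix c _)
      rw [this]
      exact (hared c).symm
    have := hy (fun c => (cf c : k)) hvec c₀
    exact Subtype.ext this

end Residue

end Fermat.Agent.M48.DecompGalois6
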