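/-
Programme M48 (target S48), pillar (P1), chapter [IG1] — lead.  **Residue degrees through a subring
of generators** (variant of `DecompGalois6.exists_residually_independent`), Mathlib + `DecompGalois6`.

`N` a field, `G` a finite group acting on `N`, `W` a valuation subring of `N`, `core G W` the largest
`G`-stable subring of `W`, `red : W → k` a reduction map with kernel `𝔪 = W.nonunits`.  Assume that
`𝔪 ∩ core` is `G`-stable (`hstab`, the output of `DecompGalois6.smul_mem_nonunits_iff`).  Let `H' ≤ G`
and let `R ≤ core G W` be ANY subring which separates the cosets of `H'` residually (no invariance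
of the elements of `R` under `H'` is needed):

  (sep)  for every `g ∉ H'` there is `s ∈ R` with `g • s - s ∉ 𝔪`.

Then there are `[G : H']` elements of `R` whose residues are linearly independent over (any field
of) residues of `G`-invariant elements (`exists_residually_independent_subring`).

In the application `R = O[generators of the model]`, so that the residues lie in the field generated
by the REDUCED generators by construction: this gives the lower bound for the degree of that field
(the literal form `PurGauss1.IG1`) without any statement on the inertia group of `G`.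
-/
import Mathlib
import Fermat.Agent.M48.DecompGalois6

set_option autoImplicit false

open scoped Pointwise

namespace Fermat.Agent.M48.DecompRes0

open Fermat.Agent.M48.DecompGalois6

section Residue

variable {N : Type*} [Field N] {G : Type*} [Group G] [Finite G] [MulSemiringAction G N]
  {W : ValuationSubring N} {k : Type*} [Field k]

/-- `x ↦ red (a • x)` on a subring of the core. -/
def phiR (red : W →+* k) (R : Subring N) (hR : ∀ x ∈ R, x ∈ core G W) (a : G) : R →+* k :=
  (psi red a).comp (Subring.inclusion (fun x hx => hR x hx : R ≤ core G W))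

omit [Finite G] in
theorem phiR_apply (red : W →+* k) (R : Subring N) (hR : ∀ x ∈ R, x ∈ core G W) (a : G) (x : R) :
    phiR red R hR a x = redC red (a • (⟨x, hR x x.2⟩ : core G W)) := rfl

omit [Finite G] in
/-- Residual separation makes the `phiR (out c)` pairwise distinct. -/
theorem phiR_out_injective (red : W →+* k)
    (hker : ∀ x : W, red x = 0 ↔ (x : N) ∈ W.nonunits)
    (hstab : ∀ (g : G) (x : N), x ∈ core G W → (g • x ∈ W.nonunits ↔ x ∈ W.nonunits))
    (H' : Subgroup G) (R : Subring N) (hR : ∀ x ∈ R, x ∈ core G W)
    (hsep : ∀ g : G, g ∉ H' → ∃ s ∈ R, g • s - s ∉ W.nonunits) :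
    Function.Injective (fun c : G ⧸ H' => phiR red R hR (Quotient.out c)) := by
  intro c c' hcc
  by_contra hne
  set g := Quotient.out c with hg
  set g' := Quotient.out c' with hg'
  have hnot : g⁻¹ * g' ∉ H' := by
    intro hmem
    apply hne
    rw [← QuotientGroup.out_eq' c, ← QuotientGroup.out_eq' c', QuotientGroup.eq]
    exact hmem
  obtain ⟨s, hs, hsn⟩ := hsep _ hnot
  apply hsn
  have h1 : phiR red R hR g ⟨s, hs⟩ = phiR red R hR g' ⟨s, hs⟩ := by
    have := congrArg (fun f : R →+* k => f ⟨s, hs⟩) hcc
    exact this
  rw [phiR_apply, phiR_apply, ← sub_eq_zero, ← map_sub, redC_eq_zero_iff red hker] at h1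
  have hcore : (g⁻¹ * g') • s - s ∈ core G W :=
    (core G W).sub_mem (smul_mem_core _ (hR s hs)) (hR s hs)
  have h2 : g • ((g⁻¹ * g') • s - s) ∈ W.nonunits := by
    have e : g • ((g⁻¹ * g') • s - s) = -(g • s - g' • s) := by
      rw [smul_sub, ← mul_smul, mul_inv_cancel_left]
      ring
    rw [e]
    have h3 : (g • s - g' • s : N) ∈ W.nonunits := h1
    rw [ValuationSubring.mem_nonunits_iff] at h3 ⊢
    rwa [Valuation.map_neg]
  exact (hstab g _ hcore).mp h2

/-- **Residue degree through a subring of generators.**  Assume `𝔪 ∩ core` is `G`-stable; let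
`R ≤ core G W` be a subring separating the cosets of `H'` residually.
Then there are `[G : H']` elements of `R` whose residues are linearly independent over every
subfield `κ₀ ⊆ k` consisting of residues of `G`-invariant elements. -/
theorem exists_residually_independent_subring (red : W →+* k)
    (hker : ∀ x : W, red x = 0 ↔ (x : N) ∈ W.nonunits)
    (hstab : ∀ (g : G) (x : N), x ∈ core G W → (g • x ∈ W.nonunits ↔ x ∈ W.nonunits))
    (κ₀ : Subfield k)
    (hκ₀ : ∀ c ∈ κ₀, ∃ a : W, (∀ g : G, g • (a : N) = a) ∧ red a = c)
    (H' : Subgroup G) (R : Subring N) (hR : ∀ x ∈ R, x ∈ core G W)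
    (hsep : ∀ g : G, g ∉ H' → ∃ s ∈ R, g • s - s ∉ W.nonunits) :
    ∃ y : G ⧸ H' → W, (∀ c, ((y c : W) : N) ∈ R) ∧
      LinearIndependent κ₀ (fun c => red (y c)) := by
  classical
  have : Fintype G := Fintype.ofFinite G
  have : Fintype (G ⧸ H') := Fintype.ofFinite _
  let φ : G ⧸ H' → R →+* k := fun c => phiR red R hR (Quotient.out c)
  have hφ : Function.Injective φ := phiR_out_injective red hker hstab H' R hR hsep
  obtain ⟨y, hy⟩ := exists_linearIndependent_of_injective φ hφ
  refine ⟨fun c => ⟨(y c : N), mem_of_mem_core (hR _ (y c).2)⟩, fun c => (y c).2, ?_⟩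
  rw [Fintype.linearIndependent_iff]
  intro cf hcf c₀
  -- lift the coefficients
  have hlift : ∀ c, ∃ a : W, (∀ g : G, g • (a : N) = a) ∧ red a = (cf c : k) :=
    fun c => hκ₀ _ (cf c).2
  choose a hafix hared using hlift
  have hacore : ∀ c, ((a c : W) : N) ∈ core G W := fun c =>
    mem_core_of_fixed (a c).2 (hafix c)
  let yc : G ⧸ H' → core G W := fun c => ⟨(y c : N), hR _ (y c).2⟩
  let z : core G W := ∑ c, (⟨_, hacore c⟩ : core G W) * yc c
  have hz : redC red z = 0 := by
    rw [map_sum, ← hcf]
    refine Finset.sum_congr rfl fun c _ => ?_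
    rw [map_mul, Subfield.smul_def, smul_eq_mul]
    congr 1
    exact hared c
  have hz' : ∀ g : G, redC red (g • z) = 0 := by
    intro g
    rw [redC_eq_zero_iff red hker] at hz ⊢
    rw [coe_smul_core]
    exact (hstab g _ z.2).mpr hz
  rw [Fintype.linearIndependent_iff] at hy
  have hvec : ∑ c, (cf c : k) • (fun c' => φ c' (y c) : G ⧸ H' → k) = 0 := by
    funext c'
    rw [Finset.sum_apply, Pi.zero_apply, ← hz' (Quotient.out c')]
    rw [Finset.smul_sum, map_sum]
    refine Finset.sum_congr rfl fun c _ => ?_
    rw [Pi.smul_apply, smul_eq_mul, smul_mul', map_mul]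
    congr 1
    have : (Quotient.out c') • (⟨_, hacore c⟩ : core G W) = ⟨_, hacore c⟩ :=
      Subtype.ext (hafix c _)
    rw [this]
    exact (hared c).symm
  have := hy (fun c => (cf c : k)) hvec c₀
  exact Subtype.ext this

end Residue

end Fermat.Agent.M48.DecompRes0
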