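/-
Programme M48 (target S48), pillar (P1), chapter [IG1] — lead.  **The abstract end assembly of [IG1],
group level.**

`K` a field, `O` a DVR of `K` with residue field `κ`, `N ⊂ Frac O((Q))` a field (`Q = q^{1/M}`), `G` a
finite group acting on `N` by `K`-automorphisms fixing `J = j(Q^M)`, `W = gaussRing ∩ N`.  Inputs:

* `u ∈ G` preserving `W`, a subgroup `H ≤ G` such that every `g ∈ G` preserves `W` on the `H`-fixed
  elements (`huniq`: ONE extension of the Gauss valuation to `N^H`; `FullUniq0.gauss_iff_of_fix`), and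
  the group-theoretic input `hGT` (`SL2Gen6`);
* a set `S` of INTEGRAL series (the generators of the model, in the variable `q`), with
  `s(Q^M) ∈ N` and all `G`-translates of `s(Q^M)` in the Gauss ring;
* a subgroup `H' ≤ G` such that every `g ∉ H'` moves the RESIDUE of some `s(Q^M)`, `s ∈ S`.

Output (`card_le_relfinrank`): `[G : H'] ≤ [κ(s̃ : s ∈ S) : κ(j̃)]` — the degree of the field generated
by the REDUCED generators, i.e. the literal form of `PurGauss1.IG1` at `κ = Res O`.

Proof: `DecompGalois6.smul_mem_nonunits_iff` (the centre of `W` on the core is `G`-stable) +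
`DecompRes0.exists_residually_independent_subring` with `R = ℤ[O, s(Q^M) : s ∈ S]`; the residues of
the elements of `R` are of the form `z(Q^M)`, `z ∈ κ(s̃ : s ∈ S)`.

Imported by no statement.
-/
import Mathlib
import Fermat.Agent.M48.DecompRes0
import Fermat.Agent.ES.N34.IsoM25

set_option autoImplicit false
set_option linter.unusedSectionVars false
set_option synthInstance.maxHeartbeats 400000
set_option maxHeartbeats 1000000

noncomputable section

open HahnSeries ModularCurve IntermediateField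

namespace Fermat.Agent.M48.IG1Asm0

open Fermat.Agent.RED.PUR.GaussGen8 Fermat.Agent.RED.PUR.KtGauss8 Fermat.Agent.RED.PUR.G1Package8
  Fermat.Agent.RED.PUR.GaussBridge10
open Fermat.Agent.ES.N34.GaussEmb22 Fermat.Agent.ES.N34.IsoM25 Fermat.Agent.ES.N34.GaussVTwoFam25
open Fermat.Agent.M48.DecompGalois6 Fermat.Agent.M48.DecompRes0

/-! ### Elements of `K(S)` are fixed by an automorphism fixing `K` and `S` -/

section Fixed

variable {K N : Type*} [Field K] [Field N] [Algebra K N] {G : Type*} [Group G]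
  [MulSemiringAction G N]

theorem smul_eq_of_mem_adjoin (hGK : ∀ (g : G) (c : K), g • algebraMap K N c = algebraMap K N c)
    (g : G) (S : Set N) (hS : ∀ s ∈ S, g • s = s) {x : N} (hx : x ∈ adjoin K S) : g • x = x := by
  induction hx using IntermediateField.adjoin_induction with
  | mem x hx => exact hS x hx
  | algebraMap c => exact hGK g c
  | add x y _ _ hx hy => rw [smul_add, hx, hy]
  | inv x _ hx => rw [smul_inv'', hx]
  | mul x y _ _ hx hy => rw [smul_mul', hx, hy]

end Fixed

/-! ### Linear independence and `V_M` -/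

section LI

variable {k : Type*} [Field k] (q : ℕ) [NeZero q]

/-- If the `z c(Q^q)` are independent over `L(Q^q)` then the `z c` are independent over `L`. -/
theorem linearIndependent_of_qExpand (L : IntermediateField k (LaurentSeries k)) {ι : Type*}
    [Fintype ι] (z : ι → LaurentSeries k)
    (h : LinearIndependent ↥(L.map (qExpandAlgHomC k q)) (fun i => qExpand k q (z i))) :
    LinearIndependent ↥L z := by
  classical
  rw [Fintype.linearIndependent_iff] at h ⊢
  intro a ha i
  let a' : ι → ↥(L.map (qExpandAlgHomC k q)) := fun i =>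
    ⟨qExpand k q (a i : LaurentSeries k), (IntermediateField.mem_map _).mpr ⟨_, (a i).2, rfl⟩⟩
  have h1 : ∑ i, a' i • qExpand k q (z i) = 0 := by
    have h2 : qExpand k q (∑ i, (a i : LaurentSeries k) * z i) = 0 := by
      have : ∑ i, (a i : LaurentSeries k) * z i = 0 := ha
      rw [this, map_zero]
    rw [map_sum] at h2
    rw [← h2]
    refine Finset.sum_congr rfl fun i _ => ?_
    rw [map_mul]
    rfl
  have h3 := h a' h1 i
  have h4 : qExpand k q (a i : LaurentSeries k) = 0 := congrArg Subtype.val h3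
  have h5 : (a i : LaurentSeries k) = 0 := qExpand_injective q (by rw [h4, map_zero])
  exact Subtype.ext h5

end LI

/-! ### The assembly -/

section Asm

variable {K : Type} [Field K] (O : ValuationSubring K) [IsDiscreteValuationRing ↥O] {π : ↥O}

/-- `j(Q^M)` as an element of the Gauss ring. -/
def JG (M : ℕ) [NeZero M] : ↥(gaussRing O) :=
  ⟨qExpand K M (jqModC K), jqd_mem_gaussRing O M⟩

theorem kt_JG (M : ℕ) [NeZero M] :
    kt O (JG O M) = ((Res O)⟮jqModC (Res O)⟯).map (qExpandAlgHomC (Res O) M) := by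
  rw [map_adjoin_simple]
  show (Res O)⟮gaussRed O (JG O M)⟯ = _
  rw [JG, gaussRed_jqd]

variable (hπ : Irreducible π) (M : ℕ) [NeZero M]
  (N : IntermediateField K (LaurentSeries K)) (hN : N ≤ fracField O)
  {G : Type*} [Group G] [Finite G] [MulSemiringAction G ↥N]

/-- The set of generators of the subring `R`: constants of `O` and the `s(Q^M)`, `s ∈ S`. -/
def genT (S : Set (LaurentSeries ↥O)) : Set ↥N :=
  {x | (∃ c : ↥O, (x : LaurentSeries K) = HahnSeries.C (c : K)) ∨
    ∃ s ∈ S, (x : LaurentSeries K) = qExpand K M (embK O s)}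

include hπ hN in
/-- **[IG1], abstract end assembly (group level).** -/
theorem card_le_relfinrank
    (hGK : ∀ (g : G) (c : K), g • algebraMap K ↥N c = algebraMap K ↥N c)
    (hJN : qExpand K M (jqModC K) ∈ N)
    (hGJ : ∀ g : G, g • (⟨_, hJN⟩ : ↥N) = ⟨_, hJN⟩)
    (u : G)
    (hu : ∀ x : ↥N, ((u • x : ↥N) : LaurentSeries K) ∈ gaussRing O ↔
      (x : LaurentSeries K) ∈ gaussRing O)
    (H : Subgroup G)
    (huniq : ∀ (g : G) (x : ↥N), (∀ h ∈ H, h • x = x) →
      (((g • x : ↥N) : LaurentSeries K) ∈ gaussRing O ↔ (x : LaurentSeries K) ∈ gaussRing O))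
    (hGT : ∀ D : Subgroup G, u ∈ D → (∀ g : G, ∃ d ∈ D, ∃ h ∈ H, g = d * h) → D = ⊤)
    (S : Set (LaurentSeries ↥O)) (hSN : ∀ s ∈ S, qExpand K M (embK O s) ∈ N)
    (hScore : ∀ (s : LaurentSeries ↥O) (hs : s ∈ S) (g : G),
      ((g • (⟨_, hSN s hs⟩ : ↥N) : ↥N) : LaurentSeries K) ∈ gaussRing O)
    (H' : Subgroup G)
    (hsep : ∀ g : G, g ∉ H' → ∃ (s : LaurentSeries ↥O) (hs : s ∈ S),
      ∀ h : ((g • (⟨_, hSN s hs⟩ : ↥N) : ↥N) : LaurentSeries K) ∈ gaussRing O,
        gaussRed O ⟨_, h⟩ ≠ qExpand (Res O) M (redL O s))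
    (hj : jqModC (Res O) ∈ adjoin (Res O) (redL O '' S))
    (hfin : relfinrank (Res O)⟮jqModC (Res O)⟯ (adjoin (Res O) (redL O '' S)) ≠ 0) :
    Nat.card (G ⧸ H') ≤
      relfinrank (Res O)⟮jqModC (Res O)⟯ (adjoin (Res O) (redL O '' S)) := by
  classical
  have hπu := isUnif_of_irreducible O hπ
  set W : ValuationSubring ↥N := gaussVS hπu N hN with hW
  have hV : IsGaussPullback O N.val W := fun x => mem_gaussVS_iff hπu N hN x
  have hmemW : ∀ x : ↥N, x ∈ W ↔ (x : LaurentSeries K) ∈ gaussRing O := fun x => hV x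
  -- the centre is `G`-stable on the core
  have hstab : ∀ (g : G) (x : ↥N), x ∈ core G W → (g • x ∈ W.nonunits ↔ x ∈ W.nonunits) := by
    intro g x hx
    refine smul_mem_nonunits_iff H u (fun x => ?_) (fun g x hx => ?_) hGT g hx
    · rw [hmemW, hmemW]; exact hu x
    · rw [hmemW, hmemW]; exact huniq g x hx
  -- the reduction map
  let red : W →+* LaurentSeries (Res O) := redOf hV
  have hker : ∀ x : W, red x = 0 ↔ (x : ↥N) ∈ W.nonunits := fun x => by
    rw [ValuationSubring.mem_nonunits_iff]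
    exact redOf_eq_zero_iff hV x
  have hred : ∀ (x : ↥N) (hx : x ∈ W) (hx' : (x : LaurentSeries K) ∈ gaussRing O),
      red ⟨x, hx⟩ = gaussRed O ⟨(x : LaurentSeries K), hx'⟩ := fun x hx hx' => rfl
  -- the field of residues of invariants
  have htr : Transcendental (Res O) (gaussRed O (JG O M)) := transcendental_gaussRed_jqd O M
  let κ₀ : Subfield (LaurentSeries (Res O)) := (kt O (JG O M)).toSubfield
  have hκ₀ : ∀ c ∈ κ₀, ∃ a : W, (∀ g : G, g • (a : ↥N) = a) ∧ red a = c := by
    intro c hc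
    obtain ⟨c', hc'K, hc'g, hc'red⟩ := exists_gaussRed_eq (O := O) (tG := JG O M) htr (y := c) hc
    have hmap : c' ∈ (adjoin K ({⟨_, hJN⟩} : Set ↥N)).map N.val := by
      rw [IntermediateField.adjoin_map, Set.image_singleton]
      exact hc'K
    obtain ⟨a, ha, rfl⟩ := (IntermediateField.mem_map _).mp hmap
    refine ⟨⟨a, (hmemW a).mpr hc'g⟩, fun g => ?_, ?_⟩
    · refine smul_eq_of_mem_adjoin hGK g _ (fun s hs => ?_) ha
      rw [Set.mem_singleton_iff.mp hs]
      exact hGJ g
    · rw [hred a _ hc'g]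
      exact hc'red
  -- the subring of generators
  let R : Subring ↥N := Subring.closure (genT O M N S)
  have hT : ∀ x ∈ genT O M N S, x ∈ core G W := by
    rintro x (⟨c, hc⟩ | ⟨s, hs, hx⟩) g
    · have hxc : x = algebraMap K ↥N (c : K) := Subtype.ext (by
        rw [hc]; exact (algebraMap_eq_C (c : K)).symm)
      rw [hxc, hGK, hmemW]
      show algebraMap K (LaurentSeries K) (c : K) ∈ gaussRing O
      rw [algebraMap_eq_C]
      exact C_mem O c
    · have hxs : x = ⟨_, hSN s hs⟩ := Subtype.ext hx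
      rw [hxs, hmemW]
      exact hScore s hs g
  have hR : ∀ x ∈ R, x ∈ core G W := by
    intro x hx
    exact (Subring.closure_le (t := core G W)).mpr (fun y hy => hT y hy) hx
  -- the residues of `R`
  let Et : IntermediateField (Res O) (LaurentSeries (Res O)) :=
    (adjoin (Res O) (redL O '' S)).map (qExpandAlgHomC (Res O) M)
  have hresT : ∀ x ∈ genT O M N S, ∃ hx : x ∈ W, red ⟨x, hx⟩ ∈ Et := by
    rintro x (⟨c, hc⟩ | ⟨s, hs, hx⟩)
    · have hxg : (x : LaurentSeries K) ∈ gaussRing O := by rw [hc]; exact C_mem O c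
      refine ⟨(hmemW x).mpr hxg, ?_⟩
      rw [hred x _ hxg]
      have e : (⟨(x : LaurentSeries K), hxg⟩ : ↥(gaussRing O)) = constG O c := Subtype.ext hc
      rw [e, gaussRed_constG, ← algebraMap_eq_C]
      exact IntermediateField.algebraMap_mem _ _
    · have hxg : (x : LaurentSeries K) ∈ gaussRing O := by
        rw [hx, ← embK_qExpand]; exact embK_mem O _
      refine ⟨(hmemW x).mpr hxg, ?_⟩
      rw [hred x _ hxg]
      have e : (⟨(x : LaurentSeries K), hxg⟩ : ↥(gaussRing O)) =
          ⟨embK O (qExpand ↥O M s), embK_mem O _⟩ := Subtype.ext (by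
        show (x : LaurentSeries K) = embK O (qExpand ↥O M s)
        rw [hx, embK_qExpand])
      rw [e, gaussRed_embK, redL_qExpand]
      exact (IntermediateField.mem_map _).mpr
        ⟨_, IntermediateField.subset_adjoin _ _ ⟨s, hs, rfl⟩, rfl⟩
  have hresR : ∀ x ∈ R, ∃ hx : x ∈ W, red ⟨x, hx⟩ ∈ Et := by
    intro x hx
    induction hx using Subring.closure_induction with
    | mem x hx => exact hresT x hx
    | zero => exact ⟨W.zero_mem, by
        have : (⟨0, W.zero_mem⟩ : W) = 0 := rfl
        rw [this, map_zero]; exact zero_mem _⟩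
    | one => exact ⟨W.one_mem, by
        have : (⟨1, W.one_mem⟩ : W) = 1 := rfl
        rw [this, map_one]; exact one_mem _⟩
    | add x y _ _ hx hy =>
        obtain ⟨hx1, hx2⟩ := hx
        obtain ⟨hy1, hy2⟩ := hy
        refine ⟨W.add_mem _ _ hx1 hy1, ?_⟩
        have : (⟨x + y, W.add_mem _ _ hx1 hy1⟩ : W) = ⟨x, hx1⟩ + ⟨y, hy1⟩ := rfl
        rw [this, map_add]; exact add_mem hx2 hy2
    | neg x _ hx =>
        obtain ⟨hx1, hx2⟩ := hx
        refine ⟨W.neg_mem _ hx1, ?_⟩
        have : (⟨-x, W.neg_mem _ hx1⟩ : W) = -⟨x, hx1⟩ := rfl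
        rw [this, map_neg]; exact neg_mem hx2
    | mul x y _ _ hx hy =>
        obtain ⟨hx1, hx2⟩ := hx
        obtain ⟨hy1, hy2⟩ := hy
        refine ⟨W.mul_mem _ _ hx1 hy1, ?_⟩
        have : (⟨x * y, W.mul_mem _ _ hx1 hy1⟩ : W) = ⟨x, hx1⟩ * ⟨y, hy1⟩ := rfl
        rw [this, map_mul]; exact mul_mem hx2 hy2
  -- separation
  have hsep' : ∀ g : G, g ∉ H' → ∃ s ∈ R, g • s - s ∉ W.nonunits := by
    intro g hg
    obtain ⟨s, hs, hne⟩ := hsep g hg
    have hsT : (⟨_, hSN s hs⟩ : ↥N) ∈ genT O M N S := Or.inr ⟨s, hs, rfl⟩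
    refine ⟨⟨_, hSN s hs⟩, Subring.subset_closure hsT, ?_⟩
    have hc := hT _ hsT
    have h1 : g • (⟨_, hSN s hs⟩ : ↥N) ∈ W := hc g
    have h2 : (⟨_, hSN s hs⟩ : ↥N) ∈ W := mem_of_mem_core hc
    intro hmem
    have h3 : red (⟨_, h1⟩ - ⟨_, h2⟩ : W) = 0 := (hker _).mpr hmem
    rw [map_sub, sub_eq_zero, hred _ h1 ((hmemW _).mp h1)] at h3
    apply hne ((hmemW _).mp h1)
    rw [h3]
    have hxg : qExpand K M (embK O s) ∈ gaussRing O := by
      rw [← embK_qExpand]; exact embK_mem O _
    rw [hred _ h2 hxg]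
    have e : (⟨qExpand K M (embK O s), hxg⟩ : ↥(gaussRing O)) =
        ⟨embK O (qExpand ↥O M s), embK_mem O _⟩ := Subtype.ext (by
      show qExpand K M (embK O s) = embK O (qExpand ↥O M s)
      rw [embK_qExpand])
    rw [e, gaussRed_embK, redL_qExpand]
  -- residually independent elements of `R`
  obtain ⟨y, hyR, hli⟩ := exists_residually_independent_subring red hker hstab κ₀ hκ₀ H' R hR hsep'
  have : Fintype (G ⧸ H') := Fintype.ofFinite _
  -- pull back along `V_M`
  have hz : ∀ c, ∃ z ∈ adjoin (Res O) (redL O '' S), qExpand (Res O) M z = red (y c) := by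
    intro c
    obtain ⟨hx, hmem⟩ := hresR _ (hyR c)
    obtain ⟨z, hz, hzq⟩ := (IntermediateField.mem_map _).mp hmem
    exact ⟨z, hz, hzq⟩
  choose z hzE hzq using hz
  have hli' : LinearIndependent ↥((Res O)⟮jqModC (Res O)⟯) z := by
    apply linearIndependent_of_qExpand M
    rw [← kt_JG]
    have : (fun i => qExpand (Res O) M (z i)) = fun c => red (y c) := funext hzq
    rw [this]
    exact hli
  -- count
  let e := Fintype.equivFin (G ⧸ H')
  have hle : (Res O)⟮jqModC (Res O)⟯ ≤ adjoin (Res O) (redL O '' S) := by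
    rw [adjoin_simple_le_iff]; exact hj
  have hcount := Fermat.Agent.IG.PR.FamilyForm20.le_relfinrank_of_family hle
    (Fintype.card (G ⧸ H')) hfin (fun i => z (e.symm i)) (fun i => hzE _)
    (hli'.comp _ e.symm.injective)
  rw [Nat.card_eq_fintype_card]
  exact hcount

end Asm

end Fermat.Agent.M48.IG1Asm0
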