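/-
Programme M48 (target S48), pillar (P1), chapter [IG1] (Igusa irreducibility at full level by
decomposition groups) — helper6.  Leaf (L-IG1b): **the group theory**.

A subgroup `D ≤ SL(2, ℤ)` which contains `Γ(M)`, the translation `T = [[1, 1], [0, 1]]`, and one
element of the coset `S · Γ₀(M)` (in the application: `D · Γ₀(M) = SL(2, ℤ)`, i.e. `D` is transitive
on `ℙ¹(ℤ/M)`) is everything.

Proof: `d = S h⁻¹ ∈ D` with `h = [[a, b], [c, e]] ∈ Γ₀(M)` conjugates `T` to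
`X = S h⁻¹ T h S⁻¹ = [[1 - c e, c²], [-e², 1 + c e]] ≡ [[1, 0], [-e², 1]] (mod M)`; as `a e ≡ 1 (mod M)`,
`X ^ (-a²) ≡ L = [[1, 0], [1, 1]] (mod M)`, so `L ∈ D`; and `S = T⁻¹ L T⁻¹`.
-/
import Mathlib

set_option autoImplicit false

open scoped MatrixGroups
open Matrix ModularGroup

namespace Fermat.Agent.M48.SL2Gen6

section Lower

variable {R : Type*} [CommRing R]

/-- The lower unipotent matrix `[[1, 0], [t, 1]]`. -/
def lower (t : R) : SL(2, R) := ⟨!![1, 0; t, 1], by simp [Matrix.det_fin_two_of]⟩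

@[simp] theorem coe_lower (t : R) : (lower t : Matrix (Fin 2) (Fin 2) R) = !![1, 0; t, 1] := rfl

theorem lower_zero : lower (0 : R) = 1 := by
  ext i j
  fin_cases i <;> fin_cases j <;> simp [lower]

theorem lower_add (s t : R) : lower (s + t) = lower s * lower t := by
  ext i j
  fin_cases i <;> fin_cases j <;> simp [lower, Matrix.mul_apply, Fin.sum_univ_two, add_comm]

/-- `t ↦ [[1, 0], [t, 1]]` as a homomorphism. -/
def lowerHom : Multiplicative R →* SL(2, R) where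
  toFun t := lower (Multiplicative.toAdd t)
  map_one' := lower_zero
  map_mul' _ _ := lower_add _ _

theorem lower_zpow (t : R) (k : ℤ) : lower t ^ k = lower (k • t) := by
  have h := map_zpow (lowerHom (R := R)) (Multiplicative.ofAdd t) k
  rw [← ofAdd_zsmul] at h
  exact h.symm

theorem map_lower {S : Type*} [CommRing S] (f : R →+* S) (t : R) :
    Matrix.SpecialLinearGroup.map f (lower t) = lower (f t) := by
  ext i j
  fin_cases i <;> fin_cases j <;> simp [lower]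

end Lower

/-- `S = T⁻¹ L T⁻¹`. -/
theorem S_eq : S = T⁻¹ * lower (1 : ℤ) * T⁻¹ := by
  ext i j
  fin_cases i <;> fin_cases j <;>
    simp [lower, Matrix.mul_apply, Fin.sum_univ_two]

/-- A subgroup containing `T` and `L = [[1, 0], [1, 1]]` is everything. -/
theorem eq_top_of_T_of_lower {D : Subgroup SL(2, ℤ)} (hT : T ∈ D) (hL : lower (1 : ℤ) ∈ D) :
    D = ⊤ := by
  rw [eq_top_iff, ← SpecialLinearGroup.SL2Z_generators, Subgroup.closure_le]
  rintro x (rfl | rfl)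
  · rw [S_eq]
    exact D.mul_mem (D.mul_mem (D.inv_mem hT) hL) (D.inv_mem hT)
  · exact hT

/-- The conjugate `S h⁻¹ T h S⁻¹`, explicitly. -/
theorem conj_T (h : SL(2, ℤ)) :
    ((S * h⁻¹ * T * h * S⁻¹ : SL(2, ℤ)) : Matrix (Fin 2) (Fin 2) ℤ) =
      !![1 - h 1 0 * h 1 1, h 1 0 ^ 2; -(h 1 1 ^ 2), 1 + h 1 0 * h 1 1] := by
  have hdet : h 0 0 * h 1 1 - h 0 1 * h 1 0 = 1 := by
    have := h.det_coe
    rwa [Matrix.det_fin_two] at this
  have hinv : ((h⁻¹ : SL(2, ℤ)) : Matrix (Fin 2) (Fin 2) ℤ) = !![h 1 1, -h 0 1; -h 1 0, h 0 0] := by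
    rw [Matrix.SpecialLinearGroup.coe_inv, Matrix.adjugate_fin_two]
  have hSinv : ((S⁻¹ : SL(2, ℤ)) : Matrix (Fin 2) (Fin 2) ℤ) = !![0, 1; -1, 0] := by
    rw [Matrix.SpecialLinearGroup.coe_inv, Matrix.adjugate_fin_two]
    simp [S]
  have hh : (h : Matrix (Fin 2) (Fin 2) ℤ) = !![h 0 0, h 0 1; h 1 0, h 1 1] :=
    Matrix.eta_fin_two _
  simp only [Matrix.SpecialLinearGroup.coe_mul, hinv, hSinv, coe_S, coe_T]
  rw [hh]
  ext i j
  fin_cases i <;> fin_cases j <;>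
    simp [Matrix.mul_apply, Fin.sum_univ_two] <;> nlinarith [hdet]

/-- **(L-IG1b)**: a subgroup of `SL(2, ℤ)` containing `Γ(M)`, `T` and an element of `S · Γ₀(M)` is
everything. -/
theorem eq_top_of_T_mem_of_S_mem_mul_Gamma0 (M : ℕ) (D : Subgroup SL(2, ℤ))
    (hΓ : CongruenceSubgroup.Gamma M ≤ D) (hT : T ∈ D)
    (hS : ∃ d ∈ D, ∃ h ∈ CongruenceSubgroup.Gamma0 M, S = d * h) : D = ⊤ := by
  obtain ⟨d, hd, h, hh, hSdh⟩ := hS
  have hd' : d = S * h⁻¹ := by rw [hSdh]; group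
  -- the conjugate of `T`
  set X : SL(2, ℤ) := S * h⁻¹ * T * h * S⁻¹ with hX
  have hXD : X ∈ D := by
    have : X = d * T * d⁻¹ := by rw [hX, hd']; group
    rw [this]
    exact D.mul_mem (D.mul_mem hd hT) (D.inv_mem hd)
  have hc : ((h 1 0 : ℤ) : ZMod M) = 0 := CongruenceSubgroup.Gamma0_mem.mp hh
  have hdet : h 0 0 * h 1 1 - h 0 1 * h 1 0 = 1 := by
    have := h.det_coe
    rwa [Matrix.det_fin_two] at this
  have hae : ((h 0 0 : ℤ) : ZMod M) * ((h 1 1 : ℤ) : ZMod M) = 1 := by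
    have := congrArg (Int.cast : ℤ → ZMod M) hdet
    push_cast at this
    rw [hc, mul_zero, sub_zero] at this
    exact this
  -- `X ≡ lower (-e²)` modulo `M`
  have hXmod : Matrix.SpecialLinearGroup.map (Int.castRingHom (ZMod M)) X =
      lower (-(((h 1 1 : ℤ) : ZMod M) ^ 2)) := by
    have hXc : (X : Matrix (Fin 2) (Fin 2) ℤ) =
        !![1 - h 1 0 * h 1 1, h 1 0 ^ 2; -(h 1 1 ^ 2), 1 + h 1 0 * h 1 1] := conj_T h
    ext i j
    rw [Matrix.SpecialLinearGroup.map_apply_coe, RingHom.mapMatrix_apply, hXc]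
    fin_cases i <;> fin_cases j <;> simp [lower, hc]
  -- `X ^ (-a²) ≡ lower 1`
  set k : ℤ := -(h 0 0 ^ 2) with hk
  have hXk : Matrix.SpecialLinearGroup.map (Int.castRingHom (ZMod M)) (X ^ k) =
      Matrix.SpecialLinearGroup.map (Int.castRingHom (ZMod M)) (lower (1 : ℤ)) := by
    rw [map_zpow, hXmod, lower_zpow, map_lower]
    congr 1
    rw [hk, zsmul_eq_mul]
    push_cast
    have : (((h 0 0 : ℤ) : ZMod M) * ((h 1 1 : ℤ) : ZMod M)) ^ 2 = 1 := by rw [hae, one_pow]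
    rw [eq_intCast, Int.cast_one]
    linear_combination this
  have hmem : (X ^ k)⁻¹ * lower (1 : ℤ) ∈ CongruenceSubgroup.Gamma M := by
    rw [CongruenceSubgroup.Gamma_mem', map_mul, map_inv, ← hXk, inv_mul_cancel]
  have hL : lower (1 : ℤ) ∈ D := by
    have h1 : X ^ k ∈ D := D.zpow_mem hXD k
    have h2 := D.mul_mem h1 (hΓ hmem)
    rwa [mul_inv_cancel_left] at h2
  exact eq_top_of_T_of_lower hT hL

/-- The same with the hypothesis `D · Γ₀(M) = SL(2, ℤ)`. -/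
theorem eq_top_of_mul_Gamma0_eq_top (M : ℕ) (D : Subgroup SL(2, ℤ))
    (hΓ : CongruenceSubgroup.Gamma M ≤ D) (hT : T ∈ D)
    (hDB : ∀ g : SL(2, ℤ), ∃ d ∈ D, ∃ h ∈ CongruenceSubgroup.Gamma0 M, g = d * h) : D = ⊤ :=
  eq_top_of_T_mem_of_S_mem_mul_Gamma0 M D hΓ hT (hDB S)

end Fermat.Agent.M48.SL2Gen6
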