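/-
Programme M48 (target S48), pillar (P1), chapter [IG1] — lead.  **The end assembly of [IG1] for a
realised family** (`FullLevelGen6.RealFam`).

`K` a field of characteristic `0` with `ι : K →+* ℂ`, `ζ ∈ K` with `ι ζ = exp(2πi/M)`, `O` a DVR of `K`
with `ζ ∈ Oˣ`, residue characteristic `ℓ ∤ M`, `F : RealFam ι M` a family of realised functions stable
under `SL(2, ℤ)` with `N = F.N ⊂ Frac O((Q))`, `Q = q^{1/M}`.  Inputs:

* `hΓ`  : `Γ(M)` acts trivially on `N`;  `hfin` : `ρ(SL(2, ℤ))` is finite;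
* `hJA`, `hJrel` : `j(Q^M) ∈ F.A` realises `jFun`;
* `hE₀N`, `hD1` : **(D1)** `N^{ρ(Γ₀(M))} = {x(Q^M) : x ∈ K(j(q^d) : d ∣ M)}`;
* `hSN`, `hScore` : the generators `s(Q^M)`, `s ∈ gensO O M` (the integral generators of the model of
  `X₁(M)`), lie in `N` and all their `SL(2, ℤ)`-translates lie in the Gauss ring;
* `hsep` : **(sep)** every `γ ∉ ±Γ₁(M)` moves the RESIDUE of some `s(Q^M)`.

Output (`ig1_res`): `#(SL(2, ℤ) ⧸ ±Γ₁(M)) ≤ [κ(j̃(q^d), g̃_{M,a}) : κ(j̃)]`, `κ = Res O` — the literal form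
of `PurGauss1.IG1 M 1` at `κ = Res O`.

Imported by no statement.
-/
import Mathlib
import Fermat.Agent.M48.IG1Asm0
import Fermat.Agent.M48.FullUniq0
import Fermat.Agent.M48.FullLevelGen6
import Fermat.Agent.M48.GaussCoeff6
import Fermat.Agent.M48.SL2Gen6
import Fermat.Agent.M48.GaussUnitG9

set_option autoImplicit false
set_option linter.unusedSectionVars false
set_option synthInstance.maxHeartbeats 400000
set_option maxHeartbeats 1000000

noncomputable section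

open HahnSeries ModularCurve IntermediateField UpperHalfPlane
open scoped MatrixGroups

namespace Fermat.Agent.M48.IG1Fam0

open Fermat.Agent.RED.PUR.GaussGen8 Fermat.Agent.RED.PUR.KtGauss8 Fermat.Agent.RED.PUR.G1Package8
  Fermat.Agent.RED.PUR.GaussBridge10
open Fermat.Agent.ES.N34.GaussVTwoFam25
open Fermat.Agent.M48.DictIface4 Fermat.Agent.M48.QModel8 Fermat.Agent.M48.GaussUnitG9
open Fermat.Agent.M48.FullLevelGen6 Fermat.Agent.X0 Fermat.Agent.X0.CuspEquiv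
  Fermat.Agent.X0.QExpAffine

/-! ### Group theory -/

section Groups

variable {G : Type*} [Group G]

/-- The `hGT` input of `DecompGalois6.smul_mem_nonunits_iff` for a quotient of `SL(2, ℤ)` in which
`Γ(M)` dies, `H` the image of `Γ₀(M)`, `u` the image of `T⁻¹`. -/
theorem hGT_of_surjective (ρ : SL(2, ℤ) →* G) (hρ : Function.Surjective ρ) (M : ℕ)
    (hΓ : ∀ γ ∈ CongruenceSubgroup.Gamma M, ρ γ = 1)
    (D : Subgroup G) (hu : ρ ModularGroup.T⁻¹ ∈ D)
    (hD : ∀ g : G, ∃ d ∈ D, ∃ h ∈ (CongruenceSubgroup.Gamma0 M).map ρ, g = d * h) : D = ⊤ := by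
  have hD' : D.comap ρ = ⊤ := by
    refine SL2Gen6.eq_top_of_mul_Gamma0_eq_top M (D.comap ρ) ?_ ?_ ?_
    · intro γ hγ
      rw [Subgroup.mem_comap, hΓ γ hγ]
      exact D.one_mem
    · rw [Subgroup.mem_comap]
      have := D.inv_mem hu
      rwa [← map_inv, inv_inv] at this
    · intro σ
      obtain ⟨d₀, hd₀, h₀, ⟨h₁, hh₁, rfl⟩, hσ⟩ := hD (ρ σ)
      refine ⟨σ * h₁⁻¹, ?_, h₁, hh₁, by rw [inv_mul_cancel_right]⟩
      rw [Subgroup.mem_comap, map_mul, map_inv, hσ, mul_inv_cancel_right]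
      exact hd₀
  rw [eq_top_iff]
  intro g _
  obtain ⟨σ, rfl⟩ := hρ g
  have : σ ∈ D.comap ρ := by rw [hD']; exact Subgroup.mem_top σ
  exact this

theorem card_quotient_map {A : Type*} [Group A] (f : A →* G) (hf : Function.Surjective f)
    (P : Subgroup A) (hker : f.ker ≤ P) : Nat.card (G ⧸ P.map f) = Nat.card (A ⧸ P) := by
  rw [← Subgroup.index_eq_card, ← Subgroup.index_eq_card]
  exact Subgroup.index_map_eq P hf hker

end Groups

/-! ### The integral generators -/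

section Gens

variable {K : Type} [Field K] (O : ValuationSubring K)

/-- The integral generators of the model of `X₁(M)` (`L = 1`). -/
def gensO (M : ℕ) : Set (LaurentSeries ↥O) :=
  {x | ∃ (d : ℕ) (_ : NeZero d), d ∣ M * 1 ∧ x = qExpand ↥O d (jqModC ↥O)} ∪
    {x | ∃ (a : (ZMod M)ˣ) (e : ℕ) (_ : NeZero e), e ∣ 1 ∧
      x = qExpand ↥O e (gqR ↥O M (a : ZMod M))}

theorem image_redL_gensO (M : ℕ) : redL O '' gensO O M = gens (Res O) M 1 := by
  ext y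
  constructor
  · rintro ⟨x, (⟨d, hd, hdM, rfl⟩ | ⟨a, e, he, heL, rfl⟩), rfl⟩
    · exact Or.inl ⟨d, hd, hdM, by
        show coeffMap (res0 O) _ = _
        rw [coeffMap_qExpand, coeffMap_jqModC]⟩
    · exact Or.inr ⟨a, e, he, heL, by
        show coeffMap (res0 O) _ = _
        rw [coeffMap_qExpand, coeffMap_gqR]⟩
  · rintro (⟨d, hd, hdM, rfl⟩ | ⟨a, e, he, heL, rfl⟩)
    · exact ⟨qExpand ↥O d (jqModC ↥O), Or.inl ⟨d, hd, hdM, rfl⟩, by
        show coeffMap (res0 O) _ = _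
        rw [coeffMap_qExpand, coeffMap_jqModC]⟩
    · exact ⟨qExpand ↥O e (gqR ↥O M (a : ZMod M)), Or.inr ⟨a, e, he, heL, rfl⟩, by
        show coeffMap (res0 O) _ = _
        rw [coeffMap_qExpand, coeffMap_gqR]⟩

theorem adjoin_redL_gensO (M : ℕ) :
    adjoin (Res O) (redL O '' gensO O M) = fieldG10C (Res O) M 1 := by
  rw [image_redL_gensO, fieldG10C_eq_adjoin]

/-- the residue of `s(Q^M)`. -/
theorem gaussRed_qExpand_embK (M : ℕ) [NeZero M] (s : LaurentSeries ↥O)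
    (h : qExpand K M (embK O s) ∈ gaussRing O) :
    gaussRed O ⟨_, h⟩ = qExpand (Res O) M (redL O s) := by
  have e : (⟨qExpand K M (embK O s), h⟩ : ↥(gaussRing O)) =
      ⟨embK O (qExpand ↥O M s), embK_mem O _⟩ := Subtype.ext (by
    show qExpand K M (embK O s) = embK O (qExpand ↥O M s)
    rw [embK_qExpand])
  rw [e, gaussRed_embK, redL_qExpand]

end Gens

/-! ### The assembly -/

section Main

variable {K : Type} [Field K] [CharZero K] (O : ValuationSubring K) [IsDiscreteValuationRing ↥O]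
  {π : ↥O}

/-- **[IG1] at `κ = Res O`, from a realised family.** -/
theorem ig1_res (hπ : Irreducible π) (ℓ : ℕ) [Fact ℓ.Prime] [CharP (Res O) ℓ]
    (M : ℕ) [NeZero M] (hM : 2 ≤ M) (hℓM : ¬ ℓ ∣ M) {ι : K →+* ℂ} (F : RealFam ι M)
    (hfin : Finite F.rho.range)
    (hΓ : ∀ γ ∈ CongruenceSubgroup.Gamma M, F.rho γ = 1)
    (ζ : K) (hζ0 : ζ ≠ 0) (hζ : ι ζ = zetaC M) (hζO : ζ ∈ O) (hζO' : ζ⁻¹ ∈ O)
    (hNfrac : F.N ≤ fracField O)
    (hJA : qExpand K M (jqModC K) ∈ F.A) (hJrel : Rel ι M (qExpand K M (jqModC K)) jFun)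
    (hE₀N : ∀ x ∈ modularFunctionFieldFullC K M, qExpand K M x ∈ F.N)
    (hD1 : ∀ x : ↥F.N, (∀ γ ∈ CongruenceSubgroup.Gamma0 M, F.rho γ x = x) →
      ∃ x₀ ∈ modularFunctionFieldFullC K M, (x : LaurentSeries K) = qExpand K M x₀)
    (hSN : ∀ s ∈ gensO O M, qExpand K M (embK O s) ∈ F.N)
    (hScore : ∀ (s : LaurentSeries ↥O) (hs : s ∈ gensO O M) (γ : SL(2, ℤ)),
      ((F.rho γ ⟨_, hSN s hs⟩ : ↥F.N) : LaurentSeries K) ∈ gaussRing O)
    (hsep : ∀ γ : SL(2, ℤ), γ ∉ pm (Gamma10 M (M * 1)) →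
      ∃ (s : LaurentSeries ↥O) (hs : s ∈ gensO O M),
        ∀ h : ((F.rho γ ⟨_, hSN s hs⟩ : ↥F.N) : LaurentSeries K) ∈ gaussRing O,
          gaussRed O ⟨_, h⟩ ≠ qExpand (Res O) M (redL O s)) :
    Nat.card (SL(2, ℤ) ⧸ pm (Gamma10 M (M * 1))) ≤
      relfinrank (Res O)⟮jqModC (Res O)⟯ (fieldG10C (Res O) M 1) := by
  classical
  have : NeZero (1 : ℕ) := ⟨one_ne_zero⟩
  let ρ' : SL(2, ℤ) →* ↥F.rho.range := F.rho.rangeRestrict
  have hρ' : Function.Surjective ρ' := F.rho.rangeRestrict_surjective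
  have hρ'coe : ∀ (γ : SL(2, ℤ)) (x : ↥F.N), ρ' γ • x = F.rho γ x := fun _ _ => rfl
  have hJN : qExpand K M (jqModC K) ∈ F.N := F.mem_N_of_mem_A hJA
  -- `ρ(γ)` fixes `J`
  have hρJ : ∀ γ : SL(2, ℤ), F.rho γ ⟨_, hJN⟩ = ⟨_, hJN⟩ := by
    intro γ
    apply Subtype.ext
    have hJrel' : Rel ι M (qExpand K M (jqModC K)) (compSL jFun γ⁻¹) := by
      have : compSL jFun γ⁻¹ = jFun := funext fun z => jFun_smul γ⁻¹ z
      rw [this]; exact hJrel
    exact F.rho_eq_of_rel γ hJA hJA hJrel hJrel' hJN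
  -- the kernel of `ρ'` lies in `±Γ₁(M)`
  have hker : ρ'.ker ≤ pm (Gamma10 M (M * 1)) := by
    intro γ hγ
    by_contra hnot
    obtain ⟨s, hs, hne⟩ := hsep γ hnot
    have h1 : F.rho γ = 1 := by
      have := (MonoidHom.mem_ker).mp hγ
      exact congrArg Subtype.val this
    have h2 : ((F.rho γ ⟨_, hSN s hs⟩ : ↥F.N) : LaurentSeries K) = qExpand K M (embK O s) := by
      rw [h1]; rfl
    have h3 : ((F.rho γ ⟨_, hSN s hs⟩ : ↥F.N) : LaurentSeries K) ∈ gaussRing O := by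
      rw [h2, ← embK_qExpand]; exact embK_mem O _
    apply hne h3
    have e : (⟨_, h3⟩ : ↥(gaussRing O)) = ⟨qExpand K M (embK O s), h2 ▸ h3⟩ := Subtype.ext h2
    rw [e]
    exact gaussRed_qExpand_embK O M s _
  have hmain := IG1Asm0.card_le_relfinrank O hπ M F.N hNfrac (G := ↥F.rho.range)
    (fun g c => (g : ↥F.N ≃ₐ[K] ↥F.N).commutes c) hJN
    (fun g => by
      obtain ⟨γ, hγ⟩ := g.2
      show (g : ↥F.N ≃ₐ[K] ↥F.N) _ = _
      rw [← hγ]; exact hρJ γ)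
    (ρ' ModularGroup.T⁻¹)
    (fun x => by
      rw [hρ'coe, F.coe_rho_T_inv hζ0 hζ x]
      exact GaussCoeff6.twist_mem_gaussRing_iff O hζ0 hζO hζO')
    ((CongruenceSubgroup.Gamma0 M).map ρ')
    (fun g x hx => by
      obtain ⟨γ, rfl⟩ := hρ' g
      have hx' : ∀ γ' ∈ CongruenceSubgroup.Gamma0 M, F.rho γ' x = x := fun γ' hγ' =>
        hx (ρ' γ') (Subgroup.mem_map_of_mem ρ' hγ')
      obtain ⟨x₀, hx₀, hxx₀⟩ := hD1 x hx'
      have hxe : x = ⟨qExpand K M x₀, hE₀N x₀ hx₀⟩ := Subtype.ext hxx₀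
      rw [hρ'coe, hxe]
      exact FullUniq0.gauss_iff_of_fix O hπ ℓ M hℓM F.N hNfrac hE₀N
        ((F.rho γ : ↥F.N ≃ₐ[K] ↥F.N) : ↥F.N →ₐ[K] ↥F.N) (hρJ γ) x₀ hx₀)
    (fun D hu hD => hGT_of_surjective ρ' hρ' M
      (fun γ hγ => Subtype.ext (hΓ γ hγ)) D hu hD)
    (gensO O M) hSN
    (fun s hs g => by
      obtain ⟨γ, rfl⟩ := hρ' g
      rw [hρ'coe]; exact hScore s hs γ)
    ((pm (Gamma10 M (M * 1))).map ρ')
    (fun g hg => by
      obtain ⟨γ, rfl⟩ := hρ' g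
      have hγ : γ ∉ pm (Gamma10 M (M * 1)) := fun h => hg (Subgroup.mem_map_of_mem ρ' h)
      obtain ⟨s, hs, hne⟩ := hsep γ hγ
      exact ⟨s, hs, fun h => hne h⟩)
    (by rw [adjoin_redL_gensO]; exact PurGauss1.jqModC_mem_fieldG10C (Res O) M 1)
    (by
      rw [adjoin_redL_gensO]
      exact ConstBC2.relfinrank_ne_zero_of_family_bound (adjoin_j_le (Res O) M 1) _
        (fun n c hc hli => family_bound_res O hπ M 1 hM n c
          (fun i => PurGauss1.fieldG10C_le_resField O M 1 (hc i)) hli))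
  rw [adjoin_redL_gensO, card_quotient_map ρ' hρ' _ hker] at hmain
  exact hmain

end Main

end Fermat.Agent.M48.IG1Fam0
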