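/-
Programme M48 (target S48), pillar (P1), chapter [IG1] — lead.  **`IG1Fam0.ig1_res` with hypotheses of
ANALYTIC shape**, independent of the internals of the realised family `F`.

For each integral generator `s ∈ gensO O M` of the model of `X₁(M)` let `fS s : ℍ → ℂ` be the function
realised by `s(Q^M)` (`j(d τ)`, `g_{M,a}(τ)`).  Inputs replacing `hSN`, `hScore`, `hsep` of `ig1_res`:

* `hSA`, `hSrel` : `s(Q^M) ∈ F.A` and `Rel ι M (s(Q^M)) (fS s)`;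
* **(intA)** every translate `fS s ∘ γ` has a `q_M`-expansion over `K` lying in the Gauss ring;
* **(sepA)** for `γ ∉ ±Γ₁(M)` some translate `fS s ∘ γ⁻¹` has a `q_M`-expansion in the Gauss ring whose
  residue differs from the residue of `s(Q^M)`.

(`Rel.left_unique` identifies these expansions with `ρ(γ) (s(Q^M))`.)

Imported by no statement.
-/
import Mathlib
import Fermat.Agent.M48.IG1Fam0

set_option autoImplicit false
set_option linter.unusedSectionVars false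
set_option synthInstance.maxHeartbeats 400000
set_option maxHeartbeats 1000000

noncomputable section

open HahnSeries ModularCurve IntermediateField UpperHalfPlane
open scoped MatrixGroups

namespace Fermat.Agent.M48.IG1Ana0

open Fermat.Agent.RED.PUR.GaussGen8 Fermat.Agent.RED.PUR.KtGauss8
open Fermat.Agent.M48.DictIface4 Fermat.Agent.M48.QModel8 Fermat.Agent.M48.IG1Fam0
open Fermat.Agent.M48.FullLevelGen6 Fermat.Agent.X0 Fermat.Agent.X0.CuspEquiv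
  Fermat.Agent.X0.QExpAffine

section Rho

variable {K : Type} [Field K] {ι : K →+* ℂ} {n : ℕ} [NeZero n] (F : RealFam ι n)

/-- `ρ(γ) a` realises `h ∘ γ⁻¹` when `a ∈ F.A` realises `h`. -/
theorem rel_rho {a : LaurentSeries K} (ha : a ∈ F.A) {h : ℍ → ℂ} (hr : Rel ι n a h)
    (γ : SL(2, ℤ)) (haN : a ∈ F.N) :
    Rel ι n ((F.rho γ ⟨a, haN⟩ : ↥F.N) : LaurentSeries K) (compSL h γ⁻¹) := by
  have h1 := F.coe_rho_algebraMap γ ⟨a, ha⟩
  have h2 : ((F.rho γ ⟨a, haN⟩ : ↥F.N) : LaurentSeries K) =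
      (F.act γ ⟨a, ha⟩ : LaurentSeries K) := h1
  rw [h2]
  have h3 := F.rel_real (F.act γ ⟨a, ha⟩)
  rw [F.real_act γ ⟨a, ha⟩, F.real_eq_of_rel (a := ⟨a, ha⟩) hr] at h3
  exact h3

end Rho

section Main

variable {K : Type} [Field K] [CharZero K] (O : ValuationSubring K) [IsDiscreteValuationRing ↥O]
  {π : ↥O}

/-- **[IG1] at `κ = Res O`, analytic-shape hypotheses.** -/
theorem ig1_res_ana (hπ : Irreducible π) (ℓ : ℕ) [Fact ℓ.Prime] [CharP (Res O) ℓ]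
    (M : ℕ) [NeZero M] (hM : 2 ≤ M) (hℓM : ¬ ℓ ∣ M) {ι : K →+* ℂ} (F : RealFam ι M)
    (hfin : Finite F.rho.range)
    (hΓ : ∀ γ ∈ CongruenceSubgroup.Gamma M, F.rho γ = 1)
    (ζ : K) (hζ0 : ζ ≠ 0) (hζ : ι ζ = zetaC M) (hζO : ζ ∈ O) (hζO' : ζ⁻¹ ∈ O)
    (hNfrac : F.N ≤ fracField O)
    (hJA : qExpand K M (jqModC K) ∈ F.A) (hJrel : Rel ι M (qExpand K M (jqModC K)) jFun)
    (hE₀N : ∀ x ∈ modularFunctionFieldFullC K M, qExpand K M x ∈ F.N)
    (hD1 : ∀ x : ↥F.N, (∀ γ ∈ CongruenceSubgroup.Gamma0 M, F.rho γ x = x) →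
      ∃ x₀ ∈ modularFunctionFieldFullC K M, (x : LaurentSeries K) = qExpand K M x₀)
    (fS : LaurentSeries ↥O → ℍ → ℂ)
    (hSA : ∀ s ∈ gensO O M, qExpand K M (embK O s) ∈ F.A)
    (hSrel : ∀ s ∈ gensO O M, Rel ι M (qExpand K M (embK O s)) (fS s))
    (hint : ∀ s ∈ gensO O M, ∀ γ : SL(2, ℤ), ∃ a' : LaurentSeries K,
      Rel ι M a' (compSL (fS s) γ) ∧ a' ∈ gaussRing O)
    (hsepA : ∀ γ : SL(2, ℤ), γ ∉ pm (Gamma10 M (M * 1)) →
      ∃ s ∈ gensO O M, ∃ (a' : LaurentSeries K) (ha' : a' ∈ gaussRing O),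
        Rel ι M a' (compSL (fS s) γ⁻¹) ∧
          gaussRed O ⟨a', ha'⟩ ≠ qExpand (Res O) M (redL O s)) :
    Nat.card (SL(2, ℤ) ⧸ pm (Gamma10 M (M * 1))) ≤
      relfinrank (Res O)⟮jqModC (Res O)⟯ (fieldG10C (Res O) M 1) := by
  have hSN : ∀ s ∈ gensO O M, qExpand K M (embK O s) ∈ F.N := fun s hs =>
    F.mem_N_of_mem_A (hSA s hs)
  have hkey : ∀ (s : LaurentSeries ↥O) (hs : s ∈ gensO O M) (γ : SL(2, ℤ)),
      Rel ι M ((F.rho γ ⟨_, hSN s hs⟩ : ↥F.N) : LaurentSeries K) (compSL (fS s) γ⁻¹) :=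
    fun s hs γ => rel_rho F (hSA s hs) (hSrel s hs) γ (hSN s hs)
  refine ig1_res O hπ ℓ M hM hℓM F hfin hΓ ζ hζ0 hζ hζO hζO' hNfrac hJA hJrel hE₀N hD1 hSN ?_ ?_
  · intro s hs γ
    obtain ⟨a', hrel, ha'⟩ := hint s hs γ⁻¹
    rw [(hkey s hs γ).left_unique hrel]
    exact ha'
  · intro γ hγ
    obtain ⟨s, hs, a', ha', hrel, hne⟩ := hsepA γ hγ
    refine ⟨s, hs, fun h => ?_⟩
    have e : (⟨_, h⟩ : ↥(gaussRing O)) = ⟨a', ha'⟩ :=
      Subtype.ext ((hkey s hs γ).left_unique hrel)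
    rw [e]
    exact hne

end Main

end Fermat.Agent.M48.IG1Ana0
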