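/-
Programme M48 (target S48), pillar (P1), chapter [IG1] — helper6.
**The cusp expansions of `j(d z)` at all cusps over a field `K ∋ ζ_M`**, `d ∣ M` (`K`-rational twin
of `X0/CuspGenFull.exists_isQExp_compSL_jdFun_full`): for `σ ∈ SL(2, ℤ)` the translate
`j(d ·) ∘ σ` is `j((a z + b)/e)` (Hermite normal form, `a e = d`), with `q_M`-expansion
`jExpS M ζ a e b = laurentOf (a (M/e)) (affQ jNum 1 (a (M/e)) b ζ^{M/e})` over `K`: lowest term
`ζ^{-b M/e} Q^{-a M/e}`, all coefficients in `ℤ[ζ]`.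
-/
import Mathlib
import Fermat.Agent.M48.FullLevelGen6
import Fermat.Agent.X0.CuspGenFull

set_option autoImplicit false
set_option linter.unusedSectionVars false

open UpperHalfPlane ModularCurve
open scoped MatrixGroups

noncomputable section

namespace Fermat.Agent.M48.JRat6

open Fermat.Agent.X0 Fermat.Agent.X0.Hermite Fermat.Agent.X0.QExpAffine
open Fermat.Agent.M48.FullLevelGen6

variable {K : Type} [Field K] {ι : K →+* ℂ} (M : ℕ) [NeZero M] {ζ : K}

/-- `q j(q)` over `K`. -/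
def jNumR (K : Type) [Field K] : PowerSeries K := ModularCurve.jNum.map (Int.castRingHom K)

theorem map_jNumR (ι : K →+* ℂ) : (jNumR K).map ι = jNumC := by
  ext n
  rw [coeff_jNumC, jNumR, PowerSeries.coeff_map, PowerSeries.coeff_map]
  simp

theorem coeff_zero_jNumR : PowerSeries.coeff 0 (jNumR K) = 1 := by
  rw [jNumR, PowerSeries.coeff_map, PowerSeries.coeff_zero_eq_constantCoeff,
    ModularCurve.constantCoeff_jNum, map_one]

theorem jqModC_eq_laurentOf : jqModC K = laurentOf 1 (jNumR K) := by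
  unfold jqModC laurentOf jNumR
  norm_num

/-- the base functions: `j(d z)` has the `q_M`-expansion `j(Q^{d M})`. -/
theorem rel_jdFun (d : ℕ) [NeZero d] :
    Rel ι M (qExpand K M (qExpand K d (jqModC K))) (jdFun d) := by
  have h1 := (isQExp_jdFun d).level_mul M
  rw [one_mul] at h1
  refine ⟨d * M, _, h1, ?_⟩
  rw [jqModC_eq_laurentOf, qExpand_laurentOf, qExpand_laurentOf, one_mul, coeffMap_laurentOf,
    PowerSeries.map_expand, PowerSeries.map_expand, map_jNumR]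

/-- the expansion of `j((a z + b)/e)` in `Q = q^{1/M}`. -/
def jExpS (ζ : K) (a e : ℕ) (b : ℤ) : LaurentSeries K :=
  laurentOf (a * (M / e)) (affQ (jNumR K) 1 (a * (M / e)) b (ζ ^ (M / e)))

theorem zeta_pow_eq (hζ : ι ζ = zetaC M) {e : ℕ} (he : e ∣ M) :
    ι (ζ ^ (M / e)) = zetaC e := by
  obtain ⟨c, rfl⟩ := he
  have he0 : e ≠ 0 := fun h => NeZero.ne (e * c) (by rw [h, zero_mul])
  have hc0 : c ≠ 0 := fun h => NeZero.ne (e * c) (by rw [h, mul_zero])
  rw [map_pow, hζ, Nat.mul_div_cancel_left c (Nat.pos_of_ne_zero he0), zetaC, zetaC,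
    ← Complex.exp_nat_mul]
  congr 1
  have h1 : (e : ℂ) ≠ 0 := by exact_mod_cast he0
  have h2 : (c : ℂ) ≠ 0 := by exact_mod_cast hc0
  push_cast
  field_simp

/-- **All translates of `j(d z)`, `d ∣ M`, over `K`.** -/
theorem exists_rel_compSL_jdFun (hζ : ι ζ = zetaC M) (d : ℕ) [NeZero d] (hd : d ∣ M)
    (σ : SL(2, ℤ)) :
    ∃ (σ' : SL(2, ℤ)) (a e : ℕ) (b : ℤ), 0 < a ∧ 0 < e ∧ a * e = d ∧ 0 ≤ b ∧ b < e ∧
      σ 1 0 = σ' 1 0 * a ∧ σ 1 1 = σ' 1 0 * b + σ' 1 1 * e ∧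
      Rel ι M (jExpS M ζ a e b) (compSL (jdFun d) σ) := by
  obtain ⟨σ', a, e, b, ha, he, hae, hb0, hbe, -, h3, h4, hfun⟩ :=
    CuspGen.exists_scaleH_smul_full σ d
  have heM : e ∣ M := (Dvd.intro_left a hae).trans hd
  refine ⟨σ', a, e, b, ha, he, hae, hb0, hbe, h3, h4, ?_⟩
  have hfun' : compSL (jdFun d) σ = fun z => jFun (affH a e b ha he z) := funext hfun
  have h1 := isQExp_affine (N := M) isQExp_jFun_C b ha he heM
  rw [one_mul] at h1
  refine ⟨a * (M / e), _, hfun' ▸ h1, ?_⟩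
  rw [jExpS, coeffMap_laurentOf, affQ_map, map_jNumR, zeta_pow_eq M hζ heM]

/-! ### Coefficients of `jExpS` -/

theorem coeff_jExpS (a e : ℕ) (b : ℤ) (k : ℤ) :
    (jExpS M ζ a e b).coeff k = if 0 ≤ k + ((a * (M / e) : ℕ) : ℤ) then
      PowerSeries.coeff (k + ((a * (M / e) : ℕ) : ℤ)).toNat
        (affQ (jNumR K) 1 (a * (M / e)) b (ζ ^ (M / e))) else 0 := by
  rw [jExpS, laurentOf_coeff]

/-- below the pole order the coefficients vanish. -/
theorem coeff_jExpS_of_lt (a e : ℕ) (b : ℤ) {k : ℤ} (hk : k < -((a * (M / e) : ℕ) : ℤ)) :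
    (jExpS M ζ a e b).coeff k = 0 := by
  rw [coeff_jExpS, if_neg (by omega)]

/-- the lowest coefficient. -/
theorem coeff_jExpS_lowest (a e : ℕ) (b : ℤ) :
    (jExpS M ζ a e b).coeff (-((a * (M / e) : ℕ) : ℤ)) = (ζ ^ (M / e)) ^ (-b) := by
  rw [coeff_jExpS, if_pos (by omega), neg_add_cancel, Int.toNat_zero, coeff_zero_affQ,
    coeff_zero_jNumR, one_mul, Nat.cast_one, mul_one]

/-- all coefficients lie in every subring containing `ζ` and `ζ⁻¹`. -/
theorem coeff_jExpS_mem (R : Subring K) (h1 : ζ ∈ R) (h2 : ζ⁻¹ ∈ R) (a e : ℕ) (b : ℤ) (k : ℤ) :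
    (jExpS M ζ a e b).coeff k ∈ R := by
  rw [coeff_jExpS]
  split_ifs
  · rw [coeff_affQ]
    split_ifs
    · refine mul_mem ?_ ?_
      · rw [jNumR, PowerSeries.coeff_map]
        exact intCast_mem R _
      · generalize (b * ((((k + ((a * (M / e) : ℕ) : ℤ)).toNat / (a * (M / e)) : ℕ) : ℤ) -
          ((1 : ℕ) : ℤ))) = t
        rcases Int.eq_nat_or_neg t with ⟨n, rfl | rfl⟩
        · rw [zpow_natCast]; exact pow_mem (pow_mem h1 _) n
        · rw [zpow_neg, zpow_natCast, ← inv_pow, ← inv_pow]; exact pow_mem (pow_mem h2 _) n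
    · exact zero_mem R
  · exact zero_mem R

end Fermat.Agent.M48.JRat6
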