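/-
Programme M48 (target S48), pillar (P1), chapter [IG1] — helper3.
**(sepA): the separation input of `IG1Ana0.ig1_res_ana`.**

`K` a field of characteristic `0`, `ι : K →+* ℂ`, `ζ ∈ K` with `ι ζ = exp(2πi/M)`, `O` a valuation
ring of `K` with `ζ, ζ⁻¹ ∈ O`, `fS s` the function realised by the generator `s(Q^M)`,
`s ∈ IG1Fam0.gensO O M`.  For `γ ∉ ±Γ₁(M)` some translate `fS s ∘ γ⁻¹` has a `q_M`-expansion in the
Gauss ring whose residue differs from the residue of `s(Q^M)`: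

* `γ ∉ Γ₀(M)`: `s = j(q^M)`; `j(M ·) ∘ γ⁻¹ = j((a z + b)/e)` with `a e = M`, `e > 1`, whose expansion
  `JRat6.jExpS M ζ a e b` has a pole of order `a (M/e) < M²` in `Q`, while `s(Q^M)` has the lowest term
  `Q^{-M²}` (coefficient `1`);
* `γ ∈ Γ₀(M) ∖ ±Γ₁(M)`: `s = g_{M,1}`; `g_{M,1} ∘ γ⁻¹ = g_{M,α}`, `α ≢ ±1`, with expansion
  `g_{M,α}(Q^M)` of constant term `0`, while `g_{M,1}(Q^M)` has constant term `1`.

Also `rel_gFun` (`g_{M,a}` has the `q_M`-expansion `g_{M,a}(Q^M)` over any field) and (intA), the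
integrality of all translates, from `JRat6` / `EisRat6`.

Imported by no statement.
-/
import Mathlib
import Fermat.Agent.M48.IG1Ana0
import Fermat.Agent.M48.JRat6
import Fermat.Agent.M48.EisRat6
import Fermat.Agent.M48.G10Sep4

set_option autoImplicit false
set_option linter.unusedSectionVars false
set_option synthInstance.maxHeartbeats 400000
set_option maxHeartbeats 1000000

noncomputable section

open HahnSeries ModularCurve IntermediateField UpperHalfPlane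
open scoped MatrixGroups

namespace Fermat.Agent.M48.IG1Sep3

open Fermat.Agent.RED.PUR.GaussGen8 Fermat.Agent.RED.PUR.KtGauss8
open Fermat.Agent.ES.N34.GaussVTwoFam25
open Fermat.Agent.M48.DictIface4 Fermat.Agent.M48.QModel8 Fermat.Agent.M48.IG1Fam0
open Fermat.Agent.M48.FullLevelGen6 Fermat.Agent.X0 Fermat.Agent.X0.CuspEquiv
  Fermat.Agent.X0.QExpAffine

/-! ### The expansion of `g_{M,a}` over an arbitrary field -/

section RelG

variable {K : Type} [Field K] (ι : K →+* ℂ) (M : ℕ) [NeZero M]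

/-- `g_{M,a}` has the `q_M`-expansion `g_{M,a}(Q^M)`. -/
theorem rel_gFun {a : ZMod M} (ha : a ≠ 0) :
    Rel ι M (qExpand K M (gqR K M a)) (gFun M a) := by
  obtain ⟨m, P, hP, hf⟩ := (G10QExp5.hasQExp_gFun M a ha).exists_isQExp
  have h1 := hP.level_mul M
  rw [one_mul] at h1
  refine ⟨m * M, _, h1, ?_⟩
  rw [← qExpand_laurentOf, ← hf, QModel8.coeffEmb_gq, ModularCurve.coeffMap_qExpand, coeffMap_gqR]

end RelG

/-! ### Coefficients of the generators -/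

section Coeff

theorem coeff_jqModC_neg_one (κ : Type) [Field κ] : (jqModC κ).coeff (-1) = 1 := by
  rw [JRat6.jqModC_eq_laurentOf, laurentOf_coeff, if_pos (by norm_num)]
  have : ((-1 : ℤ) + ((1 : ℕ) : ℤ)).toNat = 0 := by norm_num
  rw [this, JRat6.coeff_zero_jNumR]

theorem gqR_eq_laurentOf (R : Type*) [CommRing R] (M : ℕ) (a : ZMod M) :
    gqR R M a = laurentOf 1 ((eisPS M a * dedekindEtaUnitInv).map (Int.castRingHom R)) := by
  unfold gqR laurentOf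
  norm_num

theorem coeff_gqR_zero (R : Type*) [CommRing R] (M : ℕ) (a : ZMod M) :
    (gqR R M a).coeff 0 = ((eisCoeff M a 1 : ℤ) : R) := by
  rw [gqR_eq_laurentOf, laurentOf_coeff, if_pos (by norm_num)]
  have : ((0 : ℤ) + ((1 : ℕ) : ℤ)).toNat = 1 := by norm_num
  rw [this, PowerSeries.coeff_map, G10Sep4.coeff_one_eisPS_mul]
  rfl

end Coeff

/-! ### Group theory: `Γ₀(M)` with diagonal `±1` is `±Γ₁(M)` -/

section Grp

open CongruenceSubgroup

theorem mem_pm_of_diag (M : ℕ) [NeZero M] {σ : SL(2, ℤ)} (hσ : σ ∈ Gamma0 M)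
    (h : ((σ 0 0 : ℤ) : ZMod M) = 1 ∨ ((σ 0 0 : ℤ) : ZMod M) = -1) :
    σ ∈ pm (Gamma10 M (M * 1)) := by
  have hc0 : ((σ 1 0 : ℤ) : ZMod M) = 0 := G10Eis4.Gamma0_cast_eq_zero M hσ
  have hαδ := G10Eis4.Gamma0_cast_mul_eq_one M hσ
  have h0 : σ ∈ Gamma0 (M * 1) := by rwa [mul_one]
  rcases h with h1 | h1
  · have hG1 : σ ∈ Gamma1 M := by
      rw [Gamma1_mem]
      refine ⟨h1, ?_, hc0⟩
      rw [h1, one_mul] at hαδ
      exact hαδ
    exact Or.inl (Subgroup.mem_inf.mpr ⟨hG1, h0⟩)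
  · have hG1 : -σ ∈ Gamma1 M := by
      rw [Gamma1_mem]
      refine ⟨?_, ?_, ?_⟩
      · simp [h1]
      · rw [h1] at hαδ
        have : ((σ 1 1 : ℤ) : ZMod M) = -1 := by
          have := congrArg (fun t => -t) hαδ
          simpa using this
        simp [this]
      · simp [hc0]
    have hG0 : -σ ∈ Gamma0 (M * 1) := by
      rw [Gamma0_mem]
      rw [Gamma0_mem] at h0
      simp [h0]
    exact Or.inr (Subgroup.mem_inf.mpr ⟨hG1, hG0⟩)

end Grp

/-! ### (sepA) -/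

section Sep

variable {K : Type} [Field K] (O : ValuationSubring K) {ι : K →+* ℂ} (M : ℕ) [NeZero M]

/-- the generator `j(q^M)`. -/
theorem jM_mem_gensO : qExpand ↥O M (jqModC ↥O) ∈ gensO O M :=
  Or.inl ⟨M, inferInstance, Dvd.intro _ rfl, rfl⟩

/-- the generator `g_{M,1}`. -/
theorem g1_mem_gensO :
    haveI : NeZero (1 : ℕ) := ⟨one_ne_zero⟩
    qExpand ↥O 1 (gqR ↥O M (((1 : (ZMod M)ˣ) : ZMod M))) ∈ gensO O M :=
  Or.inr ⟨1, 1, ⟨one_ne_zero⟩, dvd_rfl, rfl⟩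

/-- **Case `γ⁻¹ ∉ Γ₀(M)`.** -/
theorem sep_j {ζ : K} (hζ : ι ζ = zetaC M) (hζO : ζ ∈ O) (hζO' : ζ⁻¹ ∈ O) (σ : SL(2, ℤ))
    (hσ : σ ∉ CongruenceSubgroup.Gamma0 M) :
    ∃ (a' : LaurentSeries K) (ha' : a' ∈ gaussRing O), Rel ι M a' (compSL (jdFun M) σ) ∧
      gaussRed O ⟨a', ha'⟩ ≠ qExpand (Res O) M (redL O (qExpand ↥O M (jqModC ↥O))) := by
  obtain ⟨σ', a, e, b, ha, he, hae, hb0, hbe, h10, h11, hrel⟩ :=
    JRat6.exists_rel_compSL_jdFun (ι := ι) M hζ M dvd_rfl σ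
  have he1 : e ≠ 1 := by
    rintro rfl
    apply hσ
    rw [CongruenceSubgroup.Gamma0_mem, h10]
    rw [mul_one] at hae
    rw [hae]
    push_cast
    rw [ZMod.natCast_self, mul_zero]
  have hMe : M / e = a := Nat.div_eq_of_eq_mul_left he hae.symm
  have hlt : a * (M / e) < M * M := by
    rw [hMe, ← hae]
    have he2 : 2 ≤ e := by omega
    have hlt1 : a < a * e := by nlinarith
    exact Nat.mul_lt_mul'' hlt1 hlt1
  have hco : ∀ k, (JRat6.jExpS M ζ a e b).coeff k ∈ O := fun k =>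
    JRat6.coeff_jExpS_mem M O.toSubring hζO hζO' a e b k
  refine ⟨JRat6.jExpS M ζ a e b, GaussCoeff6.mem_gaussRing_of_coeff O hco, hrel, ?_⟩
  intro heq
  have h := congrArg (fun y : LaurentSeries (Res O) => y.coeff ((M : ℤ) * ((M : ℤ) * (-1)))) heq
  beta_reduce at h
  rw [GaussCoeff6.gaussRed_coeff O hco, redL_qExpand, qExpand_coeff_mul, qExpand_coeff_mul] at h
  have h2 : redL O (jqModC ↥O) = jqModC (Res O) := by
    show coeffMap (res0 O) _ = _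
    rw [coeffMap_jqModC]
  rw [h2, coeff_jqModC_neg_one] at h
  have h3 : (JRat6.jExpS M ζ a e b).coeff ((M : ℤ) * ((M : ℤ) * (-1))) = 0 := by
    apply JRat6.coeff_jExpS_of_lt
    have : ((a * (M / e) : ℕ) : ℤ) < ((M * M : ℕ) : ℤ) := by exact_mod_cast hlt
    push_cast at this ⊢
    nlinarith
  have h4 : (⟨(JRat6.jExpS M ζ a e b).coeff ((M : ℤ) * ((M : ℤ) * (-1))), hco _⟩ : ↥O) = 0 :=
    Subtype.ext h3
  rw [h4, map_zero] at h
  exact zero_ne_one h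

/-- for `M ≥ 2` a unit `α ≠ ±1` of `ℤ/M` forces `1 ≠ -1`. -/
theorem one_ne_neg_one_of_ne (hM : 2 ≤ M) {α : ZMod M} (hα0 : α ≠ 0) (hα1 : α ≠ 1) :
    (1 : ZMod M) ≠ -1 := by
  intro h
  have h2 : ((2 : ℕ) : ZMod M) = 0 := by
    have : (1 : ZMod M) + 1 = 0 := by nth_rewrite 1 [h]; exact neg_add_cancel 1
    push_cast
    rw [← this]; norm_num
  have hdvd : M ∣ 2 := (ZMod.natCast_eq_zero_iff 2 M).mp h2
  have hM2 : M = 2 := le_antisymm (Nat.le_of_dvd (by norm_num) hdvd) hM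
  subst hM2
  revert hα0 hα1
  revert α
  decide

/-- **Case `γ⁻¹ ∈ Γ₀(M)`, diagonal `≢ ±1`.** -/
theorem sep_g (hM : 2 ≤ M) (σ : SL(2, ℤ)) (hσ : σ ∈ CongruenceSubgroup.Gamma0 M)
    (hα1 : ((σ 0 0 : ℤ) : ZMod M) ≠ 1) (hα2 : ((σ 0 0 : ℤ) : ZMod M) ≠ -1) :
    haveI : NeZero (1 : ℕ) := ⟨one_ne_zero⟩
    ∃ (a' : LaurentSeries K) (ha' : a' ∈ gaussRing O), Rel ι M a' (compSL (gFun M 1) σ) ∧
      gaussRed O ⟨a', ha'⟩ ≠
        qExpand (Res O) M (redL O (qExpand ↥O 1 (gqR ↥O M (((1 : (ZMod M)ˣ) : ZMod M))))) := by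
  haveI : NeZero (1 : ℕ) := ⟨one_ne_zero⟩
  have : Fact (1 < M) := ⟨by omega⟩
  set α : ZMod M := ((σ 0 0 : ℤ) : ZMod M) with hα
  have hαδ := G10Eis4.Gamma0_cast_mul_eq_one M hσ
  have hα0 : α ≠ 0 := by
    intro h
    rw [← hα, h, zero_mul] at hαδ
    exact zero_ne_one hαδ
  have hfun : compSL (gFun M 1) σ = gFun M α := by
    funext z
    show gFun M 1 (σ • z) = _
    rw [G10Eis4.gFun_smul_of_mem_Gamma0 M 1 hσ, one_mul]
  have hemb : embK O (gqR ↥O M α) = gqR K M α := by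
    show coeffMap O.subtype _ = _
    rw [coeffMap_gqR]
  have hmem : qExpand K M (embK O (gqR ↥O M α)) ∈ gaussRing O := by
    rw [← embK_qExpand]; exact embK_mem O _
  refine ⟨qExpand K M (embK O (gqR ↥O M α)), hmem, ?_, ?_⟩
  · rw [hfun, hemb]
    exact rel_gFun ι M hα0
  · rw [gaussRed_qExpand_embK O M (gqR ↥O M α) hmem]
    intro heq
    have h1 := qExpand_injective M heq
    rw [redL_qExpand, qExpand_one_apply] at h1
    have h2 : ∀ c : ZMod M, redL O (gqR ↥O M c) = gqR (Res O) M c := fun c => by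
      show coeffMap (res0 O) _ = _
      rw [coeffMap_gqR]
    rw [h2, h2, Units.val_one] at h1
    have h3 := congrArg (fun y : LaurentSeries (Res O) => y.coeff 0) h1
    beta_reduce at h3
    rw [coeff_gqR_zero, coeff_gqR_zero, G10Sep4.eisCoeff_one, G10Sep4.eisCoeff_one,
      if_neg (fun e => hα1 e.symm), if_neg (fun e => hα2 (by rw [e, neg_neg])), if_pos rfl,
      if_neg (one_ne_neg_one_of_ne M hM hα0 hα1)] at h3
    simp at h3

/-- The function realised by `j(q^M)(Q^M)` is `j(M ·)`. -/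
theorem fS_jM (fS : LaurentSeries ↥O → ℍ → ℂ)
    (hSrel : ∀ s ∈ gensO O M, Rel ι M (qExpand K M (embK O s)) (fS s)) :
    fS (qExpand ↥O M (jqModC ↥O)) = jdFun M := by
  have hr := hSrel _ (jM_mem_gensO O M)
  have e1 : embK O (qExpand ↥O M (jqModC ↥O)) = qExpand K M (jqModC K) := by
    rw [embK_qExpand]
    congr 1
    show coeffMap O.subtype _ = _
    rw [coeffMap_jqModC]
  rw [e1] at hr
  exact hr.right_unique (JRat6.rel_jdFun (ι := ι) M M)

/-- The function realised by `g_{M,1}(Q^M)` is `g_{M,1}`. -/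
theorem fS_g1 (hM : 2 ≤ M) (fS : LaurentSeries ↥O → ℍ → ℂ)
    (hSrel : ∀ s ∈ gensO O M, Rel ι M (qExpand K M (embK O s)) (fS s)) :
    haveI : NeZero (1 : ℕ) := ⟨one_ne_zero⟩
    fS (qExpand ↥O 1 (gqR ↥O M (((1 : (ZMod M)ˣ) : ZMod M)))) = gFun M 1 := by
  haveI : NeZero (1 : ℕ) := ⟨one_ne_zero⟩
  have : Fact (1 < M) := ⟨by omega⟩
  have hr := hSrel _ (g1_mem_gensO O M)
  have e1 : embK O (qExpand ↥O 1 (gqR ↥O M (((1 : (ZMod M)ˣ) : ZMod M)))) = gqR K M 1 := by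
    rw [embK_qExpand, qExpand_one_apply, Units.val_one]
    show coeffMap O.subtype _ = _
    rw [coeffMap_gqR]
  rw [e1] at hr
  exact hr.right_unique (rel_gFun ι M one_ne_zero)

/-- **(sepA)**: the separation input of `IG1Ana0.ig1_res_ana`. -/
theorem sepA (hM : 2 ≤ M) {ζ : K} (hζ : ι ζ = zetaC M) (hζO : ζ ∈ O) (hζO' : ζ⁻¹ ∈ O)
    (fS : LaurentSeries ↥O → ℍ → ℂ)
    (hSrel : ∀ s ∈ gensO O M, Rel ι M (qExpand K M (embK O s)) (fS s)) :
    ∀ γ : SL(2, ℤ), γ ∉ pm (Gamma10 M (M * 1)) →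
      ∃ s ∈ gensO O M, ∃ (a' : LaurentSeries K) (ha' : a' ∈ gaussRing O),
        Rel ι M a' (compSL (fS s) γ⁻¹) ∧
          gaussRed O ⟨a', ha'⟩ ≠ qExpand (Res O) M (redL O s) := by
  haveI : NeZero (1 : ℕ) := ⟨one_ne_zero⟩
  intro γ hγ
  have hγ' : γ⁻¹ ∉ pm (Gamma10 M (M * 1)) := fun h => hγ (by simpa using inv_mem h)
  by_cases h0 : γ⁻¹ ∈ CongruenceSubgroup.Gamma0 M
  · have hα1 : (((γ⁻¹ : SL(2, ℤ)) 0 0 : ℤ) : ZMod M) ≠ 1 := fun h =>
      hγ' (mem_pm_of_diag M h0 (Or.inl h))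
    have hα2 : (((γ⁻¹ : SL(2, ℤ)) 0 0 : ℤ) : ZMod M) ≠ -1 := fun h =>
      hγ' (mem_pm_of_diag M h0 (Or.inr h))
    obtain ⟨a', ha', hrel, hne⟩ := sep_g (ι := ι) O M hM γ⁻¹ h0 hα1 hα2
    refine ⟨_, g1_mem_gensO O M, a', ha', ?_, hne⟩
    rw [fS_g1 O M hM fS hSrel]
    exact hrel
  · obtain ⟨a', ha', hrel, hne⟩ := sep_j (ι := ι) O M hζ hζO hζO' γ⁻¹ h0
    refine ⟨_, jM_mem_gensO O M, a', ha', ?_, hne⟩
    rw [fS_jM O M fS hSrel]
    exact hrel

end Sep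

end Fermat.Agent.M48.IG1Sep3
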