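/-
Programme M48 (target S48), pillar (P1), chapter [IG1] — helper3.
**(intA): the integrality input of `IG1Ana0.ig1_res_ana`.**

`K` a field, `ι : K →+* ℂ`, `ζ ∈ K` with `ι ζ = exp(2πi/M)`, `O` a valuation ring of `K` with
`ζ, ζ⁻¹ ∈ O` and residue characteristic `ℓ ∤ M`, `fS s` the function realised by the generator
`s(Q^M)`, `s ∈ IG1Fam0.gensO O M`.  Every translate `fS s ∘ γ`, `γ ∈ SL(2, ℤ)`, has a `q_M`-expansion
over `K` lying in the Gauss ring of `O`: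

* `s = j(q^d)`, `d ∣ M`: the expansion `JRat6.jExpS M ζ a e b` has coefficients in `ℤ[ζ, ζ⁻¹]`;
* `s = g_{M,a}`: the expansion `EisRat6.gExp M ζ a γ` has coefficients in
  `ℤ[ζ, 1/M, (1 - ζ^b)⁻¹ : 0 < b < M] = ℤ[ζ, 1/M]` (`∏_{0<b<M} (1 - ζ^b) = M`).

Imported by no statement.
-/
import Mathlib
import Fermat.Agent.M48.IG1Sep3

set_option autoImplicit false
set_option linter.unusedSectionVars false
set_option linter.style.haveILetI false
set_option synthInstance.maxHeartbeats 400000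
set_option maxHeartbeats 1000000

noncomputable section

open HahnSeries ModularCurve IntermediateField UpperHalfPlane
open scoped MatrixGroups

namespace Fermat.Agent.M48.IG1Int3

open Fermat.Agent.RED.PUR.GaussGen8 Fermat.Agent.RED.PUR.KtGauss8
open Fermat.Agent.ES.N34.GaussVTwoFam25
open Fermat.Agent.M48.DictIface4 Fermat.Agent.M48.QModel8 Fermat.Agent.M48.IG1Fam0
open Fermat.Agent.M48.FullLevelGen6 Fermat.Agent.X0 Fermat.Agent.X0.CuspEquiv
  Fermat.Agent.X0.QExpAffine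

/-! ### Units of `O` -/

section Units

variable {K : Type} [Field K] (O : ValuationSubring K)

/-- `1/M ∈ O` when the residue characteristic does not divide `M`. -/
theorem inv_natCast_mem (ℓ : ℕ) [CharP (Res O) ℓ] (M : ℕ) (hℓM : ¬ ℓ ∣ M) : ((M : K))⁻¹ ∈ O := by
  have h1 : res0 O ((M : ℕ) : ↥O) ≠ 0 := by
    rw [map_natCast]
    intro h0
    exact hℓM ((CharP.cast_eq_zero_iff (Res O) ℓ M).mp h0)
  obtain ⟨u, hu⟩ := (IsLocalRing.residue_ne_zero_iff_isUnit _).mp h1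
  have h2 : O.subtype (u : ↥O) * O.subtype ((u⁻¹ : (↥O)ˣ) : ↥O) = 1 := by
    rw [← map_mul, Units.mul_inv, map_one]
  rw [hu, map_natCast] at h2
  have h3 : ((M : K))⁻¹ = O.subtype ((u⁻¹ : (↥O)ˣ) : ↥O) := inv_eq_of_mul_eq_one_right h2
  rw [h3]
  exact (((u⁻¹ : (↥O)ˣ) : ↥O)).2

end Units

/-! ### `(1 - ζ^b)⁻¹ ∈ ℤ[ζ, 1/M]` -/

section Cyclo

variable {K : Type} [Field K]

theorem isPrimitiveRoot_of_map (ι : K →+* ℂ) (M : ℕ) [NeZero M] {ζ : K} (hζ : ι ζ = zetaC M) :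
    IsPrimitiveRoot ζ M := by
  have h : IsPrimitiveRoot (ι ζ) M := by
    rw [hζ]
    exact Complex.isPrimitiveRoot_exp M (NeZero.ne M)
  exact h.of_map_of_injective ι.injective

/-- `(1 - ζ^b)⁻¹ ∈ R` for `0 < b < M`, `R ∋ ζ, 1/M` (`∏_{0<k<M} (1 - ζ^k) = M`). -/
theorem one_sub_pow_inv_mem (R : Subring K) (M : ℕ) {ζ : K} (hprim : IsPrimitiveRoot ζ M)
    (hM0 : (M : K) ≠ 0) (hζR : ζ ∈ R) (hMR : ((M : K))⁻¹ ∈ R) (b : ℕ) (hb0 : 0 < b) (hbM : b < M) :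
    (1 - ζ ^ b)⁻¹ ∈ R := by
  obtain ⟨n, rfl⟩ : ∃ n, M = n + 1 := ⟨M - 1, by omega⟩
  have hprod := hprim.prod_one_sub_pow_eq_order
  obtain ⟨k, rfl⟩ : ∃ k, b = k + 1 := ⟨b - 1, by omega⟩
  have hk : k ∈ Finset.range n := Finset.mem_range.mpr (by omega)
  rw [← Finset.mul_prod_erase _ _ hk] at hprod
  have hM0' : ((n : K) + 1) ≠ 0 := by simpa using hM0
  have hP0 : (∏ x ∈ (Finset.range n).erase k, (1 - ζ ^ (x + 1))) ≠ 0 := by
    intro h0
    rw [h0, mul_zero] at hprod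
    exact hM0' hprod.symm
  have hinv : (1 - ζ ^ (k + 1))⁻¹ =
      (∏ x ∈ (Finset.range n).erase k, (1 - ζ ^ (x + 1))) * (((n + 1 : ℕ) : K))⁻¹ := by
    have hN : (((n + 1 : ℕ) : K)) = (1 - ζ ^ (k + 1)) *
        ∏ x ∈ (Finset.range n).erase k, (1 - ζ ^ (x + 1)) := by
      push_cast
      exact hprod.symm
    rw [hN, mul_inv, mul_comm (1 - ζ ^ (k + 1))⁻¹, ← mul_assoc,
      mul_inv_cancel₀ hP0, one_mul]
  rw [hinv]
  refine Subring.mul_mem _ (Subring.prod_mem _ fun x _ => ?_) hMR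
  exact Subring.sub_mem _ (Subring.one_mem _) (Subring.pow_mem _ hζR _)

end Cyclo

/-! ### (intA) -/

section Int

variable {K : Type} [Field K] (O : ValuationSubring K) {ι : K →+* ℂ} (M : ℕ) [NeZero M]

/-- all translates of `j(d ·)`, `d ∣ M`, have expansions in the Gauss ring. -/
theorem int_j {ζ : K} (hζ : ι ζ = zetaC M) (hζO : ζ ∈ O) (hζO' : ζ⁻¹ ∈ O) (d : ℕ) [NeZero d]
    (hd : d ∣ M) (γ : SL(2, ℤ)) :
    ∃ a' : LaurentSeries K, Rel ι M a' (compSL (jdFun d) γ) ∧ a' ∈ gaussRing O := by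
  obtain ⟨σ', a, e, b, -, -, -, -, -, -, -, hrel⟩ :=
    JRat6.exists_rel_compSL_jdFun (ι := ι) M hζ d hd γ
  exact ⟨_, hrel, GaussCoeff6.mem_gaussRing_of_coeff O fun k =>
    JRat6.coeff_jExpS_mem M O.toSubring hζO hζO' a e b k⟩

/-- all translates of `g_{M,a}`, `a ≠ 0`, have expansions in the Gauss ring. -/
theorem int_g (ℓ : ℕ) [CharP (Res O) ℓ] (hℓM : ¬ ℓ ∣ M) {ζ : K} (hζ : ι ζ = zetaC M)
    (hζO : ζ ∈ O) {a : ZMod M} (ha : a ≠ 0) (γ : SL(2, ℤ)) :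
    ∃ a' : LaurentSeries K, Rel ι M a' (compSL (gFun M a) γ) ∧ a' ∈ gaussRing O := by
  have hM0 : (M : K) ≠ 0 := by
    intro h0
    have := congrArg ι h0
    rw [map_natCast, map_zero] at this
    exact NeZero.ne M (by exact_mod_cast this)
  have hMO : ((M : K))⁻¹ ∈ O := inv_natCast_mem O ℓ M hℓM
  have hprim := isPrimitiveRoot_of_map ι M hζ
  exact ⟨_, EisRat6.rel_gExp M hζ ha γ, GaussCoeff6.mem_gaussRing_of_coeff O fun k =>
    EisRat6.coeff_gExp_mem M O.toSubring hζO hMO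
      (fun b hb0 hbM => one_sub_pow_inv_mem O.toSubring M hprim hM0 hζO hMO b hb0 hbM) a γ k⟩

/-- **(intA)**: the integrality input of `IG1Ana0.ig1_res_ana`. -/
theorem intA (ℓ : ℕ) [CharP (Res O) ℓ] (hM : 2 ≤ M) (hℓM : ¬ ℓ ∣ M) {ζ : K}
    (hζ : ι ζ = zetaC M) (hζO : ζ ∈ O) (hζO' : ζ⁻¹ ∈ O)
    (fS : LaurentSeries ↥O → ℍ → ℂ)
    (hSrel : ∀ s ∈ gensO O M, Rel ι M (qExpand K M (embK O s)) (fS s)) :
    ∀ s ∈ gensO O M, ∀ γ : SL(2, ℤ), ∃ a' : LaurentSeries K,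
      Rel ι M a' (compSL (fS s) γ) ∧ a' ∈ gaussRing O := by
  have : Fact (1 < M) := ⟨by omega⟩
  intro s hs γ
  have hr := hSrel s hs
  rcases hs with ⟨d, hd, hdM, rfl⟩ | ⟨a, e, he, heL, rfl⟩
  · rw [mul_one] at hdM
    have e1 : embK O (qExpand ↥O d (jqModC ↥O)) = qExpand K d (jqModC K) := by
      rw [embK_qExpand]
      congr 1
      show coeffMap O.subtype _ = _
      rw [coeffMap_jqModC]
    rw [e1] at hr
    rw [hr.right_unique (JRat6.rel_jdFun (ι := ι) M d)]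
    exact int_j O M hζ hζO hζO' d hdM γ
  · obtain rfl : e = 1 := Nat.dvd_one.mp heL
    have e1 : embK O (qExpand ↥O 1 (gqR ↥O M (a : ZMod M))) = gqR K M (a : ZMod M) := by
      rw [embK_qExpand, qExpand_one_apply]
      show coeffMap O.subtype _ = _
      rw [coeffMap_gqR]
    rw [e1] at hr
    rw [hr.right_unique (IG1Sep3.rel_gFun ι M a.ne_zero)]
    exact int_g O M ℓ hℓM hζ hζO a.ne_zero γ

end Int

end Fermat.Agent.M48.IG1Int3
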