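/-
Programme M48, pillar (P1), chapter [IG1] — helper9.  **`PurGauss1.IG1 M L` for ALL fields of
characteristic `ℓ` from ONE field of characteristic `ℓ` per prime `ℓ ∤ M L`.**

The degree `[κ(j(q^d), g_{M,a}(q^e)) : κ(j)]` does not depend on the field `κ` of characteristic `ℓ`:
it is the degree over the prime field `𝔽_ℓ` (base change of constants `ConstBC2.relfinrank_coeffMap_eq`,
both ways through `ZMod ℓ`).

* `relfinrank_eq_zmod` : `[fieldG10C κ M L : κ(j)] = [fieldG10C 𝔽_ℓ M L : 𝔽_ℓ(j)]` as soon as one of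
  the two is finite;
* `relfinrank_eq_of_charP` : the same for two fields `k`, `κ` of characteristic `ℓ`;
* **`ig1_of_one`** : `IG1 M L` from, for every prime `ℓ ∤ M L`, ONE field `k₀` of characteristic `ℓ`
  with `#(SL(2,ℤ) ⧸ ±Γ) ≤ [fieldG10C k₀ M L : k₀(j)]`.

Nothing is left unproved in this file.  Imported by no statement.
-/
import Mathlib
import Fermat.Agent.M48.GaussUnitG9
import Fermat.Agent.M48.ConstBC2

set_option autoImplicit false
set_option linter.unusedSectionVars false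
set_option linter.style.haveILetI false

noncomputable section

open HahnSeries ModularCurve IntermediateField
open scoped MatrixGroups

namespace Fermat.Agent.M48.IG1Descent9

open Fermat.Agent.M48.DictIface4 Fermat.Agent.M48.QModel8 Fermat.Agent.M48.PurGauss1
  Fermat.Agent.M48.GaussUnitG9

section

variable (ℓ : ℕ) [Fact ℓ.Prime] (κ : Type*) [Field κ] [CharP κ ℓ] (M L : ℕ)

/-- **The degree over `κ(j)` is the degree over `𝔽_ℓ(j)`.** -/
theorem relfinrank_eq_zmod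
    (h : relfinrank κ⟮jqModC κ⟯ (fieldG10C κ M L) ≠ 0 ∨
      relfinrank (ZMod ℓ)⟮jqModC (ZMod ℓ)⟯ (fieldG10C (ZMod ℓ) M L) ≠ 0) :
    relfinrank κ⟮jqModC κ⟯ (fieldG10C κ M L) =
      relfinrank (ZMod ℓ)⟮jqModC (ZMod ℓ)⟯ (fieldG10C (ZMod ℓ) M L) := by
  letI : Algebra (ZMod ℓ) κ := ZMod.algebra κ ℓ
  have h1 := ConstBC2.relfinrank_coeffMap_eq (K := κ) (gens (ZMod ℓ) M L)
    (x := jqModC (ZMod ℓ)) (jqModC_mem_fieldG10C (ZMod ℓ) M L)
    (Fermat.Agent.IG.VAL.OvBasics22.transcendental_jqModC (ZMod ℓ))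
  rw [image_gens, coeffMap_jqModC] at h1
  exact h1 h

end

/-- The degree over `κ(j)` is the same for all fields `κ` of characteristic `ℓ`. -/
theorem relfinrank_eq_of_charP (ℓ : ℕ) [Fact ℓ.Prime] (k : Type*) [Field k] [CharP k ℓ]
    (κ : Type*) [Field κ] [CharP κ ℓ] (M L : ℕ)
    (h : relfinrank k⟮jqModC k⟯ (fieldG10C k M L) ≠ 0) :
    relfinrank κ⟮jqModC κ⟯ (fieldG10C κ M L) = relfinrank k⟮jqModC k⟯ (fieldG10C k M L) := by
  have h1 := relfinrank_eq_zmod ℓ k M L (Or.inl h)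
  rw [h1]
  exact relfinrank_eq_zmod ℓ κ M L (Or.inr (h1 ▸ h))

/-- **`IG1 M L` from one field per prime.** -/
theorem ig1_of_one (M L : ℕ)
    (h : ∀ (ℓ : ℕ) [Fact ℓ.Prime], ¬ ℓ ∣ M * L →
      ∃ (k₀ : Type) (_ : Field k₀) (_ : CharP k₀ ℓ),
        Nat.card (SL(2, ℤ) ⧸ pm (Gamma10 M (M * L))) ≤
          relfinrank k₀⟮jqModC k₀⟯ (fieldG10C k₀ M L)) :
    IG1 M L := by
  intro ℓ _ κ _ _ hℓ
  by_cases hc : Nat.card (SL(2, ℤ) ⧸ pm (Gamma10 M (M * L))) = 0
  · rw [hc]; exact Nat.zero_le _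
  obtain ⟨k₀, _, _, hk₀⟩ := h ℓ hℓ
  have h0 : relfinrank k₀⟮jqModC k₀⟯ (fieldG10C k₀ M L) ≠ 0 := by
    intro h0
    rw [h0] at hk₀
    exact hc (Nat.le_zero.mp hk₀)
  rw [relfinrank_eq_of_charP ℓ k₀ κ M L h0]
  exact hk₀

end Fermat.Agent.M48.IG1Descent9
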