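/-
Programme M48, pillar (P1), chapter [IG1] — helper9.  **The plug**: lead's analytic-shape end
assembly `IG1Ana0.ig1_res_ana` with ALL the Galois / degree / finiteness inputs discharged, and the
descent `IG1Descent9.ig1_of_one` applied.  What remains are only properties of the concrete realised
family `F : FullLevelGen6.RealFam ι M` (helper6) and of the residual separation (helper3):

* `hΓ`    : `Γ(M)` acts trivially (`ρ(γ) = 1` for `γ ∈ Γ(M)`);
* `hhol`  : the functions of the family are holomorphic on `ℍ`;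
* `ζ`     : a unit of `O` with `ι ζ = e^{2πi/M}`;
* `hNfrac`: `F.N ≤ Frac O((Q))`;
* `fS`, `hSA`, `hSrel` : each integral generator `s ∈ IG1Fam0.gensO O M` has `s(Q^M) ∈ F.A`,
  realising `fS s`;
* `hint`  : **(intA)** all translates of the `fS s` have `q_M`-expansions in the Gauss ring;
* `hsepA` : **(sepA)** residual separation of the cosets of `±Γ₁(M)`.

Discharged here: `hfin` (`ρ` factors through the finite group `SL(2, ℤ)/Γ(M)`), `hJA`/`hJrel`
(`j(Q^M)` is the generator `d = 1`; `JRat6.rel_jdFun`), `hE₀N` (the `j(Q^{dM})` are generators),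
**(D1)** `hD1` (`FullFix9.fixed_of_degree` with `RealFam.mem_adjoin_of_rho_fixed`, the `Γ₀(M)`-
invariance of `j(d τ)`, `d ∣ M`, and `[K(j(q^d) : d ∣ M) : K(j)] = [SL(2, ℤ) : Γ₀(M)]`).

Output: **`card_le_relfinrank`** (at `κ = Res O`), the bundle **`AnaData`**, and
**`ig1_of_data`** : `PurGauss1.IG1 M 1` from one datum per prime `ℓ ∤ M`.

Nothing is left unproved in this file.  Imported by no statement.
-/
import Mathlib
import Fermat.Agent.M48.IG1Ana0
import Fermat.Agent.M48.FullFix9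
import Fermat.Agent.M48.JRat6
import Fermat.Agent.M48.IG1Descent9

set_option autoImplicit false
set_option linter.unusedSectionVars false
set_option linter.style.haveILetI false
set_option synthInstance.maxHeartbeats 400000

noncomputable section

open HahnSeries ModularCurve IntermediateField UpperHalfPlane
open scoped MatrixGroups

namespace Fermat.Agent.M48.IG1Plug9

open Fermat.Agent.RED.PUR.GaussGen8 Fermat.Agent.RED.PUR.KtGauss8
  Fermat.Agent.RED.PUR.GaussBridge10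
open Fermat.Agent.M48.DictIface4 Fermat.Agent.M48.QModel8 Fermat.Agent.M48.PurGauss1
  Fermat.Agent.M48.GaussUnitG9 Fermat.Agent.M48.FullLevelGen6 Fermat.Agent.M48.FullFix9
  Fermat.Agent.M48.IG1Fam0
open Fermat.Agent.X0 Fermat.Agent.X0.CuspEquiv Fermat.Agent.X0.QExpAffine

/-! ### Finiteness of the image of `ρ` -/

section Finite

/-- A homomorphism from `SL(2, ℤ)` killing `Γ(M)` has finite image. -/
theorem finite_range_of_Gamma {G : Type*} [Group G] (ρ : SL(2, ℤ) →* G) (M : ℕ) [NeZero M]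
    (hΓ : ∀ γ ∈ CongruenceSubgroup.Gamma M, ρ γ = 1) : Finite ρ.range := by
  have hle : CongruenceSubgroup.Gamma M ≤ ρ.ker := fun γ hγ => MonoidHom.mem_ker.mpr (hΓ γ hγ)
  haveI : ρ.ker.FiniteIndex := Subgroup.finiteIndex_of_le hle
  haveI : Finite (SL(2, ℤ) ⧸ ρ.ker) := Subgroup.finite_quotient_of_finiteIndex
  exact Finite.of_equiv _ (QuotientGroup.quotientKerEquivRange ρ).toEquiv

end Finite

/-! ### `j(Q^M)` in the `(r, U)` form -/

section JForm

variable (K : Type) [Field K] (M : ℕ) [NeZero M]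

/-- `q^M j(q^M)` as a power series. -/
def jU : PowerSeries K := (JRat6.jNumR K).expand M (NeZero.ne M)

theorem constantCoeff_jU : PowerSeries.constantCoeff (jU K M) = 1 := by
  unfold jU
  rw [PowerSeries.constantCoeff_expand, ← PowerSeries.coeff_zero_eq_constantCoeff_apply,
    JRat6.coeff_zero_jNumR]

theorem J_eq_laurentOf : qExpand K M (jqModC K) = laurentOf (1 * M) (jU K M) := by
  rw [JRat6.jqModC_eq_laurentOf, qExpand_laurentOf]
  rfl

theorem jdFun_one' : jdFun 1 = jFun := by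
  funext z
  unfold jdFun
  congr 1
  apply UpperHalfPlane.ext
  rw [coe_scaleH, Nat.cast_one, one_mul]

end JForm

/-! ### Automorphisms fixing generators -/

section Fix

variable {K : Type*} [Field K] {N : IntermediateField K (LaurentSeries K)}

theorem algEquiv_eq_of_mem_adjoin (σ : ↥N ≃ₐ[K] ↥N) (T : Set ↥N) (hT : ∀ t ∈ T, σ t = t) {y : ↥N}
    (hy : y ∈ IntermediateField.adjoin K T) : σ y = y := by
  induction hy using IntermediateField.adjoin_induction with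
  | mem x hx => exact hT x hx
  | algebraMap c => exact σ.commutes c
  | add x y _ _ hx hy => rw [map_add, hx, hy]
  | inv x _ hx => rw [map_inv₀, hx]
  | mul x y _ _ hx hy => rw [map_mul, hx, hy]

/-- an automorphism of `N` fixing the elements of a set `T ⊆ N` fixes `K(T) ∩ N`. -/
theorem algEquiv_eq_of_coe_mem_adjoin (σ : ↥N ≃ₐ[K] ↥N) (T : Set (LaurentSeries K))
    (hTN : ∀ t ∈ T, t ∈ N) (hT : ∀ (t : LaurentSeries K) (ht : t ∈ T), σ ⟨t, hTN t ht⟩ = ⟨t, hTN t ht⟩)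
    (y : ↥N) (hy : (y : LaurentSeries K) ∈ IntermediateField.adjoin K T) : σ y = y := by
  let T' : Set ↥N := {y | (y : LaurentSeries K) ∈ T}
  have himg : N.val '' T' = T := by
    ext t
    constructor
    · rintro ⟨y, hy, rfl⟩; exact hy
    · intro ht; exact ⟨⟨t, hTN t ht⟩, ht, rfl⟩
  have hmap : (IntermediateField.adjoin K T').map N.val = IntermediateField.adjoin K T := by
    rw [IntermediateField.adjoin_map, himg]
  rw [← hmap] at hy
  obtain ⟨y', hy', hyy'⟩ := (IntermediateField.mem_map _).mp hy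
  have : y' = y := Subtype.ext hyy'
  rw [← this]
  refine algEquiv_eq_of_mem_adjoin σ T' (fun t ht => ?_) hy'
  exact hT (t : LaurentSeries K) ht

end Fix

/-! ### The plug -/

section Plug

open CongruenceSubgroup

variable {K : Type} [Field K] [CharZero K] {ι : K →+* ℂ} (O : ValuationSubring K)
  [IsDiscreteValuationRing ↥O] {π : ↥O} (M : ℕ) [NeZero M] (F : RealFam ι M)

theorem map_fullC_eq_adjoin :
    (modularFunctionFieldFullC K M).map (qExpandAlgHomC K M) =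
      IntermediateField.adjoin K (qExpand K M '' divisorExpansionsC K M) := by
  unfold modularFunctionFieldFullC
  rw [IntermediateField.adjoin_map]
  rfl

/-- the integral generator `j(q^d)`, `d ∣ M`. -/
theorem jd_mem_gensO (d : ℕ) [NeZero d] (hd : d ∣ M) :
    qExpand ↥O d (jqModC ↥O) ∈ gensO O M :=
  Or.inl ⟨d, inferInstance, by rwa [mul_one], rfl⟩

theorem embK_jd (d : ℕ) [NeZero d] :
    embK O (qExpand ↥O d (jqModC ↥O)) = qExpand K d (jqModC K) := embK_jdO O d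

/-- `Γ₀(M)`-invariance of `j(d τ)`, `d ∣ M`. -/
theorem compSL_jdFun_of_mem_Gamma0 (d : ℕ) [NeZero d] (hd : d ∣ M) (γ : SL(2, ℤ))
    (hγ : γ ∈ Gamma0 M) : compSL (jdFun d) γ = jdFun d := by
  have hM : (M : ℤ) ∣ γ 1 0 := by
    rw [Gamma0_mem] at hγ
    exact (ZMod.intCast_zmod_eq_zero_iff_dvd _ _).mp hγ
  have hd' : (d : ℤ) ∣ γ 1 0 := (Int.natCast_dvd_natCast.mpr hd).trans hM
  funext z
  exact Fermat.Agent.X0.Analytic.jdFun_smul_of_dvd γ d hd' z

set_option maxHeartbeats 1000000 in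
/-- **[IG1] at `κ = Res O`: the plug.** -/
theorem card_le_relfinrank (hπ : Irreducible π) (ℓ : ℕ) [Fact ℓ.Prime] [CharP (Res O) ℓ]
    (hM : 2 ≤ M) (hℓM : ¬ ℓ ∣ M)
    (hΓ : ∀ γ ∈ Gamma M, F.rho γ = 1)
    (hhol : ∀ i, F.f i ∈ HolH)
    (ζ : K) (hζ0 : ζ ≠ 0) (hζ : ι ζ = zetaC M) (hζO : ζ ∈ O) (hζO' : ζ⁻¹ ∈ O)
    (hNfrac : F.N ≤ fracField O)
    (fS : LaurentSeries ↥O → ℍ → ℂ)
    (hSA : ∀ s ∈ gensO O M, qExpand K M (embK O s) ∈ F.A)
    (hSrel : ∀ s ∈ gensO O M, Rel ι M (qExpand K M (embK O s)) (fS s))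
    (hint : ∀ s ∈ gensO O M, ∀ γ : SL(2, ℤ), ∃ a' : LaurentSeries K,
      Rel ι M a' (compSL (fS s) γ) ∧ a' ∈ gaussRing O)
    (hsepA : ∀ γ : SL(2, ℤ), γ ∉ pm (Gamma10 M (M * 1)) →
      ∃ s ∈ gensO O M, ∃ (a' : LaurentSeries K) (ha' : a' ∈ gaussRing O),
        Rel ι M a' (compSL (fS s) γ⁻¹) ∧
          gaussRed O ⟨a', ha'⟩ ≠ qExpand (Res O) M (redL O s)) :
    Nat.card (SL(2, ℤ) ⧸ pm (Gamma10 M (M * 1))) ≤
      relfinrank (Res O)⟮jqModC (Res O)⟯ (fieldG10C (Res O) M 1) := by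
  have hfin : Finite F.rho.range := finite_range_of_Gamma F.rho M hΓ
  haveI : Finite (G F) := hfin
  -- the generators `j(Q^{dM})`
  have hjdA : ∀ (d : ℕ) [NeZero d], d ∣ M → qExpand K M (qExpand K d (jqModC K)) ∈ F.A := by
    intro d _ hd
    have := hSA _ (jd_mem_gensO O M d hd)
    rwa [embK_jd] at this
  have hjdrel : ∀ (d : ℕ) [NeZero d],
      Rel ι M (qExpand K M (qExpand K d (jqModC K))) (jdFun d) := fun d _ => JRat6.rel_jdFun M d
  set J : LaurentSeries K := qExpand K M (jqModC K) with hJdef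
  have hJA : J ∈ F.A := by
    have := hjdA 1 (one_dvd M)
    rwa [qExpand_one_apply] at this
  have hJrel : Rel ι M J jFun := by
    have := hjdrel 1
    rwa [qExpand_one_apply, jdFun_one'] at this
  have hJN : J ∈ F.N := F.mem_N_of_mem_A hJA
  have hJfix : ∀ γ, F.rho γ ⟨J, hJN⟩ = ⟨J, hJN⟩ := by
    intro γ
    apply Subtype.ext
    have hJrel' : Rel ι M J (compSL jFun γ⁻¹) := by
      have : compSL jFun γ⁻¹ = jFun := funext fun z => jFun_smul γ⁻¹ z
      rw [this]; exact hJrel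
    exact F.rho_eq_of_rel γ hJA hJA hJrel hJrel' hJN
  have hfixed : ∀ y : F.N, (∀ γ, F.rho γ y = y) → (y : LaurentSeries K) ∈ K⟮J⟯ := by
    intro y hy
    have hJ' : Rel ι M (laurentOf (1 * M) (jU K M)) jFun := by
      rw [← J_eq_laurentOf]; exact hJrel
    have := F.mem_adjoin_of_rho_fixed hfin hhol (r := 1 * M)
      (by rw [one_mul]; exact Nat.pos_of_ne_zero (NeZero.ne M)) (constantCoeff_jU K M) hJ' y hy
    rwa [← J_eq_laurentOf] at this
  -- the field `E₀ = K(j(Q^{dM}) : d ∣ M)`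
  set E₀ : IntermediateField K (LaurentSeries K) :=
    (modularFunctionFieldFullC K M).map (qExpandAlgHomC K M) with hE₀
  have hgenA : ∀ x ∈ divisorExpansionsC K M, qExpand K M x ∈ F.A := by
    rintro x ⟨d, hd, hdM, rfl⟩
    exact hjdA d hdM
  have hgenN : ∀ t ∈ qExpand K M '' divisorExpansionsC K M, t ∈ F.N := by
    rintro _ ⟨x, hx, rfl⟩
    exact F.mem_N_of_mem_A (hgenA x hx)
  have hE₀N : E₀ ≤ F.N := by
    rw [hE₀, map_fullC_eq_adjoin, IntermediateField.adjoin_le_iff]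
    exact hgenN
  have hJE₀ : J ∈ E₀ :=
    (IntermediateField.mem_map _).mpr ⟨jqModC K, jqModC_mem_full K M, rfl⟩
  have hE₀fix : ∀ y : F.N, (y : LaurentSeries K) ∈ E₀ → ∀ γ ∈ Gamma0 M, F.rho γ y = y := by
    intro y hy γ hγ
    rw [hE₀, map_fullC_eq_adjoin] at hy
    refine algEquiv_eq_of_coe_mem_adjoin (F.rho γ) _ hgenN ?_ y hy
    rintro _ ⟨x, ⟨d, hd, hdM, rfl⟩, rfl⟩
    apply Subtype.ext
    have hr' : Rel ι M (qExpand K M (qExpand K d (jqModC K))) (compSL (jdFun d) γ⁻¹) := by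
      rw [compSL_jdFun_of_mem_Gamma0 M d hdM γ⁻¹ ((Gamma0 M).inv_mem hγ)]
      exact hjdrel d
    exact F.rho_eq_of_rel γ (hjdA d hdM) (hjdA d hdM) (hjdrel d) hr' _
  have hidx0 : (Gamma0 M).index ≠ 0 := by
    rw [Fermat.Agent.X0.G1Index.g1_index]
    exact (Fermat.Agent.X0.GNPsi.gnp_dedekindPsi_pos (NeZero.ne M)).ne'
  obtain ⟨hD1', -⟩ := fixed_of_degree F J hJN hJfix hfixed (Gamma0 M) E₀ hJE₀ hE₀N hE₀fix
    (relfinrank_fullC_map K M) hidx0
  have hE₀N' : ∀ x ∈ modularFunctionFieldFullC K M, qExpand K M x ∈ F.N := fun x hx =>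
    hE₀N ((IntermediateField.mem_map _).mpr ⟨x, hx, rfl⟩)
  have hD1 : ∀ x : ↥F.N, (∀ γ ∈ Gamma0 M, F.rho γ x = x) →
      ∃ x₀ ∈ modularFunctionFieldFullC K M, (x : LaurentSeries K) = qExpand K M x₀ := by
    intro x hx
    obtain ⟨x₀, hx₀, hxx₀⟩ := (IntermediateField.mem_map _).mp (hD1' x hx)
    exact ⟨x₀, hx₀, hxx₀.symm⟩
  exact IG1Ana0.ig1_res_ana O hπ ℓ M hM hℓM F hfin hΓ ζ hζ0 hζ hζO hζO' hNfrac hJA hJrel hE₀N'
    hD1 fS hSA hSrel hint hsepA

end Plug

/-! ### The bundle and the end statement -/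

section End

open CongruenceSubgroup

/-- **The analytic data of [IG1]** at a prime: everything `card_le_relfinrank` needs from the
concrete family. -/
structure AnaData {K : Type} [Field K] [CharZero K] (O : ValuationSubring K)
    [IsDiscreteValuationRing ↥O] (M : ℕ) [NeZero M] {ι : K →+* ℂ} (F : RealFam ι M) (ζ : K)
    (fS : LaurentSeries ↥O → ℍ → ℂ) : Prop where
  hΓ : ∀ γ ∈ Gamma M, F.rho γ = 1
  hhol : ∀ i, F.f i ∈ HolH
  hζ0 : ζ ≠ 0
  hζ : ι ζ = zetaC M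
  hζO : ζ ∈ O
  hζO' : ζ⁻¹ ∈ O
  hNfrac : F.N ≤ fracField O
  hSA : ∀ s ∈ gensO O M, qExpand K M (embK O s) ∈ F.A
  hSrel : ∀ s ∈ gensO O M, Rel ι M (qExpand K M (embK O s)) (fS s)
  hint : ∀ s ∈ gensO O M, ∀ γ : SL(2, ℤ), ∃ a' : LaurentSeries K,
    Rel ι M a' (compSL (fS s) γ) ∧ a' ∈ gaussRing O
  hsepA : ∀ γ : SL(2, ℤ), γ ∉ pm (Gamma10 M (M * 1)) →
    ∃ s ∈ gensO O M, ∃ (a' : LaurentSeries K) (ha' : a' ∈ gaussRing O),
      Rel ι M a' (compSL (fS s) γ⁻¹) ∧
        gaussRed O ⟨a', ha'⟩ ≠ qExpand (Res O) M (redL O s)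

/-- `card_le_relfinrank` from the bundle. -/
theorem card_le_relfinrank_of_data {K : Type} [Field K] [CharZero K] (O : ValuationSubring K)
    [IsDiscreteValuationRing ↥O] (ℓ : ℕ) [Fact ℓ.Prime] [CharP (Res O) ℓ] (M : ℕ) [NeZero M]
    (hM : 2 ≤ M) (hℓM : ¬ ℓ ∣ M) {ι : K →+* ℂ} (F : RealFam ι M) (ζ : K)
    (fS : LaurentSeries ↥O → ℍ → ℂ) (D : AnaData O M F ζ fS) :
    Nat.card (SL(2, ℤ) ⧸ pm (Gamma10 M (M * 1))) ≤
      relfinrank (Res O)⟮jqModC (Res O)⟯ (fieldG10C (Res O) M 1) := by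
  obtain ⟨π, hπ⟩ := IsDiscreteValuationRing.exists_irreducible ↥O
  exact card_le_relfinrank O M F hπ ℓ hM hℓM D.hΓ D.hhol ζ D.hζ0 D.hζ D.hζO D.hζO' D.hNfrac fS
    D.hSA D.hSrel D.hint D.hsepA

/-- **[IG1] `M 1` from one analytic datum per prime `ℓ ∤ M`.** -/
theorem ig1_of_data (M : ℕ) [NeZero M] (hM : 2 ≤ M)
    (h : ∀ (ℓ : ℕ) [Fact ℓ.Prime], ¬ ℓ ∣ M →
      ∃ (K : Type) (_ : Field K) (_ : CharZero K) (O : ValuationSubring K)
        (_ : IsDiscreteValuationRing ↥O) (_ : CharP (Res O) ℓ) (ι : K →+* ℂ) (F : RealFam ι M)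
        (ζ : K) (fS : LaurentSeries ↥O → ℍ → ℂ), AnaData O M F ζ fS) :
    IG1 M 1 := by
  refine IG1Descent9.ig1_of_one M 1 fun ℓ _ hℓ => ?_
  rw [mul_one] at hℓ
  obtain ⟨K, iK, iC, O, iD, iP, ι, F, ζ, fS, D⟩ := h ℓ hℓ
  exact ⟨Res O, inferInstance, iP, card_le_relfinrank_of_data O ℓ M hM hℓ F ζ fS D⟩

end End

end Fermat.Agent.M48.IG1Plug9
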