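/-
Programme M48 (target S48), pillar (P1), chapter [IG1] — lead.  **The arithmetic setup of [IG1].**

For every level `M ≥ 1` and every prime `ℓ` there are: a number field `K ⊂ ℚbar`, a valuation subring
`A` of `ℚbar` over `ℓ` (so `O = AK A K = A ∩ K` is a DVR of `K` of residue characteristic `ℓ`), and
`ζ ∈ K` with `ι ζ = exp(2πi/M)` for the embedding `ι = iotaK ∘ (K ⊂ ℚbar) : K → ℂ`, `ζ` a unit of `O`.

These are exactly the data `(K, ι, ζ, O)` of `IG1Fam0.ig1_res` / `IG1Ana0.ig1_res_ana`.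

Imported by no statement.
-/
import Mathlib
import Fermat.Agent.RED.DESC.NumberFieldDVR27
import Fermat.Agent.S13.UnramBridge
import Fermat.Agent.X0.CuspGen

set_option autoImplicit false
set_option linter.unusedSectionVars false

noncomputable section

open IntermediateField

namespace Fermat.Agent.M48.IG1Setup0

open Fermat.Agent.RED.Interface4 Fermat.Agent.RED.DESC.NumberFieldDVR27
open Fermat.Agent.X0 Fermat.Agent.X0.QExpAffine

/-- The embedding `K ⊂ ℚbar → ℂ`. -/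
def iotaOf (K : IntermediateField ℚ Qbar) : ↥K →+* ℂ := iotaK.comp (algebraMap ↥K Qbar)

theorem iotaOf_apply (K : IntermediateField ℚ Qbar) (x : ↥K) : iotaOf K x = iotaK (x : Qbar) := rfl

/-- A root of unity lies in every valuation subring. -/
theorem mem_of_pow_eq_one {L : Type*} [Field L] (A : ValuationSubring L) {x : L} {n : ℕ}
    (hn : n ≠ 0) (hx : x ^ n = 1) : x ∈ A := by
  rcases A.mem_or_inv_mem x with h | h
  · exact h
  · have h1 : x = x⁻¹ ^ (n - 1) := by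
      have hx0 : x ≠ 0 := by
        rintro rfl
        rw [zero_pow hn] at hx
        exact zero_ne_one hx
      have h2 : x ^ (n - 1) * x = 1 := by
        rw [← pow_succ, Nat.sub_add_cancel (Nat.one_le_iff_ne_zero.mpr hn), hx]
      rw [inv_pow]
      exact (eq_inv_of_mul_eq_one_right h2)
    rw [h1]
    exact pow_mem h _

/-- **The arithmetic setup.** -/
theorem exists_setup (M : ℕ) [NeZero M] (ℓ : ℕ) (hℓ : ℓ.Prime) :
    ∃ (K : IntermediateField ℚ Qbar) (A : ValuationSubring Qbar) (ζ : ↥K),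
      FiniteDimensional ℚ ↥K ∧ A.LiesOverPrime ℓ ∧ iotaOf K ζ = zetaC M ∧ ζ ≠ 0 ∧
        ζ ∈ AK A K ∧ ζ⁻¹ ∈ AK A K := by
  obtain ⟨ζ₀, hζ₀⟩ := Fermat.Agent.X0.CuspGen.exists_iotaK_eq_zetaC (Nat.pos_of_ne_zero (NeZero.ne M))
  obtain ⟨A, hA⟩ := Fermat.Agent.S13.UnramBridge.exists_liesOverPrime_qbar ℓ hℓ
  have hpow : ζ₀ ^ M = 1 := by
    apply iotaK_injective
    rw [map_pow, hζ₀, map_one]
    exact (Complex.isPrimitiveRoot_exp M (NeZero.ne M)).pow_eq_one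
  have hζ₀0 : ζ₀ ≠ 0 := by
    rintro rfl
    rw [zero_pow (NeZero.ne M)] at hpow
    exact zero_ne_one hpow
  have hint : IsIntegral ℚ ζ₀ := by
    haveI : Algebra.IsAlgebraic ℚ Qbar := AlgebraicClosure.isAlgebraic ℚ
    exact (Algebra.IsAlgebraic.isAlgebraic ζ₀).isIntegral
  refine ⟨ℚ⟮ζ₀⟯, A, ⟨ζ₀, mem_adjoin_simple_self ℚ ζ₀⟩, adjoin.finiteDimensional hint, hA, hζ₀,
    fun h => hζ₀0 (congrArg Subtype.val h), ?_, ?_⟩
  · show algebraMap ↥ℚ⟮ζ₀⟯ Qbar ⟨ζ₀, _⟩ ∈ A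
    exact mem_of_pow_eq_one A (NeZero.ne M) hpow
  · show algebraMap ↥ℚ⟮ζ₀⟯ Qbar (⟨ζ₀, _⟩ : ↥ℚ⟮ζ₀⟯)⁻¹ ∈ A
    rw [map_inv₀]
    refine mem_of_pow_eq_one A (NeZero.ne M) ?_
    show (ζ₀)⁻¹ ^ M = 1
    rw [inv_pow, hpow, inv_one]

/-- The DVR and residue characteristic instances for the setup. -/
theorem setup_instances (K : IntermediateField ℚ Qbar) [FiniteDimensional ℚ ↥K]
    (A : ValuationSubring Qbar) {ℓ : ℕ} (hℓ : ℓ.Prime) (hA : A.LiesOverPrime ℓ) :
    IsDiscreteValuationRing ↥(AK A K) ∧ CharP (IsLocalRing.ResidueField ↥(AK A K)) ℓ :=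
  ⟨isDiscreteValuationRing_AK A K hℓ.ne_zero hA, charP_residueField_AK A K hℓ hA⟩

end Fermat.Agent.M48.IG1Setup0
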