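/-
Programme M48, pillar (P1), chapter [IG1] — helper9.  **The concrete family and the end of [IG1].**

* Part 1 (generic): `famOf f₀ hex`, the `FullLevelGen6.RealFam` of ALL `SL(2, ℤ)`-translates of a
  family of base functions `f₀ : I₀ → ℍ → ℂ` each of whose translates has a `q_n`-expansion over `K`
  (`hex`); `mem_A_of_rel`, `rho_eq_one_of_normal` (a normal subgroup fixing the base functions acts
  trivially), `hol`, `N_le`.
* Part 2: `realFun ι M a`, the function realised by `a ∈ K((Q))` (if any); `fS ι O M s`, the function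
  realised by the integral generator `s(Q^M)`; `fS_spec` (it IS realised, holomorphic, and
  `Γ(M)`-invariant: `j(d τ)` resp. helper4's `g_{M,a}(τ)`).
* Part 3: `anaData` : `IG1Plug9.AnaData O M (fam …) ζ (fS ι O M)` from (intA) alone (`hΓ`, `hhol`,
  `hNfrac`, `hSA`, `hSrel` proved here; (sepA) = helper3's `IG1Sep3.sepA`).
* Part 4: `IntAStmt M` (the (intA) statement), `ig1_of_intA : IntAStmt M → PurGauss1.IG1 M 1`
  (`IG1Plug9.ig1_of_data` + lead's arithmetic setup `IG1Setup0.exists_setup`), `intAStmt` (helper3's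
  `IG1Int3.intA`), and the END OF [IG1]:
  **`ig1 : ∀ (M : ℕ) [NeZero M], 2 ≤ M → PurGauss1.IG1 M 1`**.

Nothing is left unproved in this file.  Imported by no statement.
-/
import Mathlib
import Fermat.Agent.M48.IG1Plug9
import Fermat.Agent.M48.IG1Sep3
import Fermat.Agent.M48.IG1Int3
import Fermat.Agent.M48.IG1Setup0
import Fermat.Agent.M48.G10QExp5
import Fermat.Agent.M48.G10Eis4
import Fermat.Agent.X0.HolOrder

set_option autoImplicit false
set_option linter.unusedSectionVars false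
set_option linter.style.haveILetI false
set_option synthInstance.maxHeartbeats 400000

noncomputable section

open HahnSeries ModularCurve IntermediateField UpperHalfPlane
open scoped MatrixGroups

namespace Fermat.Agent.M48.IG1Main9

open Fermat.Agent.RED.PUR.GaussGen8 Fermat.Agent.RED.PUR.KtGauss8
  Fermat.Agent.RED.PUR.GaussBridge10
open Fermat.Agent.M48.DictIface4 Fermat.Agent.M48.QModel8 Fermat.Agent.M48.PurGauss1
  Fermat.Agent.M48.FullLevelGen6 Fermat.Agent.M48.IG1Fam0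
open Fermat.Agent.X0 Fermat.Agent.X0.CuspEquiv Fermat.Agent.X0.QExpAffine

/-! ### Part 1: the family of all translates -/

section Generic

variable {K : Type} [Field K] {ι : K →+* ℂ} {n : ℕ} [NeZero n] {I₀ : Type} (f₀ : I₀ → ℍ → ℂ)
  (hex : ∀ (i : I₀) (σ : SL(2, ℤ)), ∃ a : LaurentSeries K, Rel ι n a (compSL (f₀ i) σ))

/-- The realised family of all `SL(2, ℤ)`-translates of the base functions `f₀ i`. -/
def famOf : RealFam ι n where
  I := I₀ × SL(2, ℤ)
  f p := compSL (f₀ p.1) p.2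
  x p := (hex p.1 p.2).choose
  rel p := (hex p.1 p.2).choose_spec
  perm γ p := ⟨(p.1, p.2 * γ), compSL_compSL _ _ _⟩

theorem famOf_f (i : I₀) (σ : SL(2, ℤ)) : (famOf f₀ hex).f (i, σ) = compSL (f₀ i) σ := rfl

/-- every expansion of a translate lies in `A`. -/
theorem mem_A_of_rel {a : LaurentSeries K} (i : I₀) (σ : SL(2, ℤ))
    (h : Rel ι n a (compSL (f₀ i) σ)) : a ∈ (famOf f₀ hex).A := by
  have : a = (famOf f₀ hex).x (i, σ) := h.left_unique ((famOf f₀ hex).rel (i, σ))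
  rw [this]
  exact Algebra.subset_adjoin ⟨(i, σ), rfl⟩

/-- a normal subgroup fixing the base functions acts trivially. -/
theorem rho_eq_one_of_normal (Γ : Subgroup SL(2, ℤ)) (hΓn : Γ.Normal)
    (hinv : ∀ i, ∀ γ ∈ Γ, compSL (f₀ i) γ = f₀ i) (γ : SL(2, ℤ)) (hγ : γ ∈ Γ) :
    (famOf f₀ hex).rho γ = 1 := by
  apply RealFam.rho_eq_one_of_fix
  rintro ⟨i, σ⟩
  show compSL (compSL (f₀ i) σ) γ = compSL (f₀ i) σ
  have h1 : σ * γ = (σ * γ * σ⁻¹) * σ := by group
  rw [compSL_compSL, h1, ← compSL_compSL, hinv i _ (hΓn.conj_mem γ hγ σ)]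

theorem hol (hhol : ∀ i, f₀ i ∈ HolH) : ∀ p, (famOf f₀ hex).f p ∈ HolH := fun p =>
  compSL_mem_HolH (hhol p.1) p.2

theorem N_le (E : IntermediateField K (LaurentSeries K))
    (hE : ∀ (i : I₀) (σ : SL(2, ℤ)) (a : LaurentSeries K), Rel ι n a (compSL (f₀ i) σ) → a ∈ E) :
    (famOf f₀ hex).N ≤ E := by
  rw [IntermediateField.adjoin_le_iff]
  rintro _ ⟨⟨i, σ⟩, rfl⟩
  exact hE i σ _ ((famOf f₀ hex).rel (i, σ))

end Generic

/-! ### Part 2: the functions realised by the generators -/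

section RealFun

variable {K : Type} [Field K] (ι : K →+* ℂ) (M : ℕ) [NeZero M]

open Classical in
/-- The function realised by `a ∈ K((Q))`, if any. -/
def realFun (a : LaurentSeries K) : ℍ → ℂ :=
  if h : ∃ f : ℍ → ℂ, Rel ι M a f then h.choose else 0

theorem rel_realFun {a : LaurentSeries K} {f : ℍ → ℂ} (h : Rel ι M a f) :
    Rel ι M a (realFun ι M a) := by
  have hex : ∃ f : ℍ → ℂ, Rel ι M a f := ⟨f, h⟩
  unfold realFun
  rw [dif_pos hex]
  exact hex.choose_spec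

theorem realFun_eq {a : LaurentSeries K} {f : ℍ → ℂ} (h : Rel ι M a f) : realFun ι M a = f :=
  (rel_realFun ι M h).right_unique h

variable (O : ValuationSubring K)

/-- The function realised by the integral generator `s(Q^M)`. -/
def fS (s : LaurentSeries ↥O) : ℍ → ℂ := realFun ι M (qExpand K M (embK O s))

theorem jdFun_mem_HolH (d : ℕ) [NeZero d] : jdFun d ∈ HolH :=
  (Fermat.Agent.X0.Analytic.hasQExp_jd d).mdifferentiable

theorem Gamma_le_Gamma1' : CongruenceSubgroup.Gamma M ≤ CongruenceSubgroup.Gamma1 M := by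
  intro γ hγ
  rw [CongruenceSubgroup.Gamma_mem] at hγ
  rw [CongruenceSubgroup.Gamma1_mem]
  exact ⟨hγ.1, hγ.2.2.2, hγ.2.2.1⟩

/-- `Γ₀(M)`-invariance of `j(d τ)`, `d ∣ M`. -/
theorem compSL_jdFun_of_mem_Gamma0' (d : ℕ) [NeZero d] (hd : d ∣ M) (γ : SL(2, ℤ))
    (hγ : γ ∈ CongruenceSubgroup.Gamma0 M) : compSL (jdFun d) γ = jdFun d := by
  have hM : (M : ℤ) ∣ γ 1 0 := by
    rw [CongruenceSubgroup.Gamma0_mem] at hγ
    exact (ZMod.intCast_zmod_eq_zero_iff_dvd _ _).mp hγ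
  have hd' : (d : ℤ) ∣ γ 1 0 := (Int.natCast_dvd_natCast.mpr hd).trans hM
  funext z
  exact Fermat.Agent.X0.Analytic.jdFun_smul_of_dvd γ d hd' z

/-- the generators are realised by holomorphic `Γ(M)`-invariant functions. -/
theorem fS_spec (hM : 2 ≤ M) (s : LaurentSeries ↥O) (hs : s ∈ gensO O M) :
    Rel ι M (qExpand K M (embK O s)) (fS ι M O s) ∧ fS ι M O s ∈ HolH ∧
      ∀ γ ∈ CongruenceSubgroup.Gamma M, compSL (fS ι M O s) γ = fS ι M O s := by
  haveI : Fact (1 < M) := ⟨by omega⟩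
  rcases hs with ⟨d, hd, hdM, rfl⟩ | ⟨a, e, he, heL, rfl⟩
  · rw [mul_one] at hdM
    have hrel : Rel ι M (qExpand K M (embK O (qExpand ↥O d (jqModC ↥O)))) (jdFun d) := by
      rw [show embK O (qExpand ↥O d (jqModC ↥O)) = qExpand K d (jqModC K) from embK_jdO O d]
      exact JRat6.rel_jdFun M d
    have hf : fS ι M O (qExpand ↥O d (jqModC ↥O)) = jdFun d := realFun_eq ι M hrel
    rw [hf]
    refine ⟨hrel, jdFun_mem_HolH d, fun γ hγ => ?_⟩
    exact compSL_jdFun_of_mem_Gamma0' M d hdM γ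
      (CongruenceSubgroup.Gamma1_in_Gamma0 M (Gamma_le_Gamma1' M hγ))
  · obtain rfl : e = 1 := Nat.dvd_one.mp heL
    have ha : (a : ZMod M) ≠ 0 := a.ne_zero
    have hrel : Rel ι M (qExpand K M (embK O (qExpand ↥O 1 (gqR ↥O M (a : ZMod M)))))
        (gFun M (a : ZMod M)) := by
      have h1 : embK O (qExpand ↥O 1 (gqR ↥O M (a : ZMod M))) = gqR K M (a : ZMod M) := by
        rw [qExpand_one_apply]
        exact coeffMap_gqR _ M _
      rw [h1]
      exact IG1Sep3.rel_gFun ι M ha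
    have hf : fS ι M O (qExpand ↥O 1 (gqR ↥O M (a : ZMod M))) = gFun M (a : ZMod M) :=
      realFun_eq ι M hrel
    rw [hf]
    refine ⟨hrel, G10QExp5.gFun_mem_HolH M _ ha, fun γ hγ => ?_⟩
    funext z
    exact G10Eis4.gFun_smul_of_mem_Gamma1 M _ (Gamma_le_Gamma1' M hγ) z

end RealFun

/-! ### Part 3: the analytic data from (intA) -/

section Data

variable {K : Type} [Field K] [CharZero K] (O : ValuationSubring K) [IsDiscreteValuationRing ↥O]
  (M : ℕ) [NeZero M] (ι : K →+* ℂ)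

/-- The concrete family: all translates of the functions realised by the generators. -/
def fam (hint : ∀ s ∈ gensO O M, ∀ γ : SL(2, ℤ), ∃ a' : LaurentSeries K,
    Rel ι M a' (compSL (fS ι M O s) γ) ∧ a' ∈ gaussRing O) : RealFam ι M :=
  famOf (I₀ := ↥(gensO O M)) (fun s => fS ι M O s.1)
    (fun s σ => (hint s.1 s.2 σ).imp fun _ h => h.1)

/-- **The analytic data of [IG1] from (intA).** -/
theorem anaData (hM : 2 ≤ M) (ζ : K) (hζ0 : ζ ≠ 0) (hζ : ι ζ = zetaC M) (hζO : ζ ∈ O)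
    (hζO' : ζ⁻¹ ∈ O)
    (hint : ∀ s ∈ gensO O M, ∀ γ : SL(2, ℤ), ∃ a' : LaurentSeries K,
      Rel ι M a' (compSL (fS ι M O s) γ) ∧ a' ∈ gaussRing O) :
    IG1Plug9.AnaData O M (fam O M ι hint) ζ (fS ι M O) where
  hΓ := rho_eq_one_of_normal _ _ (CongruenceSubgroup.Gamma M) (CongruenceSubgroup.Gamma_normal M)
    (fun s γ hγ => (fS_spec ι M O hM s.1 s.2).2.2 γ hγ)
  hhol := hol _ _ fun s => (fS_spec ι M O hM s.1 s.2).2.1
  hζ0 := hζ0
  hζ := hζ
  hζO := hζO
  hζO' := hζO'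
  hNfrac := N_le _ _ (fracField O) fun s σ a h => by
    obtain ⟨a', h', ha'⟩ := hint s.1 s.2 σ
    rw [h.left_unique h']
    exact gaussRing_le_fracField O ha'
  hSA := fun s hs => mem_A_of_rel _ _ ⟨s, hs⟩ 1 (by
    rw [compSL_one']
    exact (fS_spec ι M O hM s hs).1)
  hSrel := fun s hs => (fS_spec ι M O hM s hs).1
  hint := hint
  hsepA := IG1Sep3.sepA O M hM hζ hζO hζO' (fS ι M O) fun s hs => (fS_spec ι M O hM s hs).1

end Data

/-! ### Part 4: the end of [IG1] -/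

section End

open Fermat.Agent.RED.Interface4 Fermat.Agent.RED.DESC.NumberFieldDVR27
  Fermat.Agent.M48.IG1Setup0

/-- **(intA)**: for `O` a DVR of `K` (characteristic `0`) of residue characteristic `ℓ ∤ M`, with
`ζ ∈ Oˣ`, `ι ζ = e^{2πi/M}`, and ANY `fS` realised by the generators, all translates of the `fS s`
have `q_M`-expansions in the Gauss ring. -/
def IntAStmt (M : ℕ) [NeZero M] : Prop :=
  ∀ {K : Type} [Field K] [CharZero K] (O : ValuationSubring K) [IsDiscreteValuationRing ↥O]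
    (ℓ : ℕ) [Fact ℓ.Prime] [CharP (Res O) ℓ], ¬ ℓ ∣ M → ∀ {ι : K →+* ℂ} {ζ : K},
    ι ζ = zetaC M → ζ ∈ O → ζ⁻¹ ∈ O → ∀ (fS : LaurentSeries ↥O → ℍ → ℂ),
    (∀ s ∈ gensO O M, Rel ι M (qExpand K M (embK O s)) (fS s)) →
    ∀ s ∈ gensO O M, ∀ γ : SL(2, ℤ), ∃ a' : LaurentSeries K,
      Rel ι M a' (compSL (fS s) γ) ∧ a' ∈ gaussRing O

/-- **[IG1] `M 1` from (intA).** -/
theorem ig1_of_intA (M : ℕ) [NeZero M] (hM : 2 ≤ M) (hintA : IntAStmt M) : IG1 M 1 := by
  refine IG1Plug9.ig1_of_data M hM fun ℓ hℓ hℓM => ?_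
  obtain ⟨K, A, ζ, hfd, hA, hζ, hζ0, hζO, hζO'⟩ := exists_setup M ℓ hℓ.out
  haveI := hfd
  obtain ⟨hdvr, hchar⟩ := setup_instances K A hℓ.out hA
  haveI := hdvr
  haveI : CharP (Res (AK A K)) ℓ := hchar
  have hint := hintA (AK A K) ℓ hℓM hζ hζO hζO' (fS (iotaOf K) M (AK A K))
    fun s hs => (fS_spec (iotaOf K) M (AK A K) hM s hs).1
  exact ⟨↥K, inferInstance, inferInstance, AK A K, hdvr, hchar, iotaOf K,
    fam (AK A K) M (iotaOf K) hint, ζ, fS (iotaOf K) M (AK A K),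
    anaData (AK A K) M (iotaOf K) hM ζ hζ0 hζ hζO hζO' hint⟩

/-- (intA) holds (helper3's `IG1Int3.intA`). -/
theorem intAStmt (M : ℕ) [NeZero M] (hM : 2 ≤ M) : IntAStmt M := by
  intro K _ _ O _ ℓ _ _ hℓM ι ζ hζ hζO hζO' fS hSrel
  exact IG1Int3.intA O M ℓ hM hℓM hζ hζO hζO' fS hSrel

/-- **[IG1] at `L = 1`, unconditionally**: for every `M ≥ 2`, every prime `ℓ ∤ M` and every field
`κ` of characteristic `ℓ`, `[SL(2, ℤ) : ±Γ₁(M)] ≤ [κ(j̃(q^d), g̃_{M,a}) : κ(j̃)]`. -/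
theorem ig1 (M : ℕ) [NeZero M] (hM : 2 ≤ M) : IG1 M 1 :=
  ig1_of_intA M hM (intAStmt M hM)

end End

end Fermat.Agent.M48.IG1Main9
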