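/-
M48 (P1), [RED1], chapter [PUR1] (helper1), file 2: **the horizontal bridge, GENERIC in the model.**

Verbatim re-run of `RED/PUR/HorizUnram20`, `HorizPlace20`, `HorizPoly4` and `OffHoriz4.hunrOff_generic`
with the function field `Fbar_M` of `X₀(M)` over `ℚbar` replaced by an ARBITRARY field `Fb ⊇ ℚbar` with
elements `jF tF : Fb`, cusp expansions `T : SL(2, ℤ) → Fb →+* ℚbar((q_N))` and a cusp value function `cv`,
subject to the five facts bundled in `HorizData n jF tF T cv`: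

* `isGen`      : `jF` is a transcendental generator of `Fb / ℚbar`;
* `map_const`  : `T γ` is the identity on constants;
* `cusp_surj`  : every place `v` over `j = ∞` is a cusp place: `ord (T γ f) = m · ord_v f` for some `γ`, `m > 0`;
* `unbranched` : (B6) at every place with `0 ≤ ord_v j`, some `t - c` is a uniformiser;
* `shape`      : (B5) `CuspShape n (T γ t) (cv γ)` for all `γ` (the literal `Interface12.CuspShape`).

For the `Γ₁(M) ∩ Γ₀(M L)` model these are (MF1) + (MF2) of helper4's [RED1] architecture.  Exports: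
`ord_sub_eq_one`, `ord_aeval_eq_one`, `ord_aeval_inv_eq_one`, `ord_aeval_le_one`, `ord_aeval_inv_le_one`,
`exists_uniformizer_gen`, `exists_uniformizer`, `exists_uniformizer_inv`, `hUNR_noncusp`, `hUNR_cusp`,
`hUNR_cusp_inv`, `hUNR_noncusp_poly`, `hunrOff_generic` (the `OffIface4.HUNROff` form).

Imported by no statement.
-/
import Mathlib
import Fermat.Agent.RED.PUR.HorizPlace20
import Fermat.Agent.RED.PUR.OffIface4

set_option autoImplicit false
set_option linter.unusedSectionVars false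
set_option linter.unusedVariables false
set_option linter.style.haveILetI false

open UpperHalfPlane hiding I
open ModularCurve IntermediateField AlgebraicCurve
open scoped MatrixGroups IntermediateField
open Polynomial

noncomputable section

namespace Fermat.Agent.M48.PurHoriz1

open Fermat.Agent.X0 Fermat.Agent.X0.FF AlgebraicCurve
open Fermat.Agent.RED.BASE.Interface12
open Fermat.Agent.RED.PUR
open Fermat.Agent.RED.PUR.HorizUnram20 (order_sub_neg_of_none order_sub_nonpos_of_some)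
open Fermat.Agent.RED.PUR.HorizPlace20 (placeOfDVR uniformizer_of_ord_eq_one
  algebraMap_mem_of_inv_mem)
open Fermat.Agent.RED.PUR.OffIface4

/-- **The model facts used by the horizontal bridge.** -/
structure HorizData {Fb : Type*} [Field Fb] [Algebra Kbar Fb] (n : ℕ) (jF tF : Fb)
    (T : SL(2, ℤ) → Fb →+* LaurentSeries Kbar) (cv : SL(2, ℤ) → Option Kbar) : Prop where
  isGen : FF.IsGen Kbar jF
  map_const : ∀ (γ : SL(2, ℤ)) (c : Kbar), T γ (algebraMap Kbar Fb c) = HahnSeries.C c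
  cusp_surj : ∀ v : Place Kbar Fb, v.ord jF < 0 →
    ∃ (γ : SL(2, ℤ)) (m : ℕ), 0 < m ∧ ∀ f : Fb, f ≠ 0 → (T γ f).order = (m : ℤ) * v.ord f
  unbranched : ∀ v : Place Kbar Fb, 0 ≤ v.ord jF →
    ∃ c : Kbar, v.ord (tF - algebraMap Kbar Fb c) = 1
  shape : ∀ γ : SL(2, ℤ), CuspShape n (T γ tF) (cv γ)

variable {Fb : Type*} [Field Fb] [Algebra Kbar Fb] {n : ℕ} {jF tF : Fb}
  {T : SL(2, ℤ) → Fb →+* LaurentSeries Kbar} {cv : SL(2, ℤ) → Option Kbar}

/-! ### the main statements over `ℚbar` -/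

section Main


/-- At a place over `j = ∞` where `t - c` vanishes, `c` is a (finite) cusp value. -/
theorem exists_cv_eq_of_ord_jF_neg (H : HorizData n jF tF T cv)
    (v : Place Kbar Fb) (hv : v.ord (jF) < 0) (c : Kbar)
    (hpos : 0 < v.ord (tF - algebraMap Kbar Fb c)) : ∃ γ, cv γ = some c := by
  obtain ⟨g, m, hm, hspec⟩ := H.cusp_surj v hv
  have hne : tF - algebraMap Kbar Fb c ≠ 0 := by
    intro h0
    rw [h0, Place.ord_zero] at hpos
    exact lt_irrefl _ hpos
  have hord := hspec _ hne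
  rw [map_sub, H.map_const] at hord
  have hm' : (0 : ℤ) < m := by exact_mod_cast hm
  have hordpos : 0 < (T g (tF) - HahnSeries.C c).order := by
    rw [hord]
    positivity
  refine ⟨g, ?_⟩
  have hshape := H.shape g
  rcases hcv : cv g with _ | c₀
  · rw [hcv] at hshape
    have := order_sub_neg_of_none (c := c) hshape
    omega
  · rw [hcv] at hshape
    by_cases hcc : c₀ = c
    · rw [hcc]
    · have := order_sub_nonpos_of_some hshape hcc
      omega

/-- **(H1)** zeros of `t - c` at non-cusp values are simple. -/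
theorem ord_sub_eq_one (H : HorizData n jF tF T cv)
    (v : Place Kbar Fb) (c : Kbar) (hnc : ∀ γ, cv γ ≠ some c)
    (hpos : 0 < v.ord (tF - algebraMap Kbar Fb c)) :
    v.ord (tF - algebraMap Kbar Fb c) = 1 := by
  by_cases hv : 0 ≤ v.ord (jF)
  · obtain ⟨c', hc'⟩ := H.unbranched v hv
    by_cases hcc : c' = c
    · rw [← hcc]; exact hc'
    · exfalso
      have hconst : algebraMap Kbar Fb (c' - c) ≠ 0 := by
        rw [Ne, map_eq_zero]
        exact sub_ne_zero.mpr hcc
      have h0 : v.ord (algebraMap Kbar Fb (c' - c)) = 0 := ffp_ord_algebraMap v _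
      have hlt : v.ord (algebraMap Kbar Fb (c' - c))
          < v.ord (tF - algebraMap Kbar Fb c') := by rw [h0, hc']; exact zero_lt_one
      have := ffp_ord_add_eq_of_lt v hconst hlt
      rw [h0] at this
      have heq : algebraMap Kbar Fb (c' - c) + (tF - algebraMap Kbar Fb c')
          = tF - algebraMap Kbar Fb c := by
        rw [map_sub]; ring
      rw [heq] at this
      omega
  · exfalso
    obtain ⟨γ, hγ⟩ := exists_cv_eq_of_ord_jF_neg H v (not_le.mp hv) c hpos
    exact hnc γ hγ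

end Main

/-! ### (H2): the statement over a subfield of constants `K ⊂ ℚbar` -/

section KLevel

open Polynomial

variable {K FK : Type*} [Field K] [Field FK] [Algebra K FK] [Algebra K Kbar]

/-- residue fields of places of `Fbar_M` are `ℚbar`. -/
theorem exists_ord_sub_pos_bar (hgen : FF.IsGen Kbar jF) (v : Place Kbar Fb) (f : Fb)
    (hf : f ∈ v.toValuationSubring) :
    ∃ c : Kbar, f = algebraMap Kbar Fb c ∨ 0 < v.ord (f - algebraMap Kbar Fb c) :=
  FF.exists_ord_sub_pos hgen v hf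

/-- **(H2)** `ord_w g(t) = 1` at a `K`-place `w` of `FK` lying under a place of `Fbar_M`, for `g`
separable without cusp-value roots. -/
theorem ord_aeval_eq_one (H : HorizData n jF tF T cv)
    (bc : FK →+* Fb)
    (hbc : ∀ a : K, bc (algebraMap K FK a) = algebraMap Kbar Fb (algebraMap K Kbar a))
    (t : FK) (ht : bc t = tF) (w : Place K FK)
    (hExt : ∃ (v : Place Kbar Fb) (d : ℕ), 0 < d ∧ ∀ f : FK, v.ord (bc f) = (d : ℤ) * w.ord f)
    (g : K[X]) (hg : g.Separable)
    (hnc : ∀ c : Kbar, (g.map (algebraMap K Kbar)).IsRoot c → ∀ γ, cv γ ≠ some c)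
    (hpos : 0 < w.ord (aeval t g)) : w.ord (aeval t g) = 1 := by
  obtain ⟨v, d, hd, hve⟩ := hExt
  refine HorizGen20.ord_aeval_eq_one v bc hbc w d hd hve (exists_ord_sub_pos_bar H.isGen v) t g hg ?_ hpos
  intro c hroot hc
  rw [ht] at hc ⊢
  exact ord_sub_eq_one H v c (hnc c hroot) hc

/-- **(H2′)** the twin on the chart at infinity: `s = t⁻¹`, roots `c ≠ 0` of `g` with `c⁻¹` not a
cusp value. -/
theorem ord_aeval_inv_eq_one (H : HorizData n jF tF T cv)
    (bc : FK →+* Fb)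
    (hbc : ∀ a : K, bc (algebraMap K FK a) = algebraMap Kbar Fb (algebraMap K Kbar a))
    (s : FK) (hs : bc s = (tF)⁻¹) (w : Place K FK)
    (hExt : ∃ (v : Place Kbar Fb) (d : ℕ), 0 < d ∧ ∀ f : FK, v.ord (bc f) = (d : ℤ) * w.ord f)
    (g : K[X]) (hg : g.Separable)
    (hnc : ∀ c : Kbar, (g.map (algebraMap K Kbar)).IsRoot c → c ≠ 0 ∧ ∀ γ, cv γ ≠ some c⁻¹)
    (hpos : 0 < w.ord (aeval s g)) : w.ord (aeval s g) = 1 := by
  obtain ⟨v, d, hd, hve⟩ := hExt
  refine HorizGen20.ord_aeval_eq_one v bc hbc w d hd hve (exists_ord_sub_pos_bar H.isGen v) s g hg ?_ hpos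
  intro c hroot hc
  rw [hs] at hc ⊢
  obtain ⟨hc0, hcv⟩ := hnc c hroot
  have heq : v.ord ((tF)⁻¹ - algebraMap Kbar Fb c)
      = v.ord (tF - algebraMap Kbar Fb c⁻¹) := HorizGen20.ord_inv_sub v (tF) c hc0 hc
  rw [heq] at hc ⊢
  exact ord_sub_eq_one H v c⁻¹ hcv hc

end KLevel

/-! ### the `≤ 1` forms over `ℚbar` (input of `PlaceIntegral3.isRadical_span_singleton`) -/

section LeOne

open Polynomial


/-- `ord_v p(t) ≤ 1` at every place, for `p` separable without cusp-value roots. -/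
theorem ord_aeval_le_one (H : HorizData n jF tF T cv)
    (p : Kbar[X]) (hp : p.Separable) (hnc : ∀ c : Kbar, p.IsRoot c → ∀ γ, cv γ ≠ some c)
    (v : Place Kbar Fb) : v.ord (aeval (tF) p) ≤ 1 := by
  by_cases hpos : 0 < v.ord (aeval (tF) p)
  · obtain ⟨c, hroot, hc, heq⟩ :=
      HorizGen20.ord_aeval_eq_ord_sub v (exists_ord_sub_pos_bar H.isGen v) (tF) p hp hpos
    rw [heq, ord_sub_eq_one H v c (hnc c hroot) hc]
  · omega

/-- the twin for `t⁻¹`. -/
theorem ord_aeval_inv_le_one (H : HorizData n jF tF T cv)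
    (p : Kbar[X]) (hp : p.Separable)
    (hnc : ∀ c : Kbar, p.IsRoot c → c ≠ 0 ∧ ∀ γ, cv γ ≠ some c⁻¹)
    (v : Place Kbar Fb) : v.ord (aeval (tF)⁻¹ p) ≤ 1 := by
  by_cases hpos : 0 < v.ord (aeval (tF)⁻¹ p)
  · obtain ⟨c, hroot, hc, heq⟩ :=
      HorizGen20.ord_aeval_eq_ord_sub v (exists_ord_sub_pos_bar H.isGen v) (tF)⁻¹ p hp hpos
    obtain ⟨hc0, hcv⟩ := hnc c hroot
    have heq2 : v.ord ((tF)⁻¹ - algebraMap Kbar Fb c)
        = v.ord (tF - algebraMap Kbar Fb c⁻¹) := HorizGen20.ord_inv_sub v (tF) c hc0 hc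
    rw [heq2] at hc
    rw [heq, heq2, ord_sub_eq_one H v c⁻¹ hcv hc]
  · omega

end LeOne


/-! ### the concrete statement -/

section Concrete

variable {A K F B : Type*} [CommRing A] [IsDomain A] [Field K] [CharZero K] [Field F] [CommRing B]
  [Algebra A K] [IsFractionRing A K] [Algebra K F] [Algebra A F] [IsScalarTower A K F]
  [Algebra A[X] B] [Algebra B F]
  [Algebra K Kbar] [Algebra A Kbar] [IsScalarTower A K Kbar] [Algebra.IsAlgebraic K Kbar]

/-- **Generic core of (H3).**  `T' ∈ Fbar_M` non-constant with simple zeros of `T' - c` at the `good`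
values `c`; `s ∈ F` with `bc s = T'`; `B` an `A[X]`-algebra in `F` with `X ↦ s`.  A discrete valuation
subring `O ⊇ B` in which `π` is a unit and whose centre value is `good` has a uniformiser `g0(s)`,
`g0 ∈ A[X]`. -/
theorem exists_uniformizer_gen (hgen : FF.IsGen Kbar jF) (T' : Fb)
    (hconst : ∀ c : Kbar, T' ≠ algebraMap Kbar Fb c) (good : Kbar → Prop)
    (hsimple : ∀ (v : Place Kbar Fb) (c : Kbar), good c →
      0 < v.ord (T' - algebraMap Kbar Fb c) → v.ord (T' - algebraMap Kbar Fb c) = 1)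
    (bc : F →+* Fb)
    (hbc : ∀ a : K, bc (algebraMap K F a) = algebraMap Kbar Fb (algebraMap K Kbar a))
    (s : F) (hs : bc s = T')
    (hExt : ∀ w : Place K F, ∃ (v : Place Kbar Fb) (d : ℕ), 0 < d ∧
      ∀ f : F, v.ord (bc f) = (d : ℤ) * w.ord f)
    (hX : ∀ p : A[X], algebraMap B F (algebraMap A[X] B p) = aeval s p)
    (π : A) (hπ0 : algebraMap A F π ≠ 0)
    (hK : ∀ a : K, ∃ (r : A) (k : ℕ), algebraMap K F a * algebraMap A F π ^ k = algebraMap A F r)
    (O : ValuationSubring F) (hB : ∀ z : B, algebraMap B F z ∈ O) [IsDiscreteValuationRing O]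
    (hπ : (algebraMap B F (algebraMap A[X] B (C π)))⁻¹ ∈ O)
    (hgood : ∀ (w : Place K F), w.toValuationSubring = O → ∀ (v : Place Kbar Fb) (d : ℕ),
      0 < d → (∀ f : F, v.ord (bc f) = (d : ℤ) * w.ord f) → ∀ c : Kbar,
      0 < v.ord (T' - algebraMap Kbar Fb c) → good c) :
    ∃ g0 : A[X], (algebraMap B F (algebraMap A[X] B g0))⁻¹ ∉ O ∧
      ∀ y ∈ O, y⁻¹ ∉ O → y / algebraMap B F (algebraMap A[X] B g0) ∈ O := by
  -- `A ⊆ O`, `K ⊆ O`
  have hA : ∀ r : A, algebraMap A F r ∈ O := by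
    intro r
    have := hB (algebraMap A[X] B (C r))
    rwa [hX, aeval_C] at this
  have hπ' : (algebraMap A F π)⁻¹ ∈ O := by rwa [hX, aeval_C] at hπ
  have hKO : ∀ a : K, algebraMap K F a ∈ O := algebraMap_mem_of_inv_mem O π hK hA hπ0 hπ'
  set w : Place K F := placeOfDVR O hKO with hw
  obtain ⟨v, d, hd, hve⟩ := hExt w
  have hdpos : (0 : ℤ) < d := by exact_mod_cast hd
  -- `s ∈ O`
  have hsO : s ∈ O := by
    have := hB (algebraMap A[X] B X)
    rwa [hX, aeval_X] at this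
  have hTv : T' ∈ v.toValuationSubring := by
    apply ffp_mem_of_ord_nonneg
    rw [← hs, hve]
    have : 0 ≤ w.ord s := ffp_ord_nonneg_of_mem w hsO
    positivity
  -- the centre value `c`
  obtain ⟨c, hc | hc⟩ := exists_ord_sub_pos_bar hgen v T' hTv
  · exact absurd hc (hconst c)
  have hgoodc : good c := hgood w rfl v d hd hve c hc
  -- the minimal polynomial of `c` over `K`
  have hcint : IsIntegral K c := (Algebra.IsAlgebraic.isAlgebraic c).isIntegral
  set g : K[X] := minpoly K c with hg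
  have hgirr : Irreducible g := minpoly.irreducible hcint
  have hgsep : g.Separable := hgirr.separable
  have hgroot : (g.map (algebraMap K Kbar)).IsRoot c := by
    rw [IsRoot, eval_map, ← aeval_def]
    exact minpoly.aeval K c
  -- `0 < ord_w g(s)`
  have hbcg : bc (aeval s g) = aeval T' (g.map (algebraMap K Kbar)) := by
    rw [HorizGen20.bc_aeval bc hbc, hs]
  have hgbar0 : g.map (algebraMap K Kbar) ≠ 0 :=
    (Polynomial.map_ne_zero_iff (algebraMap K Kbar).injective).mpr hgirr.ne_zero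
  have hTtr : aeval T' (g.map (algebraMap K Kbar)) ≠ 0 := by
    intro h0
    have halg : IsAlgebraic Kbar T' := ⟨_, hgbar0, h0⟩
    obtain ⟨c', hc'⟩ := FF.eq_algebraMap_of_isAlgebraic halg
    exact hconst c' hc'
  have hposv : 0 < v.ord (aeval T' (g.map (algebraMap K Kbar))) := by
    have hexp := HorizGen20.aeval_eq_add_mul (g.map (algebraMap K Kbar)) c T'
    rw [hgroot, map_zero, zero_add] at hexp
    set Q := aeval T' ((g.map (algebraMap K Kbar)) /ₘ (X - C c)) with hQ
    have hQ0 : Q ≠ 0 := by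
      intro hq; rw [hq, mul_zero] at hexp; exact hTtr hexp
    have hTc0 : T' - algebraMap Kbar Fb c ≠ 0 := by
      intro hq; rw [hq, zero_mul] at hexp; exact hTtr hexp
    have hQmem : Q ∈ v.toValuationSubring := HorizGen20.aeval_mem v hTv _
    have hQord : 0 ≤ v.ord Q := ffp_ord_nonneg_of_mem v hQmem
    rw [hexp, v.ord_mul hTc0 hQ0]
    omega
  have hposw : 0 < w.ord (aeval s g) := by
    have := hve (aeval s g)
    rw [hbcg] at this
    rw [this] at hposv
    by_contra hle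
    have : w.ord (aeval s g) ≤ 0 := not_lt.mp hle
    nlinarith
  -- `ord_w g(s) = 1`
  have hone : w.ord (aeval s g) = 1 := by
    refine HorizGen20.ord_aeval_eq_one v bc hbc w d hd hve (exists_ord_sub_pos_bar hgen v)
      s g hgsep ?_ hposw
    intro c' _ hc'
    rw [hs] at hc' ⊢
    -- `c' = c`
    have hcc : c' = c := by
      by_contra hne
      have hconst' : algebraMap Kbar Fb (c - c') ≠ 0 := by
        rw [Ne, map_eq_zero]; exact sub_ne_zero.mpr (Ne.symm hne)
      have h0 : v.ord (algebraMap Kbar Fb (c - c')) = 0 := ffp_ord_algebraMap v _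
      have hlt : v.ord (algebraMap Kbar Fb (c - c'))
          < v.ord (T' - algebraMap Kbar Fb c) := by rw [h0]; exact hc
      have := ffp_ord_add_eq_of_lt v hconst' hlt
      have heq : algebraMap Kbar Fb (c - c') + (T' - algebraMap Kbar Fb c)
          = T' - algebraMap Kbar Fb c' := by rw [map_sub]; ring
      rw [heq, h0] at this
      omega
    rw [hcc]
    exact hsimple v c hgoodc hc
  -- scale `g` into `A[X]`
  obtain ⟨b, hbM, hb⟩ := IsLocalization.integerNormalization_spec (nonZeroDivisors A) g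
  set g0 : A[X] := IsLocalization.integerNormalization (nonZeroDivisors A) g with hg0
  have hb0 : b ≠ 0 := nonZeroDivisors.ne_zero hbM
  have hbK : algebraMap A K b ≠ 0 := by
    rw [Ne, map_eq_zero_iff _ (IsFractionRing.injective A K)]; exact hb0
  have hG : aeval s g0 = algebraMap K F (algebraMap A K b) * aeval s g := by
    rw [← aeval_map_algebraMap K s g0, hb, ← algebraMap_smul K b g, map_smul, Algebra.smul_def]
  have hgt0 : aeval s g ≠ 0 := by
    intro h0; rw [h0, Place.ord_zero] at hone; exact zero_ne_one hone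
  have hordG : w.ord (aeval s g0) = 1 := by
    rw [hG, w.ord_mul ((_root_.map_ne_zero _).mpr hbK) hgt0, ffp_ord_algebraMap, hone, zero_add]
  refine ⟨g0, ?_⟩
  rw [hX]
  exact uniformizer_of_ord_eq_one w _ hordG

/-- `bc` on the constants coming from `A`. -/
theorem bc_algebraMap_A (bc : F →+* Fb)
    (hbc : ∀ a : K, bc (algebraMap K F a) = algebraMap Kbar Fb (algebraMap K Kbar a)) (a : A) :
    bc (algebraMap A F a) = algebraMap Kbar Fb (algebraMap A Kbar a) := by
  rw [IsScalarTower.algebraMap_apply A K F, hbc, ← IsScalarTower.algebraMap_apply A K Kbar]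

/-- **Core of (H3), chart `t`.**  A discrete valuation subring `O ⊇ B` of `F` in which `π` and all
`t - c_i` (`c_i` the finite cusp values) are units has a uniformiser of the form `g0(t)`, `g0 ∈ A[X]`. -/
theorem exists_uniformizer (H : HorizData n jF tF T cv)
    (hconst : ∀ c : Kbar, tF ≠ algebraMap Kbar Fb c)
    (hcvA : ∀ γ c, cv γ = some c → ∃ a : A, algebraMap A Kbar a = c)
    (bc : F →+* Fb)
    (hbc : ∀ a : K, bc (algebraMap K F a) = algebraMap Kbar Fb (algebraMap K Kbar a))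
    (t : F) (ht : bc t = tF)
    (hExt : ∀ w : Place K F, ∃ (v : Place Kbar Fb) (d : ℕ), 0 < d ∧
      ∀ f : F, v.ord (bc f) = (d : ℤ) * w.ord f)
    (hX : ∀ p : A[X], algebraMap B F (algebraMap A[X] B p) = aeval t p)
    (π : A) (hπ0 : algebraMap A F π ≠ 0)
    (hK : ∀ a : K, ∃ (r : A) (k : ℕ), algebraMap K F a * algebraMap A F π ^ k = algebraMap A F r)
    (O : ValuationSubring F) (hB : ∀ z : B, algebraMap B F z ∈ O) [IsDiscreteValuationRing O]
    (hπ : (algebraMap B F (algebraMap A[X] B (C π)))⁻¹ ∈ O)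
    (hcusp : ∀ a : A, (∃ γ, cv γ = some (algebraMap A Kbar a)) →
      (algebraMap B F (algebraMap A[X] B (X - C a)))⁻¹ ∈ O) :
    ∃ g0 : A[X], (algebraMap B F (algebraMap A[X] B g0))⁻¹ ∉ O ∧
      ∀ y ∈ O, y⁻¹ ∉ O → y / algebraMap B F (algebraMap A[X] B g0) ∈ O := by
  refine exists_uniformizer_gen H.isGen (tF) hconst (fun c => ∀ γ, cv γ ≠ some c)
    (fun v c hgc hc => ord_sub_eq_one H v c hgc hc)
    bc hbc t ht hExt hX π hπ0 hK O hB hπ ?_
  intro w hwO v d hd hve c hc γ hγ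
  obtain ⟨a, ha⟩ := hcvA γ c hγ
  have h1 := hcusp a ⟨γ, by rw [ha]; exact hγ⟩
  rw [hX, map_sub, aeval_X, aeval_C, ← hwO] at h1
  have h2 : 0 ≤ w.ord (t - algebraMap A F a)⁻¹ := ffp_ord_nonneg_of_mem w h1
  rw [w.ord_inv] at h2
  have h3 := hve (t - algebraMap A F a)
  rw [map_sub, ht, bc_algebraMap_A bc hbc, ha] at h3
  rw [h3] at hc
  have hdpos : (0 : ℤ) < d := by exact_mod_cast hd
  nlinarith

/-- **Core of (H3), chart `t⁻¹`.**  `X ↦ s`, `bc s = t_M⁻¹`: a discrete valuation subring `O ⊇ B` in which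
`π`, `s` and all `c_i s - 1` are units has a uniformiser of the form `g0(s)`, `g0 ∈ A[X]`. -/
theorem exists_uniformizer_inv (H : HorizData n jF tF T cv)
    (hconst : ∀ c : Kbar, tF ≠ algebraMap Kbar Fb c)
    (hcvA : ∀ γ c, cv γ = some c → ∃ a : A, algebraMap A Kbar a = c)
    (bc : F →+* Fb)
    (hbc : ∀ a : K, bc (algebraMap K F a) = algebraMap Kbar Fb (algebraMap K Kbar a))
    (s : F) (hs : bc s = (tF)⁻¹)
    (hExt : ∀ w : Place K F, ∃ (v : Place Kbar Fb) (d : ℕ), 0 < d ∧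
      ∀ f : F, v.ord (bc f) = (d : ℤ) * w.ord f)
    (hX : ∀ p : A[X], algebraMap B F (algebraMap A[X] B p) = aeval s p)
    (π : A) (hπ0 : algebraMap A F π ≠ 0)
    (hK : ∀ a : K, ∃ (r : A) (k : ℕ), algebraMap K F a * algebraMap A F π ^ k = algebraMap A F r)
    (O : ValuationSubring F) (hB : ∀ z : B, algebraMap B F z ∈ O) [IsDiscreteValuationRing O]
    (hπ : (algebraMap B F (algebraMap A[X] B (C π)))⁻¹ ∈ O)
    (hsunit : (algebraMap B F (algebraMap A[X] B X))⁻¹ ∈ O)
    (hcusp : ∀ a : A, (∃ γ, cv γ = some (algebraMap A Kbar a)) →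
      (algebraMap B F (algebraMap A[X] B (C a * X - 1)))⁻¹ ∈ O) :
    ∃ g0 : A[X], (algebraMap B F (algebraMap A[X] B g0))⁻¹ ∉ O ∧
      ∀ y ∈ O, y⁻¹ ∉ O → y / algebraMap B F (algebraMap A[X] B g0) ∈ O := by
  have hT0 : tF ≠ 0 := by
    intro h0
    exact hconst 0 (by rw [h0, map_zero])
  have hconst' : ∀ c : Kbar, (tF)⁻¹ ≠ algebraMap Kbar Fb c := by
    intro c hc
    apply hconst c⁻¹
    rw [map_inv₀, ← hc, inv_inv]
  refine exists_uniformizer_gen H.isGen (tF)⁻¹ hconst'
    (fun c => c ≠ 0 ∧ ∀ γ, cv γ ≠ some c⁻¹) ?_ bc hbc s hs hExt hX π hπ0 hK O hB hπ ?_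
  · rintro v c ⟨hc0, hcv⟩ hc
    have heq : v.ord ((tF)⁻¹ - algebraMap Kbar Fb c)
        = v.ord (tF - algebraMap Kbar Fb c⁻¹) := HorizGen20.ord_inv_sub v (tF) c hc0 hc
    rw [heq] at hc ⊢
    exact ord_sub_eq_one H v c⁻¹ hcv hc
  · intro w hwO v d hd hve c hc
    have hdpos : (0 : ℤ) < d := by exact_mod_cast hd
    -- `s` is a unit of `O`, so `ord_v T⁻¹ = 0`
    have hsO : s ∈ w.toValuationSubring := by
      have := hB (algebraMap A[X] B X)
      rwa [hX, aeval_X, ← hwO] at this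
    have hsinv : s⁻¹ ∈ w.toValuationSubring := by
      rwa [hX, aeval_X, ← hwO] at hsunit
    have hws : w.ord s = 0 := by
      have h1 := ffp_ord_nonneg_of_mem w hsO
      have h2 := ffp_ord_nonneg_of_mem w hsinv
      rw [w.ord_inv] at h2
      omega
    have hvT : v.ord (tF)⁻¹ = 0 := by rw [← hs, hve, hws, mul_zero]
    have hc0 : c ≠ 0 := by
      intro h0
      rw [h0, map_zero, sub_zero, hvT] at hc
      exact lt_irrefl _ hc
    refine ⟨hc0, fun γ hγ => ?_⟩
    obtain ⟨a, ha⟩ := hcvA γ c⁻¹ hγ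
    have h1 := hcusp a ⟨γ, by rw [ha]; exact hγ⟩
    rw [hX, map_sub, map_mul, aeval_X, aeval_C, map_one, ← hwO] at h1
    have h2 : 0 ≤ w.ord (algebraMap A F a * s - 1)⁻¹ := ffp_ord_nonneg_of_mem w h1
    rw [w.ord_inv] at h2
    have h3 := hve (algebraMap A F a * s - 1)
    rw [map_sub, map_mul, map_one, hs, bc_algebraMap_A bc hbc, ha] at h3
    -- `c⁻¹ T⁻¹ - 1 = c⁻¹ (T⁻¹ - c)`
    have hfac : algebraMap Kbar Fb c⁻¹ * (tF)⁻¹ - 1
        = algebraMap Kbar Fb c⁻¹ * ((tF)⁻¹ - algebraMap Kbar Fb c) := by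
      rw [mul_sub, ← map_mul, inv_mul_cancel₀ hc0, map_one]
    have hcinv : algebraMap Kbar Fb c⁻¹ ≠ 0 := by
      rw [Ne, map_eq_zero]; exact inv_ne_zero hc0
    have hne : (tF)⁻¹ - algebraMap Kbar Fb c ≠ 0 := by
      intro h0; rw [h0, Place.ord_zero] at hc; exact lt_irrefl _ hc
    rw [hfac, v.ord_mul hcinv hne, ffp_ord_algebraMap, zero_add] at h3
    rw [h3] at hc
    nlinarith

/-! ### the literal `hUNR` shapes of `PurityMain26` (`R0 := A[X]`, `π := C π₀`) -/

/-- **`hUNR` of `PurityMain26.smooth_of_purity`** at a maximal ideal `x` of `B` containing no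
`t - c_i` (`c_i` the finite cusp values): a NON-cusp closed point of the chart `t`. -/
theorem hUNR_noncusp (H : HorizData n jF tF T cv)
    (hconst : ∀ c : Kbar, tF ≠ algebraMap Kbar Fb c)
    (hcvA : ∀ γ c, cv γ = some c → ∃ a : A, algebraMap A Kbar a = c)
    (bc : F →+* Fb)
    (hbc : ∀ a : K, bc (algebraMap K F a) = algebraMap Kbar Fb (algebraMap K Kbar a))
    (t : F) (ht : bc t = tF)
    (hExt : ∀ w : Place K F, ∃ (v : Place Kbar Fb) (d : ℕ), 0 < d ∧
      ∀ f : F, v.ord (bc f) = (d : ℤ) * w.ord f)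
    (hX : ∀ p : A[X], algebraMap B F (algebraMap A[X] B p) = aeval t p)
    (π : A) (hπ0 : algebraMap A F π ≠ 0)
    (hK : ∀ a : K, ∃ (r : A) (k : ℕ), algebraMap K F a * algebraMap A F π ^ k = algebraMap A F r)
    (x : Ideal B)
    (hx : ∀ a : A, (∃ γ, cv γ = some (algebraMap A Kbar a)) → algebraMap A[X] B (X - C a) ∉ x) :
    ∀ O : ValuationSubring F, (∀ z : B, algebraMap B F z ∈ O) → IsDiscreteValuationRing O →
      (algebraMap B F (algebraMap A[X] B (C π)))⁻¹ ∈ O →
      (∀ r : A[X], algebraMap A[X] B r ∉ x → (algebraMap B F (algebraMap A[X] B r))⁻¹ ∈ O) →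
      ∃ g0 : A[X], (algebraMap B F (algebraMap A[X] B g0))⁻¹ ∉ O ∧
        ∀ y ∈ O, y⁻¹ ∉ O → y / algebraMap B F (algebraMap A[X] B g0) ∈ O := by
  intro O hB hdvr hπ hcen
  have := hdvr
  exact exists_uniformizer H hconst hcvA bc hbc t ht hExt hX π hπ0 hK O hB hπ
    (fun a ha => hcen _ (hx a ha))

/-- **`hUNR` of `PurityMain26.not_dvd_discr_of_valuative`** at the cusp point `P ∋ X - C a₀` of the chart
`t`, excluded element `q := X - C a₀`: the other cusp values are separated from `a₀` at `P`. -/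
theorem hUNR_cusp (H : HorizData n jF tF T cv)
    (hconst : ∀ c : Kbar, tF ≠ algebraMap Kbar Fb c)
    (hcvA : ∀ γ c, cv γ = some c → ∃ a : A, algebraMap A Kbar a = c)
    (bc : F →+* Fb)
    (hbc : ∀ a : K, bc (algebraMap K F a) = algebraMap Kbar Fb (algebraMap K Kbar a))
    (t : F) (ht : bc t = tF)
    (hExt : ∀ w : Place K F, ∃ (v : Place Kbar Fb) (d : ℕ), 0 < d ∧
      ∀ f : F, v.ord (bc f) = (d : ℤ) * w.ord f)
    (hX : ∀ p : A[X], algebraMap B F (algebraMap A[X] B p) = aeval t p)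
    (π : A) (hπ0 : algebraMap A F π ≠ 0)
    (hK : ∀ a : K, ∃ (r : A) (k : ℕ), algebraMap K F a * algebraMap A F π ^ k = algebraMap A F r)
    (P : Ideal A[X]) (a₀ : A)
    (hP : ∀ a : A, (∃ γ, cv γ = some (algebraMap A Kbar a)) → a = a₀ ∨ X - C a ∉ P) :
    ∀ O : ValuationSubring F, (∀ z : B, algebraMap B F z ∈ O) → IsDiscreteValuationRing O →
      (algebraMap B F (algebraMap A[X] B (C π)))⁻¹ ∈ O →
      (algebraMap B F (algebraMap A[X] B (X - C a₀)))⁻¹ ∈ O →
      (∀ r : A[X], r ∉ P → (algebraMap B F (algebraMap A[X] B r))⁻¹ ∈ O) →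
      ∃ g0 : A[X], (algebraMap B F (algebraMap A[X] B g0))⁻¹ ∉ O ∧
        ∀ y ∈ O, y⁻¹ ∉ O → y / algebraMap B F (algebraMap A[X] B g0) ∈ O := by
  intro O hB hdvr hπ hq hcen
  have := hdvr
  refine exists_uniformizer H hconst hcvA bc hbc t ht hExt hX π hπ0 hK O hB hπ ?_
  intro a ha
  rcases hP a ha with rfl | hne
  · exact hq
  · exact hcen _ hne

/-- **`hUNR` of `PurityMain26.not_dvd_discr_of_valuative`** at the cusp point `t = ∞` of the chart
`s = t⁻¹` (`X ↦ s`), excluded element `q := X`. -/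
theorem hUNR_cusp_inv (H : HorizData n jF tF T cv)
    (hconst : ∀ c : Kbar, tF ≠ algebraMap Kbar Fb c)
    (hcvA : ∀ γ c, cv γ = some c → ∃ a : A, algebraMap A Kbar a = c)
    (bc : F →+* Fb)
    (hbc : ∀ a : K, bc (algebraMap K F a) = algebraMap Kbar Fb (algebraMap K Kbar a))
    (s : F) (hs : bc s = (tF)⁻¹)
    (hExt : ∀ w : Place K F, ∃ (v : Place Kbar Fb) (d : ℕ), 0 < d ∧
      ∀ f : F, v.ord (bc f) = (d : ℤ) * w.ord f)
    (hX : ∀ p : A[X], algebraMap B F (algebraMap A[X] B p) = aeval s p)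
    (π : A) (hπ0 : algebraMap A F π ≠ 0)
    (hK : ∀ a : K, ∃ (r : A) (k : ℕ), algebraMap K F a * algebraMap A F π ^ k = algebraMap A F r)
    (P : Ideal A[X])
    (hP : ∀ a : A, (∃ γ, cv γ = some (algebraMap A Kbar a)) → C a * X - 1 ∉ P) :
    ∀ O : ValuationSubring F, (∀ z : B, algebraMap B F z ∈ O) → IsDiscreteValuationRing O →
      (algebraMap B F (algebraMap A[X] B (C π)))⁻¹ ∈ O →
      (algebraMap B F (algebraMap A[X] B X))⁻¹ ∈ O →
      (∀ r : A[X], r ∉ P → (algebraMap B F (algebraMap A[X] B r))⁻¹ ∈ O) →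
      ∃ g0 : A[X], (algebraMap B F (algebraMap A[X] B g0))⁻¹ ∉ O ∧
        ∀ y ∈ O, y⁻¹ ∉ O → y / algebraMap B F (algebraMap A[X] B g0) ∈ O := by
  intro O hB hdvr hπ hq hcen
  have := hdvr
  exact exists_uniformizer_inv H hconst hcvA bc hbc s hs hExt hX π hπ0 hK O hB hπ hq
    (fun a ha => hcen _ (hP a ha))

end Concrete


/-! ### polynomial form -/

section Poly

variable {A K F : Type*} [CommRing A] [IsDomain A] [Field K] [CharZero K] [Field F]
  [Algebra A K] [IsFractionRing A K] [Algebra K F] [Algebra A F] [IsScalarTower A K F]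
  [Algebra K Kbar] [Algebra A Kbar] [IsScalarTower A K Kbar] [Algebra.IsAlgebraic K Kbar]

/-- **`hUNR` at a non-cusp point, polynomial form.**  `P` an ideal of `A[X]` containing no `X - C a`
(`a` a finite cusp value): every discrete valuation subring `O` of `F` containing `A[t]`, in which `π`
is a unit and all `r(t)`, `r ∉ P`, are units, has a uniformiser `g0(t)`, `g0 ∈ A[X]`. -/
theorem hUNR_noncusp_poly (H : HorizData n jF tF T cv)
    (hconst : ∀ c : Kbar, tF ≠ algebraMap Kbar Fb c)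
    (hcvA : ∀ γ c, cv γ = some c → ∃ a : A, algebraMap A Kbar a = c)
    (bc : F →+* Fb)
    (hbc : ∀ a : K, bc (algebraMap K F a) = algebraMap Kbar Fb (algebraMap K Kbar a))
    (t : F) (ht : bc t = tF)
    (hExt : ∀ w : Place K F, ∃ (v : Place Kbar Fb) (d : ℕ), 0 < d ∧
      ∀ f : F, v.ord (bc f) = (d : ℤ) * w.ord f)
    (π : A) (hπ0 : algebraMap A F π ≠ 0)
    (hK : ∀ a : K, ∃ (r : A) (k : ℕ), algebraMap K F a * algebraMap A F π ^ k = algebraMap A F r)
    (P : Ideal A[X])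
    (hP : ∀ a : A, (∃ γ, cv γ = some (algebraMap A Kbar a)) → (X - C a : A[X]) ∉ P) :
    ∀ O : ValuationSubring F, (∀ z : A[X], aeval t z ∈ O) → IsDiscreteValuationRing O →
      (algebraMap A F π)⁻¹ ∈ O →
      (∀ r : A[X], r ∉ P → (aeval t r)⁻¹ ∈ O) →
      ∃ g0 : A[X], (aeval t g0)⁻¹ ∉ O ∧ ∀ y ∈ O, y⁻¹ ∉ O → y / aeval t g0 ∈ O := by
  intro O hB hdvr hπ hcen
  letI : Algebra A[X] F := (aeval t : A[X] →ₐ[A] F).toRingHom.toAlgebra
  have hX : ∀ p : A[X], algebraMap A[X] F (algebraMap A[X] A[X] p) = aeval t p := fun p => rfl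
  have key := hUNR_noncusp (B := A[X]) H hconst hcvA bc hbc t ht hExt
    hX π hπ0 hK P (fun a ha => hP a ha) O (fun z => hB z) hdvr
    (by
      show (aeval t (C π))⁻¹ ∈ O
      rw [aeval_C]; exact hπ)
    (fun r hr => hcen r hr)
  exact key


end Poly

/-! ### the `HUNROff` form -/

section Off

/-- **The horizontal bridge away from the cusp values, generic `(O, E)`.** -/
theorem hunrOff_generic (H : HorizData n jF tF T cv)
    (hconst : ∀ c : Kbar, tF ≠ algebraMap Kbar Fb c)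
    {K : Type*} [Field K] [CharZero K] [Algebra K Kbar] [Algebra.IsAlgebraic K Kbar]
    (O : ValuationSubring K) [IsDiscreteValuationRing ↥O]
    (E : IntermediateField K (LaurentSeries K))
    (hcvA : ∀ γ c, cv γ = some c → ∃ a : ↥O, algebraMap K Kbar (a : K) = c)
    (bc : ↥E →+* Fb)
    (hbc : ∀ a : K, bc (algebraMap K ↥E a) = algebraMap Kbar Fb (algebraMap K Kbar a))
    (t : ↥E) (ht : bc t = tF)
    (hExt : ∀ w : Place K ↥E, ∃ (v : Place Kbar Fb) (d : ℕ), 0 < d ∧
      ∀ f : ↥E, v.ord (bc f) = (d : ℤ) * w.ord f)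
    {π : ↥O} (hπ : Irreducible π) :
    HUNROff O E π t {c | ∃ γ, cv γ = some (algebraMap K Kbar (c : K))} := by
  intro P hP O' hint hdvr hπO hcen
  letI : Algebra ↥O Kbar := ((algebraMap K Kbar).comp O.subtype).toAlgebra
  haveI : IsScalarTower ↥O K Kbar := IsScalarTower.of_algebraMap_eq fun _ => rfl
  haveI : IsScalarTower ↥O K ↥E := Fermat.Agent.RED.NumInst4.isScalarTower_OE O E
  have hinjE : Function.Injective (algebraMap ↥O ↥E) := by
    rw [IsScalarTower.algebraMap_eq ↥O K ↥E]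
    exact (algebraMap K ↥E).injective.comp Subtype.val_injective
  refine hUNR_noncusp_poly H hconst (A := ↥O) (K := K) (F := ↥E)
    (fun γ c hγ => ?_) bc hbc t ht hExt π ?_ (fun a => ?_) P (fun a ha => ?_) O' (fun z => ?_)
    hdvr hπO hcen
  · obtain ⟨a, ha⟩ := hcvA γ c hγ
    exact ⟨a, ha⟩
  · exact fun h0 => hπ.ne_zero (hinjE (by rw [h0, map_zero]))
  · -- denominators are powers of `π`
    by_cases ha : a ∈ O
    · refine ⟨⟨a, ha⟩, 0, ?_⟩
      rw [pow_zero, mul_one, IsScalarTower.algebraMap_apply ↥O K ↥E]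
      rfl
    · have hainv : a⁻¹ ∈ O := (O.mem_or_inv_mem a).resolve_left ha
      have ha0 : a ≠ 0 := fun h0 => ha (by rw [h0]; exact O.zero_mem)
      have hne : (⟨a⁻¹, hainv⟩ : ↥O) ≠ 0 := fun h0 =>
        inv_ne_zero ha0 (congrArg Subtype.val h0)
      obtain ⟨k, u, hu⟩ := IsDiscreteValuationRing.eq_unit_mul_pow_irreducible hne hπ
      refine ⟨((u⁻¹ : (↥O)ˣ) : ↥O), k, ?_⟩
      have h1 : a⁻¹ = ((u : ↥O) : K) * ((π : ↥O) : K) ^ k := by
        have := congrArg Subtype.val hu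
        simpa using this
      have hu0 : ((u : ↥O) : K) ≠ 0 := fun h0 => u.ne_zero (Subtype.ext h0)
      have h2 : a * ((π : ↥O) : K) ^ k = (((u⁻¹ : (↥O)ˣ) : ↥O) : K) := by
        have h3 : ((u : ↥O) : K) * (((u⁻¹ : (↥O)ˣ) : ↥O) : K) = 1 := by
          rw [← MulMemClass.coe_mul, Units.mul_inv, OneMemClass.coe_one]
        have h4 : a * (((u : ↥O) : K) * ((π : ↥O) : K) ^ k) = 1 := by
          rw [← h1, mul_inv_cancel₀ ha0]
        have h5 : a * ((π : ↥O) : K) ^ k * ((u : ↥O) : K) = 1 := by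
          rw [← h4]; ring
        calc a * ((π : ↥O) : K) ^ k
            = a * ((π : ↥O) : K) ^ k * (((u : ↥O) : K) * (((u⁻¹ : (↥O)ˣ) : ↥O) : K)) := by
              rw [h3, mul_one]
          _ = (a * ((π : ↥O) : K) ^ k * ((u : ↥O) : K)) * (((u⁻¹ : (↥O)ˣ) : ↥O) : K) := by ring
          _ = (((u⁻¹ : (↥O)ˣ) : ↥O) : K) := by rw [h5, one_mul]
      rw [IsScalarTower.algebraMap_apply ↥O K ↥E, IsScalarTower.algebraMap_apply ↥O K ↥E,
        ← map_pow, ← map_mul]
      exact congrArg (algebraMap K ↥E) h2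
  · obtain ⟨γ, hγ⟩ := ha
    exact hP a ⟨γ, hγ⟩
  · apply hint
    have hmem : aeval t z ∈ Algebra.adjoin ↥O {t} := by
      rw [Algebra.adjoin_singleton_eq_range_aeval]
      exact ⟨z, rfl⟩
    exact isIntegral_algebraMap (R := ↥(Algebra.adjoin ↥O {t})) (A := ↥E) (x := ⟨_, hmem⟩)


end Off

end Fermat.Agent.M48.PurHoriz1
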