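/-
Programme M48, pillar (P1), chapter [RED1] (helper4, chapter lead): **LITERAL INTERFACES of the
re-run of Program H (`Fermat/Agent/RED/`) and of `ES/RED` for the model
`DictIface4.fieldG10 M L` of `X(Γ₁(M) ∩ Γ₀(M L))`.**

Conventions of the re-run (board 1363): every `Concrete/Inst` file of `RED/` and `ES/RED/` is copied
once with
  `modularFunctionFieldFull M`      ↦ `fieldG10 M L`,
  `Fbar M` / `X0.FF M`              ↦ `F1b M L`  (`= J1Defs8.FK ℚbar M L`),
  `Interface4.FK M K`               ↦ `F1K M L K` (`= J1Defs8.FK ↥K M L`),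
  `modularFunctionFieldFullC k M`   ↦ `QModel8.fieldG10C k M L`,
  the number "level" `M`            ↦ `N = M * L` (widths, `ζ_N`, `1 / N`),
with `2 ≤ M`, `n ∣ M * L` (`(n, e) = (4, 8)` for `ℓ` odd, `(9, 3)` for `ℓ = 2`), `ℓ ∤ M * L`.
The OLD objects survive inside the new ones (`modularFunctionFieldFull (M * L) ≤ fieldG10 M L`):
`inclOld : Fbar (M * L) →ₐ F1b M L`, `inclOldK : Interface4.FK (M * L) K →ₐ F1K M L K`; the
Hauptmodul `t = tq _ n e`, `j`, the `j(q^d)` and every fact about them is imported, not re-proved.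

This file contains DEFINITIONS and trivial compatibilities only.  Boundaries fixed here:

* fields and maps: `F1b`, `F1K`, `inclOld`, `inclOldK`, `bcK1`, `jF1`, `jK1`, `auxL`;
* the core lemma: `CLBar1`, `CLNum1`, `NumStep1`, `DescStepGe1`, `ModelStep1`;
* [BASE1]: `TMem1`, `tF1`, `TIsGen1`, `Unbranched1`, `BaseExports1`, `CuspExports1`;
* [CUSP1] data over `ℚbar`: `genSet1`, `Rsub1`, `RealizeData1`, `CuspData1`, `CuspExp1`;
* the three smoothness targets: `EventuallyT1`, `OffTarget1`, `OverTarget1`, `InfTarget1`,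
  `TargetsHyp1`;
* [ESRED-MODEL]: `CoeffChartG` (the generic-`Ft` form of `GaloisInst21.CoeffChart`), `ModelAt1`.
-/
import Mathlib
import Fermat.Agent.M48.QModel8
import Fermat.Agent.RED.ModelTargets4
import Fermat.Agent.RED.NumMain4
import Fermat.Agent.RED.BASE.MainCusp12
import Fermat.Agent.RED.DESC.CoeffDescent1
import Fermat.Agent.ES.RED.TwoCharts8

set_option autoImplicit false
set_option linter.unusedSectionVars false
set_option synthInstance.maxHeartbeats 400000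

open HahnSeries ModularCurve AlgebraicCurve IntermediateField UpperHalfPlane
open scoped MatrixGroups

noncomputable section

namespace Fermat.Agent.M48.Red1Iface4

open Fermat.Agent.M48.DictIface4 Fermat.Agent.M48.J1Defs8 Fermat.Agent.M48.QModel8
open Fermat.Agent.X0 Fermat.Agent.RED.Interface4 Fermat.Agent.RED.BASE.Interface12
open Fermat.Agent.RED.BASE.EtaQuot12

/-! ### Fields and maps -/

/-- `ℚbar · fieldG10 M L ⊂ ℚbar((q))`, the function field of `X(Γ₁(M) ∩ Γ₀(M L))` over `ℚbar`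
(reducibly equal to `J1Defs8.FK ℚbar M L`). -/
abbrev F1b (M L : ℕ) : IntermediateField Qbar (LaurentSeries Qbar) :=
  laurentBaseChange Qbar (fieldG10 M L)

/-- `K · fieldG10 M L ⊂ K((q))` for a subfield `K ⊂ ℚbar` (reducibly equal to
`J1Defs8.FK ↥K M L`). -/
abbrev F1K (M L : ℕ) (K : IntermediateField ℚ Qbar) : IntermediateField K (LaurentSeries K) :=
  laurentBaseChange K (fieldG10 M L)

example (M L : ℕ) : F1b M L = J1Defs8.FK Qbar M L := rfl
example (M L : ℕ) (K : IntermediateField ℚ Qbar) : F1K M L K = J1Defs8.FK K M L := rfl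

theorem fbar_le_F1b (M L : ℕ) : Fbar (M * L) ≤ F1b M L :=
  laurentBaseChange_mono Qbar (modularFunctionFieldFull_le_fieldG10 M L)

theorem fk_le_F1K (M L : ℕ) (K : IntermediateField ℚ Qbar) :
    Fermat.Agent.RED.Interface4.FK (M * L) K ≤ F1K M L K :=
  laurentBaseChange_mono K (modularFunctionFieldFull_le_fieldG10 M L)

/-- The old `Γ₀(M L)`-field inside the new field, over `ℚbar`. -/
def inclOld (M L : ℕ) : Fbar (M * L) →ₐ[Qbar] F1b M L :=
  IntermediateField.inclusion (fbar_le_F1b M L)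

@[simp] theorem coe_inclOld (M L : ℕ) (f : Fbar (M * L)) :
    ((inclOld M L f : F1b M L) : LaurentSeries Qbar) = (f : LaurentSeries Qbar) :=
  IntermediateField.coe_inclusion _ f

/-- The old `Γ₀(M L)`-field inside the new field, over a subfield `K ⊂ ℚbar`. -/
def inclOldK (M L : ℕ) (K : IntermediateField ℚ Qbar) :
    Fermat.Agent.RED.Interface4.FK (M * L) K →ₐ[K] F1K M L K :=
  IntermediateField.inclusion (fk_le_F1K M L K)

@[simp] theorem coe_inclOldK (M L : ℕ) (K : IntermediateField ℚ Qbar)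
    (f : Fermat.Agent.RED.Interface4.FK (M * L) K) :
    ((inclOldK M L K f : F1K M L K) : LaurentSeries K) = (f : LaurentSeries K) :=
  IntermediateField.coe_inclusion _ f

/-- Coefficientwise base change `K · fieldG10 M L → ℚbar · fieldG10 M L` (twin of
`PlaceExtend27.baseChangeHom`). -/
def bcK1 (M L : ℕ) (K : IntermediateField ℚ Qbar) : F1K M L K →+* F1b M L :=
  RingHom.codRestrict ((coeffMap (algebraMap K Qbar)).comp (F1K M L K).val.toRingHom) (F1b M L)
    (fun f => Fermat.Agent.RED.DESC.CoeffDescent1.coeffMap_mem_laurentBaseChange_of_algHom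
      (algebraMap K Qbar) (fieldG10 M L) f.2)

@[simp] theorem coe_bcK1 (M L : ℕ) (K : IntermediateField ℚ Qbar) (f : F1K M L K) :
    ((bcK1 M L K f : F1b M L) : LaurentSeries Qbar) =
      coeffMap (algebraMap K Qbar) (f : LaurentSeries K) := rfl

theorem jq_mem_fieldG10' (M L : ℕ) : jq ∈ fieldG10 M L := by
  have h : qExpand ℚ 1 jq ∈ fieldG10 M L :=
    IntermediateField.subset_adjoin ℚ _ (Or.inl ⟨1, inferInstance, one_dvd _, rfl⟩)
  rwa [qExpand_one_apply] at h

/-- The formal `j` in `F1b M L`. -/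
def jF1 (M L : ℕ) : F1b M L :=
  ⟨coeffEmb Qbar jq, coeffEmb_mem_laurentBaseChange Qbar (jq_mem_fieldG10' M L)⟩

@[simp] theorem coe_jF1 (M L : ℕ) : ((jF1 M L : F1b M L) : LaurentSeries Qbar) = coeffEmb Qbar jq :=
  rfl

/-- The formal `j` in `F1K M L K`. -/
def jK1 (M L : ℕ) (K : IntermediateField ℚ Qbar) : F1K M L K :=
  ⟨coeffEmb K jq, coeffEmb_mem_laurentBaseChange K (jq_mem_fieldG10' M L)⟩

/-- The auxiliary factor: `M * auxL ℓ M = auxLevel ℓ M` (`= lcm M 4` for `ℓ` odd, `lcm M 9` for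
`ℓ = 2`).  The reduction chain for `Γ₁(M)` runs at the pair `(M, auxL ℓ M)`. -/
def auxL (ℓ M : ℕ) : ℕ := auxLevel ℓ M / M

theorem mul_auxL (ℓ M : ℕ) : M * auxL ℓ M = auxLevel ℓ M :=
  Nat.mul_div_cancel' (dvd_auxLevel ℓ M)

/-! ### The core lemma -/

/-- **(CL) over `ℚbar` for the pair `(M, L)`, field form** (twin of `Interface4.CLBar`). -/
def CLBar1 (ℓ M L : ℕ) (A : ValuationSubring Qbar) : Prop :=
  ∀ (P Q : LaurentSeries A)
    (hP : coeffMap A.subtype P ∈ F1b M L) (hQ : coeffMap A.subtype Q ∈ F1b M L),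
    coeffMap (IsLocalRing.residue A) P = coeffMap (IsLocalRing.residue A) Q →
    coeffMap (IsLocalRing.residue A) P ≠ 0 →
    ∀ m : ℕ, ¬ ℓ ∣ m →
      (∀ v : Place Qbar (F1b M L),
        (m : ℤ) ∣ v.ord (⟨coeffMap A.subtype P, hP⟩ : F1b M L) -
          v.ord (⟨coeffMap A.subtype Q, hQ⟩ : F1b M L)) →
      ∃ s : F1b M L, s ^ m * (⟨coeffMap A.subtype Q, hQ⟩ : F1b M L) = ⟨coeffMap A.subtype P, hP⟩

/-- **(CL) over a number field `K ⊂ ℚbar`** (twin of `Interface4.CLNum`; literally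
`NumInst4.CLStmt (AK A K) (F1K M L K) ℓ`). -/
def CLNum1 (ℓ M L : ℕ) (A : ValuationSubring Qbar) (K : IntermediateField ℚ Qbar) : Prop :=
  Fermat.Agent.RED.NumInst4.CLStmt (AK A K) (F1K M L K) ℓ

/-- CORE + MODEL, final shape (twin of `InterfaceGe4.NumStep`). -/
def NumStep1 (ℓ M L : ℕ) (A : ValuationSubring Qbar) : Prop :=
  ∃ K₀ : IntermediateField ℚ Qbar, FiniteDimensional ℚ K₀ ∧
    ∀ K : IntermediateField ℚ Qbar, FiniteDimensional ℚ K → K₀ ≤ K → CLNum1 ℓ M L A K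

/-- Chapter DESC, final shape (twin of `InterfaceGe4.DescStepGe`). -/
def DescStepGe1 (ℓ M L : ℕ) (A : ValuationSubring Qbar) : Prop :=
  ∀ K₀ : IntermediateField ℚ Qbar, FiniteDimensional ℚ K₀ →
    (∀ K : IntermediateField ℚ Qbar, FiniteDimensional ℚ K → K₀ ≤ K → CLNum1 ℓ M L A K) →
      CLBar1 ℓ M L A

theorem clBar1_of_descStepGe1 {ℓ M L : ℕ} {A : ValuationSubring Qbar}
    (hdesc : DescStepGe1 ℓ M L A) (hnum : NumStep1 ℓ M L A) : CLBar1 ℓ M L A := by
  obtain ⟨K₀, hK₀, h⟩ := hnum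
  exact hdesc K₀ hK₀ h

/-- The deliverable of MODEL (twin of `NumMain4.ModelStep`). -/
def ModelStep1 (M L : ℕ) (A : ValuationSubring Qbar) : Prop :=
  ∃ K₀ : IntermediateField ℚ Qbar, FiniteDimensional ℚ K₀ ∧
    ∀ K : IntermediateField ℚ Qbar, FiniteDimensional ℚ K → K₀ ≤ K →
      Fermat.Agent.RED.NumInst4.HasModel (AK A K) (F1K M L K)

/-! ### [BASE1] -/

section Base

variable (n e : ℕ) [NeZero n]

/-- (B2) `t ∈ F1b M L`. -/
def TMem1 (M L : ℕ) : Prop := tK n e ∈ F1b M L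

variable {n e}

theorem tMem1_of_tMem {M L : ℕ} [NeZero (M * L)] (h : TMem n e (M * L)) : TMem1 n e M L :=
  fbar_le_F1b M L h

/-- `t` as an element of `F1b M L`. -/
def tF1 (M L : ℕ) (h : TMem1 n e M L) : F1b M L := ⟨tK n e, h⟩

@[simp] theorem coe_tF1 (M L : ℕ) (h : TMem1 n e M L) :
    ((tF1 M L h : F1b M L) : LaurentSeries Qbar) = tq Qbar n e := rfl

theorem inclOld_tF {M L : ℕ} [NeZero (M * L)] (h : TMem n e (M * L)) :
    inclOld M L (tF (M * L) h) = tF1 M L (tMem1_of_tMem h) := rfl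

variable (n e)

/-- (B3') `t` is a transcendental generator of `F1b M L`. -/
def TIsGen1 (M L : ℕ) : Prop := ∃ h : TMem1 n e M L, FF.IsGen Qbar (tF1 M L h)

/-- (B6) at every place of `F1b M L` not over `j = ∞`, `t - t(v)` is a uniformiser. -/
def Unbranched1 (M L : ℕ) : Prop :=
  ∃ h : TMem1 n e M L, ∀ v : Place Qbar (F1b M L), 0 ≤ v.ord (jF1 M L) →
    ∃ c : Qbar, v.ord (tF1 M L h - algebraMap Qbar (F1b M L) c) = 1

/-- The exports of [BASE1] at the pair `(M, L)` (twin of `Main12.BaseExports`; the analytic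
realisation `TRealize` is replaced by the dictionary, see `RealizeData1`). -/
structure BaseExports1 (M L : ℕ) : Prop where
  mem : TMem1 n e M L
  jIsGen : FF.IsGen Qbar (jF1 M L)
  isGen : TIsGen1 n e M L
  unbranched : Unbranched1 n e M L
  /-- `ψ(n) · [F1b M L : ℚbar(t)] = [F1b M L : ℚbar(j)]` -/
  degree : ∀ h : TMem1 n e M L,
    dedekindPsi n * Module.finrank Qbar⟮tF1 M L h⟯ (F1b M L) =
      Module.finrank Qbar⟮jF1 M L⟯ (F1b M L)
  /-- `[F1b M L : ℚbar(j)] = [PSL₂(ℤ) : ±Γ]` -/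
  degree_j : Module.finrank Qbar⟮jF1 M L⟯ (F1b M L) =
    Nat.card (SL(2, ℤ) ⧸ pm (Gamma10 M (M * L)))

end Base

/-! ### [CUSP1]: realisation and cusp data over `ℚbar` -/

section Cusp

variable (M L : ℕ)

/-- The formal `j(q^d)`, `d ∣ M L`, in `F1b M L`. -/
def jdF1 (d : ℕ) [NeZero d] (hd : d ∣ M * L) : F1b M L :=
  ⟨coeffEmb Qbar (qExpand ℚ d jq), coeffEmb_mem_laurentBaseChange Qbar
    (IntermediateField.subset_adjoin ℚ _ (Or.inl ⟨d, inferInstance, hd, rfl⟩))⟩

/-- The formal `g_{M,a}(q^e)`, `e ∣ L`, in `F1b M L`. -/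
def gF1 (a : (ZMod M)ˣ) (e : ℕ) [NeZero e] (he : e ∣ L) : F1b M L :=
  ⟨coeffEmb Qbar (qExpand ℚ e (gq M (a : ZMod M))), coeffEmb_mem_laurentBaseChange Qbar
    (IntermediateField.subset_adjoin ℚ _ (Or.inr ⟨a, e, inferInstance, he, rfl⟩))⟩

/-- The generators of `F1b M L`. -/
def genSet1 : Set (F1b M L) :=
  {x | (∃ (d : ℕ) (_ : NeZero d) (hd : d ∣ M * L), x = jdF1 M L d hd) ∨
    ∃ (a : (ZMod M)ˣ) (e : ℕ) (_ : NeZero e) (he : e ∣ L), x = gF1 M L a e he}

/-- The `ℚbar`-subalgebra `R = ℚbar[j(q^d), g_{M,a}(q^e)]` of `F1b M L`. -/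
def Rsub1 : Subalgebra Qbar (F1b M L) := Algebra.adjoin Qbar (genSet1 M L)

/-- `j(q^d)` as an element of `Rsub1`. -/
def jdR1 (d : ℕ) [NeZero d] (hd : d ∣ M * L) : Rsub1 M L :=
  ⟨jdF1 M L d hd, Algebra.subset_adjoin (Or.inl ⟨d, inferInstance, hd, rfl⟩)⟩

/-- `g_{M,a}(q^e)` as an element of `Rsub1`. -/
def gR1 (a : (ZMod M)ˣ) (e : ℕ) [NeZero e] (he : e ∣ L) : Rsub1 M L :=
  ⟨gF1 M L a e he, Algebra.subset_adjoin (Or.inr ⟨a, e, inferInstance, he, rfl⟩)⟩

/-- Analytic realisation of `Rsub1 M L` (twin of `X0.RealizeData`): an injective ring hom `Θ` into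
the holomorphic functions on `ℍ`, `Θ j_d = j(d ·)`, `Θ g_{a,e} = g_{M,a}(e ·)`, `Γ₁(M) ∩ Γ₀(M L)`-
invariant values, whose `q`-expansion (after `ι : ℚbar → ℂ`) is the formal element. -/
structure RealizeData1 where
  /-- the realisation map -/
  Θ : Rsub1 M L →+* (ℍ → ℂ)
  injective : Function.Injective Θ
  algebraMap_eq : ∀ c : Kbar, Θ (algebraMap Kbar (Rsub1 M L) c) = fun _ => iotaK c
  jd_eq : ∀ (d : ℕ) [NeZero d] (hd : d ∣ M * L), Θ (jdR1 M L d hd) = jdFun d
  g_eq : ∀ (a : (ZMod M)ˣ) (e : ℕ) [NeZero e] (he : e ∣ L),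
    Θ (gR1 M L a e he) = fun z => gFun M (a : ZMod M) (scaleH e z)
  mem_HolH : ∀ u : Rsub1 M L, Θ u ∈ HolH
  isQExp : ∀ u : Rsub1 M L, ∃ (m : ℕ) (P : PowerSeries Kbar),
    IsQExp 1 (Θ u) m (P.map iotaK) ∧ (((u : F1b M L) : LaurentSeries Kbar)) = laurentOf m P
  invariant : ∀ (u : Rsub1 M L) (γ : SL(2, ℤ)), γ ∈ Gamma10 M (M * L) → compSL (Θ u) γ = Θ u

variable {M L}

/-- Cusp expansions (twin of `X0.CuspData`): for every `γ ∈ SL(2, ℤ)` a ring hom
`T γ : F1b M L → ℚbar((q_N))`, `N = M L`, which on `u ∈ Rsub1` is the `q_N`-expansion of `Θ u ∘ γ`. -/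
structure CuspData1 (D : RealizeData1 M L) where
  /-- the expansion maps -/
  T : SL(2, ℤ) → (F1b M L →+* LaurentSeries Kbar)
  spec : ∀ (γ : SL(2, ℤ)) (u : Rsub1 M L), ∃ (m : ℕ) (P : PowerSeries Kbar),
    IsQExp (M * L) (compSL (D.Θ u) γ) m (P.map iotaK) ∧ T γ (u : F1b M L) = laurentOf m P

variable (n e : ℕ) [NeZero n]

/-- (B5) every cusp expansion of `t` has the cusp shape (twin of `Interface12.CuspExp`). -/
def CuspExp1 {D : RealizeData1 M L} (C : CuspData1 D) (cv : SL(2, ℤ) → Option Kbar) : Prop :=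
  ∃ h : TMem1 n e M L, ∀ γ : SL(2, ℤ), CuspShape n (C.T γ (tF1 M L h)) (cv γ)

/-- The cusp exports of [BASE1] (twin of `MainCusp12.CuspExports`). -/
structure CuspExports1 {D : RealizeData1 M L} (C : CuspData1 D) (cv : SL(2, ℤ) → Option Kbar) :
    Prop where
  cuspExp : CuspExp1 n e C cv
  separated : CuspSeparated n cv
  avoids : ∃ h : TMem1 n e M L, ∀ v : Place Kbar (F1b M L), 0 ≤ v.ord (jF1 M L) →
    ∀ (γ : SL(2, ℤ)) (c : Kbar), cv γ = some c →
      v.ord (tF1 M L h - algebraMap Kbar (F1b M L) c) = 0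
  cuspPlaces : ∃ h : TMem1 n e M L, ∀ v : Place Kbar (F1b M L), ∀ (γ : SL(2, ℤ)) (c : Kbar),
    cv γ = some c → 0 < v.ord (tF1 M L h - algebraMap Kbar (F1b M L) c) → v.ord (jF1 M L) < 0

end Cusp

/-! ### The three smoothness targets -/

section Targets

open Fermat.Agent.RED.ModelIface4 Fermat.Agent.RED.ModelTargets4

variable (n e M L : ℕ) [NeZero n] (A : ValuationSubring Qbar)

/-- `P K ϖ t` holds over all sufficiently large number fields `K`, for every uniformiser `ϖ` of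
`A_K` and `t = tq K n e ∈ F1K M L K` (twin of `ModelTargets4.EventuallyT`). -/
def EventuallyT1
    (P : ∀ K : IntermediateField ℚ Qbar, ↥(AK A K) → ↥(F1K M L K) → Prop) : Prop :=
  ∃ K₀ : IntermediateField ℚ Qbar, FiniteDimensional ℚ K₀ ∧
    ∀ K : IntermediateField ℚ Qbar, FiniteDimensional ℚ K → K₀ ≤ K →
      ∀ ϖ : ↥(AK A K), Irreducible ϖ →
        ∀ t : ↥(F1K M L K), (t : LaurentSeries K) = tq K n e → P K ϖ t

/-- **Target of [PUR1]**: (LOC) at the non-cusp closed points of the chart `t`. -/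
def OffTarget1 (cv : SL(2, ℤ) → Option Kbar) : Prop :=
  EventuallyT1 n e M L A fun K ϖ t => SmoothOff (AK A K) (F1K M L K) ϖ t (cuspSet A K cv)

/-- **Target of [CUSP1]**: (LOC) at the closed points over the finite cusp values. -/
def OverTarget1 (cv : SL(2, ℤ) → Option Kbar) : Prop :=
  EventuallyT1 n e M L A fun K ϖ t =>
    ∀ c ∈ cuspSet A K cv, SmoothOver (AK A K) (F1K M L K) ϖ t c

/-- **Target of [CUSP1] at infinity**: (LOC) at the closed points `t⁻¹ = 0`. -/
def InfTarget1 : Prop :=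
  EventuallyT1 n e M L A fun K ϖ t => SmoothOver (AK A K) (F1K M L K) ϖ t⁻¹ 0

/-- The three targets bundled (twin of `ModelFinal4.SmoothTargets`). -/
def SmoothTargets1 : Prop :=
  ∃ cv : SL(2, ℤ) → Option Kbar,
    OffTarget1 n e M L A cv ∧ OverTarget1 n e M L A cv ∧ InfTarget1 n e M L A

end Targets

/-! ### [ESRED-MODEL] -/

section EsRed

open Fermat.Agent.X0.FF Fermat.Agent.ES.RED.PlaceValue13 Fermat.Agent.ES.RED.Contract8
  Fermat.Agent.ES.RED.TwoCharts8 Fermat.Agent.RED.PUR.ChartGeneric22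

variable {Lf : Type*} [Field Lf] [Algebra ℚ Lf] [IsAlgClosed Lf] {A : ValuationSubring Lf}
  {F₀ : IntermediateField ℚ (LaurentSeries ℚ)} {x : ↥(laurentBaseChange Lf F₀)} {hx : IsGen Lf x}
  {Fk : IntermediateField (kA A) (LaurentSeries (kA A))}

/-- **A coefficientwise chart** (`GaloisInst21.CoeffChart` with an arbitrary reduced field
`Fk ⊂ κ_A((q))` in place of `modularFunctionFieldFullC κ_A M`): the chart ring is the integral
closure of `A[s]`, the coordinate has `Gal`-invariant coefficients, every element of the chart ring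
has an `A`-integral `q`-expansion and `red` is the coefficientwise reduction. -/
structure CoeffChartG (S : ChartSpec A hx ↥Fk) : Prop where
  mem_iff : ∀ b : ↥(laurentBaseChange Lf F₀), b ∈ S.B ↔ b ∈ chart ↥A S.s
  smul_s : ∀ σ : Lf ≃ₐ[ℚ] Lf, arithmeticGalois F₀ σ • S.s = S.s
  exists_series : ∀ b : ↥S.B, ∃ Y : LaurentSeries ↥A,
    coeffMap A.subtype Y = ((b : ↥(laurentBaseChange Lf F₀)) : LaurentSeries Lf)
  red_eq : ∀ (b : ↥S.B) (Y : LaurentSeries ↥A),
    coeffMap A.subtype Y = ((b : ↥(laurentBaseChange Lf F₀)) : LaurentSeries Lf) →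
    ((S.red b : ↥Fk) : LaurentSeries (kA A)) = coeffMap (resA A) Y

end EsRed

section ModelAt

open Fermat.Agent.X0.FF Fermat.Agent.ES.RED.PlaceValue13 Fermat.Agent.ES.RED.Contract8
  Fermat.Agent.ES.RED.TwoCharts8

/-- **The model input of the top for the pair `(M, L)`** (twin of `SPAux8.ModelAt`): a two-chart
model `T : TwoCharts A hx (fieldG10C κ_A M L)` whose charts are coefficientwise with coordinates
`t = tF1 M L _`, `t⁻¹`, satisfying (PEEL-a). -/
def ModelAt1 (A : ValuationSubring Qbar) (n e M L : ℕ) [NeZero n] (h : TMem1 n e M L) : Prop :=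
  ∃ (x : F1b M L) (hx : IsGen Qbar x)
    (T : TwoCharts A hx ↥(fieldG10C (kA A) M L)),
    CoeffChartG (F₀ := fieldG10 M L) T.S0 ∧
    CoeffChartG (F₀ := fieldG10 M L) T.S1 ∧
    T.S0.s = tF1 M L h ∧
    (∀ (P : Place Qbar (F1b M L)) (hP : T.S0.InChart P), T.S0.PeelA P hP) ∧
    (∀ (P : Place Qbar (F1b M L)) (hP : T.S1.InChart P), T.S1.PeelA P hP)

end ModelAt

end Fermat.Agent.M48.Red1Iface4
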