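/-
M48 (P1), [RED1], chapter [PUR1] (helper1), file 3: **the concrete objects and targets of MODEL for the
`Γ₁(M) ∩ Γ₀(M L)` model** — textual twin of `RED/ModelTargets4` (+ the concrete part of `RED/DESC/PlaceExtend27`
and `ModelFinal4.tTarget`), with `Interface4.FK M K` replaced by `FKn M L K = K · fieldG10 M L` and
`Fbar M` by `Fb M L = ℚbar · fieldG10 M L` (`= J1Defs8.FK ℚbar M L`, definitionally).

* `FKn M L K`, `Fb M L`, `FK_le_FKn`, `Fbar_le_Fb` (the old `Γ₀(M L)` fields sit inside);
* `baseChangeHom1 M L K : FKn M L K →+* Fb M L`, `baseChangeHom1_algebraMap`, `exists_place_above1`,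
  `exists_place_above_mem1` (EXT);
* `EventuallyT1`, `OffTarget1`, `OverTarget1`, `InfTarget1`, `TTarget1` (+ `tTarget1` from the old `TMem n e (M L)`;
  `JTarget` does not depend on the level and is reused as it is).

Imported by no statement.
-/
import Mathlib
import Fermat.Agent.RED.ModelFinal4
import Fermat.Agent.RED.DESC.PlaceExtend27
import Fermat.Agent.M48.G10Degree2

set_option autoImplicit false
set_option linter.unusedSectionVars false

open HahnSeries ModularCurve IntermediateField AlgebraicCurve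
open scoped MatrixGroups

noncomputable section

namespace Fermat.Agent.M48.RedTargets1

open Fermat.Agent.RED.Interface4 Fermat.Agent.RED.PUR.GaussGen8 Fermat.Agent.RED.ModelIface4
  Fermat.Agent.RED.ModelTargets4 Fermat.Agent.RED.BASE.EtaQuot12 Fermat.Agent.X0
  Fermat.Agent.RED.BASE.Interface12 Fermat.Agent.RED.DESC
open Fermat.Agent.M48.DictIface4 Fermat.Agent.M48.J1Defs8

/-! ### The fields -/

/-- `K · fieldG10 M L ⊂ K((q))` for a subfield `K ⊂ ℚbar` (twin of `Interface4.FK`). -/
abbrev FKn (M L : ℕ) (K : IntermediateField ℚ Qbar) : IntermediateField K (LaurentSeries K) :=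
  laurentBaseChange K (fieldG10 M L)

/-- `ℚbar · fieldG10 M L ⊂ ℚbar((q))` (twin of `Interface4.Fbar`; it is `J1Defs8.FK ℚbar M L`). -/
abbrev Fb (M L : ℕ) : IntermediateField Qbar (LaurentSeries Qbar) :=
  laurentBaseChange Qbar (fieldG10 M L)

theorem FK_le_FKn (M L : ℕ) (K : IntermediateField ℚ Qbar) : FK (M * L) K ≤ FKn M L K :=
  laurentBaseChange_mono K (modularFunctionFieldFull_le_fieldG10 M L)

theorem Fbar_le_Fb (M L : ℕ) : Fbar (M * L) ≤ Fb M L :=
  laurentBaseChange_mono Qbar (modularFunctionFieldFull_le_fieldG10 M L)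

/-! ### (EXT) -/

section Ext

variable (M L : ℕ) (K : IntermediateField ℚ Qbar)

/-- Coefficientwise base change `K · fieldG10 M L → ℚbar · fieldG10 M L`. -/
def baseChangeHom1 : FKn M L K →+* Fb M L :=
  RingHom.codRestrict ((coeffMap (algebraMap K Qbar)).comp (FKn M L K).val.toRingHom) (Fb M L)
    (fun f => CoeffDescent1.coeffMap_mem_laurentBaseChange_of_algHom (algebraMap K Qbar)
      (fieldG10 M L) f.2)

@[simp] theorem coe_baseChangeHom1 (f : FKn M L K) :
    ((baseChangeHom1 M L K f : Fb M L) : LaurentSeries Qbar) =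
      coeffMap (algebraMap K Qbar) (f : LaurentSeries K) := rfl

theorem baseChangeHom1_algebraMap (c : K) :
    baseChangeHom1 M L K (algebraMap K (FKn M L K) c) = algebraMap Qbar (Fb M L) (c : Qbar) := by
  apply Subtype.ext
  rw [coe_baseChangeHom1]
  exact CoeffDescent1.coeffMap_algebraMap_of_ringHom (algebraMap K Qbar) c

theorem baseChangeHom1_injective : Function.Injective (baseChangeHom1 M L K) :=
  (baseChangeHom1 M L K).injective

/-- **(EXT).**  Every place of `K · fieldG10 M L / K` extends to a place of `ℚbar · fieldG10 M L`. -/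
theorem exists_place_above1 [NeZero M] [NeZero L] (hM : 2 ≤ M) (w : Place K (FKn M L K)) :
    ∃ (v : Place Qbar (Fb M L)) (e : ℕ), 0 < e ∧
      ∀ f : FKn M L K, v.ord (baseChangeHom1 M L K f) = (e : ℤ) * w.ord f := by
  have h1 := PlaceExtend27.isAlgebraic_Qbar_over K
  exact PlaceExtend27.exists_place_above_abstract (baseChangeHom1 M L K)
    (baseChangeHom1_algebraMap M L K) (G10Degree2.isGen_jK M L hM Qbar) w

/-- **(EXT)**, membership form. -/
theorem exists_place_above_mem1 [NeZero M] [NeZero L] (hM : 2 ≤ M) (w : Place K (FKn M L K)) :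
    ∃ (v : Place Qbar (Fb M L)) (e : ℕ), 0 < e ∧
      (∀ f : FKn M L K, v.ord (baseChangeHom1 M L K f) = (e : ℤ) * w.ord f) ∧
      ∀ f : FKn M L K, baseChangeHom1 M L K f ∈ v.toValuationSubring ↔
        f ∈ w.toValuationSubring := by
  obtain ⟨v, e, he, hord⟩ := exists_place_above1 M L K hM w
  refine ⟨v, e, he, hord, fun f => ?_⟩
  rw [FF.ffp_mem_iff_ord_nonneg, FF.ffp_mem_iff_ord_nonneg, hord]
  have he' : (0 : ℤ) < (e : ℤ) := by exact_mod_cast he
  constructor
  · intro h
    by_contra hneg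
    rw [not_le] at hneg
    have := mul_neg_of_pos_of_neg he' hneg
    omega
  · intro h
    exact mul_nonneg he'.le h

end Ext

/-! ### The targets -/

variable (n e M L : ℕ) [NeZero n] (A : ValuationSubring Qbar)

/-- `P K ϖ t` holds over all sufficiently large number fields `K`, for every uniformiser `ϖ` of
`A_K` and `t = tq K n e ∈ FKn M L K`. -/
def EventuallyT1
    (P : ∀ K : IntermediateField ℚ Qbar, ↥(AK A K) → ↥(FKn M L K) → Prop) : Prop :=
  ∃ K₀ : IntermediateField ℚ Qbar, FiniteDimensional ℚ K₀ ∧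
    ∀ K : IntermediateField ℚ Qbar, FiniteDimensional ℚ K → K₀ ≤ K →
      ∀ ϖ : ↥(AK A K), Irreducible ϖ →
        ∀ t : ↥(FKn M L K), (t : LaurentSeries K) = tq K n e → P K ϖ t

/-- **Target of PUR-concrete**: (LOC) at the non-cusp closed points of the chart `t`. -/
def OffTarget1 (cv : SL(2, ℤ) → Option Kbar) : Prop :=
  EventuallyT1 n e M L A fun K ϖ t => SmoothOff (AK A K) (FKn M L K) ϖ t (cuspSet A K cv)

/-- **Target of CUSP-concrete**: (LOC) at the closed points over the finite cusp values. -/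
def OverTarget1 (cv : SL(2, ℤ) → Option Kbar) : Prop :=
  EventuallyT1 n e M L A fun K ϖ t =>
    ∀ c ∈ cuspSet A K cv, SmoothOver (AK A K) (FKn M L K) ϖ t c

/-- **Target of CUSP-concrete at infinity**: (LOC) at the closed points `t⁻¹ = 0` of the chart
`t⁻¹`. -/
def InfTarget1 : Prop :=
  EventuallyT1 n e M L A fun K ϖ t => SmoothOver (AK A K) (FKn M L K) ϖ t⁻¹ 0

/-- **(T1)**: the Hauptmodul lies in `K · fieldG10 M L` for all large number fields `K`. -/
def TTarget1 : Prop :=
  ∃ K₁ : IntermediateField ℚ Qbar, FiniteDimensional ℚ K₁ ∧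
    ∀ K : IntermediateField ℚ Qbar, FiniteDimensional ℚ K → K₁ ≤ K → tq K n e ∈ FKn M L K

variable {n e}

/-- (T1) from the old `TMem n e (M L)`: the Hauptmodul of `X₀(n)` lies in the old field of level
`M L`, which sits inside the new one. -/
theorem tTarget1 [NeZero (M * L)] (h : TMem n e (M * L)) : TTarget1 n e M L := by
  obtain ⟨K₁, hK₁, hK⟩ := Fermat.Agent.RED.ModelFinal4.tTarget (n := n) (e := e) (M * L) h
  exact ⟨K₁, hK₁, fun K hfd hle => FK_le_FKn M L K (hK K hfd hle)⟩

/-- `t ∈ Fb M L` from the old `TMem n e (M L)`. -/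
theorem tK_mem_Fb [NeZero (M * L)] (h : TMem n e (M * L)) : tK n e ∈ Fb M L :=
  Fbar_le_Fb M L h

end Fermat.Agent.M48.RedTargets1
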