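/-
M48 (P1), [RED1], chapter [PUR1] (helper1), file 4: **the deliverable of [PUR1]**:
`Red1Iface4.OffTarget1 n e M L A cv` — (LOC) at the non-cusp closed points of the chart `t` of the
`Γ₁(M) ∩ Γ₀(M L)` model over all large number fields — twin of `RED/PUR/OffConcrete4.offTarget_of_hunr` +
`OffHoriz4.hH_off` + `OffHoriz4.offTarget`.

Inputs, all in literal form:
* `hIG : PurGauss1.IG1 M L`  (MF3: the Igusa lower bound in characteristic `ℓ`; helper6);
* `H : PurHoriz1.HorizData n (jF1 M L) (tF1 M L hmem) T cv` (MF1 + MF2: `j` generates, `T γ` are cusp expansions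
  which see every place over `j = ∞`, (B6) `Unbranched1`, (B5) cusp shapes of `t`; helper7/helper4);
* `hconst` (`t` is not constant; from `TIsGen1`) and `hS` (the finite cusp values form a finite set);
* the old BASE exports at the level `M L` (`Main12.baseExports`: `t ∈ Fbar_{M L}`, `ℚbar(t) = Fbar_n`) are
  imported, not re-proved.

Also: `bcK1_algebraMap`, `bcK1_eq_tF1`, `exists_place_above_bcK1` (EXT for helper4's `bcK1`), and the generic
finiteness lemma `exists_finset_cuspValues_gen`.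

Imported by no statement.
-/
import Mathlib
import Fermat.Agent.RED.PUR.OffConcrete4
import Fermat.Agent.M48.Red1Iface4
import Fermat.Agent.M48.RedTargets1
import Fermat.Agent.M48.PurGauss1
import Fermat.Agent.M48.PurHoriz1

set_option autoImplicit false
set_option linter.unusedSectionVars false
set_option linter.unusedVariables false
set_option linter.style.haveILetI false

open HahnSeries ModularCurve IntermediateField AlgebraicCurve
open scoped MatrixGroups

noncomputable section

namespace Fermat.Agent.M48.PurOff1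

open Fermat.Agent.RED.Interface4 Fermat.Agent.RED.PUR.GaussGen8 Fermat.Agent.RED.PUR.KtGauss8
  Fermat.Agent.RED.PUR.G1Package8 Fermat.Agent.RED.ModelIface4 Fermat.Agent.RED.ModelTargets4
  Fermat.Agent.RED.BASE.EtaQuot12 Fermat.Agent.X0 Fermat.Agent.RED.NumInst4
  Fermat.Agent.RED.DESC.NumberFieldDVR27 Fermat.Agent.RED.BASE.Interface12
  Fermat.Agent.RED.BASE.Hauptmodul12 Fermat.Agent.RED.PUR.OffIface4
open Fermat.Agent.RED.BASE Fermat.Agent.RED.DESC
open Fermat.Agent.M48.DictIface4 Fermat.Agent.M48.Red1Iface4 Fermat.Agent.M48.PurHoriz1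
  Fermat.Agent.M48.PurGauss1

/-! ### (EXT) for `bcK1` -/

section Ext

variable (M L : ℕ) (K : IntermediateField ℚ Qbar)

theorem bcK1_eq : bcK1 M L K = RedTargets1.baseChangeHom1 M L K := rfl

theorem bcK1_algebraMap (c : K) :
    bcK1 M L K (algebraMap K (F1K M L K) c) = algebraMap Qbar (F1b M L) (c : Qbar) :=
  RedTargets1.baseChangeHom1_algebraMap M L K c

/-- **(EXT)** for helper4's `bcK1`. -/
theorem exists_place_above_bcK1 [NeZero M] [NeZero L] (hM : 2 ≤ M) (w : Place K (F1K M L K)) :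
    ∃ (v : Place Qbar (F1b M L)) (e : ℕ), 0 < e ∧
      ∀ f : F1K M L K, v.ord (bcK1 M L K f) = (e : ℤ) * w.ord f :=
  RedTargets1.exists_place_above1 M L K hM w

/-- The Hauptmodul over `K` maps to the Hauptmodul over `ℚbar`. -/
theorem bcK1_eq_tF1 {n e : ℕ} [NeZero n] (h : TMem1 n e M L) (t : F1K M L K)
    (ht : (t : LaurentSeries K) = tq K n e) : bcK1 M L K t = tF1 M L h := by
  apply Subtype.ext
  rw [coe_bcK1, ht]
  exact coeffMap_tq ↥K (algebraMap K Qbar) n e

end Ext

/-! ### finiteness of the set of cusp values, generic -/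

/-- **(FIN)** generic: if every `γ` has a cusp place, and the zeros of `t - c` at cusp values lie over
`j = ∞`, the finite cusp values form a finite set. -/
theorem exists_finset_cuspValues_gen {Fb : Type*} [Field Fb] [Algebra Kbar Fb] {n : ℕ} {jF tF : Fb}
    {T : SL(2, ℤ) → Fb →+* LaurentSeries Kbar} {cv : SL(2, ℤ) → Option Kbar}
    (H : HorizData n jF tF T cv)
    (hplace : ∀ γ : SL(2, ℤ), ∃ (v : Place Kbar Fb) (m : ℕ), 0 < m ∧
      ∀ f : Fb, f ≠ 0 → (T γ f).order = (m : ℤ) * v.ord f)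
    (hcusp : ∀ (v : Place Kbar Fb) (γ : SL(2, ℤ)) (c : Kbar), cv γ = some c →
      0 < v.ord (tF - algebraMap Kbar Fb c) → v.ord jF < 0) :
    ∃ S : Finset Kbar, ∀ (γ : SL(2, ℤ)) (c : Kbar), cv γ = some c → c ∈ S := by
  classical
  have hfin := FF.finite_poles H.isGen
  let val : Place Kbar Fb → Kbar := fun v =>
    if hv : ∃ c : Kbar, 0 < v.ord (tF - algebraMap Kbar Fb c) then hv.choose else 0
  refine ⟨hfin.toFinset.image val, fun γ c hγ => ?_⟩
  obtain ⟨v, m, hm, hspec⟩ := hplace γ
  -- `0 < ord_v (t - c)`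
  have hshape := H.shape γ
  rw [hγ] at hshape
  obtain ⟨a, lam, V, ha, hlam, hV, -, -, hE⟩ := hshape
  have hpos : 0 < v.ord (tF - algebraMap Kbar Fb c) := by
    by_cases h0 : tF - algebraMap Kbar Fb c = 0
    · -- then `T γ t = C c`, impossible since the tail `λ q^a V` is nonzero
      exfalso
      have h1 : T γ tF = HahnSeries.C c := by
        have := congrArg (T γ) (sub_eq_zero.mp h0)
        rw [this, H.map_const]
      rw [h1] at hE
      have h2 : (HahnSeries.C lam * HahnSeries.single (a : ℤ) 1 *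
          HahnSeries.ofPowerSeries ℤ Kbar V) = 0 := by
        have := hE
        rwa [left_eq_add] at this
      have h3 := congrArg (fun y : LaurentSeries Kbar => y.coeff a) h2
      simp only [HahnSeries.coeff_zero] at h3
      rw [mul_assoc, HahnSeries.C_mul_eq_smul, HahnSeries.coeff_smul,
        HahnSeries.coeff_single_mul, one_mul, sub_self] at h3
      rw [show HahnSeries.ofPowerSeries ℤ Kbar V = ((V : PowerSeries Kbar) : LaurentSeries Kbar)
        from rfl, PowerSeries.coeff_coe, if_neg (by omega)] at h3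
      simp only [Int.natAbs_zero, PowerSeries.coeff_zero_eq_constantCoeff] at h3
      rw [hV, smul_eq_mul, mul_one] at h3
      exact hlam.1 h3
    · have hord := hspec _ h0
      rw [map_sub, H.map_const, hE, add_sub_cancel_left] at hord
      have htail : (a : ℤ) ≤ (HahnSeries.C lam * HahnSeries.single (a : ℤ) 1 *
          HahnSeries.ofPowerSeries ℤ Kbar V).order := by
        have hne : (HahnSeries.C lam * HahnSeries.single (a : ℤ) 1 *
            HahnSeries.ofPowerSeries ℤ Kbar V) ≠ 0 := by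
          intro h2
          have h4 : (T γ) (tF - algebraMap Kbar Fb c) = 0 := by
            rw [map_sub, H.map_const, hE, add_sub_cancel_left, h2]
          exact h0 ((map_eq_zero_iff _ (T γ).injective).mp h4)
        rw [HahnSeries.le_order_iff_forall hne]
        intro i hi
        exact Fermat.Agent.RED.PUR.HorizUnram20.coeff_tail_of_lt lam a V hi
      have hm' : (0 : ℤ) < m := by exact_mod_cast hm
      have ha' : (0 : ℤ) < a := by exact_mod_cast ha
      by_contra hle
      have : v.ord (tF - algebraMap Kbar Fb c) ≤ 0 := not_lt.mp hle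
      nlinarith
  rw [Finset.mem_image]
  refine ⟨v, ?_, ?_⟩
  · rw [Set.Finite.mem_toFinset]
    exact hcusp v γ c hγ hpos
  · have hex : ∃ c : Kbar, 0 < v.ord (tF - algebraMap Kbar Fb c) := ⟨c, hpos⟩
    show (if hv : ∃ c : Kbar, 0 < v.ord (tF - algebraMap Kbar Fb c) then hv.choose else 0) = c
    rw [dif_pos hex]
    -- two centre values agree
    by_contra hne
    have hc' := hex.choose_spec
    set c' := hex.choose with hc'def
    have hconst' : algebraMap Kbar Fb (c - c') ≠ 0 := by
      rw [Ne, map_eq_zero]; exact sub_ne_zero.mpr (Ne.symm hne)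
    have h0 : v.ord (algebraMap Kbar Fb (c - c')) = 0 := FF.ffp_ord_algebraMap v _
    have hlt : v.ord (algebraMap Kbar Fb (c - c')) < v.ord (tF - algebraMap Kbar Fb c) := by
      rw [h0]; exact hpos
    have := FF.ffp_ord_add_eq_of_lt v hconst' hlt
    have heq : algebraMap Kbar Fb (c - c') + (tF - algebraMap Kbar Fb c)
        = tF - algebraMap Kbar Fb c' := by rw [map_sub]; ring
    rw [heq, h0] at this
    omega

/-! ### the deliverable -/

variable {n e : ℕ} [NeZero n] {M L : ℕ} [NeZero M] [NeZero L] {A : ValuationSubring Qbar}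

/-- **[PUR1]**: (LOC) at the non-cusp closed points of the chart `t` of the `Γ₁(M) ∩ Γ₀(M L)` model. -/
theorem offTarget1 (hb : BaseHyp n e) (hM : 2 ≤ M) (hnML : n ∣ M * L) {ℓ : ℕ} [Fact ℓ.Prime]
    (hℓ : ¬ ℓ ∣ M * L) (hA : A.LiesOverPrime ℓ) (hIG : IG1 M L)
    (hmem : TMem1 n e M L) {T : SL(2, ℤ) → ↥(F1b M L) →+* LaurentSeries Kbar}
    (cv : SL(2, ℤ) → Option Kbar)
    (H : HorizData n (jF1 M L) (tF1 M L hmem) T cv)
    (hconst : ∀ c : Kbar, tF1 M L hmem ≠ algebraMap Kbar ↥(F1b M L) c)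
    (hS : ∃ S : Finset Kbar, ∀ (γ : SL(2, ℤ)) (c : Kbar), cv γ = some c → c ∈ S) :
    OffTarget1 n e M L A cv := by
  classical
  have hℓp : ℓ.Prime := Fact.out
  haveI : NeZero (M * L) := ⟨Nat.mul_ne_zero (NeZero.ne M) (NeZero.ne L)⟩
  have hB := Main12.baseExports hb (M * L) hnML
  obtain ⟨K₂, hK₂, hJ⟩ := Fermat.Agent.RED.ModelFinal4.jTarget (n := n) (e := e) hB.genBase
  obtain ⟨S, hS⟩ := hS
  obtain ⟨K₀, hK₀, -, hSK⟩ := exists_numberField (⊥ : IntermediateField ℚ Qbar) S
  refine ⟨K₂ ⊔ K₀, inferInstance, fun K hKfd hle ϖ hϖ t htq => ?_⟩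
  have hle2 : K₂ ≤ K := le_trans le_sup_left hle
  have hle0 : K₀ ≤ K := le_trans le_sup_right hle
  have hdvr : IsDiscreteValuationRing ↥(AK A K) := isDiscreteValuationRing_AK A K hℓp.ne_zero hA
  have hchar : CharP (Res (AK A K)) ℓ := charP_residueField_AK A K hℓp hA
  have hfinres : Finite (Res (AK A K)) := finite_residueField_AK A K hℓp.ne_zero hA
  haveI halg : Algebra.IsAlgebraic ↥K Kbar := PlaceExtend27.isAlgebraic_Qbar_over K
  have hE : F1K M L K ≤ fracField (AK A K) := laurentBaseChange_le_fracField (AK A K) M L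
  have ht : ((t : ↥(F1K M L K)) : LaurentSeries K) ∈ gaussRing (AK A K) := by
    rw [htq]; exact tq_mem_gaussRing (AK A K) n e
  have htr : Transcendental (Res (AK A K))
      (gaussRed (AK A K) ⟨((t : ↥(F1K M L K)) : LaurentSeries K), ht⟩) := by
    have h1 : (⟨((t : ↥(F1K M L K)) : LaurentSeries K), ht⟩ : gaussRing (AK A K)) =
        ⟨tq K n e, tq_mem_gaussRing (AK A K) n e⟩ := Subtype.ext htq
    rw [h1]
    exact transcendental_gaussRed_tq (AK A K) n e
  have hjt : jqModC K ∈ Kt (AK A K) ⟨((t : ↥(F1K M L K)) : LaurentSeries K), ht⟩ := by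
    show jqModC K ∈ IntermediateField.adjoin K {((t : ↥(F1K M L K)) : LaurentSeries K)}
    rw [htq]
    exact hJ K hKfd hle2
  have htE' : ((t : ↥(F1K M L K)) : LaurentSeries K) ∈ F1K M L K := t.2
  obtain ⟨hn, hdeg, hirr⟩ := degLe_irr_laurentBaseChange (AK A K) hϖ ℓ M L hM hℓ hIG
    ⟨((t : ↥(F1K M L K)) : LaurentSeries K), ht⟩ htE' hjt
  have hfd : FiniteDimensional ↥(IntermediateField.adjoin K {t}) ↥(F1K M L K) :=
    Fermat.Agent.RED.ModelAsm4.finiteDimensional_adjoin t hn
  have htrK : Transcendental K t :=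
    Fermat.Agent.RED.ModelAsm4.transcendental_of_coe t
      (transcendental_t (tG := ⟨((t : ↥(F1K M L K)) : LaurentSeries K), ht⟩) hϖ htr)
  have hord := Fermat.Agent.RED.PUR.TqOrder26.isCoprime_order_gaussRed (AK A K) n e t ht htq (ℓ : ℤ)
  -- the horizontal bridge
  have hℓn : ¬ ℓ ∣ n := fun hdvd => hℓ (hdvd.trans hnML)
  have hnA : ((n : Kbar))⁻¹ ∈ A := inv_natCast_mem hℓp hA n hℓn
  have hcvA : ∀ γ c, cv γ = some c → ∃ a : ↥(AK A K), algebraMap ↥K Kbar (a : ↥K) = c := by
    intro γ c hγ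
    have hcK : c ∈ K := hle0 (hSK c (hS γ c hγ))
    have hshape := H.shape γ
    rw [hγ] at hshape
    obtain ⟨a, lam, V, -, -, -, -, hcint, -⟩ := hshape
    have hcA : c ∈ A := hcint.mem_of_inv_mem A hnA (NeZero.ne n)
    exact ⟨⟨⟨c, hcK⟩, hcA⟩, rfl⟩
  have hunr : HUNROff (AK A K) (F1K M L K) ϖ t (cuspSet A K cv) :=
    hunrOff_generic H hconst (AK A K) (F1K M L K) hcvA
      (bcK1 M L K) (bcK1_algebraMap M L K) t (bcK1_eq_tF1 M L K hmem t htq)
      (exists_place_above_bcK1 M L K hM) hϖ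
  exact smoothOff_of_hunrOff hϖ hE t ht htr hdeg hirr ℓ hord htrK (cuspSet A K cv) hunr

end Fermat.Agent.M48.PurOff1
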