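/-
Programme M48 (target S48), pillar (P1), chapter [CUSP1] (G2b) — helper3.
**The RANK bridge for the model of `Γ₁(M) ∩ Γ₀(M L)`** (twin of `RED/CUSP/RankConcrete16`).

For a subfield `K ⊂ ℚbar` and `t ∈ F1K M L K = K · fieldG10 M L` with `j ∈ K(t)`:

  `[K · F₀ : K(t)] = [ℚbar · F₀ : ℚbar(bcK1 t)]`

(`finrank_adjoin_eq`; generic `DegCompare5.finrank_adjoin_simple_eq` + helper2's
`G10Degree2.finrank_jK`, valid over every field of constants, + `adjoin_range_bcK1`: the image of
`bcK1` generates `F1b M L` over `ℚbar`), the same for `t⁻¹`, and the Hauptmodul forms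
`finrank_adjoin_tF1`, `finrank_adjoin_inv_tF1`.

Imported by no statement.
-/
import Mathlib
import Fermat.Agent.RED.CUSP.RankConcrete16
import Fermat.Agent.M48.G10Degree2
import Fermat.Agent.M48.PurOff1

set_option autoImplicit false
set_option linter.unusedSectionVars false
set_option synthInstance.maxHeartbeats 400000
set_option maxHeartbeats 1000000

noncomputable section

open HahnSeries ModularCurve IntermediateField AlgebraicCurve

namespace Fermat.Agent.M48.RankML3

open Fermat.Agent.X0 Fermat.Agent.RED.Interface4 Fermat.Agent.RED.BASE.Interface12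
  Fermat.Agent.RED.BASE.EtaQuot12
open Fermat.Agent.M48.DictIface4 Fermat.Agent.M48.Red1Iface4 Fermat.Agent.M48.J1Defs8

/-! ### Generic: generators of an adjoined field, inside the field -/

section Generic

variable {k : Type*} [Field k]

/-- If `E = k(S) ⊂ k((q))` and every element of `S` is (the value of) an element of `R ⊂ E`, then
`R` generates `E` over `k`. -/
theorem adjoin_eq_top_of_subset (E : IntermediateField k (LaurentSeries k))
    (S : Set (LaurentSeries k)) (hE : E = IntermediateField.adjoin k S) (R : Set ↥E)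
    (h : S ⊆ (fun x : ↥E => (x : LaurentSeries k)) '' R) :
    IntermediateField.adjoin k R = ⊤ := by
  have h1 : (IntermediateField.adjoin k R).map E.val = IntermediateField.adjoin k (E.val '' R) :=
    IntermediateField.adjoin_map k R E.val
  have h2 : (⊤ : IntermediateField k ↥E).map E.val = E := by
    rw [← AlgHom.fieldRange_eq_map, IntermediateField.fieldRange_val]
  apply IntermediateField.map_injective E.val
  rw [h1, h2]
  apply le_antisymm
  · rw [IntermediateField.adjoin_le_iff]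
    rintro _ ⟨x, -, rfl⟩
    exact x.2
  · conv_lhs => rw [hE]
    exact IntermediateField.adjoin.mono k _ _ h

end Generic

variable (M L : ℕ) [NeZero M] [NeZero L] (K : IntermediateField ℚ Qbar)

/-- `bcK1` maps the formal `j` over `K` to the formal `j` over `ℚbar`. -/
theorem bcK1_jK : bcK1 M L K (G10Degree2.jK M L ↥K) = G10Degree2.jK M L Qbar := by
  apply Subtype.ext
  rw [coe_bcK1, G10Degree2.coe_jK, G10Degree2.coe_jK, coeffMap_jqModC]

/-- the image of `bcK1` generates `F1b M L` over `ℚbar`. -/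
theorem adjoin_range_bcK1 :
    IntermediateField.adjoin Qbar (Set.range (bcK1 M L K)) = ⊤ := by
  refine adjoin_eq_top_of_subset (F1b M L) _ rfl _ ?_
  rintro _ ⟨x, hx, rfl⟩
  refine ⟨bcK1 M L K ⟨coeffEmb K x, coeffEmb_mem_laurentBaseChange K hx⟩, ⟨_, rfl⟩, ?_⟩
  show coeffMap (algebraMap K Qbar) (coeffEmb K x) = coeffEmb Qbar x
  ext n
  simp [coeffEmb, coeffMap_coeff]

/-- **The rank bridge.** -/
theorem finrank_adjoin_eq (hM : 2 ≤ M) (t : ↥(F1K M L K))
    (hj : jqModC K ∈ IntermediateField.adjoin K {(t : LaurentSeries K)}) :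
    Module.finrank ↥K⟮t⟯ ↥(F1K M L K) =
      Module.finrank Qbar⟮bcK1 M L K t⟯ ↥(F1b M L) := by
  have hj' : G10Degree2.jK M L ↥K ∈ K⟮t⟯ :=
    (Fermat.Agent.RED.CUSP.RankConcrete16.mem_adjoin_iff_coe (F1K M L K) t
      (G10Degree2.jK M L ↥K)).mpr hj
  refine Fermat.Agent.RED.CUSP.DegCompare5.finrank_adjoin_simple_eq (K := ↥K) (L := Qbar)
    (bcK1 M L K) (PurOff1.bcK1_algebraMap M L K) (adjoin_range_bcK1 M L K)
    (G10Degree2.jK M L ↥K) t hj' ?_ ?_
  · rw [bcK1_jK]
    exact (G10Degree2.finrank_jK M L hM ↥K).trans (G10Degree2.finrank_jK M L hM Qbar).symm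
  · rw [G10Degree2.finrank_jK M L hM ↥K]
    exact G10Degree2.card_quotient_ne_zero M L hM

/-- the same for the coordinate `t⁻¹`. -/
theorem finrank_adjoin_inv_eq (hM : 2 ≤ M) (t : ↥(F1K M L K))
    (hj : jqModC K ∈ IntermediateField.adjoin K {(t : LaurentSeries K)}) :
    Module.finrank ↥K⟮(t⁻¹ : ↥(F1K M L K))⟯ ↥(F1K M L K) =
      Module.finrank Qbar⟮bcK1 M L K t⟯ ↥(F1b M L) := by
  rw [Fermat.Agent.RED.CUSP.RankConcrete16.finrank_adjoin_inv]
  exact finrank_adjoin_eq M L K hM t hj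

variable {n e : ℕ} [NeZero n]

/-- `[K · F₀ : K(t)] = [ℚbar · F₀ : ℚbar(t)]` for the Hauptmodul (`hj` = the body of
`ModelTargets4.JTarget`). -/
theorem finrank_adjoin_tF1 (hM : 2 ≤ M) (h : TMem1 n e M L) (t : ↥(F1K M L K))
    (ht : (t : LaurentSeries K) = tq K n e)
    (hj : jqModC K ∈ IntermediateField.adjoin K {tq K n e}) :
    Module.finrank ↥K⟮t⟯ ↥(F1K M L K) = Module.finrank Qbar⟮tF1 M L h⟯ ↥(F1b M L) := by
  rw [← PurOff1.bcK1_eq_tF1 M L K h t ht]
  exact finrank_adjoin_eq M L K hM t (by rw [ht]; exact hj)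

/-- `[K · F₀ : K(t⁻¹)] = [ℚbar · F₀ : ℚbar(t)]` for the Hauptmodul. -/
theorem finrank_adjoin_inv_tF1 (hM : 2 ≤ M) (h : TMem1 n e M L) (t : ↥(F1K M L K))
    (ht : (t : LaurentSeries K) = tq K n e)
    (hj : jqModC K ∈ IntermediateField.adjoin K {tq K n e}) :
    Module.finrank ↥K⟮(t⁻¹ : ↥(F1K M L K))⟯ ↥(F1K M L K) =
      Module.finrank Qbar⟮tF1 M L h⟯ ↥(F1b M L) := by
  rw [← PurOff1.bcK1_eq_tF1 M L K h t ht]
  exact finrank_adjoin_inv_eq M L K hM t (by rw [ht]; exact hj)

end Fermat.Agent.M48.RankML3
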