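/-
M48 (P1), [RED1], chapter [CUSP1] CLOSED (helper4): **`cuspFamStmt : StepOfFam4.CuspFamStmt`**,
unconditional - `CuspFam4.cuspFamStmt_of_rank` with helper3's rank bridge
`RankML3.finrank_adjoin_tF1`.  Consequences: `hstep` (the `ModelStep1` input of
`SP1Final5.sp1Stmt49_of_model`) from [IG1] (`IG1Main9.ig1`) and [CUSP1], unconditional;
`modelStep1 : ModelStep1 M 1 A` and `smoothTargets1_four/nine`.

Imported by no statement.
-/
import Mathlib
import Fermat.Agent.M48.CuspFam4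
import Fermat.Agent.M48.RankML3
import Fermat.Agent.M48.IG1Main9

set_option autoImplicit false
set_option linter.unusedSectionVars false
set_option linter.unusedVariables false
set_option linter.style.longLine false
set_option synthInstance.maxHeartbeats 400000
set_option maxHeartbeats 1000000

open HahnSeries AlgebraicCurve ModularCurve IntermediateField
open scoped MatrixGroups

noncomputable section

namespace Fermat.Agent.M48.CuspFamMain4

open Fermat.Agent.RED.Interface4 Fermat.Agent.M48.Red1Iface4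

/-- the rank bridge (helper3). -/
theorem rankBridge (M : ℕ) [NeZero M] (hM : 2 ≤ M) : CuspFam4.RankBridge M :=
  fun K _ _ _ h t ht hj => RankML3.finrank_adjoin_tF1 M 1 K hM h t ht hj

/-- **[CUSP1]: the two cusp-family statements, unconditional.** -/
theorem cuspFamStmt : StepOfFam4.CuspFamStmt :=
  CuspFam4.cuspFamStmt_of_rank rankBridge

/-- **MODEL for `(M, 1)`, unconditional** (`4 ∣ M` or `9 ∣ M`, `ℓ ∤ M`). -/
theorem modelStep1 (M : ℕ) [NeZero M] (hM : 2 ≤ M) (h49 : 4 ∣ M ∨ 9 ∣ M) (ℓ : ℕ) (hℓ : ℓ.Prime)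
    (hℓM : ¬ ℓ ∣ M) (A : ValuationSubring Qbar) (hA : A.LiesOverPrime ℓ) : ModelStep1 M 1 A :=
  StepOfFam4.modelStep1_of_cuspFam cuspFamStmt M h49 (IG1Main9.ig1 M hM) ℓ hℓ hℓM A hA

/-- the `hstep` input of `SP1Final5.sp1Stmt49_of_model`, unconditional. -/
theorem hstep : ∀ (M : ℕ) [NeZero M], 2 ≤ M → (4 ∣ M ∨ 9 ∣ M) → ∀ ℓ : ℕ, ℓ.Prime → ¬ ℓ ∣ M →
    ∀ A : ValuationSubring Qbar, A.LiesOverPrime ℓ → ModelStep1 M 1 A :=
  fun M _ hM h49 ℓ hℓ hℓM A hA => modelStep1 M hM h49 ℓ hℓ hℓM A hA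

end Fermat.Agent.M48.CuspFamMain4
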