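/-
Programme M48, pillar (P1), chapter [RED1]/[ESRED1] — helper8.  **The reduction specification for
an ARBITRARY pair of function fields** `FB ⊂ L((q))` (characteristic zero side) and `Fk ⊂ k((q))`
(special fibre): the Prelude's `Def_ModularCurve_ReductionModL` (sections Spec, SpecLemmas,
Descent) with the two fields as variables, plus the generic equivariance lemmas of
`ES/RED/GaloisRed21` (sections Equivariance and R3).

* `IsPlaceRed A π FB Fk r`, `integralPrincipal`, `PrincipalGenByIntegral`, `redDiv`, `redDegZero`,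
  `redPic0`, `redPic0_mk`;
* `isPlaceRed_iff_prelude` etc.: for `FB = laurentBaseChange L (modularFunctionFieldFull N)`,
  `Fk = modularFunctionFieldFullC k N` these ARE the Prelude's notions (`Iff.rfl`);
* `mapDomain_smul`, `redPic0_smul`, `redPic0_smul_of_fixed`: equivariance for a pair of semilinear
  automorphisms `g` of `FB`, `h` of `Fk` with `r (g • P) = h • r P`;
* `RedAt`, `redAt_smul`, `r_smul_eq`: (R3), formal part, for a pair `(g, h)` acting on the
  `q`-expansions through `coeffMap` of compatible ring endomorphisms of `A` and `k`.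
-/
import Mathlib
import Fermat.Prelude.Def_ModularCurve_ArithmeticGalois
import Fermat.Prelude.Def_ModularCurve_ReductionModL

set_option autoImplicit false
set_option linter.unusedSectionVars false

noncomputable section

open HahnSeries IntermediateField AlgebraicCurve ModularCurve

namespace Fermat.Agent.M48.RedSpec8

/-! ### The specification -/

section Spec

variable {L : Type*} [Field L] (A : ValuationSubring L)
variable {k : Type*} [Field k] (π : A →+* k)
variable (FB : IntermediateField L (LaurentSeries L)) (Fk : IntermediateField k (LaurentSeries k))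

/-- `r` is a **place reduction** from `FB` to `Fk` along `π : A → k`: it preserves degrees and maps
the divisor of an `A`-integral function with nonzero reduction in `Fk` to the divisor of the
reduction. -/
def IsPlaceRed (r : Place L FB → Place k Fk) : Prop :=
  (∀ P, (r P).deg = P.deg) ∧
    ∀ (y : LaurentSeries A) (hy : coeffMap A.subtype y ∈ FB) (hyk : coeffMap π y ∈ Fk),
      coeffMap π y ≠ 0 →
        ∀ D : Divisor L FB, (∀ P, D P = P.ord (⟨coeffMap A.subtype y, hy⟩ : FB)) →
          ∀ Q, Finsupp.mapDomain r D Q = Q.ord (⟨coeffMap π y, hyk⟩ : Fk)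

/-- The divisors of `A`-integral functions with nonzero reduction in `Fk`. -/
def integralPrincipal : Set (Divisor L FB) :=
  {D | ∃ (y : LaurentSeries A) (hy : coeffMap A.subtype y ∈ FB),
      coeffMap π y ∈ Fk ∧ coeffMap π y ≠ 0 ∧
        ∀ P, D P = P.ord (⟨coeffMap A.subtype y, hy⟩ : FB)}

/-- Every principal divisor of `FB` is a combination of divisors of integral functions with nonzero
reduction. -/
def PrincipalGenByIntegral : Prop :=
  Divisor.principal (K := L) (F := FB) ≤ AddSubgroup.closure (integralPrincipal A π FB Fk)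

end Spec

/-! ### Agreement with the Prelude for the `Γ₀(N)` fields -/

section Prelude

variable {L : Type*} [Field L] [Algebra ℚ L] (A : ValuationSubring L)
variable {k : Type*} [Field k] (π : A →+* k) (N : ℕ)

theorem isPlaceRed_iff_prelude
    (r : Place L (laurentBaseChange L (modularFunctionFieldFull N)) →
      Place k (modularFunctionFieldFullC k N)) :
    IsPlaceRed A π (laurentBaseChange L (modularFunctionFieldFull N))
      (modularFunctionFieldFullC k N) r ↔ IsPlaceReductionAlong A π N r :=
  Iff.rfl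

theorem integralPrincipal_eq_prelude :
    integralPrincipal A π (laurentBaseChange L (modularFunctionFieldFull N))
      (modularFunctionFieldFullC k N) = integralPrincipalDivisors A π N :=
  rfl

theorem principalGenByIntegral_iff_prelude :
    PrincipalGenByIntegral A π (laurentBaseChange L (modularFunctionFieldFull N))
      (modularFunctionFieldFullC k N) ↔ PrincipalGeneratedByIntegral A π N :=
  Iff.rfl

end Prelude

/-! ### Lemmas -/

section SpecLemmas

variable {L : Type*} [Field L] {A : ValuationSubring L}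
variable {k : Type*} [Field k] {π : A →+* k}
variable {FB : IntermediateField L (LaurentSeries L)} {Fk : IntermediateField k (LaurentSeries k)}
variable {r : Place L FB → Place k Fk}

theorem IsPlaceRed.deg_eq (hr : IsPlaceRed A π FB Fk r) (P : Place L FB) : (r P).deg = P.deg :=
  hr.1 P

theorem IsPlaceRed.isPrincipal_mapDomain (hr : IsPlaceRed A π FB Fk r) {D : Divisor L FB}
    (hD : D ∈ integralPrincipal A π FB Fk) : Divisor.IsPrincipal (Finsupp.mapDomain r D) := by
  obtain ⟨y, hy, hyk, hne, hDy⟩ := hD
  refine ⟨⟨coeffMap π y, hyk⟩, fun h => hne (congrArg Subtype.val h), fun Q => ?_⟩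
  exact hr.2 y hy hyk hne D hDy Q

theorem degree_mapDomain_of_deg_eq (hdeg : ∀ P, (r P).deg = P.deg) (D : Divisor L FB) :
    Divisor.degree (Finsupp.mapDomain r D) = Divisor.degree D := by
  induction D using Finsupp.induction with
  | zero => simp
  | single_add P n D _ _ ih =>
    rw [Finsupp.mapDomain_add, map_add, map_add, ih, Finsupp.mapDomain_single,
      Divisor.degree_single, Divisor.degree_single, hdeg]

theorem mapDomain_mem_degZero_of_deg_eq (hdeg : ∀ P, (r P).deg = P.deg) {D : Divisor L FB}
    (hD : D ∈ Divisor.degZero (K := L) (F := FB)) :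
    Finsupp.mapDomain r D ∈ Divisor.degZero (K := k) (F := Fk) := by
  rw [Divisor.mem_degZero] at hD ⊢
  rw [degree_mapDomain_of_deg_eq hdeg, hD]

theorem IsPlaceRed.mapDomain_mem_principal (hr : IsPlaceRed A π FB Fk r)
    (hgen : PrincipalGenByIntegral A π FB Fk) {D : Divisor L FB}
    (hD : D ∈ Divisor.principal (K := L) (F := FB)) :
    Finsupp.mapDomain r D ∈ Divisor.principal (K := k) (F := Fk) := by
  have hD' := hgen hD
  clear hD
  induction hD' using AddSubgroup.closure_induction with
  | mem E hE => exact hr.isPrincipal_mapDomain hE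
  | zero => rw [Finsupp.mapDomain_zero]; exact AddSubgroup.zero_mem _
  | add E E' _ _ hE hE' => rw [Finsupp.mapDomain_add]; exact AddSubgroup.add_mem _ hE hE'
  | neg E _ hE =>
    rw [← Finsupp.mapDomain.addMonoidHom_apply, map_neg, Finsupp.mapDomain.addMonoidHom_apply]
    exact AddSubgroup.neg_mem _ hE

end SpecLemmas

/-! ### Descent to `Pic⁰` -/

section Descent

variable {L : Type*} [Field L] {A : ValuationSubring L}
variable {k : Type*} [Field k] {π : A →+* k}
variable {FB : IntermediateField L (LaurentSeries L)} {Fk : IntermediateField k (LaurentSeries k)}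
variable (r : Place L FB → Place k Fk)

/-- `r_*` on divisors. -/
def redDiv : Divisor L FB →+ Divisor k Fk :=
  Finsupp.mapDomain.addMonoidHom r

@[simp]
theorem redDiv_apply (D : Divisor L FB) : redDiv r D = Finsupp.mapDomain r D :=
  rfl

theorem redDiv_single (P : Place L FB) (n : ℤ) :
    redDiv r (Finsupp.single P n) = Finsupp.single (r P) n :=
  Finsupp.mapDomain_single

/-- `r_*` on divisors of degree zero. -/
def redDegZero (hdeg : ∀ P, (r P).deg = P.deg) :
    Divisor.degZero (K := L) (F := FB) →+ Divisor.degZero (K := k) (F := Fk) :=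
  ((redDiv r).domRestrict _).codRestrict _ fun D => mapDomain_mem_degZero_of_deg_eq hdeg D.2

@[simp]
theorem coe_redDegZero (hdeg : ∀ P, (r P).deg = P.deg)
    (D : Divisor.degZero (K := L) (F := FB)) :
    (redDegZero r hdeg D : Divisor k Fk) = Finsupp.mapDomain r (D : Divisor L FB) :=
  rfl

/-- **The reduction map on `Pic⁰`.** -/
def redPic0 (hr : IsPlaceRed A π FB Fk r) (hgen : PrincipalGenByIntegral A π FB Fk) :
    Pic0 L FB →+ Pic0 k Fk :=
  QuotientAddGroup.map _ _ (redDegZero r hr.1) (by
    rintro ⟨D, hD0⟩ hD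
    simp only [AddSubgroup.mem_addSubgroupOf] at hD ⊢
    exact hr.mapDomain_mem_principal hgen hD)

theorem redPic0_mk (hr : IsPlaceRed A π FB Fk r) (hgen : PrincipalGenByIntegral A π FB Fk)
    (D : Divisor.degZero (K := L) (F := FB)) :
    redPic0 r hr hgen (Pic0.mk D) = Pic0.mk (redDegZero r hr.1 D) :=
  rfl

end Descent

/-! ### Equivariance -/

section Equivariance

variable {L : Type*} [Field L] {A : ValuationSubring L}
variable {k : Type*} [Field k] {π : A →+* k}
variable {FB : IntermediateField L (LaurentSeries L)} {Fk : IntermediateField k (LaurentSeries k)}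
variable (r : Place L FB → Place k Fk)

/-- if `r (g • P) = h • r P` for all places `P`, then `r_* (g • D) = h • r_* D` on divisors. -/
theorem mapDomain_smul (g : SemilinearAut L FB) (h : SemilinearAut k Fk)
    (hgh : ∀ P, r (g • P) = h • r P) (D : Divisor L FB) :
    Finsupp.mapDomain r (g • D) = h • Finsupp.mapDomain r D := by
  rw [SemilinearAut.divisor_smul_def, SemilinearAut.divisor_smul_def, ← Finsupp.mapDomain_comp,
    ← Finsupp.mapDomain_comp]
  congr 1
  funext P
  exact hgh P

/-- if `r (g • P) = h • r P` for all places `P`, then the reduction map on `Pic⁰` intertwines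
`g` and `h`. -/
theorem redPic0_smul (hr : IsPlaceRed A π FB Fk r) (hgen : PrincipalGenByIntegral A π FB Fk)
    (g : SemilinearAut L FB) (h : SemilinearAut k Fk) (hgh : ∀ P, r (g • P) = h • r P)
    (x : Pic0 L FB) : redPic0 r hr hgen (g • x) = h • redPic0 r hr hgen x := by
  obtain ⟨D, rfl⟩ := Pic0.mk_surjective x
  rw [SemilinearAut.pic0_smul_mk, redPic0_mk, redPic0_mk, SemilinearAut.pic0_smul_mk]
  congr 1
  apply Subtype.ext
  rw [coe_redDegZero, SemilinearAut.coe_degZeroSMulHom, SemilinearAut.coe_degZeroSMulHom,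
    coe_redDegZero]
  exact mapDomain_smul r g h hgh _

/-- the case `h = 1`. -/
theorem redPic0_smul_of_fixed (hr : IsPlaceRed A π FB Fk r)
    (hgen : PrincipalGenByIntegral A π FB Fk) (g : SemilinearAut L FB)
    (hg : ∀ P, r (g • P) = r P) (x : Pic0 L FB) :
    redPic0 r hr hgen (g • x) = redPic0 r hr hgen x := by
  have := redPic0_smul r hr hgen g 1 (fun P => by rw [hg P, one_smul]) x
  rwa [one_smul] at this

end Equivariance

/-! ### (R3), formal part -/

section R3

variable {L : Type*} [Field L] (A : ValuationSubring L)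
variable {k : Type*} [Field k] (π : A →+* k)
variable (FB : IntermediateField L (LaurentSeries L)) (Fk : IntermediateField k (LaurentSeries k))

/-- The characterisation of the reduction `Q` of `P` through a chart ring, in order form:
`C` is the set of `A`-integral `q`-expansions `Y` of the elements of the chart ring; every
reduction `Ỹ` is regular at `Q`, and `Y(P) = 0` implies `Ỹ = 0` or `Ỹ(Q) = 0`. -/
def RedAt (C : Set (LaurentSeries ↥A)) (hF : ∀ Y ∈ C, coeffMap A.subtype Y ∈ FB)
    (hFk : ∀ Y ∈ C, coeffMap π Y ∈ Fk) (P : Place L FB) (Q : Place k Fk) : Prop :=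
  ∀ (Y : LaurentSeries ↥A) (hY : Y ∈ C),
    0 ≤ Q.ord (⟨_, hFk Y hY⟩ : Fk) ∧
      (0 < P.ord (⟨_, hF Y hY⟩ : FB) → coeffMap π Y = 0 ∨ 0 < Q.ord (⟨_, hFk Y hY⟩ : Fk))

variable {A π FB Fk}

/-- **(R3), formal part.**  Let `g`, `h` be semilinear automorphisms of `FB`, `Fk` acting on
`q`-expansions coefficientwise through `φL : L →+* L`, `φk : k →+* k`, and let `s, s' : A →+* A` be
mutually inverse ring endomorphisms of `A` compatible with `φL` (on `A ⊂ L`) and `φk` (through `π`).
If the chart ring `C` is stable under `s'` and `Q` is a reduction of `P` through `C`, then `h • Q` is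
a reduction of `g • P` through `C`. -/
theorem redAt_smul (C : Set (LaurentSeries ↥A)) (hF : ∀ Y ∈ C, coeffMap A.subtype Y ∈ FB)
    (hFk : ∀ Y ∈ C, coeffMap π Y ∈ Fk)
    (g : SemilinearAut L FB) (h : SemilinearAut k Fk) (φL : L →+* L) (φk : k →+* k)
    (hg : ∀ x : FB, ((g • x : FB) : LaurentSeries L) = coeffMap φL (x : LaurentSeries L))
    (hh : ∀ x : Fk, ((h • x : Fk) : LaurentSeries k) = coeffMap φk (x : LaurentSeries k))
    (s s' : ↥A →+* ↥A) (hss' : ∀ a, s (s' a) = a)
    (hsL : ∀ a : ↥A, ((s a : ↥A) : L) = φL (a : L)) (hsk : ∀ a : ↥A, π (s a) = φk (π a))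
    (hC : ∀ Y ∈ C, coeffMap s' Y ∈ C)
    (P : Place L FB) (Q : Place k Fk) (hPQ : RedAt A π FB Fk C hF hFk P Q) :
    RedAt A π FB Fk C hF hFk (g • P) (h • Q) := by
  intro Y hY
  set Y' := coeffMap s' Y with hY'
  have hY'C : Y' ∈ C := hC Y hY
  obtain ⟨h1, h2⟩ := hPQ Y' hY'C
  have hsY : coeffMap s Y' = Y := by
    rw [hY', coeffMap_coeffMap]
    ext n
    rw [coeffMap_coeff]
    exact congrArg Subtype.val (hss' _)
  have e1 : A.subtype.comp s = φL.comp A.subtype := RingHom.ext fun a => hsL a
  have e2 : π.comp s = φk.comp π := RingHom.ext fun a => hsk a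
  have eL : g • (⟨_, hF Y' hY'C⟩ : FB) = (⟨_, hF Y hY⟩ : FB) := by
    apply Subtype.ext
    rw [hg]
    show coeffMap φL (coeffMap A.subtype Y') = coeffMap A.subtype Y
    rw [coeffMap_coeffMap, ← e1, ← coeffMap_coeffMap, hsY]
  have ek : h • (⟨_, hFk Y' hY'C⟩ : Fk) = (⟨_, hFk Y hY⟩ : Fk) := by
    apply Subtype.ext
    rw [hh]
    show coeffMap φk (coeffMap π Y') = coeffMap π Y
    rw [coeffMap_coeffMap, ← e2, ← coeffMap_coeffMap, hsY]
  have oL : (g • P).ord (⟨_, hF Y hY⟩ : FB) = P.ord (⟨_, hF Y' hY'C⟩ : FB) := by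
    rw [← eL, SemilinearAut.ord_smul]
  have ok : (h • Q).ord (⟨_, hFk Y hY⟩ : Fk) = Q.ord (⟨_, hFk Y' hY'C⟩ : Fk) := by
    rw [← ek, SemilinearAut.ord_smul]
  rw [ok, oL]
  refine ⟨h1, fun hpos => ?_⟩
  rcases h2 hpos with h0 | h0
  · left
    have := congrArg (fun z : Fk => (z : LaurentSeries k)) ek
    simp only at this
    rw [← this, hh]
    show coeffMap φk (coeffMap π Y') = 0
    rw [h0, map_zero]
  · right
    exact h0

/-- **(R3) from uniqueness.**  If `r P` is a reduction of `P` through `C` and the reduction of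
`g • P` through `C` is unique, then `r (g • P) = h • r P`. -/
theorem r_smul_eq (r : Place L FB → Place k Fk)
    (C : Set (LaurentSeries ↥A)) (hF : ∀ Y ∈ C, coeffMap A.subtype Y ∈ FB)
    (hFk : ∀ Y ∈ C, coeffMap π Y ∈ Fk)
    (g : SemilinearAut L FB) (h : SemilinearAut k Fk) (φL : L →+* L) (φk : k →+* k)
    (hg : ∀ x : FB, ((g • x : FB) : LaurentSeries L) = coeffMap φL (x : LaurentSeries L))
    (hh : ∀ x : Fk, ((h • x : Fk) : LaurentSeries k) = coeffMap φk (x : LaurentSeries k))
    (s s' : ↥A →+* ↥A) (hss' : ∀ a, s (s' a) = a)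
    (hsL : ∀ a : ↥A, ((s a : ↥A) : L) = φL (a : L)) (hsk : ∀ a : ↥A, π (s a) = φk (π a))
    (hC : ∀ Y ∈ C, coeffMap s' Y ∈ C)
    (P : Place L FB) (hR1 : RedAt A π FB Fk C hF hFk P (r P))
    (hR1u : ∀ Q : Place k Fk, RedAt A π FB Fk C hF hFk (g • P) Q → Q = r (g • P)) :
    r (g • P) = h • r P :=
  (hR1u _ (redAt_smul C hF hFk g h φL φk hg hh s s' hss' hsL hsk hC P (r P) hR1)).symm

end R3

end Fermat.Agent.M48.RedSpec8
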