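/-
M48 (lead), chapter [RED1], layer (Φ3)/TOP: **injectivity of the reduction map on prime-to-`ℓ`
torsion from the core lemma, for an ARBITRARY pair of function fields** `FB ⊂ L((q))`,
`Fk ⊂ k((q))` (helper8's `RedSpec8`).

Generic twin of `RED/TOP/{ConstViaR20, S18Top20, S18TopAt20}` + `ES/RED/RedInj12` (helper20,
helper12): the text of the old chain with the two fields as variables.  Inputs (hypotheses):

* `hπ`    : `π : A → k` is surjective;
* `hdiv`  : `HasPrincipalDivisors L FB`; `hdeg1` : all places of `FB / L` have degree one;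
  `hne` : `FB` has a place (for `FB = FK ℚbar M 1`: from a generator, `X0.FF`);
* `LiftRatio A π FB Fk` : every nonzero element of `Fk` is a ratio of reductions of `A`-integral
  elements of `FB` (twin of `LiftRatio2`; for the `G10` model: `Fk` is generated over `k` by the
  reductions of the integral generators of `FB`);
* `CLField A π FB Fk ℓ` : the core lemma, field form (twin of `Interface4.CLBar`);
* `r`, `hr : IsPlaceRed A π FB Fk r`, `hgen : PrincipalGenByIntegral A π FB Fk`.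

Output: `red_injective : ¬ ℓ ∣ m → m • z = 0 → redPic0 r hr hgen z = 0 → z = 0`.

Nothing is left unproved in this file.  Imported by no statement.
-/
import Mathlib
import Fermat.Agent.RED.TOP.ConstViaR20
import Fermat.Agent.M48.RedSpec8

set_option autoImplicit false
set_option synthInstance.maxHeartbeats 400000
set_option linter.unusedSectionVars false

noncomputable section

open HahnSeries IntermediateField AlgebraicCurve ModularCurve

namespace Fermat.Agent.M48.Phi3Top0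

open Fermat.Agent.X0.FF Fermat.Agent.RED.TOP.ConstViaR20 Fermat.Agent.M48.RedSpec8

variable {L : Type*} [Field L] (A : ValuationSubring L)
variable {k : Type*} [Field k] (π : A →+* k)
variable (FB : IntermediateField L (LaurentSeries L)) (Fk : IntermediateField k (LaurentSeries k))

/-! ### The two model inputs -/

/-- **(LIFT)**: every nonzero element of `Fk` is a ratio of reductions of integral elements of
`FB`. -/
def LiftRatio : Prop :=
  ∀ g : LaurentSeries k, g ∈ Fk → g ≠ 0 →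
    ∃ G₁ G₂ : LaurentSeries A,
      coeffMap A.subtype G₁ ∈ FB ∧ coeffMap A.subtype G₂ ∈ FB ∧
      coeffMap π G₁ ∈ Fk ∧ coeffMap π G₂ ∈ Fk ∧
      coeffMap π G₁ ≠ 0 ∧ coeffMap π G₂ ≠ 0 ∧
      g = coeffMap π G₁ / coeffMap π G₂

/-- **(CL), field form**, for the pair `(FB, Fk)`: if `P, Q ∈ A((q))` have coefficient images in
`FB`, the same nonzero reduction (lying in `Fk`), and the order of `P / Q` at every place of `FB`
is divisible by `m`, `ℓ ∤ m`, then `P / Q` is an `m`-th power in `FB`. -/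
def CLField (ℓ : ℕ) : Prop :=
  ∀ (P Q : LaurentSeries A) (hP : coeffMap A.subtype P ∈ FB) (hQ : coeffMap A.subtype Q ∈ FB),
    coeffMap π P = coeffMap π Q → coeffMap π Q ≠ 0 → coeffMap π Q ∈ Fk →
    ∀ m : ℕ, ¬ ℓ ∣ m →
      (∀ v : Place L FB, (m : ℤ) ∣ v.ord (⟨_, hP⟩ : FB) - v.ord (⟨_, hQ⟩ : FB)) →
      ∃ s : FB, s ^ m * (⟨_, hQ⟩ : FB) = (⟨_, hP⟩ : FB)

/-- **(CL), divisor form.** -/
def CLDiv (ℓ : ℕ) : Prop :=
  ∀ (P Q : LaurentSeries A) (hP : coeffMap A.subtype P ∈ FB) (hQ : coeffMap A.subtype Q ∈ FB),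
    coeffMap π P = coeffMap π Q → coeffMap π Q ≠ 0 → coeffMap π Q ∈ Fk →
    ∀ m : ℕ, ¬ ℓ ∣ m → ∀ D : Divisor L FB,
      (∀ w : Place L FB, (m : ℤ) * D w = w.ord ((⟨_, hP⟩ : FB) / ⟨_, hQ⟩)) →
      D ∈ Divisor.principal (K := L) (F := FB)

variable {A π FB Fk}

/-! ### Bookkeeping -/

theorem bar_ne_zero {y : LaurentSeries A} (hy : coeffMap A.subtype y ∈ FB)
    (hy0 : coeffMap π y ≠ 0) : (⟨_, hy⟩ : FB) ≠ 0 := by
  intro h0
  exact coeffMap_ne_zero_of_injective A.subtype_injective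
    (ne_zero_of_coeffMap_ne_zero hy0) (congrArg Subtype.val h0)

theorem ord_bar_mul (P : Place L FB) {y z : LaurentSeries A}
    (hy : coeffMap A.subtype y ∈ FB) (hz : coeffMap A.subtype z ∈ FB)
    (hyz : coeffMap A.subtype (y * z) ∈ FB)
    (hy0 : coeffMap π y ≠ 0) (hz0 : coeffMap π z ≠ 0) :
    P.ord (⟨_, hyz⟩ : FB) = P.ord (⟨_, hy⟩ : FB) + P.ord (⟨_, hz⟩ : FB) := by
  rw [← P.ord_mul (bar_ne_zero hy hy0) (bar_ne_zero hz hz0)]
  congr 1
  exact Subtype.ext (map_mul _ _ _)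

theorem one_mem_bar : coeffMap A.subtype (1 : LaurentSeries A) ∈ FB := by
  rw [map_one]; exact one_mem _

theorem pow_mem_bar {y : LaurentSeries A} (hy : coeffMap A.subtype y ∈ FB) (n : ℕ) :
    coeffMap A.subtype (y ^ n) ∈ FB := by
  rw [map_pow]; exact pow_mem hy n

theorem ord_bar_pow (P : Place L FB) {y : LaurentSeries A} (hy : coeffMap A.subtype y ∈ FB)
    (n : ℕ) : P.ord (⟨_, pow_mem_bar hy n⟩ : FB) = n * P.ord (⟨_, hy⟩ : FB) := by
  have h : (⟨_, pow_mem_bar hy n⟩ : FB) = (⟨_, hy⟩ : FB) ^ (n : ℤ) := by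
    rw [zpow_natCast]
    exact Subtype.ext (map_pow _ _ _)
  rw [h, P.ord_zpow]

theorem C_mem_FB (c : L) : (HahnSeries.C c : LaurentSeries L) ∈ FB := by
  have h := FB.algebraMap_mem c
  rwa [algebraMap_laurentSeries_eq_single] at h

theorem C_mem_Fk (c : k) : (HahnSeries.C c : LaurentSeries k) ∈ Fk := by
  have h := Fk.algebraMap_mem c
  rwa [algebraMap_laurentSeries_eq_single] at h

theorem coe_algebraMap_Fk (c : k) :
    ((algebraMap k Fk c : Fk) : LaurentSeries k) = HahnSeries.C c := by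
  show algebraMap k (LaurentSeries k) c = _
  rw [algebraMap_laurentSeries_eq_single, HahnSeries.C_apply]

/-! ### Representing principal divisors by integral functions -/

variable (A π FB Fk) in
/-- `E = div Y₁ - div Y₂` with `Y₁, Y₂` integral with nonzero reductions in `Fk`. -/
def GoodRep (E : Divisor L FB) : Prop :=
  ∃ (Y₁ Y₂ : LaurentSeries A) (h₁ : coeffMap A.subtype Y₁ ∈ FB) (h₂ : coeffMap A.subtype Y₂ ∈ FB),
    coeffMap π Y₁ ∈ Fk ∧ coeffMap π Y₂ ∈ Fk ∧ coeffMap π Y₁ ≠ 0 ∧ coeffMap π Y₂ ≠ 0 ∧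
    ∀ P : Place L FB, E P = P.ord (⟨_, h₁⟩ : FB) - P.ord (⟨_, h₂⟩ : FB)

theorem goodRep_of_mem_closure {E : Divisor L FB}
    (hE : E ∈ AddSubgroup.closure (integralPrincipal A π FB Fk)) : GoodRep A π FB Fk E := by
  induction hE using AddSubgroup.closure_induction with
  | mem E hE =>
    obtain ⟨y, hy, hyk, hy0, hEy⟩ := hE
    refine ⟨y, 1, hy, one_mem_bar, hyk, ?_, hy0, ?_, ?_⟩
    · rw [map_one]; exact one_mem _
    · rw [map_one]; exact one_ne_zero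
    · intro P
      rw [hEy P]
      have h1 : (⟨_, one_mem_bar⟩ : FB) = 1 := Subtype.ext (map_one (coeffMap A.subtype))
      rw [h1, P.ord_one, sub_zero]
  | zero =>
    refine ⟨1, 1, one_mem_bar, one_mem_bar, ?_, ?_, ?_, ?_, ?_⟩
    · rw [map_one]; exact one_mem _
    · rw [map_one]; exact one_mem _
    · rw [map_one]; exact one_ne_zero
    · rw [map_one]; exact one_ne_zero
    · intro P; simp
  | add E E' _ _ hE hE' =>
    obtain ⟨Y₁, Y₂, h₁, h₂, hk₁, hk₂, h0₁, h0₂, hord⟩ := hE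
    obtain ⟨Z₁, Z₂, g₁, g₂, gk₁, gk₂, g0₁, g0₂, gord⟩ := hE'
    have m₁ : coeffMap A.subtype (Y₁ * Z₁) ∈ FB := by rw [map_mul]; exact mul_mem h₁ g₁
    have m₂ : coeffMap A.subtype (Y₂ * Z₂) ∈ FB := by rw [map_mul]; exact mul_mem h₂ g₂
    refine ⟨Y₁ * Z₁, Y₂ * Z₂, m₁, m₂, ?_, ?_, ?_, ?_, ?_⟩
    · rw [map_mul]; exact mul_mem hk₁ gk₁
    · rw [map_mul]; exact mul_mem hk₂ gk₂
    · rw [map_mul]; exact mul_ne_zero h0₁ g0₁
    · rw [map_mul]; exact mul_ne_zero h0₂ g0₂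
    · intro P
      rw [Finsupp.add_apply, hord P, gord P, ord_bar_mul P h₁ g₁ m₁ h0₁ g0₁,
        ord_bar_mul P h₂ g₂ m₂ h0₂ g0₂]
      ring
  | neg E _ hE =>
    obtain ⟨Y₁, Y₂, h₁, h₂, hk₁, hk₂, h0₁, h0₂, hord⟩ := hE
    refine ⟨Y₂, Y₁, h₂, h₁, hk₂, hk₁, h0₂, h0₁, ?_⟩
    intro P
    rw [Finsupp.neg_apply, hord P]
    ring

/-! ### The constant lemma -/

variable {r : Place L FB → Place k Fk}

/-- **Step (0), constant lemma**: if the reductions of `P, Q` have the same order at every place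
of `Fk`, then `P~ = c~ Q~` for a constant `c ∈ A`. -/
theorem exists_const_of_ord_eq (hπ : Function.Surjective π)
    (hdiv : HasPrincipalDivisors L ↥FB) (hdeg1 : ∀ P : Place L FB, P.deg = 1)
    (hne : Nonempty (Place L FB)) (hr : IsPlaceRed A π FB Fk r)
    (P Q : LaurentSeries A) (hP : coeffMap A.subtype P ∈ FB) (hQ : coeffMap A.subtype Q ∈ FB)
    (hPk : coeffMap π P ∈ Fk) (hQk : coeffMap π Q ∈ Fk) (hQ0 : coeffMap π Q ≠ 0)
    (hord : ∀ Q' : Place k Fk,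
      Q'.ord (⟨coeffMap π P, hPk⟩ : Fk) = Q'.ord (⟨coeffMap π Q, hQk⟩ : Fk)) :
    ∃ c : A, coeffMap π P = coeffMap π (HahnSeries.C c * Q) := by
  classical
  obtain ⟨p', hp'⟩ : ∃ p' : Fk, p' = ⟨coeffMap π P, hPk⟩ := ⟨_, rfl⟩
  obtain ⟨q', hq'⟩ : ∃ q' : Fk, q' = ⟨coeffMap π Q, hQk⟩ := ⟨_, rfl⟩
  rw [← hp', ← hq'] at hord
  have hp'v : (p' : LaurentSeries k) = coeffMap π P := by rw [hp']
  have hq'v : (q' : LaurentSeries k) = coeffMap π Q := by rw [hq']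
  have hq'0 : q' ≠ 0 := by
    intro h
    apply hQ0
    rw [← hq'v, h]
    rfl
  -- `u = p'/q'` lies in every valuation ring
  have hu_mem : ∀ Q' : Place k Fk, p' / q' ∈ Q'.toValuationSubring := by
    intro Q'
    rw [ffp_mem_iff_ord_nonneg]
    rcases eq_or_ne p' 0 with h0 | h0
    · rw [h0, zero_div]; simp
    · rw [div_eq_mul_inv, Q'.ord_mul h0 (inv_ne_zero hq'0), Q'.ord_inv, hord Q']
      simp
  have hQL0 : (⟨coeffMap A.subtype Q, hQ⟩ : FB) ≠ 0 := by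
    intro h0
    exact coeffMap_ne_zero_of_injective A.subtype_injective
      (ne_zero_of_coeffMap_ne_zero hQ0) (congrArg Subtype.val h0)
  obtain ⟨DQ, hDQ, hDQ0⟩ := hdiv.exists_divisor _ hQL0
  have hEQ : ∀ Q' : Place k Fk, Finsupp.mapDomain r DQ Q' = Q'.ord q' := by
    intro Q'
    rw [hq']
    exact hr.2 Q hQ hQk hQ0 DQ hDQ Q'
  obtain ⟨c', hc'⟩ := exists_const_abstract r hr.1 hdeg1 hne q' (p' / q') hq'0 hu_mem (by
    intro c' hu_ne
    obtain ⟨c, rfl⟩ := hπ c'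
    -- the auxiliary function `y = P - c Q`
    have hyL : coeffMap A.subtype (P - HahnSeries.C c * Q) ∈ FB := by
      rw [map_sub, map_mul, coeffMap_C]
      exact sub_mem hP (mul_mem (C_mem_FB _) hQ)
    have hyk : coeffMap π (P - HahnSeries.C c * Q) ∈ Fk := by
      rw [map_sub, map_mul, coeffMap_C]
      exact sub_mem hPk (mul_mem (C_mem_Fk _) hQk)
    have hyk_eq : (⟨coeffMap π (P - HahnSeries.C c * Q), hyk⟩ : Fk) =
        q' * (p' / q' - algebraMap k Fk (π c)) := by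
      apply Subtype.ext
      have h1 : q' * (p' / q' - algebraMap k Fk (π c)) = p' - algebraMap k Fk (π c) * q' := by
        field_simp
      rw [h1]
      show coeffMap π (P - HahnSeries.C c * Q) = (p' : LaurentSeries k) -
        ((algebraMap k Fk (π c) : Fk) : LaurentSeries k) * (q' : LaurentSeries k)
      rw [coe_algebraMap_Fk, hp'v, hq'v, map_sub, map_mul, coeffMap_C]
    have hyk0 : coeffMap π (P - HahnSeries.C c * Q) ≠ 0 := by
      intro h0
      have : (⟨coeffMap π (P - HahnSeries.C c * Q), hyk⟩ : Fk) = 0 := Subtype.ext h0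
      rw [hyk_eq] at this
      rcases mul_eq_zero.mp this with h | h
      · exact hq'0 h
      · exact hu_ne (sub_eq_zero.mp h)
    have hyL0 : (⟨coeffMap A.subtype (P - HahnSeries.C c * Q), hyL⟩ : FB) ≠ 0 := by
      intro h0
      exact coeffMap_ne_zero_of_injective A.subtype_injective
        (ne_zero_of_coeffMap_ne_zero hyk0) (congrArg Subtype.val h0)
    obtain ⟨Dy, hDy, hDy0⟩ := hdiv.exists_divisor _ hyL0
    refine ⟨Dy, DQ, hDy0, hDQ0, ?_, hEQ⟩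
    intro Q'
    rw [← hyk_eq]
    exact hr.2 _ hyL hyk hyk0 Dy hDy Q')
  obtain ⟨c, rfl⟩ := hπ c'
  refine ⟨c, ?_⟩
  rw [map_mul, coeffMap_C, ← hp'v, ← hq'v, ← coe_algebraMap_Fk (Fk := Fk) (π c)]
  have h2 : p' = algebraMap k Fk (π c) * q' := by
    rw [← hc', div_mul_cancel₀ _ hq'0]
  exact congrArg Subtype.val h2

/-! ### Field form ⇒ divisor form -/

theorem clDiv_of_clField {ℓ : ℕ} (h : CLField A π FB Fk ℓ) : CLDiv A π FB Fk ℓ := by
  intro P Q hP hQ hPQ hQ0 hQk m hm D hD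
  have hm0 : m ≠ 0 := fun h0 => hm (h0 ▸ dvd_zero ℓ)
  have hP0 : coeffMap π P ≠ 0 := hPQ ▸ hQ0
  have hPne := bar_ne_zero hP hP0
  have hQne := bar_ne_zero hQ hQ0
  have hsub : ∀ w : Place L FB, w.ord ((⟨_, hP⟩ : FB) / ⟨_, hQ⟩) =
      w.ord (⟨_, hP⟩ : FB) - w.ord (⟨_, hQ⟩ : FB) := by
    intro w
    rw [div_eq_mul_inv, w.ord_mul hPne (inv_ne_zero hQne), w.ord_inv]
    ring
  obtain ⟨s, hs⟩ := h P Q hP hQ hPQ hQ0 hQk m hm (fun v => ⟨D v, by rw [← hsub v, hD v]⟩)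
  have hs0 : s ≠ 0 := by
    rintro rfl
    rw [zero_pow hm0, zero_mul] at hs
    exact hPne hs.symm
  refine ⟨s, hs0, fun w => ?_⟩
  have h1 : (m : ℤ) * D w = (m : ℤ) * w.ord s := by
    rw [hD w, hsub w, ← hs, w.ord_mul (pow_ne_zero m hs0) hQne]
    have : w.ord (s ^ m) = (m : ℤ) * w.ord s := by
      rw [← zpow_natCast, w.ord_zpow]
    rw [this]
    ring
  exact mul_left_cancel₀ (by exact_mod_cast hm0) h1

/-! ### The main theorem -/

/-- **(Φ3), reduction half, divisor form of (CL)**: `redPic0 r hr hgen` is injective on the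
`m`-torsion of `Pic⁰(FB)`, `ℓ ∤ m`. -/
theorem red_injective_of_clDiv (hπ : Function.Surjective π)
    (hdiv : HasPrincipalDivisors L ↥FB) (hdeg1 : ∀ P : Place L FB, P.deg = 1)
    (hne : Nonempty (Place L FB)) (hlift : LiftRatio A π FB Fk) {ℓ : ℕ}
    (hCL : CLDiv A π FB Fk ℓ) (hr : IsPlaceRed A π FB Fk r)
    (hgen : PrincipalGenByIntegral A π FB Fk)
    (m : ℕ) (hm : ¬ ℓ ∣ m) (z : Pic0 L FB)
    (hmz : m • z = 0) (hz : redPic0 r hr hgen z = 0) : z = 0 := by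
  classical
  -- `z = [D₀]`
  obtain ⟨⟨D₀, hD₀⟩, rfl⟩ := Pic0.mk_surjective z
  -- `m • D₀` is principal
  have hmD₀ : m • D₀ ∈ Divisor.principal (K := L) (F := FB) := by
    have h1 : Pic0.mk (m • (⟨D₀, hD₀⟩ : Divisor.degZero (K := L) (F := FB))) = 0 := by
      rw [← hmz]; rfl
    have h2 := (QuotientAddGroup.eq_zero_iff _).mp h1
    rw [AddSubgroup.mem_addSubgroupOf] at h2
    simpa using h2
  -- `r_* D₀` is principal
  have hrD₀ : Finsupp.mapDomain r D₀ ∈ Divisor.principal (K := k) (F := Fk) := by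
    rw [redPic0_mk] at hz
    have h2 := (QuotientAddGroup.eq_zero_iff _).mp hz
    rw [AddSubgroup.mem_addSubgroupOf] at h2
    exact h2
  -- integral representation of `m • D₀`
  obtain ⟨Y₁, Y₂, hY₁, hY₂, hYk₁, hYk₂, hY0₁, hY0₂, hYord⟩ :=
    goodRep_of_mem_closure (hgen hmD₀)
  -- `g~` with `div g~ = r_* D₀`, and its lift
  obtain ⟨g, hg0, hgord⟩ := hrD₀
  obtain ⟨G₁, G₂, hG₁, hG₂, hGk₁, hGk₂, hG0₁, hG0₂, hgG⟩ :=
    hlift (g : LaurentSeries k) g.2 (fun h0 => hg0 (Subtype.ext h0))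
  obtain ⟨DG₁, hDG₁, -⟩ := hdiv.exists_divisor _ (bar_ne_zero hG₁ hG0₁)
  obtain ⟨DG₂, hDG₂, -⟩ := hdiv.exists_divisor _ (bar_ne_zero hG₂ hG0₂)
  -- the new divisor and functions
  set D : Divisor L FB := D₀ - (DG₁ - DG₂) with hD
  have hP : coeffMap A.subtype (Y₁ * G₂ ^ m) ∈ FB := by
    rw [map_mul]; exact mul_mem hY₁ (pow_mem_bar hG₂ m)
  have hQ : coeffMap A.subtype (Y₂ * G₁ ^ m) ∈ FB := by
    rw [map_mul]; exact mul_mem hY₂ (pow_mem_bar hG₁ m)
  have hPk : coeffMap π (Y₁ * G₂ ^ m) ∈ Fk := by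
    rw [map_mul, map_pow]; exact mul_mem hYk₁ (pow_mem hGk₂ m)
  have hQk : coeffMap π (Y₂ * G₁ ^ m) ∈ Fk := by
    rw [map_mul, map_pow]; exact mul_mem hYk₂ (pow_mem hGk₁ m)
  have hP0 : coeffMap π (Y₁ * G₂ ^ m) ≠ 0 := by
    rw [map_mul, map_pow]; exact mul_ne_zero hY0₁ (pow_ne_zero m hG0₂)
  have hQ0 : coeffMap π (Y₂ * G₁ ^ m) ≠ 0 := by
    rw [map_mul, map_pow]; exact mul_ne_zero hY0₂ (pow_ne_zero m hG0₁)
  have hGm0₁ : coeffMap π (G₁ ^ m) ≠ 0 := by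
    rw [map_pow]; exact pow_ne_zero m hG0₁
  have hGm0₂ : coeffMap π (G₂ ^ m) ≠ 0 := by
    rw [map_pow]; exact pow_ne_zero m hG0₂
  -- orders upstairs: `m·D = div P - div Q`
  have hDord : ∀ w : Place L FB, (m : ℤ) * D w =
      w.ord (⟨_, hP⟩ : FB) - w.ord (⟨_, hQ⟩ : FB) := by
    intro w
    rw [ord_bar_mul w hY₁ (pow_mem_bar hG₂ m) hP hY0₁ hGm0₂,
      ord_bar_mul w hY₂ (pow_mem_bar hG₁ m) hQ hY0₂ hGm0₁,
      ord_bar_pow w hG₂ m, ord_bar_pow w hG₁ m, hD, Finsupp.sub_apply, Finsupp.sub_apply,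
      hDG₁ w, hDG₂ w]
    have := hYord w
    rw [Finsupp.smul_apply, nsmul_eq_mul] at this
    linarith
  -- divisors of `P`, `Q` upstairs and their push-forwards
  obtain ⟨DP, hDP, -⟩ := hdiv.exists_divisor _ (bar_ne_zero hP hP0)
  obtain ⟨DQ, hDQ, -⟩ := hdiv.exists_divisor _ (bar_ne_zero hQ hQ0)
  have hDPQ : DP - DQ = m • D := by
    ext w
    rw [Finsupp.sub_apply, Finsupp.smul_apply, nsmul_eq_mul, hDP w, hDQ w, hDord w]
  have hrP := hr.2 _ hP hPk hP0 DP hDP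
  have hrQ := hr.2 _ hQ hQk hQ0 DQ hDQ
  have hrG₁ := hr.2 _ hG₁ hGk₁ hG0₁ DG₁ hDG₁
  have hrG₂ := hr.2 _ hG₂ hGk₂ hG0₂ DG₂ hDG₂
  -- `g = G₁~/G₂~` in `F~`
  have hgF : g = (⟨_, hGk₁⟩ : Fk) / ⟨_, hGk₂⟩ := Subtype.ext hgG
  have hGk0₁ : (⟨_, hGk₁⟩ : Fk) ≠ 0 := fun h0 => hG0₁ (congrArg Subtype.val h0)
  have hGk0₂ : (⟨_, hGk₂⟩ : Fk) ≠ 0 := fun h0 => hG0₂ (congrArg Subtype.val h0)
  -- `r_* D = 0`
  have hrD : ∀ Q' : Place k Fk, Finsupp.mapDomain r D Q' = 0 := by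
    intro Q'
    rw [hD, Finsupp.mapDomain_sub, Finsupp.mapDomain_sub, Finsupp.sub_apply, Finsupp.sub_apply,
      hgord Q', hrG₁ Q', hrG₂ Q', hgF, div_eq_mul_inv, Q'.ord_mul hGk0₁ (inv_ne_zero hGk0₂),
      Q'.ord_inv]
    ring
  -- hence `P~`, `Q~` have the same orders everywhere
  have hordPQ : ∀ Q' : Place k Fk, Q'.ord (⟨_, hPk⟩ : Fk) = Q'.ord (⟨_, hQk⟩ : Fk) := by
    intro Q'
    have h1 : Finsupp.mapDomain r (DP - DQ) Q' = 0 := by
      rw [hDPQ, Finsupp.mapDomain_smul, Finsupp.smul_apply, hrD Q', smul_zero]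
    rw [Finsupp.mapDomain_sub, Finsupp.sub_apply, hrP Q', hrQ Q'] at h1
    linarith
  -- constant
  obtain ⟨c, hc⟩ := exists_const_of_ord_eq hπ hdiv hdeg1 hne hr
    (Y₁ * G₂ ^ m) (Y₂ * G₁ ^ m) hP hQ hPk hQk hQ0 hordPQ
  -- `c ≠ 0`
  have hc0 : (c : L) ≠ 0 := by
    intro h0
    have : c = 0 := Subtype.ext h0
    rw [this, map_zero, zero_mul, map_zero] at hc
    exact hP0 hc
  -- apply (CL) to `P` and `c Q`
  have hQ' : coeffMap A.subtype (HahnSeries.C c * (Y₂ * G₁ ^ m)) ∈ FB := by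
    rw [map_mul, coeffMap_C]; exact mul_mem (C_mem_FB _) hQ
  have hQ'k : coeffMap π (HahnSeries.C c * (Y₂ * G₁ ^ m)) ∈ Fk := by
    rw [← hc]; exact hPk
  have hQ'0 : coeffMap π (HahnSeries.C c * (Y₂ * G₁ ^ m)) ≠ 0 := by
    rw [← hc]; exact hP0
  have hDprin : D ∈ Divisor.principal (K := L) (F := FB) := by
    refine hCL (Y₁ * G₂ ^ m) (HahnSeries.C c * (Y₂ * G₁ ^ m)) hP hQ' hc hQ'0 hQ'k m hm D ?_
    intro w
    have hQ'eq : (⟨_, hQ'⟩ : FB) = algebraMap L FB (c : L) * (⟨_, hQ⟩ : FB) := by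
      apply Subtype.ext
      show coeffMap A.subtype (HahnSeries.C c * (Y₂ * G₁ ^ m)) =
        algebraMap L (LaurentSeries L) (c : L) * coeffMap A.subtype (Y₂ * G₁ ^ m)
      rw [map_mul, coeffMap_C, algebraMap_laurentSeries_eq_single, HahnSeries.C_apply]
      rfl
    have hcF : algebraMap L FB (c : L) ≠ 0 := by
      rw [Ne, map_eq_zero_iff _ (algebraMap L FB).injective]
      exact hc0
    rw [hDord w, div_eq_mul_inv, w.ord_mul (bar_ne_zero hP hP0)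
      (inv_ne_zero (hQ'eq ▸ mul_ne_zero hcF (bar_ne_zero hQ hQ0))), w.ord_inv, hQ'eq,
      w.ord_mul hcF (bar_ne_zero hQ hQ0), ffp_ord_algebraMap]
    ring
  -- conclude
  have hD₀prin : D₀ ∈ Divisor.principal (K := L) (F := FB) := by
    have h1 : D₀ = D + (DG₁ - DG₂) := by rw [hD]; abel
    rw [h1]
    refine AddSubgroup.add_mem _ hDprin (AddSubgroup.sub_mem _ ?_ ?_)
    · exact ⟨_, bar_ne_zero hG₁ hG0₁, hDG₁⟩
    · exact ⟨_, bar_ne_zero hG₂ hG0₂, hDG₂⟩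
  show Pic0.mk (⟨D₀, hD₀⟩ : Divisor.degZero (K := L) (F := FB)) = 0
  rw [Pic0.mk, QuotientAddGroup.eq_zero_iff, AddSubgroup.mem_addSubgroupOf]
  exact hD₀prin

/-- **(Φ3), reduction half, field form of (CL).** -/
theorem red_injective (hπ : Function.Surjective π)
    (hdiv : HasPrincipalDivisors L ↥FB) (hdeg1 : ∀ P : Place L FB, P.deg = 1)
    (hne : Nonempty (Place L FB)) (hlift : LiftRatio A π FB Fk) {ℓ : ℕ}
    (hCL : CLField A π FB Fk ℓ) (hr : IsPlaceRed A π FB Fk r)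
    (hgen : PrincipalGenByIntegral A π FB Fk)
    (m : ℕ) (hm : ¬ ℓ ∣ m) (z : Pic0 L FB)
    (hmz : m • z = 0) (hz : redPic0 r hr hgen z = 0) : z = 0 :=
  red_injective_of_clDiv hπ hdiv hdeg1 hne hlift (clDiv_of_clField hCL) hr hgen m hm z hmz hz

end Fermat.Agent.M48.Phi3Top0
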