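/-
M48 (lead), chapter [RED1], layer DESC: **the core lemma over `ℚ̄` from the core lemma over number
fields, for an ARBITRARY model field** `F₀ ≤ ℚ((q))`.

Generic twin of `RED/Interface4` (`CLBar`, `CLNum`), `RED/InterfaceGe4` (`DescStepGe`, `NumStep`),
`RED/DESC/{PlaceExtend27 (section Concrete), HypTransfer12, UnifDescent14, DescMain12}`
(helper27, helper12, helper14): the text of the old chain with `modularFunctionFieldFull M`
replaced by a variable `F₀`.  The generic parts of the old chapter (`CoeffDescent1`,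
`NumberFieldDVR27`, `PlaceExtend27.exists_place_above_abstract`) are imported as they are.

* `FBg F₀ = ℚ̄·F₀ ⊂ ℚ̄((q))`, `FKg F₀ K = K·F₀ ⊂ K((q))` (for `F₀ = fieldG10 M L` these are
  `J1Defs8.FK ℚ̄ M L` and `J1Defs8.FK K M L` by `rfl`);
* `CLBarG F₀ ℓ A`, `CLNumG F₀ ℓ A K`, `DescStepGeG`, `NumStepG`, `clBarG_of_descStepGeG`;
* `descStepGeG (hx : FF.IsGen ℚ̄ x) (hdiv : HasPrincipalDivisors ℚ̄ (FBg F₀)) : DescStepGeG F₀ ℓ A`;
* `clField_of_clBarG` : `CLBarG` is the `Phi3Top0.CLField` of the (Φ3)/TOP layer.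

Nothing is left unproved in this file.  Imported by no statement.
-/
import Mathlib
import Fermat.Agent.RED.DESC.PlaceExtend27
import Fermat.Agent.RED.DESC.NumberFieldDVR27
import Fermat.Agent.M48.Phi3Top0

set_option autoImplicit false
set_option linter.unusedSectionVars false

open HahnSeries AlgebraicCurve ModularCurve

noncomputable section

namespace Fermat.Agent.M48.DescG0

open Fermat.Agent.X0 Fermat.Agent.RED.Interface4
open Fermat.Agent.RED.DESC.PlaceExtend27 Fermat.Agent.RED.DESC.CoeffDescent1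
open Fermat.Agent.RED.DESC.NumberFieldDVR27

variable (F₀ : IntermediateField ℚ (LaurentSeries ℚ))

/-! ### The fields and the contracts -/

/-- `ℚ̄·F₀ ⊂ ℚ̄((q))`. -/
abbrev FBg : IntermediateField Qbar (LaurentSeries Qbar) := laurentBaseChange Qbar F₀

/-- `K·F₀ ⊂ K((q))` for a subfield `K ⊂ ℚ̄`. -/
abbrev FKg (K : IntermediateField ℚ Qbar) : IntermediateField K (LaurentSeries K) :=
  laurentBaseChange K F₀

/-- **(CL) over `ℚ̄`, field form**, for the model `F₀`. -/
def CLBarG (ℓ : ℕ) (A : ValuationSubring Qbar) : Prop :=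
  ∀ (P Q : LaurentSeries A)
    (hP : coeffMap A.subtype P ∈ FBg F₀) (hQ : coeffMap A.subtype Q ∈ FBg F₀),
    coeffMap (IsLocalRing.residue A) P = coeffMap (IsLocalRing.residue A) Q →
    coeffMap (IsLocalRing.residue A) P ≠ 0 →
    ∀ m : ℕ, ¬ ℓ ∣ m →
      (∀ v : Place Qbar (FBg F₀),
        (m : ℤ) ∣ v.ord (⟨coeffMap A.subtype P, hP⟩ : FBg F₀) -
          v.ord (⟨coeffMap A.subtype Q, hQ⟩ : FBg F₀)) →
      ∃ s : FBg F₀, s ^ m * (⟨coeffMap A.subtype Q, hQ⟩ : FBg F₀) = ⟨coeffMap A.subtype P, hP⟩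

/-- **(CL) over a number field `K ⊂ ℚ̄`** for the model `F₀`.  Conclusion up to a nonzero
constant. -/
def CLNumG (ℓ : ℕ) (A : ValuationSubring Qbar) (K : IntermediateField ℚ Qbar) : Prop :=
  ∀ (P Q : LaurentSeries (AK A K))
    (hP : coeffMap (AK A K).subtype P ∈ FKg F₀ K) (hQ : coeffMap (AK A K).subtype Q ∈ FKg F₀ K),
    coeffMap (IsLocalRing.residue (AK A K)) P = coeffMap (IsLocalRing.residue (AK A K)) Q →
    coeffMap (IsLocalRing.residue (AK A K)) P ≠ 0 →
    ∀ m : ℕ, ¬ ℓ ∣ m →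
      (∀ v : Place K (FKg F₀ K),
        (m : ℤ) ∣ v.ord (⟨coeffMap (AK A K).subtype P, hP⟩ : FKg F₀ K) -
          v.ord (⟨coeffMap (AK A K).subtype Q, hQ⟩ : FKg F₀ K)) →
      ∃ (c : K) (s : FKg F₀ K), c ≠ 0 ∧
        s ^ m * (⟨coeffMap (AK A K).subtype Q, hQ⟩ : FKg F₀ K) =
          c • (⟨coeffMap (AK A K).subtype P, hP⟩ : FKg F₀ K)

/-- **Chapter DESC**, shape: `(CL)` over every number field `K ⊇ K₀` implies `(CL)` over `ℚ̄`. -/
def DescStepGeG (ℓ : ℕ) (A : ValuationSubring Qbar) : Prop :=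
  ∀ K₀ : IntermediateField ℚ Qbar, FiniteDimensional ℚ K₀ →
    (∀ K : IntermediateField ℚ Qbar, FiniteDimensional ℚ K → K₀ ≤ K → CLNumG F₀ ℓ A K) →
      CLBarG F₀ ℓ A

/-- **CORE + MODEL**, shape: there is a number field `K₀` such that `(CL)` holds over every
number field `K ⊇ K₀`. -/
def NumStepG (ℓ : ℕ) (A : ValuationSubring Qbar) : Prop :=
  ∃ K₀ : IntermediateField ℚ Qbar, FiniteDimensional ℚ K₀ ∧
    ∀ K : IntermediateField ℚ Qbar, FiniteDimensional ℚ K → K₀ ≤ K → CLNumG F₀ ℓ A K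

variable {F₀}

theorem clBarG_of_descStepGeG {ℓ : ℕ} {A : ValuationSubring Qbar}
    (hdesc : DescStepGeG F₀ ℓ A) (hnum : NumStepG F₀ ℓ A) : CLBarG F₀ ℓ A := by
  obtain ⟨K₀, hK₀, h⟩ := hnum
  exact hdesc K₀ hK₀ h

/-- `CLBarG` is the core lemma consumed by the (Φ3)/TOP layer, for ANY special-fibre field. -/
theorem clField_of_clBarG {ℓ : ℕ} {A : ValuationSubring Qbar} (h : CLBarG F₀ ℓ A)
    (Fk : IntermediateField (IsLocalRing.ResidueField A)
      (LaurentSeries (IsLocalRing.ResidueField A))) :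
    Phi3Top0.CLField A (IsLocalRing.residue A) (FBg F₀) Fk ℓ :=
  fun P Q hP hQ hPQ hQ0 _ m hm hdvd => h P Q hP hQ hPQ (hPQ ▸ hQ0) m hm hdvd

variable (F₀)

/-! ### Base change of constants `K·F₀ → ℚ̄·F₀` and extension of places -/

section Concrete

variable (K : IntermediateField ℚ Qbar)

/-- Coefficientwise base change `K·F₀ → ℚ̄·F₀`. -/
def baseChangeHom : FKg F₀ K →+* FBg F₀ :=
  RingHom.codRestrict ((coeffMap (algebraMap K Qbar)).comp (FKg F₀ K).val.toRingHom) (FBg F₀)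
    (fun f => coeffMap_mem_laurentBaseChange_of_algHom (algebraMap K Qbar) F₀ f.2)

@[simp] theorem coe_baseChangeHom (f : FKg F₀ K) :
    ((baseChangeHom F₀ K f : FBg F₀) : LaurentSeries Qbar) =
      coeffMap (algebraMap K Qbar) (f : LaurentSeries K) := rfl

theorem baseChangeHom_algebraMap (c : K) :
    baseChangeHom F₀ K (algebraMap K (FKg F₀ K) c) = algebraMap Qbar (FBg F₀) (c : Qbar) := by
  apply Subtype.ext
  rw [coe_baseChangeHom]
  exact coeffMap_algebraMap_of_ringHom (algebraMap K Qbar) c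

variable {F₀}

/-- **(EXT).**  Every place of `K·F₀ / K` extends to a place of `ℚ̄·F₀ / ℚ̄`. -/
theorem exists_place_above {x : FBg F₀} (hx : FF.IsGen Qbar x) (w : Place K (FKg F₀ K)) :
    ∃ (v : Place Qbar (FBg F₀)) (e : ℕ), 0 < e ∧
      ∀ f : FKg F₀ K, v.ord (baseChangeHom F₀ K f) = (e : ℤ) * w.ord f := by
  have h1 := isAlgebraic_Qbar_over K
  exact exists_place_above_abstract (baseChangeHom F₀ K) (baseChangeHom_algebraMap F₀ K) hx w

/-! ### Transfer of the divisibility hypothesis -/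

/-- if `K·F₀` contains a uniformiser at `v`, the ramification index of `v` over `w` is one. -/
theorem ord_eq_of_unif {w : Place K (FKg F₀ K)} {v : Place Qbar (FBg F₀)} {e : ℕ}
    (hord : ∀ f : FKg F₀ K, v.ord (baseChangeHom F₀ K f) = (e : ℤ) * w.ord f)
    (τ : FKg F₀ K) (hτ : v.ord (baseChangeHom F₀ K τ) = 1) (f : FKg F₀ K) :
    v.ord (baseChangeHom F₀ K f) = w.ord f := by
  have h1 := hord τ
  rw [hτ] at h1
  have he : (e : ℤ) = 1 := by
    have hdvd : (e : ℤ) ∣ 1 := ⟨w.ord τ, h1⟩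
    exact Int.eq_one_of_dvd_one (Int.natCast_nonneg e) hdvd
  rw [hord f, he, one_mul]

/-- **(b)** hypothesis transfer, difference form (the literal hypothesis of `CLNumG`). -/
theorem dvd_ord_sub_of_bar {x : FBg F₀} (hx : FF.IsGen Qbar x) (p q : FKg F₀ K) (m : ℕ)
    (hbar : ∀ v : Place Qbar (FBg F₀),
      (m : ℤ) ∣ v.ord (baseChangeHom F₀ K p) - v.ord (baseChangeHom F₀ K q))
    (hunif : ∀ v : Place Qbar (FBg F₀),
      v.ord (baseChangeHom F₀ K p) - v.ord (baseChangeHom F₀ K q) ≠ 0 →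
        ∃ τ : FKg F₀ K, v.ord (baseChangeHom F₀ K τ) = 1)
    (w : Place K (FKg F₀ K)) : (m : ℤ) ∣ w.ord p - w.ord q := by
  obtain ⟨v, e, he, hord⟩ := exists_place_above K hx w
  by_cases h0 : v.ord (baseChangeHom F₀ K p) - v.ord (baseChangeHom F₀ K q) = 0
  · rw [hord p, hord q, ← mul_sub] at h0
    have he0 : (e : ℤ) ≠ 0 := by exact_mod_cast he.ne'
    rcases mul_eq_zero.mp h0 with h | h
    · exact absurd h he0
    · rw [h]
      exact dvd_zero _
  · obtain ⟨τ, hτ⟩ := hunif v h0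
    have h := hbar v
    rwa [ord_eq_of_unif K hord τ hτ p, ord_eq_of_unif K hord τ hτ q] at h

end Concrete

/-! ### Uniformiser descent -/

/-- A fixed element of `ℚ̄·F₀` descends to a number field above `K₀`, and to all larger fields. -/
theorem exists_descent_ge (K₀ : IntermediateField ℚ Qbar) [FiniteDimensional ℚ K₀]
    (x : FBg F₀) :
    ∃ K₁ : IntermediateField ℚ Qbar, FiniteDimensional ℚ K₁ ∧ K₀ ≤ K₁ ∧
      ∀ K : IntermediateField ℚ Qbar, K₁ ≤ K → ∃ x' : FKg F₀ K, baseChangeHom F₀ K x' = x := by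
  have := isAlgebraic_Qbar
  obtain ⟨K₁, hK₀, hfin, x', hx', hxx⟩ :=
    exists_finite_descent (L := Qbar) (F₀ := F₀) K₀ x.2
  refine ⟨K₁, hfin, hK₀, fun K hK => ?_⟩
  obtain ⟨x'', hx'', h''⟩ := exists_lift_of_le hK hx'
  refine ⟨⟨x'', hx''⟩, Subtype.ext ?_⟩
  rw [coe_baseChangeHom]
  exact h''.trans hxx

/-- **Uniformiser descent.** -/
theorem exists_unif_descent (K₀ : IntermediateField ℚ Qbar) [FiniteDimensional ℚ K₀]
    (S : Finset (Place Qbar (FBg F₀))) :
    ∃ K₁ : IntermediateField ℚ Qbar, FiniteDimensional ℚ K₁ ∧ K₀ ≤ K₁ ∧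
      ∀ K : IntermediateField ℚ Qbar, K₁ ≤ K → ∀ v ∈ S,
        ∃ τ' : FKg F₀ K, v.ord (baseChangeHom F₀ K τ') = 1 := by
  classical
  induction S using Finset.induction_on with
  | empty => exact ⟨K₀, inferInstance, le_rfl, fun K _ v hv => absurd hv (Finset.notMem_empty v)⟩
  | insert v S _ ih =>
    obtain ⟨K₁, hfin₁, hK₁, H₁⟩ := ih
    have := hfin₁
    obtain ⟨π, hπ⟩ := IsDiscreteValuationRing.exists_irreducible v.toValuationSubring
    obtain ⟨K₂, hfin₂, hK₂, H₂⟩ := exists_descent_ge F₀ K₁ (π : FBg F₀)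
    refine ⟨K₂, hfin₂, hK₁.trans hK₂, fun K hK u hu => ?_⟩
    rcases Finset.mem_insert.mp hu with rfl | hu
    · obtain ⟨τ', hτ'⟩ := H₂ K hK
      exact ⟨τ', by rw [hτ', Place.ord_coe_irreducible u hπ]⟩
    · exact H₁ K (hK₂.trans hK) u hu

/-- **Uniformiser descent**, in the shape consumed by the assembly. -/
theorem unif_descent (S : Finset (Place Qbar (FBg F₀))) :
    ∃ K₁ : IntermediateField ℚ Qbar, FiniteDimensional ℚ K₁ ∧
      ∀ K : IntermediateField ℚ Qbar, FiniteDimensional ℚ K → K₁ ≤ K → ∀ v ∈ S,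
        ∃ τ : FKg F₀ K, v.ord (baseChangeHom F₀ K τ) = 1 := by
  have : FiniteDimensional ℚ (⊥ : IntermediateField ℚ Qbar) := inferInstance
  obtain ⟨K₁, hfin, -, H⟩ := exists_unif_descent F₀ ⊥ S
  exact ⟨K₁, hfin, fun K _ hK v hv => H K hK v hv⟩

/-! ### The assembly -/

/-- a Laurent series with coefficients in a subring comes from the subring. -/
theorem exists_lift_coeff {K : Type*} [Field K] (O : ValuationSubring K) (x : LaurentSeries K)
    (h : ∀ n, x.coeff n ∈ O) : ∃ y : LaurentSeries O, coeffMap O.subtype y = x := by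
  refine ⟨⟨fun n => ⟨x.coeff n, h n⟩, ?_⟩, ?_⟩
  · apply x.isPWO_support.mono
    intro n hn
    rw [Function.mem_support] at hn
    rw [HahnSeries.mem_support]
    intro h0
    exact hn (Subtype.ext h0)
  · ext n
    rfl

variable {F₀}

/-- **Chapter DESC** for the model `F₀`: `(CL)` over all number fields `K ⊇ K₀` implies `(CL)` over
`ℚ̄`.  Inputs: a generator of `ℚ̄·F₀ / ℚ̄` and the existence of principal divisors. -/
theorem descStepGeG {x : FBg F₀} (hx : FF.IsGen Qbar x)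
    (hdiv : HasPrincipalDivisors Qbar ↥(FBg F₀)) (ℓ : ℕ) (A : ValuationSubring Qbar) :
    DescStepGeG F₀ ℓ A := by
  classical
  intro K₀ hK₀ hnum P Q hP hQ hred hne m hℓm hord
  have := hK₀
  have : Algebra.IsAlgebraic ℚ Qbar := isAlgebraic_Qbar
  have hm : 0 < m := by
    rcases Nat.eq_zero_or_pos m with h | h
    · exact absurd (h ▸ dvd_zero ℓ) hℓm
    · exact h
  -- 1. descent of `P̄`, `Q̄`
  obtain ⟨K₁, hK₀₁, hK₁, p₁, hp₁, hp₁eq⟩ := exists_finite_descent (F₀ := F₀) K₀ hP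
  have := hK₁
  obtain ⟨K₂, hK₁₂, hK₂, q₂, hq₂, hq₂eq⟩ := exists_finite_descent (F₀ := F₀) K₁ hQ
  have := hK₂
  -- 2. supports
  have hQred : coeffMap (IsLocalRing.residue A) Q ≠ 0 := hred ▸ hne
  have hPb0 : (⟨coeffMap A.subtype P, hP⟩ : FBg F₀) ≠ 0 := by
    intro h0
    have h1 : coeffMap A.subtype P = 0 := congrArg Subtype.val h0
    have h2 : P = 0 := by
      apply coeffMap_injective_of_injective A.subtype Subtype.val_injective
      rw [h1, map_zero]
    exact hne (by rw [h2, map_zero])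
  have hQb0 : (⟨coeffMap A.subtype Q, hQ⟩ : FBg F₀) ≠ 0 := by
    intro h0
    have h1 : coeffMap A.subtype Q = 0 := congrArg Subtype.val h0
    have h2 : Q = 0 := by
      apply coeffMap_injective_of_injective A.subtype Subtype.val_injective
      rw [h1, map_zero]
    exact hQred (by rw [h2, map_zero])
  obtain ⟨DP, hDP, -⟩ := hdiv.exists_divisor _ hPb0
  obtain ⟨DQ, hDQ, -⟩ := hdiv.exists_divisor _ hQb0
  obtain ⟨K₃, hK₃, hU⟩ := unif_descent F₀ (DP.support ∪ DQ.support)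
  have := hK₃
  -- 3. the number field
  have hKfd : FiniteDimensional ℚ ↥(K₂ ⊔ K₃) := inferInstance
  have hK₀K : K₀ ≤ K₂ ⊔ K₃ := (hK₀₁.trans hK₁₂).trans le_sup_left
  have hK₃K : K₃ ≤ K₂ ⊔ K₃ := le_sup_right
  obtain ⟨p, hp, hpeq⟩ := exists_lift_of_le (hK₁₂.trans le_sup_left : K₁ ≤ K₂ ⊔ K₃) hp₁
  obtain ⟨q, hq, hqeq⟩ := exists_lift_of_le (le_sup_left : K₂ ≤ K₂ ⊔ K₃) hq₂
  generalize K₂ ⊔ K₃ = K at hKfd hK₀K hK₃K p hp hpeq q hq hqeq
  have hpP : coeffMap (algebraMap K Qbar) p = coeffMap A.subtype P := hpeq.trans hp₁eq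
  have hqQ : coeffMap (algebraMap K Qbar) q = coeffMap A.subtype Q := hqeq.trans hq₂eq
  -- 4. coefficients in `A ∩ K`
  have hpc : ∀ n, p.coeff n ∈ AK A K := fun n => by
    rw [mem_AK_iff]
    have h := congrArg (fun x : LaurentSeries Qbar => x.coeff n) hpP
    simp only [coeffMap_coeff] at h
    have h' : ((p.coeff n : K) : Qbar) = ((P.coeff n : A) : Qbar) := h
    rw [h']
    exact (P.coeff n).2
  have hqc : ∀ n, q.coeff n ∈ AK A K := fun n => by
    rw [mem_AK_iff]
    have h := congrArg (fun x : LaurentSeries Qbar => x.coeff n) hqQ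
    simp only [coeffMap_coeff] at h
    have h' : ((q.coeff n : K) : Qbar) = ((Q.coeff n : A) : Qbar) := h
    rw [h']
    exact (Q.coeff n).2
  obtain ⟨PK, hPK⟩ := exists_lift_coeff (AK A K) p hpc
  obtain ⟨QK, hQK⟩ := exists_lift_coeff (AK A K) q hqc
  have hPKmem : coeffMap (AK A K).subtype PK ∈ FKg F₀ K := by rw [hPK]; exact hp
  have hQKmem : coeffMap (AK A K).subtype QK ∈ FKg F₀ K := by rw [hQK]; exact hq
  -- 5. reductions
  have hinclP : coeffMap (incl A K) PK = P := by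
    apply coeffMap_injective_of_injective A.subtype Subtype.val_injective
    rw [← hpP, ← hPK, coeffMap_coeffMap, coeffMap_coeffMap]
    exact coeffMap_congr (RingHom.ext fun x => rfl) PK
  have hinclQ : coeffMap (incl A K) QK = Q := by
    apply coeffMap_injective_of_injective A.subtype Subtype.val_injective
    rw [← hqQ, ← hQK, coeffMap_coeffMap, coeffMap_coeffMap]
    exact coeffMap_congr (RingHom.ext fun x => rfl) QK
  have hcomp : (resMap A K).comp (IsLocalRing.residue (AK A K))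
      = (IsLocalRing.residue A).comp (incl A K) :=
    RingHom.ext fun x => resMap_residue A K x
  have hredK : ∀ X : LaurentSeries (AK A K),
      coeffMap (resMap A K) (coeffMap (IsLocalRing.residue (AK A K)) X)
        = coeffMap (IsLocalRing.residue A) (coeffMap (incl A K) X) := fun X => by
    rw [coeffMap_coeffMap, coeffMap_coeffMap, hcomp]
  have hinj := coeffMap_injective_of_injective (resMap A K) (resMap_injective A K)
  have hred' : coeffMap (IsLocalRing.residue (AK A K)) PK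
      = coeffMap (IsLocalRing.residue (AK A K)) QK := by
    apply hinj
    rw [hredK, hredK, hinclP, hinclQ, hred]
  have hne' : coeffMap (IsLocalRing.residue (AK A K)) PK ≠ 0 := by
    intro h0
    apply hne
    rw [← hinclP, ← hredK, h0, map_zero]
  -- 6. base change of `p`, `q`
  have hbcP : baseChangeHom F₀ K ⟨coeffMap (AK A K).subtype PK, hPKmem⟩
      = (⟨coeffMap A.subtype P, hP⟩ : FBg F₀) := by
    apply Subtype.ext
    rw [coe_baseChangeHom]
    show coeffMap (algebraMap K Qbar) (coeffMap (AK A K).subtype PK) = _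
    rw [hPK, hpP]
  have hbcQ : baseChangeHom F₀ K ⟨coeffMap (AK A K).subtype QK, hQKmem⟩
      = (⟨coeffMap A.subtype Q, hQ⟩ : FBg F₀) := by
    apply Subtype.ext
    rw [coe_baseChangeHom]
    show coeffMap (algebraMap K Qbar) (coeffMap (AK A K).subtype QK) = _
    rw [hQK, hqQ]
  -- 7. the place hypothesis over `K`
  have hordK : ∀ w : Place K (FKg F₀ K),
      (m : ℤ) ∣ w.ord (⟨coeffMap (AK A K).subtype PK, hPKmem⟩ : FKg F₀ K) -
        w.ord (⟨coeffMap (AK A K).subtype QK, hQKmem⟩ : FKg F₀ K) := by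
    apply dvd_ord_sub_of_bar K hx _ _ m
    · intro v
      rw [hbcP, hbcQ]
      exact hord v
    · intro v hv
      rw [hbcP, hbcQ] at hv
      apply hU K hKfd hK₃K v
      rw [Finset.mem_union, Finsupp.mem_support_iff, Finsupp.mem_support_iff, hDP, hDQ]
      by_contra hcon
      rw [not_or, not_not, not_not] at hcon
      apply hv
      rw [hcon.1, hcon.2, sub_zero]
  -- 8. `(CL)` over `K` and root extraction
  obtain ⟨c, s, hc0, hs⟩ := hnum K hKfd hK₀K PK QK hPKmem hQKmem hred' hne' m hℓm hordK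
  obtain ⟨d, hd⟩ := IsAlgClosed.exists_pow_nat_eq ((c : K) : Qbar) hm
  have hcQ : ((c : K) : Qbar) ≠ 0 := by
    intro h0
    apply hc0
    exact_mod_cast h0
  have hd0 : d ≠ 0 := by
    rintro rfl
    rw [zero_pow hm.ne'] at hd
    exact hcQ hd.symm
  have hdF : algebraMap Qbar (FBg F₀) d ≠ 0 := by
    rw [Ne, map_eq_zero_iff _ (algebraMap Qbar (FBg F₀)).injective]
    exact hd0
  refine ⟨baseChangeHom F₀ K s * (algebraMap Qbar (FBg F₀) d)⁻¹, ?_⟩
  have h1 := congrArg (baseChangeHom F₀ K) hs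
  rw [map_mul, map_pow, hbcQ, Algebra.smul_def, map_mul, baseChangeHom_algebraMap, hbcP, ← hd,
    map_pow] at h1
  rw [mul_pow, inv_pow, mul_assoc, mul_comm _ (⟨coeffMap A.subtype Q, hQ⟩ : FBg F₀), ← mul_assoc,
    h1, mul_comm, ← mul_assoc, inv_mul_cancel₀ (pow_ne_zero m hdF), one_mul]

end Fermat.Agent.M48.DescG0
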