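/-
M48 (P1), chapter [RED1] / [ESRED-MODEL], chart group (helper5): **the special-fibre function field
`fieldG10C k M L` over the residue field `k` of `A ≤ ℚ̄` is the union of those over the residue
fields of the number fields.**  Twin of `ES/RED/ResidueUnion1`
(`modularFunctionFieldFullC κ M` ↦ `QModel8.fieldG10C κ M L`).

`k := ResidueField A`, `κ_K := ResidueField (A ∩ K)`, `ρ_K := resMap A K : κ_K →+* k`.
* `coeffMap_mem_fieldG10C₂ ρ M L` : `coeffMap ρ` maps `fieldG10C κ M L` into `fieldG10C k M L` for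
  every ring homomorphism `ρ : κ →+* k` of fields (two different fields; `QModel8` has `κ = k`);
* `exists_fieldG10C_descent` : every `y ∈ fieldG10C k M L` is `coeffMap ρ_K y₀` with
  `y₀ ∈ fieldG10C κ_K M L`, for all large number fields `K`;
* `coeffMap_resMap_mem_fieldG10C`.
(`exists_residue_descent` of `ResidueUnion1` is generic and is used as it is.)
-/
import Mathlib
import Fermat.Agent.M48.QModel8
import Fermat.Agent.ES.RED.ResidueUnion1

set_option autoImplicit false
set_option linter.style.haveILetI false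

open HahnSeries ModularCurve IntermediateField

noncomputable section

namespace Fermat.Agent.M48.ResidueUnionG5

open Fermat.Agent.RED.Interface4 Fermat.Agent.RED.DESC Fermat.Agent.M48.QModel8
open Fermat.Agent.ES.RED.ResidueUnion1

section Functoriality

variable {κ k : Type*} [Field κ] [Field k] (ρ : κ →+* k) (M L : ℕ)

/-- `coeffMap ρ` maps `fieldG10C κ M L` into `fieldG10C k M L`. -/
theorem coeffMap_mem_fieldG10C₂ {x : LaurentSeries κ} (hx : x ∈ fieldG10C κ M L) :
    coeffMap ρ x ∈ fieldG10C k M L := by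
  unfold fieldG10C at hx
  induction hx using IntermediateField.adjoin_induction with
  | mem y hy =>
      rcases hy with ⟨d, hne, hd, rfl⟩ | ⟨a, e, hne, he, rfl⟩
      · haveI := hne
        rw [coeffMap_qExpand', coeffMap_jqModC]
        exact jqd_mem_fieldG10C k M L hd
      · haveI := hne
        rw [coeffMap_qExpand', coeffMap_gqR]
        exact gqe_mem_fieldG10C k M L a he
  | algebraMap c =>
      rw [coeffMap_algebraMap']
      exact IntermediateField.algebraMap_mem _ _
  | add x y _ _ hx hy => rw [map_add]; exact add_mem hx hy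
  | inv x _ hx => rw [map_inv₀]; exact inv_mem hx
  | mul x y _ _ hx hy => rw [map_mul]; exact mul_mem hx hy

end Functoriality

variable (A : ValuationSubring Qbar)

/-- **The special-fibre function field over `k` is the union of those over the `κ_K`.** -/
theorem exists_fieldG10C_descent (M L : ℕ) (K₀ : IntermediateField ℚ Qbar)
    [FiniteDimensional ℚ K₀] {y : LaurentSeries (IsLocalRing.ResidueField A)}
    (hy : y ∈ fieldG10C (IsLocalRing.ResidueField A) M L) :
    ∃ K₁ : IntermediateField ℚ Qbar, FiniteDimensional ℚ K₁ ∧ K₀ ≤ K₁ ∧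
      ∀ K : IntermediateField ℚ Qbar, K₁ ≤ K →
        ∃ y₀ ∈ fieldG10C (IsLocalRing.ResidueField (AK A K)) M L,
          coeffMap (NumberFieldDVR27.resMap A K) y₀ = y := by
  unfold fieldG10C at hy
  induction hy using IntermediateField.adjoin_induction with
  | mem y hy =>
      rcases hy with ⟨d, hne, hd, rfl⟩ | ⟨a, e, hne, he, rfl⟩
      · haveI := hne
        refine ⟨K₀, inferInstance, le_rfl, fun K _ => ?_⟩
        refine ⟨qExpand _ d (jqModC _), jqd_mem_fieldG10C _ M L hd, ?_⟩
        rw [coeffMap_qExpand', coeffMap_jqModC]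
      · haveI := hne
        refine ⟨K₀, inferInstance, le_rfl, fun K _ => ?_⟩
        refine ⟨qExpand _ e (gqR _ M (a : ZMod M)), gqe_mem_fieldG10C _ M L a he, ?_⟩
        rw [coeffMap_qExpand', coeffMap_gqR]
  | algebraMap c =>
      obtain ⟨K₁, hfin, hK₀, H⟩ := exists_residue_descent A K₀ c
      refine ⟨K₁, hfin, hK₀, fun K hK => ?_⟩
      obtain ⟨c₀, hc₀⟩ := H K hK
      refine ⟨algebraMap _ _ c₀, IntermediateField.algebraMap_mem _ _, ?_⟩
      rw [coeffMap_algebraMap', hc₀]
  | add x y _ _ hx hy =>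
      obtain ⟨K₁, hfin₁, hK₁, H₁⟩ := hx
      obtain ⟨K₂, hfin₂, hK₂, H₂⟩ := hy
      have := hfin₁
      have := hfin₂
      refine ⟨K₁ ⊔ K₂, inferInstance, hK₁.trans le_sup_left, fun K hK => ?_⟩
      obtain ⟨x₀, hx₀, hx₀'⟩ := H₁ K (le_sup_left.trans hK)
      obtain ⟨y₀, hy₀, hy₀'⟩ := H₂ K (le_sup_right.trans hK)
      exact ⟨x₀ + y₀, add_mem hx₀ hy₀, by rw [map_add, hx₀', hy₀']⟩
  | inv x _ hx =>
      obtain ⟨K₁, hfin₁, hK₁, H₁⟩ := hx
      refine ⟨K₁, hfin₁, hK₁, fun K hK => ?_⟩
      obtain ⟨x₀, hx₀, hx₀'⟩ := H₁ K hK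
      exact ⟨x₀⁻¹, inv_mem hx₀, by rw [map_inv₀, hx₀']⟩
  | mul x y _ _ hx hy =>
      obtain ⟨K₁, hfin₁, hK₁, H₁⟩ := hx
      obtain ⟨K₂, hfin₂, hK₂, H₂⟩ := hy
      have := hfin₁
      have := hfin₂
      refine ⟨K₁ ⊔ K₂, inferInstance, hK₁.trans le_sup_left, fun K hK => ?_⟩
      obtain ⟨x₀, hx₀, hx₀'⟩ := H₁ K (le_sup_left.trans hK)
      obtain ⟨y₀, hy₀, hy₀'⟩ := H₂ K (le_sup_right.trans hK)
      exact ⟨x₀ * y₀, mul_mem hx₀ hy₀, by rw [map_mul, hx₀', hy₀']⟩

/-- `coeffMap ρ_K` maps `fieldG10C κ_K M L` into `fieldG10C k M L`. -/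
theorem coeffMap_resMap_mem_fieldG10C (M L : ℕ) (K : IntermediateField ℚ Qbar)
    {x : LaurentSeries (IsLocalRing.ResidueField (AK A K))}
    (hx : x ∈ fieldG10C (IsLocalRing.ResidueField (AK A K)) M L) :
    coeffMap (NumberFieldDVR27.resMap A K) x ∈ fieldG10C (IsLocalRing.ResidueField A) M L :=
  coeffMap_mem_fieldG10C₂ _ M L hx

end Fermat.Agent.M48.ResidueUnionG5
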