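/-
Programme M48, pillar (P1), chapter [RED1], special-fibre facts — helper9.  **The generator /
separability / degree facts of the special fibre of the model `fieldG10 M L` of
`X(Γ₁(M) ∩ Γ₀(M L))`, for the Hauptmodul coordinates `t^{±1}`, `t = tq · n e`** (twin of
`ES/RED/SpecialDegree25` + `SpecialGen25` + the special-fibre half of `SpecialInv25`, which are the
`Γ₀` case).  Conditional on `PurGauss1.IG1 M L` only.

* `baseChange_degrees` : base change of constants `φ : k → κ` preserves `[F : k(t)]` and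
  `[k(t) : k(j)]` as soon as `[F : k(j)] = ψ` on both sides;
* `gauss_degrees` (DVR `O ⊂ K`) : `[F̃_κ : κ(t̃)] = [F_K : K(t)]` ((LI) + (IRR) + (GB2));
* `relfinrank_residueField_eq` : `[fieldG10C κ_A M L : κ_A(j)] = #(SL(2,ℤ) ⧸ ±Γ)`;
* `relfinrank_tq_residueField` : for `A` over `ℓ ∤ M L`, `k = κ_A`: `t̃ ∈ F̃_k`, `j̃ ∈ k(t̃)`,
  `[F̃_k : k(t̃)] = [FK ℚ̄ M L : ℚ̄(t)]`, `[k(t̃) : k(j̃)] = [ℚ̄(t) : ℚ̄(j)]`;
* subtype forms: `tBar`, `isGen_tBar`, `isGen_tBar_inv`, `finrank_tBar_inv`;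
  `tRes`, `isGen_tRes`, `isSeparable_tRes`, `finrank_tRes`, `isGen_tRes_inv`, `isSeparable_tRes_inv`,
  `finrank_tRes_inv_eq`, `coe_tBar`, `coe_tBar_inv`, `coe_tRes_eq`, `coe_tRes_inv`.

Nothing is left unproved in this file.  Imported by no statement.
-/
import Mathlib
import Fermat.Agent.M48.GaussUnitG9
import Fermat.Agent.ES.RED.SpecialInv25
import Fermat.Agent.ES.KRON.KronInst10

set_option autoImplicit false
set_option linter.unusedSectionVars false
set_option linter.style.haveILetI false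
set_option synthInstance.maxHeartbeats 400000

noncomputable section

open HahnSeries ModularCurve IntermediateField
open scoped MatrixGroups

namespace Fermat.Agent.M48.SpecialDegG9

open Fermat.Agent.RED.PUR.GaussGen8 Fermat.Agent.RED.PUR.KtGauss8 Fermat.Agent.RED.PUR.G1Package8
open Fermat.Agent.RED.PUR.GaussBridge10 Fermat.Agent.RED.PUR.GaussInst25
open Fermat.Agent.RED.PUR Fermat.Agent.IG.PR
open Fermat.Agent.M48.DictIface4 Fermat.Agent.M48.QModel8 Fermat.Agent.M48.J1Defs8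
  Fermat.Agent.M48.PurGauss1 Fermat.Agent.M48.GaussUnitG9

/-! ### Base change of constants -/

section BaseChange

variable {k κ : Type*} [Field k] [Field κ] (φ : k →+* κ)

/-- **Base change of constants** for a tower `k(j) ⊂ k(t) ⊂ fieldG10C k M L`. -/
theorem baseChange_degrees (M L : ℕ) (ψ : ℕ) (hψ0 : ψ ≠ 0)
    (hk : relfinrank k⟮jqModC k⟯ (fieldG10C k M L) = ψ)
    (hκ : relfinrank κ⟮jqModC κ⟯ (fieldG10C κ M L) = ψ)
    (t : LaurentSeries k) (htE : t ∈ fieldG10C k M L) (hjt : jqModC k ∈ k⟮t⟯) :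
    coeffMap φ t ∈ fieldG10C κ M L ∧ jqModC κ ∈ κ⟮coeffMap φ t⟯ ∧
    relfinrank κ⟮coeffMap φ t⟯ (fieldG10C κ M L) = relfinrank k⟮t⟯ (fieldG10C k M L) ∧
    relfinrank κ⟮jqModC κ⟯ κ⟮coeffMap φ t⟯ = relfinrank k⟮jqModC k⟯ k⟮t⟯ := by
  have hΦ := DegBaseChange25.coeffMap_algebraMap' φ
  have ht'E : coeffMap φ t ∈ fieldG10C κ M L := coeffMap_mem_fieldG10C_of_hom φ M L htE
  have hjt' : jqModC κ ∈ κ⟮coeffMap φ t⟯ := by
    have := DegBaseChange25.map_mem_adjoin φ (coeffMap φ) hΦ {t} hjt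
    rwa [Set.image_singleton, coeffMap_jqModC] at this
  -- towers
  have h1 : k⟮jqModC k⟯ ≤ k⟮t⟯ := adjoin_simple_le_iff.mpr hjt
  have h2 : k⟮t⟯ ≤ fieldG10C k M L := adjoin_simple_le_iff.mpr htE
  have h1' : κ⟮jqModC κ⟯ ≤ κ⟮coeffMap φ t⟯ := adjoin_simple_le_iff.mpr hjt'
  have h2' : κ⟮coeffMap φ t⟯ ≤ fieldG10C κ M L := adjoin_simple_le_iff.mpr ht'E
  have hmul := relfinrank_mul_relfinrank h1 h2
  have hmul' := relfinrank_mul_relfinrank h1' h2'
  rw [hk] at hmul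
  rw [hκ] at hmul'
  have hd0 : relfinrank k⟮jqModC k⟯ k⟮t⟯ ≠ 0 := fun h0 => hψ0 (by rw [← hmul, h0, zero_mul])
  have hn0 : relfinrank k⟮t⟯ (fieldG10C k M L) ≠ 0 :=
    fun h0 => hψ0 (by rw [← hmul, h0, mul_zero])
  -- `n' ≤ n`
  have hn : relfinrank κ⟮coeffMap φ t⟯ (fieldG10C κ M L) ≤
      relfinrank k⟮t⟯ (fieldG10C k M L) := by
    refine FamilyForm20.relfinrank_le_of_family_bound h2' _ fun m c hc hli => ?_
    refine DegBaseChange25.family_bound_map φ (coeffMap φ) hΦ {t} (gens k M L) h2 _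
      (fun m c hc hli => FamilyForm20.le_relfinrank_of_family h2 m hn0 c hc hli) m c ?_ ?_
    · rw [image_gens]; exact hc
    · rw [Set.image_singleton]; exact hli
  -- `d' ≤ d`
  have hd : relfinrank κ⟮jqModC κ⟯ κ⟮coeffMap φ t⟯ ≤ relfinrank k⟮jqModC k⟯ k⟮t⟯ := by
    refine FamilyForm20.relfinrank_le_of_family_bound h1' _ fun m c hc hli => ?_
    refine DegBaseChange25.family_bound_map φ (coeffMap φ) hΦ {jqModC k} {t} h1 _
      (fun m c hc hli => FamilyForm20.le_relfinrank_of_family h1 m hd0 c hc hli) m c ?_ ?_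
    · rw [Set.image_singleton]; exact hc
    · rw [Set.image_singleton, coeffMap_jqModC]; exact hli
  obtain ⟨e1, e2⟩ := Fermat.Agent.ES.RED.SpecialDegree25.eq_of_mul_eq_of_le hψ0
    (by rw [mul_comm]; exact hmul) (by rw [mul_comm]; exact hmul') hn hd
  exact ⟨ht'E, hjt', e1, e2⟩

end BaseChange

/-! ### The Gauss step -/

section Gauss

variable {K : Type} [Field K] [CharZero K] (O : ValuationSubring K) [IsDiscreteValuationRing ↥O]
  {π : ↥O}

/-- **Degrees under the Gauss reduction**: `[F̃_κ : κ(t̃)] = [F_K : K(t)]`. -/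
theorem gauss_degrees (hπ : Irreducible π) (ℓ : ℕ) [Fact ℓ.Prime] [CharP (Res O) ℓ]
    (M L : ℕ) [NeZero M] [NeZero L] (hM : 2 ≤ M) (hℓ : ¬ ℓ ∣ M * L) (hIG : IG1 M L)
    (tG : ↥(gaussRing O)) (htE : (tG : LaurentSeries K) ∈ fieldG10C K M L)
    (hjt : jqModC K ∈ Kt O tG) (htr : Transcendental (Res O) (gaussRed O tG)) :
    gaussRed O tG ∈ fieldG10C (Res O) M L ∧ jqModC (Res O) ∈ kt O tG ∧
    relfinrank (kt O tG) (fieldG10C (Res O) M L) =
      relfinrank (Kt O tG) (fieldG10C K M L) := by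
  have hGB2 := resField_fieldG10C_eq O hπ ℓ M L hM hℓ hIG
  have ht'E : gaussRed O tG ∈ fieldG10C (Res O) M L := by
    rw [← hGB2]
    exact ⟨tG, tG.2, htE, rfl⟩
  have hjt' : jqModC (Res O) ∈ kt O tG := by
    have := gaussRed_mem_kt hπ htr hjt (jG O).2
    rwa [show (⟨jqModC K, (jG O).2⟩ : ↥(gaussRing O)) = jG O from rfl, gaussRed_jG] at this
  refine ⟨ht'E, hjt', ?_⟩
  obtain ⟨hn0, hdeg, b, hbE, hbli⟩ := degLe_irr_fieldG10C O hπ ℓ M L hM hℓ hIG tG htE hjt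
  have hTF : Kt O tG ≤ fieldG10C K M L := adjoin_simple_le_iff.mpr htE
  have hTF' : kt O tG ≤ fieldG10C (Res O) M L := adjoin_simple_le_iff.mpr ht'E
  have hJT' : (Res O)⟮jqModC (Res O)⟯ ≤ kt O tG := adjoin_simple_le_iff.mpr hjt'
  have hψ0 : Nat.card (SL(2, ℤ) ⧸ pm (Gamma10 M (M * L))) ≠ 0 :=
    G10Degree2.card_quotient_ne_zero M L hM
  have hmul' := relfinrank_mul_relfinrank hJT' hTF'
  rw [relfinrank_res_eq O hπ ℓ M L hM hℓ hIG] at hmul'
  have hn'0 : relfinrank (kt O tG) (fieldG10C (Res O) M L) ≠ 0 :=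
    fun h0 => hψ0 (by rw [← hmul', h0, mul_zero])
  apply le_antisymm
  · -- lift a basis
    obtain ⟨c, hc, hli⟩ := FamilyForm20.exists_basis_family hTF'
    have hres : ∀ i, ∃ x : ↥(gaussRing O),
        (x : LaurentSeries K) ∈ fieldG10C K M L ∧ gaussRed O x = c i := by
      intro i
      obtain ⟨f, hf, hfE, hfy⟩ := fieldG10C_le_resField O M L (hc i)
      exact ⟨⟨f, hf⟩, hfE, hfy⟩
    choose x hxE hx using hres
    have hliK := GaussDeg25.linearIndependent_of_gaussRed hπ htr x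
      (by
        have : (fun i => gaussRed O (x i)) = c := funext hx
        rw [this]; exact hli)
    exact hdeg _ _ hxE hliK
  · -- (IRR)
    refine FamilyForm20.le_relfinrank_of_family hTF' _ hn'0 (fun i => gaussRed O (b i)) ?_ hbli
    intro i
    rw [← hGB2]
    exact ⟨b i, (b i).2, hbE i, rfl⟩

end Gauss

/-! ### The concrete statement -/

section Concrete

open Fermat.Agent.RED.Interface4 (Qbar AK)
open Fermat.Agent.RED.DESC Fermat.Agent.RED.DESC.NumberFieldDVR27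
open Fermat.Agent.RED.BASE Fermat.Agent.RED.BASE.EtaQuot12

/-- descent of the Hauptmodul to number fields (twin of `TBridge15.exists_tq_mem`). -/
theorem exists_tq_mem (n e M L : ℕ) [NeZero n] (h : tq Qbar n e ∈ J1Defs8.FK Qbar M L) :
    ∃ K₁ : IntermediateField ℚ Qbar, FiniteDimensional ℚ K₁ ∧
      ∀ K : IntermediateField ℚ Qbar, K₁ ≤ K → tq ↥K n e ∈ J1Defs8.FK ↥K M L := by
  have : Algebra.IsAlgebraic ℚ Qbar := AlgebraicClosure.isAlgebraic ℚ
  obtain ⟨K₁, -, hfin, x', hx', hx⟩ :=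
    CoeffDescent1.exists_finite_descent (F₀ := fieldG10 M L) (⊥ : IntermediateField ℚ Qbar) h
  refine ⟨K₁, hfin, fun K hK => ?_⟩
  obtain ⟨x'', hx'', h''⟩ := CoeffDescent1.exists_lift_of_le hK hx'
  have hcm : coeffMap (algebraMap ↥K Qbar) x'' = coeffMap (algebraMap ↥K Qbar) (tq ↥K n e) := by
    rw [h'', hx, coeffMap_tq]
  have : x'' = tq ↥K n e := CoeffDescent1.coeffMap_injective (algebraMap ↥K Qbar) hcm
  rw [← this]
  exact hx''

variable (n e M L : ℕ) [NeZero n] [NeZero M] [NeZero L] (hM : 2 ≤ M) (ℓ : ℕ) [Fact ℓ.Prime]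
  (hℓ : ¬ ℓ ∣ M * L) (hIG : IG1 M L)
  (A : ValuationSubring Qbar) (hA : A.LiesOverPrime ℓ)

include hM hℓ hIG hA in
/-- **The degree of the special fibre over `κ_A(j)`.** -/
theorem relfinrank_residueField_eq :
    relfinrank (IsLocalRing.ResidueField ↥A)⟮jqModC (IsLocalRing.ResidueField ↥A)⟯
        (fieldG10C (IsLocalRing.ResidueField ↥A) M L) =
      Nat.card (SL(2, ℤ) ⧸ pm (Gamma10 M (M * L))) := by
  haveI : CharP (IsLocalRing.ResidueField ↥A) ℓ :=
    Fermat.Agent.ES.KRON.KronInst10.charP_residueField A Fact.out hA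
  refine le_antisymm ?_ (hIG ℓ (IsLocalRing.ResidueField ↥A) hℓ)
  let K : IntermediateField ℚ Qbar := ⊥
  haveI : FiniteDimensional ℚ K := by
    show FiniteDimensional ℚ (⊥ : IntermediateField ℚ Qbar)
    infer_instance
  haveI : IsDiscreteValuationRing ↥(AK A K) :=
    isDiscreteValuationRing_AK A K (Fact.out : ℓ.Prime).ne_zero hA
  haveI : CharP (Res (AK A K)) ℓ := charP_residueField_AK A K Fact.out hA
  obtain ⟨π, hπ⟩ := IsDiscreteValuationRing.exists_irreducible ↥(AK A K)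
  have h1 := relfinrank_res_eq (AK A K) hπ ℓ M L hM hℓ hIG
  have h2 := relfinrank_le_of_hom (resMap A K) M L
    (by rw [h1]; exact G10Degree2.card_quotient_ne_zero M L hM)
  rwa [h1] at h2

include hM hℓ hIG hA in
/-- **(MA4), degree half, for the `G10` model.**  For `A` over `ℓ ∤ M L`, `k = κ_A`,
`t = tq · n e` with `t ∈ FK ℚ̄ M L` and `ℚ̄(t) = Fbar_n` (BASE: `TGenBase n e`): `t̃ ∈ F̃_k`,
`j̃ ∈ k(t̃)`, `[F̃_k : k(t̃)] = [FK ℚ̄ M L : ℚ̄(t)]` and `[k(t̃) : k(j̃)] = [ℚ̄(t) : ℚ̄(j)]`. -/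
theorem relfinrank_tq_residueField (hmem : tq Qbar n e ∈ J1Defs8.FK Qbar M L)
    (hgen : Interface12.TGenBase n e) :
    tq (IsLocalRing.ResidueField ↥A) n e ∈ fieldG10C (IsLocalRing.ResidueField ↥A) M L ∧
    jqModC (IsLocalRing.ResidueField ↥A) ∈
        (IsLocalRing.ResidueField ↥A)⟮tq (IsLocalRing.ResidueField ↥A) n e⟯ ∧
    relfinrank (IsLocalRing.ResidueField ↥A)⟮tq (IsLocalRing.ResidueField ↥A) n e⟯
        (fieldG10C (IsLocalRing.ResidueField ↥A) M L) =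
      relfinrank Qbar⟮tq Qbar n e⟯ (J1Defs8.FK Qbar M L) ∧
    relfinrank (IsLocalRing.ResidueField ↥A)⟮jqModC (IsLocalRing.ResidueField ↥A)⟯
        (IsLocalRing.ResidueField ↥A)⟮tq (IsLocalRing.ResidueField ↥A) n e⟯ =
      relfinrank Qbar⟮jqModC Qbar⟯ Qbar⟮tq Qbar n e⟯ := by
  obtain ⟨K₁, hfin₁, hK₁⟩ := exists_tq_mem n e M L hmem
  obtain ⟨K₂, hfin₂, hK₂⟩ := JInKt25.exists_j_mem_adjoin (n := n) (e := e) hgen
  haveI := hfin₁
  haveI := hfin₂
  set K : IntermediateField ℚ Qbar := K₁ ⊔ K₂ with hK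
  haveI : FiniteDimensional ℚ K := by rw [hK]; infer_instance
  have htK : tq ↥K n e ∈ fieldG10C ↥K M L := by
    rw [fieldG10C_eq_laurentBaseChange]
    exact hK₁ K le_sup_left
  have hjK : jqModC ↥K ∈ (↥K)⟮tq ↥K n e⟯ := hK₂ K le_sup_right
  haveI : IsDiscreteValuationRing ↥(AK A K) :=
    isDiscreteValuationRing_AK A K (Fact.out : ℓ.Prime).ne_zero hA
  haveI : CharP (Res (AK A K)) ℓ := charP_residueField_AK A K Fact.out hA
  haveI : CharP (IsLocalRing.ResidueField ↥A) ℓ :=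
    charP_of_injective_ringHom (resMap_injective A K) ℓ
  obtain ⟨π, hπ⟩ := IsDiscreteValuationRing.exists_irreducible ↥(AK A K)
  set ψ := Nat.card (SL(2, ℤ) ⧸ pm (Gamma10 M (M * L))) with hψdef
  have hψ0 : ψ ≠ 0 := G10Degree2.card_quotient_ne_zero M L hM
  have hψK : relfinrank (↥K)⟮jqModC ↥K⟯ (fieldG10C ↥K M L) = ψ := by
    have h := G10Degree2.relfinrank_FK M L hM ↥K
    rwa [FK_eq] at h
  have hψQ : relfinrank Qbar⟮jqModC Qbar⟯ (fieldG10C Qbar M L) = ψ := by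
    have h := G10Degree2.relfinrank_FK M L hM Qbar
    rwa [FK_eq] at h
  have hψκ : relfinrank (Res (AK A K))⟮jqModC (Res (AK A K))⟯ (fieldG10C (Res (AK A K)) M L) = ψ :=
    relfinrank_res_eq (AK A K) hπ ℓ M L hM hℓ hIG
  have hψk := relfinrank_residueField_eq M L hM ℓ hℓ hIG A hA
  -- Gauss step
  obtain ⟨g1, g2, g3⟩ := gauss_degrees (AK A K) hπ ℓ M L hM hℓ hIG (TBridge15.tG (AK A K) n e)
    htK hjK (TBridge15.transcendental_gaussRed_tG (AK A K) n e)
  rw [TBridge15.gaussRed_tG] at g1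
  have g2' : jqModC (Res (AK A K)) ∈ (Res (AK A K))⟮tq (Res (AK A K)) n e⟯ := by
    have := g2
    rwa [show kt (AK A K) (TBridge15.tG (AK A K) n e) =
      (Res (AK A K))⟮gaussRed (AK A K) (TBridge15.tG (AK A K) n e)⟯ from rfl,
      TBridge15.gaussRed_tG] at this
  have g3' : relfinrank (Res (AK A K))⟮tq (Res (AK A K)) n e⟯
      (fieldG10C (Res (AK A K)) M L) =
      relfinrank (↥K)⟮tq ↥K n e⟯ (fieldG10C ↥K M L) := by
    have := g3
    rwa [show kt (AK A K) (TBridge15.tG (AK A K) n e) =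
      (Res (AK A K))⟮gaussRed (AK A K) (TBridge15.tG (AK A K) n e)⟯ from rfl,
      TBridge15.gaussRed_tG] at this
  -- `K → Qbar`
  obtain ⟨-, -, b3, b4⟩ := baseChange_degrees (algebraMap ↥K Qbar) M L ψ hψ0 hψK hψQ
    (tq ↥K n e) htK hjK
  rw [coeffMap_tq] at b3 b4
  -- `κ → k`
  obtain ⟨c1, c2, c3, c4⟩ := baseChange_degrees (resMap A K) M L ψ hψ0 hψκ hψk
    (tq (Res (AK A K)) n e) g1 g2'
  rw [coeffMap_tq] at c1 c2 c3 c4
  refine ⟨c1, c2, ?_, ?_⟩
  · rw [c3, g3', ← b3, FK_eq]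
  · rw [c4, b4]
    -- `[κ(t̃) : κ(j̃)] = [K(t) : K(j)]` from the two products `= ψ`
    have h1 : (↥K)⟮jqModC ↥K⟯ ≤ (↥K)⟮tq ↥K n e⟯ := adjoin_simple_le_iff.mpr hjK
    have h2 : (↥K)⟮tq ↥K n e⟯ ≤ fieldG10C ↥K M L := adjoin_simple_le_iff.mpr htK
    have h1' : (Res (AK A K))⟮jqModC (Res (AK A K))⟯ ≤ (Res (AK A K))⟮tq (Res (AK A K)) n e⟯ :=
      adjoin_simple_le_iff.mpr g2'
    have h2' : (Res (AK A K))⟮tq (Res (AK A K)) n e⟯ ≤ fieldG10C (Res (AK A K)) M L :=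
      adjoin_simple_le_iff.mpr g1
    have hmul := relfinrank_mul_relfinrank h1 h2
    have hmul' := relfinrank_mul_relfinrank h1' h2'
    rw [hψK] at hmul
    rw [hψκ, g3'] at hmul'
    have hn0 : relfinrank (↥K)⟮tq ↥K n e⟯ (fieldG10C ↥K M L) ≠ 0 :=
      fun h0 => hψ0 (by rw [← hmul, h0, mul_zero])
    exact Nat.eq_of_mul_eq_mul_right (Nat.pos_of_ne_zero hn0) (hmul'.trans hmul.symm)

end Concrete

/-! ### Subtype forms: the inputs of `RedZG9.ChartInputsG` -/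

section Subtype

open Fermat.Agent.RED.Interface4 (Qbar AK)
open Fermat.Agent.RED.BASE Fermat.Agent.RED.BASE.EtaQuot12
open Fermat.Agent.X0 Fermat.Agent.ES.RED.SpecialGen25 Fermat.Agent.ES.RED.SpecialInv25
  Fermat.Agent.ES.RED.SumOrdSep15

variable (n e M L : ℕ) [NeZero n] [NeZero M] [NeZero L] (hM : 2 ≤ M) (ℓ : ℕ) [Fact ℓ.Prime]
  (hℓ : ¬ ℓ ∣ M * L) (hIG : IG1 M L)
  (hmem : tq Qbar n e ∈ J1Defs8.FK Qbar M L) (hgen : Interface12.TGenBase n e)
  (A : ValuationSubring Qbar) (hA : A.LiesOverPrime ℓ)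

/-! #### upstairs -/

/-- The Hauptmodul as an element of `FK ℚ̄ M L` (`= Red1Iface4.tF1 M L hmem`). -/
def tBar : ↥(J1Defs8.FK Qbar M L) := ⟨tq Qbar n e, hmem⟩

@[simp] theorem coe_tBar' :
    ((tBar n e M L hmem : ↥(J1Defs8.FK Qbar M L)) : LaurentSeries Qbar) = tq Qbar n e := rfl

include hM hmem hgen in
theorem relfinrank_tq_bar_ne_zero : relfinrank Qbar⟮tq Qbar n e⟯ (J1Defs8.FK Qbar M L) ≠ 0 := by
  have hle : Qbar⟮tq Qbar n e⟯ ≤ J1Defs8.FK Qbar M L := adjoin_simple_le_iff.mpr hmem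
  have hj : Qbar⟮jqModC Qbar⟯ ≤ Qbar⟮tq Qbar n e⟯ := by
    obtain ⟨K₂, hfin₂, hK₂⟩ := JInKt25.exists_j_mem_adjoin (n := n) (e := e) hgen
    have hjK := hK₂ K₂ le_rfl
    have := DegBaseChange25.map_mem_adjoin (algebraMap ↥K₂ Qbar)
      (coeffMap (algebraMap ↥K₂ Qbar))
      (DegBaseChange25.coeffMap_algebraMap' (algebraMap ↥K₂ Qbar)) {tq ↥K₂ n e} hjK
    rw [Set.image_singleton, coeffMap_jqModC, coeffMap_tq] at this
    exact adjoin_simple_le_iff.mpr this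
  have hmul := relfinrank_mul_relfinrank hj hle
  rw [G10Degree2.relfinrank_FK M L hM Qbar] at hmul
  intro h0
  rw [h0, mul_zero] at hmul
  exact G10Degree2.card_quotient_ne_zero M L hM hmul.symm

include hM hgen in
/-- **`t` is a transcendental generator of `FK ℚ̄ M L`.** -/
theorem isGen_tBar : FF.IsGen Qbar (tBar n e M L hmem) :=
  isGen_of_relfinrank_ne_zero _ _ (TBridge15.transcendental_tq Qbar n e)
    (relfinrank_tq_bar_ne_zero n e M L hM hmem hgen)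

include hM hgen in
theorem isGen_tBar_inv : FF.IsGen Qbar (tBar n e M L hmem)⁻¹ :=
  (isGen_tBar n e M L hM hmem hgen).inv

theorem finrank_tBar_inv :
    Module.finrank ↥(Qbar⟮(tBar n e M L hmem)⁻¹⟯ : IntermediateField Qbar ↥(J1Defs8.FK Qbar M L))
        ↥(J1Defs8.FK Qbar M L) =
      Module.finrank ↥(Qbar⟮tBar n e M L hmem⟯ : IntermediateField Qbar ↥(J1Defs8.FK Qbar M L))
        ↥(J1Defs8.FK Qbar M L) := by
  rw [FF.adjoin_inv]

/-- the `q`-expansion of `t` is `A`-integral. -/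
theorem coe_tBar :
    ((tBar n e M L hmem : ↥(J1Defs8.FK Qbar M L)) : LaurentSeries Qbar) =
      coeffMap A.subtype (tq ↥A n e) := by
  rw [coeffMap_tq]
  rfl

/-- the `q`-expansion of `t⁻¹` is `A`-integral. -/
theorem coe_tBar_inv :
    (((tBar n e M L hmem)⁻¹ : ↥(J1Defs8.FK Qbar M L)) : LaurentSeries Qbar) =
      coeffMap A.subtype (tqInv ↥A n e) := by
  rw [coeffMap_tqInv, tqInv_eq_inv]
  rfl

/-! #### the special fibre -/

/-- The Hauptmodul `t̃ = tq k n e` as an element of the special-fibre field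
`F̃ = fieldG10C k M L`, `k = κ_A`. -/
def tRes : ↥(fieldG10C (IsLocalRing.ResidueField ↥A) M L) :=
  ⟨tq (IsLocalRing.ResidueField ↥A) n e,
    (relfinrank_tq_residueField n e M L hM ℓ hℓ hIG A hA hmem hgen).1⟩

@[simp] theorem coe_tRes :
    ((tRes n e M L hM ℓ hℓ hIG hmem hgen A hA : ↥(fieldG10C (IsLocalRing.ResidueField ↥A) M L)) :
      LaurentSeries (IsLocalRing.ResidueField ↥A)) = tq (IsLocalRing.ResidueField ↥A) n e := rfl

theorem finrank_tBar_eq_relfinrank :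
    Module.finrank ↥(Qbar⟮tBar n e M L hmem⟯ : IntermediateField Qbar ↥(J1Defs8.FK Qbar M L))
        ↥(J1Defs8.FK Qbar M L) =
      relfinrank Qbar⟮tq Qbar n e⟯ (J1Defs8.FK Qbar M L) :=
  finrank_adjoin_simple_eq_relfinrank (J1Defs8.FK Qbar M L) (tBar n e M L hmem)

include hM hℓ hIG hmem hgen hA in
theorem relfinrank_tRes_ne_zero :
    relfinrank (IsLocalRing.ResidueField ↥A)⟮tq (IsLocalRing.ResidueField ↥A) n e⟯
      (fieldG10C (IsLocalRing.ResidueField ↥A) M L) ≠ 0 := by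
  rw [(relfinrank_tq_residueField n e M L hM ℓ hℓ hIG A hA hmem hgen).2.2.1]
  exact relfinrank_tq_bar_ne_zero n e M L hM hmem hgen

/-- **`t̃` is a transcendental generator of the special-fibre field.** -/
theorem isGen_tRes :
    FF.IsGen (IsLocalRing.ResidueField ↥A) (tRes n e M L hM ℓ hℓ hIG hmem hgen A hA) :=
  isGen_of_relfinrank_ne_zero _ _ (TBridge15.transcendental_tq (IsLocalRing.ResidueField ↥A) n e)
    (relfinrank_tRes_ne_zero n e M L hM ℓ hℓ hIG hmem hgen A hA)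

/-- **`deg t̃ = deg t`**: `[F̃ : k(t̃)] = [FK ℚ̄ M L : ℚ̄(t)]`, both computed inside the fields. -/
theorem finrank_tRes :
    Module.finrank
        ↥((IsLocalRing.ResidueField ↥A)⟮tRes n e M L hM ℓ hℓ hIG hmem hgen A hA⟯ :
          IntermediateField (IsLocalRing.ResidueField ↥A)
            ↥(fieldG10C (IsLocalRing.ResidueField ↥A) M L))
        ↥(fieldG10C (IsLocalRing.ResidueField ↥A) M L) =
      Module.finrank ↥(Qbar⟮tBar n e M L hmem⟯ : IntermediateField Qbar ↥(J1Defs8.FK Qbar M L))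
        ↥(J1Defs8.FK Qbar M L) := by
  rw [finrank_adjoin_simple_eq_relfinrank, finrank_tBar_eq_relfinrank]
  exact (relfinrank_tq_residueField n e M L hM ℓ hℓ hIG A hA hmem hgen).2.2.1

/-- **`F̃ / k(t̃)` is separable.** -/
theorem isSeparable_tRes :
    Algebra.IsSeparable
      ↥((IsLocalRing.ResidueField ↥A)⟮tRes n e M L hM ℓ hℓ hIG hmem hgen A hA⟯ :
        IntermediateField (IsLocalRing.ResidueField ↥A)
          ↥(fieldG10C (IsLocalRing.ResidueField ↥A) M L))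
      ↥(fieldG10C (IsLocalRing.ResidueField ↥A) M L) := by
  haveI : IsAlgClosed (IsLocalRing.ResidueField ↥A) :=
    Fermat.Agent.ES.KRON.KronInst10.isAlgClosed_residueField A
  haveI : CharP (IsLocalRing.ResidueField ↥A) ℓ :=
    Fermat.Agent.ES.KRON.KronInst10.charP_residueField A Fact.out hA
  have hsep := (Fermat.Agent.ES.RED.SpecialDegree25.finite_and_separable_of_order
    (k := IsLocalRing.ResidueField ↥A) ℓ
    (Fermat.Agent.RED.PUR.TqOrder26.order_tq (IsLocalRing.ResidueField ↥A) n e) _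
    (adjoin_simple_le _ (tRes n e M L hM ℓ hℓ hIG hmem hgen A hA))
    (relfinrank_tRes_ne_zero n e M L hM ℓ hℓ hIG hmem hgen A hA)).2
  exact isSeparable_adjoin_simple_of_extendScalars (h := hsep) _
    (tRes n e M L hM ℓ hℓ hIG hmem hgen A hA)

theorem isGen_tRes_inv :
    FF.IsGen (IsLocalRing.ResidueField ↥A) (tRes n e M L hM ℓ hℓ hIG hmem hgen A hA)⁻¹ :=
  (isGen_tRes n e M L hM ℓ hℓ hIG hmem hgen A hA).inv

theorem isSeparable_tRes_inv :
    Algebra.IsSeparable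
      ↥((IsLocalRing.ResidueField ↥A)⟮(tRes n e M L hM ℓ hℓ hIG hmem hgen A hA)⁻¹⟯ :
        IntermediateField (IsLocalRing.ResidueField ↥A)
          ↥(fieldG10C (IsLocalRing.ResidueField ↥A) M L))
      ↥(fieldG10C (IsLocalRing.ResidueField ↥A) M L) := by
  haveI := isSeparable_tRes n e M L hM ℓ hℓ hIG hmem hgen A hA
  exact isSeparable_inv (K := (IsLocalRing.ResidueField ↥A))
    (tRes n e M L hM ℓ hℓ hIG hmem hgen A hA)

/-- `[F̃ : k(t̃⁻¹)] = [FK ℚ̄ M L : ℚ̄(t⁻¹)]`. -/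
theorem finrank_tRes_inv_eq :
    Module.finrank
        ↥((IsLocalRing.ResidueField ↥A)⟮(tRes n e M L hM ℓ hℓ hIG hmem hgen A hA)⁻¹⟯ :
          IntermediateField (IsLocalRing.ResidueField ↥A)
            ↥(fieldG10C (IsLocalRing.ResidueField ↥A) M L))
        ↥(fieldG10C (IsLocalRing.ResidueField ↥A) M L) =
      Module.finrank
        ↥(Qbar⟮(tBar n e M L hmem)⁻¹⟯ : IntermediateField Qbar ↥(J1Defs8.FK Qbar M L))
        ↥(J1Defs8.FK Qbar M L) := by
  rw [FF.adjoin_inv, FF.adjoin_inv]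
  exact finrank_tRes n e M L hM ℓ hℓ hIG hmem hgen A hA

/-- the reduction of the `A`-expansion `tq ↥A n e` of `t` is `t̃`. -/
theorem coe_tRes_eq :
    ((tRes n e M L hM ℓ hℓ hIG hmem hgen A hA : ↥(fieldG10C (IsLocalRing.ResidueField ↥A) M L)) :
      LaurentSeries (IsLocalRing.ResidueField ↥A)) =
      coeffMap (IsLocalRing.residue ↥A) (tq ↥A n e) := by
  rw [coeffMap_tq]
  rfl

/-- the reduction of the `A`-expansion `tqInv ↥A n e` of `t⁻¹` is `t̃⁻¹`. -/
theorem coe_tRes_inv :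
    (((tRes n e M L hM ℓ hℓ hIG hmem hgen A hA)⁻¹ :
      ↥(fieldG10C (IsLocalRing.ResidueField ↥A) M L)) :
      LaurentSeries (IsLocalRing.ResidueField ↥A)) =
      coeffMap (IsLocalRing.residue ↥A) (tqInv ↥A n e) := by
  rw [coeffMap_tqInv, tqInv_eq_inv]
  rfl

end Subtype

end Fermat.Agent.M48.SpecialDegG9
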