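/-
M48 (P1), [RED1], LEVELS/PEEL front half (helper7): **(L4) fractions for the two chart rings of the
model of `Γ₁(M) ∩ Γ₀(M L)`** — twin of `ES/RED/FracRed16` (section `Concrete`; the level-`K` part
`FracRed16.exists_frac_chartRed` is generic and reused).

`A ≤ ℚ̄` over `ℓ ∤ M L`, `k = ResidueField A`, `F̃ = fieldG10C k M L`, `t = tF1 M L h` the Hauptmodul
in `F1b M L`.  For every `y ∈ F̃` there are `Ya, Yb ∈ A((q))` whose images in `ℚ̄((q))` lie in the
chart ring `chart A t` (resp. `chart A t⁻¹`), with `red Yb ≠ 0` and `y · red Yb = red Ya`: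
`exists_frac_red`, `exists_frac_red_inv`.  Input: the Igusa degree literal `PurGauss1.IG1 M L`
(through helper1's `PurGauss1.degLe_irr_laurentBaseChange` and helper9's
`GaussUnitG9.resField_FK_eq`).

Imported by no statement.
-/
import Fermat.Agent.ES.RED.FracRed16
import Fermat.Agent.M48.Red1Iface4
import Fermat.Agent.M48.GaussUnitG9
import Fermat.Agent.M48.SpecialDegG9
import Fermat.Agent.M48.ChartUnionG5
import Fermat.Agent.M48.ResidueUnionG5

set_option autoImplicit false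
set_option linter.unusedSectionVars false
set_option linter.style.haveILetI false
set_option linter.style.longLine false

noncomputable section

namespace Fermat.Agent.M48.FracRed7

open Polynomial HahnSeries ModularCurve

open Fermat.Agent.RED.Interface4 Fermat.Agent.RED.DESC Fermat.Agent.RED.DESC.NumberFieldDVR27
open Fermat.Agent.RED.PUR.GaussGen8 Fermat.Agent.RED.PUR.KtGauss8 Fermat.Agent.RED.PUR.G1Package8
  Fermat.Agent.RED.PUR.GaussBridge10 Fermat.Agent.RED.PUR.ChartGeneric22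
  Fermat.Agent.ES.RED.FibreSurj17
open Fermat.Agent.RED.BASE.EtaQuot12 Fermat.Agent.RED.BASE.Interface12
open Fermat.Agent.X0
open Fermat.Agent.M48.DictIface4 Fermat.Agent.M48.QModel8 Fermat.Agent.M48.Red1Iface4
open Fermat.Agent.M48.PurGauss1
open Fermat.Agent.ES.RED.FracRed16 (exists_frac_chartRed exists_tq_mul_eq_one)

variable (A : ValuationSubring Qbar) {M L : ℕ} [NeZero M] [NeZero L]
  (K : IntermediateField ℚ Qbar)

/-- helper4's `bcK1` is lead's generic `DescG0.baseChangeHom` at `F₀ = fieldG10 M L`. -/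
theorem bcK1_eq_baseChangeHom :
    bcK1 M L K = Fermat.Agent.M48.DescG0.baseChangeHom (fieldG10 M L) K := rfl

/-- The Hauptmodul over `K` maps to the Hauptmodul over `ℚbar` (same as `PurOff1.bcK1_eq_tF1`,
repeated here to keep the import closure small). -/
theorem bcK1_tq {n e : ℕ} [NeZero n] (h : TMem1 n e M L) (t : F1K M L K)
    (ht : (t : LaurentSeries K) = tq K n e) : bcK1 M L K t = tF1 M L h := by
  apply Subtype.ext
  rw [coe_bcK1, ht]
  exact coeffMap_tq ↥K (algebraMap K Qbar) n e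

/-- **From level `K` to `A`.**  For a coordinate `s ∈ K·fieldG10 M L` with integral `q`-expansion and
the Gauss package at level `K`: every `y₀ ∈ fieldG10C κ_K M L` is, after base change to `k`, a
quotient of reductions of `A`-integral series lying in the chart `chart A (bcK1 s)`. -/
theorem exists_frac_of_level [FiniteDimensional ℚ K] (ℓ : ℕ) [Fact ℓ.Prime]
    (hA : A.LiesOverPrime ℓ) (hM : 2 ≤ M) (hℓ : ¬ ℓ ∣ M * L) (hIG : IG1 M L)
    [IsDiscreteValuationRing ↥(AK A K)] {π : ↥(AK A K)} (hπ : Irreducible π)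
    (s : ↥(F1K M L K)) (hs : (s : LaurentSeries K) ∈ gaussRing (AK A K))
    (htr : Transcendental (Res (AK A K)) (gaussRed (AK A K) ⟨(s : LaurentSeries K), hs⟩))
    {n : ℕ} (hdeg : DegLe (AK A K) (F1K M L K) ⟨(s : LaurentSeries K), hs⟩ n)
    (hirr : Irr (AK A K) (F1K M L K) ⟨(s : LaurentSeries K), hs⟩ n)
    (hsT : ∃ T : LaurentSeries ↥(AK A K), embK (AK A K) T = (s : LaurentSeries K))
    {y₀ : LaurentSeries (Res (AK A K))}
    (hy₀ : y₀ ∈ fieldG10C (Res (AK A K)) M L) :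
    ∃ (Ya Yb : LaurentSeries ↥A) (ha : coeffMap A.subtype Ya ∈ F1b M L)
      (hb : coeffMap A.subtype Yb ∈ F1b M L),
      (⟨_, ha⟩ : ↥(F1b M L)) ∈ chart ↥A (bcK1 M L K s) ∧
      (⟨_, hb⟩ : ↥(F1b M L)) ∈ chart ↥A (bcK1 M L K s) ∧
      coeffMap (IsLocalRing.residue ↥A) Yb ≠ 0 ∧
      coeffMap (resMap A K) y₀ * coeffMap (IsLocalRing.residue ↥A) Yb =
        coeffMap (IsLocalRing.residue ↥A) Ya := by
  have hE : F1K M L K ≤ fracField (AK A K) := laurentBaseChange_le_fracField (AK A K) M L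
  have hres : y₀ ∈ resField (AK A K) (F1K M L K) := by
    have h := Fermat.Agent.M48.GaussUnitG9.resField_FK_eq A K ℓ hA M L hM hℓ hIG
    have h' : resField (AK A K) (F1K M L K) = fieldG10C (Res (AK A K)) M L := h
    rw [h']
    exact hy₀
  obtain ⟨a, b, hb0, hab⟩ := exists_frac_chartRed hπ hE s hs htr hdeg hirr hres
  -- integral series of the elements of the chart
  have key : ∀ x : ↥(chart ↥(AK A K) s), ∃ (Y : LaurentSeries ↥A)
      (hY : coeffMap A.subtype Y ∈ F1b M L),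
      (⟨_, hY⟩ : ↥(F1b M L)) ∈ chart ↥A (bcK1 M L K s) ∧
      coeffMap (IsLocalRing.residue ↥A) Y = coeffMap (resMap A K) (chartRed hπ hE s hs x) := by
    intro x
    obtain ⟨Y₀, hY₀⟩ := Fermat.Agent.ES.RED.IntegralQExp1.exists_embK_of_mem_chart (AK A K)
      (F1K M L K) hE hsT x.2
    have h1 : coeffMap A.subtype (coeffMap (incl A K) Y₀) =
        ((bcK1 M L K (x : ↥(F1K M L K)) : ↥(F1b M L)) : LaurentSeries Qbar) := by
      rw [Fermat.Agent.ES.RED.GaussUnit25.coeffMap_subtype_incl, hY₀, coe_bcK1]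
    refine ⟨coeffMap (incl A K) Y₀, by rw [h1]; exact (bcK1 M L K (x : ↥(F1K M L K))).2, ?_, ?_⟩
    · have h2 : (⟨coeffMap A.subtype (coeffMap (incl A K) Y₀),
          by rw [h1]; exact (bcK1 M L K (x : ↥(F1K M L K))).2⟩ : ↥(F1b M L)) =
          bcK1 M L K (x : ↥(F1K M L K)) := Subtype.ext h1
      rw [h2]
      exact Fermat.Agent.M48.ChartUnionG5.baseChangeHom_mem_chart A (fieldG10 M L) K s x x.2
    · rw [Fermat.Agent.ES.RED.GaussUnit25.coeffMap_residue_incl]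
      congr 1
      have h3 : chartRed hπ hE s hs x =
          gaussRed (AK A K) ⟨embK (AK A K) Y₀, embK_mem (AK A K) Y₀⟩ := by
        rw [chartRed_apply]
        congr 1
        exact Subtype.ext hY₀.symm
      rw [h3, gaussRed_embK]
  obtain ⟨Ya, ha, hac, hared⟩ := key a
  obtain ⟨Yb, hb, hbc, hbred⟩ := key b
  refine ⟨Ya, Yb, ha, hb, hac, hbc, ?_, ?_⟩
  · rw [hbred]
    intro h0
    apply hb0
    exact CoeffDescent1.coeffMap_injective_of_injective (resMap A K) (resMap_injective A K)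
      (h0.trans (map_zero _).symm)
  · rw [hbred, hared, ← map_mul, hab]

/-- The Gauss package at a large number field `K`, for the Hauptmodul, plus a prescribed descent of
`y`. -/
theorem exists_level (n e : ℕ) [NeZero n] (ℓ : ℕ) [Fact ℓ.Prime] (hM : 2 ≤ M)
    (hℓ : ¬ ℓ ∣ M * L) (hIG : IG1 M L)
    (hmem : TMem1 n e M L) (hgen : TGenBase n e) (hA : A.LiesOverPrime ℓ)
    {y : LaurentSeries (IsLocalRing.ResidueField ↥A)}
    (hy : y ∈ fieldG10C (IsLocalRing.ResidueField ↥A) M L) :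
    ∃ (K : IntermediateField ℚ Qbar) (_ : FiniteDimensional ℚ K)
      (_ : IsDiscreteValuationRing ↥(AK A K)) (π : ↥(AK A K)) (_ : Irreducible π)
      (t : ↥(F1K M L K)) (_ : (t : LaurentSeries K) = tq K n e)
      (ht : (t : LaurentSeries K) ∈ gaussRing (AK A K))
      (_ : Transcendental (Res (AK A K)) (gaussRed (AK A K) ⟨(t : LaurentSeries K), ht⟩))
      (m : ℕ) (_ : DegLe (AK A K) (F1K M L K) ⟨(t : LaurentSeries K), ht⟩ m)
      (_ : Irr (AK A K) (F1K M L K) ⟨(t : LaurentSeries K), ht⟩ m),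
      ∃ y₀ ∈ fieldG10C (Res (AK A K)) M L, coeffMap (resMap A K) y₀ = y := by
  have hℓp : ℓ.Prime := Fact.out
  obtain ⟨K₁, hK₁, hT⟩ := Fermat.Agent.M48.SpecialDegG9.exists_tq_mem n e M L hmem
  obtain ⟨K₂, hK₂, hJ⟩ := Fermat.Agent.RED.BASE.JInKt25.exists_j_mem_adjoin n e hgen
  haveI := hK₁
  haveI := hK₂
  obtain ⟨K, hKfd, hle, hdesc⟩ :=
    Fermat.Agent.M48.ResidueUnionG5.exists_fieldG10C_descent A M L (K₁ ⊔ K₂) hy
  haveI := hKfd
  have hle1 : K₁ ≤ K := le_trans le_sup_left hle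
  have hle2 : K₂ ≤ K := le_trans le_sup_right hle
  have hdvr : IsDiscreteValuationRing ↥(AK A K) := isDiscreteValuationRing_AK A K hℓp.ne_zero hA
  obtain ⟨ϖ, hϖ⟩ := IsDiscreteValuationRing.exists_irreducible ↥(AK A K)
  haveI : CharP (Res (AK A K)) ℓ := charP_residueField_AK A K hℓp hA
  have htE : tq K n e ∈ F1K M L K := hT K hle1
  have ht : tq K n e ∈ gaussRing (AK A K) :=
    Fermat.Agent.RED.ModelTargets4.tq_mem_gaussRing (AK A K) n e
  have htr : Transcendental (Res (AK A K)) (gaussRed (AK A K) ⟨tq K n e, ht⟩) :=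
    Fermat.Agent.RED.ModelTargets4.transcendental_gaussRed_tq (AK A K) n e
  have hjt : jqModC K ∈ Kt (AK A K) ⟨tq K n e, ht⟩ := hJ K hle2
  obtain ⟨-, hdeg, hirr⟩ := degLe_irr_laurentBaseChange (AK A K) hϖ ℓ M L hM hℓ hIG
    ⟨tq K n e, ht⟩ htE hjt
  exact ⟨K, hKfd, hdvr, ϖ, hϖ, ⟨tq K n e, htE⟩, rfl, ht, htr, _, hdeg, hirr, hdesc K le_rfl⟩

/-- **(L4), chart `t`.**  Every element of `F̃ = fieldG10C k M L` is a quotient of reductions of
`A`-integral series lying in the chart `chart A t` (`t` the Hauptmodul). -/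
theorem exists_frac_red (n e : ℕ) [NeZero n] (ℓ : ℕ) [Fact ℓ.Prime] (hM : 2 ≤ M)
    (hℓ : ¬ ℓ ∣ M * L) (hIG : IG1 M L)
    (hmem : TMem1 n e M L) (hgen : TGenBase n e) (hA : A.LiesOverPrime ℓ)
    {y : LaurentSeries (IsLocalRing.ResidueField ↥A)}
    (hy : y ∈ fieldG10C (IsLocalRing.ResidueField ↥A) M L) :
    ∃ (Ya Yb : LaurentSeries ↥A) (ha : coeffMap A.subtype Ya ∈ F1b M L)
      (hb : coeffMap A.subtype Yb ∈ F1b M L),
      (⟨_, ha⟩ : ↥(F1b M L)) ∈ chart ↥A (tF1 M L hmem) ∧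
      (⟨_, hb⟩ : ↥(F1b M L)) ∈ chart ↥A (tF1 M L hmem) ∧
      coeffMap (IsLocalRing.residue ↥A) Yb ≠ 0 ∧
      y * coeffMap (IsLocalRing.residue ↥A) Yb = coeffMap (IsLocalRing.residue ↥A) Ya := by
  obtain ⟨K, hKfd, hdvr, ϖ, hϖ, t, htq, ht, htr, m, hdeg, hirr, y₀, hy₀, rfl⟩ :=
    exists_level A n e ℓ hM hℓ hIG hmem hgen hA hy
  haveI := hKfd
  haveI := hdvr
  have hsT : ∃ T : LaurentSeries ↥(AK A K), embK (AK A K) T = (t : LaurentSeries K) :=
    ⟨tq ↥(AK A K) n e, by rw [htq]; exact coeffMap_tq ↥(AK A K) (AK A K).subtype n e⟩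
  have hbc : bcK1 M L K t = tF1 M L hmem :=
    bcK1_tq K hmem t htq
  have := exists_frac_of_level A K ℓ hA hM hℓ hIG hϖ t ht htr hdeg hirr hsT hy₀
  rwa [hbc] at this

/-- **(L4), chart `t⁻¹`.** -/
theorem exists_frac_red_inv (n e : ℕ) [NeZero n] (ℓ : ℕ) [Fact ℓ.Prime] (hM : 2 ≤ M)
    (hℓ : ¬ ℓ ∣ M * L) (hIG : IG1 M L)
    (hmem : TMem1 n e M L) (hgen : TGenBase n e) (hA : A.LiesOverPrime ℓ)
    {y : LaurentSeries (IsLocalRing.ResidueField ↥A)}
    (hy : y ∈ fieldG10C (IsLocalRing.ResidueField ↥A) M L) :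
    ∃ (Ya Yb : LaurentSeries ↥A) (ha : coeffMap A.subtype Ya ∈ F1b M L)
      (hb : coeffMap A.subtype Yb ∈ F1b M L),
      (⟨_, ha⟩ : ↥(F1b M L)) ∈ chart ↥A (tF1 M L hmem)⁻¹ ∧
      (⟨_, hb⟩ : ↥(F1b M L)) ∈ chart ↥A (tF1 M L hmem)⁻¹ ∧
      coeffMap (IsLocalRing.residue ↥A) Yb ≠ 0 ∧
      y * coeffMap (IsLocalRing.residue ↥A) Yb = coeffMap (IsLocalRing.residue ↥A) Ya := by
  obtain ⟨K, hKfd, hdvr, ϖ, hϖ, t, htq, ht, htr, m, hdeg, hirr, y₀, hy₀, rfl⟩ :=
    exists_level A n e ℓ hM hℓ hIG hmem hgen hA hy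
  haveI := hKfd
  haveI := hdvr
  have hsT : ∃ T : LaurentSeries ↥(AK A K),
      embK (AK A K) T = ((t⁻¹ : ↥(F1K M L K)) : LaurentSeries K) := by
    obtain ⟨T, hT⟩ := exists_tq_mul_eq_one ↥(AK A K) n e
    refine ⟨T, ?_⟩
    have h1 : tq K n e * embK (AK A K) T = 1 := by
      have := congrArg (embK (AK A K)) hT
      rw [map_mul, map_one] at this
      rw [← this]
      congr 1
      exact (coeffMap_tq ↥(AK A K) (AK A K).subtype n e).symm
    show embK (AK A K) T = ((t : LaurentSeries K))⁻¹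
    rw [htq]
    exact eq_inv_of_mul_eq_one_right h1
  have hbc : bcK1 M L K t⁻¹ = (tF1 M L hmem)⁻¹ := by
    rw [map_inv₀, bcK1_tq K hmem t htq]
  have := exists_frac_of_level A K ℓ hA hM hℓ hIG hϖ t⁻¹ (tinv_mem_gaussRing t ht htr)
    (transcendental_inv t ht htr) (degLe_inv t ht htr hdeg) (irr_inv t ht htr hirr) hsT hy₀
  rwa [hbc] at this

end Fermat.Agent.M48.FracRed7
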