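/-
Programme M48, pillar (P1), chapter [RED1], layer (R3) — helper9.  **The Galois layer of the
reduction map, GENERIC in the two function fields**: twin of `ES/RED/GaloisContract21` (modular
section), `GaloisGlobal21` (modular section) and `GaloisInst21`, with

  `F = L · F₀`  for ANY `F₀ ≤ ℚ((q))`      (old: `F₀ = modularFunctionFieldFull M`),
  `Ft = Fk`     for ANY `Fk ≤ κ_A((q))`     (old: `modularFunctionFieldFullC κ_A M`),

so that it applies to the `G10` model (`F₀ = fieldG10 M L`, `Fk = QModel8.fieldG10C κ_A M L`).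

The action on the special fibre is NOT tied to a particular construction: `IsCoeffSemi h ψ` says
that the semilinear automorphism `h` of `Fk` is the coefficientwise action of `ψ ∈ Aut(κ_A)`
(`coe (h • y) = coeffMap ψ y`); such an `h` is unique (`IsCoeffSemi.unique`) and exists as soon as
`Fk` is stable under coefficientwise ring homomorphisms (`coeffSemiOf`, `isCoeffSemi_coeffSemiOf`;
for `fieldG10C`: `QModel8.coeffMap_mem_fieldG10C`).

* `CoeffChartG S` : the four elementary facts about a chart (chart ring = integral closure of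
  `A[s]`, `s` has rational coefficients, `A`-integral `q`-expansions, `red` = coefficientwise
  reduction) — literally `GaloisInst21.CoeffChart` with `Fk` general;
* `CoeffChartG.sym` : the chart symmetry of `g ∈ D_A`;
* **`r_smul_decomposition`** : `T.r (g • P) = h • T.r P` for `g ∈ D_A`, `IsCoeffSemi h (psiRes A g)`;
* **`r_smul_of_mem_inertia`** : `T.r (τ • P) = T.r P`;
* **`r_smul_of_isFrobeniusAt`** : `T.r (σ • P) = h • T.r P` for every `h` with
  `IsCoeffSemi h (frobeniusEquiv κ_A ℓ)` (the coefficientwise Frobenius);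
* `mapDomain_smul` : the divisor form;
* `chartSymOfAlgEquiv`, **`r_smul_algEquiv`** : the same for a pair of LINEAR automorphisms
  `(δ, δt)` of `(F, Ft)` commuting with `red` (diamond automorphisms).
-/
import Mathlib
import Fermat.Agent.ES.RED.GaloisGlobal21
import Fermat.Agent.ES.RED.GaloisChart21

set_option autoImplicit false
set_option linter.unusedSectionVars false
set_option synthInstance.maxHeartbeats 400000
set_option linter.style.haveILetI false

noncomputable section

open AlgebraicCurve ModularCurve HahnSeries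

namespace Fermat.Agent.M48.GaloisR3G9

open Fermat.Agent.X0.FF Fermat.Agent.ES.RED.PlaceValue13 Fermat.Agent.ES.RED.Contract8
  Fermat.Agent.ES.RED.TwoCharts8 Fermat.Agent.ES.RED.GaloisContract21
  Fermat.Agent.ES.RED.GaloisRed21 Fermat.Agent.RED.PUR.ChartGeneric22

/-! ### Coefficientwise semilinear automorphisms of a subfield of `k((q))` -/

section CoeffSemi

variable {k : Type*} [Field k] {Fk : IntermediateField k (LaurentSeries k)}

/-- `h` is the coefficientwise action of `ψ ∈ Aut(k)` on `Fk ≤ k((q))`. -/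
def IsCoeffSemi (h : SemilinearAut k ↥Fk) (ψ : k ≃+* k) : Prop :=
  ∀ y : ↥Fk, ((h • y : ↥Fk) : LaurentSeries k) = coeffMap (ψ : k →+* k) (y : LaurentSeries k)

theorem IsCoeffSemi.baseAut_eq {h : SemilinearAut k ↥Fk} {ψ : k ≃+* k} (hh : IsCoeffSemi h ψ) :
    SemilinearAut.baseAut h = ψ := by
  ext a
  have h1 := hh (algebraMap k ↥Fk a)
  rw [SemilinearAut.smul_algebraMap] at h1
  have h2 : ((algebraMap k ↥Fk (SemilinearAut.baseAut h a) : ↥Fk) : LaurentSeries k) =
      algebraMap k (LaurentSeries k) (SemilinearAut.baseAut h a) := rfl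
  have h3 : ((algebraMap k ↥Fk a : ↥Fk) : LaurentSeries k) = algebraMap k (LaurentSeries k) a := rfl
  rw [h2, h3, coeffMap_algebraMap] at h1
  exact (algebraMap k (LaurentSeries k)).injective h1

theorem IsCoeffSemi.unique {h h' : SemilinearAut k ↥Fk} {ψ : k ≃+* k} (hh : IsCoeffSemi h ψ)
    (hh' : IsCoeffSemi h' ψ) : h = h' := by
  refine Subtype.ext (Prod.ext (RingEquiv.ext fun y => Subtype.ext ?_) ?_)
  · exact (hh y).trans (hh' y).symm
  · exact hh.baseAut_eq.trans hh'.baseAut_eq.symm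

theorem isCoeffSemi_one : IsCoeffSemi (1 : SemilinearAut k ↥Fk) (RingEquiv.refl k) := by
  intro y
  rw [one_smul]
  have : ((RingEquiv.refl k : k ≃+* k) : k →+* k) = RingHom.id k := rfl
  rw [this, coeffMap_id]

variable (Fk)

/-- the ring automorphism of `Fk` induced by a ring automorphism of the coefficients. -/
def coeffAutOf (hFk : ∀ (σ : k →+* k) (y : LaurentSeries k), y ∈ Fk → coeffMap σ y ∈ Fk)
    (σ : k ≃+* k) : ↥Fk ≃+* ↥Fk where
  toFun x := ⟨coeffMap (σ : k →+* k) x, hFk _ _ x.2⟩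
  invFun x := ⟨coeffMap (σ.symm : k →+* k) x, hFk _ _ x.2⟩
  left_inv x := Subtype.ext (by
    show coeffMap (σ.symm : k →+* k) (coeffMap (σ : k →+* k) x) = x
    rw [coeffMap_coeffMap]
    have : (σ.symm : k →+* k).comp (σ : k →+* k) = RingHom.id k :=
      RingHom.ext fun a => σ.symm_apply_apply a
    rw [this, coeffMap_id])
  right_inv x := Subtype.ext (by
    show coeffMap (σ : k →+* k) (coeffMap (σ.symm : k →+* k) x) = x
    rw [coeffMap_coeffMap]
    have : (σ : k →+* k).comp (σ.symm : k →+* k) = RingHom.id k :=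
      RingHom.ext fun a => σ.apply_symm_apply a
    rw [this, coeffMap_id])
  map_mul' x y := Subtype.ext (map_mul (coeffMap (σ : k →+* k)) _ _)
  map_add' x y := Subtype.ext (map_add (coeffMap (σ : k →+* k)) _ _)

/-- **the coefficientwise semilinear automorphism of `Fk / k` induced by `σ ∈ Aut k`**, for a
subfield `Fk ≤ k((q))` stable under coefficientwise ring homomorphisms. -/
def coeffSemiOf (hFk : ∀ (σ : k →+* k) (y : LaurentSeries k), y ∈ Fk → coeffMap σ y ∈ Fk)
    (σ : k ≃+* k) : SemilinearAut k ↥Fk :=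
  ⟨(coeffAutOf Fk hFk σ, σ), fun a => Subtype.ext (by
    show coeffMap (σ : k →+* k) (algebraMap k (LaurentSeries k) a) = _
    rw [coeffMap_algebraMap]
    rfl)⟩

theorem isCoeffSemi_coeffSemiOf
    (hFk : ∀ (σ : k →+* k) (y : LaurentSeries k), y ∈ Fk → coeffMap σ y ∈ Fk) (σ : k ≃+* k) :
    IsCoeffSemi (coeffSemiOf Fk hFk σ) σ := fun _ => rfl

end CoeffSemi

/-! ### The chart symmetry of `g ∈ D_A` for a coefficientwise chart -/

section Chart

variable {L : Type*} [Field L] [Algebra ℚ L] [IsAlgClosed L] {A : ValuationSubring L}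
  {F₀ : IntermediateField ℚ (LaurentSeries ℚ)} {x : ↥(laurentBaseChange L F₀)} {hx : IsGen L x}
  {Fk : IntermediateField (kA A) (LaurentSeries (kA A))}

set_option maxHeartbeats 1000000 in
/-- **the chart symmetry induced by `g ∈ D_A`**, from elementary hypotheses (twin of
`GaloisContract21.ChartSym.ofDecomposition`). -/
def chartSymOfDecomposition (S : ChartSpec A hx ↥Fk) (g : A.decompositionSubgroup ℚ)
    (h : SemilinearAut (kA A) ↥Fk) (hh : IsCoeffSemi h (psiRes A g))
    (hB : ∀ b : ↥(laurentBaseChange L F₀), b ∈ S.B →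
      arithmeticGalois F₀ (g : L ≃ₐ[ℚ] L) • b ∈ S.B)
    (hB' : ∀ b : ↥(laurentBaseChange L F₀), b ∈ S.B →
      (arithmeticGalois F₀ (g : L ≃ₐ[ℚ] L))⁻¹ • b ∈ S.B)
    (hs : arithmeticGalois F₀ (g : L ≃ₐ[ℚ] L) • S.s = S.s)
    (hred : ∀ b : ↥S.B,
      ((S.red ⟨arithmeticGalois F₀ (g : L ≃ₐ[ℚ] L) • (b : ↥(laurentBaseChange L F₀)),
          hB b b.2⟩ : ↥Fk) : LaurentSeries (kA A)) =
        coeffMap ((psiRes A g : kA A ≃+* kA A) : kA A →+* kA A)
          ((S.red b : ↥Fk) : LaurentSeries (kA A))) :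
    ChartSym S (arithmeticGalois F₀ (g : L ≃ₐ[ℚ] L)) h where
  τB :=
    { toFun := fun b => ⟨arithmeticGalois F₀ (g : L ≃ₐ[ℚ] L) • (b : ↥(laurentBaseChange L F₀)),
        hB b b.2⟩
      invFun := fun b => ⟨(arithmeticGalois F₀ (g : L ≃ₐ[ℚ] L))⁻¹ •
        (b : ↥(laurentBaseChange L F₀)), hB' b b.2⟩
      left_inv := fun b => Subtype.ext (inv_smul_smul _ _)
      right_inv := fun b => Subtype.ext (smul_inv_smul _ _) }
  coe_τB _ := rfl
  red_τB b := Subtype.ext ((hred b).trans (hh _).symm)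
  smul_s := hs
  base_mem a := (sigmaA A g a).2
  res_base a := by
    rw [hh.baseAut_eq]
    rfl

/-- the coefficientwise action of `g ∈ D_A` preserves the chart `chart ↥A s` when `s` has
`g`-invariant coefficients. -/
theorem smul_mem_chart (g : A.decompositionSubgroup ℚ) {s : ↥(laurentBaseChange L F₀)}
    (hs : arithmeticGalois F₀ (g : L ≃ₐ[ℚ] L) • s = s) {b : ↥(laurentBaseChange L F₀)}
    (hb : b ∈ chart ↥A s) : arithmeticGalois F₀ (g : L ≃ₐ[ℚ] L) • b ∈ chart ↥A s :=
  map_mem_chart_of_semilinear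
    ((arithmeticRingAut F₀ (g : L ≃ₐ[ℚ] L) : _ ≃+* _) : _ →+* _) (sigmaA A g)
    (fun a => arithmeticRingAut_algebraMap F₀ (g : L ≃ₐ[ℚ] L) (a : L)) hs hb

theorem arithmeticGalois_inv_coe (g : A.decompositionSubgroup ℚ) :
    (arithmeticGalois F₀ (g : L ≃ₐ[ℚ] L))⁻¹ =
      arithmeticGalois F₀ ((g⁻¹ : A.decompositionSubgroup ℚ) : L ≃ₐ[ℚ] L) := by
  rw [← map_inv]
  rfl

/-- the four elementary facts about a chart needed for (R3) (`GaloisInst21.CoeffChart` for a general
special-fibre field `Fk`). -/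
structure CoeffChartG (S : ChartSpec A hx ↥Fk) : Prop where
  mem_iff : ∀ b : ↥(laurentBaseChange L F₀), b ∈ S.B ↔ b ∈ chart ↥A S.s
  smul_s : ∀ σ : L ≃ₐ[ℚ] L, arithmeticGalois F₀ σ • S.s = S.s
  exists_series : ∀ b : ↥S.B, ∃ Y : LaurentSeries ↥A,
    coeffMap A.subtype Y = ((b : ↥(laurentBaseChange L F₀)) : LaurentSeries L)
  red_eq : ∀ (b : ↥S.B) (Y : LaurentSeries ↥A),
    coeffMap A.subtype Y = ((b : ↥(laurentBaseChange L F₀)) : LaurentSeries L) →
    ((S.red b : ↥Fk) : LaurentSeries (kA A)) = coeffMap (resA A) Y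

/-- **the chart symmetry of `g ∈ D_A` for a coefficientwise chart.** -/
def CoeffChartG.sym {S : ChartSpec A hx ↥Fk} (hS : CoeffChartG (F₀ := F₀) S)
    (g : A.decompositionSubgroup ℚ) (h : SemilinearAut (kA A) ↥Fk)
    (hh : IsCoeffSemi h (psiRes A g)) :
    ChartSym S (arithmeticGalois F₀ (g : L ≃ₐ[ℚ] L)) h :=
  chartSymOfDecomposition S g h hh
    (fun b hb => (hS.mem_iff _).mpr (smul_mem_chart g (hS.smul_s _) ((hS.mem_iff b).mp hb)))
    (fun b hb => by
      rw [arithmeticGalois_inv_coe]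
      exact (hS.mem_iff _).mpr (smul_mem_chart g⁻¹ (hS.smul_s _) ((hS.mem_iff b).mp hb)))
    (hS.smul_s _)
    (fun b => by
      obtain ⟨Y, hY⟩ := hS.exists_series b
      rw [hS.red_eq b Y hY, ← coeffMap_residue_sigmaA A g Y]
      refine hS.red_eq _ (coeffMap (sigmaA A g) Y) ?_
      rw [coeffMap_subtype_sigmaA, hY]
      rfl)

end Chart

/-! ### (R3) for the global reduction map of two coefficientwise charts -/

section Global

open Fermat.Agent.ES.RED.GaloisGlobal21

variable {L : Type*} [Field L] [Algebra ℚ L] [IsAlgClosed L] {A : ValuationSubring L}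
  {F₀ : IntermediateField ℚ (LaurentSeries ℚ)} {x : ↥(laurentBaseChange L F₀)} {hx : IsGen L x}
  {Fk : IntermediateField (kA A) (LaurentSeries (kA A))}
  (T : TwoCharts A hx ↥Fk) [IsAlgClosed (kA A)] {xt : ↥Fk} (hxt : IsGen (kA A) xt)
  (h0 : CoeffChartG (F₀ := F₀) T.S0) (h1 : CoeffChartG (F₀ := F₀) T.S1)

include hxt h0 h1 in
/-- **(R3), decomposition group**: `r (g P) = h (r P)` for the coefficientwise action `h` of the
automorphism of `κ_A` induced by `g`. -/
theorem r_smul_decomposition (g : A.decompositionSubgroup ℚ) (h : SemilinearAut (kA A) ↥Fk)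
    (hh : IsCoeffSemi h (psiRes A g)) (P : Place L ↥(laurentBaseChange L F₀)) :
    T.r (arithmeticGalois F₀ (g : L ≃ₐ[ℚ] L) • P) = h • T.r P :=
  r_smul T hxt (h0.sym g h hh) (h1.sym g h hh) P

include hxt h0 h1 in
/-- **(R3), inertia**: `r (τ P) = r P`. -/
theorem r_smul_of_mem_inertia {τ : L ≃ₐ[ℚ] L} (hτ : τ ∈ A.inertiaSubgroupIn ℚ)
    (P : Place L ↥(laurentBaseChange L F₀)) : T.r (arithmeticGalois F₀ τ • P) = T.r P := by
  obtain ⟨hmem, hψ⟩ := psiRes_eq_one_of_mem_inertia A hτ
  have hh : IsCoeffSemi (1 : SemilinearAut (kA A) ↥Fk) (psiRes A ⟨τ, hmem⟩) := by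
    rw [hψ]
    exact isCoeffSemi_one
  have := r_smul_decomposition T hxt h0 h1 ⟨τ, hmem⟩ 1 hh P
  rwa [one_smul] at this

include hxt h0 h1 in
/-- **(R3), Frobenius**: `r (σ P) = Fr (r P)`, `Fr` = ANY semilinear automorphism of `Fk` which is
the coefficientwise Frobenius. -/
theorem r_smul_of_isFrobeniusAt {σ : L ≃ₐ[ℚ] L} {ℓ : ℕ} [ExpChar (kA A) ℓ] [PerfectField (kA A)]
    (hσ : A.IsFrobeniusAt σ ℓ) (h : SemilinearAut (kA A) ↥Fk)
    (hh : IsCoeffSemi h (frobeniusEquiv (kA A) ℓ)) (P : Place L ↥(laurentBaseChange L F₀)) :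
    T.r (arithmeticGalois F₀ σ • P) = h • T.r P := by
  have hψ : psiRes A ⟨σ, hσ.mem_decompositionSubgroup⟩ = frobeniusEquiv (kA A) ℓ := by
    ext y
    rw [psiRes_of_isFrobeniusAt A hσ y, frobeniusEquiv_apply, frobenius_def]
  exact r_smul_decomposition T hxt h0 h1 ⟨σ, hσ.mem_decompositionSubgroup⟩ h (hψ ▸ hh) P

end Global

/-! ### Divisor form -/

section Divisors

variable {K F k Ft : Type*} [Field K] [Field F] [Algebra K F] [Field k] [Field Ft] [Algebra k Ft]

/-- if `r (g • P) = h • r P` for all places `P`, then `r_* (g • D) = h • r_* D` on divisors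
(`GaloisRed21.mapDomain_smul` for arbitrary function fields). -/
theorem mapDomain_smul (r : Place K F → Place k Ft) (g : SemilinearAut K F)
    (h : SemilinearAut k Ft) (hgh : ∀ P, r (g • P) = h • r P) (D : Divisor K F) :
    Finsupp.mapDomain r (g • D) = h • Finsupp.mapDomain r D := by
  rw [SemilinearAut.divisor_smul_def, SemilinearAut.divisor_smul_def, ← Finsupp.mapDomain_comp,
    ← Finsupp.mapDomain_comp]
  congr 1
  funext P
  exact hgh P

end Divisors

/-! ### Linear automorphisms (diamonds) -/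

section Linear

variable {L : Type*} [Field L] [IsAlgClosed L] {A : ValuationSubring L}
variable {F : Type*} [Field F] [Algebra L F] {x : F} {hx : IsGen L x}
variable {Ft : Type*} [Field Ft] [Algebra (kA A) Ft]

/-- **the chart symmetry of a pair of linear automorphisms `(δ, δt)` of `(F, Ft)`** preserving the
chart ring, fixing the coordinate and commuting with `red`. -/
def chartSymOfAlgEquiv (S : ChartSpec A hx Ft) (δ : F ≃ₐ[L] F) (δt : Ft ≃ₐ[kA A] Ft)
    (hB : ∀ b : F, b ∈ S.B → δ b ∈ S.B) (hB' : ∀ b : F, b ∈ S.B → δ.symm b ∈ S.B)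
    (hs : δ S.s = S.s)
    (hred : ∀ b : ↥S.B, S.red ⟨δ (b : F), hB b b.2⟩ = δt (S.red b)) :
    ChartSym S (SemilinearAut.ofAlgAut δ) (SemilinearAut.ofAlgAut δt) where
  τB :=
    { toFun := fun b => ⟨δ (b : F), hB b b.2⟩
      invFun := fun b => ⟨δ.symm (b : F), hB' b b.2⟩
      left_inv := fun _ => Subtype.ext (δ.symm_apply_apply _)
      right_inv := fun _ => Subtype.ext (δ.apply_symm_apply _) }
  coe_τB _ := rfl
  red_τB b := hred b
  smul_s := hs
  base_mem a := a.2
  res_base _ := rfl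

/-- a linear automorphism fixing `s` preserves the chart `chart ↥A s`. -/
theorem algEquiv_mem_chart [Algebra ↥A F] [IsScalarTower ↥A L F] (δ : F ≃ₐ[L] F) {s : F}
    (hs : δ s = s) {b : F} (hb : b ∈ chart ↥A s) : δ b ∈ chart ↥A s :=
  map_mem_chart_of_semilinear ((δ : F ≃+* F) : F →+* F) (RingHom.id ↥A)
    (fun a => by
      show δ (algebraMap ↥A F a) = algebraMap ↥A F a
      rw [IsScalarTower.algebraMap_apply ↥A L F, δ.commutes]) hs hb

variable (T : TwoCharts A hx Ft) [IsAlgClosed (kA A)] {xt : Ft} (hxt : IsGen (kA A) xt)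

include hxt in
/-- **(R3) for a pair of linear automorphisms**: `r (δ P) = δt (r P)`. -/
theorem r_smul_algEquiv (δ : F ≃ₐ[L] F) (δt : Ft ≃ₐ[kA A] Ft)
    (T0 : ChartSym T.S0 (SemilinearAut.ofAlgAut δ) (SemilinearAut.ofAlgAut δt))
    (T1 : ChartSym T.S1 (SemilinearAut.ofAlgAut δ) (SemilinearAut.ofAlgAut δt))
    (P : Place L F) :
    T.r (SemilinearAut.ofAlgAut δ • P) = SemilinearAut.ofAlgAut δt • T.r P :=
  Fermat.Agent.ES.RED.GaloisGlobal21.r_smul T hxt T0 T1 P

end Linear

end Fermat.Agent.M48.GaloisR3G9
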