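/-
M48 (P1), [RED1], LEVELS/PEEL front half (helper7): **the field `L4` of
`LevelContract22.ChartLevels`** for any chart `S : Contract8.ChartSpec A hx Ft` at `F = ↥(F1b M L)`,
`Ft = ↥(fieldG10C k M L)` whose ring contains the integral closure of `A[s]` (`s = t` or `t⁻¹`, `t`
the Hauptmodul) and whose `red` is the coefficientwise reduction of `A`-integral `q`-expansions
(`Red1Iface4.CoeffChartG` / `GaloisR3G9.CoeffChartG`).  Twin of `ES/RED/L4Inst16`.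

Imported by no statement.
-/
import Fermat.Agent.M48.FracRed7
import Fermat.Agent.M48.GaloisR3G9

set_option autoImplicit false
set_option linter.unusedSectionVars false
set_option linter.style.haveILetI false
set_option linter.style.longLine false

noncomputable section

namespace Fermat.Agent.M48.L4Inst7

open HahnSeries ModularCurve
open Fermat.Agent.X0.FF Fermat.Agent.ES.RED.Contract8
open Fermat.Agent.RED.Interface4 Fermat.Agent.RED.PUR.ChartGeneric22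
open Fermat.Agent.RED.BASE.Interface12
open Fermat.Agent.M48.DictIface4 Fermat.Agent.M48.QModel8 Fermat.Agent.M48.Red1Iface4
open Fermat.Agent.M48.PurGauss1

variable {A : ValuationSubring Qbar} {M L : ℕ} [NeZero M] [NeZero L]
  {x : ↥(F1b M L)} {hx : IsGen Qbar x}

/-- **`L4`**: every element of `F̃` is a quotient of reductions of elements of the chart ring. -/
theorem chartLevels_L4 (S : ChartSpec A hx ↥(fieldG10C (kA A) M L))
    (hmemB : ∀ b : ↥(F1b M L), b ∈ chart ↥A S.s → b ∈ S.B)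
    (hred : ∀ (b : ↥S.B) (Y : LaurentSeries ↥A),
      coeffMap A.subtype Y = ((b : ↥(F1b M L)) : LaurentSeries Qbar) →
      ((S.red b : ↥(fieldG10C (kA A) M L)) : LaurentSeries (kA A)) =
        coeffMap (resA A) Y)
    (n e : ℕ) [NeZero n] (ℓ : ℕ) [Fact ℓ.Prime] (hM : 2 ≤ M) (hℓ : ¬ ℓ ∣ M * L) (hIG : IG1 M L)
    (hmem : TMem1 n e M L) (hgen : TGenBase n e) (hA : A.LiesOverPrime ℓ)
    (hs : S.s = tF1 M L hmem ∨ S.s = (tF1 M L hmem)⁻¹) :
    ∀ y : ↥(fieldG10C (kA A) M L),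
      ∃ a b : ↥S.B, S.red b ≠ 0 ∧ y * S.red b = S.red a := by
  intro y
  have key : ∃ (Ya Yb : LaurentSeries ↥A) (ha : coeffMap A.subtype Ya ∈ F1b M L)
      (hb : coeffMap A.subtype Yb ∈ F1b M L),
      (⟨_, ha⟩ : ↥(F1b M L)) ∈ chart ↥A S.s ∧ (⟨_, hb⟩ : ↥(F1b M L)) ∈ chart ↥A S.s ∧
      coeffMap (IsLocalRing.residue ↥A) Yb ≠ 0 ∧
      (y : LaurentSeries (kA A)) * coeffMap (IsLocalRing.residue ↥A) Yb =
        coeffMap (IsLocalRing.residue ↥A) Ya := by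
    rcases hs with hs | hs
    · rw [hs]
      exact FracRed7.exists_frac_red A n e ℓ hM hℓ hIG hmem hgen hA y.2
    · rw [hs]
      exact FracRed7.exists_frac_red_inv A n e ℓ hM hℓ hIG hmem hgen hA y.2
  obtain ⟨Ya, Yb, ha, hb, hac, hbc, hb0, hab⟩ := key
  refine ⟨⟨⟨_, ha⟩, hmemB _ hac⟩, ⟨⟨_, hb⟩, hmemB _ hbc⟩, ?_, ?_⟩
  · intro h0
    apply hb0
    have := hred ⟨⟨_, hb⟩, hmemB _ hbc⟩ Yb rfl
    rw [h0] at this
    exact this.symm
  · apply Subtype.ext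
    rw [MulMemClass.coe_mul, hred ⟨⟨_, hb⟩, hmemB _ hbc⟩ Yb rfl,
      hred ⟨⟨_, ha⟩, hmemB _ hac⟩ Ya rfl]
    exact hab

/-- `L4` from helper4's `Red1Iface4.CoeffChartG`. -/
theorem chartLevels_L4_of_coeffChartG (S : ChartSpec A hx ↥(fieldG10C (kA A) M L))
    (hS : Red1Iface4.CoeffChartG (F₀ := fieldG10 M L) S)
    (n e : ℕ) [NeZero n] (ℓ : ℕ) [Fact ℓ.Prime] (hM : 2 ≤ M) (hℓ : ¬ ℓ ∣ M * L) (hIG : IG1 M L)
    (hmem : TMem1 n e M L) (hgen : TGenBase n e) (hA : A.LiesOverPrime ℓ)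
    (hs : S.s = tF1 M L hmem ∨ S.s = (tF1 M L hmem)⁻¹) :
    ∀ y : ↥(fieldG10C (kA A) M L),
      ∃ a b : ↥S.B, S.red b ≠ 0 ∧ y * S.red b = S.red a :=
  chartLevels_L4 S (fun b hb => (hS.mem_iff b).mpr hb) hS.red_eq n e ℓ hM hℓ hIG hmem hgen hA hs

/-- `L4` from helper9's `GaloisR3G9.CoeffChartG`. -/
theorem chartLevels_L4_of_coeffChartG9 (S : ChartSpec A hx ↥(fieldG10C (kA A) M L))
    (hS : Fermat.Agent.M48.GaloisR3G9.CoeffChartG (F₀ := fieldG10 M L) S)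
    (n e : ℕ) [NeZero n] (ℓ : ℕ) [Fact ℓ.Prime] (hM : 2 ≤ M) (hℓ : ¬ ℓ ∣ M * L) (hIG : IG1 M L)
    (hmem : TMem1 n e M L) (hgen : TGenBase n e) (hA : A.LiesOverPrime ℓ)
    (hs : S.s = tF1 M L hmem ∨ S.s = (tF1 M L hmem)⁻¹) :
    ∀ y : ↥(fieldG10C (kA A) M L),
      ∃ a b : ↥S.B, S.red b ≠ 0 ∧ y * S.red b = S.red a :=
  chartLevels_L4 S (fun b hb => (hS.mem_iff b).mpr hb) hS.red_eq n e ℓ hM hℓ hIG hmem hgen hA hs

end Fermat.Agent.M48.L4Inst7
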