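/-
M48 (P1), [RED1], chapter [ESRED-MODEL], group LEVELS/PEEL (helper1): **the level system of a chart of
the model over `A`, generic in the model field** `F₀ ≤ ℚ((q))` **and in the special-fibre field**
`Fk` (generic twin of `ES/RED/LevelsInst26`, helper26: the old text with `Fbar M`, `FK M K`,
`baseChangeHom M K`, `modularFunctionFieldFullC (kA A) M` replaced by lead's `DescG0.FBg F₀`,
`DescG0.FKg F₀ K`, `DescG0.baseChangeHom F₀ K` and a variable field `Fk`; the descent facts are helper5's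
`ChartUnionG5`).

`A ≤ ℚ̄`, `S : ChartSpec A hx Fk` a chart of `ℚ̄·F₀` whose ring contains the integral closure of `A[s]`
(`hB`).  The levels are indexed by the number fields `K ⊇ K₀`: `B_K = chart (A ∩ K) s_K ⊂ K·F₀`,
`ι_K` = base change, `π_K` = a uniformiser of `A ∩ K`.

* `ker_isMaximal_of_locallyFinite`, `exists_level_list` (lists of chart elements descend to a common level);
* `Idx K₀`, `LevelAt A F₀ K sK ϖ` (the facts needed at one level);
* `levelHom`, `coe_levelHom`, `levelHom_injective`, `levelHom_algebraMap`.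

Imported by no statement.
-/
import Mathlib
import Fermat.Agent.ES.RED.LevelContract22
import Fermat.Agent.ES.RED.TwoCharts8
import Fermat.Agent.M48.ChartUnionG5

set_option autoImplicit false
set_option linter.unusedSectionVars false

open HahnSeries ModularCurve Polynomial AlgebraicCurve

noncomputable section

namespace Fermat.Agent.M48.LevelsInst1

open Fermat.Agent.RED.Interface4 Fermat.Agent.RED.DESC.PlaceExtend27
  Fermat.Agent.RED.DESC Fermat.Agent.RED.PUR.ChartGeneric22 Fermat.Agent.RED.NumInst4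
  Fermat.Agent.RED.DESC.NumberFieldDVR27 Fermat.Agent.RED.PUR.GaussGen8
open Fermat.Agent.X0.FF Fermat.Agent.ES.RED.PlaceValue13 Fermat.Agent.ES.RED.Contract8
  Fermat.Agent.ES.RED.LevelContract22 Fermat.Agent.ES.RED.TwoCharts8
open Fermat.Agent.M48.DescG0 Fermat.Agent.M48.ChartUnionG5

/-! ### a ring hom into a locally finite field has a maximal kernel -/

theorem ker_isMaximal_of_locallyFinite {B k : Type*} [CommRing B] [Field k] (φ : B →+* k)
    (hk : ∀ c : k, ∃ m : ℕ, 1 < m ∧ c ^ m = c) : (RingHom.ker φ).IsMaximal := by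
  have hfield : IsField ↥φ.range := by
    refine ⟨⟨0, 1, zero_ne_one⟩, mul_comm, ?_⟩
    intro c hc
    obtain ⟨m, hm, hcm⟩ := hk (c : k)
    have hc0 : (c : k) ≠ 0 := fun h => hc (Subtype.ext h)
    refine ⟨c ^ (m - 2), ?_⟩
    apply Subtype.ext
    show (c : k) * (c : k) ^ (m - 2) = 1
    have h1 : (c : k) ^ (m - 1) = 1 := by
      have h2 : (c : k) ^ (m - 1) * (c : k) = 1 * (c : k) := by
        rw [← pow_succ, one_mul]
        have : m - 1 + 1 = m := by omega
        rw [this, hcm]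
      exact mul_right_cancel₀ hc0 h2
    rw [← pow_succ']
    have : m - 2 + 1 = m - 1 := by omega
    rw [this, h1]
  have h := (RingHom.quotientKerEquivRange φ).toMulEquiv.isField hfield
  exact Ideal.Quotient.maximal_of_isField _ h

/-! ### lists of chart elements descend to a common level -/

variable (A : ValuationSubring Qbar) (F₀ : IntermediateField ℚ (LaurentSeries ℚ))

theorem exists_level_list (K₀ : IntermediateField ℚ Qbar) [FiniteDimensional ℚ K₀]
    (t : FBg F₀) (T : List (FBg F₀)) (hT : ∀ y ∈ T, y ∈ chart ↥A t) :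
    ∃ K₁ : IntermediateField ℚ Qbar, FiniteDimensional ℚ K₁ ∧ K₀ ≤ K₁ ∧
      ∀ K : IntermediateField ℚ Qbar, K₁ ≤ K → ∀ tK : FKg F₀ K, baseChangeHom F₀ K tK = t →
        ∀ y ∈ T, ∃ x ∈ chart ↥(AK A K) tK, baseChangeHom F₀ K x = y := by
  induction T with
  | nil => exact ⟨K₀, inferInstance, le_rfl, fun K _ tK _ y hy => absurd hy (List.not_mem_nil)⟩
  | cons b T ih =>
    obtain ⟨K₁, hfin₁, hK₁, H₁⟩ := ih fun y hy => hT y (List.mem_cons_of_mem _ hy)
    obtain ⟨K₂, hfin₂, hK₂, H₂⟩ := exists_chart_descent A F₀ K₀ t b (hT b List.mem_cons_self)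
    have := hfin₁
    have := hfin₂
    refine ⟨K₁ ⊔ K₂, inferInstance, hK₁.trans le_sup_left, fun K hK tK htK y hy => ?_⟩
    rcases List.mem_cons.mp hy with rfl | hy
    · exact H₂ K (le_sup_right.trans hK) tK htK
    · exact H₁ K (le_sup_left.trans hK) tK htK y hy

/-! ### the level data and the level maps -/

/-- the index type: number fields `K ⊇ K₀`. -/
def Idx (K₀ : IntermediateField ℚ Qbar) : Type :=
  {K : IntermediateField ℚ Qbar // FiniteDimensional ℚ K ∧ K₀ ≤ K}

/-- **What is needed of one level** `K`: `ϖ` is a uniformiser of `A ∩ K`, the chart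
`chart (A ∩ K) s_K` is noetherian, consists of `(A ∩ K)`-integral `q`-expansions, is `ϖ`-saturated
and is smooth along `ϖ = 0`. -/
structure LevelAt (K : IntermediateField ℚ Qbar) (sK : ↥(FKg F₀ K)) (ϖ : ↥(AK A K)) :
    Prop where
  unif : IsUnif (AK A K) ϖ
  noeth : IsNoetherianRing ↥(chart ↥(AK A K) sK)
  series : ∀ b ∈ chart ↥(AK A K) sK, ∃ Y : LaurentSeries ↥(AK A K),
    embK (AK A K) Y = ((b : ↥(FKg F₀ K)) : LaurentSeries K)
  sat : ∀ b ∈ chart ↥(AK A K) sK, ∀ Y' : LaurentSeries ↥(AK A K),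
    ((b : ↥(FKg F₀ K)) : LaurentSeries K) = embK (AK A K) (HahnSeries.C ϖ * Y') →
      ∃ c ∈ chart ↥(AK A K) sK, b = algebraMap ↥(AK A K) ↥(FKg F₀ K) ϖ * c
  smooth : ∀ x : Ideal ↥(chart ↥(AK A K) sK), x.IsMaximal →
    algebraMap ↥(AK A K) ↥(chart ↥(AK A K) sK) ϖ ∈ x →
      ∃ s ∈ x, ∀ y ∈ x, ∃ d : ↥(chart ↥(AK A K) sK), d ∉ x ∧
        d * y ∈ Ideal.span {algebraMap ↥(AK A K) ↥(chart ↥(AK A K) sK) ϖ, s}

variable {A F₀}
variable {Fk : Type*} [Field Fk] [Algebra (kA A) Fk]
variable {x : ↥(FBg F₀)} {hx : IsGen Qbar x}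
  (S : ChartSpec A hx Fk)
  (hB : ∀ b : ↥(FBg F₀), b ∈ chart ↥A S.s → b ∈ S.B)

/-- **the level map** `ι_K : chart (A ∩ K) s_K → S.B` (base change of coefficients). -/
def levelHom (K : IntermediateField ℚ Qbar) (sK : ↥(FKg F₀ K))
    (hsK : baseChangeHom F₀ K sK = S.s) : ↥(chart ↥(AK A K) sK) →+* ↥S.B :=
  ((baseChangeHom F₀ K).comp (Subalgebra.val (chart ↥(AK A K) sK)).toRingHom).codRestrict S.B
    (fun b => hB _ (by
      rw [← hsK]
      exact baseChangeHom_mem_chart A F₀ K sK (b : ↥(FKg F₀ K)) b.2))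

@[simp] theorem coe_levelHom (K : IntermediateField ℚ Qbar) (sK : ↥(FKg F₀ K))
    (hsK : baseChangeHom F₀ K sK = S.s) (b : ↥(chart ↥(AK A K) sK)) :
    ((levelHom S hB K sK hsK b : ↥S.B) : ↥(FBg F₀)) = baseChangeHom F₀ K (b : ↥(FKg F₀ K)) := rfl

theorem levelHom_injective (K : IntermediateField ℚ Qbar) (sK : ↥(FKg F₀ K))
    (hsK : baseChangeHom F₀ K sK = S.s) : Function.Injective (levelHom S hB K sK hsK) := by
  intro b b' h
  have h1 := congrArg (fun z : ↥S.B => (z : ↥(FBg F₀))) h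
  simp only [coe_levelHom] at h1
  exact Subtype.ext (baseChangeHom_injective F₀ K h1)

theorem levelHom_algebraMap (K : IntermediateField ℚ Qbar) (sK : ↥(FKg F₀ K))
    (hsK : baseChangeHom F₀ K sK = S.s) (a : ↥(AK A K)) :
    levelHom S hB K sK hsK (algebraMap ↥(AK A K) ↥(chart ↥(AK A K) sK) a) =
      S.const (incl A K a) := by
  apply Subtype.ext
  rw [coe_levelHom, ChartSpec.coe_const]
  exact baseChangeHom_algebraMap_AK A F₀ K a

end Fermat.Agent.M48.LevelsInst1
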