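/-
M48 (P1), [RED1], chapter [ESRED-MODEL], group LEVELS/PEEL (helper1): **the `ChartLevels` instance** of a
chart of the model over `A` from the level data `LevelsInst1.LevelAt` at every number field `K ⊇ K₀`,
and its consequences `HasPlaces`, `PeelA` — generic in the model field `F₀ ≤ ℚ((q))` and in the
special-fibre field `Fk ≤ κ_A((q))` (generic twin of `ES/RED/LevelsMain26`, helper26: the old text with
`Fbar M ↦ DescG0.FBg F₀`, `FK M K ↦ DescG0.FKg F₀ K`, `modularFunctionFieldFullC (kA A) M ↦ Fk`).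

* `resA_incl_unif`, `red_levelHom_pi`, `red_levelHom_eq` (the bridge), `red_levelHom_eq_zero_iff` ((L3));
* `chartLevels` : `LevelContract22.ChartLevels S P hP …` with levels = number fields `K ⊇ K₀`,
  `B_K = chart (A ∩ K) s_K`, `ι_K = levelHom`, `π_K = ϖ_K`;
* `rVS_ne_top'`, `hasPlaces`, `peelA`.

Imported by no statement.
-/
import Mathlib
import Fermat.Agent.M48.LevelsInst1
import Fermat.Agent.ES.RED.GaussUnit25

set_option autoImplicit false
set_option linter.unusedSectionVars false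

open HahnSeries ModularCurve Polynomial AlgebraicCurve

noncomputable section

namespace Fermat.Agent.M48.LevelsMain1

open Fermat.Agent.RED.Interface4 Fermat.Agent.RED.DESC.PlaceExtend27
  Fermat.Agent.RED.DESC Fermat.Agent.RED.PUR.ChartGeneric22 Fermat.Agent.RED.NumInst4
  Fermat.Agent.RED.DESC.NumberFieldDVR27 Fermat.Agent.RED.PUR.GaussGen8
open Fermat.Agent.X0.FF Fermat.Agent.ES.RED.PlaceValue13 Fermat.Agent.ES.RED.Contract8
  Fermat.Agent.ES.RED.LevelContract22 Fermat.Agent.ES.RED.TwoCharts8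
open Fermat.Agent.M48.DescG0 Fermat.Agent.M48.ChartUnionG5 Fermat.Agent.M48.LevelsInst1

variable {A : ValuationSubring Qbar} {F₀ : IntermediateField ℚ (LaurentSeries ℚ)}
  {Fk : IntermediateField (kA A) (LaurentSeries (kA A))}
variable {x : ↥(FBg F₀)} {hx : IsGen Qbar x}
  (S : ChartSpec A hx ↥Fk)
  (hB : ∀ b : ↥(FBg F₀), b ∈ chart ↥A S.s → b ∈ S.B)
  (hB' : ∀ b : ↥(FBg F₀), b ∈ S.B → b ∈ chart ↥A S.s)
  (hred : ∀ (b : ↥S.B) (Y : LaurentSeries ↥A),
    coeffMap A.subtype Y = ((b : ↥(FBg F₀)) : LaurentSeries Qbar) →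
    ((S.red b : ↥Fk) : LaurentSeries (kA A)) = coeffMap (resA A) Y)

section OneLevel

variable (K : IntermediateField ℚ Qbar) (sK : ↥(FKg F₀ K)) (hsK : baseChangeHom F₀ K sK = S.s)
  (ϖ : ↥(AK A K)) (hlev : LevelAt A F₀ K sK ϖ)

include hlev in
/-- `res (ϖ) = 0` in the residue field of `A`. -/
theorem resA_incl_unif : resA A (incl A K ϖ) = 0 := by
  rw [← resMap_residue]
  have h : IsLocalRing.residue ↥(AK A K) ϖ = 0 := res0_unif hlev.unif
  rw [h, map_zero]

include hlev in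
/-- `red (ι_K π_K) = 0`. -/
theorem red_levelHom_pi :
    S.red (levelHom S hB K sK hsK (algebraMap ↥(AK A K) ↥(chart ↥(AK A K) sK) ϖ)) = 0 := by
  rw [levelHom_algebraMap, S.red_const', resA_incl_unif K sK ϖ hlev, map_zero]

include hred in
/-- **the bridge**: the reduction of a level-`K` element is the base change of its level-`K`
reduction. -/
theorem red_levelHom_eq (b : ↥(chart ↥(AK A K) sK)) (Y : LaurentSeries ↥(AK A K))
    (hY : embK (AK A K) Y = ((b : ↥(FKg F₀ K)) : LaurentSeries K)) :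
    ((S.red (levelHom S hB K sK hsK b) : ↥Fk) : LaurentSeries (kA A)) =
      coeffMap (resMap A K) (redL (AK A K) Y) := by
  rw [← Fermat.Agent.ES.RED.GaussUnit25.coeffMap_residue_incl]
  refine hred _ _ ?_
  rw [Fermat.Agent.ES.RED.GaussUnit25.coeffMap_subtype_incl, hY]
  rfl

include hred hlev in
/-- **(L3)** at the level `K`. -/
theorem red_levelHom_eq_zero_iff (b : ↥(chart ↥(AK A K) sK)) :
    S.red (levelHom S hB K sK hsK b) = 0 ↔
      algebraMap ↥(AK A K) ↥(chart ↥(AK A K) sK) ϖ ∣ b := by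
  constructor
  · intro h0
    obtain ⟨Y, hY⟩ := hlev.series (b : ↥(FKg F₀ K)) b.2
    have h1 := red_levelHom_eq S hB hred K sK hsK b Y hY
    rw [h0] at h1
    have h2 : redL (AK A K) Y = 0 := by
      apply Fermat.Agent.RED.DESC.CoeffDescent1.coeffMap_injective_of_injective (resMap A K)
        (resMap_injective A K)
      rw [← h1, map_zero]
      rfl
    obtain ⟨Y', hY'⟩ := (redL_eq_zero_iff hlev.unif Y).mp h2
    obtain ⟨c, hc, hbc⟩ := hlev.sat (b : ↥(FKg F₀ K)) b.2 Y' (by rw [← hY, hY'])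
    exact ⟨⟨c, hc⟩, Subtype.ext hbc⟩
  · rintro ⟨c, rfl⟩
    rw [map_mul, map_mul, red_levelHom_pi S hB K sK hsK ϖ hlev, zero_mul]

end OneLevel

section Levels

variable (K₀ : IntermediateField ℚ Qbar) [FiniteDimensional ℚ K₀]
  (sK : ∀ K : Idx K₀, ↥(FKg F₀ K.1)) (hsK : ∀ K : Idx K₀, baseChangeHom F₀ K.1 (sK K) = S.s)
  (ϖ : ∀ K : Idx K₀, ↥(AK A K.1))
  (hlev : ∀ K : Idx K₀, LevelAt A F₀ K.1 (sK K) (ϖ K))
  (hk : ∀ c : kA A, ∃ m : ℕ, 1 < m ∧ c ^ m = c)
  (hL4 : ∀ y : ↥Fk, ∃ a b : ↥S.B, S.red b ≠ 0 ∧ y * S.red b = S.red a)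

include hB' hred hlev hk hL4 in
/-- **The level system of the chart `S` at a place `P`** (`LevelContract22.ChartLevels`): levels
= number fields `K ⊇ K₀`, `B_K = chart (A ∩ K) s_K`, `ι_K` = base change, `π_K = ϖ_K`. -/
theorem chartLevels (P : Place Qbar ↥(FBg F₀)) (hP : S.InChart P) :
    ChartLevels S P hP (fun K : Idx K₀ => ↥(chart ↥(AK A K.1) (sK K)))
      (fun K => levelHom S hB K.1 (sK K) (hsK K))
      (fun K => algebraMap ↥(AK A K.1) ↥(chart ↥(AK A K.1) (sK K)) (ϖ K)) := by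
  have hchi : ∀ K : Idx K₀, S.chi P hP (levelHom S hB K.1 (sK K) (hsK K)
      (algebraMap ↥(AK A K.1) ↥(chart ↥(AK A K.1) (sK K)) (ϖ K))) = 0 := by
    intro K
    rw [levelHom_algebraMap, S.chi_const, resA_incl_unif K.1 (sK K) (ϖ K) (hlev K)]
  have hmax : ∀ K : Idx K₀, (centre S P hP (fun K : Idx K₀ => ↥(chart ↥(AK A K.1) (sK K)))
      (fun K => levelHom S hB K.1 (sK K) (hsK K)) K).IsMaximal :=
    fun K => ker_isMaximal_of_locallyFinite _ hk
  refine
    { inj := fun K => levelHom_injective S hB K.1 (sK K) (hsK K)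
      L0 := ?_
      noeth := fun K => (hlev K).noeth
      ev_pi := ?_
      chi_pi := hchi
      isMax := hmax
      smooth := fun K => (hlev K).smooth _ (hmax K) (hchi K)
      L3 := fun K b => red_levelHom_eq_zero_iff S hB hred K.1 (sK K) (hsK K) (ϖ K) (hlev K) b
      L4 := hL4 }
  · intro T
    obtain ⟨K₁, hfin, hK, H⟩ := exists_level_list A F₀ K₀ S.s
      (T.map (fun b : ↥S.B => (b : ↥(FBg F₀))))
      (fun y hy => by
        obtain ⟨b, -, rfl⟩ := List.mem_map.mp hy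
        exact hB' _ b.2)
    refine ⟨⟨K₁, hfin, hK⟩, fun b hb => ?_⟩
    obtain ⟨x, hx, hxb⟩ := H K₁ le_rfl (sK ⟨K₁, hfin, hK⟩) (hsK _) (b : ↥(FBg F₀))
      (List.mem_map.mpr ⟨b, hb, rfl⟩)
    exact ⟨⟨x, hx⟩, Subtype.ext hxb⟩
  · intro K h
    rw [levelHom_algebraMap, S.ev_const] at h
    have h1 : incl A K.1 (ϖ K) = incl A K.1 0 := by rw [h, map_zero]
    exact (hlev K).unif.ne_zero (incl_injective A K.1 h1)

variable (hpir : ∀ O : ValuationSubring ↥Fk,
    (∀ c : kA A, algebraMap (kA A) ↥Fk c ∈ O) → O ≠ ⊤ → IsPrincipalIdealRing ↥O)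
  (htr : Transcendental (kA A) (S.red S.sB))

include htr in
theorem rVS_ne_top' (P : Place Qbar ↥(FBg F₀)) (hP : S.InChart P) (hval : S.Val P hP) :
    S.rVS P hP hval ≠ ⊤ :=
  S.rVS_ne_top P hP hval (chi_sSub P hP) (red_sSub_ne_zero htr P hP)

include hB hB' hred hsK hlev hk hL4 hpir htr in
/-- **(VAL) + principal ideal property at every place of the chart.** -/
theorem hasPlaces : HasPlaces S := by
  intro P hP
  have h := chartLevels S hB hB' hred K₀ sK hsK ϖ hlev hk hL4 P hP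
  exact ⟨h.val, hpir _ (fun c => S.algebraMap_mem_rSubring P hP c)
    (rVS_ne_top' S htr P hP h.val)⟩

include hB hB' hred hsK hlev hk hL4 hpir htr in
/-- **(PEEL-a) at every place of the chart.** -/
theorem peelA (P : Place Qbar ↥(FBg F₀)) (hP : S.InChart P) : S.PeelA P hP := by
  have h := chartLevels S hB hB' hred K₀ sK hsK ϖ hlev hk hL4 P hP
  exact h.peelA_of_isPrincipalIdealRing (rVS_ne_top' S htr P hP h.val)
    (hpir _ (fun c => S.algebraMap_mem_rSubring P hP c) (rVS_ne_top' S htr P hP h.val))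

end Levels

end Fermat.Agent.M48.LevelsMain1
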