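/-
M48 (P1), [KUM1] (HC1) / [ESRED1], generic in the analytic model (helper3): **Laurent expansions of the
realisation `AnReal4.realMer A`** of the function field of an `AnModel`, and comparison of two models.

Γ-generic twin of `ES/HEQ/QExpMer19` (`hasQExpMer_realMer`, `realMer_eq_of_coe_eq`) and of the first
half of `ES/HEQ/RealBar19` (`anBar_alpha`, `anBar_beta`):

* `hasQExpMer_realMer A y` : `realMer A y` has the Laurent expansion `y`;
* `realMer_eq_of_coe_eq` : elements of the function fields of two models (any groups, any levels) with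
  the same Laurent series have the same realisation — so the inclusion `α` of one model into another
  commutes with the realisations;
* `realMer_scale` : if `y' = y(q^ℓ)` (`qExpand ℂ ℓ`) then `realMer A' y' = (realMer A y) ∘ (z ↦ ℓ z)`
  (`betaMer ℓ none`) — so the degeneracy map `β` corresponds to precomposition with `diag(ℓ, 1)`.
-/
import Fermat.Agent.ES.HEQ.QExpMer19
import Fermat.Agent.M48.AnReal4

set_option autoImplicit false
set_option linter.style.haveILetI false
set_option linter.unusedSectionVars false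

open UpperHalfPlane hiding I
open scoped Manifold MatrixGroups
open ModularCurve

noncomputable section

namespace Fermat.Agent.M48.AnQExpMer3

open Fermat.Agent.X0 Fermat.Agent.X0.Analytic Fermat.Agent.X0.SurjPoint Fermat.Agent.ES.KUM
open Fermat.Agent.ES.HEQ.BetaMer19 Fermat.Agent.ES.HEQ.QExpMer19
open Fermat.Agent.M48.DictIface4 Fermat.Agent.M48.AnReal4

variable {Γ : Subgroup SL(2, ℤ)} {h : ℕ} {F₀ : IntermediateField ℚ (LaurentSeries ℚ)}
  (A : AnModel Γ h F₀)

/-- `realMer A y` has the Laurent expansion `y`. -/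
theorem hasQExpMer_realMer (y : A.F) :
    HasQExpMer ((y : A.F) : LaurentSeries ℂ) (AnReal4.realMer A y) := by
  obtain ⟨u, s, hs, rfl⟩ := exists_div_ne_zero A y
  have hs' : ((s : A.R) : A.F) ≠ 0 := fun h0 => hs (Subtype.ext h0)
  refine ⟨A.Θ u, A.Θ s, (((u : A.R) : A.F) : LaurentSeries ℂ),
    (((s : A.R) : A.F) : LaurentSeries ℂ), ?_, A.qexp u, A.qexp s, ?_, ?_⟩
  · intro h0
    exact hs' (Subtype.ext h0)
  · have h1 : (((u : A.R) : A.F) / ((s : A.R) : A.F)) * ((s : A.R) : A.F) = ((u : A.R) : A.F) :=
      div_mul_cancel₀ _ hs'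
    exact congrArg Subtype.val h1
  · rw [map_div₀, AnReal4.realMer_coe, AnReal4.realMer_coe]
    have h2 : algebraMap HolH MerH (A.Θ s) ≠ 0 :=
      (map_ne_zero_iff _ (IsFractionRing.injective HolH MerH)).mpr
        ((map_ne_zero_iff _ (Θ_injective A)).mpr hs)
    exact div_mul_cancel₀ _ h2

variable {Γ' : Subgroup SL(2, ℤ)} {h' : ℕ} {F₀' : IntermediateField ℚ (LaurentSeries ℚ)}
  (A' : AnModel Γ' h' F₀')

/-- two elements of the function fields of two analytic models with the same Laurent series have the
same realisation. -/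
theorem realMer_eq_of_coe_eq {y : A.F} {y' : A'.F}
    (hy : ((y : A.F) : LaurentSeries ℂ) = ((y' : A'.F) : LaurentSeries ℂ)) :
    AnReal4.realMer A y = AnReal4.realMer A' y' := by
  have h1 := hasQExpMer_realMer A y
  rw [hy] at h1
  exact h1.unique (hasQExpMer_realMer A' y')

/-- the realisation of `y(q^p)` is `(realMer A y) ∘ (z ↦ p z)`. -/
theorem realMer_scale {p : ℕ} [hp : Fact p.Prime] {y : A.F} {y' : A'.F}
    (hy : ((y' : A'.F) : LaurentSeries ℂ) =
      (haveI : NeZero p := ⟨hp.out.ne_zero⟩; qExpand ℂ p ((y : A.F) : LaurentSeries ℂ))) :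
    AnReal4.realMer A' y' = betaMer p none (AnReal4.realMer A y) := by
  haveI : NeZero p := ⟨hp.out.ne_zero⟩
  have h1 := hasQExpMer_realMer A' y'
  rw [hy] at h1
  exact h1.unique (hasQExpMer_realMer A y).betaMer_none

end Fermat.Agent.M48.AnQExpMer3
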