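/-
M48 (helper1), block (P8)/(H): **`Γ₁(N)`-invariance of the Hecke operators** at the level of functions.

For `f : ℍ → ℂ` invariant under `Γ₁(N)` in weight `k` (`Diamond1.Inv1`):
* `inv1_heckeU` : for `p ∣ N`, `heckeU k p f` (the Prelude's `∑_{j<p} f ∣[k] [[1,j],[0,p]]`) is invariant;
* `T1fun k p σ f := heckeU k p f + (f ∣[k] σ) ∣[k] diag(p,1)` for `σ ∈ Γ₀(N)` with lower-right entry `≡ p`
  (`= T_p` with the diamond operator built in), and `inv1_T1fun` : for `p` prime, `p ∤ N`, it is invariant.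

The matrix identities are those of the Prelude's proof for `Γ₀(N)`, with the extra bookkeeping of the diagonal
entries mod `N`.  Imported by no statement.
-/
import Mathlib
import Fermat.Prelude.Def_ModularForm_HeckeOperator
import Fermat.Agent.M48.Diamond1

set_option autoImplicit false

open CongruenceSubgroup Matrix.SpecialLinearGroup UpperHalfPlane ModularForm
open scoped MatrixGroups ModularForm OnePoint

noncomputable section

namespace Fermat.Agent.M48.HeckeInv1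

open Fermat.Agent.M48.Diamond1

theorem mapGL_apply' (g : SL(2, ℤ)) (i j : Fin 2) :
    (mapGL ℝ g : GL (Fin 2) ℝ) i j = ((g i j : ℤ) : ℝ) := by
  simp

theorem det_eq (g : SL(2, ℤ)) : g 0 0 * g 1 1 - g 0 1 * g 1 0 = 1 := by
  have h := g.det_coe
  rwa [Matrix.det_fin_two] at h

/-! ### the four commutation relations, with all entries of the new matrix -/

section commutation

variable {p : ℕ} (hp : p ≠ 0)
include hp

theorem heckeMatrix_mul_of_eq (g : SL(2, ℤ)) (j j' : ℕ) (e : ℤ)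
    (he : g 0 1 + j * g 1 1 = j' * (g 0 0 + j * g 1 0) + p * e) :
    ∃ g' : SL(2, ℤ), g' 0 0 = g 0 0 + j * g 1 0 ∧ g' 1 0 = p * g 1 0 ∧
      g' 1 1 = g 1 1 - g 1 0 * j' ∧
      heckeMatrix p j * mapGL ℝ g = mapGL ℝ g' * heckeMatrix p j' := by
  have hdet := det_eq g
  refine ⟨⟨!![g 0 0 + j * g 1 0, e; p * g 1 0, g 1 1 - g 1 0 * j'], ?_⟩, rfl, rfl, rfl, ?_⟩
  · rw [Matrix.det_fin_two_of]
    linear_combination hdet + (g 1 0) * he
  · ext i j
    fin_cases i <;> fin_cases j <;>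
      simp [hp, Matrix.mul_apply, Fin.sum_univ_two]
    all_goals first
      | (have := congrArg (Int.cast : ℤ → ℝ) he; push_cast at this ⊢; linear_combination this)
      | (have := congrArg (Int.cast : ℤ → ℝ) he; push_cast at this ⊢; linear_combination -this)
      | ring1

theorem heckeMatrix_mul_of_eq' (g : SL(2, ℤ)) (j : ℕ) (e : ℤ)
    (he : g 0 0 + j * g 1 0 = p * e) :
    ∃ g' : SL(2, ℤ), g' 1 0 = g 1 0 ∧ g' 1 1 = p * g 1 1 ∧
      heckeMatrix p j * mapGL ℝ g = mapGL ℝ g' * heckeDiagMatrix p := by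
  have hdet := det_eq g
  refine ⟨⟨!![e, g 0 1 + j * g 1 1; g 1 0, p * g 1 1], ?_⟩, rfl, rfl, ?_⟩
  · rw [Matrix.det_fin_two_of]
    linear_combination hdet - (g 1 1) * he
  · ext i j
    fin_cases i <;> fin_cases j <;>
      simp [hp, Matrix.mul_apply, Fin.sum_univ_two]
    all_goals first
      | (have := congrArg (Int.cast : ℤ → ℝ) he; push_cast at this ⊢; linear_combination this)
      | (have := congrArg (Int.cast : ℤ → ℝ) he; push_cast at this ⊢; linear_combination -this)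
      | ring1

theorem heckeDiagMatrix_mul_of_eq (g : SL(2, ℤ)) (j' : ℕ) (e : ℤ)
    (he : g 1 1 = g 1 0 * j' + p * e) :
    ∃ g' : SL(2, ℤ), g' 1 0 = g 1 0 ∧ g' 1 1 = e ∧
      heckeDiagMatrix p * mapGL ℝ g = mapGL ℝ g' * heckeMatrix p j' := by
  have hdet := det_eq g
  refine ⟨⟨!![p * g 0 0, g 0 1 - g 0 0 * j'; g 1 0, e], ?_⟩, rfl, rfl, ?_⟩
  · rw [Matrix.det_fin_two_of]
    linear_combination hdet - (g 0 0) * he
  · ext i j
    fin_cases i <;> fin_cases j <;>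
      simp [hp, Matrix.mul_apply, Fin.sum_univ_two]
    all_goals first
      | (have := congrArg (Int.cast : ℤ → ℝ) he; push_cast at this ⊢; linear_combination this)
      | (have := congrArg (Int.cast : ℤ → ℝ) he; push_cast at this ⊢; linear_combination -this)
      | ring1

theorem heckeDiagMatrix_mul_of_eq' (g : SL(2, ℤ)) (e : ℤ) (he : g 1 0 = p * e) :
    ∃ g' : SL(2, ℤ), g' 0 0 = g 0 0 ∧ g' 1 0 = e ∧ g' 1 1 = g 1 1 ∧
      heckeDiagMatrix p * mapGL ℝ g = mapGL ℝ g' * heckeDiagMatrix p := by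
  have hdet := det_eq g
  refine ⟨⟨!![g 0 0, p * g 0 1; e, g 1 1], ?_⟩, rfl, rfl, rfl, ?_⟩
  · rw [Matrix.det_fin_two_of]
    linear_combination hdet + (g 0 1) * he
  · ext i j
    fin_cases i <;> fin_cases j <;>
      simp [hp, Matrix.mul_apply, Fin.sum_univ_two]
    all_goals first
      | (have := congrArg (Int.cast : ℤ → ℝ) he; push_cast at this ⊢; linear_combination this)
      | (have := congrArg (Int.cast : ℤ → ℝ) he; push_cast at this ⊢; linear_combination -this)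
      | ring1

end commutation

/-! ### re-indexing -/

section reindex

variable {p : ℕ} [NeZero p]

theorem sum_range_eq_sum_zmod {M : Type*} [AddCommMonoid M] (F : ℕ → M) :
    ∑ j ∈ Finset.range p, F j = ∑ x : ZMod p, F x.val := by
  refine Finset.sum_nbij' (fun j : ℕ ↦ (j : ZMod p)) (fun x : ZMod p ↦ x.val)
    (fun _ _ ↦ Finset.mem_univ _)
    (fun x _ ↦ Finset.mem_range.mpr x.val_lt) (fun j hj ↦ ?_) (fun x _ ↦ ?_) (fun j hj ↦ ?_)
  · exact ZMod.val_cast_of_lt (Finset.mem_range.mp hj)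
  · exact ZMod.natCast_zmod_val x
  · rw [ZMod.val_cast_of_lt (Finset.mem_range.mp hj)]

theorem heckeU_eq_sum_zmod (k : ℤ) (f : ℍ → ℂ) :
    heckeU k p f = ∑ x : ZMod p, f ∣[k] heckeMatrix p x.val := by
  rw [heckeU_def]
  exact sum_range_eq_sum_zmod _

end reindex

/-! ### membership in `Γ₁(N)` from the entries -/

theorem mem_Gamma1_of_entries {N : ℕ} {g : SL(2, ℤ)} (h00 : ((g 0 0 : ℤ) : ZMod N) = 1)
    (h11 : ((g 1 1 : ℤ) : ZMod N) = 1) (h10 : ((g 1 0 : ℤ) : ZMod N) = 0) : g ∈ Gamma1 N := by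
  rw [Gamma1_mem]
  exact ⟨h00, h11, h10⟩

theorem entries_of_mem_Gamma1 {N : ℕ} {g : SL(2, ℤ)} (hg : g ∈ Gamma1 N) :
    ((g 0 0 : ℤ) : ZMod N) = 1 ∧ ((g 1 1 : ℤ) : ZMod N) = 1 ∧ ((g 1 0 : ℤ) : ZMod N) = 0 := by
  rw [Gamma1_mem] at hg
  exact hg

/-! ### `U_p`, `p ∣ N` -/

section heckeU

variable {p : ℕ}

theorem unit_of_apply_one_zero_eq_zero (g : SL(2, ℤ)) (hc : ((g 1 0 : ℤ) : ZMod p) = 0) :
    ((g 0 0 : ℤ) : ZMod p) * ((g 1 1 : ℤ) : ZMod p) = 1 := by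
  have := congrArg (Int.cast : ℤ → ZMod p) (det_eq g)
  push_cast at this
  linear_combination this + ((g 0 1 : ℤ) : ZMod p) * hc

/-- the permutation of `ℤ/p` induced by an element with `p ∣ c`. -/
def affinePerm (g : SL(2, ℤ)) (hc : ((g 1 0 : ℤ) : ZMod p) = 0) : Equiv.Perm (ZMod p) where
  toFun j := ((g 1 1 : ℤ) : ZMod p) * (((g 0 1 : ℤ) : ZMod p) + ((g 1 1 : ℤ) : ZMod p) * j)
  invFun j := ((g 0 0 : ℤ) : ZMod p) * (((g 0 0 : ℤ) : ZMod p) * j - ((g 0 1 : ℤ) : ZMod p))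
  left_inv j := by
    linear_combination (((g 0 0 : ℤ) : ZMod p) * ((g 0 1 : ℤ) : ZMod p)
      + j * (((g 0 0 : ℤ) : ZMod p) * ((g 1 1 : ℤ) : ZMod p) + 1)) *
        unit_of_apply_one_zero_eq_zero g hc
  right_inv j := by
    linear_combination (-(((g 1 1 : ℤ) : ZMod p) * ((g 0 1 : ℤ) : ZMod p))
      + j * (((g 0 0 : ℤ) : ZMod p) * ((g 1 1 : ℤ) : ZMod p) + 1)) *
        unit_of_apply_one_zero_eq_zero g hc

theorem affinePerm_apply (g : SL(2, ℤ)) (hc : ((g 1 0 : ℤ) : ZMod p) = 0) (j : ZMod p) :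
    affinePerm g hc j =
      ((g 1 1 : ℤ) : ZMod p) * (((g 0 1 : ℤ) : ZMod p) + ((g 1 1 : ℤ) : ZMod p) * j) := rfl

variable [NeZero p]

theorem heckeMatrix_mul_of_dvd (g : SL(2, ℤ)) (hc : (p : ℤ) ∣ g 1 0) (x : ZMod p) :
    ∃ g' : SL(2, ℤ), g' 0 0 = g 0 0 + x.val * g 1 0 ∧ g' 1 0 = p * g 1 0 ∧
      g' 1 1 = g 1 1 - g 1 0 *
        (affinePerm g ((ZMod.intCast_zmod_eq_zero_iff_dvd _ _).mpr hc) x).val ∧
      heckeMatrix p x.val * mapGL ℝ g =
        mapGL ℝ g' *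
          heckeMatrix p (affinePerm g ((ZMod.intCast_zmod_eq_zero_iff_dvd _ _).mpr hc) x).val := by
  have hc0 : ((g 1 0 : ℤ) : ZMod p) = 0 := (ZMod.intCast_zmod_eq_zero_iff_dvd _ _).mpr hc
  set x' := affinePerm g hc0 x with hx'
  obtain ⟨e, he⟩ : (p : ℤ) ∣ g 0 1 + x.val * g 1 1 - x'.val * (g 0 0 + x.val * g 1 0) := by
    rw [← ZMod.intCast_zmod_eq_zero_iff_dvd]
    push_cast
    rw [ZMod.natCast_zmod_val, ZMod.natCast_zmod_val, hx', affinePerm_apply]
    linear_combination (-(((g 0 1 : ℤ) : ZMod p) + x * ((g 1 1 : ℤ) : ZMod p))) *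
      unit_of_apply_one_zero_eq_zero g hc0
      - (((g 1 1 : ℤ) : ZMod p) * (((g 0 1 : ℤ) : ZMod p) + ((g 1 1 : ℤ) : ZMod p) * x) * x) * hc0
  exact heckeMatrix_mul_of_eq (NeZero.ne p) g x.val x'.val e (by linear_combination he)

variable {N : ℕ} {k : ℤ}

/-- equality of slashes by two elements of `Γ₀(N)` with the same lower-right entry mod `N`. -/
theorem slash_eq_of_lr {f : ℍ → ℂ} (hf : Inv1 N k f) {a b : SL(2, ℤ)} (ha : a ∈ Gamma0 N)
    (hb : b ∈ Gamma0 N) (h : ((a 1 1 : ℤ) : ZMod N) = ((b 1 1 : ℤ) : ZMod N)) :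
    f ∣[k] a = f ∣[k] b :=
  hf.slash_eq_of_map_eq (σ := ⟨b, hb⟩) (σ' := ⟨a, ha⟩) h

/-- the lower-right entry of a product, `mod N`. -/
theorem lr_mul {a : SL(2, ℤ)} (ha : a ∈ Gamma0 N) (b : SL(2, ℤ)) :
    (((a * b) 1 1 : ℤ) : ZMod N) = ((a 1 1 : ℤ) : ZMod N) * ((b 1 1 : ℤ) : ZMod N) := by
  have h := (Matrix.two_mul_expl a.1 b.1).2.2.2
  rw [Gamma0_mem] at ha
  rw [Matrix.SpecialLinearGroup.coe_mul, h]
  push_cast
  rw [ha, zero_mul, zero_add]

/-- **`U_p` commutes with the slash by `Γ₀(N)`, for `p ∣ N`.** -/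
theorem heckeU_slash_Gamma0 (hpN : p ∣ N) {f : ℍ → ℂ} (hf : Inv1 N k f) {g : SL(2, ℤ)}
    (hg : g ∈ Gamma0 N) : (heckeU k p f) ∣[k] g = heckeU k p (f ∣[k] g) := by
  have h10 : ((g 1 0 : ℤ) : ZMod N) = 0 := Gamma0_mem.mp hg
  have hcN : (N : ℤ) ∣ g 1 0 := (ZMod.intCast_zmod_eq_zero_iff_dvd _ _).mp h10
  have hc : (p : ℤ) ∣ g 1 0 := (Int.natCast_dvd_natCast.mpr hpN).trans hcN
  rw [heckeU_eq_sum_zmod k f, heckeU_eq_sum_zmod k (f ∣[k] g)]
  show (∑ x : ZMod p, f ∣[k] heckeMatrix p x.val) ∣[k] (mapGL ℝ g) = _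
  rw [SlashAction.sum_slash]
  calc ∑ x : ZMod p, (f ∣[k] heckeMatrix p x.val) ∣[k] mapGL ℝ g
      = ∑ x : ZMod p, (f ∣[k] g) ∣[k] heckeMatrix p
          (affinePerm g ((ZMod.intCast_zmod_eq_zero_iff_dvd _ _).mpr hc) x).val := by
        refine Finset.sum_congr rfl fun x _ ↦ ?_
        obtain ⟨g', h00', h10', h11', hmul⟩ := heckeMatrix_mul_of_dvd g hc x
        have hg'0 : g' ∈ Gamma0 N := by
          rw [Gamma0_mem, h10']
          push_cast
          rw [h10, mul_zero]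
        rw [← SlashAction.slash_mul, hmul, SlashAction.slash_mul]
        congr 1
        apply slash_eq_of_lr hf hg'0 hg
        rw [h11']
        push_cast
        rw [h10, zero_mul, sub_zero]
    _ = ∑ x : ZMod p, (f ∣[k] g) ∣[k] heckeMatrix p x.val :=
        Equiv.sum_comp (affinePerm g _) (fun x ↦ (f ∣[k] g) ∣[k] heckeMatrix p x.val)

/-- **`U_p` preserves `Γ₁(N)`-invariance for `p ∣ N`.** -/
theorem inv1_heckeU (hpN : p ∣ N) {f : ℍ → ℂ} (hf : Inv1 N k f) : Inv1 N k (heckeU k p f) := by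
  intro g hg
  rw [heckeU_slash_Gamma0 hpN hf (Gamma1_in_Gamma0 N hg), hf g hg]

end heckeU

/-! ### `T_p`, `p ∤ N` -/

section heckeT

variable {p : ℕ} {N : ℕ} {k : ℤ}

/-- `T_p` on `Γ₁(N)`-invariant functions, with the diamond operator realised as the slash by `σ`. -/
def T1fun (k : ℤ) (p : ℕ) (σ : SL(2, ℤ)) (f : ℍ → ℂ) : ℍ → ℂ :=
  heckeU k p f + (f ∣[k] σ) ∣[k] heckeDiagMatrix p

/-- the `p + 1` terms of `T_p`. -/
def termT (k : ℤ) (p : ℕ) (f f' : ℍ → ℂ) (x : OnePoint (ZMod p)) : ℍ → ℂ :=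
  x.elim (f' ∣[k] heckeDiagMatrix p) (fun j ↦ f ∣[k] heckeMatrix p j.val)

@[simp] theorem termT_infty (f f' : ℍ → ℂ) : termT k p f f' ∞ = f' ∣[k] heckeDiagMatrix p := rfl

@[simp] theorem termT_coe (f f' : ℍ → ℂ) (j : ZMod p) :
    termT k p f f' j = f ∣[k] heckeMatrix p j.val := rfl

theorem T1fun_eq_sum_onePoint [NeZero p] (σ : SL(2, ℤ)) (f : ℍ → ℂ) :
    T1fun k p σ f = ∑ x : OnePoint (ZMod p), termT k p f (f ∣[k] σ) x := by
  unfold T1fun
  rw [heckeU_eq_sum_zmod, add_comm]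
  exact (Fintype.sum_option (fun x : OnePoint (ZMod p) ↦ termT k p f (f ∣[k] σ) x)).symm

variable [Fact p.Prime]

variable (p) in
/-- the reduction mod `p` of (the transpose-inverse twist of) `g`, acting on `ℙ¹(𝔽_p)`. -/
def redMatrix (g : SL(2, ℤ)) : GL (Fin 2) (ZMod p) :=
  Matrix.GeneralLinearGroup.mkOfDetNeZero
    !![((g 1 1 : ℤ) : ZMod p), ((g 0 1 : ℤ) : ZMod p); ((g 1 0 : ℤ) : ZMod p), ((g 0 0 : ℤ) : ZMod p)]
    (by
      have := congrArg (Int.cast : ℤ → ZMod p) (det_eq g)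
      push_cast at this
      rw [Matrix.det_fin_two_of,
        show ((g 1 1 : ℤ) : ZMod p) * ((g 0 0 : ℤ) : ZMod p) -
            ((g 0 1 : ℤ) : ZMod p) * ((g 1 0 : ℤ) : ZMod p) = 1 by linear_combination this]
      exact one_ne_zero)

@[simp] theorem redMatrix_apply_zero_zero (g : SL(2, ℤ)) :
    redMatrix p g 0 0 = ((g 1 1 : ℤ) : ZMod p) := by
  simp [redMatrix]

@[simp] theorem redMatrix_apply_zero_one (g : SL(2, ℤ)) :
    redMatrix p g 0 1 = ((g 0 1 : ℤ) : ZMod p) := by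
  simp [redMatrix]

@[simp] theorem redMatrix_apply_one_zero (g : SL(2, ℤ)) :
    redMatrix p g 1 0 = ((g 1 0 : ℤ) : ZMod p) := by
  simp [redMatrix]

@[simp] theorem redMatrix_apply_one_one (g : SL(2, ℤ)) :
    redMatrix p g 1 1 = ((g 0 0 : ℤ) : ZMod p) := by
  simp [redMatrix]

instance instNeZeroOfFactPrime : NeZero p := ⟨(Fact.out : p.Prime).ne_zero⟩

/-- the effect of `g ∈ Γ₀(N)` on one term of `T_p`. -/
theorem termT_slash (hpN : ¬ p ∣ N) {f : ℍ → ℂ} (hf : Inv1 N k f) {σ : SL(2, ℤ)}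
    (hσ0 : σ ∈ Gamma0 N) (hσ : ((σ 1 1 : ℤ) : ZMod N) = (p : ZMod N)) {g : SL(2, ℤ)}
    (hg : g ∈ Gamma0 N) (x : OnePoint (ZMod p)) :
    (termT k p f (f ∣[k] σ) x) ∣[k] (mapGL ℝ g) =
      termT k p (f ∣[k] g) ((f ∣[k] g) ∣[k] σ) (redMatrix p g • x) := by
  have hp : p ≠ 0 := (Fact.out : p.Prime).ne_zero
  have h10 : ((g 1 0 : ℤ) : ZMod N) = 0 := Gamma0_mem.mp hg
  have hgN : (N : ℤ) ∣ g 1 0 := (ZMod.intCast_zmod_eq_zero_iff_dvd _ _).mp h10
  induction x using OnePoint.rec with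
  | infty =>
    rw [OnePoint.smul_infty_eq_ite]
    by_cases hc : ((g 1 0 : ℤ) : ZMod p) = 0
    · rw [if_pos (by simpa using hc), termT_infty, termT_infty]
      obtain ⟨e, he⟩ := (ZMod.intCast_zmod_eq_zero_iff_dvd _ _).mp hc
      obtain ⟨g', h00', h10', h11', hmul⟩ := heckeDiagMatrix_mul_of_eq' hp g e he
      have hcop : IsCoprime (N : ℤ) (p : ℤ) :=
        Nat.isCoprime_iff_coprime.mpr ((Nat.Prime.coprime_iff_not_dvd Fact.out).mpr hpN).symm
      have heN : (N : ℤ) ∣ e := hcop.dvd_of_dvd_mul_left (he ▸ hgN)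
      have hg'0 : g' ∈ Gamma0 N := by
        rw [Gamma0_mem, h10']
        exact (ZMod.intCast_zmod_eq_zero_iff_dvd _ _).mpr heN
      rw [← SlashAction.slash_mul, hmul, SlashAction.slash_mul]
      congr 1
      show (f ∣[k] σ) ∣[k] g' = (f ∣[k] g) ∣[k] σ
      rw [← SlashAction.slash_mul, ← SlashAction.slash_mul]
      apply slash_eq_of_lr hf ((Gamma0 N).mul_mem hσ0 hg'0) ((Gamma0 N).mul_mem hg hσ0)
      rw [lr_mul hσ0, lr_mul hg, h11', mul_comm]
    · rw [if_neg (by simpa using hc), termT_infty, termT_coe]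
      set y : ZMod p := redMatrix p g 0 0 / redMatrix p g 1 0 with hy
      obtain ⟨e, he⟩ : (p : ℤ) ∣ g 1 1 - g 1 0 * y.val := by
        rw [← ZMod.intCast_zmod_eq_zero_iff_dvd]
        push_cast
        rw [ZMod.natCast_zmod_val, hy, redMatrix_apply_zero_zero, redMatrix_apply_one_zero,
          mul_div_cancel₀ _ hc, sub_self]
      obtain ⟨g', h10', h11', hmul⟩ :=
        heckeDiagMatrix_mul_of_eq hp g y.val e (by linear_combination he)
      have hg'0 : g' ∈ Gamma0 N := by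
        rw [Gamma0_mem, h10', h10]
      rw [← SlashAction.slash_mul, hmul, SlashAction.slash_mul]
      congr 1
      show (f ∣[k] σ) ∣[k] g' = f ∣[k] g
      rw [← SlashAction.slash_mul]
      apply slash_eq_of_lr hf ((Gamma0 N).mul_mem hσ0 hg'0) hg
      rw [lr_mul hσ0, hσ, h11']
      have h1 : (p : ZMod N) * ((e : ℤ) : ZMod N) =
          ((g 1 1 : ℤ) : ZMod N) - ((g 1 0 : ℤ) : ZMod N) * ((y.val : ℕ) : ZMod N) := by
        have := congrArg (Int.cast : ℤ → ZMod N) he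
        push_cast at this
        exact this.symm
      rw [h10, zero_mul, sub_zero] at h1
      exact h1
  | coe j =>
    rw [OnePoint.smul_some_eq_ite]
    by_cases h : redMatrix p g 1 0 * j + redMatrix p g 1 1 = 0
    · rw [if_pos h, termT_infty, termT_coe]
      rw [redMatrix_apply_one_zero, redMatrix_apply_one_one] at h
      obtain ⟨e, he⟩ : (p : ℤ) ∣ g 0 0 + j.val * g 1 0 := by
        rw [← ZMod.intCast_zmod_eq_zero_iff_dvd]
        push_cast
        rw [ZMod.natCast_zmod_val]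
        linear_combination h
      obtain ⟨g', h10', h11', hmul⟩ := heckeMatrix_mul_of_eq' hp g j.val e he
      have hg'0 : g' ∈ Gamma0 N := by
        rw [Gamma0_mem, h10', h10]
      rw [← SlashAction.slash_mul, hmul, SlashAction.slash_mul]
      congr 1
      show f ∣[k] g' = (f ∣[k] g) ∣[k] σ
      rw [← SlashAction.slash_mul]
      apply slash_eq_of_lr hf hg'0 ((Gamma0 N).mul_mem hg hσ0)
      rw [lr_mul hg, hσ, h11']
      push_cast
      rw [mul_comm]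
    · rw [if_neg h, termT_coe, termT_coe]
      set y : ZMod p := (redMatrix p g 0 0 * j + redMatrix p g 0 1) /
        (redMatrix p g 1 0 * j + redMatrix p g 1 1) with hy
      obtain ⟨e, he⟩ : (p : ℤ) ∣ g 0 1 + j.val * g 1 1 - y.val * (g 0 0 + j.val * g 1 0) := by
        rw [← ZMod.intCast_zmod_eq_zero_iff_dvd]
        push_cast
        rw [ZMod.natCast_zmod_val, ZMod.natCast_zmod_val,
          show ((g 0 0 : ℤ) : ZMod p) + j * ((g 1 0 : ℤ) : ZMod p)
            = redMatrix p g 1 0 * j + redMatrix p g 1 1 by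
              rw [redMatrix_apply_one_zero, redMatrix_apply_one_one]; ring,
          hy, div_mul_cancel₀ _ h, redMatrix_apply_zero_zero, redMatrix_apply_zero_one]
        ring
      obtain ⟨g', h00', h10', h11', hmul⟩ :=
        heckeMatrix_mul_of_eq hp g j.val y.val e (by linear_combination he)
      have hg'0 : g' ∈ Gamma0 N := by
        rw [Gamma0_mem, h10']
        push_cast
        rw [h10, mul_zero]
      rw [← SlashAction.slash_mul, hmul, SlashAction.slash_mul]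
      congr 1
      apply slash_eq_of_lr hf hg'0 hg
      rw [h11']
      push_cast
      rw [h10, zero_mul, sub_zero]

/-- **`T_p` commutes with the slash by `Γ₀(N)`, for `p ∤ N`.** -/
theorem T1fun_slash_Gamma0 (hpN : ¬ p ∣ N) {f : ℍ → ℂ} (hf : Inv1 N k f) {σ : SL(2, ℤ)}
    (hσ0 : σ ∈ Gamma0 N) (hσ : ((σ 1 1 : ℤ) : ZMod N) = (p : ZMod N)) {g : SL(2, ℤ)}
    (hg : g ∈ Gamma0 N) : (T1fun k p σ f) ∣[k] g = T1fun k p σ (f ∣[k] g) := by
  rw [T1fun_eq_sum_onePoint, T1fun_eq_sum_onePoint]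
  show (∑ x : OnePoint (ZMod p), termT k p f (f ∣[k] σ) x) ∣[k] (mapGL ℝ g) = _
  rw [SlashAction.sum_slash]
  calc ∑ x : OnePoint (ZMod p), (termT k p f (f ∣[k] σ) x) ∣[k] mapGL ℝ g
      = ∑ x : OnePoint (ZMod p), termT k p (f ∣[k] g) ((f ∣[k] g) ∣[k] σ) (redMatrix p g • x) :=
        Finset.sum_congr rfl fun x _ ↦ termT_slash hpN hf hσ0 hσ hg x
    _ = ∑ x : OnePoint (ZMod p), termT k p (f ∣[k] g) ((f ∣[k] g) ∣[k] σ) x :=
        Equiv.sum_comp (MulAction.toPerm (redMatrix p g))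
          (fun x ↦ termT k p (f ∣[k] g) ((f ∣[k] g) ∣[k] σ) x)

/-- **`T_p` preserves `Γ₁(N)`-invariance for `p ∤ N`.** -/
theorem inv1_T1fun (hpN : ¬ p ∣ N) {f : ℍ → ℂ} (hf : Inv1 N k f) (σ : Gamma0 N)
    (hσ : Gamma0Map N σ = (p : ZMod N)) : Inv1 N k (T1fun k p (σ : SL(2, ℤ)) f) := by
  intro g hg
  rw [T1fun_slash_Gamma0 hpN hf σ.2 hσ (Gamma1_in_Gamma0 N hg), hf g hg]

end heckeT

end Fermat.Agent.M48.HeckeInv1
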