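/-
M48 (helper1), block (P8)/(H): **`q`-coefficients of 1-periodic holomorphic functions bounded at `i∞`**
(the function-level toolkit behind the `q`-expansion formulas for the Hecke and diamond operators of
`Γ₁(N)`).

* `Nice F` : `F : ℍ → ℂ` is `1`-periodic, holomorphic and bounded at `i∞`; closed under `+`, `-`, `•`, `*`,
  `heckeU`, `heckeT`; forms of `Γ₁(N)` are nice (`Nice.of_cuspForm`, `Nice.of_modularForm`);
* `qCoeff_add/sub/smul/neg` on nice functions, `qCoeff_mul` (Cauchy product), `Nice.ext_qCoeff`;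
* `qCoeff_heckeU`, `qCoeff_heckeT`, `qCoeff_slash_diag` for nice functions (from the Prelude).

Imported by no statement.
-/
import Mathlib
import Fermat.Prelude.Def_ModularForm_HeckeOperator
import Fermat.Prelude.Def_FLTPrelim_Modularity
import Fermat.Prelude.Thm_ModularForm_mdifferentiable_heckeU
import Fermat.Prelude.Thm_ModularForm_mdifferentiable_heckeT
import Fermat.Prelude.Thm_ModularForm_isBoundedAtImInfty_heckeU
import Fermat.Prelude.Thm_ModularForm_isBoundedAtImInfty_heckeT
import Fermat.Prelude.Thm_ModularForm_periodic_heckeU_comp_ofComplex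
import Fermat.Prelude.Thm_ModularForm_periodic_heckeT_comp_ofComplex
import Fermat.Prelude.Thm_UpperHalfPlane_qCoeff_heckeU
import Fermat.Prelude.Thm_UpperHalfPlane_qCoeff_heckeT
import Fermat.Prelude.Thm_UpperHalfPlane_eq_of_forall_qCoeff_eq

set_option autoImplicit false

open CongruenceSubgroup Matrix.SpecialLinearGroup UpperHalfPlane ModularForm ModularFormClass
open scoped MatrixGroups ModularForm Manifold

noncomputable section

namespace Fermat.Agent.M48.NiceQ1

/-- `1`-periodic, holomorphic, bounded at `i∞`. -/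
structure Nice (F : ℍ → ℂ) : Prop where
  per : Function.Periodic (F ∘ ofComplex) 1
  hol : MDiff F
  bdd : IsBoundedAtImInfty F

namespace Nice

variable {F G : ℍ → ℂ}

theorem analyticAt (hF : Nice F) : AnalyticAt ℂ (cuspFunction 1 F) 0 :=
  analyticAt_cuspFunction_zero one_pos hF.per hF.hol hF.bdd

theorem add (hF : Nice F) (hG : Nice G) : Nice (F + G) where
  per := fun z => by
    have h1 := hF.per z
    have h2 := hG.per z
    simp only [Function.comp_apply, Pi.add_apply] at h1 h2 ⊢
    rw [h1, h2]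
  hol := hF.hol.add hG.hol
  bdd := hF.bdd.add hG.bdd

theorem smul (hF : Nice F) (c : ℂ) : Nice (c • F) where
  per := fun z => by
    have h1 := hF.per z
    simp only [Function.comp_apply, Pi.smul_apply] at h1 ⊢
    rw [h1]
  hol := hF.hol.const_smul c
  bdd := hF.bdd.const_smul_left c

theorem neg (hF : Nice F) : Nice (-F) := by
  have := hF.smul (-1)
  simpa using this

theorem sub (hF : Nice F) (hG : Nice G) : Nice (F - G) := by
  rw [sub_eq_add_neg]
  exact hF.add hG.neg

theorem zero : Nice (0 : ℍ → ℂ) where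
  per := fun z => by simp
  hol := mdifferentiable_const
  bdd := zero_form_isBoundedAtImInfty

theorem mul (hF : Nice F) (hG : Nice G) : Nice (F * G) where
  per := fun z => by
    have h1 := hF.per z
    have h2 := hG.per z
    simp only [Function.comp_apply, Pi.mul_apply] at h1 h2 ⊢
    rw [h1, h2]
  hol := hF.hol.mul hG.hol
  bdd := hF.bdd.mul hG.bdd

theorem heckeU (hF : Nice F) (k : ℤ) (p : ℕ) : Nice (heckeU k p F) where
  per := periodic_heckeU_comp_ofComplex hF.per k p
  hol := mdifferentiable_heckeU hF.hol k p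
  bdd := isBoundedAtImInfty_heckeU hF.bdd k p

theorem heckeT (hF : Nice F) (k : ℤ) (p : ℕ) : Nice (heckeT k p F) where
  per := periodic_heckeT_comp_ofComplex hF.per k p
  hol := mdifferentiable_heckeT hF.hol k p
  bdd := isBoundedAtImInfty_heckeT hF.bdd k p

/-- the `V_p`-term `F ∣[k] diag(p, 1)` of `T_p`. -/
theorem slash_diag (hF : Nice F) (k : ℤ) (p : ℕ) : Nice (F ∣[k] heckeDiagMatrix p) := by
  have h : F ∣[k] heckeDiagMatrix p = ModularForm.heckeT k p F - ModularForm.heckeU k p F := by
    rw [heckeT_eq_heckeU_add, add_sub_cancel_left]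
  rw [h]
  exact (hF.heckeT k p).sub (hF.heckeU k p)

/-- two nice functions with the same `q`-coefficients are equal. -/
theorem ext_qCoeff (hF : Nice F) (hG : Nice G) (h : ∀ n, qCoeff F n = qCoeff G n) : F = G :=
  UpperHalfPlane.eq_of_forall_qCoeff_eq hF.per hF.hol hF.bdd hG.per hG.hol hG.bdd h

end Nice

/-! ### linearity of `qCoeff` -/

variable {F G : ℍ → ℂ}

theorem qCoeff_add (hF : Nice F) (hG : Nice G) (n : ℕ) :
    qCoeff (F + G) n = qCoeff F n + qCoeff G n := by
  unfold qCoeff
  rw [qExpansion_add hF.analyticAt hG.analyticAt, map_add]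

theorem qCoeff_smul (hF : Nice F) (c : ℂ) (n : ℕ) : qCoeff (c • F) n = c * qCoeff F n := by
  unfold qCoeff
  rw [qExpansion_smul hF.analyticAt, PowerSeries.coeff_smul, smul_eq_mul]

theorem qCoeff_neg (hF : Nice F) (n : ℕ) : qCoeff (-F) n = -qCoeff F n := by
  unfold qCoeff
  rw [qExpansion_neg hF.analyticAt, map_neg]

theorem qCoeff_sub (hF : Nice F) (hG : Nice G) (n : ℕ) :
    qCoeff (F - G) n = qCoeff F n - qCoeff G n := by
  unfold qCoeff
  rw [qExpansion_sub hF.analyticAt hG.analyticAt, map_sub]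

theorem qCoeff_zero_fun (n : ℕ) : qCoeff (0 : ℍ → ℂ) n = 0 := by
  unfold qCoeff
  rw [qExpansion_zero, map_zero]

/-- the Cauchy product. -/
theorem qCoeff_mul (hF : Nice F) (hG : Nice G) (n : ℕ) :
    qCoeff (F * G) n = ∑ x ∈ Finset.HasAntidiagonal.antidiagonal n, qCoeff F x.1 * qCoeff G x.2 := by
  unfold qCoeff
  rw [qExpansion_mul hF.analyticAt hG.analyticAt, PowerSeries.coeff_mul]

/-! ### Hecke operators -/

theorem qCoeff_heckeU (hF : Nice F) (k : ℤ) {p : ℕ} (hp : p ≠ 0) (n : ℕ) :
    qCoeff (ModularForm.heckeU k p F) n = qCoeff F (n * p) := by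
  rw [UpperHalfPlane.qCoeff_heckeU hF.per hF.hol hF.bdd k hp n, coeffHeckeU_apply]

theorem qCoeff_heckeT (hF : Nice F) (k : ℤ) {p : ℕ} (hp : p ≠ 0) (n : ℕ) :
    qCoeff (ModularForm.heckeT k p F) n =
      qCoeff F (n * p) + if p ∣ n then (p : ℂ) ^ (k - 1) * qCoeff F (n / p) else 0 := by
  rw [UpperHalfPlane.qCoeff_heckeT hF.per hF.hol hF.bdd k hp n, coeffHeckeT_apply]

/-- `q`-coefficients of `F ∣[k] diag(p,1) = p^(k-1) F(p ·)`. -/
theorem qCoeff_slash_diag (hF : Nice F) (k : ℤ) {p : ℕ} (hp : p ≠ 0) (n : ℕ) :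
    qCoeff (F ∣[k] heckeDiagMatrix p) n =
      if p ∣ n then (p : ℂ) ^ (k - 1) * qCoeff F (n / p) else 0 := by
  have h : F ∣[k] heckeDiagMatrix p = ModularForm.heckeT k p F - ModularForm.heckeU k p F := by
    rw [heckeT_eq_heckeU_add, add_sub_cancel_left]
  rw [h, qCoeff_sub (hF.heckeT k p) (hF.heckeU k p), qCoeff_heckeT hF k hp, qCoeff_heckeU hF k hp,
    add_sub_cancel_left]

/-! ### forms are nice -/

section forms

variable {N : ℕ} {k : ℤ}

theorem one_mem_strictPeriods_Gamma1 :
    (1 : ℝ) ∈ (Gamma1 N : Subgroup (GL (Fin 2) ℝ)).strictPeriods := by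
  rw [strictPeriods_Gamma1]
  exact AddSubgroup.mem_zmultiples 1

theorem Nice.of_modularFormClass {F' : Type*} [FunLike F' ℍ ℂ] [ModularFormClass F' (Gamma1 N) k]
    [NeZero N] (f : F') : Nice (⇑f) where
  per := SlashInvariantFormClass.periodic_comp_ofComplex f one_mem_strictPeriods_Gamma1
  hol := ModularFormClass.holo f
  bdd := ModularFormClass.bdd_at_infty f

end forms

end Fermat.Agent.M48.NiceQ1
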