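/-
M48 (helper1), block (P8)/(H): **Hecke operators on `CuspForm (Gamma1 N) k`**.

* `unitOfPrime hp hpN : (ZMod N)ˣ` : the class of a prime `p ∤ N`;
* `T1 k hp hpN` (`p` prime, `p ∤ N`) and `U1 k hp hpN'` (`p` prime, `p ∣ N`) : `ℂ`-linear endomorphisms of
  `CuspForm (Gamma1 N) k`; `coe_T1 : ⇑(T1 f) = heckeU k p ⇑f + ⇑(⟨p⟩ f) ∣[k] diag(p,1)`,
  `coe_U1 : ⇑(U1 f) = heckeU k p ⇑f` (the Prelude's `ModularForm.heckeU`);
* `qCoeff_T1 : qCoeff (T1 f) n = qCoeff f (n p) + [p ∣ n] p^(k-1) qCoeff (⟨p⟩ f) (n / p)`,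
  `qCoeff_U1 : qCoeff (U1 f) n = qCoeff f (n p)`, `qCoeff_diamondC`-free linearity lemmas
  `qCoeffC_add/smul/sub`, `CuspForm` extensionality by `q`-coefficients `ext_qCoeffC`;
* `heckeAlgebra1 N k S` : the `ℤ`-subalgebra of `End_ℂ (CuspForm (Gamma1 N) k)` generated by the `T_r`
  (`r` prime, `r ∤ N`, `r ∉ S`) and all diamond operators (the `Γ₁` twin of the Prelude's
  `CuspForm.heckeAlgebra`).

Imported by no statement.
-/
import Mathlib
import Fermat.Prelude.Thm_CuspFormClass_isZeroAt_heckeU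
import Fermat.Prelude.Thm_CuspFormClass_isZeroAt_heckeT
import Fermat.Agent.M48.Diamond1
import Fermat.Agent.M48.HeckeInv1
import Fermat.Agent.M48.NiceQ1

set_option autoImplicit false
set_option linter.unusedSectionVars false

open CongruenceSubgroup Matrix.SpecialLinearGroup UpperHalfPlane ModularForm ModularFormClass
open scoped MatrixGroups ModularForm Manifold

noncomputable section

namespace Fermat.Agent.M48.HeckeOne1

open Fermat.Agent.M48.Diamond1 Fermat.Agent.M48.HeckeInv1 Fermat.Agent.M48.NiceQ1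

variable {N : ℕ} [NeZero N] {k : ℤ}

/-- the class mod `N` of a prime `p ∤ N`. -/
def unitOfPrime {p : ℕ} (hp : p.Prime) (hpN : ¬ p ∣ N) : (ZMod N)ˣ :=
  ZMod.unitOfCoprime p ((Nat.Prime.coprime_iff_not_dvd hp).2 hpN)

@[simp] theorem coe_unitOfPrime {p : ℕ} (hp : p.Prime) (hpN : ¬ p ∣ N) :
    ((unitOfPrime hp hpN : (ZMod N)ˣ) : ZMod N) = (p : ZMod N) :=
  ZMod.coe_unitOfCoprime p _

theorem Gamma0Map_sigma_unitOfPrime {p : ℕ} (hp : p.Prime) (hpN : ¬ p ∣ N) :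
    Gamma0Map N (sigma (unitOfPrime hp hpN)) = (p : ZMod N) := by
  rw [← coe_unitOf, unitOf_sigma, coe_unitOfPrime]

theorem nice_cuspForm (f : CuspForm (Gamma1 N) k) : Nice (⇑f) := Nice.of_modularFormClass f

/-! ### `q`-coefficients of cusp forms of `Γ₁(N)` -/

theorem qCoeffC_add (f g : CuspForm (Gamma1 N) k) (n : ℕ) :
    qCoeff ⇑(f + g) n = qCoeff ⇑f n + qCoeff ⇑g n := by
  rw [FunLike.coe_add]
  exact qCoeff_add (nice_cuspForm f) (nice_cuspForm g) n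

theorem qCoeffC_smul (c : ℂ) (f : CuspForm (Gamma1 N) k) (n : ℕ) :
    qCoeff ⇑(c • f) n = c * qCoeff ⇑f n := by
  rw [FunLike.coe_smul]
  exact qCoeff_smul (nice_cuspForm f) c n

theorem qCoeffC_sub (f g : CuspForm (Gamma1 N) k) (n : ℕ) :
    qCoeff ⇑(f - g) n = qCoeff ⇑f n - qCoeff ⇑g n := by
  rw [FunLike.coe_sub]
  exact qCoeff_sub (nice_cuspForm f) (nice_cuspForm g) n

theorem qCoeffC_zero_form (n : ℕ) : qCoeff ⇑(0 : CuspForm (Gamma1 N) k) n = 0 := by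
  rw [FunLike.coe_zero]
  exact qCoeff_zero_fun n

theorem qCoeffC_zero_index (f : CuspForm (Gamma1 N) k) : qCoeff ⇑f 0 = 0 :=
  CuspFormClass.qExpansion_coeff_zero f one_pos one_mem_strictPeriods_Gamma1

theorem ext_qCoeffC {f g : CuspForm (Gamma1 N) k} (h : ∀ n, qCoeff ⇑f n = qCoeff ⇑g n) : f = g :=
  DFunLike.coe_injective ((nice_cuspForm f).ext_qCoeff (nice_cuspForm g) h)

/-! ### `U_p`, `p ∣ N` -/

/-- **`U_p` on cusp forms of `Γ₁(N)`**, `p ∣ N`. -/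
def U1 (k : ℤ) {p : ℕ} (hp : p.Prime) (hpN : p ∣ N) :
    CuspForm (Gamma1 N) k →ₗ[ℂ] CuspForm (Gamma1 N) k where
  toFun f :=
    haveI : NeZero p := ⟨hp.ne_zero⟩
    { toFun := heckeU k p ⇑f
      slash_action_eq' := (inv1_heckeU hpN (inv1_of_class f)).slash_action_eq
      holo' := mdifferentiable_heckeU (CuspFormClass.holo f) k p
      zero_at_cusps' := fun hc => CuspFormClass.isZeroAt_heckeU f p hc }
  map_add' f g := DFunLike.coe_injective <|
    show heckeU k p ⇑(f + g) = heckeU k p ⇑f + heckeU k p ⇑g by rw [FunLike.coe_add, heckeU_add]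
  map_smul' c f := DFunLike.coe_injective <|
    show heckeU k p ⇑(c • f) = c • heckeU k p ⇑f by rw [FunLike.coe_smul, heckeU_smul]

@[simp] theorem coe_U1 {p : ℕ} (hp : p.Prime) (hpN : p ∣ N) (f : CuspForm (Gamma1 N) k) :
    ⇑(U1 k hp hpN f) = heckeU k p ⇑f := rfl

theorem qCoeff_U1 {p : ℕ} (hp : p.Prime) (hpN : p ∣ N) (f : CuspForm (Gamma1 N) k) (n : ℕ) :
    qCoeff ⇑(U1 k hp hpN f) n = qCoeff ⇑f (n * p) := by
  rw [coe_U1, qCoeff_heckeU (nice_cuspForm f) k hp.ne_zero]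

/-! ### `T_p`, `p ∤ N` -/

/-- **`T_p` on cusp forms of `Γ₁(N)`**, `p ∤ N`: `U_p f + (⟨p⟩ f) ∣[k] diag(p,1)`. -/
def T1 (k : ℤ) {p : ℕ} (hp : p.Prime) (hpN : ¬ p ∣ N) :
    CuspForm (Gamma1 N) k →ₗ[ℂ] CuspForm (Gamma1 N) k where
  toFun f :=
    haveI : Fact p.Prime := ⟨hp⟩
    { toFun := heckeU k p ⇑f + ⇑(diamondC (unitOfPrime hp hpN) f) ∣[k] heckeDiagMatrix p
      slash_action_eq' :=
        (inv1_T1fun hpN (inv1_of_class f) (sigma (unitOfPrime hp hpN))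
          (Gamma0Map_sigma_unitOfPrime hp hpN)).slash_action_eq
      holo' := (mdifferentiable_heckeU (CuspFormClass.holo f) k p).add
        ((CuspFormClass.holo (diamondC (unitOfPrime hp hpN) f)).slash k _)
      zero_at_cusps' := fun {c} hc => by
        have h1 := CuspFormClass.isZeroAt_heckeU f p hc
        have h2 := CuspFormClass.isZeroAt_heckeT (diamondC (unitOfPrime hp hpN) f) p hc
        have h3 := CuspFormClass.isZeroAt_heckeU (diamondC (unitOfPrime hp hpN) f) p hc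
        have h4 : OnePoint.IsZeroAt c
            (⇑(diamondC (unitOfPrime hp hpN) f) ∣[k] heckeDiagMatrix p) k := by
          intro g hg
          have e : (⇑(diamondC (unitOfPrime hp hpN) f) ∣[k] heckeDiagMatrix p) ∣[k] g =
              (heckeT k p ⇑(diamondC (unitOfPrime hp hpN) f)) ∣[k] g +
                (-(heckeU k p ⇑(diamondC (unitOfPrime hp hpN) f))) ∣[k] g := by
            rw [← SlashAction.add_slash, heckeT_eq_heckeU_add]
            congr 1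
            abel
          rw [e, SlashAction.neg_slash]
          exact (h2 g hg).add (h3 g hg).neg
        exact h1.add h4 }
  map_add' f g := DFunLike.coe_injective <| by
    show heckeU k p ⇑(f + g) + ⇑(diamondC (unitOfPrime hp hpN) (f + g)) ∣[k] heckeDiagMatrix p =
      (heckeU k p ⇑f + ⇑(diamondC (unitOfPrime hp hpN) f) ∣[k] heckeDiagMatrix p) +
      (heckeU k p ⇑g + ⇑(diamondC (unitOfPrime hp hpN) g) ∣[k] heckeDiagMatrix p)
    rw [map_add, FunLike.coe_add, FunLike.coe_add, heckeU_add, SlashAction.add_slash]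
    abel
  map_smul' c f := DFunLike.coe_injective <| by
    show heckeU k p ⇑(c • f) + ⇑(diamondC (unitOfPrime hp hpN) (c • f)) ∣[k] heckeDiagMatrix p =
      c • (heckeU k p ⇑f + ⇑(diamondC (unitOfPrime hp hpN) f) ∣[k] heckeDiagMatrix p)
    rw [map_smul, FunLike.coe_smul, FunLike.coe_smul, heckeU_smul, smul_add]
    congr 1
    have hdet : 0 < ((heckeDiagMatrix p).det : ℝ) := det_heckeDiagMatrix_pos p
    rw [ModularForm.smul_slash, σ_heckeDiagMatrix]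
    rfl

theorem coe_T1 {p : ℕ} (hp : p.Prime) (hpN : ¬ p ∣ N) (f : CuspForm (Gamma1 N) k) :
    ⇑(T1 k hp hpN f) =
      heckeU k p ⇑f + ⇑(diamondC (unitOfPrime hp hpN) f) ∣[k] heckeDiagMatrix p := rfl

theorem qCoeff_T1 {p : ℕ} (hp : p.Prime) (hpN : ¬ p ∣ N) (f : CuspForm (Gamma1 N) k) (n : ℕ) :
    qCoeff ⇑(T1 k hp hpN f) n = qCoeff ⇑f (n * p) +
      if p ∣ n then (p : ℂ) ^ (k - 1) * qCoeff ⇑(diamondC (unitOfPrime hp hpN) f) (n / p) else 0 := by
  rw [coe_T1, qCoeff_add ((nice_cuspForm f).heckeU k p)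
    ((nice_cuspForm (diamondC (unitOfPrime hp hpN) f)).slash_diag k p),
    qCoeff_heckeU (nice_cuspForm f) k hp.ne_zero,
    qCoeff_slash_diag (nice_cuspForm (diamondC (unitOfPrime hp hpN) f)) k hp.ne_zero]

/-! ### function-level formulas -/

/-- `⇑(⟨d⟩ f) = ⇑f ∣[k] σ_d` for the chosen representative `sigma d ∈ Γ₀(N)`. -/
theorem coe_diamondC_sigma (d : (ZMod N)ˣ) (f : CuspForm (Gamma1 N) k) :
    ⇑(diamondC d f) = ⇑f ∣[k] ((sigma d : Gamma0 N) : SL(2, ℤ)) :=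
  coe_diamondC d f (sigma d) (unitOf_sigma d)

/-- the diamond operator by an element of `SL(2, ℤ)` lying in `Γ₀(N)`. -/
theorem coe_diamondC_of_mem (d : (ZMod N)ˣ) (f : CuspForm (Gamma1 N) k) {γ : SL(2, ℤ)}
    (hγ : γ ∈ Gamma0 N) (hd : ((γ 1 1 : ℤ) : ZMod N) = (d : ZMod N)) :
    ⇑(diamondC d f) = ⇑f ∣[k] γ :=
  coe_diamondC d f ⟨γ, hγ⟩ (Units.ext hd)

theorem coe_T1_eq_T1fun {p : ℕ} (hp : p.Prime) (hpN : ¬ p ∣ N) (f : CuspForm (Gamma1 N) k) :
    ⇑(T1 k hp hpN f) =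
      T1fun k p ((sigma (unitOfPrime hp hpN) : Gamma0 N) : SL(2, ℤ)) ⇑f := by
  rw [coe_T1, coe_diamondC_sigma]
  rfl

/-- **`T_p f = ∑_{j < p} f ∣ [[1, j], [0, p]] + f ∣ (σ_p · [[p, 0], [0, 1]])`** as functions. -/
theorem coe_T1_sum {p : ℕ} (hp : p.Prime) (hpN : ¬ p ∣ N) (f : CuspForm (Gamma1 N) k) :
    ⇑(T1 k hp hpN f) = ∑ j ∈ Finset.range p, ⇑f ∣[k] heckeMatrix p j +
      ⇑f ∣[k] (mapGL ℝ ((sigma (unitOfPrime hp hpN) : Gamma0 N) : SL(2, ℤ)) * heckeDiagMatrix p) := by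
  rw [coe_T1_eq_T1fun, SlashAction.slash_mul]
  rfl

theorem coe_U1_sum {p : ℕ} (hp : p.Prime) (hpN : p ∣ N) (f : CuspForm (Gamma1 N) k) :
    ⇑(U1 k hp hpN f) = ∑ j ∈ Finset.range p, ⇑f ∣[k] heckeMatrix p j := rfl

/-! ### commutation with the diamond operators -/

theorem diamondC_U1 (d : (ZMod N)ˣ) {p : ℕ} (hp : p.Prime) (hpN : p ∣ N)
    (f : CuspForm (Gamma1 N) k) :
    diamondC d (U1 k hp hpN f) = U1 k hp hpN (diamondC d f) :=
  DFunLike.coe_injective <| by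
    have : NeZero p := ⟨hp.ne_zero⟩
    rw [coe_diamondC_sigma, coe_U1, coe_U1, coe_diamondC_sigma]
    exact heckeU_slash_Gamma0 hpN (inv1_of_class f) (sigma d).2

theorem diamondC_T1 (d : (ZMod N)ˣ) {p : ℕ} (hp : p.Prime) (hpN : ¬ p ∣ N)
    (f : CuspForm (Gamma1 N) k) :
    diamondC d (T1 k hp hpN f) = T1 k hp hpN (diamondC d f) :=
  DFunLike.coe_injective <| by
    have : Fact p.Prime := ⟨hp⟩
    rw [coe_diamondC_sigma, coe_T1_eq_T1fun, coe_T1_eq_T1fun, coe_diamondC_sigma]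
    exact T1fun_slash_Gamma0 hpN (inv1_of_class f) (sigma (unitOfPrime hp hpN)).2
      (Gamma0Map_sigma_unitOfPrime hp hpN) (sigma d).2

/-! ### the operators as elements of `Module.End`, and the Hecke algebra -/

/-- `T_r` for every natural number `r`: the Hecke operator if `r` is a prime not dividing `N`, `0`
otherwise. -/
def Tnat (N : ℕ) [NeZero N] (k : ℤ) (r : ℕ) : Module.End ℂ (CuspForm (Gamma1 N) k) :=
  if h : r.Prime ∧ ¬ r ∣ N then T1 k h.1 h.2 else 0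

theorem Tnat_of_prime {r : ℕ} (hr : r.Prime) (hrN : ¬ r ∣ N) :
    Tnat N k r = T1 k hr hrN := dif_pos ⟨hr, hrN⟩

/-- the diamond operators as a monoid homomorphism `(ℤ/N)ˣ →* End_ℂ (S_k(Γ₁(N)))`. -/
def diamondHom (N : ℕ) [NeZero N] (k : ℤ) :
    (ZMod N)ˣ →* Module.End ℂ (CuspForm (Gamma1 N) k) where
  toFun d := diamondC d
  map_one' := LinearMap.ext fun f ↦ diamondC_one f
  map_mul' d e := LinearMap.ext fun f ↦ by
    rw [Module.End.mul_apply, mul_comm d e, diamondC_mul]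

@[simp] theorem diamondHom_apply (d : (ZMod N)ˣ) (f : CuspForm (Gamma1 N) k) :
    diamondHom N k d f = diamondC d f := rfl

/-- **the Hecke algebra of `S_k(Γ₁(N))` away from `S`**: the `ℤ`-subalgebra of
`End_ℂ (CuspForm (Gamma1 N) k)` generated by the `T_r` (`r` prime, `r ∤ N`, `r ∉ S`) and all diamond
operators. -/
def heckeAlgebra1 (N : ℕ) [NeZero N] (k : ℤ) (S : Set ℕ) :
    Subalgebra ℤ (Module.End ℂ (CuspForm (Gamma1 N) k)) :=
  Algebra.adjoin ℤ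
    ({T | ∃ r : ℕ, r.Prime ∧ ¬ r ∣ N ∧ r ∉ S ∧ T = Tnat N k r} ∪ Set.range (diamondHom N k))

theorem T1_mem_heckeAlgebra1 {S : Set ℕ} {r : ℕ} (hr : r.Prime) (hrN : ¬ r ∣ N) (hrS : r ∉ S) :
    T1 k hr hrN ∈ heckeAlgebra1 N k S :=
  Algebra.subset_adjoin (Or.inl ⟨r, hr, hrN, hrS, (Tnat_of_prime hr hrN).symm⟩)

theorem diamondC_mem_heckeAlgebra1 {S : Set ℕ} (d : (ZMod N)ˣ) :
    diamondC d ∈ heckeAlgebra1 N k S :=
  Algebra.subset_adjoin (Or.inr ⟨d, rfl⟩)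

end Fermat.Agent.M48.HeckeOne1
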