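/-
M48 (P1), analytic side (helper3): **the coset-sum operators of `Γ₁(M)`**: the diamond operators and
the Hecke operators `T_p` (`p ∤ M`) as `ESInv3.CosetOp (Gamma1 M)`, and their identification with
helper1's operators `Diamond1.diamondC`, `HeckeOne1.T1` on `CuspForm (Gamma1 M) 2`.

* `diaCoset1 σ` (`σ : Gamma0 M`): `I = Unit`, `g = σ`, `coc γ = σ γ σ⁻¹`;
  `diaCoset1_slashSum : (diaCoset1 σ).slashSum f = f ∣[2] σ`;
* `heckeCoset1 hpM σ hσ` (`σ : Gamma0 M` with lower right entry `≡ p`): `I = ℙ¹(𝔽_p) = Option (ZMod p)`,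
  `g (some j) = [[1, j], [0, p]]`, `g none = σ · [[p, 0], [0, 1]]`,
  `coc γ i = tw i · coc⁰ γ i · (tw (perm γ i))⁻¹` where `perm`, `coc⁰` are the level one data of
  `DoubleCoset27` and `tw (some j) = 1`, `tw none = σ`; the membership `coc γ i ∈ Γ₁(M)` is
  `coc1_mem` (the class of `coc⁰ γ i` in `Γ₀(M)/Γ₁(M) = (ℤ/M)ˣ` is `1, p, p⁻¹, 1`);
  `heckeCoset1_slashSum`;
* `coe_T1_eq_slashSum`, `coe_diamondC_eq_slashSum` : helper1's operators are these coset sums.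
-/
import Mathlib
import Fermat.Agent.ES.HEQ.DoubleCoset27
import Fermat.Agent.M48.ESInv3
import Fermat.Agent.M48.HeckeOne1

set_option autoImplicit false

noncomputable section

namespace Fermat.Agent.M48.G1Reps3

open UpperHalfPlane CongruenceSubgroup ModularForm
open scoped MatrixGroups ModularForm
open Matrix.SpecialLinearGroup
open Fermat.Agent.M48.ESInv3 Fermat.Agent.M48.Diamond1 Fermat.Agent.M48.HeckeOne1
open Fermat.Agent.ES.HEQ

variable {M : ℕ}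

/-! ### The diamond operators -/

theorem det_mapGL_pos (σ : SL(2, ℤ)) : 0 < ((mapGL ℝ σ : GL (Fin 2) ℝ).det).val := by
  simp

/-- The coset-sum operator of the diamond operator attached to `σ ∈ Γ₀(M)`. -/
def diaCoset1 (σ : Gamma0 M) : CosetOp (Gamma1 M) where
  I := Unit
  fintype := inferInstance
  g _ := mapGL ℝ (σ : SL(2, ℤ))
  det_pos _ := det_mapGL_pos _
  perm _ := 1
  coc γ _ := ⟨(σ : SL(2, ℤ)) * γ * (σ : SL(2, ℤ))⁻¹, conj_mem_Gamma1 σ γ.2⟩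
  rel γ _ := by
    rw [← map_mul, ← map_mul]
    congr 1
    simp
  perm_mul _ _ _ := rfl
  coc_mul γ δ _ := by
    apply Subtype.ext
    simp only [Subgroup.coe_mul]
    group

theorem diaCoset1_slashSum (σ : Gamma0 M) (f : ℍ → ℂ) :
    (diaCoset1 σ).slashSum f = f ∣[(2 : ℤ)] (σ : SL(2, ℤ)) := by
  show ∑ _i : Unit, f ∣[(2 : ℤ)] mapGL ℝ (σ : SL(2, ℤ)) = _
  rw [Finset.univ_unique, Finset.sum_singleton]
  rfl

/-! ### The Hecke operators -/

variable {p : ℕ} [hp : Fact p.Prime]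

/-- the twist: `1` at the finite indices, `σ` at `∞`. -/
def tw (σ : Gamma0 M) : Option (ZMod p) → Gamma0 M
  | some _ => 1
  | none => σ

omit hp in
@[simp] theorem tw_some (σ : Gamma0 M) (j : ZMod p) : tw σ (some j) = 1 := rfl

omit hp in
@[simp] theorem tw_none (σ : Gamma0 M) : tw (p := p) σ none = σ := rfl

omit hp in
/-- `Gamma0Map (tw σ i) * (β_i)₁₁ = p` in `ℤ/M`. -/
theorem tw_mul_beta {σ : Gamma0 M} (hσ : Gamma0Map M σ = (p : ZMod M)) (i : Option (ZMod p)) :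
    Gamma0Map M (tw σ i) * ((DoubleCoset27.beta p i 1 1 : ℤ) : ZMod M) = (p : ZMod M) := by
  cases i with
  | none => simp [hσ, DoubleCoset27.beta]
  | some j => simp [DoubleCoset27.beta]

/-- the lower right entry of a level one representative is a unit mod `M`. -/
theorem isUnit_beta (hpM : ¬ p ∣ M) (i : Option (ZMod p)) :
    IsUnit ((DoubleCoset27.beta p i 1 1 : ℤ) : ZMod M) := by
  have hcop : Nat.Coprime p M := (Nat.Prime.coprime_iff_not_dvd hp.out).mpr hpM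
  cases i with
  | none => simp [DoubleCoset27.beta]
  | some j =>
    simp only [DoubleCoset27.beta_some, Matrix.of_apply, Matrix.cons_val', Matrix.cons_val_one,
      Matrix.cons_val_fin_one, Int.cast_natCast]
    exact (ZMod.unitOfCoprime p hcop).isUnit

/-- For `γ ∈ Γ₁(M)`: `(coc γ i)₁₁ · (β_{perm γ i})₁₁ = (β_i)₁₁` in `ℤ/M`. -/
theorem coc_mul_beta (hpM : ¬ p ∣ M) {γ : SL(2, ℤ)} (hγ : γ ∈ Gamma1 M) (i : Option (ZMod p)) :
    Gamma0Map M (DoubleCoset27.cocG hpM ⟨γ, Gamma1_in_Gamma0 M hγ⟩ i)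
        * ((DoubleCoset27.beta p (DoubleCoset27.perm γ i) 1 1 : ℤ) : ZMod M)
      = ((DoubleCoset27.beta p i 1 1 : ℤ) : ZMod M) := by
  have hc0 : ((DoubleCoset27.coc γ i 1 0 : ℤ) : ZMod M) = 0 := by
    have := DoubleCoset27.coc_mem_Gamma0 hpM (Gamma1_in_Gamma0 M hγ) i
    rwa [Gamma0_mem] at this
  have hγ11 : ((γ 1 1 : ℤ) : ZMod M) = 1 := by
    rw [Gamma1_mem] at hγ
    exact hγ.2.1
  have e11 := congrFun (congrFun (DoubleCoset27.beta_mul γ i) 1) 1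
  simp only [Matrix.mul_apply, Fin.sum_univ_two, DoubleCoset27.beta_one_zero, zero_mul,
    zero_add] at e11
  have h := congrArg (Int.cast : ℤ → ZMod M) e11
  push_cast at h
  rw [hγ11, mul_one, hc0, zero_mul, zero_add] at h
  exact h.symm

/-- **the twisted cocycle takes values in `Γ₁(M)`.** -/
theorem coc1_mem (hpM : ¬ p ∣ M) {σ : Gamma0 M} (hσ : Gamma0Map M σ = (p : ZMod M))
    {γ : SL(2, ℤ)} (hγ : γ ∈ Gamma1 M) (i : Option (ZMod p)) :
    ((tw σ i : Gamma0 M) : SL(2, ℤ)) * DoubleCoset27.coc γ i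
        * ((tw σ (DoubleCoset27.perm γ i) : Gamma0 M) : SL(2, ℤ))⁻¹ ∈ Gamma1 M := by
  set k := DoubleCoset27.perm γ i with hk
  set c : Gamma0 M := DoubleCoset27.cocG hpM ⟨γ, Gamma1_in_Gamma0 M hγ⟩ i with hc
  rw [mem_Gamma1_iff_map]
  have hmem : ((tw σ i : Gamma0 M) : SL(2, ℤ)) * DoubleCoset27.coc γ i
      * ((tw σ k : Gamma0 M) : SL(2, ℤ))⁻¹ ∈ Gamma0 M := (tw σ i * c * (tw σ k)⁻¹).2
  refine ⟨hmem, ?_⟩
  have e : (⟨_, hmem⟩ : Gamma0 M) = tw σ i * c * (tw σ k)⁻¹ := rfl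
  rw [e, map_mul, map_mul]
  -- `a c = a'`
  have h1 := tw_mul_beta hσ i
  have h2 := tw_mul_beta hσ k
  have h3 := coc_mul_beta hpM hγ i
  have hu := isUnit_beta (M := M) hpM k
  have hac : Gamma0Map M (tw σ i) * Gamma0Map M c = Gamma0Map M (tw σ k) := by
    apply hu.mul_right_cancel
    rw [mul_assoc, h3, h1, h2]
  rw [hac, Gamma0Map_mul_inv]

/-- the representatives of `T_p` on `Γ₁(M)`. -/
def g1 (σ : Gamma0 M) (i : Option (ZMod p)) : GL (Fin 2) ℝ :=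
  mapGL ℝ ((tw σ i : Gamma0 M) : SL(2, ℤ)) * DoubleCoset27.glBeta p i

omit hp in
theorem det_glBeta_pos (i : Option (ZMod p)) : 0 < ((DoubleCoset27.glBeta p i).det).val := by
  cases i with
  | none => exact det_heckeDiagMatrix_pos p
  | some j => exact det_heckeMatrix_pos p j.val

/-- **The coset-sum operator of `T_p` on `Γ₁(M)`**, `p ∤ M`, for a `σ ∈ Γ₀(M)` with lower right
entry `≡ p`. -/
def heckeCoset1 (hpM : ¬ p ∣ M) (σ : Gamma0 M) (hσ : Gamma0Map M σ = (p : ZMod M)) :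
    CosetOp (Gamma1 M) where
  I := Option (ZMod p)
  fintype := inferInstance
  g := g1 σ
  det_pos i := by
    rw [g1, map_mul, Units.val_mul]
    exact mul_pos (det_mapGL_pos _) (det_glBeta_pos i)
  perm γ := DoubleCoset27.permEquiv (γ : SL(2, ℤ))
  coc γ i := ⟨_, coc1_mem hpM hσ γ.2 i⟩
  rel γ i := by
    show mapGL ℝ ((tw σ i : Gamma0 M) : SL(2, ℤ)) * DoubleCoset27.glBeta p i
        * mapGL ℝ ((γ : Gamma1 M) : SL(2, ℤ))
      = mapGL ℝ (((tw σ i : Gamma0 M) : SL(2, ℤ)) * DoubleCoset27.coc (γ : SL(2, ℤ)) i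
          * ((tw σ (DoubleCoset27.perm (γ : SL(2, ℤ)) i) : Gamma0 M) : SL(2, ℤ))⁻¹)
        * (mapGL ℝ ((tw σ (DoubleCoset27.perm (γ : SL(2, ℤ)) i) : Gamma0 M) : SL(2, ℤ))
          * DoubleCoset27.glBeta p (DoubleCoset27.perm (γ : SL(2, ℤ)) i))
    rw [mul_assoc, DoubleCoset27.glBeta_mul, map_mul, map_mul, map_inv]
    group
  perm_mul γ δ i := DoubleCoset27.perm_mul (γ : SL(2, ℤ)) (δ : SL(2, ℤ)) i
  coc_mul γ δ i := by
    apply Subtype.ext
    show ((tw σ i : Gamma0 M) : SL(2, ℤ)) * DoubleCoset27.coc ((γ * δ : Gamma1 M) : SL(2, ℤ)) i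
        * ((tw σ (DoubleCoset27.perm ((γ * δ : Gamma1 M) : SL(2, ℤ)) i) : Gamma0 M) : SL(2, ℤ))⁻¹
      = (((tw σ i : Gamma0 M) : SL(2, ℤ)) * DoubleCoset27.coc (γ : SL(2, ℤ)) i
          * ((tw σ (DoubleCoset27.perm (γ : SL(2, ℤ)) i) : Gamma0 M) : SL(2, ℤ))⁻¹)
        * (((tw σ (DoubleCoset27.perm (γ : SL(2, ℤ)) i) : Gamma0 M) : SL(2, ℤ))
          * DoubleCoset27.coc (δ : SL(2, ℤ)) (DoubleCoset27.perm (γ : SL(2, ℤ)) i)
          * ((tw σ (DoubleCoset27.perm (δ : SL(2, ℤ)) (DoubleCoset27.perm (γ : SL(2, ℤ)) i))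
              : Gamma0 M) : SL(2, ℤ))⁻¹)
    rw [Subgroup.coe_mul, DoubleCoset27.coc_mul, DoubleCoset27.perm_mul]
    group

theorem heckeCoset1_slashSum (hpM : ¬ p ∣ M) (σ : Gamma0 M) (hσ : Gamma0Map M σ = (p : ZMod M))
    (f : ℍ → ℂ) :
    (heckeCoset1 hpM σ hσ).slashSum f = ∑ j ∈ Finset.range p, f ∣[(2 : ℤ)] heckeMatrix p j +
      f ∣[(2 : ℤ)] (mapGL ℝ ((σ : Gamma0 M) : SL(2, ℤ)) * heckeDiagMatrix p) := by
  have : NeZero p := ⟨hp.out.ne_zero⟩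
  show ∑ i : Option (ZMod p), f ∣[(2 : ℤ)] g1 σ i = _
  rw [Fintype.sum_option, add_comm, HeckeInv1.sum_range_eq_sum_zmod]
  congr 1
  refine Finset.sum_congr rfl fun j _ => ?_
  show f ∣[(2 : ℤ)] (mapGL ℝ ((1 : Gamma0 M) : SL(2, ℤ)) * heckeMatrix p j.val) = _
  rw [Subgroup.coe_one, map_one, one_mul]

/-! ### helper1's operators are coset sums -/

variable [NeZero M]

omit hp in
/-- `⟨d⟩` is the coset-sum operator `diaCoset1 (sigma d)`. -/
theorem coe_diamondC_eq_slashSum (d : (ZMod M)ˣ) (f : CuspForm (Gamma1 M) 2) :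
    (⇑(diamondC d f) : ℍ → ℂ) = (diaCoset1 (sigma d)).slashSum ⇑f := by
  rw [diaCoset1_slashSum, coe_diamondC_sigma]

omit hp in
/-- `T_p` (`p ∤ M`) is the coset-sum operator `heckeCoset1`. -/
theorem coe_T1_eq_slashSum {p : ℕ} (hp' : p.Prime) (hpM : ¬ p ∣ M) (f : CuspForm (Gamma1 M) 2) :
    haveI : Fact p.Prime := ⟨hp'⟩
    (⇑(T1 2 hp' hpM f) : ℍ → ℂ) =
      (heckeCoset1 hpM (sigma (unitOfPrime hp' hpM)) (Gamma0Map_sigma_unitOfPrime hp' hpM)).slashSum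
        ⇑f := by
  have : Fact p.Prime := ⟨hp'⟩
  rw [heckeCoset1_slashSum, coe_T1_sum]

end Fermat.Agent.M48.G1Reps3
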