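/-
M48 (P1), [KUM1] (HC1), analytic leaf (helper3): **a real matrix of positive determinant which
preserves `j` is a scalar multiple of an element of `SL(2, ℤ)`.**

* `scalar_of_fix_open` : `n ∈ GL₂⁺(ℝ)` fixing a nonempty open subset of `ℍ` pointwise is scalar;
* `exists_SL_of_jFun_comp` : `j ∘ m = j` on `ℍ` ⇒ `m = c · γ` with `γ ∈ SL(2, ℤ)`, `c ≠ 0`
  (Baire category: `ℍ = ⋃_γ {z | γ z = m z}` is a countable union of closed sets).

Used for the injectivity of the complete family of realisations of the function field of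
`X(Γ₁(M) ∩ Γ₀(M ℓ))` over `β(F)` (distinctness of the conjugates `j ∘ g_i`).
-/
import Mathlib
import Fermat.Agent.X0.JInjective

set_option autoImplicit false

open UpperHalfPlane hiding I
open scoped MatrixGroups Topology
open Matrix.SpecialLinearGroup

noncomputable section

namespace Fermat.Agent.M48.JScalar3

open Fermat.Agent.X0

/-- a matrix of positive determinant which fixes a nonempty open subset of `ℍ` pointwise is
scalar. -/
theorem scalar_of_fix_open {n : GL (Fin 2) ℝ} (hn : 0 < n.det.val) {U : Set ℍ} (hU : IsOpen U)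
    (hne : U.Nonempty) (h : ∀ z ∈ U, n • z = z) :
    n 1 0 = 0 ∧ n 0 1 = 0 ∧ n 0 0 = n 1 1 := by
  classical
  let p : Polynomial ℂ :=
    Polynomial.C ((n 1 0 : ℝ) : ℂ) * Polynomial.X ^ 2
      + Polynomial.C (((n 1 1 : ℝ) : ℂ) - ((n 0 0 : ℝ) : ℂ)) * Polynomial.X
      - Polynomial.C ((n 0 1 : ℝ) : ℂ)
  have hroot : ∀ z ∈ U, p.IsRoot ((z : ℍ) : ℂ) := by
    intro z hz
    have h1 : ((n • z : ℍ) : ℂ) = (z : ℂ) := congrArg UpperHalfPlane.coe (h z hz)
    rw [coe_smul_of_det_pos hn, div_eq_iff (denom_ne_zero n z)] at h1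
    simp only [num, denom] at h1
    simp only [p, Polynomial.IsRoot, Polynomial.eval_sub, Polynomial.eval_add, Polynomial.eval_mul,
      Polynomial.eval_C, Polynomial.eval_pow, Polynomial.eval_X]
    linear_combination -h1
  have hinf : Set.Infinite {x : ℂ | p.IsRoot x} := by
    obtain ⟨z₀, hz₀⟩ := hne
    have hopen : IsOpen ((UpperHalfPlane.coe) '' U : Set ℂ) :=
      UpperHalfPlane.isOpenEmbedding_coe.isOpenMap U hU
    have hmem : ((UpperHalfPlane.coe) '' U : Set ℂ) ∈ 𝓝 ((z₀ : ℍ) : ℂ) :=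
      hopen.mem_nhds ⟨z₀, hz₀, rfl⟩
    refine (infinite_of_mem_nhds _ hmem).mono ?_
    rintro _ ⟨z, hz, rfl⟩
    exact hroot z hz
  have hp : p = 0 := Polynomial.eq_zero_of_infinite_isRoot p hinf
  have h2 : ((n 1 0 : ℝ) : ℂ) = 0 := by
    have := congrArg (fun q : Polynomial ℂ => q.coeff 2) hp
    simpa [p, Polynomial.coeff_X, Polynomial.coeff_C] using this
  have h1 : ((n 1 1 : ℝ) : ℂ) - ((n 0 0 : ℝ) : ℂ) = 0 := by
    have := congrArg (fun q : Polynomial ℂ => q.coeff 1) hp
    simpa [p, Polynomial.coeff_X, Polynomial.coeff_C] using this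
  have h0 : ((n 0 1 : ℝ) : ℂ) = 0 := by
    have := congrArg (fun q : Polynomial ℂ => q.coeff 0) hp
    simpa [p, Polynomial.coeff_X, Polynomial.coeff_C] using this
  refine ⟨by exact_mod_cast h2, by exact_mod_cast h0, ?_⟩
  have h3 : ((n 0 0 : ℝ) : ℂ) = ((n 1 1 : ℝ) : ℂ) := (sub_eq_zero.mp h1).symm
  exact_mod_cast h3

/-- **a real matrix of positive determinant preserving `j` is a scalar multiple of an element of
`SL(2, ℤ)`.** -/
theorem exists_SL_of_jFun_comp {m : GL (Fin 2) ℝ} (hm : 0 < m.det.val)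
    (h : ∀ z : ℍ, jFun (m • z) = jFun z) :
    ∃ (γ : SL(2, ℤ)) (c : ℝˣ), m = mapGL ℝ γ * Matrix.GeneralLinearGroup.scalar (Fin 2) c := by
  classical
  let S : SL(2, ℤ) → Set ℍ := fun γ => {z | (mapGL ℝ γ : GL (Fin 2) ℝ) • z = m • z}
  have hclosed : ∀ γ, IsClosed (S γ) := fun γ =>
    isClosed_eq (continuous_const_smul _) (continuous_const_smul _)
  have hcover : ⋃ γ, S γ = Set.univ := by
    refine Set.eq_univ_of_forall fun z => ?_
    obtain ⟨γ, hγ⟩ := (jFun_eq_iff z (m • z)).mp (h z).symm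
    exact Set.mem_iUnion.mpr ⟨γ, hγ⟩
  have hcnt : Countable SL(2, ℤ) := by
    have : Countable (Matrix (Fin 2) (Fin 2) ℤ) := by
      unfold Matrix
      infer_instance
    exact Subtype.countable
  obtain ⟨γ, hγ⟩ := nonempty_interior_of_iUnion_of_closed hclosed hcover
  set n : GL (Fin 2) ℝ := (mapGL ℝ γ)⁻¹ * m with hn
  have hdet : 0 < n.det.val := by
    rw [hn, map_mul, map_inv, Units.val_mul]
    have : ((mapGL ℝ γ : GL (Fin 2) ℝ).det) = 1 := by simp
    rw [this, inv_one, Units.val_one, one_mul]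
    exact hm
  have hfix : ∀ z ∈ interior (S γ), n • z = z := by
    intro z hz
    have hz'' : z ∈ S γ := interior_subset hz
    have hz' : (mapGL ℝ γ : GL (Fin 2) ℝ) • z = m • z := hz''
    rw [hn, mul_smul, ← hz', inv_smul_smul]
  obtain ⟨h10, h01, h00⟩ := scalar_of_fix_open hdet isOpen_interior hγ hfix
  have hc0 : n 0 0 ≠ 0 := by
    intro h0
    have hd : n.det.val = n 0 0 * n 1 1 - n 0 1 * n 1 0 := by
      rw [Matrix.GeneralLinearGroup.val_det_apply, Matrix.det_fin_two]
    rw [hd, h10, h01, h0] at hdet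
    simp at hdet
  refine ⟨γ, Units.mk0 _ hc0, ?_⟩
  have hn' : n = Matrix.GeneralLinearGroup.scalar (Fin 2) (Units.mk0 _ hc0) := by
    apply Units.ext
    ext i j
    fin_cases i <;> fin_cases j <;> simp [h10, h01, ← h00]
  rw [← hn', hn, mul_inv_cancel_left]

end Fermat.Agent.M48.JScalar3
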