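/-
M48 (P1), (K2) second half, Γ-generic (helper3): **Tate-side equivariance for an arbitrary coset-sum
operator.**  For `T : ESInv3.CosetOp Γ` (`T_p` with any representatives, `U_q`, diamond operators):

* `mulX T : X Γ →+ X Γ` : the operator `χ ↦ (γ ↦ ∏ i, χ (coc γ i))` on the characters `Γ → ℂˣ`
  (`= CosetOp3.mulHom`, written additively as in `TateChar11`);
* `fullEquiv_mulX` : `fullEquiv p Γ (map (mulX T) x) = T.addHom (fullEquiv p Γ x)`;
* `tateEquiv_map` : for a `KummerSystem p Γ J` and `f : J →+ J` corresponding to `mulX T` under the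
  Kummer maps, `KS.tateEquiv (map f x) = parOp T ℤ_[p] ℤ_[p] (KS.tateEquiv x)`;
* **`map_iota`** : `map f (iota KS φ) = iota KS (parOp T ℤ ℤ φ)` — `ι₀ : Λ → T_p J` intertwines the
  lattice operator with the operator induced by `f`.
Γ-generic twin of `TateChar11` §Hecke/§KummerHecke and `TateCompare11` §Hecke.
-/
import Mathlib
import Fermat.Agent.ES.J.TateCompare11
import Fermat.Agent.M48.CosetOp3

set_option autoImplicit false

noncomputable section

namespace Fermat.Agent.M48.TateCoset3

open Fermat.Agent.ES.J.TateModule13 Fermat.Agent.ES.J.TateChar11 Fermat.Agent.ES.J.TateCompare11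
open Fermat.Agent.ES.HEQ.ParLattice11
open Fermat.Agent.M48.ESInv3 Fermat.Agent.M48.CosetOp3
open ModularCurve.Period
open scoped MatrixGroups

variable {p : ℕ} [hp : Fact p.Prime] {Γ : Subgroup SL(2, ℤ)} (T : CosetOp Γ)

/-- the coset-sum operator on the characters of `Γ`, additively. -/
def mulX : X Γ →+ X Γ where
  toFun χ := Additive.ofMul (mulHom T (Additive.toMul χ))
  map_zero' := by
    show Additive.ofMul (mulHom T (1 : Γ →* ℂˣ)) = 0
    have : mulHom T (1 : Γ →* ℂˣ) = 1 := by
      ext γ
      simp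
    rw [this]
    rfl
  map_add' χ ψ := by
    show Additive.ofMul (mulHom T (Additive.toMul χ * Additive.toMul ψ))
      = Additive.ofMul (mulHom T (Additive.toMul χ)) + Additive.ofMul (mulHom T (Additive.toMul ψ))
    have : mulHom T (Additive.toMul χ * Additive.toMul ψ)
        = mulHom T (Additive.toMul χ) * mulHom T (Additive.toMul ψ) := by
      ext γ
      simp [Finset.prod_mul_distrib]
    rw [this]
    rfl

theorem mulX_apply (χ : X Γ) (γ : Γ) :
    (Additive.toMul (mulX T χ)) γ = ∏ i, (Additive.toMul χ) (T.coc γ i) := rfl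

/-- `fullEquiv` intertwines `mulX T` on characters with `T.addHom` on `Hom(Γ, ℤ_p)`. -/
theorem fullEquiv_mulX (x : TateModule p (X Γ)) :
    fullEquiv p Γ (map (mulX T) x) = T.addHom (fullEquiv p Γ x) := by
  refine AddMonoidHom.ext fun γ => ?_
  exact fullEquiv_map_of_prod (p := p) (Finset.univ : Finset T.I) (fun i γ => T.coc γ i) (mulX T)
    (fun χ γ => mulX_apply T χ γ) x (Additive.toMul γ)

variable {J : Type*} [AddCommGroup J] (KS : KummerSystem p Γ J)

/-- **equivariance of `tateEquiv`**: if `f : J →+ J` corresponds to `mulX T` under the Kummer maps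
then `T_p f` corresponds to the coset-sum operator on `Hom_par(Γ, ℤ_p)`. -/
theorem tateEquiv_map (f : J →+ J)
    (hf : ∀ (k : ℕ) (x : ↥(tors J (p ^ k))) (hfx : f (x : J) ∈ tors J (p ^ k)),
      KS.κ k ⟨f (x : J), hfx⟩ = mulX T (KS.κ k x))
    (x : TateModule p J) :
    KS.tateEquiv (map f x) = parOp T ℤ_[p] ℤ_[p] (KS.tateEquiv x) := by
  apply Subtype.ext
  rw [coe_parOp, KummerSystem.tateEquiv_apply, KummerSystem.tateEquiv_apply, coe_parEquiv,
    coe_parEquiv, ← fullEquiv_mulX]
  congr 1
  apply TateModule.ext'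
  intro k
  show KS.κ k (KummerSystem.comp (map f x) k) = mulX T (KS.κ k (KummerSystem.comp x k))
  rw [← hf k (KummerSystem.comp x k)
    (by
      show f (proj k x) ∈ _
      rw [← proj_map]
      exact KummerSystem.proj_mem_tors _ k)]
  rfl

/-- **(K2), second half, for an arbitrary coset-sum operator**: `ι₀` intertwines the lattice operator
`parOp T ℤ ℤ` with the operator induced on `T_p J` by an endomorphism `f` of `J` corresponding to
`mulX T` under the Kummer maps. -/
theorem map_iota (f : J →+ J)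
    (hf : ∀ (k : ℕ) (x : ↥(tors J (p ^ k))) (hfx : f (x : J) ∈ tors J (p ^ k)),
      KS.κ k ⟨f (x : J), hfx⟩ = mulX T (KS.κ k x))
    (φ : ↥(parabolicHoms ℤ Γ ℤ)) :
    map f (iota KS φ) = iota KS (parOp T ℤ ℤ φ) := by
  apply KS.tateEquiv.injective
  rw [tateEquiv_map T KS f hf, tateEquiv_iota, tateEquiv_iota, parOp_castPar]

end Fermat.Agent.M48.TateCoset3
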