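/-
M48 (P1), [KUM1] (HC1), generic core (helper3): **Hecke-equivariance of Kummer maps for an ARBITRARY
coset-sum operator**, generic in the function fields.

Generalises `ES/HEQ/KummerHeckeMain19` (`Γ₀(N)`, `T_ℓ`) to: a subgroup `Γ ≤ SL(2, ℤ)`, a coset-sum
operator `T : ESInv3.CosetOp Γ` (`T_ℓ` with any representatives, `U_q`, diamond operators), two function
fields `F`, `F'` over `K` with embeddings `φ ψ : F → F'` and the correspondence `ψ_* φ^*` on `Pic⁰ K F`
(the Prelude's `Pic0.correspondence φ ψ`), a realisation `an : F → MerH` and a complete family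
`σ i : F' → MerH` of realisations over `an ∘ ψ⁻¹` with `σ i ∘ φ = (· ∘ g_i) ∘ an`.

* `glB T i := glMer (T.g i)` : `h ↦ h ∘ g_i` on `MerH`;  `slMer_glB` : the coset relation in `MerH`;
* `heckeRootT T h := ∏ i, h ∘ g_i`; **`slMer_heckeRootT`** : if `h ∘ γ = χ(γ) h` for `γ ∈ Γ` then
  `(∏ i, h ∘ g_i) ∘ γ = (mulHom T χ)(γ) · ∏ i, h ∘ g_i` (no function field needed);
* `setupOf` : the `KummerHeckeAbs19.Setup` attached to `T` and the `σ i`;
* `IsKummerMapG an n κ` : the characterisation of the Kummer map `κ : Pic⁰(F)[n] → Hom(Γ, ℂˣ)` through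
  `n`-th roots in `MerH` (= `KummerHeckeMain19.IsKummerMap` for `Γ₀(N)`);
* **`kummer_coset`** : `κ (ψ_* φ^* x) = mulHom T (κ x)`;
* `kummer_coset_add` : the same for an additive `κ : tors (Pic0 K F) n →+ X Γ`, in the literal shape of
  the hypothesis `hf` of `TateCoset3.map_iota` / of `P1Geom3.P1Geom.hecke_compat`, `dia_compat`.
-/
import Fermat.Agent.ES.HEQ.KummerHeckeMain19
import Fermat.Agent.M48.TateCoset3

set_option autoImplicit false
set_option linter.style.haveILetI false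
set_option linter.unusedSectionVars false

open UpperHalfPlane hiding I
open scoped Manifold MatrixGroups
open AlgebraicCurve

noncomputable section

namespace Fermat.Agent.M48.KummerCoset3

open Fermat.Agent.X0 Fermat.Agent.X0.SurjPoint Fermat.Agent.ES.KUM
open Fermat.Agent.ES.HEQ.BetaMer19 Fermat.Agent.ES.HEQ.KummerHeckeAbs19
open Fermat.Agent.ES.HEQ.KummerHeckeMain19
open Fermat.Agent.M48.ESInv3 Fermat.Agent.M48.CosetOp3
open Matrix.SpecialLinearGroup

variable {Γ : Subgroup SL(2, ℤ)} (T : CosetOp Γ)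

/-! ### The coset relation in `MerH` -/

/-- `h ↦ h ∘ g_i` on meromorphic functions. -/
def glB (i : T.I) : MerH →+* MerH := glMer (T.g i) (T.det_pos i)

theorem glB_const (i : T.I) (c : ℂ) :
    glB T i (algebraMap HolH MerH (algebraMap ℂ HolH c)) =
      algebraMap HolH MerH (algebraMap ℂ HolH c) :=
  glMer_const _ _ c

/-- **the coset relation in `MerH`**: `(h ∘ g_i) ∘ γ = (h ∘ coc γ i) ∘ g_{perm γ i}`. -/
theorem slMer_glB (γ : Γ) (i : T.I) (h : MerH) :
    slMer (γ : SL(2, ℤ)) (glB T i h)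
      = glB T (T.perm γ i) (slMer ((T.coc γ i : Γ) : SL(2, ℤ)) h) := by
  unfold glB
  rw [← glMer_mapGL (γ : SL(2, ℤ)), ← glMer_mapGL ((T.coc γ i : Γ) : SL(2, ℤ)), ← glMer_mul,
    ← glMer_mul]
  exact glMer_congr (T.rel γ i) _ h

/-- `∏ i, h ∘ g_i`. -/
def heckeRootT (h : MerH) : MerH := ∏ i, glB T i h

theorem heckeRootT_ne_zero {h : MerH} (hh : h ≠ 0) : heckeRootT T h ≠ 0 :=
  Finset.prod_ne_zero_iff.mpr fun i _ => (map_ne_zero (glB T i)).mpr hh

/-- **the multiplier of `∏ i, h ∘ g_i` is `mulHom T` of the multiplier of `h`.** -/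
theorem slMer_heckeRootT {h : MerH} {χ : Γ →* ℂˣ}
    (hχ : ∀ γ : Γ, slMer (γ : SL(2, ℤ)) h = constHom (χ γ) * h) (γ : Γ) :
    slMer (γ : SL(2, ℤ)) (heckeRootT T h) = constHom (mulHom T χ γ) * heckeRootT T h := by
  classical
  rw [heckeRootT, map_prod, mulHom_apply, map_prod,
    ← Equiv.prod_comp (T.perm γ) (fun i => glB T i h), ← Finset.prod_mul_distrib]
  refine Finset.prod_congr rfl fun i _ => ?_
  rw [slMer_glB, hχ, map_mul, constHom_apply, glB_const]

/-! ### The abstract interface of `KummerHeckeAbs19` -/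

variable {K F F' : Type*} [Field K] [Field F] [Field F'] [Algebra K F] [Algebra K F']

/-- the `Setup` of `KummerHeckeAbs19` attached to a coset-sum operator and a complete family of
realisations of `F'`. -/
def setupOf (φ ψ : F →ₐ[K] F') (an : F →+* MerH) (σ : T.I → (F' →+* MerH))
    (σ_ψ : ∀ i x, σ i (ψ x) = an x) (σ_φ : ∀ i x, σ i (φ x) = glB T i (an x))
    (σ_inj : Function.Injective σ) (card_eq : Fintype.card T.I = finrankAlong K ψ) :
    Setup (K := K) ψ φ (fun γ : Γ => T.perm γ) (fun (γ : Γ) (i : T.I) => T.coc γ i) MerH ℂˣ where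
  an := an
  σ := σ
  R := fun γ => slMer (γ : SL(2, ℤ))
  B := glB T
  c := constHom
  σ_alpha := σ_ψ
  σ_beta := σ_φ
  σ_inj := σ_inj
  card_eq := card_eq
  R_B := fun γ i h => slMer_glB T γ i h
  R_c := fun γ a => slMer_const (γ : SL(2, ℤ)) (a : ℂ)
  B_c := fun i a => glB_const T i (a : ℂ)

/-- The characterisation of a Kummer map on `Pic⁰(F)[n]` with values in the characters of `Γ`,
relative to a realisation `an : F → MerH`. -/
def IsKummerMapG (Γ : Subgroup SL(2, ℤ)) (an : F →+* MerH) (n : ℕ)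
    (κ : ↥(Pic0.torsion K F n) → (↥Γ →* ℂˣ)) : Prop :=
  ∀ (x : ↥(Pic0.torsion K F n)) (D : Divisor.degZero (K := K) (F := F)) (f : F),
    Pic0.mk D = (x : Pic0 K F) → f ≠ 0 →
    (∀ v : Place K F, ((n : ℤ) • (D : Divisor K F)) v = v.ord f) →
      (∃ h : MerH, h ≠ 0 ∧ h ^ n = an f) ∧
        ∀ h : MerH, h ≠ 0 → h ^ n = an f →
          ∀ γ : ↥Γ, slMer (γ : SL(2, ℤ)) h = constHom (κ x γ) * h

/-- every torsion class has a representative `D` with `n D = div f`. -/
theorem exists_rep_div (n : ℕ) (x : ↥(Pic0.torsion K F n)) :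
    ∃ (D : Divisor.degZero (K := K) (F := F)) (f : F),
      Pic0.mk D = (x : Pic0 K F) ∧ f ≠ 0 ∧
        ∀ v : Place K F, ((n : ℤ) • (D : Divisor K F)) v = v.ord f := by
  obtain ⟨D, hD⟩ := Pic0.mk_surjective (x : Pic0 K F)
  have h1 : (n : ℤ) • Pic0.mk D = 0 := by
    rw [hD]
    exact Pic0.mem_torsion.mp x.2
  have h2 : Pic0.mk ((n : ℤ) • D) = 0 := h1
  have h3 : ((n : ℤ) • D) ∈
      (Divisor.principal (K := K) (F := F)).addSubgroupOf (Divisor.degZero (K := K) (F := F)) :=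
    (QuotientAddGroup.eq_zero_iff _).mp h2
  rw [AddSubgroup.mem_addSubgroupOf] at h3
  obtain ⟨f, hf, hDf⟩ := h3
  exact ⟨D, f, hD, hf, fun v => hDf v⟩

variable [HasPrincipalDivisors K F'] [CharZero F]
variable (φ ψ : F →ₐ[K] F') (hφ : φ.toRingHom.IsIntegral) (hψ : ψ.toRingHom.IsIntegral)
variable (hFI : FundamentalIdentityAlong K φ hφ)
variable (hfin : FiniteAlong K ψ) (hN : NormFormulaAlong K ψ hfin)

theorem correspondence_mem_torsion (n : ℕ) (x : ↥(Pic0.torsion K F n)) :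
    Pic0.correspondence φ ψ hφ hψ hFI hfin hN (x : Pic0 K F) ∈ Pic0.torsion K F n := by
  rw [Pic0.mem_torsion, ← map_zsmul, Pic0.mem_torsion.mp x.2, map_zero]

/-- **(HC1), generic form**: the Kummer map intertwines the correspondence `ψ_* φ^*` on `Pic⁰(F)[n]`
with the coset-sum operator `mulHom T` on the characters of `Γ`. -/
theorem kummer_coset (an : F →+* MerH) (σ : T.I → (F' →+* MerH))
    (σ_ψ : ∀ i x, σ i (ψ x) = an x) (σ_φ : ∀ i x, σ i (φ x) = glB T i (an x))
    (σ_inj : Function.Injective σ) (card_eq : Fintype.card T.I = finrankAlong K ψ)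
    {n : ℕ} {κ : ↥(Pic0.torsion K F n) → (↥Γ →* ℂˣ)} (hκ : IsKummerMapG Γ an n κ)
    (x : ↥(Pic0.torsion K F n)) :
    κ ⟨Pic0.correspondence φ ψ hφ hψ hFI hfin hN (x : Pic0 K F),
        correspondence_mem_torsion φ ψ hφ hψ hFI hfin hN n x⟩ = mulHom T (κ x) := by
  classical
  set S := setupOf T φ ψ an σ σ_ψ σ_φ σ_inj card_eq with hS
  obtain ⟨D, f, hD, hf, hDf⟩ := exists_rep_div n x
  obtain ⟨⟨h, hh0, hhn⟩, hchar⟩ := hκ x D f hD hf hDf
  have w : Witness S n f h (fun γ => κ x γ) := ⟨hhn, fun γ => hchar h hh0 hhn γ⟩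
  have w' := w.hecke hfin
  set DT : Divisor.degZero (K := K) (F := F) := Pic0.degZeroCorrespondence φ ψ hφ hψ hFI D with hDT
  have hTx : Pic0.mk DT = Pic0.correspondence φ ψ hφ hψ hFI hfin hN (x : Pic0 K F) := by
    rw [← hD]
    rfl
  have hfT : normAlong ψ (φ f) ≠ 0 := normAlong_ne_zero _ hfin ((map_ne_zero _).mpr hf)
  have hDTf : ∀ v : Place K F, ((n : ℤ) • (DT : Divisor K F)) v = v.ord (normAlong ψ (φ f)) := by
    intro v
    have h1 : ((n : ℤ) • (DT : Divisor K F)) =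
        Divisor.correspondence φ ψ hφ hψ ((n : ℤ) • (D : Divisor K F)) := by
      rw [map_zsmul]
      rfl
    rw [h1]
    exact correspondence_apply_eq_ord _ _ hφ hψ hfin hN hf hDf v
  obtain ⟨-, hchar'⟩ := hκ ⟨Pic0.correspondence φ ψ hφ hψ hFI hfin hN (x : Pic0 K F),
    correspondence_mem_torsion φ ψ hφ hψ hFI hfin hN n x⟩ DT _ hTx hfT hDTf
  have hroot0 : heckeRoot S h ≠ 0 := heckeRoot_ne_zero _ hh0
  ext1 γ
  have e1 := hchar' _ hroot0 w'.pow γ
  have e2 := w'.smul γ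
  have e3 : constHom (κ ⟨Pic0.correspondence φ ψ hφ hψ hFI hfin hN (x : Pic0 K F),
      correspondence_mem_torsion φ ψ hφ hψ hFI hfin hN n x⟩ γ)
      = constHom (∏ i, κ x (T.coc γ i)) :=
    mul_right_cancel₀ hroot0 (e1.symm.trans e2)
  rw [mulHom_apply]
  exact constHom_injective e3

open Fermat.Agent.ES.J.TateChar11 Fermat.Agent.M48.TateCoset3 in
/-- **(HC1), additive form**: literally the hypothesis `hf` of `TateCoset3.map_iota` (for
`J = Pic0 K F`, `f = Pic0.correspondence φ ψ …`). -/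
theorem kummer_coset_add (an : F →+* MerH) (σ : T.I → (F' →+* MerH))
    (σ_ψ : ∀ i x, σ i (ψ x) = an x) (σ_φ : ∀ i x, σ i (φ x) = glB T i (an x))
    (σ_inj : Function.Injective σ) (card_eq : Fintype.card T.I = finrankAlong K ψ)
    {n : ℕ} (κ : ↥(tors (Pic0 K F) n) →+ X Γ)
    (hκ : IsKummerMapG Γ an n fun x => Additive.toMul (κ x))
    (x : ↥(tors (Pic0 K F) n))
    (hfx : Pic0.correspondence φ ψ hφ hψ hFI hfin hN (x : Pic0 K F) ∈ tors (Pic0 K F) n) :
    κ ⟨Pic0.correspondence φ ψ hφ hψ hFI hfin hN (x : Pic0 K F), hfx⟩ = mulX T (κ x) := by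
  apply Additive.toMul.injective
  exact kummer_coset T φ ψ hφ hψ hFI hfin hN an σ σ_ψ σ_φ σ_inj card_eq hκ x

end Fermat.Agent.M48.KummerCoset3
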