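/-
M48 (P1), [KUM1] (HC1) for `T_ℓ` on `Γ₁(M)` (helper3): **the complete family of realisations of the
function field of `X(Γ₁(M) ∩ Γ₀(M ℓ))` over `β(F)`**, generic in the function fields, and the
Hecke-equivariance of Kummer maps for the correspondence `β_* α^*` (ruling R4 of report 162:
`hecke1 ℓ = Pic0.correspondence α β`, `α` = inclusion, `β = (q ↦ q^ℓ)`).

`Γ₁(M)`-twin of `ES/HEQ/RealBar19` + `RepGamma19` + `KummerHeckeMain19.setup`; since the correspondence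
is `β_* α^*` (not `α_* β^*` as for `Γ₀(N)`), the conjugates of `F'` over `β(F)` are the compositions
with matrices `δ_i ∈ GL₂⁺(ℚ)` which are NOT in `SL(2, ℤ)`:

* `XX hℓM = [[a, b], [M, ℓ]] ∈ Γ₀(M)` (`a ℓ - b M = 1`), `YY hℓM = [[ℓ a, b], [M, 1]] ∈ Γ₁(M)`,
  `glBeta_XX_glBeta : diag(ℓ,1) · X · diag(ℓ,1) = ℓ · Y`; `glBeta_none_glBeta_some :
  diag(ℓ,1) · [[1,k],[0,ℓ]] = ℓ · T^k`;
* `glMer_scalar_mul` : scalar matrices act trivially on `MerH`;
* `delta hℓM i = W_i · β_i` (`W_∞ = X`, `W_k = 1`), `sig hℓM an' i = (· ∘ δ_i) ∘ an'`;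
* `sig_psi : σ_i ∘ β = an`, `sig_phi : σ_i ∘ α = (· ∘ g_i) ∘ an` for the representatives `g_i` of
  `G1Reps3.heckeCoset1 hℓM σ hσ` (ANY `σ ∈ Γ₀(M)` with lower right entry `≡ ℓ`);
* `sig_injective` : the `σ_i` are pairwise distinct (`j ∘ δ_i = j ∘ δ_k` ⇒ `δ_i δ_k⁻¹ ∈ ℝˣ SL(2, ℤ)` by
  `JScalar3.exists_SL_of_jFun_comp`, then `DoubleCoset27.decomp_unique`; `eq_of_glBeta_eq`);
* **`kummer_hecke1`** : for function fields `E`, `E'` over `K`, `α β : E →ₐ[K] E'` with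
  `[E' : β E] = ℓ + 1`, a `Γ₁(M)`-invariant realisation `an` of `E` (containing `j`) and a
  realisation `an'` of `E'` with `an' ∘ α = an`, `an' ∘ β = (· ∘ diag(ℓ,1)) ∘ an`: every Kummer map
  `κ` relative to `an` (`KummerCoset3.IsKummerMapG`) satisfies
  `κ (β_* α^* x) = mulX (heckeCoset1 hℓM σ hσ) (κ x)`  — the shape of `P1Jac8.HeckeCompat1.hecke`.
-/
import Fermat.Agent.M48.KummerCoset3
import Fermat.Agent.M48.JScalar3
import Fermat.Agent.M48.G1Reps3

set_option autoImplicit false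
set_option linter.style.haveILetI false
set_option linter.unusedSectionVars false

open UpperHalfPlane hiding I
open scoped Manifold MatrixGroups
open CongruenceSubgroup Matrix.SpecialLinearGroup

noncomputable section

namespace Fermat.Agent.M48.HeckeReal3

open Fermat.Agent.X0 Fermat.Agent.X0.SurjPoint Fermat.Agent.ES.KUM
open Fermat.Agent.ES.HEQ Fermat.Agent.ES.HEQ.BetaMer19 Fermat.Agent.ES.HEQ.DoubleCoset27
open Fermat.Agent.M48.ESInv3 Fermat.Agent.M48.CosetOp3 Fermat.Agent.M48.KummerCoset3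
open Fermat.Agent.M48.G1Reps3 Fermat.Agent.M48.Diamond1

/-! ### scalar matrices act trivially -/

theorem glMer_scalar_mul (c : ℝˣ) (g : GL (Fin 2) ℝ) (hg : 0 < g.det.val)
    (h' : 0 < (Matrix.GeneralLinearGroup.scalar (Fin 2) c * g).det.val) (x : MerH) :
    glMer (Matrix.GeneralLinearGroup.scalar (Fin 2) c * g) h' x = glMer g hg x := by
  obtain ⟨a, b, -, rfl⟩ := exists_div_MerH x
  rw [glMer_div, glMer_div]
  have e : ∀ f : HolH, glHom (Matrix.GeneralLinearGroup.scalar (Fin 2) c * g) h' f = glHom g hg f := by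
    intro f
    apply Subtype.ext
    funext z
    show f.1 ((Matrix.GeneralLinearGroup.scalar (Fin 2) c * g) • z) = f.1 (g • z)
    rw [mul_smul, glScalar_smul]
  rw [e, e]

/-! ### The special element of `Γ₀(M)` -/

variable {M ℓ : ℕ} [hℓ : Fact ℓ.Prime] (hℓM : ¬ ℓ ∣ M)

include hℓM in
theorem exists_ab : ∃ a b : ℤ, a * (ℓ : ℤ) - b * (M : ℤ) = 1 := by
  have hcop : IsCoprime (ℓ : ℤ) (M : ℤ) := by
    rw [Int.isCoprime_iff_gcd_eq_one, Int.gcd_natCast_natCast]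
    exact (Nat.Prime.coprime_iff_not_dvd hℓ.out).mpr hℓM
  obtain ⟨u, v, huv⟩ := hcop
  exact ⟨u, -v, by linear_combination huv⟩

/-- the entry `a` of `X = [[a, b], [M, ℓ]]`. -/
def xa : ℤ := (exists_ab hℓM).choose

/-- the entry `b` of `X`. -/
def xb : ℤ := (exists_ab hℓM).choose_spec.choose

theorem xab : xa hℓM * (ℓ : ℤ) - xb hℓM * (M : ℤ) = 1 := (exists_ab hℓM).choose_spec.choose_spec

/-- `X = [[a, b], [M, ℓ]] ∈ Γ₀(M)`, lower right entry `ℓ`. -/
def XX : SL(2, ℤ) := ⟨!![xa hℓM, xb hℓM; (M : ℤ), (ℓ : ℤ)], by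
  rw [Matrix.det_fin_two_of]
  linear_combination xab hℓM⟩

/-- `Y = [[ℓ a, b], [M, 1]] ∈ Γ₁(M)`. -/
def YY : SL(2, ℤ) := ⟨!![(ℓ : ℤ) * xa hℓM, xb hℓM; (M : ℤ), 1], by
  rw [Matrix.det_fin_two_of]
  linear_combination xab hℓM⟩

theorem XX_mem : XX hℓM ∈ Gamma0 M := by
  rw [Gamma0_mem]
  simp [XX]

/-- `X` as an element of `Γ₀(M)`. -/
def XG : Gamma0 M := ⟨XX hℓM, XX_mem hℓM⟩

theorem Gamma0Map_XG : Gamma0Map M (XG hℓM) = (ℓ : ZMod M) := by
  simp [XG, XX, Gamma0Map]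

theorem YY_mem : YY hℓM ∈ Gamma1 M := by
  rw [Gamma1_mem]
  have h := congrArg (Int.cast : ℤ → ZMod M) (xab hℓM)
  push_cast at h
  simp only [ZMod.natCast_self, mul_zero, sub_zero] at h
  refine ⟨?_, ?_, ?_⟩
  · simp only [YY, Matrix.SpecialLinearGroup.coe_mk, Matrix.of_apply, Matrix.cons_val', Matrix.cons_val_zero,
      Matrix.cons_val_fin_one]
    push_cast
    rw [mul_comm]
    exact h
  · simp [YY]
  · simp [YY]

theorem beta_XX_beta :
    beta ℓ none * (XX hℓM : Matrix (Fin 2) (Fin 2) ℤ) * beta ℓ none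
      = (ℓ : ℤ) • (YY hℓM : Matrix (Fin 2) (Fin 2) ℤ) := by
  ext a b
  fin_cases a <;> fin_cases b <;>
    simp [XX, YY, beta, Matrix.mul_apply, Fin.sum_univ_two] <;> ring

/-- `diag(ℓ, 1) · X · diag(ℓ, 1) = ℓ · Y`. -/
theorem glBeta_XX_glBeta :
    glBeta ℓ none * mapGL ℝ (XX hℓM) * glBeta ℓ none =
      Matrix.GeneralLinearGroup.scalar (Fin 2)
          (Units.mk0 (ℓ : ℝ) (Nat.cast_ne_zero.mpr hℓ.out.ne_zero))
        * mapGL ℝ (YY hℓM) := by
  apply Matrix.GeneralLinearGroup.ext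
  intro a b
  have h := congrArg (fun A : Matrix (Fin 2) (Fin 2) ℤ => A.map (Int.cast : ℤ → ℝ))
    (beta_XX_beta hℓM)
  simp only [Matrix.map_mul_intCast] at h
  simp only [Matrix.GeneralLinearGroup.coe_mul, coe_glBeta,
    Matrix.SpecialLinearGroup.mapGL_coe_matrix, Matrix.GeneralLinearGroup.coe_scalar]
  refine (congrFun (congrFun h a) b).trans ?_
  rw [Matrix.scalar_apply, Matrix.diagonal_mul, Matrix.map_apply, Matrix.smul_apply, smul_eq_mul,
    Int.cast_mul, Int.cast_natCast]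
  rfl

/-- the translation `[[1, k], [0, 1]] ∈ Γ₁(M)`. -/
def TT (k : ℤ) : SL(2, ℤ) := ⟨!![1, k; 0, 1], by simp [Matrix.det_fin_two_of]⟩

omit hℓ in
theorem TT_mem (k : ℤ) : TT k ∈ Gamma1 M := by
  rw [Gamma1_mem]
  simp [TT]

theorem beta_none_beta_some (k : ZMod ℓ) :
    beta ℓ none * beta ℓ (some k) = (ℓ : ℤ) • (TT (k.val : ℤ) : Matrix (Fin 2) (Fin 2) ℤ) := by
  ext a b
  fin_cases a <;> fin_cases b <;>
    simp [TT, beta, Matrix.mul_apply, Fin.sum_univ_two, -ZMod.natCast_val]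

/-- `diag(ℓ, 1) · [[1, k], [0, ℓ]] = ℓ · T^k`. -/
theorem glBeta_none_glBeta_some (k : ZMod ℓ) :
    glBeta ℓ none * glBeta ℓ (some k) =
      Matrix.GeneralLinearGroup.scalar (Fin 2)
          (Units.mk0 (ℓ : ℝ) (Nat.cast_ne_zero.mpr hℓ.out.ne_zero))
        * mapGL ℝ (TT (k.val : ℤ)) := by
  apply Matrix.GeneralLinearGroup.ext
  intro a b
  have h := congrArg (fun A : Matrix (Fin 2) (Fin 2) ℤ => A.map (Int.cast : ℤ → ℝ))
    (beta_none_beta_some k)
  simp only [Matrix.map_mul_intCast] at h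
  simp only [Matrix.GeneralLinearGroup.coe_mul, coe_glBeta,
    Matrix.SpecialLinearGroup.mapGL_coe_matrix, Matrix.GeneralLinearGroup.coe_scalar]
  refine (congrFun (congrFun h a) b).trans ?_
  rw [Matrix.scalar_apply, Matrix.diagonal_mul, Matrix.map_apply, Matrix.smul_apply, smul_eq_mul,
    Int.cast_mul, Int.cast_natCast]
  rfl

/-- two Hecke representatives which differ by a real scalar and an element of `SL(2, ℤ)` on the
left are equal. -/
theorem eq_of_glBeta_eq {i k : Option (ZMod ℓ)} {γ : SL(2, ℤ)} {c : ℝˣ}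
    (h : glBeta ℓ i = Matrix.GeneralLinearGroup.scalar (Fin 2) c * mapGL ℝ γ * glBeta ℓ k) :
    i = k := by
  have hℓ0 : (ℓ : ℝ) ≠ 0 := Nat.cast_ne_zero.mpr hℓ.out.ne_zero
  have hd := congrArg (fun g : GL (Fin 2) ℝ => (Matrix.GeneralLinearGroup.det g).val) h
  simp only [map_mul, Units.val_mul, det_glBeta, Matrix.GeneralLinearGroup.det_scalar,
    Fintype.card_fin, Units.val_pow_eq_pow_val] at hd
  have hγ1 : ((Matrix.GeneralLinearGroup.det (mapGL ℝ γ : GL (Fin 2) ℝ)) : ℝˣ).val = 1 := by simp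
  rw [hγ1, mul_one] at hd
  have hc : (c : ℝ) ^ 2 = 1 := by
    have : (c : ℝ) ^ 2 * (ℓ : ℝ) = 1 * (ℓ : ℝ) := by rw [one_mul]; exact hd.symm
    exact mul_right_cancel₀ hℓ0 this
  have hM := congrArg (fun g : GL (Fin 2) ℝ => (g : Matrix (Fin 2) (Fin 2) ℝ)) h
  simp only [Matrix.GeneralLinearGroup.coe_mul, coe_glBeta,
    Matrix.SpecialLinearGroup.mapGL_coe_matrix, Matrix.GeneralLinearGroup.coe_scalar] at hM
  have hγmap : ((Matrix.SpecialLinearGroup.map (algebraMap ℤ ℝ) γ : SL(2, ℝ)) :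
      Matrix (Fin 2) (Fin 2) ℝ) = (γ : Matrix (Fin 2) (Fin 2) ℤ).map (Int.cast : ℤ → ℝ) := rfl
  rw [hγmap] at hM
  rcases sq_eq_one_iff.mp hc with hc1 | hc1
  · have h2 : (beta ℓ i).map (Int.cast : ℤ → ℝ)
        = ((γ : Matrix (Fin 2) (Fin 2) ℤ) * beta ℓ k).map (Int.cast : ℤ → ℝ) := by
      rw [Matrix.map_mul_intCast, hM, hc1]
      simp
    have h3 : beta ℓ i = (γ : Matrix (Fin 2) (Fin 2) ℤ) * beta ℓ k :=
      Matrix.map_injective Int.cast_injective h2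
    exact (decomp_unique (g := 1) (g' := γ) (by simpa using h3)).1
  · have h2 : (beta ℓ i).map (Int.cast : ℤ → ℝ)
        = (((-γ : SL(2, ℤ)) : Matrix (Fin 2) (Fin 2) ℤ) * beta ℓ k).map (Int.cast : ℤ → ℝ) := by
      rw [Matrix.map_mul_intCast, hM, hc1]
      have e1 : (Matrix.scalar (Fin 2)) (-1 : ℝ) = -1 := by
        rw [map_neg, map_one]
      have e2 : ((-γ : SL(2, ℤ)) : Matrix (Fin 2) (Fin 2) ℤ).map (Int.cast : ℤ → ℝ)
          = -((γ : Matrix (Fin 2) (Fin 2) ℤ).map (Int.cast : ℤ → ℝ)) := by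
        ext a b
        simp
      rw [e1, e2, neg_one_mul]
    have h3 : beta ℓ i = ((-γ : SL(2, ℤ)) : Matrix (Fin 2) (Fin 2) ℤ) * beta ℓ k :=
      Matrix.map_injective Int.cast_injective h2
    exact (decomp_unique (g := 1) (g' := -γ) (by simpa using h3)).1

/-! ### The complete family of realisations -/

/-- the left twist: `1` at the finite indices, `X` at `∞`. -/
def WW : Option (ZMod ℓ) → SL(2, ℤ)
  | some _ => 1
  | none => XX hℓM

/-- the matrices `δ_i = W_i · β_i`: `δ_i ∈ Γ₁(M) g_i` and `diag(ℓ, 1) δ_i ∈ ℝˣ Γ₁(M)`. -/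
def delta (i : Option (ZMod ℓ)) : GL (Fin 2) ℝ := mapGL ℝ (WW hℓM i) * glBeta ℓ i

theorem det_delta_pos (i : Option (ZMod ℓ)) : 0 < (delta hℓM i).det.val :=
  det_mul_pos (BetaMer19.det_mapGL_pos _) (BetaMer19.det_glBeta_pos i)

variable {F F' : Type*} [Field F] [Field F'] (φ ψ : F →+* F') (an : F →+* MerH)
  (an' : F' →+* MerH)

/-- the realisations `σ_i = (· ∘ δ_i) ∘ an'`. -/
def sig (i : Option (ZMod ℓ)) : F' →+* MerH := (glMer (delta hℓM i) (det_delta_pos hℓM i)).comp an'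

theorem sig_apply (i : Option (ZMod ℓ)) (y : F') :
    sig hℓM an' i y = glMer (delta hℓM i) (det_delta_pos hℓM i) (an' y) := rfl

variable (hφ : ∀ x, an' (φ x) = an x) (hψ : ∀ x, an' (ψ x) = betaMer ℓ none (an x))
  (hinv : ∀ γ : SL(2, ℤ), γ ∈ Gamma1 M → ∀ x, slMer γ (an x) = an x)

include hψ hinv in
/-- `σ_i ∘ β = an`. -/
theorem sig_psi (i : Option (ZMod ℓ)) (x : F) : sig hℓM an' i (ψ x) = an x := by
  rw [sig_apply, hψ, betaMer, ← glMer_mul]
  cases i with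
  | none =>
    have e : glBeta ℓ none * delta hℓM none =
        Matrix.GeneralLinearGroup.scalar (Fin 2)
          (Units.mk0 (ℓ : ℝ) (Nat.cast_ne_zero.mpr hℓ.out.ne_zero)) * mapGL ℝ (YY hℓM) := by
      rw [delta, WW, ← mul_assoc, glBeta_XX_glBeta]
    rw [glMer_congr e, glMer_scalar_mul _ _ (BetaMer19.det_mapGL_pos _), glMer_mapGL]
    exact hinv _ (YY_mem hℓM) x
  | some k =>
    have e : glBeta ℓ none * delta hℓM (some k) =
        Matrix.GeneralLinearGroup.scalar (Fin 2)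
          (Units.mk0 (ℓ : ℝ) (Nat.cast_ne_zero.mpr hℓ.out.ne_zero))
            * mapGL ℝ (TT (k.val : ℤ)) := by
      rw [delta, WW, map_one, one_mul, glBeta_none_glBeta_some]
    rw [glMer_congr e, glMer_scalar_mul _ _ (BetaMer19.det_mapGL_pos _), glMer_mapGL]
    exact hinv _ (TT_mem _) x

variable (σ : Gamma0 M) (hσ : Gamma0Map M σ = (ℓ : ZMod M))

include hφ hinv in
/-- `σ_i ∘ α = (· ∘ g_i) ∘ an`, `g_i` the representatives of `heckeCoset1 hℓM σ hσ`. -/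
theorem sig_phi (i : Option (ZMod ℓ)) (x : F) :
    sig hℓM an' i (φ x) = glB (heckeCoset1 hℓM σ hσ) i (an x) := by
  rw [sig_apply, hφ]
  show glMer (mapGL ℝ (WW hℓM i) * glBeta ℓ i) _ (an x)
    = glMer (mapGL ℝ ((tw σ i : Gamma0 M) : SL(2, ℤ)) * glBeta ℓ i) _ (an x)
  rw [glMer_mul _ _ (BetaMer19.det_mapGL_pos _) (BetaMer19.det_glBeta_pos i),
    glMer_mul _ _ (BetaMer19.det_mapGL_pos _) (BetaMer19.det_glBeta_pos i), glMer_mapGL, glMer_mapGL]
  congr 1
  cases i with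
  | some k => rfl
  | none =>
    show slMer (XX hℓM) (an x) = slMer (σ : SL(2, ℤ)) (an x)
    have hmem : (XX hℓM) * (σ : SL(2, ℤ))⁻¹ ∈ Gamma1 M :=
      mul_inv_mem_Gamma1 (σ := σ) (σ' := XG hℓM) (by rw [Gamma0Map_XG, hσ])
    have e : XX hℓM = (XX hℓM * (σ : SL(2, ℤ))⁻¹) * (σ : SL(2, ℤ)) := by
      rw [inv_mul_cancel_right]
    conv_lhs => rw [e, slMer_mul, hinv _ hmem]

variable (jF : F) (hj : an jF = algebraMap HolH MerH ⟨jFun, jFun_mdifferentiable⟩)

include hφ hj in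
/-- **the realisations `σ_i` are pairwise distinct** (the conjugates `j ∘ δ_i` of `j` are). -/
theorem sig_injective : Function.Injective (sig hℓM an' : Option (ZMod ℓ) → (F' →+* MerH)) := by
  intro i k h
  have h1 : sig hℓM an' i (φ jF) = sig hℓM an' k (φ jF) := by rw [h]
  rw [sig_apply, sig_apply, hφ, hj, glMer_algebraMap, glMer_algebraMap] at h1
  have h2 := IsFractionRing.injective HolH MerH h1
  have h3 : ∀ z : ℍ, jFun (delta hℓM i • z) = jFun (delta hℓM k • z) := fun z =>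
    congrFun (congrArg Subtype.val h2) z
  have hdet : 0 < (delta hℓM i * (delta hℓM k)⁻¹).det.val :=
    det_mul_pos (det_delta_pos hℓM i) (det_inv_pos (det_delta_pos hℓM k))
  have h4 : ∀ w : ℍ, jFun ((delta hℓM i * (delta hℓM k)⁻¹) • w) = jFun w := by
    intro w
    rw [mul_smul, h3, smul_inv_smul]
  obtain ⟨γ, c, hm⟩ := JScalar3.exists_SL_of_jFun_comp hdet h4
  have h5 : delta hℓM i = mapGL ℝ γ * Matrix.GeneralLinearGroup.scalar (Fin 2) c * delta hℓM k := by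
    rw [← hm, inv_mul_cancel_right]
  have h6 : glBeta ℓ i = Matrix.GeneralLinearGroup.scalar (Fin 2) c
      * mapGL ℝ ((WW hℓM i)⁻¹ * γ * WW hℓM k) * glBeta ℓ k := by
    have h7 : glBeta ℓ i = (mapGL ℝ (WW hℓM i))⁻¹ * delta hℓM i := by
      rw [delta, inv_mul_cancel_left]
    rw [h7, h5, delta, map_mul, map_mul, map_inv]
    have hcomm : ∀ A : GL (Fin 2) ℝ, Matrix.GeneralLinearGroup.scalar (Fin 2) c * A
        = A * Matrix.GeneralLinearGroup.scalar (Fin 2) c :=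
      fun A => Matrix.GeneralLinearGroup.scalar_commute c A
    simp only [mul_assoc]
    rw [hcomm, hcomm]
    simp only [mul_assoc]
  exact eq_of_glBeta_eq h6

/-! ### (HC1) for `T_ℓ`, generic in the function fields -/

section Main

open AlgebraicCurve
open Fermat.Agent.ES.J.TateChar11 Fermat.Agent.M48.TateCoset3

variable {K E E' : Type*} [Field K] [Field E] [Field E'] [Algebra K E] [Algebra K E']
  [HasPrincipalDivisors K E'] [CharZero E]
  (α β : E →ₐ[K] E') (hαi : α.toRingHom.IsIntegral) (hβi : β.toRingHom.IsIntegral)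
  (hFI : FundamentalIdentityAlong K α hαi) (hfin : FiniteAlong K β)
  (hN : NormFormulaAlong K β hfin)

/-- **(HC1) for `T_ℓ` on `Γ₁(M)`, generic in the function fields**: if `an : E → MerH` is a
`Γ₁(M)`-invariant realisation of `E` containing `j`, `an' : E' → MerH` a realisation of `E'` with
`an' ∘ α = an`, `an' ∘ β = (· ∘ diag(ℓ, 1)) ∘ an`, and `[E' : β E] = ℓ + 1`, then every Kummer map
`κ` relative to `an` intertwines `β_* α^*` with the coset operator `T_ℓ = heckeCoset1 hℓM σ hσ`. -/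
theorem kummer_hecke1 (an : E →+* MerH) (an' : E' →+* MerH)
    (hα : ∀ x, an' (α x) = an x) (hβ : ∀ x, an' (β x) = betaMer ℓ none (an x))
    (hinv : ∀ γ : SL(2, ℤ), γ ∈ Gamma1 M → ∀ x, slMer γ (an x) = an x)
    (jE : E) (hj : an jE = algebraMap HolH MerH ⟨jFun, jFun_mdifferentiable⟩)
    (hdeg : finrankAlong K β = ℓ + 1)
    (σ : Gamma0 M) (hσ : Gamma0Map M σ = (ℓ : ZMod M))
    {n : ℕ} (κ : ↥(tors (Pic0 K E) n) →+ X (Gamma1 M))
    (hκ : IsKummerMapG (Gamma1 M) an n fun x => Additive.toMul (κ x))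
    (x : ↥(tors (Pic0 K E) n))
    (hfx : Pic0.correspondence α β hαi hβi hFI hfin hN (x : Pic0 K E) ∈ tors (Pic0 K E) n) :
    κ ⟨Pic0.correspondence α β hαi hβi hFI hfin hN (x : Pic0 K E), hfx⟩
      = mulX (heckeCoset1 hℓM σ hσ) (κ x) := by
  haveI : NeZero ℓ := ⟨hℓ.out.ne_zero⟩
  refine kummer_coset_add (heckeCoset1 hℓM σ hσ) α β hαi hβi hFI hfin hN an (sig hℓM an')
    (fun i x => sig_psi hℓM (β : E →+* E') an an' hβ hinv i x)
    (fun i x => sig_phi hℓM (α : E →+* E') an an' hα hinv σ hσ i x)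
    (sig_injective hℓM (α : E →+* E') an an' hα jE hj) ?_ κ hκ x hfx
  rw [hdeg]
  show Fintype.card (Option (ZMod ℓ)) = ℓ + 1
  rw [Fintype.card_option, ZMod.card]

end Main

end Fermat.Agent.M48.HeckeReal3
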