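/-
M48 (helper1), block (H): **the instance `ops1 : G1Ops M k`** of helper8's specification structure
`P1Target8.G1Ops` (diamond and Hecke operators on `CuspForm (Gamma1 M) k` by specification), from the landed
operators `Diamond1.diamondC`, `HeckeOne1.T1`; and the identification of its Hecke algebra with
`HeckeOne1.heckeAlgebra1`.

Imported by no statement.
-/
import Mathlib
import Fermat.Agent.M48.HeckeOne1
import Fermat.Agent.M48.P1Target8

set_option autoImplicit false

open CongruenceSubgroup Matrix.SpecialLinearGroup UpperHalfPlane ModularForm ModularFormClass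
open scoped MatrixGroups ModularForm Manifold

noncomputable section

namespace Fermat.Agent.M48.OpsInst1

open Fermat.Agent.M48.Diamond1 Fermat.Agent.M48.HeckeOne1 Fermat.Agent.M48.P1Target8

variable (M : ℕ) [NeZero M] (k : ℤ)

/-- **the operators of `HeckeOne1` satisfy helper8's specification.** -/
def ops1 : G1Ops M k where
  diamond := diamondHom M k
  diamond_spec d _ hγ hd f := coe_diamondC_of_mem d f hγ hd
  T := Tnat M k
  T_spec r hr hrM f := by
    rw [Tnat_of_prime hr hrM]
    exact coe_T1 hr hrM f

@[simp] theorem ops1_diamond (d : (ZMod M)ˣ) : (ops1 M k).diamond d = diamondC d := rfl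

@[simp] theorem ops1_T (r : ℕ) : (ops1 M k).T r = Tnat M k r := rfl

theorem ops1_T_of_prime {r : ℕ} (hr : r.Prime) (hrM : ¬ r ∣ M) :
    (ops1 M k).T r = T1 k hr hrM := Tnat_of_prime hr hrM

theorem ops1_heckeAlgebra (S : Set ℕ) : (ops1 M k).heckeAlgebra S = heckeAlgebra1 M k S := rfl

end Fermat.Agent.M48.OpsInst1
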