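/-
M48 (P1), analytic side (helper3): **(P1-FIN)** = `P1Target8.P1FinStmt`: the `Γ₁(M)` Hecke algebra in
weight two is commutative and a finitely generated `ℤ`-module; and the eigenvector statement in the
lattice of periods.

* `T1_comm` (every weight): `T_p T_q = T_q T_p` on `CuspForm (Gamma1 M) k`, `p, q ∤ M` primes, by
  `q`-expansions (`HeckeOne1.qCoeff_T1`, `diamondC_T1`, `diamondC_comm`);
* `gen M k S`, `Top M k S`, `range_Top` : the generators of `heckeAlgebra1 M k S` as ONE family indexed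
  by `{r // r.Prime ∧ ¬ r ∣ M ∧ r ∉ S} ⊕ (ZMod M)ˣ`; `commute_Top`;
* `heckeAlgebra1_comm`; `cosetOf M S i` the coset-sum operator of the generator `i` (weight two);
* `finite_heckeAlgebra1 : Module.Finite ℤ (heckeAlgebra1 M 2 S)`;
* `exists_eigenvector_lam` : every `χ : heckeAlgebra1 M 2 S →+* K'` (`K'` a field of characteristic 0)
  has a nonzero eigenvector in `K' ⊗ Λ₁`, `Λ₁ = parabolicHoms ℤ (Gamma1 M) ℤ`;
* `G1Ops.heckeAlgebra_eq` : for every `H : G1Ops M k`, `H.heckeAlgebra S = heckeAlgebra1 M k S`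
  (the specification determines the operators);
* **`p1FinStmt : P1Target8.P1FinStmt`**.
-/
import Mathlib
import Fermat.Agent.M48.G1Reps3
import Fermat.Agent.M48.ParTensor3
import Fermat.Agent.M48.OpsInst1

set_option autoImplicit false

noncomputable section

universe u

namespace Fermat.Agent.M48.G1Fin3

open UpperHalfPlane CongruenceSubgroup ModularForm ModularFormClass TensorProduct
open scoped MatrixGroups ModularForm
open Matrix.SpecialLinearGroup
open Fermat.Agent.M48.ESInv3 Fermat.Agent.M48.Diamond1 Fermat.Agent.M48.HeckeOne1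
open Fermat.Agent.M48.G1Reps3 Fermat.Agent.M48.CosetOp3

variable {M : ℕ} [NeZero M] {k : ℤ}

/-! ### `T_p T_q = T_q T_p` -/

/-- the `q`-coefficients of `T_p T_q f`, in symmetric form. -/
theorem qCoeff_T1_T1 {p q : ℕ} (hp : p.Prime) (hpM : ¬ p ∣ M) (hq : q.Prime) (hqM : ¬ q ∣ M)
    (hpq : p ≠ q) (f : CuspForm (Gamma1 M) k) (n : ℕ) :
    qCoeff ⇑(T1 k hp hpM (T1 k hq hqM f)) n =
      qCoeff ⇑f (n * p * q)
      + (if q ∣ n then (q : ℂ) ^ (k - 1) *
          qCoeff ⇑(diamondC (unitOfPrime hq hqM) f) (n / q * p) else 0)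
      + (if p ∣ n then (p : ℂ) ^ (k - 1) *
          qCoeff ⇑(diamondC (unitOfPrime hp hpM) f) (n / p * q) else 0)
      + (if p * q ∣ n then (p : ℂ) ^ (k - 1) * (q : ℂ) ^ (k - 1) *
          qCoeff ⇑(diamondC (unitOfPrime hq hqM) (diamondC (unitOfPrime hp hpM) f)) (n / (p * q))
          else 0) := by
  have hcop : Nat.Coprime q p := (Nat.coprime_primes hq hp).mpr (Ne.symm hpq)
  have h1 : q ∣ n * p ↔ q ∣ n := hcop.dvd_mul_right
  rw [qCoeff_T1, qCoeff_T1, diamondC_T1, qCoeff_T1]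
  simp only [h1]
  have e2 : (if q ∣ n then (q : ℂ) ^ (k - 1) *
        qCoeff ⇑(diamondC (unitOfPrime hq hqM) f) (n * p / q) else 0)
      = (if q ∣ n then (q : ℂ) ^ (k - 1) *
        qCoeff ⇑(diamondC (unitOfPrime hq hqM) f) (n / q * p) else 0) := by
    split_ifs with hqn
    · rw [Nat.div_mul_right_comm hqn]
    · rfl
  rw [e2]
  by_cases hpn : p ∣ n
  · simp only [if_pos hpn]
    have h3 : q ∣ n / p ↔ p * q ∣ n := by
      obtain ⟨m, rfl⟩ := hpn
      rw [Nat.mul_div_cancel_left m hp.pos]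
      exact (Nat.mul_dvd_mul_iff_left hp.pos).symm
    simp only [h3]
    by_cases hpqn : p * q ∣ n
    · simp only [if_pos hpqn, Nat.div_div_eq_div_mul]
      ring
    · simp only [if_neg hpqn]
      ring
  · have hpqn : ¬ p * q ∣ n := fun h => hpn (dvd_trans (dvd_mul_right p q) h)
    simp only [if_neg hpn, if_neg hpqn]
    ring

/-- **the Hecke operators commute.** -/
theorem T1_comm {p q : ℕ} (hp : p.Prime) (hpM : ¬ p ∣ M) (hq : q.Prime) (hqM : ¬ q ∣ M)
    (f : CuspForm (Gamma1 M) k) :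
    T1 k hp hpM (T1 k hq hqM f) = T1 k hq hqM (T1 k hp hpM f) := by
  by_cases hpq : p = q
  · subst hpq
    rfl
  · refine ext_qCoeffC fun n => ?_
    rw [qCoeff_T1_T1 hp hpM hq hqM hpq, qCoeff_T1_T1 hq hqM hp hpM (Ne.symm hpq),
      diamondC_comm (unitOfPrime hp hpM) (unitOfPrime hq hqM) f, mul_comm q p,
      Nat.mul_right_comm n q p, mul_comm ((q : ℂ) ^ (k - 1)) ((p : ℂ) ^ (k - 1))]
    ring

/-! ### The generators as one family -/

/-- the index set of the generators of `heckeAlgebra1 M k S`. -/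
abbrev gen (M : ℕ) (S : Set ℕ) : Type := {r : ℕ // r.Prime ∧ ¬ r ∣ M ∧ r ∉ S} ⊕ (ZMod M)ˣ

/-- the generators of `heckeAlgebra1 M k S`. -/
def Top (M : ℕ) [NeZero M] (k : ℤ) (S : Set ℕ) : gen M S → Module.End ℂ (CuspForm (Gamma1 M) k)
  | Sum.inl r => T1 k r.2.1 r.2.2.1
  | Sum.inr d => diamondC d

theorem range_Top (S : Set ℕ) :
    Set.range (Top M k S) =
      {T | ∃ r : ℕ, r.Prime ∧ ¬ r ∣ M ∧ r ∉ S ∧ T = Tnat M k r} ∪ Set.range (diamondHom M k) := by
  ext T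
  constructor
  · rintro ⟨i | d, rfl⟩
    · exact Or.inl ⟨i.1, i.2.1, i.2.2.1, i.2.2.2, (Tnat_of_prime i.2.1 i.2.2.1).symm⟩
    · exact Or.inr ⟨d, rfl⟩
  · rintro (⟨r, hr, hrM, hrS, rfl⟩ | ⟨d, rfl⟩)
    · exact ⟨Sum.inl ⟨r, hr, hrM, hrS⟩, (Tnat_of_prime hr hrM).symm⟩
    · exact ⟨Sum.inr d, rfl⟩

theorem heckeAlgebra1_eq_adjoin (S : Set ℕ) :
    heckeAlgebra1 M k S = Algebra.adjoin ℤ (Set.range (Top M k S)) := by
  rw [range_Top]
  rfl

theorem commute_Top (S : Set ℕ) (i j : gen M S) : Commute (Top M k S i) (Top M k S j) := by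
  refine LinearMap.ext fun f => ?_
  rcases i with i | d <;> rcases j with j | e
  · exact T1_comm i.2.1 i.2.2.1 j.2.1 j.2.2.1 f
  · exact (diamondC_T1 e i.2.1 i.2.2.1 f).symm
  · exact diamondC_T1 d j.2.1 j.2.2.1 f
  · exact diamondC_comm d e f

/-- **commutativity of the `Γ₁(M)` Hecke algebra** (every weight). -/
theorem heckeAlgebra1_comm (S : Set ℕ) (a b : heckeAlgebra1 M k S) : a * b = b * a := by
  have hmc : IsMulCommutative (heckeAlgebra1 M k S) := by
    rw [heckeAlgebra1_eq_adjoin]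
    exact Algebra.isMulCommutative_adjoin ℤ (by
      rintro _ ⟨i, rfl⟩ _ ⟨j, rfl⟩
      exact commute_Top S i j)
  exact mul_comm' a b

/-! ### Weight two: coset sums, finiteness, eigenvectors -/

/-- the coset-sum operator of a generator. -/
def cosetOf (M : ℕ) [NeZero M] (S : Set ℕ) : gen M S → CosetOp (Gamma1 M)
  | Sum.inl r =>
    haveI : Fact r.1.Prime := ⟨r.2.1⟩
    heckeCoset1 r.2.2.1 (sigma (unitOfPrime r.2.1 r.2.2.1))
      (Gamma0Map_sigma_unitOfPrime r.2.1 r.2.2.1)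
  | Sum.inr d => diaCoset1 (sigma d)

theorem coe_Top (S : Set ℕ) (i : gen M S) (f : CuspForm (Gamma1 M) 2) :
    (⇑(Top M 2 S i f) : ℍ → ℂ) = (cosetOf M S i).slashSum ⇑f := by
  rcases i with r | d
  · exact coe_T1_eq_slashSum r.2.1 r.2.2.1 f
  · exact coe_diamondC_eq_slashSum d f

instance finiteIndex_Gamma1 : (Gamma1 M).FiniteIndex := inferInstance

/-- the lattice `Λ₁ = Hom_par(Γ₁(M), ℤ)`. -/
abbrev Lam1 (M : ℕ) : Type := ModularCurve.Period.parabolicHoms ℤ (Gamma1 M) ℤ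

/-- the operator on `Λ₁` attached to a generator. -/
def lamOp (M : ℕ) [NeZero M] (S : Set ℕ) (i : gen M S) : Module.End ℤ (Lam1 M) :=
  parOp (cosetOf M S i) ℤ ℤ

/-- **(F1) for `Γ₁(M)`**: the weight two Hecke algebra is a finitely generated `ℤ`-module. -/
theorem finite_heckeAlgebra1 (S : Set ℕ) : Module.Finite ℤ (heckeAlgebra1 M 2 S) := by
  rw [heckeAlgebra1_eq_adjoin]
  exact (ParTensor3.finite_and_eigen.{0, 0} (Top M 2 S) (cosetOf M S) (commute_Top S)
    (coe_Top S)).1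

/-- **(F2) for `Γ₁(M)`**: every character of the weight two Hecke algebra with values in a field of
characteristic zero has a nonzero eigenvector in `K' ⊗ Λ₁`. -/
theorem exists_eigenvector_lam (S : Set ℕ) {K' : Type u} [Field K'] [CharZero K']
    (χ : heckeAlgebra1 M 2 S →+* K') :
    ∃ w : K' ⊗[ℤ] Lam1 M, w ≠ 0 ∧
      (∀ (r : ℕ) (hr : r.Prime) (hrM : ¬ r ∣ M) (hrS : r ∉ S),
        (lamOp M S (Sum.inl ⟨r, hr, hrM, hrS⟩)).baseChange K' w
          = χ ⟨T1 2 hr hrM, T1_mem_heckeAlgebra1 hr hrM hrS⟩ • w) ∧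
      ∀ d : (ZMod M)ˣ, (lamOp M S (Sum.inr d)).baseChange K' w
          = χ ⟨diamondC d, diamondC_mem_heckeAlgebra1 d⟩ • w := by
  have hge : Algebra.adjoin ℤ (Set.range (Top M 2 S)) ≤ heckeAlgebra1 M 2 S :=
    (heckeAlgebra1_eq_adjoin S).ge
  obtain ⟨w, hw, h⟩ := (ParTensor3.finite_and_eigen.{0, u} (Top M 2 S) (cosetOf M S)
    (commute_Top S) (coe_Top S)).2 (K' := K') (χ.comp (Subalgebra.inclusion hge).toRingHom)
  refine ⟨w, hw, fun r hr hrM hrS => ?_, fun d => ?_⟩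
  · exact h (Sum.inl ⟨r, hr, hrM, hrS⟩)
  · exact h (Sum.inr d)

/-! ### The specification determines the Hecke algebra -/

open Fermat.Agent.M48.P1Target8 in
theorem G1Ops.diamond_eq (H : G1Ops M k) (d : (ZMod M)ˣ) : H.diamond d = diamondC d := by
  refine LinearMap.ext fun f => DFunLike.coe_injective ?_
  have hd : ((unitOf (sigma d) : (ZMod M)ˣ) : ZMod M) = d := by rw [unitOf_sigma]
  rw [H.diamond_spec d (sigma d) (sigma d).2 hd f, coe_diamondC_sigma]

open Fermat.Agent.M48.P1Target8 in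
theorem G1Ops.T_eq (H : G1Ops M k) {r : ℕ} (hr : r.Prime) (hrM : ¬ r ∣ M) :
    H.T r = T1 k hr hrM := by
  refine LinearMap.ext fun f => DFunLike.coe_injective ?_
  rw [H.T_spec r hr hrM f, G1Ops.diamond_eq, coe_T1]
  rfl

open Fermat.Agent.M48.P1Target8 in
/-- for every `H : G1Ops M k`: `H.heckeAlgebra S = heckeAlgebra1 M k S`. -/
theorem G1Ops.heckeAlgebra_eq (H : G1Ops M k) (S : Set ℕ) :
    H.heckeAlgebra S = heckeAlgebra1 M k S := by
  have hgen : H.heckeGenerators S =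
      {T | ∃ r : ℕ, r.Prime ∧ ¬ r ∣ M ∧ r ∉ S ∧ T = Tnat M k r} ∪ Set.range (diamondHom M k) := by
    ext T
    constructor
    · rintro (⟨r, hr, hrM, hrS, rfl⟩ | ⟨d, rfl⟩)
      · exact Or.inl ⟨r, hr, hrM, hrS, by rw [G1Ops.T_eq H hr hrM, Tnat_of_prime hr hrM]⟩
      · exact Or.inr ⟨d, (G1Ops.diamond_eq H d).symm⟩
    · rintro (⟨r, hr, hrM, hrS, rfl⟩ | ⟨d, rfl⟩)
      · exact Or.inl ⟨r, hr, hrM, hrS, by rw [G1Ops.T_eq H hr hrM, Tnat_of_prime hr hrM]⟩
      · exact Or.inr ⟨d, G1Ops.diamond_eq H d⟩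
  show Algebra.adjoin ℤ (H.heckeGenerators S) = _
  rw [hgen]
  rfl

/-- **(P1-FIN)**, helper8's literal statement. -/
theorem p1FinStmt : Fermat.Agent.M48.P1Target8.P1FinStmt := by
  intro M _ H S
  have key : ∀ A : Subalgebra ℤ (Module.End ℂ (CuspForm (Gamma1 M) 2)), A = heckeAlgebra1 M 2 S →
      (∀ a b : A, a * b = b * a) ∧ Module.Finite ℤ A := by
    rintro A rfl
    exact ⟨heckeAlgebra1_comm S, finite_heckeAlgebra1 S⟩
  exact key _ (G1Ops.heckeAlgebra_eq H S)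

end Fermat.Agent.M48.G1Fin3
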