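/-
Programme M48, pillar (P1), leaf (P1-LIFT) — helper8.  Mathlib only.

**Lifting a residual eigensystem to characteristic zero** (the commutative-algebra core of the
Deligne–Serre lifting lemma, in the form used by (P1-RES)): for a commutative ring `T` which is a
finitely generated torsion-free `ℤ`-module and a ring homomorphism `Θ : T →+* k` into a field, there
are `χ : T →+* ℤbar` and `φ : ℤbar →+* k̄` with `φ ∘ χ = (k → k̄) ∘ Θ`.

Proof: a minimal prime `𝔭 ≤ ker Θ` contains no nonzero integer (elements of minimal primes are zero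
divisors), so `T ⧸ 𝔭` is a domain, integral and torsion-free over `ℤ`: it embeds into `ℂ`
(`IsAlgClosed.lift`), with image in `ℤbar`; this is `χ`, and `ker χ = 𝔭`.  By lying-over there is a
prime `𝔐` of `ℤbar` above `ker Θ`, and `ℤbar ⧸ 𝔐` is integral over `T ⧸ ker Θ ↪ k̄`: a second
`IsAlgClosed.lift` gives `φ`.
-/
import Mathlib

set_option autoImplicit false
set_option linter.style.haveILetI false

namespace Fermat.Agent.M48.HeckeLift8

/-- `ℤbar ⊂ ℂ`. -/
abbrev Zbar : Type := integralClosure ℤ ℂ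

section minimal

variable {T : Type} [CommRing T]

/-- A minimal prime of a `ℤ`-torsion-free ring below a given prime, containing no nonzero integer. -/
theorem exists_minimal_le (htf : ∀ (n : ℤ) (t : T), n ≠ 0 → (n : T) * t = 0 → t = 0)
    (𝔪 : Ideal T) [𝔪.IsPrime] :
    ∃ 𝔭 : Ideal T, 𝔭.IsPrime ∧ 𝔭 ≤ 𝔪 ∧ ∀ n : ℤ, (n : T) ∈ 𝔭 → n = 0 := by
  obtain ⟨𝔭, h𝔭, hle⟩ := Ideal.exists_minimalPrimes_le (I := (⊥ : Ideal T)) (J := 𝔪) bot_le
  refine ⟨𝔭, h𝔭.1.1, hle, fun n hn => ?_⟩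
  by_contra hn0
  have hnzd : (n : T) ∈ nonZeroDivisors T := by
    rw [mem_nonZeroDivisors_iff_right]
    intro t ht
    exact htf n t hn0 (by rw [mul_comm]; exact ht)
  exact Set.disjoint_left.mp (Ideal.disjoint_nonZeroDivisors_of_mem_minimalPrimes h𝔭) hn hnzd

end minimal

section charZeroPoint

variable {T : Type} [CommRing T] [Module.Finite ℤ T]

/-- A prime `𝔭` of a `ℤ`-finite ring containing no nonzero integer is the kernel of a
`ℤbar`-valued point. -/
theorem exists_point_of_prime (𝔭 : Ideal T) [𝔭.IsPrime] (h𝔭 : ∀ n : ℤ, (n : T) ∈ 𝔭 → n = 0) :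
    ∃ χ : T →+* Zbar, RingHom.ker χ = 𝔭 := by
  -- `S = T ⧸ 𝔭` is a domain, integral and torsion-free over `ℤ`
  haveI : Algebra.IsIntegral ℤ (T ⧸ 𝔭) := Algebra.IsIntegral.of_finite ℤ (T ⧸ 𝔭)
  have hinj : Function.Injective (algebraMap ℤ (T ⧸ 𝔭)) := by
    rw [injective_iff_map_eq_zero]
    intro n hn
    apply h𝔭 n
    rw [← Ideal.Quotient.eq_zero_iff_mem, map_intCast]
    simpa using hn
  haveI : Module.IsTorsionFree ℤ (T ⧸ 𝔭) := Module.isTorsionFree_iff_algebraMap_injective.mpr hinj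
  let χ₀ : (T ⧸ 𝔭) →ₐ[ℤ] ℂ := IsAlgClosed.lift
  -- `χ₀` is injective: its kernel is a prime of the integral extension `S/ℤ` lying over `0`
  have hχ₀ : Function.Injective χ₀ := by
    rw [← RingHom.coe_coe, RingHom.injective_iff_ker_eq_bot]
    apply Ideal.eq_bot_of_comap_eq_bot (R := ℤ)
    rw [eq_bot_iff]
    intro n hn
    rw [Ideal.mem_comap, RingHom.mem_ker, RingHom.coe_coe, AlgHom.commutes] at hn
    rw [Ideal.mem_bot]
    exact (algebraMap ℤ ℂ).injective_int (by rw [hn, map_zero])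
  have hmem : ∀ t : T, (χ₀.comp (Ideal.Quotient.mkₐ ℤ 𝔭)) t ∈ integralClosure ℤ ℂ := fun t =>
    IsIntegral.map (χ₀.comp (Ideal.Quotient.mkₐ ℤ 𝔭)) (Algebra.IsIntegral.isIntegral (R := ℤ) t)
  refine ⟨((χ₀.comp (Ideal.Quotient.mkₐ ℤ 𝔭)).codRestrict (integralClosure ℤ ℂ) hmem).toRingHom, ?_⟩
  ext t
  rw [RingHom.mem_ker]
  constructor
  · intro h
    have h1 : χ₀ (Ideal.Quotient.mk 𝔭 t) = 0 := by
      have := congrArg Subtype.val h
      simpa using this
    rw [← Ideal.Quotient.eq_zero_iff_mem]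
    exact hχ₀ (by rw [h1, map_zero])
  · intro h
    apply Subtype.ext
    have h1 : Ideal.Quotient.mk 𝔭 t = 0 := Ideal.Quotient.eq_zero_iff_mem.mpr h
    show χ₀ (Ideal.Quotient.mk 𝔭 t) = 0
    rw [h1, map_zero]

end charZeroPoint

section residue

variable {T : Type} [CommRing T]

/-- Given `χ : T →+* ℤbar` and `Θ : T →+* k` with `ker χ ≤ ker Θ`, the residual point `Θ` is the
reduction of `χ` along some `φ : ℤbar →+* k̄`. -/
theorem exists_residue_map (χ : T →+* Zbar) {k : Type} [Field k] (Θ : T →+* k)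
    (hker : RingHom.ker χ ≤ RingHom.ker Θ) :
    ∃ φ : Zbar →+* AlgebraicClosure k,
      ∀ t : T, φ (χ t) = algebraMap k (AlgebraicClosure k) (Θ t) := by
  letI : Algebra T Zbar := χ.toAlgebra
  haveI : Algebra.IsIntegral T Zbar := by
    refine ⟨fun z => ?_⟩
    exact IsIntegral.tower_top (R := ℤ) (Algebra.IsIntegral.isIntegral (R := ℤ) z)
  haveI h𝔪 : (RingHom.ker Θ).IsPrime := RingHom.ker_isPrime Θ
  obtain ⟨𝔐, -, h𝔐, hcomap⟩ := Ideal.exists_ideal_over_prime_of_isIntegral (R := T) (S := Zbar)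
    (RingHom.ker Θ) (⊥ : Ideal Zbar) (by
      intro t ht
      apply hker
      rw [RingHom.mem_ker]
      simpa [Ideal.mem_comap, RingHom.algebraMap_toAlgebra] using ht)
  haveI := h𝔐
  -- the two maps out of `R₀ = T ⧸ ker Θ`
  have hle : RingHom.ker Θ ≤ 𝔐.comap χ := by
    rw [← hcomap]; exact le_of_eq rfl
  let ψ₀ : (T ⧸ RingHom.ker Θ) →+* (Zbar ⧸ 𝔐) := Ideal.quotientMap 𝔐 χ hle
  have hψ₀ : Function.Injective ψ₀ := by
    apply Ideal.quotientMap_injective'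
    rw [← hcomap]; exact le_of_eq rfl
  let ι₀ : (T ⧸ RingHom.ker Θ) →+* AlgebraicClosure k :=
    (algebraMap k (AlgebraicClosure k)).comp (RingHom.kerLift Θ)
  have hι₀ : Function.Injective ι₀ :=
    (algebraMap k (AlgebraicClosure k)).injective.comp (RingHom.kerLift_injective Θ)
  letI : Algebra (T ⧸ RingHom.ker Θ) (Zbar ⧸ 𝔐) := ψ₀.toAlgebra
  letI : Algebra (T ⧸ RingHom.ker Θ) (AlgebraicClosure k) := ι₀.toAlgebra
  haveI : Module.IsTorsionFree (T ⧸ RingHom.ker Θ) (Zbar ⧸ 𝔐) :=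
    Module.isTorsionFree_iff_algebraMap_injective.mpr hψ₀
  haveI : Module.IsTorsionFree (T ⧸ RingHom.ker Θ) (AlgebraicClosure k) :=
    Module.isTorsionFree_iff_algebraMap_injective.mpr hι₀
  haveI : Algebra.IsIntegral (T ⧸ RingHom.ker Θ) (Zbar ⧸ 𝔐) := by
    refine ⟨fun z => ?_⟩
    obtain ⟨z, rfl⟩ := Ideal.Quotient.mk_surjective z
    have hz : IsIntegral ℤ z := Algebra.IsIntegral.isIntegral (R := ℤ) z
    have h1 : IsIntegral ℤ (Ideal.Quotient.mk 𝔐 z) := hz.map (Ideal.Quotient.mkₐ ℤ 𝔐)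
    exact IsIntegral.tower_top (R := ℤ) h1
  let lft : (Zbar ⧸ 𝔐) →ₐ[T ⧸ RingHom.ker Θ] AlgebraicClosure k := IsAlgClosed.lift
  refine ⟨lft.toRingHom.comp (Ideal.Quotient.mk 𝔐), fun t => ?_⟩
  have h1 : Ideal.Quotient.mk 𝔐 (χ t) =
      algebraMap (T ⧸ RingHom.ker Θ) (Zbar ⧸ 𝔐) (Ideal.Quotient.mk _ t) := by
    rw [RingHom.algebraMap_toAlgebra]
    exact (Ideal.quotientMap_mk (f := χ) (H := hle)).symm
  rw [RingHom.comp_apply, h1]
  show lft (algebraMap _ _ _) = _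
  rw [AlgHom.commutes, RingHom.algebraMap_toAlgebra]
  show (algebraMap k (AlgebraicClosure k)) (RingHom.kerLift Θ (Ideal.Quotient.mk _ t)) = _
  rw [RingHom.kerLift_mk]

end residue

/-- **(P1-LIFT)**: a residual point of a `ℤ`-finite torsion-free commutative ring lifts to
characteristic zero. -/
theorem exists_lift (T : Type) [CommRing T] [Module.Finite ℤ T]
    (htf : ∀ (n : ℤ) (t : T), n ≠ 0 → (n : T) * t = 0 → t = 0)
    (k : Type) [Field k] (Θ : T →+* k) :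
    ∃ (χ : T →+* Zbar) (φ : Zbar →+* AlgebraicClosure k),
      ∀ t : T, φ (χ t) = algebraMap k (AlgebraicClosure k) (Θ t) := by
  haveI : (RingHom.ker Θ).IsPrime := RingHom.ker_isPrime Θ
  obtain ⟨𝔭, h𝔭, hle, hint⟩ := exists_minimal_le htf (RingHom.ker Θ)
  haveI := h𝔭
  obtain ⟨χ, hχ⟩ := exists_point_of_prime 𝔭 hint
  obtain ⟨φ, hφ⟩ := exists_residue_map χ Θ (hχ ▸ hle)
  exact ⟨χ, φ, hφ⟩

end Fermat.Agent.M48.HeckeLift8
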