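/-
Programme M48, pillar (P1), leaf (P1-RES) — helper8.

**`p1Res_of : P1Stmt → P1FinStmt → P1ResStmt`**: the residual corollary of (P1), consumed by (RESFAM).

For `Θ : 𝕋 →+* k` (`𝕋` the `Γ₁(M)` Hecke algebra, `k` a finite field of characteristic `p`):
`HeckeLift8.exists_lift` gives `χ : 𝕋 →+* ℤbar`, `φ : ℤbar →+* k̄` with `φ ∘ χ = Θ`; the tree's
`ES.J7.Contracts1.completeDVR` a complete DVR `𝒪'` receiving `χ`; (P1) a representation over a finite
extension `𝒪''`; its reduction is written in a basis, pushed to a finite subfield `k' ⊆ k̄` containing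
`k` and the image of the residue field of `𝒪''`, and semisimplified (`SemiSimple8.exists_semisimple`).
-/
import Mathlib
import Fermat.Agent.M48.P1Target8
import Fermat.Agent.M48.HeckeLift8
import Fermat.Agent.M48.SemiSimple8
import Fermat.Agent.ES.J7.Contracts1

set_option autoImplicit false
set_option linter.style.haveILetI false

open Polynomial IsLocalRing

noncomputable section

namespace Fermat.Agent.M48.P1Res8

open Fermat.Agent.M48.P1Target8

/-! ### The reduction of an adic representation, in matrix form -/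

/-- A residual representation, in a basis, with scalars extended along `j : κ →+* k'`. -/
theorem exists_matrixRep {κ : Type} [Field κ] (ρ : ResidualGaloisRep κ) {k' : Type} [Field k']
    (j : κ →+* k') :
    ∃ r : GQ →* GL (Fin 2) k', GaloisFactorsThroughFiniteLevel r ∧
      (∀ σ : GQ, ((r σ : GL (Fin 2) k') : Matrix (Fin 2) (Fin 2) k').charpoly =
        (LinearMap.charpoly (ρ.ρ σ)).map j) ∧
      (∀ σ : GQ, ρ.ρ σ = 1 → r σ = 1) := by
  classical
  let b : Module.Basis (Fin 2) κ ρ.V := Module.finBasisOfFinrankEq κ ρ.V ρ.finrank_eq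
  let m : GQ →* Matrix (Fin 2) (Fin 2) k' :=
    ((RingHom.mapMatrix j : Matrix (Fin 2) (Fin 2) κ →+* Matrix (Fin 2) (Fin 2) k') :
        Matrix (Fin 2) (Fin 2) κ →* Matrix (Fin 2) (Fin 2) k').comp
      (((LinearMap.toMatrixAlgEquiv b : Module.End κ ρ.V ≃ₐ[κ] Matrix (Fin 2) (Fin 2) κ) :
        Module.End κ ρ.V →* Matrix (Fin 2) (Fin 2) κ).comp ρ.ρ)
  have hm : ∀ σ, m σ = (LinearMap.toMatrix b b (ρ.ρ σ)).map j := fun σ => rfl
  refine ⟨m.toHomUnits, ?_, fun σ => ?_, fun σ hσ => ?_⟩
  · obtain ⟨L, hL, h1⟩ := ρ.factorsThroughFiniteLevel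
    refine ⟨L, hL, fun σ hσ => ?_⟩
    apply Units.ext
    show m σ = 1
    rw [hm, h1 σ hσ]
    simp [Module.End.one_eq_id]
  · show (m σ).charpoly = _
    rw [hm, Matrix.charpoly_map, LinearMap.charpoly_toMatrix]
  · apply Units.ext
    show m σ = 1
    rw [hm, hσ]
    simp [Module.End.one_eq_id]

/-- The reduction of an adic representation: characteristic polynomials and triviality. -/
theorem residual_charpoly {A : Type} [CommRing A] [IsLocalRing A] (ρ : GaloisRepAdic A) (σ : GQ) :
    LinearMap.charpoly (ρ.residual.ρ σ) = (LinearMap.charpoly (ρ.ρ σ)).map (residue A) := by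
  show LinearMap.charpoly ((ρ.ρ σ).baseChange (ResidueField A)) = _
  rw [LinearMap.charpoly_baseChange]
  rfl

theorem residual_eq_one {A : Type} [CommRing A] [IsLocalRing A] (ρ : GaloisRepAdic A) (σ : GQ)
    (h : ρ.ρ σ = 1) : ρ.residual.ρ σ = 1 := by
  show (ρ.ρ σ).baseChange (ResidueField A) = 1
  rw [h, LinearMap.baseChange_one]

/-! ### A finite field receiving `k` and the residue field -/

/-- Two finite fields with compatible maps to an algebraic closure `k̄` of the first lie in a common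
finite subfield. -/
theorem exists_finite_overfield (k : Type) [Field k] [Finite k] (κ : Type) [Field κ] [Finite κ]
    (ψ : κ →+* AlgebraicClosure k) :
    ∃ (k' : IntermediateField k (AlgebraicClosure k)) (_ : Finite k') (j : κ →+* k'),
      ∀ x : κ, ((j x : k') : AlgebraicClosure k) = ψ x := by
  classical
  let k' : IntermediateField k (AlgebraicClosure k) := IntermediateField.adjoin k (Set.range ψ)
  haveI : Finite (Set.range ψ) := Set.finite_range ψ
  haveI : FiniteDimensional k k' :=
    IntermediateField.finiteDimensional_adjoin fun x _ =>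
      (Algebra.IsAlgebraic.isAlgebraic (R := k) x).isIntegral
  have hfin : Finite k' := Module.finite_of_finite k
  exact ⟨k', hfin, ψ.codRestrict k'.toSubfield.toSubring fun x =>
      IntermediateField.subset_adjoin k _ ⟨x, rfl⟩, fun x => rfl⟩

/-! ### The assembly -/

/-- `ℤ`-module structures on an additive commutative group are unique: transport of finiteness. -/
theorem finite_int_of_finite {A : Type} [AddCommGroup A] (inst : Module ℤ A)
    (h : @Module.Finite ℤ A _ _ inst) : Module.Finite ℤ A := by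
  have : inst = AddCommGroup.toIntModule A := Subsingleton.elim _ _
  subst this
  exact h

/-- **(P1-RES) from (P1) and (P1-FIN).** -/
theorem p1Res_of (hP1 : P1Stmt) (hFin : P1FinStmt) : P1ResStmt := by
  intro p _ M _ H S hpS hMS k _ _ _ Θ
  obtain ⟨hcomm, hfin⟩ := hFin M H (↑S : Set ℕ)
  -- the Hecke algebra as a commutative ring
  letI instT : CommRing (H.heckeAlgebra (↑S : Set ℕ)) :=
    { (inferInstance : Ring (H.heckeAlgebra (↑S : Set ℕ))) with mul_comm := hcomm }
  haveI : Module.Finite ℤ (H.heckeAlgebra (↑S : Set ℕ)) := finite_int_of_finite _ hfin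
  have htf : ∀ (n : ℤ) (t : H.heckeAlgebra (↑S : Set ℕ)), n ≠ 0 →
      (n : H.heckeAlgebra (↑S : Set ℕ)) * t = 0 → t = 0 := by
    intro n t hn h
    apply Subtype.ext
    have h1 := congrArg Subtype.val h
    have h2 : (n : Module.End ℂ (CuspForm (CongruenceSubgroup.Gamma1 M) 2)) *
        (t : Module.End ℂ (CuspForm (CongruenceSubgroup.Gamma1 M) 2)) = 0 := by
      simpa using h1
    rw [← zsmul_eq_mul] at h2
    have h3 : ((n : ℂ)) • (t : Module.End ℂ (CuspForm (CongruenceSubgroup.Gamma1 M) 2)) = 0 := by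
      rw [← h2]; exact (Int.cast_smul_eq_zsmul ℂ n _)
    rcases smul_eq_zero.mp h3 with h4 | h4
    · exact absurd (by exact_mod_cast h4) hn
    · exact h4
  -- lift to characteristic zero
  obtain ⟨χ, φ, hφ⟩ := HeckeLift8.exists_lift (H.heckeAlgebra (↑S : Set ℕ)) htf k Θ
  haveI : CharP (AlgebraicClosure k) p := charP_of_injective_algebraMap
    (algebraMap k (AlgebraicClosure k)).injective p
  obtain ⟨𝒪', i1, i2, i3, i4, i5, i6, hp𝒪', χ', ψ, hψ, -⟩ :=
    Fermat.Agent.ES.J7.Contracts1.completeDVR (H.heckeAlgebra (↑S : Set ℕ)) χ p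
      (AlgebraicClosure k) φ
  -- (P1)
  obtain ⟨𝒪'', j1, j2, j3, j4, j5, j6, j7, j8, j9, -, ρ, hfrob, hunr⟩ :=
    hP1 p M H S hpS hMS 𝒪' hp𝒪' χ'
  -- the residue fields
  let res12 : ResidueField 𝒪' →+* ResidueField 𝒪'' := ResidueField.map (algebraMap 𝒪' 𝒪'')
  letI : Algebra (ResidueField 𝒪') (ResidueField 𝒪'') := res12.toAlgebra
  letI : Algebra (ResidueField 𝒪') (AlgebraicClosure k) := ψ.toAlgebra
  haveI : Module.Finite (ResidueField 𝒪') (ResidueField 𝒪'') := Module.Finite.of_finite
  haveI : Algebra.IsAlgebraic (ResidueField 𝒪') (ResidueField 𝒪'') :=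
    Algebra.IsAlgebraic.of_finite _ _
  let ψ'' : ResidueField 𝒪'' →ₐ[ResidueField 𝒪'] AlgebraicClosure k := IsAlgClosed.lift
  have hψ'' : ∀ x : 𝒪', ψ'' (residue 𝒪'' (algebraMap 𝒪' 𝒪'' x)) = ψ (residue 𝒪' x) := by
    intro x
    have h1 : residue 𝒪'' (algebraMap 𝒪' 𝒪'' x) =
        algebraMap (ResidueField 𝒪') (ResidueField 𝒪'') (residue 𝒪' x) := by
      rw [RingHom.algebraMap_toAlgebra]
      rfl
    rw [h1, AlgHom.commutes, RingHom.algebraMap_toAlgebra]
  obtain ⟨k', hk'fin, j, hj⟩ := exists_finite_overfield k (ResidueField 𝒪'') ψ''.toRingHom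
  -- the matrix form and its semisimplification
  obtain ⟨r₀, hr₀lvl, hr₀cp, hr₀one⟩ := exists_matrixRep ρ.residual j
  obtain ⟨r, hrss, hrcp, hrone⟩ := SemiSimple8.exists_semisimple r₀
  have hkey : ∀ t : H.heckeAlgebra (↑S : Set ℕ),
      j (residue 𝒪'' (algebraMap 𝒪' 𝒪'' (χ' t))) = algebraMap k k' (Θ t) := by
    intro t
    apply Subtype.ext
    rw [hj]
    show ψ'' _ = algebraMap k (AlgebraicClosure k) (Θ t)
    rw [hψ'', hψ, hφ]
  refine ⟨k', inferInstance, hk'fin, inferInstance, r, ?_, hrss, ?_, ?_⟩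
  · obtain ⟨L, hL, h1⟩ := hr₀lvl
    exact ⟨L, hL, fun σ hσ => hrone σ (h1 σ hσ)⟩
  · intro q hq hqM hqS A hA σ hσ
    rw [hrcp, hr₀cp, residual_charpoly, hfrob q hq hqM hqS A hA σ hσ, Polynomial.map_map]
    simp only [Polynomial.map_add, Polynomial.map_sub, Polynomial.map_mul, Polynomial.map_pow,
      Polynomial.map_X, Polynomial.map_C, RingHom.comp_apply, map_mul, map_natCast,
      Polynomial.map_natCast]
    rw [hkey, hkey]
  · intro q hq hqM hqp A hA σ hσ
    exact hrone σ (hr₀one σ (residual_eq_one ρ σ (hunr q hq hqM hqp A hA σ hσ)))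

end Fermat.Agent.M48.P1Res8
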