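/-
M48 (P1), glue (helper3): **the GEOMETRIC contract `P1Geom p M`** and the proof that it yields helper8's
`P1Inputs8.P1Inputs p M H S` for every `H`, `S` — hence `P1Stmt`.

`P1Inputs` = LATTICE side + JACOBIAN side + comparison (K2).  The lattice side is now a theorem
(`G1Fin3.exists_eigenvector_lam`), and (K2) follows from a Kummer system + Hecke compatibility by
`TateCoset3.map_iota` / `TateCompare11.isBaseChange_iota`.  What remains is purely geometric: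

`structure P1Geom p M` :
* `J`, `G_ℚ`-action, `hecke ℓ`, `dia d`, commutation with `G_ℚ`;
* (K1) `J[p]` finite; finite level on `J[pⁿ]`;
* **(KS1)** `KS : KummerSystem p (Gamma1 M) J`;
* **(HC1)** `hecke ℓ` (`ℓ ∤ M` prime) and `dia d` correspond under the Kummer maps to the coset-sum
  operators `mulX (heckeOp1 hℓ hℓM)`, `mulX (diaOp1 d)` on characters of `Γ₁(M)`;
* inertia and the Eichler–Shimura relation on `J[pᵏ]` (consequences of (SP1)).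

* `heckeOp1`, `diaOp1` : the coset operators (S-free names for `G1Fin3.cosetOf`);
* `tZ1 M r`, `dZ1 M d` : the lattice operators;
* `P1Geom.toInputs : P1Geom p M → P1Inputs p M H S`;
* **`p1Stmt_of_geom : (∀ p M, Nonempty (P1Geom p M)) → P1Stmt`**.
-/
import Mathlib
import Fermat.Agent.M48.G1Fin3
import Fermat.Agent.M48.TateCoset3
import Fermat.Agent.M48.P1Inputs8
import Fermat.Agent.M48.P1Res8

set_option autoImplicit false
set_option linter.unusedSectionVars false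

noncomputable section

namespace Fermat.Agent.M48.P1Geom3

open CongruenceSubgroup TensorProduct
open scoped MatrixGroups
open Fermat.Agent.ES.J Fermat.Agent.ES.J.TateModule13 Fermat.Agent.ES.J.TateChar11
open Fermat.Agent.ES.J.TateCompare11
open Fermat.Agent.M48.ESInv3 Fermat.Agent.M48.CosetOp3 Fermat.Agent.M48.HeckeOne1
open Fermat.Agent.M48.Diamond1 Fermat.Agent.M48.G1Reps3
open Fermat.Agent.M48.G1Fin3 Fermat.Agent.M48.TateCoset3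
open Fermat.Agent.M48.P1Target8 Fermat.Agent.M48.P1Inputs8 Fermat.Agent.M48.P1Lattice8

local notation "Qb" => AlgebraicClosure ℚ

variable {M : ℕ} [NeZero M]

/-- the coset-sum operator of `T_ℓ` on `Γ₁(M)`, `ℓ ∤ M` prime (representatives `[[1,j],[0,ℓ]]` and
`σ_ℓ · [[ℓ,0],[0,1]]`). -/
def heckeOp1 {ℓ : ℕ} (hℓ : ℓ.Prime) (hℓM : ¬ ℓ ∣ M) : CosetOp (Gamma1 M) :=
  haveI : Fact ℓ.Prime := ⟨hℓ⟩
  heckeCoset1 hℓM (sigma (unitOfPrime hℓ hℓM)) (Gamma0Map_sigma_unitOfPrime hℓ hℓM)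

/-- the coset-sum operator of `⟨d⟩` on `Γ₁(M)`. -/
def diaOp1 (d : (ZMod M)ˣ) : CosetOp (Gamma1 M) := diaCoset1 (sigma d)

theorem cosetOf_inl (S : Set ℕ) {ℓ : ℕ} (hℓ : ℓ.Prime) (hℓM : ¬ ℓ ∣ M) (hℓS : ℓ ∉ S) :
    cosetOf M S (Sum.inl ⟨ℓ, hℓ, hℓM, hℓS⟩) = heckeOp1 hℓ hℓM := rfl

theorem cosetOf_inr (S : Set ℕ) (d : (ZMod M)ˣ) : cosetOf M S (Sum.inr d) = diaOp1 d := rfl

variable (M) in
/-- `T_r` on `Λ₁`. -/
def tZ1 (r : ℕ) : Module.End ℤ (Lam1 M) :=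
  if h : r.Prime ∧ ¬ r ∣ M then parOp (heckeOp1 h.1 h.2) ℤ ℤ else 0

theorem tZ1_of_prime {r : ℕ} (hr : r.Prime) (hrM : ¬ r ∣ M) :
    tZ1 M r = parOp (heckeOp1 hr hrM) ℤ ℤ := dif_pos ⟨hr, hrM⟩

variable (M) in
/-- `⟨d⟩` on `Λ₁`. -/
def dZ1 (d : (ZMod M)ˣ) : Module.End ℤ (Lam1 M) := parOp (diaOp1 d) ℤ ℤ

/-- **(F2)** in the shape of `P1Inputs.eigen`. -/
theorem eigen1 (H : G1Ops M 2) (S : Set ℕ) (K' : Type) [Field K'] [CharZero K']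
    (χ : H.heckeAlgebra S →+* K') :
    ∃ w : K' ⊗[ℤ] Lam1 M, w ≠ 0 ∧
      (∀ (r : ℕ) (hr : r.Prime) (hrM : ¬ r ∣ M) (hrS : r ∉ S),
        (tZ1 M r).baseChange K' w = χ (H.Tr hr hrM hrS) • w) ∧
      (∀ d : (ZMod M)ˣ, (dZ1 M d).baseChange K' w = χ (H.Dd S d) • w) := by
  have hle : heckeAlgebra1 M 2 S ≤ H.heckeAlgebra S := (G1Ops.heckeAlgebra_eq H S).ge
  obtain ⟨w, hw, hT, hD⟩ :=
    exists_eigenvector_lam S (χ.comp (Subalgebra.inclusion hle).toRingHom)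
  refine ⟨w, hw, fun r hr hrM hrS => ?_, fun d => ?_⟩
  · have h := hT r hr hrM hrS
    rw [tZ1_of_prime hr hrM]
    have e : (Subalgebra.inclusion hle) ⟨T1 2 hr hrM, T1_mem_heckeAlgebra1 hr hrM hrS⟩
        = H.Tr hr hrM hrS := Subtype.ext (G1Ops.T_eq H hr hrM).symm
    rw [← e]
    exact h
  · have h := hD d
    have e : (Subalgebra.inclusion hle) ⟨diamondC d, diamondC_mem_heckeAlgebra1 d⟩
        = H.Dd S d := Subtype.ext (G1Ops.diamond_eq H d).symm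
    rw [← e]
    exact h

/-- **The geometric contract of (P1)** for `(p, M)`. -/
structure P1Geom (p : ℕ) [Fact p.Prime] (M : ℕ) [NeZero M] where
  /-- the Jacobian `J₁(M)(ℚbar)` -/
  J : Type
  [instJ : AddCommGroup J]
  [actJ : DistribMulAction (Qb ≃ₐ[ℚ] Qb) J]
  /-- `T_r` on `J` -/
  hecke : ℕ → J →+ J
  /-- `⟨d⟩` on `J` -/
  dia : (ZMod M)ˣ → J →+ J
  hecke_smul : ∀ (ℓ : ℕ) (σ : Qb ≃ₐ[ℚ] Qb) (y : J), hecke ℓ (σ • y) = σ • hecke ℓ y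
  dia_smul : ∀ (d : (ZMod M)ˣ) (σ : Qb ≃ₐ[ℚ] Qb) (y : J), dia d (σ • y) = σ • dia d y
  /-- **(K1)** -/
  fin_torsion : {y : J | p • y = 0}.Finite
  /-- finite level on `J[pⁿ]` -/
  level : ∀ n : ℕ, ∃ L : IntermediateField ℚ Qb, FiniteDimensional ℚ L ∧
    ∀ σ : Qb ≃ₐ[ℚ] Qb, (∀ x ∈ L, σ x = x) → ∀ y : J, p ^ n • y = 0 → σ • y = y
  /-- **(KS1)** -/
  KS : KummerSystem p (Gamma1 M) J
  /-- **(HC1)** for `T_ℓ` -/
  hecke_compat : ∀ (ℓ : ℕ) (hℓ : ℓ.Prime) (hℓM : ¬ ℓ ∣ M) (k : ℕ) (x : ↥(tors J (p ^ k)))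
    (hfx : hecke ℓ (x : J) ∈ tors J (p ^ k)),
    KS.κ k ⟨hecke ℓ (x : J), hfx⟩ = mulX (heckeOp1 hℓ hℓM) (KS.κ k x)
  /-- **(HC1)** for `⟨d⟩` -/
  dia_compat : ∀ (d : (ZMod M)ˣ) (k : ℕ) (x : ↥(tors J (p ^ k)))
    (hfx : dia d (x : J) ∈ tors J (p ^ k)),
    KS.κ k ⟨dia d (x : J), hfx⟩ = mulX (diaOp1 d) (KS.κ k x)
  /-- inertia at `q ∤ Mp` acts trivially on `J[pᵏ]` -/
  inertia : ∀ q : ℕ, q.Prime → ¬ q ∣ M → q ≠ p → ∀ A : ValuationSubring Qb, A.LiesOverPrime q →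
    ∀ τ ∈ A.inertiaSubgroupIn ℚ, ∀ (k : ℕ) (y : J), p ^ k • y = 0 → τ • y = y
  /-- Eichler–Shimura with nebentypus on `J[pᵏ]` -/
  frobenius : ∀ (ℓ : ℕ) (hℓ : ℓ.Prime) (hℓM : ¬ ℓ ∣ M), ℓ ≠ p →
    ∀ A : ValuationSubring Qb, A.LiesOverPrime ℓ → ∀ σ : Qb ≃ₐ[ℚ] Qb, A.IsFrobeniusAt σ ℓ →
      ∀ (k : ℕ) (y : J), p ^ k • y = 0 →
        σ • σ • y - hecke ℓ (σ • y) + ℓ • dia (unitAt hℓ hℓM) y = 0

attribute [instance] P1Geom.instJ P1Geom.actJ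

variable {p : ℕ} [Fact p.Prime]

/-- **the inputs of the top of (P1) from the geometric contract.** -/
def P1Geom.toInputs (G : P1Geom p M) (H : G1Ops M 2) (S : Finset ℕ) : P1Inputs p M H S where
  Λ := Lam1 M
  tZ := tZ1 M
  dZ := dZ1 M
  eigen K' _ _ χ := eigen1 H (↑S : Set ℕ) K' χ
  J := G.J
  hecke := G.hecke
  dia := G.dia
  hecke_smul := G.hecke_smul
  dia_smul := G.dia_smul
  fin_torsion := G.fin_torsion
  level := G.level
  ι₀ := iota G.KS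
  isBaseChange_ι₀ := isBaseChange_iota G.KS (ParTensor3.fg (Gamma1 M))
  ι₀_hecke ℓ hℓ hℓM x := by
    rw [tZ1_of_prime hℓ hℓM]
    exact TateCoset3.map_iota (heckeOp1 hℓ hℓM) G.KS (G.hecke ℓ) (G.hecke_compat ℓ hℓ hℓM) x
  ι₀_dia d x := TateCoset3.map_iota (diaOp1 d) G.KS (G.dia d) (G.dia_compat d) x
  inertia := G.inertia
  frobenius := G.frobenius

/-- **(P1) from the geometric contract.** -/
theorem p1Stmt_of_geom
    (hG : ∀ (p : ℕ) [Fact p.Prime] (M : ℕ) [NeZero M], Nonempty (P1Geom p M)) : P1Stmt :=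
  p1_of_inputs fun p _ M _ H S _ _ => ⟨(hG p M).some.toInputs H S⟩

/-- **(P1-RES) from the geometric contract** (with `G1Fin3.p1FinStmt` and `P1Res8.p1Res_of`). -/
theorem p1ResStmt_of_geom
    (hG : ∀ (p : ℕ) [Fact p.Prime] (M : ℕ) [NeZero M], Nonempty (P1Geom p M)) : P1ResStmt :=
  Fermat.Agent.M48.P1Res8.p1Res_of (p1Stmt_of_geom hG) p1FinStmt

end Fermat.Agent.M48.P1Geom3
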