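/-
Programme M48, pillar (P1), chapter [KUM1] — helper8: **(K1) from a Kummer system**.

(The `Γ`-generic Tate-side equivariance `mulX`, `fullEquiv_mulX`, `tateEquiv_map`, `map_iota` for an
arbitrary `CosetOp Γ` is helper3's `TateCoset3`; an identical copy that lived here has been removed.)

* `finite_chars` : the characters of exponent `n` of a finitely generated group form a finite set;
* **`finite_torsion`** : `{y : J | p • y = 0}` is finite if `Γ` is finitely generated and `J` has a
  Kummer system (K1).
-/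
import Mathlib
import Fermat.Agent.M48.TateCoset3

set_option autoImplicit false
set_option linter.unusedSectionVars false
set_option linter.style.haveILetI false

noncomputable section

namespace Fermat.Agent.M48.TateCoset8

open Fermat.Agent.ES.J.TateModule13 Fermat.Agent.ES.J.TateChar11
open scoped MatrixGroups

variable {p : ℕ} [hp : Fact p.Prime] {Γ : Subgroup SL(2, ℤ)}
variable {J : Type*} [AddCommGroup J] (KS : KummerSystem p Γ J)

omit hp in
/-- the characters of exponent `n` of a finitely generated group form a finite set. -/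
theorem finite_chars (hΓ : Γ.FG) (n : ℕ) [NeZero n] : {χ : X Γ | n • χ = 0}.Finite := by
  classical
  have hG : Group.FG Γ := (Group.fg_iff_subgroup_fg Γ).mpr hΓ
  obtain ⟨S, hS⟩ := Group.fg_def.mp hG
  have hpow : ∀ χ : {χ : X Γ | n • χ = 0}, ∀ γ : Γ, ((Additive.toMul χ.1) γ) ^ n = 1 := by
    intro χ γ
    have h : Additive.toMul (n • χ.1) = 1 := by rw [χ.2]; rfl
    rw [toMul_nsmul] at h
    have := congrArg (fun ψ : Γ →* ℂˣ => ψ γ) h
    simpa using this
  let F : {χ : X Γ | n • χ = 0} → (S → rootsOfUnity n ℂ) := fun χ s =>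
    ⟨(Additive.toMul χ.1) s.1, (mem_rootsOfUnity n _).mpr (hpow χ s.1)⟩
  have hF : Function.Injective F := by
    intro χ ψ h
    apply Subtype.ext
    apply Additive.toMul.injective
    refine MonoidHom.eq_of_eqOn_dense hS ?_
    intro s hs
    have := congrArg (fun f : S → rootsOfUnity n ℂ => ((f ⟨s, hs⟩ : rootsOfUnity n ℂ) : ℂˣ)) h
    exact this
  exact Set.finite_coe_iff.mp (Finite.of_injective F hF)

include KS in
/-- **(K1)**: `J[p]` is finite, from a Kummer system for a finitely generated `Γ`. -/
theorem finite_torsion (hΓ : Γ.FG) : {y : J | p • y = 0}.Finite := by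
  haveI : NeZero (p ^ 1) := ⟨pow_ne_zero 1 hp.out.ne_zero⟩
  have hfin := finite_chars (Γ := Γ) hΓ (p ^ 1)
  have hmem : ∀ y : {y : J | p • y = 0}, (y : J) ∈ tors J (p ^ 1) := by
    intro y
    rw [mem_tors, pow_one]
    exact y.2
  let F : {y : J | p • y = 0} → {χ : X Γ | p ^ 1 • χ = 0} := fun y =>
    ⟨KS.κ 1 ⟨y.1, hmem y⟩, ((KS.range_eq 1 _).mp ⟨_, rfl⟩).2⟩
  have hF : Function.Injective F := by
    intro y z h
    have h1 : KS.κ 1 ⟨y.1, hmem y⟩ = KS.κ 1 ⟨z.1, hmem z⟩ := congrArg Subtype.val h
    have h2 := KS.inj 1 h1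
    have h3 : (y : J) = (z : J) := congrArg (fun w : ↥(tors J (p ^ 1)) => (w : J)) h2
    exact Subtype.ext h3
  haveI := Set.finite_coe_iff.mpr hfin
  exact Set.finite_coe_iff.mp (Finite.of_injective F hF)

end Fermat.Agent.M48.TateCoset8
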