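/-
Programme M48, pillar (P1) — helper8.  **THE LITERAL TARGETS of the geometric chapters of (P1)**
([KUM1], [GAL1], [SP1] = [RED1] + [ESRED1]) **and the proof that they imply `P1Stmt`**:

  `p1_of_jac : KUM1Stmt → GAL1Stmt → SP1Stmt → P1Target8.P1Stmt`.

All three statements are about the SAME objects of `J1Defs8`: `J1 M = Pic⁰(ℚbar · fieldG10 M 1)`,
`hecke1' ℚbar M ℓ = β_* α^*`, `dia1 ℚbar M d`; and about helper3's coset operators
`P1Geom3.heckeOp1 hℓ hℓM`, `P1Geom3.diaOp1 d` (`G1Reps3.heckeCoset1`, `diaCoset1`, the coset families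
of helper1's `T1`, `diamondC`) and `TateCoset3.mulX`.  Only levels `2 ≤ M` are needed
(`S₂(SL₂(ℤ)) = 0` makes `M = 1` vacuous).  The proof goes through helper3's contract
`P1Geom3.P1Geom p M` (`p1Geom_of_jac`): (K1) comes from the Kummer system, the finite level on
`J[pⁿ]` from the pointwise level, inertia and the Frobenius relation on torsion from `SP1`.

* **[KUM1]** `KUM1Stmt` : for every prime `p` a Kummer system
  `KS : KummerSystem p (Gamma1 M) (J1 M)` (Kummer isomorphisms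
  `J₁(M)[pᵏ] ≅ {χ ∈ Hom_par(Γ₁(M), ℂˣ) | χ^(pᵏ) = 1}`, compatible in `k`) with **(HC1)**
  `HeckeCompat1 M KS` : `κ (T_ℓ x) = mulX (heckeOp1 …) (κ x)`, `κ (⟨d⟩ x) = mulX (diaOp1 d) (κ x)`;
* **[GAL1]** `GAL1Stmt` : `hecke1'`, `dia1` commute with `Gal(ℚbar/ℚ)`, and every point of `J₁(M)` is
  fixed by an open subgroup;
* **[SP1]** `SP1Stmt` : for `ℓ ∤ M` prime and `A` over `ℓ` a homomorphism `Φ : J₁(M) →+ G`
  (specialisation) which is inertia-invariant, kills `σσx - T_ℓ(σx) + ℓ • ⟨ℓ⟩x` for every Frobenius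
  element `σ` at `A`, and is injective on prime-to-`ℓ` torsion.

The lattice side (`Λ`, (F2)) is helper3's `G1Fin3.exists_eigenvector_lam`, already proved.
-/
import Mathlib
import Fermat.Agent.M48.J1Defs8
import Fermat.Agent.M48.TateCoset8
import Fermat.Agent.M48.P1Geom3
import Fermat.Agent.ES.J.TateJZero13

set_option autoImplicit false
set_option linter.unusedSectionVars false
set_option linter.style.haveILetI false
set_option synthInstance.maxHeartbeats 400000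

open TensorProduct Polynomial CongruenceSubgroup AlgebraicCurve ModularCurve
open scoped MatrixGroups ModularForm

noncomputable section

namespace Fermat.Agent.M48.P1Jac8

open Fermat.Agent.M48.P1Target8 Fermat.Agent.M48.P1Inputs8 Fermat.Agent.M48.P1Lattice8
  Fermat.Agent.M48.J1Defs8 Fermat.Agent.M48.TateCoset8 Fermat.Agent.M48.TateCoset3
  Fermat.Agent.M48.P1Geom3 Fermat.Agent.M48.G1Fin3
  Fermat.Agent.M48.G1Reps3 Fermat.Agent.M48.ESInv3 Fermat.Agent.M48.CosetOp3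
  Fermat.Agent.M48.Diamond1 Fermat.Agent.M48.HeckeOne1
  Fermat.Agent.ES.J.TateModule13 Fermat.Agent.ES.J.TateChar11 Fermat.Agent.ES.J.TateCompare11

local notation "Qb" => AlgebraicClosure ℚ

/-! ### The literal targets -/

section Targets

variable (M : ℕ) [NeZero M]

/-- **(HC1)**: the Kummer maps intertwine `T_ℓ = β_* α^*` and `⟨d⟩` on `J₁(M)` with the coset
operators on characters. -/
structure HeckeCompat1 {p : ℕ} (KS : KummerSystem p (Gamma1 M) (J1 M)) : Prop where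
  hecke : ∀ (ℓ : ℕ) (hℓ : ℓ.Prime) (hℓM : ¬ ℓ ∣ M) (k : ℕ) (x : ↥(tors (J1 M) (p ^ k)))
    (hfx : hecke1' Qb M ℓ (x : J1 M) ∈ tors (J1 M) (p ^ k)),
    KS.κ k ⟨hecke1' Qb M ℓ (x : J1 M), hfx⟩ = mulX (heckeOp1 hℓ hℓM) (KS.κ k x)
  dia : ∀ (d : (ZMod M)ˣ) (k : ℕ) (x : ↥(tors (J1 M) (p ^ k)))
    (hfx : dia1 Qb M d (x : J1 M) ∈ tors (J1 M) (p ^ k)),
    KS.κ k ⟨dia1 Qb M d (x : J1 M), hfx⟩ = mulX (diaOp1 d) (KS.κ k x)

/-- **[GAL1]** for the level `M`. -/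
structure GAL1 : Prop where
  hecke_smul : ∀ (ℓ : ℕ) (σ : Qb ≃ₐ[ℚ] Qb) (y : J1 M),
    hecke1' Qb M ℓ (σ • y) = σ • hecke1' Qb M ℓ y
  dia_smul : ∀ (d : (ZMod M)ˣ) (σ : Qb ≃ₐ[ℚ] Qb) (y : J1 M), dia1 Qb M d (σ • y) = σ • dia1 Qb M d y
  level : ∀ y : J1 M, ∃ L : IntermediateField ℚ Qb, FiniteDimensional ℚ L ∧
    ∀ σ : Qb ≃ₐ[ℚ] Qb, (∀ x ∈ L, σ x = x) → σ • y = y

/-- **[SP1]** for `(M, ℓ, A)`: a specialisation homomorphism with the Eichler–Shimura relation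
`Frob² - T_ℓ Frob + ℓ⟨ℓ⟩ = 0`. -/
def SP1 {ℓ : ℕ} (hℓ : ℓ.Prime) (hℓM : ¬ ℓ ∣ M) (A : ValuationSubring Qb) : Prop :=
  ∃ (G : Type) (_ : AddCommGroup G) (Φ : J1 M →+ G),
    (∀ τ ∈ A.inertiaSubgroupIn ℚ, ∀ x : J1 M, Φ (τ • x) = Φ x) ∧
    (∀ σ : Qb ≃ₐ[ℚ] Qb, A.IsFrobeniusAt σ ℓ → ∀ x : J1 M,
      Φ (σ • σ • x - hecke1' Qb M ℓ (σ • x) + ℓ • dia1 Qb M (unitAt hℓ hℓM) x) = 0) ∧
    (∀ (m : ℕ) (x : J1 M), ¬ ℓ ∣ m → m • x = 0 → Φ x = 0 → x = 0)

end Targets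

/-- **[KUM1]**, literal target. -/
def KUM1Stmt : Prop :=
  ∀ (p : ℕ) [Fact p.Prime] (M : ℕ) [NeZero M], 2 ≤ M →
    ∃ KS : KummerSystem p (Gamma1 M) (J1 M), HeckeCompat1 M KS

/-- **[GAL1]**, literal target. -/
def GAL1Stmt : Prop := ∀ (M : ℕ) [NeZero M], 2 ≤ M → GAL1 M

/-- **[SP1]**, literal target. -/
def SP1Stmt : Prop :=
  ∀ (M : ℕ) [NeZero M], 2 ≤ M → ∀ (ℓ : ℕ) (hℓ : ℓ.Prime) (hℓM : ¬ ℓ ∣ M)
    (A : ValuationSubring Qb), A.LiesOverPrime ℓ → SP1 M hℓ hℓM A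

/-! ### Abstract torsion lemma with a diamond -/

section Abstract

variable {Γ J G : Type*} [Monoid Γ] [AddCommGroup J] [DistribMulAction Γ J] [AddCommGroup G]

theorem smul_nsmul_comm' (σ : Γ) (m : ℕ) (x : J) : σ • (m • x) = m • (σ • x) :=
  map_nsmul (DistribSMul.toAddMonoidHom J σ) m x

/-- the Eichler–Shimura relation with nebentypus on `m`-torsion from its image under a
homomorphism injective on `m`-torsion. -/
theorem relation_of_injOn_torsion (Φ : J →+ G) (m ℓ : ℕ)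
    (h3 : ∀ x : J, m • x = 0 → Φ x = 0 → x = 0) (T D : J →+ J) (σ : Γ) (x : J) (hx : m • x = 0)
    (h2 : Φ (σ • σ • x - T (σ • x) + ℓ • D x) = 0) : σ • σ • x - T (σ • x) + ℓ • D x = 0 := by
  refine h3 _ ?_ h2
  have e1 : m • (σ • x) = 0 := by rw [← smul_nsmul_comm', hx, smul_zero]
  have e2 : m • (σ • σ • x) = 0 := by rw [← smul_nsmul_comm', e1, smul_zero]
  have e3 : m • (ℓ • D x) = 0 := by rw [smul_comm m ℓ (D x), ← map_nsmul, hx, map_zero, smul_zero]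
  have e4 : m • T (σ • x) = 0 := by rw [← map_nsmul, e1, map_zero]
  rw [nsmul_add, nsmul_sub, e2, e4, e3, sub_zero, add_zero]

end Abstract

/-! ### The inputs of the top from the targets -/

section Inputs

variable {p : ℕ} [hp : Fact p.Prime] {M : ℕ} [NeZero M]

theorem not_dvd_pow {ℓ : ℕ} (hℓ : ℓ.Prime) (hℓp : ℓ ≠ p) (k : ℕ) : ¬ ℓ ∣ p ^ k := by
  intro h
  exact hℓp ((Nat.prime_dvd_prime_iff_eq hℓ hp.out).mp (hℓ.dvd_of_dvd_pow h))

/-- **helper3's geometric contract `P1Geom p M` from the literal targets.** -/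
def p1Geom_of_jac (KS : KummerSystem p (Gamma1 M) (J1 M)) (hK : HeckeCompat1 M KS) (hG : GAL1 M)
    (hSP : ∀ (ℓ : ℕ) (hℓ : ℓ.Prime) (hℓM : ¬ ℓ ∣ M) (A : ValuationSubring Qb),
      A.LiesOverPrime ℓ → SP1 M hℓ hℓM A) : P1Geom p M where
  J := J1 M
  hecke := hecke1' Qb M
  dia := dia1 Qb M
  hecke_smul := hG.hecke_smul
  dia_smul := hG.dia_smul
  fin_torsion := finite_torsion KS (ParTensor3.fg (Gamma1 M))
  level := by
    intro n
    have hfin : {y : J1 M | p ^ n • y = 0}.Finite :=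
      Fermat.Agent.ES.J.TateJZero13.finite_torsion_pow
        (finite_torsion KS (ParTensor3.fg (Gamma1 M))) n
    obtain ⟨L, hL, hσ⟩ := Fermat.Agent.ES.GAL.OpenStab12.hasLevel_forall_finset hfin.toFinset
      (fun y σ => σ • y = y) (fun y _ => hG.level y)
    exact ⟨L, hL, fun σ h y hy => hσ σ h y (hfin.mem_toFinset.2 hy)⟩
  KS := KS
  hecke_compat := hK.hecke
  dia_compat := hK.dia
  inertia := by
    intro q hq hqM hqp A hA τ hτ k y hy
    obtain ⟨G, _, Φ, h1, -, h3⟩ := hSP q hq hqM A hA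
    exact Fermat.Agent.ES.TOP.TorsionGalois12.smul_eq_of_injOn_torsion Φ (p ^ k)
      (fun z hz hΦ => h3 (p ^ k) z (not_dvd_pow hq hqp k) hz hΦ) τ y hy (h1 τ hτ y)
  frobenius := by
    intro ℓ hℓ hℓM hℓp A hA σ hσ k y hy
    obtain ⟨G, _, Φ, -, h2, h3⟩ := hSP ℓ hℓ hℓM A hA
    exact relation_of_injOn_torsion Φ (p ^ k) ℓ
      (fun z hz hΦ => h3 (p ^ k) z (not_dvd_pow hℓ hℓp k) hz hΦ)
      (hecke1' Qb M ℓ) (dia1 Qb M (unitAt hℓ hℓM)) σ y hy (h2 σ hσ y)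

end Inputs

/-! ### Level one is vacuous -/

section LevelOne

theorem cuspForm_eq_zero_of_eq (𝒢 : Subgroup (GL (Fin 2) ℝ))
    (h : 𝒢 = MonoidHom.range (Matrix.SpecialLinearGroup.mapGL ℝ : SL(2, ℤ) →* GL (Fin 2) ℝ))
    (f : CuspForm 𝒢 2) : f = 0 := by
  subst h
  exact rank_zero_iff_forall_zero.mp
    (CuspForm.rank_eq_zero_of_weight_lt_twelve (k := 2) (by norm_num)) f

theorem gamma1_one_eq_top : Gamma1 1 = ⊤ := by
  ext γ
  simp only [Subgroup.mem_top, iff_true]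
  rw [Gamma1_mem]
  refine ⟨Subsingleton.elim _ _, Subsingleton.elim _ _, Subsingleton.elim _ _⟩

theorem subsingleton_cuspForm_one : Subsingleton (CuspForm (Gamma1 1) 2) := by
  have h : ((Gamma1 1 : Subgroup SL(2, ℤ)) : Subgroup (GL (Fin 2) ℝ))
      = MonoidHom.range (Matrix.SpecialLinearGroup.mapGL ℝ : SL(2, ℤ) →* GL (Fin 2) ℝ) := by
    rw [gamma1_one_eq_top]
    simp [MonoidHom.range_eq_map]
  exact ⟨fun f g => by rw [cuspForm_eq_zero_of_eq _ h f, cuspForm_eq_zero_of_eq _ h g]⟩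

end LevelOne

/-! ### The top theorem -/

/-- **(P1) from the literal targets of the geometric chapters.** -/
theorem p1_of_jac (hKUM : KUM1Stmt) (hGAL : GAL1Stmt) (hSP : SP1Stmt) : P1Stmt := by
  intro p _ M _ H S hpS hMS 𝒪' _ _ _ _ _ _ hp𝒪' χ
  by_cases hM : 2 ≤ M
  · obtain ⟨KS, hK⟩ := hKUM p M hM
    have I : P1Inputs p M H S := (p1Geom_of_jac KS hK (hGAL M hM) (hSP M hM)).toInputs H S
    obtain ⟨ρ, h1, h2⟩ := exists_rep_of_inputs I hpS hMS hp𝒪' χ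
    exact ⟨𝒪', inferInstance, inferInstance, inferInstance, inferInstance, inferInstance,
      inferInstance, Algebra.id 𝒪', Module.Finite.self 𝒪', ⟨fun _ h => h⟩, Function.injective_id,
      ρ, h1, h2⟩
  · exfalso
    have hM1 : M = 1 := by
      have := NeZero.ne M
      omega
    subst hM1
    haveI := subsingleton_cuspForm_one
    have h10 : (1 : H.heckeAlgebra (↑S : Set ℕ)) = 0 :=
      Subtype.ext (LinearMap.ext fun f => Subsingleton.elim _ _)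
    have : (1 : 𝒪') = 0 := by rw [← map_one χ, h10, map_zero]
    exact one_ne_zero this

/-- **(P1-RES) from the literal targets of the geometric chapters** (what (RESFAM) consumes). -/
theorem p1Res_of_jac (hKUM : KUM1Stmt) (hGAL : GAL1Stmt) (hSP : SP1Stmt) : P1ResStmt :=
  Fermat.Agent.M48.P1Res8.p1Res_of (p1_of_jac hKUM hGAL hSP) p1FinStmt

end Fermat.Agent.M48.P1Jac8
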