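/-
M48 (P1), [KUM1] **(HC1) for `J₁(M)`** (helper3): the Kummer maps of a Kummer system on
`J₁(M) = Pic⁰(ℚbar · fieldG10 M 1)` intertwine helper8's `hecke1' ℚbar M ℓ = β_* α^*` and `dia1 ℚbar M d`
with the coset operators `P1Geom3.heckeOp1`, `P1Geom3.diaOp1` on characters: **`P1Jac8.HeckeCompat1`**,
CONDITIONAL on

* (KS1) `hK : ∀ k, KummerCoset3.IsKummerMapG (Gamma1 M) (anQ M 1 hM) (p ^ k) (toMul ∘ KS.κ k)` — the Kummer
  maps are characterised by `n`-th roots of `anQ f` in `MerH` with multiplier `κ x` (the output shape of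
  `ES.KUM` + `J.DESC`, as `KummerHeckeMain19.IsKummerMap` for `Γ₀(N)`);
* (ES.HECKE twin) `hH : Hecke1Inputs ℚbar M ℓ ∧ finrankAlong ℚbar (beta1 ℚbar M ℓ) = ℓ + 1`;
* (DiamondAut5) `hD : ∃ δ, IsDiamondAut ℚbar M d δ`.

Contents:
* `ringHom_ext_laurentBaseChange` : ring homomorphisms out of `K · ℚ(S)` into a division ring are
  determined by their values on `K` and on the elements with series `coeffEmb K s`, `s ∈ S`;
* `kummer_dia` : (HC1) for an automorphism `δ` of ANY function field `F/K` which is composition with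
  `σ ∈ Γ₀(M)` on realisations: `κ (δ • x) = mulX (diaCoset1 σ) (κ x)` (directly from `IsKummerMapG`:
  `n (δ • D) = div (δ f)`, root `h ∘ σ`, multiplier `γ ↦ κ x (σ γ σ⁻¹)`);
* `bcQ M L : FK ℚbar M L →+* FK ℂ M L`, **`anQ M L hM : FK ℚbar M L →+* MerH`** (realisation through
  helper4's `G10Model4.model M L hM`), `hasQExpMer_anQ` (characterisation by Laurent expansions),
  `anQ_alpha1`, `anQ_beta1`, `slMer_anQ_of_mem`, `jQ`, `anQ_jQ`, `anQ_algebraMap`, `anQ_eq_of_coe_RG`;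
* **`anQ_diamond`** : for ANY `δ` with `IsDiamondAut ℚbar M d δ` and `σ ∈ Γ₀(M)` with lower right entry
  `≡ d`: `anQ (δ y) = (anQ y) ∘ σ` (generators: `j(e σ z) = j(e z)`, `g_a ∘ σ = g_{a σ₀₀}`,
  `G10Eis4.gFun_smul_of_mem_Gamma0`);
* `hecke_compat` (via `HeckeReal3.kummer_hecke1`), `dia_compat`, **`heckeCompat1_of`**.
-/
import Fermat.Agent.M48.HeckeReal3
import Fermat.Agent.M48.AnQExpMer3
import Fermat.Agent.M48.G10Model4
import Fermat.Agent.M48.P1Jac8
import Fermat.Agent.RED.DESC.CoeffDescent1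

set_option autoImplicit false
set_option linter.style.haveILetI false
set_option linter.unusedSectionVars false

open UpperHalfPlane hiding I
open scoped Manifold MatrixGroups
open CongruenceSubgroup Matrix.SpecialLinearGroup AlgebraicCurve ModularCurve HahnSeries

noncomputable section

namespace Fermat.Agent.M48.HeckeCompat3

open Fermat.Agent.X0 Fermat.Agent.X0.SurjPoint Fermat.Agent.ES.KUM
open Fermat.Agent.ES.HEQ Fermat.Agent.ES.HEQ.BetaMer19 Fermat.Agent.ES.HEQ.KummerHeckeMain19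
open Fermat.Agent.M48.ESInv3 Fermat.Agent.M48.CosetOp3 Fermat.Agent.M48.KummerCoset3
open Fermat.Agent.M48.G1Reps3 Fermat.Agent.M48.Diamond1
open Fermat.Agent.ES.J.TateChar11

/-! ### Ring homomorphisms out of `K · F₀` are determined by the constants and generators -/

section Ext

variable {K : Type*} [Field K] [Algebra ℚ K] {D : Type*} [DivisionRing D]

/-- two ring homomorphisms `K · F₀ → D` (`F₀ = ℚ(S)`) which agree on `K` and on the elements with
series `coeffEmb K s`, `s ∈ S`, are equal. -/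
theorem ringHom_ext_laurentBaseChange (S : Set (LaurentSeries ℚ))
    (f₁ f₂ : ↥(laurentBaseChange K (IntermediateField.adjoin ℚ S)) →+* D)
    (hK : ∀ c : K, f₁ (algebraMap K _ c) = f₂ (algebraMap K _ c))
    (hS : ∀ s ∈ S, ∀ y : ↥(laurentBaseChange K (IntermediateField.adjoin ℚ S)),
      (y : LaurentSeries K) = coeffEmb K s → f₁ y = f₂ y) : f₁ = f₂ := by
  have key : ∀ x : LaurentSeries K, x ∈ laurentBaseChange K (IntermediateField.adjoin ℚ S) →
      ∃ h : x ∈ laurentBaseChange K (IntermediateField.adjoin ℚ S), f₁ ⟨x, h⟩ = f₂ ⟨x, h⟩ := by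
    intro x hx
    rw [mem_laurentBaseChange_iff] at hx
    induction hx using Subfield.closure_induction with
    | mem y hy =>
        rcases hy with ⟨a, rfl⟩ | ⟨z, hz, rfl⟩
        · exact ⟨(laurentBaseChange K _).algebraMap_mem a, hK a⟩
        · induction hz using IntermediateField.adjoin_induction with
          | mem s hs =>
              exact ⟨coeffEmb_mem_laurentBaseChange K (IntermediateField.subset_adjoin ℚ S hs),
                hS s hs _ rfl⟩
          | algebraMap r =>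
              have e : coeffEmb K (algebraMap ℚ (LaurentSeries ℚ) r)
                  = algebraMap K (LaurentSeries K) (algebraMap ℚ K r) := by
                rw [coeffEmb, algebraMap_laurentSeries_eq_single, algebraMap_laurentSeries_eq_single,
                  coeffMap_single]
              have hm : coeffEmb K (algebraMap ℚ (LaurentSeries ℚ) r) ∈
                  laurentBaseChange K (IntermediateField.adjoin ℚ S) := by
                rw [e]
                exact (laurentBaseChange K _).algebraMap_mem _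
              refine ⟨hm, ?_⟩
              have e2 : (⟨_, hm⟩ : ↥(laurentBaseChange K (IntermediateField.adjoin ℚ S)))
                  = algebraMap K _ (algebraMap ℚ K r) := Subtype.ext e
              rw [e2]
              exact hK _
          | add x y _ _ hx hy =>
              obtain ⟨hx1, hx2⟩ := hx
              obtain ⟨hy1, hy2⟩ := hy
              have hm : coeffEmb K (x + y) ∈ laurentBaseChange K (IntermediateField.adjoin ℚ S) := by
                rw [map_add]; exact add_mem hx1 hy1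
              refine ⟨hm, ?_⟩
              have e2 : (⟨_, hm⟩ : ↥(laurentBaseChange K (IntermediateField.adjoin ℚ S)))
                  = ⟨_, hx1⟩ + ⟨_, hy1⟩ := Subtype.ext (map_add _ _ _)
              rw [e2, map_add, map_add, hx2, hy2]
          | inv x _ hx =>
              obtain ⟨hx1, hx2⟩ := hx
              have hm : coeffEmb K x⁻¹ ∈ laurentBaseChange K (IntermediateField.adjoin ℚ S) := by
                rw [map_inv₀]; exact inv_mem hx1
              refine ⟨hm, ?_⟩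
              have e2 : (⟨_, hm⟩ : ↥(laurentBaseChange K (IntermediateField.adjoin ℚ S)))
                  = (⟨_, hx1⟩ : ↥(laurentBaseChange K (IntermediateField.adjoin ℚ S)))⁻¹ :=
                Subtype.ext (map_inv₀ _ _)
              rw [e2, map_inv₀, map_inv₀, hx2]
          | mul x y _ _ hx hy =>
              obtain ⟨hx1, hx2⟩ := hx
              obtain ⟨hy1, hy2⟩ := hy
              have hm : coeffEmb K (x * y) ∈ laurentBaseChange K (IntermediateField.adjoin ℚ S) := by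
                rw [map_mul]; exact mul_mem hx1 hy1
              refine ⟨hm, ?_⟩
              have e2 : (⟨_, hm⟩ : ↥(laurentBaseChange K (IntermediateField.adjoin ℚ S)))
                  = ⟨_, hx1⟩ * ⟨_, hy1⟩ := Subtype.ext (map_mul _ _ _)
              rw [e2, map_mul, map_mul, hx2, hy2]
    | one =>
        refine ⟨one_mem _, ?_⟩
        have e2 : (⟨1, one_mem _⟩ : ↥(laurentBaseChange K (IntermediateField.adjoin ℚ S))) = 1 := rfl
        rw [e2, map_one, map_one]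
    | add x y _ _ hx hy =>
        obtain ⟨hx1, hx2⟩ := hx
        obtain ⟨hy1, hy2⟩ := hy
        refine ⟨add_mem hx1 hy1, ?_⟩
        have e2 : (⟨x + y, add_mem hx1 hy1⟩ : ↥(laurentBaseChange K (IntermediateField.adjoin ℚ S)))
            = ⟨x, hx1⟩ + ⟨y, hy1⟩ := rfl
        rw [e2, map_add, map_add, hx2, hy2]
    | neg x _ hx =>
        obtain ⟨hx1, hx2⟩ := hx
        refine ⟨neg_mem hx1, ?_⟩
        have e2 : (⟨-x, neg_mem hx1⟩ : ↥(laurentBaseChange K (IntermediateField.adjoin ℚ S)))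
            = -⟨x, hx1⟩ := rfl
        rw [e2, map_neg, map_neg, hx2]
    | inv x _ hx =>
        obtain ⟨hx1, hx2⟩ := hx
        refine ⟨inv_mem hx1, ?_⟩
        have e2 : (⟨x⁻¹, inv_mem hx1⟩ : ↥(laurentBaseChange K (IntermediateField.adjoin ℚ S)))
            = (⟨x, hx1⟩ : ↥(laurentBaseChange K (IntermediateField.adjoin ℚ S)))⁻¹ := rfl
        rw [e2, map_inv₀, map_inv₀, hx2]
    | mul x y _ _ hx hy =>
        obtain ⟨hx1, hx2⟩ := hx
        obtain ⟨hy1, hy2⟩ := hy
        refine ⟨mul_mem hx1 hy1, ?_⟩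
        have e2 : (⟨x * y, mul_mem hx1 hy1⟩ : ↥(laurentBaseChange K (IntermediateField.adjoin ℚ S)))
            = ⟨x, hx1⟩ * ⟨y, hy1⟩ := rfl
        rw [e2, map_mul, map_mul, hx2, hy2]
  ext ⟨x, hx⟩
  obtain ⟨_, h⟩ := key x hx
  exact h

end Ext

/-! ### (HC1) for the diamond operators, generic in the function field -/

section Dia

variable {M : ℕ} {K F : Type*} [Field K] [Field F] [Algebra K F]

/-- if `n D = div f` then `n (δ • D) = div (δ f)`. -/
theorem smul_div_eq (g : SemilinearAut K F) (n : ℕ) (D : Divisor K F) (f : F)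
    (hDf : ∀ v : Place K F, ((n : ℤ) • D) v = v.ord f) (w : Place K F) :
    ((n : ℤ) • (g • D)) w = w.ord (g • f) := by
  have h1 : ((n : ℤ) • (g • D)) w = ((n : ℤ) • D) (g⁻¹ • w) := by
    rw [Finsupp.smul_apply, Finsupp.smul_apply, SemilinearAut.divisor_smul_apply]
  rw [h1, hDf]
  have h2 := SemilinearAut.ord_smul g (g⁻¹ • w) f
  rw [smul_inv_smul] at h2
  exact h2.symm

/-- **(HC1) for `⟨d⟩` on `Γ₁(M)`, generic in the function field**: if the automorphism `δ` of `F` is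
composition with `σ ∈ Γ₀(M)` on realisations, every Kummer map relative to `an` intertwines the
action of `δ` on `Pic⁰` with the coset operator `diaCoset1 σ`. -/
theorem kummer_dia (δ : F ≃ₐ[K] F) (an : F →+* MerH) (σ : Gamma0 M)
    (hδ : ∀ y, an (δ y) = slMer (σ : SL(2, ℤ)) (an y))
    {n : ℕ} (κ : ↥(tors (Pic0 K F) n) →+ X (Gamma1 M))
    (hκ : IsKummerMapG (Gamma1 M) an n fun x => Additive.toMul (κ x))
    (x : ↥(tors (Pic0 K F) n))
    (hfx : SemilinearAut.ofAlgAut δ • (x : Pic0 K F) ∈ tors (Pic0 K F) n) :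
    κ ⟨SemilinearAut.ofAlgAut δ • (x : Pic0 K F), hfx⟩
      = TateCoset3.mulX (diaCoset1 σ) (κ x) := by
  classical
  apply Additive.toMul.injective
  set g : SemilinearAut K F := SemilinearAut.ofAlgAut δ with hg
  obtain ⟨D, f, hD, hf, hDf⟩ := exists_rep_div n x
  obtain ⟨⟨h, hh0, hhn⟩, hchar⟩ := hκ x D f hD hf hDf
  -- the transformed datum
  have hD' : Pic0.mk (SemilinearAut.degZeroSMulHom g D) = g • (x : Pic0 K F) := by
    rw [← hD, SemilinearAut.pic0_smul_mk]
  have hf' : δ f ≠ 0 := (map_ne_zero _).mpr hf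
  have hDf' : ∀ w : Place K F,
      ((n : ℤ) • ((SemilinearAut.degZeroSMulHom g D : Divisor.degZero (K := K) (F := F)) :
        Divisor K F)) w = w.ord (δ f) := fun w =>
    smul_div_eq g n (D : Divisor K F) f hDf w
  obtain ⟨-, hchar'⟩ := hκ ⟨g • (x : Pic0 K F), hfx⟩ (SemilinearAut.degZeroSMulHom g D) (δ f)
    hD' hf' hDf'
  -- the root
  set h' : MerH := slMer (σ : SL(2, ℤ)) h with hh'
  have hh'0 : h' ≠ 0 := (map_ne_zero _).mpr hh0
  have hh'n : h' ^ n = an (δ f) := by rw [hh', ← map_pow, hhn, hδ]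
  ext1 γ
  have e1 := hchar' h' hh'0 hh'n γ
  have hconj : (σ : SL(2, ℤ)) * (γ : SL(2, ℤ)) * (σ : SL(2, ℤ))⁻¹ ∈ Gamma1 M :=
    conj_mem_Gamma1 σ γ.2
  have e2 : slMer (γ : SL(2, ℤ)) h'
      = constHom (Additive.toMul (κ x) ⟨_, hconj⟩) * h' := by
    rw [hh', ← slMer_mul]
    have e3 : (σ : SL(2, ℤ)) * (γ : SL(2, ℤ))
        = ((σ : SL(2, ℤ)) * (γ : SL(2, ℤ)) * (σ : SL(2, ℤ))⁻¹) * (σ : SL(2, ℤ)) := by
      rw [inv_mul_cancel_right]
    have e6 : slMer ((σ : SL(2, ℤ)) * (γ : SL(2, ℤ))) h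
        = slMer (σ : SL(2, ℤ)) (slMer ((σ : SL(2, ℤ)) * (γ : SL(2, ℤ)) * (σ : SL(2, ℤ))⁻¹) h) := by
      rw [← slMer_mul, ← e3]
    rw [e6, hchar h hh0 hhn ⟨_, hconj⟩, map_mul, constHom_apply, slMer_const]
  have e4 : constHom (Additive.toMul (κ ⟨g • (x : Pic0 K F), hfx⟩) γ)
      = constHom (Additive.toMul (κ x) ⟨_, hconj⟩) :=
    mul_right_cancel₀ hh'0 (e1.symm.trans e2)
  have e5 := constHom_injective e4
  rw [e5]
  show _ = (mulHom (diaCoset1 σ) (Additive.toMul (κ x))) γ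
  rw [mulHom_apply]
  show _ = ∏ _i : Unit, _
  rw [Finset.univ_unique, Finset.prod_singleton]
  rfl

end Dia

/-! ### The realisation of `FK ℚbar M L` -/

section Real

open Fermat.Agent.M48.DictIface4 Fermat.Agent.M48.J1Defs8 Fermat.Agent.M48.G10Model4
open Fermat.Agent.M48.AnReal4 Fermat.Agent.M48.AnQExpMer3 Fermat.Agent.ES.HEQ.QExpMer19
open Fermat.Agent.X0.Analytic Fermat.Agent.RED.DESC

local notation "Qb" => AlgebraicClosure ℚ

variable (M L : ℕ)

/-- coefficientwise base change `FK ℚbar M L → FK ℂ M L` along `X0.iotaK`. -/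
def bcQ : ↥(FK Qb M L) →+* ↥(FK ℂ M L) :=
  RingHom.codRestrict ((coeffMap iotaK).comp (FK Qb M L).val.toRingHom)
    (laurentBaseChange ℂ (fieldG10 M L))
    (fun f => CoeffDescent1.coeffMap_mem_laurentBaseChange_of_algHom iotaK (fieldG10 M L) f.2)

@[simp] theorem coe_bcQ (f : ↥(FK Qb M L)) :
    ((bcQ M L f : ↥(FK ℂ M L)) : LaurentSeries ℂ) = toC (f : LaurentSeries Qb) := rfl

variable [NeZero M] [NeZero L] (hM : 2 ≤ M)

/-- **the realisation of `FK ℚbar M L` in `MerH`** (through helper4's analytic model of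
`Γ₁(M) ∩ Γ₀(M L)`); characterised by `hasQExpMer_anQ`. -/
def anQ : ↥(FK Qb M L) →+* MerH := (realMer (model M L hM)).comp (bcQ M L)

theorem anQ_apply (f : ↥(FK Qb M L)) : anQ M L hM f = realMer (model M L hM) (bcQ M L f) := rfl

/-- `anQ f` has the Laurent expansion `f` (coefficients mapped to `ℂ`). -/
theorem hasQExpMer_anQ (f : ↥(FK Qb M L)) :
    HasQExpMer (toC (f : LaurentSeries Qb)) (anQ M L hM f) :=
  hasQExpMer_realMer (model M L hM) (bcQ M L f)

/-- two elements (of two levels) with the same Laurent series have the same realisation. -/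
theorem anQ_eq_of_coe_eq {L' : ℕ} [NeZero L'] {f : ↥(FK Qb M L)} {f' : ↥(FK Qb M L')}
    (h : (f : LaurentSeries Qb) = (f' : LaurentSeries Qb)) : anQ M L hM f = anQ M L' hM f' := by
  refine realMer_eq_of_coe_eq (model M L hM) (model M L' hM) ?_
  show toC (f : LaurentSeries Qb) = toC (f' : LaurentSeries Qb)
  rw [h]

/-- the realisation of an element of the ring `RG M L` of the model with the same series. -/
theorem anQ_eq_of_coe_RG (f : ↥(FK Qb M L)) (u : RG M L)
    (h : toC (f : LaurentSeries Qb) = (((u : RG M L) : FG M L) : LaurentSeries ℂ)) :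
    anQ M L hM f = algebraMap HolH MerH (realG M L hM u) := by
  have e : bcQ M L f = ((u : RG M L) : FG M L) := Subtype.ext h
  rw [anQ_apply, e]
  exact realMer_coe (model M L hM) u

/-- `an' ∘ α = an`. -/
theorem anQ_alpha1 (ℓ : ℕ) [NeZero ℓ] (x : ↥(FK Qb M 1)) :
    anQ M ℓ hM (alpha1 Qb M ℓ x) = anQ M 1 hM x :=
  anQ_eq_of_coe_eq M ℓ hM (coe_alpha1 Qb M ℓ x)

/-- `an' ∘ β = (· ∘ (z ↦ ℓ z)) ∘ an`. -/
theorem anQ_beta1 (ℓ : ℕ) [hℓ : Fact ℓ.Prime] (x : ↥(FK Qb M 1)) :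
    haveI : NeZero ℓ := ⟨hℓ.out.ne_zero⟩
    anQ M ℓ hM (beta1 Qb M ℓ x) = betaMer ℓ none (anQ M 1 hM x) := by
  haveI : NeZero ℓ := ⟨hℓ.out.ne_zero⟩
  refine realMer_scale (model M 1 hM) (model M ℓ hM) ?_
  show toC (qExpand Qb ℓ (x : LaurentSeries Qb)) = qExpand ℂ ℓ (toC (x : LaurentSeries Qb))
  rw [toC, Analytic.coeffMap_qExpand]

/-- `Γ₁(M)`-invariance of the realisation of `FK ℚbar M 1`. -/
theorem slMer_anQ_of_mem (γ : SL(2, ℤ)) (hγ : γ ∈ Gamma1 M) (x : ↥(FK Qb M 1)) :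
    slMer γ (anQ M 1 hM x) = anQ M 1 hM x := by
  refine slMer_realMer_of_mem (model M 1 hM) γ (le_pm _ ?_) _
  refine Subgroup.mem_inf.mpr ⟨hγ, ?_⟩
  rw [mul_one]
  exact Gamma1_in_Gamma0 M hγ

/-- the formal `j` in `FK ℚbar M 1`. -/
def jQ : ↥(FK Qb M 1) :=
  ⟨coeffEmb Qb (qExpand ℚ 1 jq),
    coeffEmb_mem_laurentBaseChange Qb (jqd_mem_fieldG10 M 1 (one_dvd _))⟩

theorem anQ_jQ : anQ M 1 hM (jQ M) = algebraMap HolH MerH ⟨jFun, jFun_mdifferentiable⟩ := by
  have e : bcQ M 1 (jQ M) = (model M 1 hM).jF := by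
    apply Subtype.ext
    show toC (coeffEmb Qb (qExpand ℚ 1 jq)) = _
    rw [toC, CoeffDescent1.coeffMap_coeffEmb_of_algHom]
    rfl
  rw [anQ_apply, e]
  exact realMer_jF (model M 1 hM)

/-- constants. -/
theorem anQ_algebraMap (c : Qb) :
    anQ M L hM (algebraMap Qb ↥(FK Qb M L) c) = algebraMap HolH MerH (algebraMap ℂ HolH (iotaK c)) := by
  have e : bcQ M L (algebraMap Qb ↥(FK Qb M L) c) = algebraMap ℂ (model M L hM).F (iotaK c) := by
    apply Subtype.ext
    show toC (algebraMap Qb (LaurentSeries Qb) c) = algebraMap ℂ (LaurentSeries ℂ) (iotaK c)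
    rw [toC, CoeffDescent1.coeffMap_algebraMap_of_ringHom]
  rw [anQ_apply, e]
  exact realMer_algebraMap (model M L hM) (iotaK c)

omit [NeZero M] in
theorem cast_mul_Gamma0Map (σ : Gamma0 M) :
    (((σ : SL(2, ℤ)) 0 0 : ℤ) : ZMod M) * Gamma0Map M σ = 1 := by
  have hdet : (σ : SL(2, ℤ)) 0 0 * (σ : SL(2, ℤ)) 1 1 - (σ : SL(2, ℤ)) 0 1 * (σ : SL(2, ℤ)) 1 0 = 1 := by
    have := (σ : SL(2, ℤ)).2
    rwa [Matrix.det_fin_two] at this
  have h10 : (((σ : SL(2, ℤ)) 1 0 : ℤ) : ZMod M) = 0 := by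
    have := σ.2
    rwa [Gamma0_mem] at this
  have h := congrArg (Int.cast : ℤ → ZMod M) hdet
  push_cast at h
  rw [h10, mul_zero, sub_zero] at h
  exact h

/-- **the diamond automorphism `⟨d⟩` is composition with `σ ∈ Γ₀(M)`, lower right entry `≡ d`.** -/
theorem anQ_diamond (d : (ZMod M)ˣ) (δ : ↥(FK Qb M 1) ≃ₐ[Qb] ↥(FK Qb M 1))
    (hδ : IsDiamondAut Qb M d δ) (σ : Gamma0 M) (hσ : Gamma0Map M σ = (d : ZMod M))
    (y : ↥(FK Qb M 1)) :
    anQ M 1 hM (δ y) = slMer (σ : SL(2, ℤ)) (anQ M 1 hM y) := by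
  have hσ00 : (((σ : SL(2, ℤ)) 0 0 : ℤ) : ZMod M) = ((d⁻¹ : (ZMod M)ˣ) : ZMod M) := by
    have h1 := cast_mul_Gamma0Map M σ
    rw [hσ] at h1
    calc (((σ : SL(2, ℤ)) 0 0 : ℤ) : ZMod M)
        = (((σ : SL(2, ℤ)) 0 0 : ℤ) : ZMod M) * ((d : ZMod M) * ((d⁻¹ : (ZMod M)ˣ) : ZMod M)) := by
          rw [← Units.val_mul, mul_inv_cancel, Units.val_one, mul_one]
      _ = ((d⁻¹ : (ZMod M)ˣ) : ZMod M) := by rw [← mul_assoc, h1, one_mul]
  have hM10 : ((M : ℕ) : ℤ) ∣ (σ : SL(2, ℤ)) 1 0 := by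
    have := σ.2
    rw [Gamma0_mem] at this
    exact (ZMod.intCast_zmod_eq_zero_iff_dvd _ _).mp this
  let f₁ : ↥(FK Qb M 1) →+* MerH := (anQ M 1 hM).comp (δ : ↥(FK Qb M 1) →+* ↥(FK Qb M 1))
  let f₂ : ↥(FK Qb M 1) →+* MerH := (slMer (σ : SL(2, ℤ))).comp (anQ M 1 hM)
  have key : f₁ = f₂ := by
    refine ringHom_ext_laurentBaseChange (K := Qb)
      (divisorExpansions (M * 1) ∪ gExpansions M 1) f₁ f₂ ?_ ?_
    · intro c
      show anQ M 1 hM (δ (algebraMap Qb ↥(FK Qb M 1) c))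
        = slMer (σ : SL(2, ℤ)) (anQ M 1 hM (algebraMap Qb ↥(FK Qb M 1) c))
      rw [δ.commutes, anQ_algebraMap, slMer_const]
    · rintro s (⟨e, hne, he, rfl⟩ | ⟨a, e, hne, he, rfl⟩) y hy
      · haveI := hne
        have he' : e ∣ M := by rwa [mul_one] at he
        show anQ M 1 hM (δ y) = slMer (σ : SL(2, ℤ)) (anQ M 1 hM y)
        rw [hδ.1 e he' y hy]
        have h1 : anQ M 1 hM y = algebraMap HolH MerH (realG M 1 hM (jdRG M 1 e he)) := by
          refine anQ_eq_of_coe_RG M 1 hM y _ ?_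
          rw [hy, toC, CoeffDescent1.coeffMap_coeffEmb_of_algHom, coe_jdRG]
        have h3 : compSLHom (σ : SL(2, ℤ)) (realG M 1 hM (jdRG M 1 e he))
            = realG M 1 hM (jdRG M 1 e he) := by
          apply Subtype.ext
          funext z
          have e1 : ((compSLHom (σ : SL(2, ℤ)) (realG M 1 hM (jdRG M 1 e he)) : HolH) : ℍ → ℂ) z
              = ((realG M 1 hM (jdRG M 1 e he) : HolH) : ℍ → ℂ) ((σ : SL(2, ℤ)) • z) := rfl
          rw [e1, realG_jdRG]
          exact Analytic.jdFun_smul_of_dvd _ e ((Int.natCast_dvd_natCast.mpr he').trans hM10) z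
        rw [h1, slMer_algebraMap, h3]
      · haveI := hne
        have he1 : e = 1 := Nat.dvd_one.mp he
        subst he1
        rw [qExpand_one_apply] at hy
        show anQ M 1 hM (δ y) = slMer (σ : SL(2, ℤ)) (anQ M 1 hM y)
        have h1 : anQ M 1 hM y = algebraMap HolH MerH (realG M 1 hM (gaRG M 1 a 1 he)) := by
          refine anQ_eq_of_coe_RG M 1 hM y _ ?_
          rw [hy, toC, CoeffDescent1.coeffMap_coeffEmb_of_algHom, coe_gaRG, qExpand_one_apply]
        have h2 : anQ M 1 hM (δ y)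
            = algebraMap HolH MerH (realG M 1 hM (gaRG M 1 (a * d⁻¹) 1 he)) := by
          refine anQ_eq_of_coe_RG M 1 hM (δ y) _ ?_
          rw [hδ.2 a y hy, toC, CoeffDescent1.coeffMap_coeffEmb_of_algHom, coe_gaRG,
            qExpand_one_apply]
        have h3 : compSLHom (σ : SL(2, ℤ)) (realG M 1 hM (gaRG M 1 a 1 he))
            = realG M 1 hM (gaRG M 1 (a * d⁻¹) 1 he) := by
          apply Subtype.ext
          funext z
          have e1 : ((compSLHom (σ : SL(2, ℤ)) (realG M 1 hM (gaRG M 1 a 1 he)) : HolH) : ℍ → ℂ) z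
              = ((realG M 1 hM (gaRG M 1 a 1 he) : HolH) : ℍ → ℂ) ((σ : SL(2, ℤ)) • z) := rfl
          have e2 := congrFun (realG_gaRG M 1 hM a 1 he) ((σ : SL(2, ℤ)) • z)
          have e3 := congrFun (realG_gaRG M 1 hM (a * d⁻¹) 1 he) z
          rw [e1, e2, e3, scaleH_one, scaleH_one,
            G10Eis4.gFun_smul_of_mem_Gamma0 M (a : ZMod M) σ.2 z, hσ00, Units.val_mul]
        rw [h1, h2, slMer_algebraMap, h3]
  exact DFunLike.congr_fun key y

end Real

/-! ### (HC1) for `J₁(M)` -/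

section Compat

open Fermat.Agent.M48.DictIface4 Fermat.Agent.M48.J1Defs8 Fermat.Agent.M48.G10Model4
open Fermat.Agent.M48.P1Jac8 Fermat.Agent.M48.HeckeOne1

local notation "Qb" => AlgebraicClosure ℚ

variable {p : ℕ} [hp : Fact p.Prime] {M : ℕ} [NeZero M] (hM : 2 ≤ M)
  (KS : KummerSystem p (Gamma1 M) (J1 M))
  (hK : ∀ k : ℕ, IsKummerMapG (Gamma1 M) (anQ M 1 hM) (p ^ k)
    fun x => Additive.toMul (KS.κ k x))

include hK in
/-- **(HC1), Hecke half**, from the function field inputs of `hecke1` and the degree of `β`. -/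
theorem hecke_compat (ℓ : ℕ) [NeZero ℓ] (hℓ : ℓ.Prime) (hℓM : ¬ ℓ ∣ M)
    (hI : Hecke1Inputs Qb M ℓ) (hdeg : finrankAlong Qb (beta1 Qb M ℓ) = ℓ + 1)
    (k : ℕ) (x : ↥(tors (J1 M) (p ^ k)))
    (hfx : hecke1' Qb M ℓ (x : J1 M) ∈ tors (J1 M) (p ^ k)) :
    KS.κ k ⟨hecke1' Qb M ℓ (x : J1 M), hfx⟩
      = TateCoset3.mulX (P1Geom3.heckeOp1 hℓ hℓM) (KS.κ k x) := by
  haveI : Fact ℓ.Prime := ⟨hℓ⟩
  obtain ⟨hα, hβ, hP, hfin, hFI, hN⟩ := hI
  haveI := hP
  have e : hecke1' Qb M ℓ = Pic0.correspondence (alpha1 Qb M ℓ) (beta1 Qb M ℓ) hα hβ hFI hfin hN := by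
    rw [hecke1'_eq, hecke1_eq hα hβ hFI hfin hN]
  have hfx' : Pic0.correspondence (alpha1 Qb M ℓ) (beta1 Qb M ℓ) hα hβ hFI hfin hN (x : J1 M)
      ∈ tors (J1 M) (p ^ k) := by rw [← e]; exact hfx
  have key := HeckeReal3.kummer_hecke1 hℓM (alpha1 Qb M ℓ) (beta1 Qb M ℓ) hα hβ hFI hfin hN
    (anQ M 1 hM) (anQ M ℓ hM) (anQ_alpha1 M hM ℓ) (anQ_beta1 M hM ℓ) (slMer_anQ_of_mem M hM)
    (jQ M) (anQ_jQ M hM) hdeg (sigma (unitOfPrime hℓ hℓM)) (Gamma0Map_sigma_unitOfPrime hℓ hℓM)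
    (KS.κ k) (hK k) x hfx'
  refine Eq.trans ?_ key
  congr 1
  exact Subtype.ext (congrFun (congrArg DFunLike.coe e) (x : J1 M))

include hK in
/-- **(HC1), diamond half**, from the existence of the diamond automorphism over `ℚbar`. -/
theorem dia_compat (d : (ZMod M)ˣ)
    (hD : ∃ δ : ↥(FK Qb M 1) ≃ₐ[Qb] ↥(FK Qb M 1), IsDiamondAut Qb M d δ)
    (k : ℕ) (x : ↥(tors (J1 M) (p ^ k)))
    (hfx : dia1 Qb M d (x : J1 M) ∈ tors (J1 M) (p ^ k)) :
    KS.κ k ⟨dia1 Qb M d (x : J1 M), hfx⟩ = TateCoset3.mulX (P1Geom3.diaOp1 d) (KS.κ k x) := by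
  have e : dia1 Qb M d = DistribSMul.toAddMonoidHom (Pic0 Qb ↥(FK Qb M 1))
      (SemilinearAut.ofAlgAut hD.choose) := by
    rw [dia1, dif_pos hD]
  have hσ : Gamma0Map M (sigma d) = (d : ZMod M) := by
    rw [← coe_unitOf, unitOf_sigma]
  have hfx' : SemilinearAut.ofAlgAut hD.choose • (x : J1 M) ∈ tors (J1 M) (p ^ k) := by
    have := hfx
    rw [e] at this
    exact this
  have key := kummer_dia hD.choose (anQ M 1 hM) (sigma d)
    (anQ_diamond M hM d hD.choose hD.choose_spec (sigma d) hσ) (KS.κ k) (hK k) x hfx'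
  refine Eq.trans ?_ key
  congr 1
  exact Subtype.ext (congrFun (congrArg DFunLike.coe e) (x : J1 M))

include hK in
/-- **(HC1) for `J₁(M)`** (`P1Jac8.HeckeCompat1`), conditional on the function field inputs of the
Hecke correspondences, the degree of `β` and the existence of the diamond automorphisms. -/
theorem heckeCompat1_of
    (hH : ∀ (ℓ : ℕ) [NeZero ℓ], ℓ.Prime → ¬ ℓ ∣ M →
      Hecke1Inputs Qb M ℓ ∧ finrankAlong Qb (beta1 Qb M ℓ) = ℓ + 1)
    (hD : ∀ d : (ZMod M)ˣ, ∃ δ : ↥(FK Qb M 1) ≃ₐ[Qb] ↥(FK Qb M 1), IsDiamondAut Qb M d δ) :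
    HeckeCompat1 M KS where
  hecke := by
    intro ℓ hℓ hℓM k x hfx
    haveI : NeZero ℓ := ⟨hℓ.ne_zero⟩
    obtain ⟨hI, hdeg⟩ := hH ℓ hℓ hℓM
    exact hecke_compat hM KS hK ℓ hℓ hℓM hI hdeg k x hfx
  dia := fun d k x hfx => dia_compat hM KS hK d (hD d) k x hfx

end Compat

end Fermat.Agent.M48.HeckeCompat3
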