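/-
Programme M48 (target S48), pillar (P1), chapter [DICT] for `Γ₁` (helper4), generic file G2:
**the point places of an analytic model** `A : AnModel Γ h F₀` (weak form): for `g ∈ SL(2, ℤ)`,
`z₀ ∈ ℍ` a place `ptPlace A g z₀` of `A.F / ℂ` and an index `ptIdx A g z₀ > 0` with
  `ordMer z₀ (emb A g f) = ptIdx A g z₀ * (ptPlace A g z₀).ord f`   (`f ≠ 0`).
Port of `ES/KUM/CPoint5` (second half) from `Γ₀(N)` to an abstract `AnModel` (`Γ₀(N) → pm Γ`).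
-/
import Fermat.Agent.M48.AnReal4

set_option autoImplicit false
set_option linter.unusedSectionVars false

open UpperHalfPlane ModularCurve AlgebraicCurve
open scoped MatrixGroups

noncomputable section

namespace Fermat.Agent.M48.AnPoint4

open Fermat.Agent.X0 Fermat.Agent.X0.SurjPoint Fermat.Agent.X0.OrdVal Fermat.Agent.ES.KUM
open Fermat.Agent.M48.DictIface4 Fermat.Agent.M48.AnReal4

variable {Γ : Subgroup SL(2, ℤ)} {h : ℕ} {F₀ : IntermediateField ℚ (LaurentSeries ℚ)}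
  (A : AnModel Γ h F₀)

/-- The order function on `F_ℂ` at the point `z₀`, through the embedding `emb A g`. -/
def ptOrd (g : SL(2, ℤ)) (z₀ : ℍ) (f : A.F) : ℤ := ordMer z₀ (emb A g f)

theorem emb_ne_zero (g : SL(2, ℤ)) {f : A.F} (hf : f ≠ 0) : emb A g f ≠ 0 :=
  fun h => hf ((emb A g).injective (by rw [h, map_zero]))

theorem ptOrd_mul (g : SL(2, ℤ)) (z₀ : ℍ) {f f' : A.F} (hf : f ≠ 0) (hf' : f' ≠ 0) :
    ptOrd A g z₀ (f * f') = ptOrd A g z₀ f + ptOrd A g z₀ f' := by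
  unfold ptOrd
  rw [map_mul, ordMer_mul z₀ (emb_ne_zero A g hf) (emb_ne_zero A g hf')]

theorem ptOrd_add (g : SL(2, ℤ)) (z₀ : ℍ) {f f' : A.F} (hf : f ≠ 0) (hf' : f' ≠ 0)
    (h : f + f' ≠ 0) :
    min (ptOrd A g z₀ f) (ptOrd A g z₀ f') ≤ ptOrd A g z₀ (f + f') := by
  unfold ptOrd
  rw [map_add]
  refine ordMer_add z₀ (emb_ne_zero A g hf) (emb_ne_zero A g hf') ?_
  rw [← map_add]
  exact emb_ne_zero A g h

theorem ptOrd_algebraMap (g : SL(2, ℤ)) (z₀ : ℍ) {c : ℂ} (hc : c ≠ 0) :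
    ptOrd A g z₀ (algebraMap ℂ A.F c) = 0 := by
  unfold ptOrd
  rw [emb_algebraMap, ordMer_const z₀ hc]

/-- `emb A g (j - c) = jFun - c`. -/
theorem emb_jF_sub (g : SL(2, ℤ)) (c : ℂ) :
    emb A g (A.jF - algebraMap ℂ A.F c) =
      algebraMap HolH MerH ⟨fun z => jFun z - c,
        jFun_mdifferentiable.sub mdifferentiable_const⟩ := by
  rw [map_sub, emb_jF, emb_algebraMap, ← map_sub]
  rfl

theorem jFun_sub_ne_zero (c : ℂ) :
    (⟨fun z => jFun z - c, jFun_mdifferentiable.sub mdifferentiable_const⟩ : HolH) ≠ 0 := by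
  intro h
  obtain ⟨z, hz⟩ := jFun_surjective (c + 1)
  have h1 := congrArg (fun f : HolH => (f : ℍ → ℂ) z) h
  simp only [hz] at h1
  have : (c + 1 - c : ℂ) = 0 := h1
  simp at this

open Fermat.Agent.X0.JOrderFinal Fermat.Agent.X0.JOrderMain in
/-- The order of `j - j(z₀)` at `z₀` is `ellOrder z₀`. -/
theorem ptOrd_jF_sub (g : SL(2, ℤ)) (z₀ : ℍ) :
    ptOrd A g z₀ (A.jF - algebraMap ℂ A.F (jFun z₀)) = ellOrder z₀ := by
  unfold ptOrd
  rw [emb_jF_sub, ordMer_algebraMap z₀ (jFun_sub_ne_zero _)]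
  have : ordH (fun z => jFun z - jFun z₀) z₀ = ellOrder z₀ := ordH_jFun_sub z₀
  show ((ordH (fun z => jFun z - jFun z₀) z₀).toNat : ℤ) = _
  rw [this]
  rfl

open Fermat.Agent.X0.JOrderFinal Fermat.Agent.X0.JOrderMain in
/-- If `c ≠ j(z₀)`, then `j - c` has order `0` at `z₀`. -/
theorem ptOrd_jF_sub_of_ne (g : SL(2, ℤ)) (z₀ : ℍ) {c : ℂ} (hc : jFun z₀ ≠ c) :
    ptOrd A g z₀ (A.jF - algebraMap ℂ A.F c) = 0 := by
  unfold ptOrd
  rw [emb_jF_sub, ordMer_algebraMap z₀ (jFun_sub_ne_zero _)]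
  have : ordH (fun z => jFun z - c) z₀ = 0 := ordH_jFun_sub_const_of_ne z₀ c hc
  show ((ordH (fun z => jFun z - c) z₀).toNat : ℤ) = _
  rw [this]
  rfl

theorem jF_sub_ne_zero (c : ℂ) : A.jF - algebraMap ℂ A.F c ≠ 0 := by
  intro h
  have h1 := congrArg (emb A 1) h
  rw [emb_jF_sub, map_zero] at h1
  exact algebraMap_ne_zero_of_ne (jFun_sub_ne_zero c) h1

open Fermat.Agent.X0.JOrderMain in
/-- Existence of the point place (FF5). -/
theorem exists_ptPlace (g : SL(2, ℤ)) (z₀ : ℍ) :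
    ∃ (v : Place ℂ A.F) (m : ℕ), 0 < m ∧
      (∀ f : A.F, f ≠ 0 → ptOrd A g z₀ f = m * v.ord f) ∧
      (∀ f : A.F, f ≠ 0 → (f ∈ v.toValuationSubring ↔ 0 ≤ ptOrd A g z₀ f)) := by
  refine FF.exists_place_of_order (K := ℂ) (ptOrd A g z₀)
    (fun f f' hf hf' => ptOrd_mul A g z₀ hf hf')
    (fun f f' hf hf' h => ptOrd_add A g z₀ hf hf' h)
    (fun c hc => ptOrd_algebraMap A g z₀ hc)
    ⟨A.jF - algebraMap ℂ A.F (jFun z₀), jF_sub_ne_zero A _, ?_⟩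
  rw [ptOrd_jF_sub]
  exact_mod_cast (ellOrder_pos z₀).ne'

/-- The point place of `F_ℂ` attached to `(g, z₀)`. -/
def ptPlace (g : SL(2, ℤ)) (z₀ : ℍ) : Place ℂ A.F := (exists_ptPlace A g z₀).choose

/-- The index of the analytic order at `z₀` with respect to the point place. -/
def ptIdx (g : SL(2, ℤ)) (z₀ : ℍ) : ℕ := (exists_ptPlace A g z₀).choose_spec.choose

theorem ptIdx_pos (g : SL(2, ℤ)) (z₀ : ℍ) : 0 < ptIdx A g z₀ :=
  (exists_ptPlace A g z₀).choose_spec.choose_spec.1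

/-- **Point dictionary over `ℂ`, weak form.** -/
theorem ptOrd_eq (g : SL(2, ℤ)) (z₀ : ℍ) {f : A.F} (hf : f ≠ 0) :
    ptOrd A g z₀ f = ptIdx A g z₀ * (ptPlace A g z₀).ord f :=
  (exists_ptPlace A g z₀).choose_spec.choose_spec.2.1 f hf

theorem ordMer_emb (g : SL(2, ℤ)) (z₀ : ℍ) {f : A.F} (hf : f ≠ 0) :
    ordMer z₀ (emb A g f) = ptIdx A g z₀ * (ptPlace A g z₀).ord f :=
  ptOrd_eq A g z₀ hf

theorem mem_ptPlace_iff (g : SL(2, ℤ)) (z₀ : ℍ) {f : A.F} (hf : f ≠ 0) :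
    f ∈ (ptPlace A g z₀).toValuationSubring ↔ 0 ≤ ptOrd A g z₀ f :=
  (exists_ptPlace A g z₀).choose_spec.choose_spec.2.2 f hf

/-- The valuation subring of the point place is the pull-back of the ring of functions regular at
`z₀`. -/
theorem ptPlace_toValuationSubring (g : SL(2, ℤ)) (z₀ : ℍ) :
    (ptPlace A g z₀).toValuationSubring = (valAt z₀).comap (emb A g) := by
  ext f
  rcases eq_or_ne f 0 with rfl | hf
  · simp
  rw [mem_ptPlace_iff A g z₀ hf, ValuationSubring.mem_comap, mem_valAt_iff z₀ (emb_ne_zero A g hf)]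
  rfl

/-- A place whose valuation subring is the pull-back of `valAt z₀` is the point place. -/
theorem eq_ptPlace_of_comap {v : Place ℂ A.F} {g : SL(2, ℤ)} {z₀ : ℍ}
    (h : v.toValuationSubring = (valAt z₀).comap (emb A g)) : v = ptPlace A g z₀ :=
  Place.ext (h.trans (ptPlace_toValuationSubring A g z₀).symm)

/-- The point place only depends on the coset `g Γ₀(N)`. -/
theorem ptPlace_mul_of_mem (g γ : SL(2, ℤ)) (hγ : γ ∈ pm Γ) (z₀ : ℍ) :
    ptPlace A (g * γ) z₀ = ptPlace A g z₀ := by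
  apply eq_ptPlace_of_comap
  rw [ptPlace_toValuationSubring]
  ext f
  rw [ValuationSubring.mem_comap, ValuationSubring.mem_comap, emb_mul_of_mem A g γ hγ]

theorem ptOrd_mul_of_mem (g γ : SL(2, ℤ)) (hγ : γ ∈ pm Γ) (z₀ : ℍ)
    (f : A.F) : ptOrd A (g * γ) z₀ f = ptOrd A g z₀ f := by
  unfold ptOrd
  rw [emb_mul_of_mem A g γ hγ]

/-- Moving the base point: `(σ g, σ z₀)` and `(g, z₀)` give the same order function. -/
theorem ptOrd_smul (σ g : SL(2, ℤ)) (z₀ : ℍ) (f : A.F) :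
    ptOrd A (σ * g) (σ • z₀) f = ptOrd A g z₀ f := by
  unfold ptOrd
  rw [emb_eq_slMer, emb_eq_slMer, mul_inv_rev, slMer_mul, ordMer_slMer, inv_smul_smul]

theorem ptPlace_smul (σ g : SL(2, ℤ)) (z₀ : ℍ) :
    ptPlace A (σ * g) (σ • z₀) = ptPlace A g z₀ := by
  apply Place.ext
  ext f
  rcases eq_or_ne f 0 with rfl | hf
  · simp
  rw [mem_ptPlace_iff A _ _ hf, mem_ptPlace_iff A _ _ hf, ptOrd_smul]

theorem ptIdx_smul (σ g : SL(2, ℤ)) (z₀ : ℍ) : ptIdx A (σ * g) (σ • z₀) = ptIdx A g z₀ := by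
  have h1 := ptOrd_eq A (σ * g) (σ • z₀) (jF_sub_ne_zero A (jFun z₀))
  have h2 := ptOrd_eq A g z₀ (jF_sub_ne_zero A (jFun z₀))
  rw [ptOrd_smul, ptPlace_smul] at h1
  rw [h1] at h2
  have h3 : (ptPlace A g z₀).ord (A.jF - algebraMap ℂ A.F (jFun z₀)) ≠ 0 := by
    intro h0
    rw [h0, mul_zero] at h1
    have h4 := ptOrd_jF_sub A g z₀
    rw [h1] at h4
    have := Fermat.Agent.X0.JOrderMain.ellOrder_pos z₀
    omega
  exact_mod_cast mul_right_cancel₀ h3 h2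

theorem ptIdx_mul_of_mem (g γ : SL(2, ℤ)) (hγ : γ ∈ pm Γ) (z₀ : ℍ) :
    ptIdx A (g * γ) z₀ = ptIdx A g z₀ := by
  have h1 := ptOrd_eq A (g * γ) z₀ (jF_sub_ne_zero A (jFun z₀))
  have h2 := ptOrd_eq A g z₀ (jF_sub_ne_zero A (jFun z₀))
  rw [ptOrd_mul_of_mem A g γ hγ, ptPlace_mul_of_mem A g γ hγ] at h1
  rw [h1] at h2
  have h3 : (ptPlace A g z₀).ord (A.jF - algebraMap ℂ A.F (jFun z₀)) ≠ 0 := by
    intro h0
    rw [h0, mul_zero] at h1
    have h4 := ptOrd_jF_sub A g z₀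
    rw [h1] at h4
    have := Fermat.Agent.X0.JOrderMain.ellOrder_pos z₀
    omega
  exact_mod_cast mul_right_cancel₀ h3 h2

/-- `ptIdx * ord_P (j - j(z₀)) = ellOrder z₀`. -/
theorem ptIdx_mul_ord_jF_sub (g : SL(2, ℤ)) (z₀ : ℍ) :
    (ptIdx A g z₀ : ℤ) * (ptPlace A g z₀).ord (A.jF - algebraMap ℂ A.F (jFun z₀)) =
      ellOrder z₀ := by
  rw [← ptOrd_eq A g z₀ (jF_sub_ne_zero A _), ptOrd_jF_sub]

theorem ord_jF_sub_pos (g : SL(2, ℤ)) (z₀ : ℍ) :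
    0 < (ptPlace A g z₀).ord (A.jF - algebraMap ℂ A.F (jFun z₀)) := by
  have h := ptIdx_mul_ord_jF_sub A g z₀
  have h1 : (0 : ℤ) < ptIdx A g z₀ := by exact_mod_cast ptIdx_pos A g z₀
  have h2 : (0 : ℤ) < ellOrder z₀ := by exact_mod_cast Fermat.Agent.X0.JOrderMain.ellOrder_pos z₀
  rw [← h] at h2
  exact (mul_pos_iff_of_pos_left h1).mp h2

theorem ptIdx_dvd_ellOrder (g : SL(2, ℤ)) (z₀ : ℍ) : ptIdx A g z₀ ∣ ellOrder z₀ := by
  have h := ptIdx_mul_ord_jF_sub A g z₀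
  have : (ptIdx A g z₀ : ℤ) ∣ (ellOrder z₀ : ℤ) := ⟨_, h.symm⟩
  exact_mod_cast this

/-- The analytic order of the realisation at any point, in terms of the point place `(1, z₀)`. -/
theorem ordMer_realMer (z₀ : ℍ) {f : A.F} (hf : f ≠ 0) :
    ordMer z₀ (realMer A f) = ptIdx A 1 z₀ * (ptPlace A 1 z₀).ord f :=
  ordMer_emb A 1 z₀ hf

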