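/-
Programme M48 (target S48), pillar (P1), chapter [DICT] for `Γ₁` (helper4), file G6:
**surjectivity**: every place of `F / ℂ` is a point place `ptPlace A 1 z` (`z ∈ ℍ`) or a cusp place
`cuspPlace A g` (`g ∈ SL(2, ℤ)`), for an abstract analytic model `A : AnModel Γ N F₀`.

Ports of `ES/KUM/CSurj25` (points) and `ES/KUM/CCuspSurj16` (cusps, glue lemma) with `Γ₀(N) → pm Γ`;
the degree is `AnDegree4.finrank_eq`, distinctness is `A.sep` (`AnDegree4.mem_pm_of_compSL_eq`).
-/
import Fermat.Agent.M48.AnDegree4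
import Fermat.Agent.M48.AnPoint4
import Fermat.Agent.ES.KUM.CSurj25

set_option autoImplicit false
set_option linter.unusedSectionVars false
set_option linter.style.haveILetI false

open ModularCurve HahnSeries UpperHalfPlane AlgebraicCurve IntermediateField
open scoped Topology Manifold MatrixGroups
open CongruenceSubgroup

noncomputable section

namespace Fermat.Agent.M48.AnSurj4

open Fermat.Agent.X0 Fermat.Agent.ES.KUM Fermat.Agent.X0.SurjPoint
open Fermat.Agent.M48.DictIface4 Fermat.Agent.M48.AnReal4 Fermat.Agent.M48.AnCuspExp4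
open Fermat.Agent.M48.AnCuspPlace4 Fermat.Agent.M48.AnPoint4 Fermat.Agent.M48.AnDegree4
open Fermat.Agent.ES.KUM.CCusp16

variable {Γ : Subgroup SL(2, ℤ)} {N : ℕ} {F₀ : IntermediateField ℚ (LaurentSeries ℚ)}
  (A : AnModel Γ N F₀) [NeZero N]

/-! ### The embeddings attached to the cosets -/

/-- The embedding `F → MerH` attached to a coset, via a representative. -/
def sigmaPt (x : SL(2, ℤ) ⧸ pm Γ) : A.F →+* MerH := emb A (Quotient.out x)

theorem sigmaPt_injective : Function.Injective (sigmaPt A) := by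
  intro x y hxy
  have hu : ∀ u : A.R, compSL ((A.Θ u : HolH) : ℍ → ℂ) (Quotient.out x)⁻¹ =
      compSL ((A.Θ u : HolH) : ℍ → ℂ) (Quotient.out y)⁻¹ := by
    intro u
    have h2 : emb A (Quotient.out x) ((u : A.R) : A.F) = emb A (Quotient.out y) ((u : A.R) : A.F) :=
      congrArg (fun f : A.F →+* MerH => f ((u : A.R) : A.F)) hxy
    rw [emb_coe, emb_coe] at h2
    have h3 := IsFractionRing.injective HolH MerH h2
    exact congrArg (fun a : HolH => (a : ℍ → ℂ)) h3
  have h4 := mem_pm_of_compSL_eq A _ _ hu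
  rw [inv_inv] at h4
  have h5 : (QuotientGroup.mk (Quotient.out x) : SL(2, ℤ) ⧸ pm Γ)
      = QuotientGroup.mk (Quotient.out y) := QuotientGroup.eq.mpr h4
  have hx : (QuotientGroup.mk (Quotient.out x) : SL(2, ℤ) ⧸ pm Γ) = x := Quotient.out_eq' x
  have hy : (QuotientGroup.mk (Quotient.out y) : SL(2, ℤ) ⧸ pm Γ) = y := Quotient.out_eq' y
  rw [hx, hy] at h5
  exact h5

/-- The embedding `F → ℂ((q_N))` attached to a coset, via a representative. -/
def sigmaC (x : SL(2, ℤ) ⧸ pm Γ) : A.F →+* LaurentSeries ℂ := cuspEmb A (Quotient.out x)⁻¹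

theorem sigmaC_injective : Function.Injective (sigmaC A) :=
  Tx_injective A AnDegree4.rep rep_spec

theorem card_eq_finrank : Nat.card (SL(2, ℤ) ⧸ pm Γ) = Module.finrank ℂ⟮A.jF⟯ A.F :=
  (finrank_eq A).symm

/-! ### Surjectivity at the finite points -/

/-- **SURJ at finite points, valuation-subring form.** -/
theorem exists_comap_eq (z₀ : ℍ) (v : Place ℂ A.F)
    (hv : 0 < v.ord (A.jF - algebraMap ℂ A.F (jFun z₀))) :
    ∃ g : SL(2, ℤ), v.toValuationSubring = (valAt z₀).comap (emb A g) := by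
  have : FiniteDimensional ℂ⟮A.jF⟯ A.F := finiteDimensional A
  have : Algebra.IsIntegral ℂ⟮A.jF⟯ A.F := Algebra.IsIntegral.of_finite _ _
  have : Algebra.IsSeparable ℂ⟮A.jF⟯ A.F := Algebra.IsSeparable.of_integral _ _
  have : Finite (SL(2, ℤ) ⧸ pm Γ) := finite_quotient A
  obtain ⟨x, hx⟩ := ValUniq.exists_eq_comap_of_sub_mem_nonunits (K := ℂ) (F := A.F) (E := MerH)
    A.jF (sigmaPt A) (card_eq_finrank A) (sigmaPt_injective A)
    (fun i j a => by rw [sigmaPt, sigmaPt, AnReal4.emb_algebraMap, AnReal4.emb_algebraMap])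
    (fun i j => by rw [sigmaPt, sigmaPt, emb_jF, emb_jF])
    (valAt z₀)
    (fun i a => by
      rw [sigmaPt, AnReal4.emb_algebraMap]
      exact (isOrd_ordH z₀).algebraMap_mem_valuationSubring _)
    v.toValuationSubring v.algebraMap_mem' (jFun z₀)
    (fun i => by
      rw [sigmaPt, mem_nonunits_valAt_iff z₀ (AnReal4.emb_ne_zero A _ (jF_sub_ne_zero A _))]
      have h := ptOrd_jF_sub A (Quotient.out i) z₀
      unfold ptOrd at h
      rw [h]
      exact_mod_cast Fermat.Agent.X0.JOrderMain.ellOrder_pos z₀)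
    (by
      rw [ValuationSubring.mem_nonunits_iff_or]
      right
      rw [FF.ffp_mem_iff_ord_nonneg, v.ord_inv]
      omega)
  exact ⟨Quotient.out x, hx⟩

/-- **SURJ at finite points**: every place over `j = j(z₀)` is a point place at `z₀`. -/
theorem exists_ptPlace_eq (z₀ : ℍ) (v : Place ℂ A.F)
    (hv : 0 < v.ord (A.jF - algebraMap ℂ A.F (jFun z₀))) :
    ∃ g : SL(2, ℤ), v = ptPlace A g z₀ := by
  obtain ⟨g, hg⟩ := exists_comap_eq A z₀ v hv
  exact ⟨g, eq_ptPlace_of_comap A hg⟩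

/-- Every point place is a point place with `g = 1`. -/
theorem ptPlace_eq_one (g : SL(2, ℤ)) (z₀ : ℍ) : ptPlace A g z₀ = ptPlace A 1 (g⁻¹ • z₀) := by
  have h := ptPlace_smul A g⁻¹ g z₀
  rw [inv_mul_cancel] at h
  exact h.symm

theorem ptIdx_eq_one (g : SL(2, ℤ)) (z₀ : ℍ) : ptIdx A g z₀ = ptIdx A 1 (g⁻¹ • z₀) := by
  have h := ptIdx_smul A g⁻¹ g z₀
  rw [inv_mul_cancel] at h
  exact h.symm

/-- **Every place of `F` which is not a pole of `j` is a point place.** -/
theorem exists_ptPlace_of_ord_jF_nonneg (v : Place ℂ A.F) (hv : 0 ≤ v.ord A.jF) :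
    ∃ z : ℍ, v = ptPlace A 1 z := by
  have : FiniteDimensional ℂ⟮A.jF⟯ A.F := finiteDimensional A
  have halg : Algebra.IsAlgebraic ℂ⟮A.jF⟯ A.F := Algebra.IsAlgebraic.of_finite _ _
  obtain ⟨c, hc | hc⟩ := FF.ffp_exists_ord_sub_pos v A.jF halg (FF.ffp_mem_of_ord_nonneg v hv)
  · exact absurd (sub_eq_zero.mpr hc) (jF_sub_ne_zero A c)
  · obtain ⟨z₀, hz₀⟩ := jFun_surjective c
    subst hz₀
    obtain ⟨g, hg⟩ := exists_ptPlace_eq A z₀ v hc
    exact ⟨g⁻¹ • z₀, by rw [hg, ptPlace_eq_one]⟩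

/-- A point place is not a pole of `j`. -/
theorem ptPlace_ord_jF_nonneg (g : SL(2, ℤ)) (z₀ : ℍ) : 0 ≤ (ptPlace A g z₀).ord A.jF := by
  have h1 := ord_jF_sub_pos A g z₀
  have h2 : A.jF - algebraMap ℂ A.F (jFun z₀) ∈ (ptPlace A g z₀).toValuationSubring :=
    FF.ffp_mem_of_ord_nonneg _ h1.le
  have h3 : A.jF ∈ (ptPlace A g z₀).toValuationSubring := by
    have := add_mem h2 ((ptPlace A g z₀).algebraMap_mem' (jFun z₀))
    rwa [sub_add_cancel] at this
  exact FF.ffp_ord_nonneg_of_mem _ h3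

/-- Point places and cusp places are different. -/
theorem ptPlace_ne_cuspPlace (g g' : SL(2, ℤ)) (z₀ : ℍ) : ptPlace A g z₀ ≠ cuspPlace A g' := by
  intro h
  have h1 := ptPlace_ord_jF_nonneg A g z₀
  have h2 := cuspPlace_ord_jF_neg A g'
  rw [h] at h1
  omega

/-! ### Surjectivity at the cusps -/

/-- **Surjectivity at the cusps.**  Every place `v` of `F` with `ord_v j < 0` is a cusp place. -/
theorem exists_cuspPlace_eq (v : Place ℂ A.F) (hv : v.ord A.jF < 0) :
    ∃ g : SL(2, ℤ), v = cuspPlace A g := by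
  have hN : (0 : ℤ) < N := by exact_mod_cast Nat.pos_of_ne_zero (NeZero.ne N)
  have hO : A.jF ∉ v.toValuationSubring := by
    rw [FF.ffp_mem_iff_ord_nonneg]
    omega
  have hV : ∀ x : SL(2, ℤ) ⧸ pm Γ, sigmaC A x A.jF ∉ laurentVC := by
    intro x
    have hne : sigmaC A x A.jF ≠ 0 := cuspEmb_ne_zero A _ (jF_ne_zero A)
    rw [mem_laurentVC_of_ne_zero hne, sigmaC, order_cuspEmb_jF]
    omega
  have : FiniteDimensional ℂ⟮A.jF⟯ A.F := finiteDimensional A
  have : Finite (SL(2, ℤ) ⧸ pm Γ) := finite_quotient A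
  obtain ⟨x, hx⟩ := ValUniq.exists_eq_comap_of_notMem (K := ℂ) (F := A.F)
    (E := LaurentSeries ℂ) A.jF (sigmaC A) (card_eq_finrank A) (sigmaC_injective A)
    (fun i j a => by rw [sigmaC, sigmaC, cuspEmb_algebraMap, cuspEmb_algebraMap])
    (fun i j => by rw [sigmaC, sigmaC, cuspEmb_jF, cuspEmb_jF])
    laurentVC (fun i a => by rw [sigmaC, cuspEmb_algebraMap]; exact C_mem_laurentVC a)
    v.toValuationSubring v.algebraMap_mem' hV hO
  refine ⟨Quotient.out x, ?_⟩
  apply Place.ext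
  ext f
  by_cases hf : f = 0
  · subst hf
    simp only [zero_mem]
  · rw [mem_cuspPlace_iff A _ hf, hx, ValuationSubring.mem_comap]
    show cuspEmb A (Quotient.out x)⁻¹ f ∈ laurentVC ↔ _
    rw [mem_laurentVC_of_ne_zero (cuspEmb_ne_zero A _ hf)]

/-- Coset form: `cuspPlaceX` is onto the places over `∞`. -/
theorem exists_cuspPlaceX_eq (v : Place ℂ A.F) (hv : v.ord A.jF < 0) :
    ∃ x : SL(2, ℤ) ⧸ pm Γ, cuspPlaceX A x = v := by
  obtain ⟨g, hg⟩ := exists_cuspPlace_eq A v hv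
  exact ⟨QuotientGroup.mk g, by rw [cuspPlaceX_mk, hg]⟩

/-- **Classification of the places of `F / ℂ`**: point places and cusp places. -/
theorem place_cases (v : Place ℂ A.F) :
    (∃ z : ℍ, v = ptPlace A 1 z) ∨ (∃ g : SL(2, ℤ), v = cuspPlace A g) := by
  by_cases h : 0 ≤ v.ord A.jF
  · exact Or.inl (exists_ptPlace_of_ord_jF_nonneg A v h)
  · exact Or.inr (exists_cuspPlace_eq A v (not_le.mp h))

/-! ### GLUE: quotients of convergent expansions -/

/-- **(GLUE)** If `(realMer f) ∘ g = a / b` with `a, b ∈ HolH`, `b ≠ 0`, having `q_N`-expansion data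
`(m, P)` and `(m', P')`, then the cusp expansion of `f` at `g` is `laurentOf m P / laurentOf m' P'`. -/
theorem cuspEmb_eq_div_of_isQExp (g : SL(2, ℤ)) (f : A.F) (a b : HolH) (hb : b ≠ 0)
    (hab : slMer g (realMer A f) = algebraMap HolH MerH a / algebraMap HolH MerH b)
    {m m' : ℕ} {P P' : PowerSeries ℂ}
    (ha : IsQExp N ((a : HolH) : ℍ → ℂ) m P) (hb' : IsQExp N ((b : HolH) : ℍ → ℂ) m' P') :
    cuspEmb A g f = laurentOf m P / laurentOf m' P' := by
  obtain ⟨u, s, hs, rfl⟩ := exists_div_ne_zero A f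
  obtain ⟨mu, Pu, hPu, hTu⟩ := cuspEmb_spec A g u
  obtain ⟨ms, Ps, hPs, hTs⟩ := cuspEmb_spec A g s
  have hs' : compSLHom g (A.Θ s) ≠ 0 := fun h0 => hs (by
    have h1 : compSLHom g (A.Θ s) = compSLHom g 0 := by rw [h0, map_zero]
    have h2 : A.Θ s = 0 := compSLHom_injective g h1
    exact Θ_injective A (by rw [h2, map_zero]))
  have hsM : algebraMap HolH MerH (compSLHom g (A.Θ s)) ≠ 0 := fun h0 =>
    hs' (IsFractionRing.injective HolH MerH (by rw [h0, map_zero]))
  have hbM : algebraMap HolH MerH b ≠ 0 := fun h0 =>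
    hb (IsFractionRing.injective HolH MerH (by rw [h0, map_zero]))
  rw [map_div₀, AnReal4.realMer_coe, AnReal4.realMer_coe, slMer_div] at hab
  have hcross : compSLHom g (A.Θ u) * b = a * compSLHom g (A.Θ s) := by
    apply IsFractionRing.injective HolH MerH
    rw [map_mul, map_mul]
    field_simp at hab
    rw [hab, mul_comm]
  have hfun : compSL ((A.Θ u : HolH) : ℍ → ℂ) g * ((b : HolH) : ℍ → ℂ) =
      ((a : HolH) : ℍ → ℂ) * compSL ((A.Θ s : HolH) : ℍ → ℂ) g :=
    congrArg (fun x : HolH => (x : ℍ → ℂ)) hcross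
  have h1 := hPu.mul hb'
  have h2 := ha.mul hPs
  rw [hfun] at h1
  have hL := h1.unique h2
  rw [laurentOf_mul, laurentOf_mul] at hL
  have hP'0 : laurentOf m' P' ≠ 0 := by
    rw [Ne, laurentOf_eq_zero_iff]
    intro h0
    apply hb
    apply Subtype.ext
    exact hb'.eq_zero_iff.mpr h0
  have hTs0 : cuspEmb A g (s : A.F) ≠ 0 :=
    cuspEmb_ne_zero A g (fun h0 => hs (Subtype.ext h0))
  rw [map_div₀, hTu, hTs, div_eq_div_iff (hTs ▸ hTs0) hP'0]
  exact hL

end Fermat.Agent.M48.AnSurj4
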