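/-
M48 (P1), [KUM1] (KS1), back end, file 1 (helper3): **the descent `ℚbar → ℂ` for `Pic⁰` of ANY
function field `K · F₀ ⊂ K((q))`** (`F₀ ≤ ℚ((q))` arbitrary), given transcendental generators
`x` of `ℚbar · F₀ / ℚbar` and `X` of `ℂ · F₀ / ℂ` (`X0.FF.IsGen`).  Twin of
`J/DESC/DescentFinal24` (which is the case `F₀ = modularFunctionFieldFull N`, `x = X = j`); all the
mathematics is in the generic files `J/DESC/ConstExt24`, `LaurentExt24`, `DescentC24`, `ExtPic22`.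

* `bcG F₀ : ℚbar · F₀ →+* ℂ · F₀` (coefficientwise along the Prelude's `complexEmbedding`);
* `extPic0G F₀ hx hX : Pic⁰(ℚbar · F₀) →+ Pic⁰(ℂ · F₀)`, injective;
* `torsionEquivG F₀ hx hX n : Pic⁰(ℚbar · F₀)[n] ≃+ Pic⁰(ℂ · F₀)[n]` if the right side is finite;
* `extDivG_datum` : transport of Kummer data `n • D = div f`.

Imported by no statement.
-/
import Mathlib
import Fermat.Prelude.Def_GaloisRep_ComplexConjugation
import Fermat.Agent.J.DESC.DescentC24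
import Fermat.Agent.J.DESC.ExtPic22

set_option autoImplicit false
set_option linter.unusedSectionVars false
set_option linter.style.longLine false

namespace Fermat.Agent.M48.DescentG3

open ModularCurve HahnSeries AlgebraicCurve Fermat.Agent.X0
open Fermat.Agent.J.DESC.ConstExt24 Fermat.Agent.J.DESC.LaurentExt24
open Fermat.Agent.J.DESC.DescentC24 Fermat.Agent.J.DESC.ExtPic22

noncomputable section

attribute [local instance] instAlgebraQbarComplex instTowerQbarComplex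

/-- `ℚ̄`. -/
local notation "Qb" => AlgebraicClosure ℚ

variable (F₀ : IntermediateField ℚ (LaurentSeries ℚ))

/-- `ℚ̄ · F₀ ⊂ ℚ̄((q))`. -/
abbrev FQ : Type := ↥(laurentBaseChange Qb F₀)

/-- `ℂ · F₀ ⊂ ℂ((q))`. -/
abbrev FCx : Type := ↥(laurentBaseChange ℂ F₀)

/-- Base change of functions `ℚ̄ · F₀ → ℂ · F₀` along `complexEmbedding`. -/
def bcG : FQ F₀ →+* FCx F₀ := bc (k := Qb) (K := ℂ) F₀

theorem coe_bcG (f : FQ F₀) :
    ((bcG F₀ f : FCx F₀) : LaurentSeries ℂ) =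
      coeffMap (algebraMap Qb ℂ) (f : LaurentSeries Qb) := rfl

theorem coeff_bcG (f : FQ F₀) (n : ℤ) :
    ((bcG F₀ f : FCx F₀) : LaurentSeries ℂ).coeff n =
      complexEmbedding ((f : LaurentSeries Qb).coeff n) := by
  rw [coe_bcG, coeffMap_coeff]
  rfl

theorem bcG_injective : Function.Injective (bcG F₀) := bc_injective _

theorem bcG_ne_zero {f : FQ F₀} (hf : f ≠ 0) : bcG F₀ f ≠ 0 :=
  (map_ne_zero_iff _ (bcG_injective F₀)).mpr hf

theorem isConstExt_bcG : IsConstExt (k := Qb) (K := ℂ) (bcG F₀) :=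
  isConstExt_bc (k := Qb) (K := ℂ) F₀

/-- The action of `Aut(ℂ/ℚ̄)` on `ℂ · F₀`. -/
def rhoG : (ℂ ≃ₐ[Qb] ℂ) →* SemilinearAut ℂ (FCx F₀) := rho (k := Qb) (K := ℂ) F₀

theorem baseAut_rhoG (σ : ℂ ≃ₐ[Qb] ℂ) (c : ℂ) : SemilinearAut.baseAut (rhoG F₀ σ) c = σ c := rfl

theorem rhoG_smul_bcG (σ : ℂ ≃ₐ[Qb] ℂ) (f : FQ F₀) : rhoG F₀ σ • bcG F₀ f = bcG F₀ f :=
  rho_smul_bc F₀ σ f

theorem mem_range_bcG_of_fixed (h : FCx F₀) (hfix : ∀ σ : ℂ ≃ₐ[Qb] ℂ, rhoG F₀ σ • h = h) :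
    h ∈ Set.range (bcG F₀) :=
  mem_range_bc_of_fixed (k := Qb) (K := ℂ) F₀ h hfix

variable {F₀} {x : FQ F₀} (hx : FF.IsGen Qb x) {X : FCx F₀} (hX : FF.IsGen ℂ X)

/-! ### Places, divisors, classes -/

/-- Extension of places of `ℚ̄ · F₀` to `ℂ · F₀`. -/
def extPlaceG : Place Qb (FQ F₀) → Place ℂ (FCx F₀) :=
  extPlace (bcG F₀) (isConstExt_bcG F₀) hX

include hx in
theorem ord_extPlaceG (w : Place Qb (FQ F₀)) (f : FQ F₀) :
    (extPlaceG hX w).ord (bcG F₀ f) = w.ord f :=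
  ord_extPlace (isConstExt_bcG F₀) hx hX w f

theorem extPlaceG_injective : Function.Injective (extPlaceG (F₀ := F₀) hX) :=
  extPlace_injective (isConstExt_bcG F₀) hX

/-- Extension of divisors. -/
def extDivG : Divisor Qb (FQ F₀) →+ Divisor ℂ (FCx F₀) :=
  extDiv (isConstExt_bcG F₀) hX

theorem extDivG_apply_extPlaceG (D : Divisor Qb (FQ F₀)) (w : Place Qb (FQ F₀)) :
    extDivG hX D (extPlaceG hX w) = D w :=
  extDiv_apply_extPlace (isConstExt_bcG F₀) hX D w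

include hx in
theorem degree_extDivG (D : Divisor Qb (FQ F₀)) :
    Divisor.degree (extDivG hX D) = Divisor.degree D :=
  degree_extDiv (isConstExt_bcG F₀) hx hX D

include hx in
/-- **Transport of Kummer data**: if `n • D = div f` over `ℚ̄` then `n • extDivG D = div (bc f)`
over `ℂ`. -/
theorem extDivG_datum (n : ℤ) {D : Divisor Qb (FQ F₀)} {f : FQ F₀} (hf : f ≠ 0)
    (hD : ∀ w : Place Qb (FQ F₀), n * D w = w.ord f) (v : Place ℂ (FCx F₀)) :
    n * extDivG hX D v = v.ord (bcG F₀ f) := by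
  have h := extDiv_apply_of_principal (isConstExt_bcG F₀) hx hX
    (D := n • D) hf (fun w => by rw [Finsupp.smul_apply, smul_eq_mul, hD w]) v
  rw [← h]
  show n * extDivG hX D v = extDivG hX (n • D) v
  rw [map_zsmul, Finsupp.smul_apply, smul_eq_mul]

/-- **Base change of divisor classes** `Pic⁰(ℚ̄ · F₀) →+ Pic⁰(ℂ · F₀)`. -/
def extPic0G : Pic0 Qb (FQ F₀) →+ Pic0 ℂ (FCx F₀) :=
  extPic0 (isConstExt_bcG F₀) hx hX

theorem extPic0G_mk (D : Divisor.degZero (K := Qb) (F := FQ F₀)) :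
    extPic0G hx hX (Pic0.mk D) = Pic0.mk (extDegZero (isConstExt_bcG F₀) hx hX D) := rfl

theorem coe_extDegZeroG (D : Divisor.degZero (K := Qb) (F := FQ F₀)) :
    ((extDegZero (isConstExt_bcG F₀) hx hX D :
      Divisor.degZero (K := ℂ) (F := FCx F₀)) : Divisor ℂ (FCx F₀)) =
        extDivG hX (D : Divisor Qb (FQ F₀)) :=
  coe_extDegZero _ _ _ D

/-- **Injectivity of base change on `Pic⁰`.** -/
theorem extPic0G_injective : Function.Injective (extPic0G hx hX) :=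
  extPic0_injective (isConstExt_bcG F₀) hx hX (rhoG F₀)
    (rhoG_smul_bcG F₀) (mem_range_bcG_of_fixed F₀)

/-- The classes in the image are fixed by `Aut(ℂ/ℚ̄)`. -/
theorem rhoG_smul_extPic0G (σ : ℂ ≃ₐ[Qb] ℂ) (y : Pic0 Qb (FQ F₀)) :
    rhoG F₀ σ • extPic0G hx hX y = extPic0G hx hX y :=
  smul_extPic0 (isConstExt_bcG F₀) hx hX (rhoG F₀ σ) (rhoG_smul_bcG F₀ σ) y

theorem extPic0G_mem_torsion {n : ℕ} {y : Pic0 Qb (FQ F₀)} (hy : y ∈ Pic0.torsion Qb (FQ F₀) n) :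
    extPic0G hx hX y ∈ Pic0.torsion ℂ (FCx F₀) n := by
  rw [Pic0.mem_torsion] at hy ⊢
  rw [← map_zsmul, hy, map_zero]

/-! ### Torsion -/

/-- **the torsion of `Pic⁰` over `ℚ̄` and over `ℂ` agree**, given finiteness over `ℂ`. -/
def torsionEquivG (n : ℕ) [Finite (Pic0.torsion ℂ (FCx F₀) n)] :
    Pic0.torsion Qb (FQ F₀) n ≃+ Pic0.torsion ℂ (FCx F₀) n :=
  torsionEquiv (isConstExt_bcG F₀) hx hX (rhoG F₀) (baseAut_rhoG F₀)
    (rhoG_smul_bcG F₀) (mem_range_bcG_of_fixed F₀) n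

theorem coe_torsionEquivG_apply (n : ℕ) [Finite (Pic0.torsion ℂ (FCx F₀) n)]
    (y : Pic0.torsion Qb (FQ F₀) n) :
    (torsionEquivG hx hX n y : Pic0 ℂ (FCx F₀)) = extPic0G hx hX (y : Pic0 Qb (FQ F₀)) := rfl

/-- Every `n`-torsion class over `ℂ` is the base change of an `n`-torsion class over `ℚ̄`. -/
theorem exists_extPic0G_eq (n : ℕ) [Finite (Pic0.torsion ℂ (FCx F₀) n)] {z : Pic0 ℂ (FCx F₀)}
    (hz : z ∈ Pic0.torsion ℂ (FCx F₀) n) :
    ∃ y ∈ Pic0.torsion Qb (FQ F₀) n, extPic0G hx hX y = z := by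
  obtain ⟨y, hy⟩ := (torsionEquivG hx hX n).surjective ⟨z, hz⟩
  exact ⟨y, y.2, by rw [← coe_torsionEquivG_apply, hy]⟩

include hx hX in
/-- **Finiteness of `Pic⁰(ℚ̄ · F₀)[n]`** from finiteness over `ℂ`. -/
theorem finite_torsion_bar (n : ℕ) [Finite (Pic0.torsion ℂ (FCx F₀) n)] :
    Finite (Pic0.torsion Qb (FQ F₀) n) :=
  finite_torsion (isConstExt_bcG F₀) hx hX (rhoG F₀)
    (rhoG_smul_bcG F₀) (mem_range_bcG_of_fixed F₀) n

end

end Fermat.Agent.M48.DescentG3
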