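/-
M48 (P1), place transfer `ℚbar → ℂ` for an analytic model (helper3; requested by [RED1]-BASE, C-2c/1364):
for `A : AnModel Γ N F₀` (ANY `F₀`, so any level `(M, L)` of helper4's `G10Model4.model M L hM`) and a
transcendental generator `x` of `ℚbar · F₀ / ℚbar` (e.g. helper2's `G10Degree2.isGen_jK M L hM ℚbar`):

* `extPlaceA A : Place ℚbar (ℚbar · F₀) → Place ℂ A.F`, **`ord_extPlaceA`** :
  `(extPlaceA A w).ord (bcG F₀ f) = w.ord f`, `extPlaceA_injective`, `extPlaceA_liesOver`;
* `mem_range_extPlaceA_iff` : a place `v'` of `A.F` comes from `ℚbar` iff some nonzero `f` defined over `ℚbar`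
  vanishes at `v'` (NOT every place does: the points with transcendental `j`-value do not);
* **`extPlaceA_cases`** : `extPlaceA A w` is a point place `ptPlace A 1 z` or a cusp place `cuspPlace A g`
  (helper4's dictionary `AnSurj4.place_cases`), so every statement about `w.ord f` can be read off
  analytically from `ordMer` / `cuspEmb` of `bcG F₀ f`;
* with `j₀ : ℚbar · F₀` of series `j` : **`cuspPlace_mem_range`** (all cusps are defined over `ℚbar`),
  **`ptPlace_mem_range_iff`** : `ptPlace A g z` comes from `ℚbar` iff `j(z) ∈ ℚbar`;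
  `ord_j₀_neg_iff`, `exists_cuspPlace_of_ord_neg`, `exists_ptPlace_of_ord_nonneg`.

Imported by no statement.
-/
import Fermat.Agent.M48.DescentG3
import Fermat.Agent.M48.AnSurj4

set_option autoImplicit false
set_option linter.unusedSectionVars false
set_option linter.style.longLine false

open AlgebraicCurve ModularCurve UpperHalfPlane
open scoped MatrixGroups

noncomputable section

namespace Fermat.Agent.M48.PlaceExtG3

open Fermat.Agent.X0 Fermat.Agent.X0.SurjPoint Fermat.Agent.ES.KUM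
open Fermat.Agent.M48.DictIface4 Fermat.Agent.M48.AnReal4 Fermat.Agent.M48.AnPoint4
  Fermat.Agent.M48.AnCuspPlace4 Fermat.Agent.M48.AnSurj4 Fermat.Agent.M48.DescentG3
open Fermat.Agent.J.DESC.ConstExt24

attribute [local instance] instAlgebraQbarComplex instTowerQbarComplex

/-- `ℚ̄`. -/
local notation "Qb" => AlgebraicClosure ℚ

variable {Γ : Subgroup SL(2, ℤ)} {N : ℕ} {F₀ : IntermediateField ℚ (LaurentSeries ℚ)}
  (A : AnModel Γ N F₀) [NeZero N] {x : FQ F₀} (hx : FF.IsGen Qb x)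

/-- the generator `j` of `A.F / ℂ`. -/
theorem isGenC : FF.IsGen ℂ A.jF := AnDegree4.isGen_jF A

/-- **Extension of places** of `ℚbar · F₀` to the function field `A.F = ℂ · F₀` of the model. -/
def extPlaceA : Place Qb (FQ F₀) → Place ℂ A.F := extPlaceG (isGenC A)

theorem extPlaceA_liesOver (w : Place Qb (FQ F₀)) : LiesOver (bcG F₀) (extPlaceA A w) w :=
  extPlace_liesOver (isConstExt_bcG F₀) (isGenC A) w

include hx in
/-- **orders are preserved.** -/
theorem ord_extPlaceA (w : Place Qb (FQ F₀)) (f : FQ F₀) :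
    (extPlaceA A w).ord (bcG F₀ f) = w.ord f :=
  ord_extPlaceG hx (isGenC A) w f

theorem extPlaceA_injective : Function.Injective (extPlaceA A) :=
  extPlaceG_injective (isGenC A)

include hx in
/-- the places of `A.F` which come from `ℚbar`. -/
theorem mem_range_extPlaceA_iff (v' : Place ℂ A.F) :
    v' ∈ Set.range (extPlaceA A) ↔ ∃ f : FQ F₀, f ≠ 0 ∧ 0 < v'.ord (bcG F₀ f) :=
  mem_range_extPlace_iff (isConstExt_bcG F₀) hx (isGenC A) v'

/-- **every extended place is a point place or a cusp place** of helper4's dictionary. -/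
theorem extPlaceA_cases (w : Place Qb (FQ F₀)) :
    (∃ z : ℍ, extPlaceA A w = ptPlace A 1 z) ∨ (∃ g : SL(2, ℤ), extPlaceA A w = cuspPlace A g) :=
  place_cases A (extPlaceA A w)

/-! ### With the formal `j` over `ℚbar` -/

variable {j₀ : FQ F₀} (hj₀ : ((j₀ : FQ F₀) : LaurentSeries Qb) = jqModC Qb)

include hj₀ in
theorem bcG_j₀ : bcG F₀ j₀ = A.jF := by
  apply Subtype.ext
  rw [coe_bcG, hj₀, coeffMap_jqModC]
  exact A.coe_jR.symm

include hj₀ in
theorem bcG_j₀_sub (c : Qb) :
    bcG F₀ (j₀ - algebraMap Qb (FQ F₀) c) = A.jF - algebraMap ℂ A.F (algebraMap Qb ℂ c) := by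
  rw [map_sub, bcG_j₀ A hj₀]
  congr 1
  exact Fermat.Agent.J.DESC.LaurentExt24.bc_algebraMap F₀ c

include A hj₀ in
theorem j₀_sub_ne_zero (c : Qb) : j₀ - algebraMap Qb (FQ F₀) c ≠ 0 := by
  intro h
  have h1 := congrArg (bcG F₀) h
  rw [bcG_j₀_sub A hj₀, map_zero] at h1
  exact jF_sub_ne_zero A _ h1

include hx hj₀ in
/-- **all cusp places are defined over `ℚbar`.** -/
theorem cuspPlace_mem_range (g : SL(2, ℤ)) : cuspPlace A g ∈ Set.range (extPlaceA A) := by
  rw [mem_range_extPlaceA_iff A hx]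
  have hj0 : j₀ ≠ 0 := by
    have := j₀_sub_ne_zero A hj₀ 0
    rwa [map_zero, sub_zero] at this
  refine ⟨j₀⁻¹, inv_ne_zero hj0, ?_⟩
  rw [map_inv₀, bcG_j₀ A hj₀, (cuspPlace A g).ord_inv]
  have := cuspPlace_ord_jF_neg A g
  omega

include hx hj₀ in
/-- **a point place is defined over `ℚbar` iff its `j`-value is algebraic.** -/
theorem ptPlace_mem_range_iff (g : SL(2, ℤ)) (z : ℍ) :
    ptPlace A g z ∈ Set.range (extPlaceA A) ↔ jFun z ∈ Set.range (algebraMap Qb ℂ) := by
  constructor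
  · rintro ⟨w, hw⟩
    by_cases hneg : w.ord j₀ < 0
    · exfalso
      have h1 := ord_extPlaceA A hx w j₀
      rw [hw, bcG_j₀ A hj₀] at h1
      have h2 := ptPlace_ord_jF_nonneg A g z
      omega
    · have hmem : j₀ ∈ w.toValuationSubring := FF.ffp_mem_of_ord_nonneg w (not_lt.mp hneg)
      obtain ⟨c, hc | hc⟩ := FF.exists_ord_sub_pos hx w hmem
      · exact absurd (sub_eq_zero.mpr hc) (j₀_sub_ne_zero A hj₀ c)
      · refine ⟨c, ?_⟩
        by_contra hne
        have h1 := ord_extPlaceA A hx w (j₀ - algebraMap Qb (FQ F₀) c)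
        rw [hw, bcG_j₀_sub A hj₀] at h1
        have h2 := ptOrd_jF_sub_of_ne A g z (c := algebraMap Qb ℂ c) (fun h => hne h.symm)
        rw [ptOrd_eq A g z (jF_sub_ne_zero A _)] at h2
        have h3 : (ptIdx A g z : ℤ) ≠ 0 := by exact_mod_cast (ptIdx_pos A g z).ne'
        rcases mul_eq_zero.mp h2 with h4 | h4
        · exact h3 h4
        · rw [h4] at h1
          omega
  · rintro ⟨c, hc⟩
    rw [mem_range_extPlaceA_iff A hx]
    refine ⟨j₀ - algebraMap Qb (FQ F₀) c, j₀_sub_ne_zero A hj₀ c, ?_⟩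
    rw [bcG_j₀_sub A hj₀, hc]
    exact ord_jF_sub_pos A g z

include hx hj₀ in
theorem ord_j₀_eq (w : Place Qb (FQ F₀)) : w.ord j₀ = (extPlaceA A w).ord A.jF := by
  rw [← ord_extPlaceA A hx w j₀, bcG_j₀ A hj₀]

include hx hj₀ in
/-- the places over `j = ∞` extend to cusp places. -/
theorem exists_cuspPlace_of_ord_neg (w : Place Qb (FQ F₀)) (hw : w.ord j₀ < 0) :
    ∃ g : SL(2, ℤ), extPlaceA A w = cuspPlace A g := by
  rw [ord_j₀_eq A hx hj₀] at hw
  exact exists_cuspPlace_eq A _ hw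

include hx hj₀ in
/-- the places over `j ≠ ∞` extend to point places. -/
theorem exists_ptPlace_of_ord_nonneg (w : Place Qb (FQ F₀)) (hw : 0 ≤ w.ord j₀) :
    ∃ z : ℍ, extPlaceA A w = ptPlace A 1 z := by
  rw [ord_j₀_eq A hx hj₀] at hw
  exact exists_ptPlace_of_ord_jF_nonneg A _ hw

include hx hj₀ in
/-- the `j`-value of the point under a place over `j ≠ ∞` is its residue constant. -/
theorem jFun_eq_of_ord_sub_pos (w : Place Qb (FQ F₀)) {c : Qb}
    (hc : 0 < w.ord (j₀ - algebraMap Qb (FQ F₀) c)) {z : ℍ}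
    (hz : extPlaceA A w = ptPlace A 1 z) : jFun z = algebraMap Qb ℂ c := by
  by_contra hne
  have h1 := ord_extPlaceA A hx w (j₀ - algebraMap Qb (FQ F₀) c)
  rw [hz, bcG_j₀_sub A hj₀] at h1
  have h2 := ptOrd_jF_sub_of_ne A 1 z (c := algebraMap Qb ℂ c) hne
  rw [ptOrd_eq A 1 z (jF_sub_ne_zero A _)] at h2
  have h3 : (ptIdx A 1 z : ℤ) ≠ 0 := by exact_mod_cast (ptIdx_pos A 1 z).ne'
  rcases mul_eq_zero.mp h2 with h4 | h4
  · exact h3 h4
  · rw [h4] at h1
    omega

end Fermat.Agent.M48.PlaceExtG3
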