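/-
M48 (P1), place transfer `ℚbar → ℂ` at level `(M, L)` (helper3; for [RED1]-BASE): the instance of
`PlaceExtG3` at helper4's model `G10Model4.model M L hM` of `Γ₁(M) ∩ Γ₀(M L)`, generator = helper2's
`G10Degree2.jK M L ℚbar`.

* `bcML M L : FK ℚbar M L →+* (model M L hM).F` (`= DescentG3.bcG (fieldG10 M L)`, coefficientwise);
* `extPlaceML M L hM : Place ℚbar (FK ℚbar M L) → Place ℂ (model M L hM).F`, `ord_extPlaceML`,
  `extPlaceML_injective`, `extPlaceML_cases`, `cuspPlace_mem_range`, `ptPlace_mem_range_iff`,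
  `exists_cuspPlace_of_ord_neg`, `exists_ptPlace_of_ord_nonneg`, `jFun_eq_of_ord_sub_pos`.

Imported by no statement.
-/
import Fermat.Agent.M48.PlaceExtG3
import Fermat.Agent.M48.G10Degree2
import Fermat.Agent.M48.HeckeCompat3

set_option autoImplicit false
set_option linter.unusedSectionVars false
set_option linter.style.longLine false

open AlgebraicCurve ModularCurve UpperHalfPlane
open scoped MatrixGroups

noncomputable section

namespace Fermat.Agent.M48.PlaceExtML3

open Fermat.Agent.X0 Fermat.Agent.X0.SurjPoint Fermat.Agent.ES.KUM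
open Fermat.Agent.M48.DictIface4 Fermat.Agent.M48.AnReal4 Fermat.Agent.M48.AnPoint4
  Fermat.Agent.M48.AnCuspPlace4 Fermat.Agent.M48.AnSurj4 Fermat.Agent.M48.DescentG3
  Fermat.Agent.M48.PlaceExtG3 Fermat.Agent.M48.J1Defs8 Fermat.Agent.M48.G10Model4
  Fermat.Agent.M48.G10Degree2

attribute [local instance] instAlgebraQbarComplex instTowerQbarComplex

/-- `ℚ̄`. -/
local notation "Qb" => AlgebraicClosure ℚ

variable (M L : ℕ) [NeZero M] [NeZero L] (hM : 2 ≤ M)

/-- coefficientwise base change `FK ℚbar M L → FK ℂ M L` along the Prelude's `complexEmbedding`. -/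
def bcML : ↥(FK Qb M L) →+* ↥(FK ℂ M L) := bcG (fieldG10 M L)

theorem coe_bcML (f : ↥(FK Qb M L)) :
    ((bcML M L f : ↥(FK ℂ M L)) : LaurentSeries ℂ) =
      coeffMap (algebraMap Qb ℂ) (f : LaurentSeries Qb) := rfl

theorem bcML_injective : Function.Injective (bcML M L) := bcG_injective _

theorem bcML_jK : bcML M L (jK M L Qb) = (model M L hM).jF :=
  bcG_j₀ (model M L hM) (j₀ := jK M L Qb) rfl

/-- **Extension of places** `Place ℚbar (FK ℚbar M L) → Place ℂ (model M L hM).F`. -/
def extPlaceML : Place Qb ↥(FK Qb M L) → Place ℂ (model M L hM).F :=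
  extPlaceA (model M L hM)

/-- **orders are preserved.** -/
theorem ord_extPlaceML (w : Place Qb ↥(FK Qb M L)) (f : ↥(FK Qb M L)) :
    (extPlaceML M L hM w).ord (bcML M L f) = w.ord f :=
  ord_extPlaceA (model M L hM) (isGen_jK M L hM Qb) w f

theorem extPlaceML_injective : Function.Injective (extPlaceML M L hM) :=
  extPlaceA_injective (model M L hM)

theorem mem_range_extPlaceML_iff (v' : Place ℂ (model M L hM).F) :
    v' ∈ Set.range (extPlaceML M L hM) ↔
      ∃ f : ↥(FK Qb M L), f ≠ 0 ∧ 0 < v'.ord (bcML M L f) :=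
  mem_range_extPlaceA_iff (model M L hM) (isGen_jK M L hM Qb) v'

/-- every extended place is a point place or a cusp place of the dictionary. -/
theorem extPlaceML_cases (w : Place Qb ↥(FK Qb M L)) :
    (∃ z : ℍ, extPlaceML M L hM w = ptPlace (model M L hM) 1 z) ∨
      (∃ g : SL(2, ℤ), extPlaceML M L hM w = cuspPlace (model M L hM) g) :=
  extPlaceA_cases (model M L hM) w

/-- all cusp places are defined over `ℚbar`. -/
theorem cuspPlace_mem_range (g : SL(2, ℤ)) :
    cuspPlace (model M L hM) g ∈ Set.range (extPlaceML M L hM) :=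
  PlaceExtG3.cuspPlace_mem_range (model M L hM) (isGen_jK M L hM Qb) (j₀ := jK M L Qb) rfl g

/-- a point place is defined over `ℚbar` iff its `j`-value is algebraic. -/
theorem ptPlace_mem_range_iff (g : SL(2, ℤ)) (z : ℍ) :
    ptPlace (model M L hM) g z ∈ Set.range (extPlaceML M L hM) ↔
      jFun z ∈ Set.range (algebraMap Qb ℂ) :=
  PlaceExtG3.ptPlace_mem_range_iff (model M L hM) (isGen_jK M L hM Qb) (j₀ := jK M L Qb) rfl g z

theorem ord_jK_eq (w : Place Qb ↥(FK Qb M L)) :
    w.ord (jK M L Qb) = (extPlaceML M L hM w).ord (model M L hM).jF :=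
  ord_j₀_eq (model M L hM) (isGen_jK M L hM Qb) (j₀ := jK M L Qb) rfl w

theorem exists_cuspPlace_of_ord_neg (w : Place Qb ↥(FK Qb M L)) (hw : w.ord (jK M L Qb) < 0) :
    ∃ g : SL(2, ℤ), extPlaceML M L hM w = cuspPlace (model M L hM) g :=
  PlaceExtG3.exists_cuspPlace_of_ord_neg (model M L hM) (isGen_jK M L hM Qb)
    (j₀ := jK M L Qb) rfl w hw

theorem exists_ptPlace_of_ord_nonneg (w : Place Qb ↥(FK Qb M L)) (hw : 0 ≤ w.ord (jK M L Qb)) :
    ∃ z : ℍ, extPlaceML M L hM w = ptPlace (model M L hM) 1 z :=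
  PlaceExtG3.exists_ptPlace_of_ord_nonneg (model M L hM) (isGen_jK M L hM Qb)
    (j₀ := jK M L Qb) rfl w hw

theorem jFun_eq_of_ord_sub_pos (w : Place Qb ↥(FK Qb M L)) {c : Qb}
    (hc : 0 < w.ord (jK M L Qb - algebraMap Qb ↥(FK Qb M L) c)) {z : ℍ}
    (hz : extPlaceML M L hM w = ptPlace (model M L hM) 1 z) : jFun z = algebraMap Qb ℂ c :=
  PlaceExtG3.jFun_eq_of_ord_sub_pos (model M L hM) (isGen_jK M L hM Qb)
    (j₀ := jK M L Qb) rfl w hc hz

/-- the realisation of `FK ℚbar M L` (`HeckeCompat3.anQ`) factors through `bcML`. -/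
theorem realMer_bcML (f : ↥(FK Qb M L)) :
    realMer (model M L hM) (bcML M L f) = HeckeCompat3.anQ M L hM f := rfl

end Fermat.Agent.M48.PlaceExtML3
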