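/-
M48 (P1), [RED1], chapter [BASE1] (helper7): **the BASE exports for the function field of
`Γ₁(M) ∩ Γ₀(M L)`** — twin of `RED/BASE/Main12.BaseExports` and of the place part of
`RED/BASE/MainCusp12.CuspExports` for `FK ℚbar M L = ℚbar · fieldG10 M L`.

`(n, e) = (4, 8)` or `(9, 3)` (`hb : BaseHyp n e`), `n ∣ M L`, `4 ≤ M`.  The formal Hauptmodul
`t = tK n e = q⁻¹ (η(q)/η(q^n))^e` of `X₀(n)` SURVIVES in the new field
(`Fbar_{M L} ≤ FK ℚbar M L`, `fbar_le_FK`), so nothing about `t` itself is re-proved: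

* `TMem1 n e M L`, `tF1 h`, `tMem1 hb hn`          (B2);
* `isGen_tF1`                                      (B3') `t` is a transcendental generator;
* `unbranched1 hM4 hb hn`                          (B6) at every place which is not a pole of `j`,
                                                   `t - t(v)` is a uniformiser;
* `avoids1`, `cuspPlaces1`                         finite places avoid the cusp values of `t`
                                                   (`cv` with the OLD `CuspExp n e (M L) cv`);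
* `degree1`                                        `ψ(n) · [FK : ℚbar(t)] = #(SL₂(ℤ) / ±Γ)`;
* `BaseExports1`, `baseExports1`                   the bundle.

Method (`exists_pointPlaceD_ord_eq`): a place `v` of `FK ℚbar M L` with `0 ≤ ord_v j` extends to the
analytic model over `ℂ` (helper3's `PlaceExtML3`), where it is a point place `ptPlace 1 z` of
helper4's dictionary with `j(z)` algebraic; `Γ₁(M)`, `M ≥ 4`, has no elliptic elements
(`eq_one_or_neg_one_of_fixed`: trace `≡ ± 2 (mod M)`), so `ptIdx = 1` and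
`ord_v f = ord_z (anQ f)` for all `f`; the realisation of `t` is `tauFun n e` (uniqueness of
`q`-expansions), and the OLD dictionary of `X₀(M L)` (no elliptic points, `4 ∣ M L` or `9 ∣ M L`)
computes the same analytic order as the order of `t - c` at the point place of `Fbar_{M L}` at `z`.
So all place statements about `t - c` transfer verbatim from `Fbar_{M L}` to `FK ℚbar M L`.

Imported by no statement.
-/
import Fermat.Agent.M48.PlaceExtML3
import Fermat.Agent.M48.AnDict4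
import Fermat.Agent.M48.AnQExpMer3
import Fermat.Agent.RED.BASE.MainCusp12

set_option autoImplicit false
set_option linter.unusedSectionVars false
set_option linter.style.longLine false
set_option linter.style.haveILetI false

open UpperHalfPlane ModularCurve AlgebraicCurve HahnSeries CongruenceSubgroup
open scoped MatrixGroups IntermediateField

noncomputable section

namespace Fermat.Agent.M48.Base1T7

open Fermat.Agent.X0 Fermat.Agent.X0.SurjPoint Fermat.Agent.ES.KUM
open Fermat.Agent.X0.PointPlacesD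
open Fermat.Agent.ES.KUM.EllMult14 Fermat.Agent.ES.KUM.EllStab14
open Fermat.Agent.M48.DictIface4 Fermat.Agent.M48.J1Defs8
open Fermat.Agent.M48.AnReal4 Fermat.Agent.M48.AnPoint4 Fermat.Agent.M48.AnExactPt4
open Fermat.Agent.M48.G10Model4 Fermat.Agent.M48.G10Degree2 Fermat.Agent.M48.PlaceExtML3
open Fermat.Agent.M48.HeckeCompat3
open Fermat.Agent.ES.HEQ.QExpMer19
open Fermat.Agent.X0.Analytic
open Fermat.Agent.RED.BASE.Interface12 Fermat.Agent.RED.BASE.EtaQuot12
open Fermat.Agent.RED.BASE.Hauptmodul12 Fermat.Agent.RED.BASE.Unbranched14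
open Fermat.Agent.RED.BASE.UnbranchedMain14 Fermat.Agent.RED.BASE.Main12
open Fermat.Agent.RED.BASE.TqTranscendental19 Fermat.Agent.RED.BASE.QExpMem19

attribute [local instance] instAlgebraQbarComplex instTowerQbarComplex

/-- `ℚ̄`. -/
local notation "Qb" => AlgebraicClosure ℚ

/-! ### `Γ₁(M)`, `M ≥ 4`, has no elliptic elements -/

/-- an element of `±Γ`, `Γ ≤ Γ₁(M)`, `4 ≤ M`, fixing a point of `ℍ` is `± 1`. -/
theorem eq_one_or_neg_one_of_fixed {M : ℕ} (hM4 : 4 ≤ M) {Γ : Subgroup SL(2, ℤ)}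
    (hΓ : Γ ≤ Gamma1 M) {ε : SL(2, ℤ)} (hε : ε ∈ pm Γ) {z : ℍ} (hfix : ε • z = z) :
    ε = 1 ∨ ε = -1 := by
  by_contra hne
  push Not at hne
  have htr := trace_sq_lt_four_of_fixed hfix hne.1 hne.2
  -- `|tr ε| ≤ 1`
  have hlt : -2 < (ε 0 0 : ℤ) + ε 1 1 ∧ (ε 0 0 : ℤ) + ε 1 1 < 2 := by
    constructor <;> nlinarith
  -- `tr γ ≡ 2 (mod M)` on `Γ₁(M)`
  have key : ∀ γ : SL(2, ℤ), γ ∈ Gamma1 M → ((M : ℕ) : ℤ) ∣ (γ 0 0 : ℤ) + γ 1 1 - 2 := by
    intro γ hγ
    obtain ⟨h00, h11, -⟩ := (Gamma1_mem M γ).1 hγ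
    rw [← ZMod.intCast_zmod_eq_zero_iff_dvd]
    push_cast
    rw [h00, h11]
    ring
  have hM4' : (4 : ℤ) ≤ M := by exact_mod_cast hM4
  rcases hε with h | h
  · have hd := key ε (hΓ h)
    have hle := Int.le_of_dvd (a := (M : ℤ)) (b := -((ε 0 0 : ℤ) + ε 1 1 - 2)) (by omega)
      ((dvd_neg).2 hd)
    omega
  · have hd := key (-ε) (hΓ h)
    have e00 : ((-ε : SL(2, ℤ)) 0 0 : ℤ) = -(ε 0 0) := by simp
    have e11 : ((-ε : SL(2, ℤ)) 1 1 : ℤ) = -(ε 1 1) := by simp
    rw [e00, e11] at hd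
    have hle := Int.le_of_dvd (a := (M : ℤ)) (b := -(-(ε 0 0 : ℤ) + -(ε 1 1) - 2)) (by omega)
      ((dvd_neg).2 hd)
    omega

/-- **no elliptic points**: for `Γ ≤ Γ₁(M)`, `4 ≤ M`, all point places of an analytic model of `Γ`
have multiplicity one. -/
theorem ptIdx_eq_one_of_le_Gamma1 {Γ : Subgroup SL(2, ℤ)} {N : ℕ}
    {F₀ : IntermediateField ℚ (LaurentSeries ℚ)} (A : AnModel Γ N F₀) [NeZero N]
    {M : ℕ} (hM4 : 4 ≤ M) (hΓ : Γ ≤ Gamma1 M) (z : ℍ) : ptIdx A 1 z = 1 := by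
  obtain ⟨ε, hε, hfix, hprim⟩ := exists_generator A z
  have h1 : mult ε z = 1 := (mult_eq_one_iff hfix).2 (eq_one_or_neg_one_of_fixed hM4 hΓ hε hfix)
  rw [h1] at hprim
  exact IsPrimitiveRoot.one_left_iff.1 hprim

/-! ### The Hauptmodul in `FK ℚbar M L` -/

/-- (B2) twin: `t ∈ FK ℚbar M L`. -/
def TMem1 (n e : ℕ) [NeZero n] (M L : ℕ) : Prop := tK n e ∈ FK Qb M L

/-- `t` as an element of `FK ℚbar M L`. -/
def tF1 {n e : ℕ} [NeZero n] {M L : ℕ} (h : TMem1 n e M L) : FK Qb M L := ⟨tK n e, h⟩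

@[simp] theorem coe_tF1 {n e : ℕ} [NeZero n] {M L : ℕ} (h : TMem1 n e M L) :
    ((tF1 h : FK Qb M L) : LaurentSeries Qb) = tK n e := rfl

/-- the old field survives: `Fbar_{M L} ≤ FK ℚbar M L`. -/
theorem fbar_le_FK (M L : ℕ) : modularFunctionFieldBar (M * L) ≤ FK Qb M L :=
  laurentBaseChange_mono Qb (modularFunctionFieldFull_le_fieldG10 M L)

theorem tMem1_of_tMem {n e : ℕ} [NeZero n] {M L : ℕ} [NeZero (M * L)] (h : TMem n e (M * L)) :
    TMem1 n e M L := fbar_le_FK M L h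

/-- **(B2)**. -/
theorem tMem1 {n e : ℕ} [NeZero n] {M L : ℕ} [NeZero (M * L)] (hb : BaseHyp n e)
    (hn : n ∣ M * L) : TMem1 n e M L :=
  tMem1_of_tMem (tMem_of_dvd hb hn)

/-- `0 ≤ ord f` from `0 < ord (f - c)`. -/
theorem ord_nonneg_of_ord_sub_pos {K F : Type*} [Field K] [Field F] [Algebra K F]
    (v : Place K F) {f : F} {c : K} (h : 0 < v.ord (f - algebraMap K F c)) : 0 ≤ v.ord f := by
  have h2 : f - algebraMap K F c ∈ v.toValuationSubring := FF.ffp_mem_of_ord_nonneg v h.le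
  have h3 : f ∈ v.toValuationSubring := by
    have := add_mem h2 (v.algebraMap_mem' c)
    rwa [sub_add_cancel] at this
  exact (FF.ffp_mem_iff_ord_nonneg v).1 h3

section Main

variable (M L : ℕ) [NeZero M] [NeZero L] (hM4 : 4 ≤ M)

include hM4 in
theorem two_le : 2 ≤ M := le_trans (by norm_num) hM4

/-- **the analytic order at `z` of the realisation is the order at the place**, at every place of
`FK ℚbar M L` which is not a pole of `j` (no elliptic points: `4 ≤ M`). -/
theorem ordMer_anQ_eq (v : Place Qb ↥(FK Qb M L)) {z : ℍ}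
    (hz : extPlaceML M L (two_le M hM4) v = ptPlace (model M L (two_le M hM4)) 1 z)
    {f : ↥(FK Qb M L)} (hf : f ≠ 0) :
    ordMer z (anQ M L (two_le M hM4) f) = v.ord f := by
  have hM := two_le M hM4
  have hbf : bcML M L f ≠ 0 := (map_ne_zero_iff _ (bcML_injective M L)).mpr hf
  rw [← realMer_bcML, ordMer_realMer (model M L hM) z hbf,
    ptIdx_eq_one_of_le_Gamma1 (model M L hM) hM4 (inf_le_left : Gamma10 M (M * L) ≤ Gamma1 M) z,
    ← hz, ord_extPlaceML]
  simp

variable {n e : ℕ} [NeZero n]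

/-- `t` is transcendental over `ℚbar`. -/
theorem transcendental_tF1 (h : TMem1 n e M L) : Transcendental Qb (tF1 h) := fun halg =>
  transcendental_tq Qb n e (IntermediateField.isAlgebraic_iff.1 halg)

theorem tF1_sub_ne_zero (h : TMem1 n e M L) (c : Qb) :
    tF1 h - algebraMap Qb ↥(FK Qb M L) c ≠ 0 := by
  intro h0
  apply transcendental_tF1 M L h
  rw [sub_eq_zero.mp h0]
  exact isAlgebraic_algebraMap c

/-- **(B3')**: `t` is a transcendental generator of `FK ℚbar M L`. -/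
theorem isGen_tF1 (hM : 2 ≤ M) (h : TMem1 n e M L) : FF.IsGen Qb (tF1 h) :=
  (isGen_jK M L hM Qb).of_transcendental (transcendental_tF1 M L h)

/-- the realisation of `t` is `tauFun`. -/
theorem anQ_tF1 (hM : 2 ≤ M) (h : TMem1 n e M L) :
    anQ M L hM (tF1 h) = algebraMap HolH MerH ⟨tauFun n e, tauFun_mem_HolH n e⟩ := by
  have h1 := hasQExpMer_anQ M L hM (tF1 h)
  have h2 : HasQExpMer (toC (tq Kbar n e))
      (algebraMap HolH MerH ⟨tauFun n e, tauFun_mem_HolH n e⟩) :=
    hasQExpMer_of_hasQExp (a := ⟨tauFun n e, tauFun_mem_HolH n e⟩) (hasQExp_tauFun_K n e)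
  exact h1.unique h2

theorem anQ_tF1_sub (hM : 2 ≤ M) (h : TMem1 n e M L) (c : Qb) :
    anQ M L hM (tF1 h - algebraMap Qb ↥(FK Qb M L) c) =
      algebraMap HolH MerH
        ((⟨tauFun n e, tauFun_mem_HolH n e⟩ : HolH) - algebraMap ℂ HolH (iotaK c)) := by
  rw [map_sub, map_sub, anQ_tF1, anQ_algebraMap]

include hM4 in
/-- **comparison with the `Γ₀`-dictionary**: at a place `v` of `FK ℚbar M L` which is not a pole of
`j`, the orders of all `t - c` agree with those at a point place of `Fbar_{N'}`, for every level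
`N'` without elliptic points at which `t` is realised by `tauFun`. -/
theorem exists_pointPlaceD_ord_eq (h : TMem1 n e M L) (N' : ℕ) [NeZero N'] (h49 : 4 ∣ N' ∨ 9 ∣ N')
    (h' : TMem n e N') (ht : IsRealizedBy (realizeData N') (tF N' h') (tauFun n e))
    (v : Place Qb ↥(FK Qb M L)) (hv : 0 ≤ v.ord (jK M L Qb)) :
    ∃ (z : ℍ) (cj : Kbar) (hc : jFun z = iotaK cj), ∀ c : Qb,
      v.ord (tF1 h - algebraMap Qb ↥(FK Qb M L) c) =
        (pointPlaceD (realizeData N') z cj hc 1).ord (tF N' h' - algebraMap Kbar (FF N') c) := by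
  have hM := two_le M hM4
  obtain ⟨z, hz⟩ := exists_ptPlace_of_ord_nonneg M L hM v hv
  -- the value of `j`
  have hgenj := isGen_jK M L hM Qb
  obtain ⟨cj, hcj | hcj⟩ := FF.exists_ord_sub_pos hgenj v
    ((FF.ffp_mem_iff_ord_nonneg v).2 hv)
  · exfalso
    apply hgenj.transcendental
    rw [hcj]
    exact isAlgebraic_algebraMap cj
  have hc : jFun z = iotaK cj := jFun_eq_of_ord_sub_pos M L hM v hcj hz
  refine ⟨z, cj, hc, fun c => ?_⟩
  have hne := tF1_sub_ne_zero M L h c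
  have hne' : tF N' h' - algebraMap Kbar (FF N') c ≠ 0 := by
    intro h0
    apply Fermat.Agent.RED.BASE.TGen19.transcendental_tF n e N' h'
    rw [sub_eq_zero.mp h0]
    exact isAlgebraic_algebraMap c
  rw [← ordMer_anQ_eq M L hM4 v hz hne, anQ_tF1_sub M L hM h c,
    ord_sub_eq_ordH (realizeData N') (cuspData N') (nuTwo_eq_zero h49) (nuThree_eq_zero h49)
      (tauFun_mem_HolH n e) ht z cj hc 1 c hne']
  have ha : ((⟨tauFun n e, tauFun_mem_HolH n e⟩ : HolH) - algebraMap ℂ HolH (iotaK c)) ≠ 0 := by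
    intro h0
    apply hne
    apply (anQ M L hM).injective
    rw [anQ_tF1_sub M L hM h c, h0, map_zero, map_zero]
  rw [ordMer_algebraMap z ha]
  congr 3
  funext w
  simp [compSL]

/-! ### The exports -/

include hM4 in
/-- **(B6), twin**: at every place `v` of `FK ℚbar M L` which is not a pole of `j`, `t` has a value
`c` and `t - c` is a uniformiser at `v`. -/
theorem unbranched1 (hb : BaseHyp n e) (hn : n ∣ M * L) :
    ∃ h : TMem1 n e M L, ∀ v : Place Qb ↥(FK Qb M L), 0 ≤ v.ord (jK M L Qb) →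
      ∃ c : Qb, v.ord (tF1 h - algebraMap Qb ↥(FK Qb M L) c) = 1 := by
  have B := baseExports hb (M * L) hn
  have h49 : 4 ∣ M * L ∨ 9 ∣ M * L :=
    hb.four_or_nine.imp (fun h => h.trans hn) (fun h => h.trans hn)
  obtain ⟨h', a, b, hb', hab, hΘ⟩ := B.realize
  obtain ⟨h'', hU⟩ := B.unbranched
  refine ⟨tMem1_of_tMem h', fun v hv => ?_⟩
  obtain ⟨z, cj, hc, H⟩ := exists_pointPlaceD_ord_eq M L hM4 (tMem1_of_tMem h') (M * L) h49 h'
    ⟨a, b, hb', hab, hΘ⟩ v hv
  have hw : 0 ≤ (pointPlaceD (realizeData (M * L)) z cj hc 1).ord (jF (M * L)) :=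
    ord_nonneg_of_ord_sub_pos _ (pointPlaceD_ord_pos (realizeData (M * L)) z cj hc 1)
  obtain ⟨c, hc1⟩ := hU _ hw
  exact ⟨c, (H c).trans hc1⟩

include hM4 in
/-- **finite places avoid the cusp values**, twin of `FiniteAvoidsM14.finiteAvoidsCusps`; `cv` is any
value function with the OLD `CuspExp n e (M L) cv` (e.g. `CuspExpMain11.cvT n e (M L)`). -/
theorem avoids1 (hb : BaseHyp n e) (hn : n ∣ M * L) (cv : SL(2, ℤ) → Option Kbar)
    (hcv : CuspExp n e (M * L) cv) :
    ∃ h : TMem1 n e M L, ∀ v : Place Qb ↥(FK Qb M L), 0 ≤ v.ord (jK M L Qb) →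
      ∀ (γ : SL(2, ℤ)) (c : Qb), cv γ = some c →
        v.ord (tF1 h - algebraMap Qb ↥(FK Qb M L) c) = 0 := by
  have B := baseExports hb (M * L) hn
  have h49 : 4 ∣ M * L ∨ 9 ∣ M * L :=
    hb.four_or_nine.imp (fun h => h.trans hn) (fun h => h.trans hn)
  obtain ⟨h', a, b, hb', hab, hΘ⟩ := B.realize
  obtain ⟨h'', hA⟩ := Fermat.Agent.RED.BASE.FiniteAvoidsM14.finiteAvoidsCusps n e (M * L)
    hb.four_or_nine hn B.realizeBase B.realize B.genBase cv hcv
  refine ⟨tMem1_of_tMem h', fun v hv γ c hγ => ?_⟩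
  obtain ⟨z, cj, hc, H⟩ := exists_pointPlaceD_ord_eq M L hM4 (tMem1_of_tMem h') (M * L) h49 h'
    ⟨a, b, hb', hab, hΘ⟩ v hv
  have hw : 0 ≤ (pointPlaceD (realizeData (M * L)) z cj hc 1).ord (jF (M * L)) :=
    ord_nonneg_of_ord_sub_pos _ (pointPlaceD_ord_pos (realizeData (M * L)) z cj hc 1)
  exact (H c).trans (hA _ hw γ c hγ)

include hM4 in
/-- **places over a finite cusp value are poles of `j`**, twin of
`FiniteAvoidsM14.ord_jF_neg_of_cusp_value`. -/
theorem cuspPlaces1 (hb : BaseHyp n e) (hn : n ∣ M * L) (cv : SL(2, ℤ) → Option Kbar)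
    (hcv : CuspExp n e (M * L) cv) :
    ∃ h : TMem1 n e M L, ∀ v : Place Qb ↥(FK Qb M L), ∀ (γ : SL(2, ℤ)) (c : Qb),
      cv γ = some c → 0 < v.ord (tF1 h - algebraMap Qb ↥(FK Qb M L) c) →
        v.ord (jK M L Qb) < 0 := by
  obtain ⟨h, H⟩ := avoids1 M L hM4 hb hn cv hcv
  refine ⟨h, fun v γ c hγ hpos => ?_⟩
  by_contra hneg
  rw [not_lt] at hneg
  have := H v hneg γ c hγ
  omega

/-- **the degree**: `ψ(n) · [FK ℚbar M L : ℚbar(t)] = #(SL₂(ℤ) / ±(Γ₁(M) ∩ Γ₀(M L)))`. -/
theorem degree1 (hM : 2 ≤ M) (hb : BaseHyp n e) (hn : n ∣ M * L) (h : TMem1 n e M L) :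
    dedekindPsi n * Module.finrank ↥(Qb⟮tF1 h⟯ : IntermediateField Qb ↥(FK Qb M L)) ↥(FK Qb M L) =
      Nat.card (SL(2, ℤ) ⧸ pm (Gamma10 M (M * L))) := by
  have h' : TMem n e (M * L) := tMem_of_dvd hb hn
  have hold := Fermat.Agent.RED.BASE.TGen19.finrank_adjoin_tF_mul n e (tGenBase' hb) (M * L) hn h'
  rw [Fermat.Agent.ES.RED.SpecialGen25.finrank_adjoin_simple_eq_relfinrank] at hold ⊢
  have hle1 : (Qb⟮tK n e⟯ : IntermediateField Qb (LaurentSeries Qb)) ≤
      modularFunctionFieldBar (M * L) := by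
    rw [IntermediateField.adjoin_simple_le_iff]
    exact h'
  have e1 := IntermediateField.relfinrank_mul_relfinrank hle1 (fbar_le_FK M L)
  have e2 := IntermediateField.relfinrank_mul_relfinrank (K0_le (M * L)) (fbar_le_FK M L)
  have e3 : IntermediateField.relfinrank K0 (FK Qb M L) =
      Nat.card (SL(2, ℤ) ⧸ pm (Gamma10 M (M * L))) := by
    have := relfinrank_FK M L hM Qb
    rwa [← Fermat.Agent.X0.jqK_eq_jqModC] at this
  have e4 := Fermat.Agent.RED.BASE.TGen19.relfinrank_K0 (M * L)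
  show dedekindPsi n *
      IntermediateField.relfinrank (Qb⟮tK n e⟯ : IntermediateField Qb (LaurentSeries Qb))
        (FK Qb M L) = _
  rw [← e1, ← mul_assoc]
  have hold' : dedekindPsi n *
      IntermediateField.relfinrank (Qb⟮tK n e⟯ : IntermediateField Qb (LaurentSeries Qb))
        (modularFunctionFieldBar (M * L)) = dedekindPsi (M * L) := hold
  rw [hold', ← e4, e2, e3]

/-- the exports of the chapter for `FK ℚbar M L` (twin of `Main12.BaseExports` together with the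
place part of `MainCusp12.CuspExports`). -/
structure BaseExports1 (n e : ℕ) [NeZero n] (M L : ℕ) [NeZero M] [NeZero L] : Prop where
  mem : TMem1 n e M L
  isGen : ∀ h : TMem1 n e M L, FF.IsGen Qb (tF1 h)
  unbranched : ∀ h : TMem1 n e M L, ∀ v : Place Qb ↥(FK Qb M L), 0 ≤ v.ord (jK M L Qb) →
    ∃ c : Qb, v.ord (tF1 h - algebraMap Qb ↥(FK Qb M L) c) = 1
  avoids : ∀ (cv : SL(2, ℤ) → Option Kbar), CuspExp n e (M * L) cv →
    ∀ h : TMem1 n e M L, ∀ v : Place Qb ↥(FK Qb M L), 0 ≤ v.ord (jK M L Qb) →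
      ∀ (γ : SL(2, ℤ)) (c : Qb), cv γ = some c →
        v.ord (tF1 h - algebraMap Qb ↥(FK Qb M L) c) = 0
  cuspPlaces : ∀ (cv : SL(2, ℤ) → Option Kbar), CuspExp n e (M * L) cv →
    ∀ h : TMem1 n e M L, ∀ v : Place Qb ↥(FK Qb M L), ∀ (γ : SL(2, ℤ)) (c : Qb),
      cv γ = some c → 0 < v.ord (tF1 h - algebraMap Qb ↥(FK Qb M L) c) →
        v.ord (jK M L Qb) < 0
  degree : ∀ h : TMem1 n e M L,
    dedekindPsi n * Module.finrank ↥(Qb⟮tF1 h⟯ : IntermediateField Qb ↥(FK Qb M L)) ↥(FK Qb M L) =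
      Nat.card (SL(2, ℤ) ⧸ pm (Gamma10 M (M * L)))

include hM4 in
/-- **[BASE1]**: all exports for `FK ℚbar M L`, `4 ≤ M`, `n ∣ M L`. -/
theorem baseExports1 (hb : BaseHyp n e) (hn : n ∣ M * L) : BaseExports1 n e M L where
  mem := tMem1 hb hn
  isGen := fun h => isGen_tF1 M L (two_le M hM4) h
  unbranched := fun _ => (unbranched1 M L hM4 hb hn).choose_spec
  avoids := fun cv hcv _ => (avoids1 M L hM4 hb hn cv hcv).choose_spec
  cuspPlaces := fun cv hcv _ => (cuspPlaces1 M L hM4 hb hn cv hcv).choose_spec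
  degree := fun h => degree1 M L (two_le M hM4) hb hn h

include hM4 in
/-- level `4`, exponent `8` (odd `ℓ`). -/
theorem baseExports1_four (hn : 4 ∣ M * L) : BaseExports1 4 8 M L :=
  baseExports1 M L hM4 baseHyp_four hn

include hM4 in
/-- level `9`, exponent `3` (`ℓ = 2`). -/
theorem baseExports1_nine (hn : 9 ∣ M * L) : BaseExports1 9 3 M L :=
  baseExports1 M L hM4 baseHyp_nine hn

end Main

end Fermat.Agent.M48.Base1T7
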