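/-
M48 (P1), [RED1], chapter [BASE1] (helper7): **the BASE exports in the literal shapes of helper4's
`Red1Iface4`** — adapter from `Base1T7` (stated with helper2's `G10Degree2.jK`) to
`Red1Iface4.BaseExports1` (stated with `Red1Iface4.jF1`, `tF1 M L h`), plus the two place fields
`avoids` / `cuspPlaces` of `Red1Iface4.CuspExports1` for any value function `cv` with the OLD
`Interface12.CuspExp n e (M L) cv` (e.g. `CuspExpMain11.cvT n e (M L)`).

* `jF1_eq_jK`            : `Red1Iface4.jF1 M L = G10Degree2.jK M L ℚbar`;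
* `baseExports1 hM4 hb hn : Red1Iface4.BaseExports1 n e M L`   (`4 ≤ M`, `n ∣ M L`);
* `unbranched1`, `tIsGen1`, `avoids1`, `cuspPlaces1` : the single fields.

Imported by no statement.
-/
import Fermat.Agent.M48.Base1T7
import Fermat.Agent.M48.Red1Iface4

set_option autoImplicit false
set_option linter.unusedSectionVars false
set_option linter.style.longLine false

open UpperHalfPlane ModularCurve AlgebraicCurve HahnSeries
open scoped MatrixGroups IntermediateField

noncomputable section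

namespace Fermat.Agent.M48.Base1Iface7

open Fermat.Agent.X0 Fermat.Agent.M48.DictIface4 Fermat.Agent.M48.J1Defs8
open Fermat.Agent.M48.Red1Iface4 Fermat.Agent.M48.G10Degree2
open Fermat.Agent.RED.Interface4 Fermat.Agent.RED.BASE.Interface12
open Fermat.Agent.RED.BASE.Hauptmodul12

variable (M L : ℕ) [NeZero M] [NeZero L]

/-- the two names of `j`. -/
theorem jF1_eq_jK : jF1 M L = jK M L Qbar :=
  Subtype.ext (coeffEmb_jq Qbar)

variable {n e : ℕ} [NeZero n]

/-- **(B3')** in the shape of `Red1Iface4`. -/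
theorem tIsGen1 (hM : 2 ≤ M) (h : TMem1 n e M L) : TIsGen1 n e M L :=
  ⟨h, Base1T7.isGen_tF1 M L hM h⟩

variable (hM4 : 4 ≤ M)

include hM4 in
/-- **(B6)** in the shape of `Red1Iface4`. -/
theorem unbranched1 (hb : BaseHyp n e) (hn : n ∣ M * L) : Unbranched1 n e M L := by
  obtain ⟨h, H⟩ := Base1T7.unbranched1 M L hM4 hb hn
  refine ⟨h, fun v hv => ?_⟩
  rw [jF1_eq_jK] at hv
  exact H v hv

include hM4 in
/-- the field `avoids` of `Red1Iface4.CuspExports1`. -/
theorem avoids1 (hb : BaseHyp n e) (hn : n ∣ M * L) (cv : SL(2, ℤ) → Option Kbar)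
    (hcv : CuspExp n e (M * L) cv) :
    ∃ h : TMem1 n e M L, ∀ v : Place Kbar (F1b M L), 0 ≤ v.ord (jF1 M L) →
      ∀ (γ : SL(2, ℤ)) (c : Kbar), cv γ = some c →
        v.ord (tF1 M L h - algebraMap Kbar (F1b M L) c) = 0 := by
  obtain ⟨h, H⟩ := Base1T7.avoids1 M L hM4 hb hn cv hcv
  refine ⟨h, fun v hv => ?_⟩
  rw [jF1_eq_jK] at hv
  exact H v hv

include hM4 in
/-- the field `cuspPlaces` of `Red1Iface4.CuspExports1`. -/
theorem cuspPlaces1 (hb : BaseHyp n e) (hn : n ∣ M * L) (cv : SL(2, ℤ) → Option Kbar)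
    (hcv : CuspExp n e (M * L) cv) :
    ∃ h : TMem1 n e M L, ∀ v : Place Kbar (F1b M L), ∀ (γ : SL(2, ℤ)) (c : Kbar),
      cv γ = some c → 0 < v.ord (tF1 M L h - algebraMap Kbar (F1b M L) c) →
        v.ord (jF1 M L) < 0 := by
  obtain ⟨h, H⟩ := Base1T7.cuspPlaces1 M L hM4 hb hn cv hcv
  refine ⟨h, fun v γ c hγ hpos => ?_⟩
  rw [jF1_eq_jK]
  exact H v γ c hγ hpos

include hM4 in
/-- **[BASE1]**: `Red1Iface4.BaseExports1 n e M L` for `4 ≤ M`, `n ∣ M L`, `(n, e) = (4, 8)` or
`(9, 3)`. -/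
theorem baseExports1 (hb : BaseHyp n e) (hn : n ∣ M * L) : BaseExports1 n e M L := by
  have hM : 2 ≤ M := Base1T7.two_le M hM4
  have hmem : TMem1 n e M L := Base1T7.tMem1 hb hn
  have hdj : Module.finrank Qbar⟮jF1 M L⟯ (F1b M L) =
      Nat.card (SL(2, ℤ) ⧸ pm (Gamma10 M (M * L))) := by
    rw [jF1_eq_jK]
    exact finrank_jK M L hM Qbar
  exact
    { mem := hmem
      jIsGen := by
        rw [jF1_eq_jK]
        exact isGen_jK M L hM Qbar
      isGen := tIsGen1 M L hM hmem
      unbranched := unbranched1 M L hM4 hb hn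
      degree := fun h => (Base1T7.degree1 M L hM hb hn h).trans hdj.symm
      degree_j := hdj }

include hM4 in
/-- level `4`, exponent `8` (odd `ℓ`). -/
theorem baseExports1_four (hn : 4 ∣ M * L) : BaseExports1 4 8 M L :=
  baseExports1 M L hM4 baseHyp_four hn

include hM4 in
/-- level `9`, exponent `3` (`ℓ = 2`). -/
theorem baseExports1_nine (hn : 9 ∣ M * L) : BaseExports1 9 3 M L :=
  baseExports1 M L hM4 baseHyp_nine hn

end Fermat.Agent.M48.Base1Iface7
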