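/-
Programme M48 (target S48), pillar (P1), chapter [DICT] for `Γ₁` (helper4), file G7b:
**exactness at the cusps** for an abstract analytic model `A : AnModel Γ N F₀`.

From surjectivity (`AnSurj4`), the width divisibility (`AnCuspPlace4`) and the fundamental identity
`∑_{v | ∞} -ord_v j = [F : ℂ(j)] = #(SL(2, ℤ) ⧸ ±Γ)`:

* `neg_ord_jF_eq_card_orbit` : `-ord_{cuspPlaceX x} j = #(⟨T⟩ · x)` (ramification index = width);
* `cuspIdx_mul_card_orbit`   : `cuspIdx A g * #(⟨T⟩ · [g]) = N`;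
* `card_cuspPlaces`          : the places over `∞` are counted by the `⟨T⟩`-orbits on `SL(2, ℤ) ⧸ ±Γ`;
* `cuspPlaceX_eq_iff`, `cuspPlace_eq_iff` : two cosets give the same cusp place iff they are in the
  same `⟨T⟩`-orbit;
* `width`, `cuspIdx_mul_width`, `conj_T_zpow_mem_iff`, `cuspIdx_dvd`.

Ports of `ES/KUM/CCuspExact16` and of the width part of `M17/CuspNbhd4`, with `Γ₀(N) → pm Γ` and the
explicit cusp count replaced by the abstract count `X0/PlaceCount.pc_pole_count`.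
-/
import Fermat.Agent.M48.AnSurj4
import Fermat.Agent.X0.PlaceCount
import Fermat.Agent.X0.FFSum

set_option autoImplicit false
set_option linter.unusedSectionVars false
set_option linter.style.haveILetI false

open ModularCurve HahnSeries UpperHalfPlane AlgebraicCurve IntermediateField
open scoped Topology Manifold MatrixGroups
open MulAction Subgroup CongruenceSubgroup

noncomputable section

namespace Fermat.Agent.M48.AnExactCusp4

open Fermat.Agent.X0 Fermat.Agent.ES.KUM Fermat.Agent.X0.SurjPoint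
open Fermat.Agent.M48.DictIface4 Fermat.Agent.M48.AnReal4 Fermat.Agent.M48.AnCuspExp4
open Fermat.Agent.M48.AnCuspPlace4 Fermat.Agent.M48.AnDegree4 Fermat.Agent.M48.AnSurj4

local notation "T" => (ModularGroup.T : SL(2, ℤ))

variable {Γ : Subgroup SL(2, ℤ)} {N : ℕ} {F₀ : IntermediateField ℚ (LaurentSeries ℚ)}
  (A : AnModel Γ N F₀) [NeZero N]

theorem finite_poles_jF : {v : Place ℂ A.F | v.ord A.jF < 0}.Finite :=
  FF.finite_poles (isGen_jF A)

theorem sum_ord_poles_jF :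
    ∑ᶠ (v : Place ℂ A.F) (_ : v.ord A.jF < 0), -v.ord A.jF
      = (Nat.card (SL(2, ℤ) ⧸ pm Γ) : ℤ) := by
  rw [FF.sum_ord_poles (isGen_jF A), finrank_eq A]

/-- The count at the cusps. -/
theorem cusp_count :
    Nat.card {v : Place ℂ A.F // v.ord A.jF < 0}
        = Nat.card (orbitRel.Quotient (zpowers T) (SL(2, ℤ) ⧸ pm Γ)) ∧
      ∀ x : SL(2, ℤ) ⧸ pm Γ,
        -(cuspPlaceX A x).ord A.jF = (Nat.card (orbit (zpowers T) x) : ℤ) := by
  haveI := finite_quotient A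
  exact PlaceCount.pc_pole_count (K := ℂ) A.jF (Nat.card (SL(2, ℤ) ⧸ pm Γ))
    (finite_poles_jF A) (sum_ord_poles_jF A) (X := SL(2, ℤ) ⧸ pm Γ) (G := zpowers T) rfl
    (cuspPlaceX A) (cuspPlaceX_ord_jF_neg A)
    (fun v hv => exists_cuspPlaceX_eq A v hv)
    (fun g a => cuspPlaceX_smul_zpowers_T A g a)
    (cuspPlaceX_neg_ord_jF_le A)

/-- The places of `F` over `∞` are counted by the `⟨T⟩`-orbits on `SL(2, ℤ) ⧸ ±Γ`. -/
theorem card_cuspPlaces :
    Nat.card {v : Place ℂ A.F // v.ord A.jF < 0}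
      = Nat.card (orbitRel.Quotient (zpowers T) (SL(2, ℤ) ⧸ pm Γ)) :=
  (cusp_count A).1

/-- **Ramification index = width.** -/
theorem neg_ord_jF_eq_card_orbit (x : SL(2, ℤ) ⧸ pm Γ) :
    -(cuspPlaceX A x).ord A.jF = (Nat.card (orbit (zpowers T) x) : ℤ) :=
  (cusp_count A).2 x

/-- **The index is `N / width`.** -/
theorem cuspIdx_mul_card_orbit (g : SL(2, ℤ)) :
    cuspIdx A g * Nat.card (orbit (zpowers T)
      (QuotientGroup.mk g : SL(2, ℤ) ⧸ pm Γ)) = N := by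
  have h1 := cuspIdx_mul_ord_jF A g
  have h2 := neg_ord_jF_eq_card_orbit A (QuotientGroup.mk g : SL(2, ℤ) ⧸ pm Γ)
  rw [cuspPlaceX_mk] at h2
  have h3 : ((cuspIdx A g * Nat.card (orbit (zpowers T)
      (QuotientGroup.mk g : SL(2, ℤ) ⧸ pm Γ)) : ℕ) : ℤ) = (N : ℤ) := by
    push_cast
    rw [← h2]
    linarith
  exact_mod_cast h3

/-- The order of `f ∘ g⁻¹` in `q_N` is `(N / width)` times the order at the cusp place. -/
theorem card_orbit_mul_order_cuspEmb (g : SL(2, ℤ)) {f : A.F} (hf : f ≠ 0) :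
    (Nat.card (orbit (zpowers T) (QuotientGroup.mk g : SL(2, ℤ) ⧸ pm Γ)) : ℤ) *
      (cuspEmb A g⁻¹ f).order = N * (cuspPlace A g).ord f := by
  rw [order_cuspEmb A g hf, ← mul_assoc]
  have := cuspIdx_mul_card_orbit A g
  have h' : ((Nat.card (orbit (zpowers T)
      (QuotientGroup.mk g : SL(2, ℤ) ⧸ pm Γ)) : ℤ)) * (cuspIdx A g : ℤ) = N := by
    rw [mul_comm]
    exact_mod_cast this
  rw [h']

/-- The cusp places, on `⟨T⟩`-orbits of cosets. -/
def cuspPlaceOrb (ω : orbitRel.Quotient (zpowers T) (SL(2, ℤ) ⧸ pm Γ)) :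
    {v : Place ℂ A.F // v.ord A.jF < 0} :=
  Quotient.liftOn' ω (fun x => ⟨cuspPlaceX A x, cuspPlaceX_ord_jF_neg A x⟩) (by
    intro a b hab
    change a ∈ orbit (zpowers T) b at hab
    obtain ⟨h, rfl⟩ := hab
    exact Subtype.ext (cuspPlaceX_smul_zpowers_T A h b))

theorem cuspPlaceOrb_mk (x : SL(2, ℤ) ⧸ pm Γ) :
    cuspPlaceOrb A (Quotient.mk'' x) = ⟨cuspPlaceX A x, cuspPlaceX_ord_jF_neg A x⟩ := rfl

theorem cuspPlaceOrb_bijective : Function.Bijective (cuspPlaceOrb A) := by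
  haveI := finite_quotient A
  have hsurj : Function.Surjective (cuspPlaceOrb A) := by
    rintro ⟨v, hv⟩
    obtain ⟨x, hx⟩ := exists_cuspPlaceX_eq A v hv
    exact ⟨Quotient.mk'' x, Subtype.ext hx⟩
  exact hsurj.bijective_of_nat_card_le (le_of_eq (card_cuspPlaces A).symm)

/-- Two cosets give the same cusp place iff they lie in the same `⟨T⟩`-orbit. -/
theorem cuspPlaceX_eq_iff (x y : SL(2, ℤ) ⧸ pm Γ) :
    cuspPlaceX A x = cuspPlaceX A y ↔ x ∈ orbit (zpowers T) y := by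
  constructor
  · intro h
    have h1 : cuspPlaceOrb A (Quotient.mk'' x) = cuspPlaceOrb A (Quotient.mk'' y) := by
      rw [cuspPlaceOrb_mk, cuspPlaceOrb_mk]
      exact Subtype.ext h
    have h2 := (cuspPlaceOrb_bijective A).1 h1
    exact Quotient.exact' h2
  · rintro ⟨h, rfl⟩
    exact cuspPlaceX_smul_zpowers_T A h y

/-- **The cusp places are the cusps of `Γ`**: `cuspPlace g = cuspPlace g'` iff
`g ∈ ⟨T⟩ g' (±Γ)`. -/
theorem cuspPlace_eq_iff (g g' : SL(2, ℤ)) :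
    cuspPlace A g = cuspPlace A g' ↔
      ∃ (k : ℤ) (γ : SL(2, ℤ)), γ ∈ pm Γ ∧ g = T ^ k * g' * γ := by
  rw [← cuspPlaceX_mk A g, ← cuspPlaceX_mk A g', cuspPlaceX_eq_iff]
  constructor
  · rintro ⟨⟨σ, hσ⟩, hσg⟩
    obtain ⟨k, rfl⟩ := mem_zpowers_iff.mp hσ
    have h1 : (QuotientGroup.mk (T ^ k * g') : SL(2, ℤ) ⧸ pm Γ) = QuotientGroup.mk g := hσg
    refine ⟨k, (T ^ k * g')⁻¹ * g, QuotientGroup.eq.mp h1, ?_⟩
    group
  · rintro ⟨k, γ, hγ, rfl⟩
    refine ⟨⟨T ^ k, zpow_mem_zpowers T k⟩, ?_⟩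
    show (T ^ k) • (QuotientGroup.mk g' : SL(2, ℤ) ⧸ pm Γ) = QuotientGroup.mk (T ^ k * g' * γ)
    rw [MulAction.Quotient.smul_mk, smul_eq_mul, QuotientGroup.eq]
    have : (T ^ k * g')⁻¹ * (T ^ k * g' * γ) = γ := by group
    rw [this]
    exact hγ

/-! ### the width of a cusp -/

/-- the width of the cusp attached to `cuspPlace A δ` (coordinate `τ = δ • z`). -/
def width (Γ : Subgroup SL(2, ℤ)) (δ : SL(2, ℤ)) : ℕ :=
  Nat.card (orbit (zpowers T) (QuotientGroup.mk δ : SL(2, ℤ) ⧸ pm Γ))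

theorem cuspIdx_mul_width (δ : SL(2, ℤ)) : cuspIdx A δ * width Γ δ = N :=
  cuspIdx_mul_card_orbit A δ

include A in
theorem width_pos (δ : SL(2, ℤ)) : 0 < width Γ δ := by
  rcases Nat.eq_zero_or_pos (width Γ δ) with h | h
  · have := cuspIdx_mul_width A δ
    rw [h, mul_zero] at this
    exact absurd this.symm (NeZero.ne N)
  · exact h

theorem width_eq_div (δ : SL(2, ℤ)) : width Γ δ = N / cuspIdx A δ := by
  have h := cuspIdx_mul_width A δ
  exact (Nat.div_eq_of_eq_mul_right (cuspIdx_pos A δ) h.symm).symm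

theorem cuspIdx_dvd (δ : SL(2, ℤ)) : cuspIdx A δ ∣ N :=
  ⟨width Γ δ, (cuspIdx_mul_width A δ).symm⟩

include A in
theorem width_dvd (δ : SL(2, ℤ)) : width Γ δ ∣ N :=
  ⟨cuspIdx A δ, by rw [mul_comm]; exact (cuspIdx_mul_width A δ).symm⟩

omit [NeZero N] in
theorem width_eq_minimalPeriod (δ : SL(2, ℤ)) :
    width Γ δ = Function.minimalPeriod (T • ·) (QuotientGroup.mk δ : SL(2, ℤ) ⧸ pm Γ) := by
  unfold width
  exact (Nat.card_congr (MulAction.orbitZPowersEquiv T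
    (QuotientGroup.mk δ : SL(2, ℤ) ⧸ pm Γ))).trans (Nat.card_zmod _)

omit [NeZero N] in
theorem T_zpow_smul_mk_eq_iff (δ : SL(2, ℤ)) (k : ℤ) :
    T ^ k • (QuotientGroup.mk δ : SL(2, ℤ) ⧸ pm Γ) = QuotientGroup.mk δ ↔
      (width Γ δ : ℤ) ∣ k := by
  rw [width_eq_minimalPeriod]
  exact MulAction.zpow_smul_eq_iff_minimalPeriod_dvd

omit [NeZero N] in
/-- **the stabiliser of the cusp in `±Γ`**, in the coordinate `τ = δ • z`. -/
theorem conj_T_zpow_mem_iff_width (δ : SL(2, ℤ)) (k : ℤ) :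
    δ⁻¹ * T ^ k * δ ∈ pm Γ ↔ (width Γ δ : ℤ) ∣ k := by
  rw [← T_zpow_smul_mk_eq_iff, MulAction.Quotient.smul_mk, eq_comm, QuotientGroup.eq,
    smul_eq_mul, mul_assoc]

/-- the same with the width written as `N / cuspIdx`. -/
theorem conj_T_zpow_mem_iff (δ : SL(2, ℤ)) (k : ℤ) :
    δ⁻¹ * T ^ k * δ ∈ pm Γ ↔ ((N / cuspIdx A δ : ℕ) : ℤ) ∣ k := by
  rw [conj_T_zpow_mem_iff_width, width_eq_div A]

end Fermat.Agent.M48.AnExactCusp4
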