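/-
Programme M48, pillar (P1), chapter [RED1], leaf (MF2a) (helper4): **the cusp expansions of an
analytic model are defined over `ℚbar`.**

`A : AnModel Γ N F₀` (helper4's [DICT]), `FQ F₀ = ℚbar · F₀`, `bcG F₀ : FQ F₀ →+* A.F` (helper3's
`DescentG3`), `cuspEmb A γ : A.F →+* ℂ((q_N))` (`AnCuspExp4`: the `q_N`-expansion of `f ∘ γ`).

* `coeff_mem_range_of_isRoot` : a root `y ∈ K((q))` of a nonzero polynomial over `K((q))` which is
  fixed by the coefficientwise action of `Aut(K/k)` has all its coefficients in `k`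
  (`k ⊂ K` algebraically closed; `AutTranscendental10.infinite_orbit`);
* `cuspEmb_bcG_coeff_mem` : all coefficients of `cuspEmb A γ (bcG F₀ f)` lie in `ℚbar`
  (`f` is algebraic over `ℚbar(j)`, and the expansion of `j ∘ γ = j` is rational);
* `T1 A hx hj₀ γ : FQ F₀ →+* ℚbar((q_N))` with `coeffMap ι (T1 γ f) = cuspEmb A γ (bcG F₀ f)`,
  `T1_algebraMap`, `T1_j₀`, `T1_injective`, `order_T1_eq` (order = order of the complex expansion);
* `placeQ A hx hj₀ g : Place ℚbar (FQ F₀)`, the `ℚbar`-place below `cuspPlace A g`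
  (helper3's `PlaceExtG3.cuspPlace_mem_range`), `extPlaceA_placeQ`, **`order_T1`** :
  `(T1 g⁻¹ f).order = cuspIdx A g * (placeQ g).ord f`, `cuspIdx_mul_ord_j₀`,
  `exists_placeQ_of_ord_neg` (every place over `j = ∞` is a `placeQ`), `mem_placeQ_iff`,
  `T1_coeff_eq_zero_of_not_dvd` (`T1 g⁻¹ f` is a series in `q_N ^ cuspIdx g`).
-/
import Mathlib
import Fermat.Agent.M48.PlaceExtG3
import Fermat.Agent.M48.AnExactCusp4
import Fermat.Agent.ES.GAL.AutTranscendental10

set_option autoImplicit false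
set_option linter.unusedSectionVars false
set_option linter.style.longLine false
set_option synthInstance.maxHeartbeats 400000

open AlgebraicCurve ModularCurve UpperHalfPlane HahnSeries Polynomial
open scoped MatrixGroups

noncomputable section

namespace Fermat.Agent.M48.CuspQ4

open Fermat.Agent.X0 Fermat.Agent.M48.DictIface4 Fermat.Agent.M48.AnCuspExp4
  Fermat.Agent.M48.AnCuspPlace4 Fermat.Agent.M48.AnExactCusp4
  Fermat.Agent.M48.DescentG3 Fermat.Agent.M48.PlaceExtG3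
  Fermat.Agent.ES.GAL.AutTranscendental10

attribute [local instance] instAlgebraQbarComplex instTowerQbarComplex

local notation "Qb" => AlgebraicClosure ℚ

/-! ### Generic: roots of polynomials with `k`-rational coefficients -/

section Generic

variable {k K : Type*} [Field k] [Field K] [Algebra k K] [IsAlgClosed k] [IsAlgClosed K]
  [Infinite k]

/-- A root `y ∈ K((q))` of a nonzero polynomial `Q` over `K((q))` fixed by the coefficientwise
action of every `σ ∈ Aut(K/k)` has all its coefficients in `k`. -/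
theorem coeff_mem_range_of_isRoot {Q : (LaurentSeries K)[X]} (hQ : Q ≠ 0)
    (hfix : ∀ σ : K ≃ₐ[k] K, Q.map (coeffMap (σ : K →+* K)) = Q) {y : LaurentSeries K}
    (hy : Q.IsRoot y) (n : ℤ) : y.coeff n ∈ Set.range (algebraMap k K) := by
  classical
  by_contra hc
  have htr : Transcendental k (y.coeff n) := transcendental_of_not_mem_range hc
  have hinf := infinite_orbit (K := k) (Ω := K) htr
  apply hinf
  have hroots : ∀ σ : K ≃ₐ[k] K, coeffMap (σ : K →+* K) y ∈ Q.roots.toFinset := by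
    intro σ
    rw [Multiset.mem_toFinset, mem_roots hQ]
    have h1 : (Q.map (coeffMap (σ : K →+* K))).IsRoot (coeffMap (σ : K →+* K) y) := by
      rw [IsRoot.def, eval_map, eval₂_hom, hy.eq_zero, map_zero]
    rwa [hfix σ] at h1
  refine ((Q.roots.toFinset.finite_toSet).image (fun r : LaurentSeries K => r.coeff n)).subset ?_
  rintro _ ⟨σ, rfl⟩
  refine ⟨coeffMap (σ : K →+* K) y, hroots σ, ?_⟩
  show (coeffMap (σ : K →+* K) y).coeff n = σ • y.coeff n
  rw [coeffMap_coeff]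
  rfl

end Generic

/-! ### The expansions of an analytic model are defined over `ℚbar` -/

section Rational

variable {Γ : Subgroup SL(2, ℤ)} {N : ℕ} [NeZero N] {F₀ : IntermediateField ℚ (LaurentSeries ℚ)}
variable (A : AnModel Γ N F₀) {x : FQ F₀} (hx : FF.IsGen Qb x)
variable {j₀ : FQ F₀} (hj₀ : ((j₀ : FQ F₀) : LaurentSeries Qb) = jqModC Qb) (γ : SL(2, ℤ))

/-- The complex expansion of `f ∘ γ`, `f ∈ ℚbar · F₀`. -/
def iotaC : FQ F₀ →+* LaurentSeries ℂ := (cuspEmb A γ).comp (bcG F₀)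

theorem iotaC_apply (f : FQ F₀) : iotaC A γ f = cuspEmb A γ (bcG F₀ f) := rfl

theorem iotaC_algebraMap (c : Qb) :
    iotaC A γ (algebraMap Qb (FQ F₀) c) = HahnSeries.C (algebraMap Qb ℂ c) := by
  rw [iotaC_apply]
  have h : bcG F₀ (algebraMap Qb (FQ F₀) c) = algebraMap ℂ A.F (algebraMap Qb ℂ c) :=
    Fermat.Agent.J.DESC.LaurentExt24.bc_algebraMap (k := Qb) (K := ℂ) F₀ c
  rw [h, cuspEmb_algebraMap]

include hj₀ in
theorem iotaC_j₀ : iotaC A γ j₀ = qExpand ℂ N (jqModC ℂ) := by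
  rw [iotaC_apply, bcG_j₀ A hj₀, cuspEmb_jF]

/-- The subfield of `ℚbar · F₀` of the elements whose complex expansion at `γ` is fixed by the
coefficientwise action of `Aut(ℂ/ℚbar)`. -/
def fixedField : IntermediateField Qb (FQ F₀) where
  carrier := {f | ∀ σ : ℂ ≃ₐ[Qb] ℂ, coeffMap (σ : ℂ →+* ℂ) (iotaC A γ f) = iotaC A γ f}
  mul_mem' := fun {a b} ha hb σ => by rw [map_mul, map_mul, ha σ, hb σ]
  one_mem' := fun σ => by rw [map_one, map_one]
  add_mem' := fun {a b} ha hb σ => by rw [map_add, map_add, ha σ, hb σ]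
  zero_mem' := fun σ => by rw [map_zero, map_zero]
  algebraMap_mem' := fun c σ => by
    rw [iotaC_algebraMap, HahnSeries.C_apply, coeffMap_single]
    congr 1
    exact σ.commutes c
  inv_mem' := fun a ha σ => by rw [map_inv₀, map_inv₀, ha σ]

theorem mem_fixedField {f : FQ F₀} :
    f ∈ fixedField A γ ↔ ∀ σ : ℂ ≃ₐ[Qb] ℂ, coeffMap (σ : ℂ →+* ℂ) (iotaC A γ f) = iotaC A γ f :=
  Iff.rfl

include hj₀ in
theorem j₀_mem_fixedField : j₀ ∈ fixedField A γ := by
  intro σ
  rw [iotaC_j₀ A hj₀, ModularCurve.coeffMap_qExpand, coeffMap_jqModC]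

include hx hj₀ in
/-- `ℚbar · F₀` is algebraic over the subfield of elements with `Aut(ℂ/ℚbar)`-fixed expansion
(which contains `ℚbar(j)`). -/
theorem isAlgebraic_fixedField (f : FQ F₀) : IsAlgebraic (fixedField A γ) f := by
  have hgen : FF.IsGen Qb j₀ := by
    have htr : Transcendental Qb j₀ := by
      intro halg
      obtain ⟨c, hc⟩ := FF.eq_algebraMap_of_isAlgebraic halg
      have h1 := j₀_sub_ne_zero A hj₀ c
      exact h1 (sub_eq_zero.mpr hc)
    exact hx.of_transcendental htr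
  have : FiniteDimensional (IntermediateField.adjoin Qb {j₀}) (FQ F₀) := hgen.finite
  have hle : IntermediateField.adjoin Qb {j₀} ≤ fixedField A γ := by
    rw [IntermediateField.adjoin_le_iff, Set.singleton_subset_iff]
    exact j₀_mem_fixedField A hj₀ γ
  have halg : IsAlgebraic (IntermediateField.adjoin Qb {j₀}) f :=
    (IsIntegral.of_finite (IntermediateField.adjoin Qb {j₀}) f).isAlgebraic
  obtain ⟨p, hp0, hp⟩ := halg
  refine ⟨p.map (IntermediateField.inclusion hle).toRingHom, ?_, ?_⟩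
  · exact (Polynomial.map_ne_zero_iff (IntermediateField.inclusion hle).toRingHom.injective).mpr hp0
  · rw [aeval_def, eval₂_map]
    exact hp

include hx hj₀ in
/-- **All coefficients of the expansion of `f ∘ γ`, `f ∈ ℚbar · F₀`, lie in `ℚbar`.** -/
theorem cuspEmb_bcG_coeff_mem (f : FQ F₀) (n : ℤ) :
    (cuspEmb A γ (bcG F₀ f)).coeff n ∈ Set.range (algebraMap Qb ℂ) := by
  obtain ⟨p, hp0, hp⟩ := isAlgebraic_fixedField A hx hj₀ γ f
  set φ : ↥(fixedField A γ) →+* LaurentSeries ℂ :=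
    (iotaC A γ).comp (algebraMap ↥(fixedField A γ) (FQ F₀)) with hφ
  have hQ0 : p.map φ ≠ 0 := (Polynomial.map_ne_zero_iff φ.injective).mpr hp0
  have hfix : ∀ σ : ℂ ≃ₐ[Qb] ℂ, (p.map φ).map (coeffMap (σ : ℂ →+* ℂ)) = p.map φ := by
    intro σ
    rw [Polynomial.map_map]
    congr 1
    ext1 s
    exact s.2 σ
  have hroot : (p.map φ).IsRoot (iotaC A γ f) := by
    rw [IsRoot.def, eval_map, hφ, ← Polynomial.hom_eval₂]
    rw [aeval_def] at hp
    rw [hp, map_zero]
  exact coeff_mem_range_of_isRoot (k := Qb) (K := ℂ) hQ0 hfix hroot n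

/-! ### The expansion maps over `ℚbar` -/

open Fermat.Agent.J.DESC.LaurentExt24 in
include hx hj₀ in
theorem exists_T1 (f : FQ F₀) :
    ∃ y : LaurentSeries Qb, coeffMap (algebraMap Qb ℂ) y = cuspEmb A γ (bcG F₀ f) :=
  exists_bcS_eq (k := Qb) (K := ℂ) (cuspEmb_bcG_coeff_mem A hx hj₀ γ f)

/-- The underlying function of `T1`. -/
def T1fun (f : FQ F₀) : LaurentSeries Qb := (exists_T1 A hx hj₀ γ f).choose

theorem coeffMap_T1fun (f : FQ F₀) :
    coeffMap (algebraMap Qb ℂ) (T1fun A hx hj₀ γ f) = cuspEmb A γ (bcG F₀ f) :=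
  (exists_T1 A hx hj₀ γ f).choose_spec

theorem coeffMap_algebraMap_injective :
    Function.Injective (coeffMap (algebraMap Qb ℂ) : LaurentSeries Qb → LaurentSeries ℂ) :=
  Fermat.Agent.J.DESC.LaurentExt24.bcS_injective (k := Qb) (K := ℂ)

/-- **The `q_N`-expansion of `f ∘ γ` over `ℚbar`**, `f ∈ ℚbar · F₀`. -/
def T1 : FQ F₀ →+* LaurentSeries Qb where
  toFun := T1fun A hx hj₀ γ
  map_one' := by
    apply coeffMap_algebraMap_injective
    rw [coeffMap_T1fun, map_one, map_one, map_one]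
  map_mul' a b := by
    apply coeffMap_algebraMap_injective
    rw [coeffMap_T1fun, map_mul, map_mul, map_mul, coeffMap_T1fun, coeffMap_T1fun]
  map_zero' := by
    apply coeffMap_algebraMap_injective
    rw [coeffMap_T1fun, map_zero, map_zero, map_zero]
  map_add' a b := by
    apply coeffMap_algebraMap_injective
    rw [coeffMap_T1fun, map_add, map_add, map_add, coeffMap_T1fun, coeffMap_T1fun]

/-- The complexification of `T1 γ f` is the complex expansion of `f ∘ γ`. -/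
theorem coeffMap_T1 (f : FQ F₀) :
    coeffMap (algebraMap Qb ℂ) (T1 A hx hj₀ γ f) = cuspEmb A γ (bcG F₀ f) :=
  coeffMap_T1fun A hx hj₀ γ f

theorem T1_coeff (f : FQ F₀) (n : ℤ) :
    algebraMap Qb ℂ ((T1 A hx hj₀ γ f).coeff n) = (cuspEmb A γ (bcG F₀ f)).coeff n := by
  rw [← coeffMap_T1 A hx hj₀ γ f, coeffMap_coeff]

/-- `T1` is characterised by its complexification. -/
theorem T1_eq_of_coeffMap_eq {f : FQ F₀} {y : LaurentSeries Qb}
    (h : coeffMap (algebraMap Qb ℂ) y = cuspEmb A γ (bcG F₀ f)) : T1 A hx hj₀ γ f = y :=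
  coeffMap_algebraMap_injective ((coeffMap_T1 A hx hj₀ γ f).trans h.symm)

theorem T1_algebraMap (c : Qb) :
    T1 A hx hj₀ γ (algebraMap Qb (FQ F₀) c) = HahnSeries.C c := by
  apply T1_eq_of_coeffMap_eq
  have h := iotaC_algebraMap A γ c
  rw [iotaC_apply] at h
  rw [h, HahnSeries.C_apply, HahnSeries.C_apply, coeffMap_single]

theorem T1_j₀ : T1 A hx hj₀ γ j₀ = qExpand Qb N (jqModC Qb) := by
  apply T1_eq_of_coeffMap_eq
  have h := iotaC_j₀ A hj₀ γ
  rw [iotaC_apply] at h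
  rw [h, ModularCurve.coeffMap_qExpand, coeffMap_jqModC]

theorem T1_injective : Function.Injective (T1 A hx hj₀ γ) := (T1 A hx hj₀ γ).injective

theorem T1_ne_zero {f : FQ F₀} (hf : f ≠ 0) : T1 A hx hj₀ γ f ≠ 0 :=
  (map_ne_zero_iff _ (T1_injective A hx hj₀ γ)).mpr hf

theorem T1_coeff_eq_zero_iff (f : FQ F₀) (n : ℤ) :
    (T1 A hx hj₀ γ f).coeff n = 0 ↔ (cuspEmb A γ (bcG F₀ f)).coeff n = 0 := by
  rw [← T1_coeff A hx hj₀ γ f n, map_eq_zero_iff _ (algebraMap Qb ℂ).injective]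

omit [NeZero N] in
/-- Coefficientwise maps along field homomorphisms preserve the order. -/
theorem order_coeffMap' {k k' : Type*} [Field k] [Field k'] (φ : k →+* k') (y : LaurentSeries k) :
    (coeffMap φ y).order = y.order := by
  by_cases hy : y = 0
  · rw [hy, map_zero, HahnSeries.order_zero, HahnSeries.order_zero]
  have hinj : Function.Injective (coeffMap φ) := by
    intro a b h
    ext n
    apply φ.injective
    have := congrArg (fun z => z.coeff n) h
    simpa using this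
  have hne : coeffMap φ y ≠ 0 := (map_ne_zero_iff _ hinj).mpr hy
  apply le_antisymm
  · apply HahnSeries.order_le_of_coeff_ne_zero
    rw [coeffMap_coeff]
    exact (map_ne_zero_iff _ φ.injective).mpr (HahnSeries.coeff_order_eq_zero.not.mpr hy)
  · rw [HahnSeries.le_order_iff_forall hne]
    intro n hn
    rw [coeffMap_coeff, HahnSeries.coeff_eq_zero_of_lt_order hn, map_zero]

/-- The order of `T1 γ f` is the order of the complex expansion. -/
theorem order_T1_eq (f : FQ F₀) :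
    (T1 A hx hj₀ γ f).order = (cuspEmb A γ (bcG F₀ f)).order := by
  rw [← coeffMap_T1 A hx hj₀ γ f, order_coeffMap']

/-! ### The cusp places over `ℚbar` -/

/-- **The `ℚbar`-place below the cusp place `cuspPlace A g`** (the cusp `g⁻¹ ∞`). -/
def placeQ (g : SL(2, ℤ)) : Place Qb (FQ F₀) := (cuspPlace_mem_range A hx hj₀ g).choose

theorem extPlaceA_placeQ (g : SL(2, ℤ)) :
    extPlaceA A (placeQ A hx hj₀ g) = cuspPlace A g :=
  (cuspPlace_mem_range A hx hj₀ g).choose_spec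

theorem ord_placeQ (g : SL(2, ℤ)) (f : FQ F₀) :
    (placeQ A hx hj₀ g).ord f = (cuspPlace A g).ord (bcG F₀ f) := by
  rw [← extPlaceA_placeQ A hx hj₀ g, ord_extPlaceA A hx]

/-- **The multiplicity relation over `ℚbar`**: `ord_{q_N} (f ∘ g⁻¹) = cuspIdx g · ord_v f`. -/
theorem order_T1 (g : SL(2, ℤ)) {f : FQ F₀} (hf : f ≠ 0) :
    (T1 A hx hj₀ g⁻¹ f).order = cuspIdx A g * (placeQ A hx hj₀ g).ord f := by
  rw [order_T1_eq, order_cuspEmb A g (bcG_ne_zero F₀ hf), ord_placeQ]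

theorem cuspIdx_mul_ord_j₀ (g : SL(2, ℤ)) :
    (cuspIdx A g : ℤ) * (placeQ A hx hj₀ g).ord j₀ = -(N : ℤ) := by
  rw [ord_placeQ, bcG_j₀ A hj₀, cuspIdx_mul_ord_jF]

theorem ord_j₀_placeQ_neg (g : SL(2, ℤ)) : (placeQ A hx hj₀ g).ord j₀ < 0 := by
  rw [ord_placeQ, bcG_j₀ A hj₀]
  exact cuspPlace_ord_jF_neg A g

/-- Every place of `ℚbar · F₀` over `j = ∞` is a cusp place. -/
theorem exists_placeQ_of_ord_neg (w : Place Qb (FQ F₀)) (hw : w.ord j₀ < 0) :
    ∃ g : SL(2, ℤ), w = placeQ A hx hj₀ g := by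
  obtain ⟨g, hg⟩ := exists_cuspPlace_of_ord_neg A hx hj₀ w hw
  exact ⟨g, extPlaceA_injective A (hg.trans (extPlaceA_placeQ A hx hj₀ g).symm)⟩

theorem mem_placeQ_iff (g : SL(2, ℤ)) {f : FQ F₀} (hf : f ≠ 0) :
    f ∈ (placeQ A hx hj₀ g).toValuationSubring ↔ 0 ≤ (T1 A hx hj₀ g⁻¹ f).order := by
  rw [FF.ffp_mem_iff_ord_nonneg, order_T1 A hx hj₀ g hf]
  have hpos : (0 : ℤ) < cuspIdx A g := by exact_mod_cast cuspIdx_pos A g
  constructor
  · intro h
    exact mul_nonneg hpos.le h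
  · intro h
    by_contra hneg
    rw [not_le] at hneg
    have := mul_neg_of_pos_of_neg hpos hneg
    omega

theorem placeQ_eq_iff (g g' : SL(2, ℤ)) :
    placeQ A hx hj₀ g = placeQ A hx hj₀ g' ↔
      ∃ (k : ℤ) (δ : SL(2, ℤ)), δ ∈ pm Γ ∧ g = ModularGroup.T ^ k * g' * δ := by
  rw [← cuspPlace_eq_iff A g g', ← extPlaceA_placeQ A hx hj₀ g, ← extPlaceA_placeQ A hx hj₀ g']
  exact (extPlaceA_injective A).eq_iff.symm

theorem placeQ_mul_right (g δ : SL(2, ℤ)) (hδ : δ ∈ pm Γ) :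
    placeQ A hx hj₀ (g * δ) = placeQ A hx hj₀ g := by
  apply extPlaceA_injective A
  rw [extPlaceA_placeQ, extPlaceA_placeQ, cuspPlace_mul_right A g δ hδ]

theorem placeQ_T_zpow_mul (g : SL(2, ℤ)) (k : ℤ) :
    placeQ A hx hj₀ (ModularGroup.T ^ k * g) = placeQ A hx hj₀ g := by
  apply extPlaceA_injective A
  rw [extPlaceA_placeQ, extPlaceA_placeQ, cuspPlace_T_zpow_mul]

/-- `T1 g⁻¹ f` is a series in `q_N ^ cuspIdx g` (`cuspIdx g · width = N`). -/
theorem T1_coeff_eq_zero_of_not_dvd (g : SL(2, ℤ)) (f : FQ F₀) (n : ℤ)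
    (hn : ¬ (cuspIdx A g : ℤ) ∣ n) : (T1 A hx hj₀ g⁻¹ f).coeff n = 0 := by
  rw [T1_coeff_eq_zero_iff]
  by_contra hne
  apply hn
  have hw : g⁻¹ * ModularGroup.T ^ (width Γ g) * g⁻¹⁻¹ ∈ pm Γ := by
    rw [inv_inv, ← zpow_natCast, conj_T_zpow_mem_iff_width]
  have h := cuspEmb_width A g⁻¹ (width Γ g) (width_pos A g) (width_dvd A g) hw (bcG F₀ f) n hne
  have hdiv : N / width Γ g = cuspIdx A g :=
    Nat.div_eq_of_eq_mul_left (width_pos A g) (cuspIdx_mul_width A g).symm
  rwa [hdiv] at h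

end Rational

end Fermat.Agent.M48.CuspQ4
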