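/-
M48 (P1), [RED1], (MF2b)+(MF2c) (helper4): **the `ℚbar`-rational cusp expansions of the model of
`Γ₁(M) ∩ Γ₀(M L)`, packaged for [CUSP1]/[PUR1]/[BASE1]**.

* generic (any analytic model `A : AnModel Γ N F₀`): `cuspDatum A hx hj₀ g : CuspExactG2.CuspDatum F₀`
  (helper2's abstract cusp datum: `T := T1 g⁻¹`, `v := placeQ g`, `r := cuspIdx g`),
  `cuspDatum_surj`, `cuspDatum_r_mul_ord_j₀`;
* the instance `T1ML M L hM γ : F1b M L →+* ℚbar((q_N))`, `placeML`, `cuspDatumML`;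
* (MF2c) **restriction to the old field** `Fbar (M L) ⊂ F1b M L`:
  `T1ML_inclOld : T1ML M L hM γ (inclOld M L f) = (X0.cuspData (M * L)).T γ f`, hence
  `cuspShape_T1ML` : the cusp shapes of `t` (old `CuspExp n e (M L) cv`) hold for `T1ML`;
* `cuspShape_four`, `cuspShape_nine` (shapes + separation for `(4, 8)`, `(9, 3)`);
* `horizData` : helper1's `PurHoriz1.HorizData n (jF1 M L) (tF1 M L h) (T1ML M L hM) cv` from the old
  `CuspExp n e (M L) cv` and (B6) `Unbranched1` of [BASE1];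
* (MF2d), bridge: `T1ML_eq_of_isQExp`, `T1ML_jdF1_eq_of_isQExp`, `T1ML_gF1_eq_of_isQExp` (the
  expansion of a generator from ANY `ℚbar`-rational `q_N`-expansion datum of its analytic
  realisation), `coeff_T1ML_jdF1_mem` (coefficients of `T1ML γ j(q^d)` in `ℤ[ζ_N]`), `genCoeff_of`
  (helper2's `CuspExactG2.GenCoeff` from the integrality of the expansions of the `g_{M,a}`).

Imported by no statement.
-/
import Mathlib
import Fermat.Agent.M48.CuspQ4
import Fermat.Agent.M48.CuspExactG2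
import Fermat.Agent.M48.G10Model4
import Fermat.Agent.M48.G10Degree2
import Fermat.Agent.M48.Red1Iface4
import Fermat.Agent.RED.BASE.CuspExpMain11
import Fermat.Agent.M48.PurHoriz1
import Fermat.Agent.RED.CUSP.IntegralCusp16

set_option autoImplicit false
set_option linter.unusedSectionVars false
set_option linter.style.longLine false

open AlgebraicCurve ModularCurve UpperHalfPlane HahnSeries
open scoped MatrixGroups

noncomputable section

namespace Fermat.Agent.M48.CuspML4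

open Fermat.Agent.X0 Fermat.Agent.M48.DictIface4 Fermat.Agent.M48.AnCuspExp4
  Fermat.Agent.M48.AnCuspPlace4 Fermat.Agent.M48.AnExactCusp4
  Fermat.Agent.M48.DescentG3 Fermat.Agent.M48.PlaceExtG3 Fermat.Agent.M48.CuspQ4

attribute [local instance] instAlgebraQbarComplex instTowerQbarComplex

local notation "Qb" => AlgebraicClosure ℚ

/-! ### Generic: helper2's cusp datum of an analytic model -/

section Generic

variable {Γ : Subgroup SL(2, ℤ)} {N : ℕ} [NeZero N] {F₀ : IntermediateField ℚ (LaurentSeries ℚ)}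
variable (A : AnModel Γ N F₀) {x : FQ F₀} (hx : FF.IsGen Qb x)
variable {j₀ : FQ F₀} (hj₀ : ((j₀ : FQ F₀) : LaurentSeries Qb) = jqModC Qb)

/-- **The cusp datum at the cusp `g⁻¹ ∞`** (helper2's `CuspExactG2.CuspDatum`). -/
def cuspDatum (g : SL(2, ℤ)) : CuspExactG2.CuspDatum F₀ where
  T := T1 A hx hj₀ g⁻¹
  v := placeQ A hx hj₀ g
  r := cuspIdx A g
  r_pos := cuspIdx_pos A g
  map_const := T1_algebraMap A hx hj₀ g⁻¹
  coeff_eq_zero := T1_coeff_eq_zero_of_not_dvd A hx hj₀ g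
  order_eq := fun _ hf => order_T1 A hx hj₀ g hf

@[simp] theorem cuspDatum_T (g : SL(2, ℤ)) : (cuspDatum A hx hj₀ g).T = T1 A hx hj₀ g⁻¹ := rfl
@[simp] theorem cuspDatum_v (g : SL(2, ℤ)) : (cuspDatum A hx hj₀ g).v = placeQ A hx hj₀ g := rfl
@[simp] theorem cuspDatum_r (g : SL(2, ℤ)) : (cuspDatum A hx hj₀ g).r = cuspIdx A g := rfl

/-- every place over `j = ∞` is the place of a cusp datum. -/
theorem cuspDatum_surj (w : Place Qb (FQ F₀)) (hw : w.ord j₀ < 0) :
    ∃ g : SL(2, ℤ), (cuspDatum A hx hj₀ g).v = w := by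
  obtain ⟨g, hg⟩ := exists_placeQ_of_ord_neg A hx hj₀ w hw
  exact ⟨g, hg.symm⟩

/-- `r · ord_v j = -N`. -/
theorem cuspDatum_r_mul_ord_j₀ (g : SL(2, ℤ)) :
    ((cuspDatum A hx hj₀ g).r : ℤ) * (cuspDatum A hx hj₀ g).v.ord j₀ = -(N : ℤ) :=
  cuspIdx_mul_ord_j₀ A hx hj₀ g

end Generic

/-! ### The instance at the model of `Γ₁(M) ∩ Γ₀(M L)` -/

section Instance

open Fermat.Agent.M48.Red1Iface4 Fermat.Agent.M48.G10Model4 Fermat.Agent.M48.G10Degree2
open Fermat.Agent.RED.BASE.Interface12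

variable (M L : ℕ) [NeZero M] [NeZero L] (hM : 2 ≤ M)

theorem jF1_eq_jK : jF1 M L = jK M L Qb :=
  Subtype.ext (coeffEmb_jq Qb)

/-- **The `q_N`-expansion at the cusp `γ ∞` of the `ℚbar`-model**, `N = M L`. -/
def T1ML (γ : SL(2, ℤ)) : F1b M L →+* LaurentSeries Qb :=
  T1 (model M L hM) (isGen_jK M L hM Qb) (coe_jK M L Qb) γ

/-- **The cusp place `g⁻¹ ∞` of the `ℚbar`-model.** -/
def placeML (g : SL(2, ℤ)) : Place Qb (F1b M L) :=
  placeQ (model M L hM) (isGen_jK M L hM Qb) (coe_jK M L Qb) g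

/-- **helper2's cusp datum at the cusp `g⁻¹ ∞`.** -/
def cuspDatumML (g : SL(2, ℤ)) : CuspExactG2.CuspDatum (fieldG10 M L) :=
  cuspDatum (model M L hM) (isGen_jK M L hM Qb) (coe_jK M L Qb) g

@[simp] theorem cuspDatumML_T (g : SL(2, ℤ)) : (cuspDatumML M L hM g).T = T1ML M L hM g⁻¹ := rfl
@[simp] theorem cuspDatumML_v (g : SL(2, ℤ)) : (cuspDatumML M L hM g).v = placeML M L hM g := rfl

theorem coeffMap_T1ML (γ : SL(2, ℤ)) (f : F1b M L) :
    coeffMap (algebraMap Qb ℂ) (T1ML M L hM γ f) =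
      cuspEmb (model M L hM) γ (bcG (fieldG10 M L) f) :=
  coeffMap_T1 _ _ _ γ f

theorem T1ML_algebraMap (γ : SL(2, ℤ)) (c : Qb) :
    T1ML M L hM γ (algebraMap Qb (F1b M L) c) = HahnSeries.C c :=
  T1_algebraMap _ _ _ γ c

theorem T1ML_jF1 (γ : SL(2, ℤ)) : T1ML M L hM γ (jF1 M L) = qExpand Qb (M * L) (jqModC Qb) := by
  rw [jF1_eq_jK]
  exact T1_j₀ _ _ _ γ

theorem order_T1ML (g : SL(2, ℤ)) {f : F1b M L} (hf : f ≠ 0) :
    (T1ML M L hM g⁻¹ f).order =
      ((cuspDatumML M L hM g).r : ℤ) * (placeML M L hM g).ord f :=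
  order_T1 _ _ _ g hf

theorem cuspDatumML_r_mul_ord_jF1 (g : SL(2, ℤ)) :
    ((cuspDatumML M L hM g).r : ℤ) * (placeML M L hM g).ord (jF1 M L) = -((M * L : ℕ) : ℤ) := by
  rw [jF1_eq_jK]
  exact cuspIdx_mul_ord_j₀ _ _ _ g

theorem exists_placeML_of_ord_neg (w : Place Qb (F1b M L)) (hw : w.ord (jF1 M L) < 0) :
    ∃ g : SL(2, ℤ), w = placeML M L hM g := by
  rw [jF1_eq_jK] at hw
  exact exists_placeQ_of_ord_neg _ _ _ w hw

theorem ord_jF1_placeML_neg (g : SL(2, ℤ)) : (placeML M L hM g).ord (jF1 M L) < 0 := by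
  rw [jF1_eq_jK]
  exact ord_j₀_placeQ_neg _ _ _ g

/-- helper1's `HorizData.cusp_surj`, literally. -/
theorem cusp_surj_T1ML (v : Place Qb (F1b M L)) (hv : v.ord (jF1 M L) < 0) :
    ∃ (γ : SL(2, ℤ)) (m : ℕ), 0 < m ∧
      ∀ f : F1b M L, f ≠ 0 → (T1ML M L hM γ f).order = (m : ℤ) * v.ord f := by
  obtain ⟨g, rfl⟩ := exists_placeML_of_ord_neg M L hM v hv
  exact ⟨g⁻¹, (cuspDatumML M L hM g).r, (cuspDatumML M L hM g).r_pos,
    fun f hf => order_T1ML M L hM g hf⟩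

end Instance

/-! ### (MF2c): restriction to the old field `Fbar (M L)` -/

section Old

open Fermat.Agent.M48.Red1Iface4 Fermat.Agent.M48.G10Model4 Fermat.Agent.M48.G10Degree2
open Fermat.Agent.RED.BASE.Interface12 Fermat.Agent.X0.Analytic

variable (M L : ℕ) [NeZero M] [NeZero L] (hM : 2 ≤ M)

theorem coeffMap_coeffEmb (x : LaurentSeries ℚ) :
    coeffMap (algebraMap Qb ℂ) (coeffEmb Qb x) = coeffEmb ℂ x := by
  ext k
  rw [coeffMap_coeff, coeffEmb_coeff, coeffEmb_coeff]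
  exact (IsScalarTower.algebraMap_apply ℚ Qb ℂ _).symm

/-- Every element of the old ring `Rsub (M L) = ℚbar[j_d : d ∣ M L]` complexifies into `RG M L`,
with the same analytic realisation. -/
theorem exists_RG_of_Rsub (u : Rsub (M * L)) :
    ∃ y : RG M L, ((y : RG M L) : FG M L) = bcG (fieldG10 M L) (inclOld M L (u : FF (M * L))) ∧
      ((realG M L hM y : HolH) : ℍ → ℂ) = (realizeData (M * L)).Θ u := by
  obtain ⟨x, hx⟩ := u
  induction hx using Algebra.adjoin_induction with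
  | mem y hy =>
      obtain ⟨d, hne, hd, rfl⟩ := hy
      have := hne
      refine ⟨jdRG M L d hd, ?_, ?_⟩
      · apply Subtype.ext
        rw [coe_bcG, coe_inclOld]
        exact (coeffMap_coeffEmb _).symm
      · rw [realG_jdRG]
        exact ((realizeData (M * L)).jd_eq d hd).symm
  | algebraMap c =>
      refine ⟨algebraMap ℂ (RG M L) (algebraMap Qb ℂ c), ?_, ?_⟩
      · have h1 : inclOld M L (algebraMap Kbar (FF (M * L)) c) = algebraMap Qb (F1b M L) c :=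
          (inclOld M L).commutes c
        show algebraMap ℂ (FG M L) (algebraMap Qb ℂ c) = _
        rw [h1]
        exact (Fermat.Agent.J.DESC.LaurentExt24.bc_algebraMap (fieldG10 M L) c).symm
      · rw [realG_algebraMap]
        exact ((realizeData (M * L)).algebraMap_eq c).symm
  | add y z hy hz h₁ h₂ =>
      obtain ⟨y₁, hy₁, hy₁'⟩ := h₁
      obtain ⟨y₂, hy₂, hy₂'⟩ := h₂
      refine ⟨y₁ + y₂, ?_, ?_⟩
      · show (y₁ : FG M L) + (y₂ : FG M L) = _
        rw [hy₁, hy₂, ← map_add, ← map_add]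
      · have h3 : (⟨y + z, Subalgebra.add_mem _ hy hz⟩ : Rsub (M * L)) = ⟨y, hy⟩ + ⟨z, hz⟩ := rfl
        rw [h3, map_add, map_add, ← hy₁', ← hy₂']
        rfl
  | mul y z hy hz h₁ h₂ =>
      obtain ⟨y₁, hy₁, hy₁'⟩ := h₁
      obtain ⟨y₂, hy₂, hy₂'⟩ := h₂
      refine ⟨y₁ * y₂, ?_, ?_⟩
      · show (y₁ : FG M L) * (y₂ : FG M L) = _
        rw [hy₁, hy₂, ← map_mul, ← map_mul]
      · have h3 : (⟨y * z, Subalgebra.mul_mem _ hy hz⟩ : Rsub (M * L)) = ⟨y, hy⟩ * ⟨z, hz⟩ := rfl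
        rw [h3, map_mul, map_mul, ← hy₁', ← hy₂']
        rfl

/-- **(MF2c)** on the old field `Fbar (M L)` of `X₀(M L)` the expansion `T1ML` is the old cusp
expansion `(X0.cuspData (M L)).T`. -/
theorem T1ML_comp_inclOld (γ : SL(2, ℤ)) :
    (T1ML M L hM γ).comp (inclOld M L).toRingHom = (cuspData (M * L)).T γ := by
  apply Fermat.Agent.X0.CuspEquiv.ringHom_ext_Rsub
  intro u
  obtain ⟨m, P, hP, hT⟩ := (cuspData (M * L)).spec γ u
  rw [hT]
  obtain ⟨y, hy, hΘ⟩ := exists_RG_of_Rsub M L hM u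
  show T1ML M L hM γ (inclOld M L (u : FF (M * L))) = _
  apply T1_eq_of_coeffMap_eq
  rw [Fermat.Agent.X0.Analytic.coeffMap_laurentOf, ← hy]
  symm
  apply cuspEmb_eq_of_isQExp (model M L hM) γ y
  have h4 : (((model M L hM).Θ y : HolH) : ℍ → ℂ) = (realizeData (M * L)).Θ u := hΘ
  rw [h4]
  exact hP

theorem T1ML_inclOld (γ : SL(2, ℤ)) (f : FF (M * L)) :
    T1ML M L hM γ (inclOld M L f) = (cuspData (M * L)).T γ f :=
  RingHom.congr_fun (T1ML_comp_inclOld M L hM γ) f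

/-- **(B5) for the new model**: the cusp shapes of `t` at level `M L` hold for the expansions
`T1ML` of `F1b M L`. -/
theorem cuspShape_T1ML {n e : ℕ} [NeZero n] {cv : SL(2, ℤ) → Option Kbar}
    (h : CuspExp n e (M * L) cv) :
    ∃ h1 : TMem1 n e M L, ∀ γ : SL(2, ℤ), CuspShape n (T1ML M L hM γ (tF1 M L h1)) (cv γ) := by
  obtain ⟨hmem, hshape⟩ := h
  refine ⟨tMem1_of_tMem hmem, fun γ => ?_⟩
  rw [← inclOld_tF hmem, T1ML_inclOld]
  exact hshape γ

theorem cuspShape_T1ML' {n e : ℕ} [NeZero n] {cv : SL(2, ℤ) → Option Kbar}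
    (h : CuspExp n e (M * L) cv) (h1 : TMem1 n e M L) (γ : SL(2, ℤ)) :
    CuspShape n (T1ML M L hM γ (tF1 M L h1)) (cv γ) := by
  obtain ⟨h2, hs⟩ := cuspShape_T1ML M L hM h
  exact hs γ

/-- `(n, e) = (4, 8)`: shapes + separation, for `4 ∣ M L`. -/
theorem cuspShape_four (h4 : 4 ∣ M * L) :
    (∃ h1 : TMem1 4 8 M L, ∀ γ : SL(2, ℤ),
      CuspShape 4 (T1ML M L hM γ (tF1 M L h1)) (Fermat.Agent.RED.BASE.CuspExpMain11.cvT 4 8 (M * L) γ)) ∧
      CuspSeparated 4 (Fermat.Agent.RED.BASE.CuspExpMain11.cvT 4 8 (M * L)) := by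
  have h := Fermat.Agent.RED.BASE.CuspExpMain11.cuspExp_four (M * L) h4
    (Fermat.Agent.RED.BASE.Hauptmodul12.tMem Fermat.Agent.RED.BASE.Hauptmodul12.baseHyp_four)
  exact ⟨cuspShape_T1ML M L hM h.1, h.2⟩

/-- `(n, e) = (9, 3)`: shapes + separation, for `9 ∣ M L`. -/
theorem cuspShape_nine (h9 : 9 ∣ M * L) :
    (∃ h1 : TMem1 9 3 M L, ∀ γ : SL(2, ℤ),
      CuspShape 9 (T1ML M L hM γ (tF1 M L h1)) (Fermat.Agent.RED.BASE.CuspExpMain11.cvT 9 3 (M * L) γ)) ∧
      CuspSeparated 9 (Fermat.Agent.RED.BASE.CuspExpMain11.cvT 9 3 (M * L)) := by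
  have h := Fermat.Agent.RED.BASE.CuspExpMain11.cuspExp_nine (M * L) h9
    (Fermat.Agent.RED.BASE.Hauptmodul12.tMem Fermat.Agent.RED.BASE.Hauptmodul12.baseHyp_nine)
  exact ⟨cuspShape_T1ML M L hM h.1, h.2⟩

/-- **helper1's `PurHoriz1.HorizData` for the new model**, given (B6) of [BASE1]. -/
theorem horizData {n e : ℕ} [NeZero n] {cv : SL(2, ℤ) → Option Kbar}
    (hexp : CuspExp n e (M * L) cv) (hunb : Unbranched1 n e M L) (h : TMem1 n e M L) :
    PurHoriz1.HorizData n (jF1 M L) (tF1 M L h) (T1ML M L hM) cv where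
  isGen := by
    rw [jF1_eq_jK]
    exact isGen_jK M L hM Qb
  map_const := fun γ c => T1ML_algebraMap M L hM γ c
  cusp_surj := fun v hv => cusp_surj_T1ML M L hM v hv
  unbranched := by
    obtain ⟨h', hu⟩ := hunb
    exact hu
  shape := fun γ => cuspShape_T1ML' M L hM hexp h γ

end Old

/-! ### (MF2d), bridge: coefficients of the expansions of the generators -/

section Gen

open Fermat.Agent.M48.Red1Iface4 Fermat.Agent.M48.G10Model4 Fermat.Agent.M48.G10Degree2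
open Fermat.Agent.X0.Analytic Fermat.Agent.M48.DescG0

variable (M L : ℕ) [NeZero M] [NeZero L] (hM : 2 ≤ M)

/-- **`T1ML γ f` is computed by ANY `ℚbar`-rational `q_N`-expansion datum** of the analytic
realisation of (a representative in `RG M L` of) `f`. -/
theorem T1ML_eq_of_isQExp (γ : SL(2, ℤ)) {f : F1b M L} (y : RG M L)
    (hy : ((y : RG M L) : FG M L) = bcG (fieldG10 M L) f) {m : ℕ} {P : PowerSeries Qb}
    (h : IsQExp (M * L) (compSL ((realG M L hM y : HolH) : ℍ → ℂ) γ) m (P.map iotaK)) :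
    T1ML M L hM γ f = laurentOf m P := by
  apply T1_eq_of_coeffMap_eq
  rw [Fermat.Agent.X0.Analytic.coeffMap_laurentOf, ← hy]
  exact (cuspEmb_eq_of_isQExp (model M L hM) γ y h).symm

theorem coe_bcG_jdF1 (d : ℕ) [NeZero d] (hd : d ∣ M * L) :
    ((jdRG M L d hd : RG M L) : FG M L) = bcG (fieldG10 M L) (jdF1 M L d hd) := by
  apply Subtype.ext
  rw [coe_bcG]
  exact (coeffMap_coeffEmb _).symm

theorem coe_bcG_gF1 (a : (ZMod M)ˣ) (e : ℕ) [NeZero e] (he : e ∣ L) :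
    ((gaRG M L a e he : RG M L) : FG M L) = bcG (fieldG10 M L) (gF1 M L a e he) := by
  apply Subtype.ext
  rw [coe_bcG]
  exact (coeffMap_coeffEmb _).symm

/-- the expansion of `j(q^d)` from any expansion datum of `j(d γ z)`. -/
theorem T1ML_jdF1_eq_of_isQExp (γ : SL(2, ℤ)) (d : ℕ) [NeZero d] (hd : d ∣ M * L) {m : ℕ}
    {P : PowerSeries Qb} (h : IsQExp (M * L) (compSL (jdFun d) γ) m (P.map iotaK)) :
    T1ML M L hM γ (jdF1 M L d hd) = laurentOf m P := by
  refine T1ML_eq_of_isQExp M L hM γ (jdRG M L d hd) (coe_bcG_jdF1 M L d hd) ?_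
  rw [realG_jdRG]
  exact h

/-- **the expansion of `g_{M,a}(q^e)` from any expansion datum of `g_{M,a}(e γ z)`** (the hook for
helper6's explicit Eisenstein expansions). -/
theorem T1ML_gF1_eq_of_isQExp (γ : SL(2, ℤ)) (a : (ZMod M)ˣ) (e : ℕ) [NeZero e] (he : e ∣ L)
    {m : ℕ} {P : PowerSeries Qb}
    (h : IsQExp (M * L) (compSL (fun z => gFun M (a : ZMod M) (scaleH e z)) γ) m (P.map iotaK)) :
    T1ML M L hM γ (gF1 M L a e he) = laurentOf m P := by
  refine T1ML_eq_of_isQExp M L hM γ (gaRG M L a e he) (coe_bcG_gF1 M L a e he) ?_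
  rw [realG_gaRG]
  exact h

theorem jdF1_eq_inclOld (d : ℕ) [NeZero d] (hd : d ∣ M * L) :
    jdF1 M L d hd = inclOld M L (jdF (M * L) d hd) := rfl

/-- **the coefficients of the expansions of `j(q^d)` lie in `ℤ[ζ_N]`.** -/
theorem coeff_T1ML_jdF1_mem (γ : SL(2, ℤ)) (d : ℕ) [NeZero d] (hd : d ∣ M * L) (n : ℤ) :
    (T1ML M L hM γ (jdF1 M L d hd)).coeff n ∈ Subring.closure {zetaK (M * L)} := by
  rw [jdF1_eq_inclOld, T1ML_inclOld]
  obtain ⟨m, P, -, hT, hP, -, -⟩ :=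
    Fermat.Agent.RED.CUSP.IntegralCusp16.exists_T_jd (M * L) _ (cuspData (M * L)) d hd γ
  rw [hT, coeff_laurentOf]
  split_ifs
  · exact hP _
  · exact Subring.zero_mem _

/-- **helper2's `GenCoeff`** for the generating set `{j(q^d)} ∪ {g_{M,a}(q^e)}` of `fieldG10 M L`,
given the integrality of the expansions of the `g`'s. -/
theorem genCoeff_of (Z : Subring Qb) (hζ : zetaK (M * L) ∈ Z)
    (hg : ∀ (γ : SL(2, ℤ)) (a : (ZMod M)ˣ) (e : ℕ) [NeZero e] (he : e ∣ L) (n : ℤ),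
      (T1ML M L hM γ (gF1 M L a e he)).coeff n ∈ Z) (g : SL(2, ℤ)) :
    CuspExactG2.GenCoeff (cuspDatumML M L hM g) (divisorExpansions (M * L) ∪ gExpansions M L) Z where
  adjoin_eq := rfl
  coeff_mem := by
    intro s hs n
    rw [cuspDatumML_T]
    rcases hs with ⟨d, hne, hd, hsd⟩ | ⟨a, e, hne, he, hse⟩
    · have := hne
      have h1 : CuspExactG2.genB (fieldG10 M L) s = jdF1 M L d hd := by
        apply Subtype.ext
        rw [CuspExactG2.coe_genB, hsd]
        rfl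
      rw [h1]
      exact (Subring.closure_le.mpr (Set.singleton_subset_iff.mpr hζ))
        (coeff_T1ML_jdF1_mem M L hM g⁻¹ d hd n)
    · have := hne
      have h1 : CuspExactG2.genB (fieldG10 M L) s = gF1 M L a e he := by
        apply Subtype.ext
        rw [CuspExactG2.coe_genB, hse]
        rfl
      rw [h1]
      exact hg g⁻¹ a e he n

end Gen

end Fermat.Agent.M48.CuspML4
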