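/-
M48 (P1), [RED1], chapter [CUSP1], end assembly (helper1): **the horizontal bridge at the CUSP closed points and
the deliverables `OverTarget1`, `InfTarget1`** for the `Γ₁(M) ∩ Γ₀(M L)` model — twin of `RED/CUSP/CuspHoriz4` +
`CuspConcrete23` §Main.

Part A (generic in the model, hypotheses `PurHoriz1.HorizData`): `hUNR_cusp_poly`, `hUNR_cusp_inv_poly`,
`hunrCusp_generic`, `hunrCuspInv_generic` (`CuspIface23.HUNRCusp O E π t c`, `… π t⁻¹ 0`).

Part B (concrete): `hH_over1`, `hH_inf1`, and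
* **`overTarget1`** : `Red1Iface4.OverTarget1 n e M L A cv`,
* **`infTarget1`**  : `Red1Iface4.InfTarget1 n e M L A`,
from `IG1 M L` (MF3), `HorizData` (MF1 + MF2), `CuspSeparated n cv` (B4), finiteness of the cusp values, and the
cusp families over all large number fields in the literal wrapper form
`EventuallyT1 … fun K ϖ t => ∀ c ∈ cuspSet A K cv, HasCuspFamily (AK A K) (F1K M L K) t c [F1K : K(t)]` resp.
`… HasCuspFamily (AK A K) (F1K M L K) t⁻¹ 0 [F1K : K(t⁻¹)]` (deliverable of the K-level half of [CUSP1]: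
twins of CuspPackK16 + RankConcrete16 + CuspConcrete23 §Family).

Imported by no statement.
-/
import Mathlib
import Fermat.Agent.RED.CUSP.CuspHoriz4
import Fermat.Agent.M48.PurOff1

set_option autoImplicit false
set_option linter.unusedSectionVars false
set_option linter.unusedVariables false
set_option linter.style.haveILetI false

open ModularCurve IntermediateField AlgebraicCurve
open scoped MatrixGroups
open Polynomial

noncomputable section

namespace Fermat.Agent.M48.CuspHoriz1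

open Fermat.Agent.X0 Fermat.Agent.X0.FF
open Fermat.Agent.RED.BASE.Interface12 Fermat.Agent.RED.BASE.EtaQuot12
open Fermat.Agent.RED.CUSP.CuspIface23 Fermat.Agent.RED.CUSP.PolyToPS16
open Fermat.Agent.RED.PUR
open Fermat.Agent.RED.CUSP.CuspHoriz4 (exists_mul_pow_mem)
open Fermat.Agent.M48.PurHoriz1

/-! ## Part A: generic in the model -/

variable {Fb : Type*} [Field Fb] [Algebra Kbar Fb] {n : ℕ} {jF tF : Fb}
  {T : SL(2, ℤ) → Fb →+* LaurentSeries Kbar} {cv : SL(2, ℤ) → Option Kbar}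

section Abstract

variable {A K F : Type*} [CommRing A] [IsDomain A] [Field K] [CharZero K] [Field F]
  [Algebra A K] [IsFractionRing A K] [Algebra K F] [Algebra A F] [IsScalarTower A K F]
  [Algebra K Kbar] [Algebra A Kbar] [IsScalarTower A K Kbar] [Algebra.IsAlgebraic K Kbar]

/-- `PurHoriz1.hUNR_cusp` for `B := A[X]`, in `aeval t` form. -/
theorem hUNR_cusp_poly (H : HorizData n jF tF T cv)
    (hconst : ∀ c : Kbar, tF ≠ algebraMap Kbar Fb c)
    (hcvA : ∀ γ c, cv γ = some c → ∃ a : A, algebraMap A Kbar a = c)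
    (bc : F →+* Fb)
    (hbc : ∀ a : K, bc (algebraMap K F a) = algebraMap Kbar Fb (algebraMap K Kbar a))
    (t : F) (ht : bc t = tF)
    (hExt : ∀ w : Place K F, ∃ (v : Place Kbar Fb) (d : ℕ), 0 < d ∧
      ∀ f : F, v.ord (bc f) = (d : ℤ) * w.ord f)
    (π : A) (hπ0 : algebraMap A F π ≠ 0)
    (hK : ∀ a : K, ∃ (r : A) (k : ℕ), algebraMap K F a * algebraMap A F π ^ k = algebraMap A F r)
    (P : Ideal A[X]) (a₀ : A)
    (hP : ∀ a : A, (∃ γ, cv γ = some (algebraMap A Kbar a)) → a = a₀ ∨ (X - C a : A[X]) ∉ P) :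
    ∀ O : ValuationSubring F, (∀ z : A[X], aeval t z ∈ O) → IsDiscreteValuationRing O →
      (algebraMap A F π)⁻¹ ∈ O →
      (t - algebraMap A F a₀)⁻¹ ∈ O →
      (∀ r : A[X], r ∉ P → (aeval t r)⁻¹ ∈ O) →
      ∃ g0 : A[X], (aeval t g0)⁻¹ ∉ O ∧ ∀ y ∈ O, y⁻¹ ∉ O → y / aeval t g0 ∈ O := by
  intro O hB hdvr hπ hq hcen
  letI : Algebra A[X] F := (aeval t : A[X] →ₐ[A] F).toRingHom.toAlgebra
  have hX : ∀ p : A[X], algebraMap A[X] F (algebraMap A[X] A[X] p) = aeval t p := fun p => rfl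
  exact PurHoriz1.hUNR_cusp (B := A[X]) H hconst hcvA bc hbc t ht hExt
    hX π hπ0 hK P a₀ hP O (fun z => hB z) hdvr
    (by
      show (aeval t (C π))⁻¹ ∈ O
      rw [aeval_C]; exact hπ)
    (by
      show (aeval t (X - C a₀))⁻¹ ∈ O
      rw [map_sub, aeval_X, aeval_C]; exact hq)
    (fun r hr => hcen r hr)

/-- `PurHoriz1.hUNR_cusp_inv` for `B := A[X]`, in `aeval s` form. -/
theorem hUNR_cusp_inv_poly (H : HorizData n jF tF T cv)
    (hconst : ∀ c : Kbar, tF ≠ algebraMap Kbar Fb c)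
    (hcvA : ∀ γ c, cv γ = some c → ∃ a : A, algebraMap A Kbar a = c)
    (bc : F →+* Fb)
    (hbc : ∀ a : K, bc (algebraMap K F a) = algebraMap Kbar Fb (algebraMap K Kbar a))
    (s : F) (hs : bc s = (tF)⁻¹)
    (hExt : ∀ w : Place K F, ∃ (v : Place Kbar Fb) (d : ℕ), 0 < d ∧
      ∀ f : F, v.ord (bc f) = (d : ℤ) * w.ord f)
    (π : A) (hπ0 : algebraMap A F π ≠ 0)
    (hK : ∀ a : K, ∃ (r : A) (k : ℕ), algebraMap K F a * algebraMap A F π ^ k = algebraMap A F r)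
    (P : Ideal A[X])
    (hP : ∀ a : A, (∃ γ, cv γ = some (algebraMap A Kbar a)) → (C a * X - 1 : A[X]) ∉ P) :
    ∀ O : ValuationSubring F, (∀ z : A[X], aeval s z ∈ O) → IsDiscreteValuationRing O →
      (algebraMap A F π)⁻¹ ∈ O →
      s⁻¹ ∈ O →
      (∀ r : A[X], r ∉ P → (aeval s r)⁻¹ ∈ O) →
      ∃ g0 : A[X], (aeval s g0)⁻¹ ∉ O ∧ ∀ y ∈ O, y⁻¹ ∉ O → y / aeval s g0 ∈ O := by
  intro O hB hdvr hπ hq hcen
  letI : Algebra A[X] F := (aeval s : A[X] →ₐ[A] F).toRingHom.toAlgebra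
  have hX : ∀ p : A[X], algebraMap A[X] F (algebraMap A[X] A[X] p) = aeval s p := fun p => rfl
  exact PurHoriz1.hUNR_cusp_inv (B := A[X]) H hconst hcvA bc hbc s hs hExt
    hX π hπ0 hK P hP O (fun z => hB z) hdvr
    (by
      show (aeval s (C π))⁻¹ ∈ O
      rw [aeval_C]; exact hπ)
    (by
      show (aeval s (X : A[X]))⁻¹ ∈ O
      rw [aeval_X]; exact hq)
    (fun r hr => hcen r hr)

end Abstract

section Generic

/-- **The horizontal bridge at the cusp point `(π, t - c)`, generic `(O, E)`.** -/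
theorem hunrCusp_generic (H : HorizData n jF tF T cv)
    (hconst : ∀ c : Kbar, tF ≠ algebraMap Kbar Fb c)
    {K : Type*} [Field K] [CharZero K] [Algebra K Kbar] [Algebra.IsAlgebraic K Kbar]
    (O : ValuationSubring K) [IsDiscreteValuationRing ↥O]
    (E : IntermediateField K (LaurentSeries K))
    (hcvA : ∀ γ c, cv γ = some c → ∃ a : ↥O, algebraMap K Kbar (a : K) = c)
    (bc : ↥E →+* Fb)
    (hbc : ∀ a : K, bc (algebraMap K ↥E a) = algebraMap Kbar Fb (algebraMap K Kbar a))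
    (t : ↥E) (ht : bc t = tF)
    (hExt : ∀ w : Place K ↥E, ∃ (v : Place Kbar Fb) (d : ℕ), 0 < d ∧
      ∀ f : ↥E, v.ord (bc f) = (d : ℤ) * w.ord f)
    {π : ↥O} (hπ : Irreducible π) (c : ↥O)
    (hsep : ∀ a : ↥O, (∃ γ, cv γ = some (algebraMap K Kbar (a : K))) → a = c ∨ IsUnit (c - a)) :
    HUNRCusp O E π t c := by
  intro O' hint hdvr hπO hq hcen
  letI : Algebra ↥O Kbar := ((algebraMap K Kbar).comp O.subtype).toAlgebra
  haveI : IsScalarTower ↥O K Kbar := IsScalarTower.of_algebraMap_eq fun _ => rfl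
  haveI : IsScalarTower ↥O K ↥E := Fermat.Agent.RED.NumInst4.isScalarTower_OE O E
  have hinjE : Function.Injective (algebraMap ↥O ↥E) := by
    rw [IsScalarTower.algebraMap_eq ↥O K ↥E]
    exact (algebraMap K ↥E).injective.comp Subtype.val_injective
  refine hUNR_cusp_poly H hconst (A := ↥O) (K := K) (F := ↥E)
    (fun γ c' hγ => ?_) bc hbc t ht hExt π ?_ (fun a => ?_) (cuspIdeal π c) c (fun a ha => ?_)
    O' (fun z => ?_) hdvr hπO hq hcen
  · obtain ⟨a, ha⟩ := hcvA γ c' hγ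
    exact ⟨a, ha⟩
  · exact fun h0 => hπ.ne_zero (hinjE (by rw [h0, map_zero]))
  · obtain ⟨r, k, hrk⟩ := exists_mul_pow_mem O hπ a
    refine ⟨r, k, ?_⟩
    rw [IsScalarTower.algebraMap_apply ↥O K ↥E, IsScalarTower.algebraMap_apply ↥O K ↥E,
      ← map_pow, ← map_mul]
    exact congrArg (algebraMap K ↥E) hrk
  · obtain ⟨γ, hγ⟩ := ha
    rcases hsep a ⟨γ, hγ⟩ with hac | hu
    · exact Or.inl hac
    · refine Or.inr fun hmem => ?_
      rw [mem_cuspIdeal_iff, eval_sub, eval_X, eval_C] at hmem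
      obtain ⟨d, hd⟩ := Ideal.mem_span_singleton.mp hmem
      exact hπ.not_isUnit (isUnit_of_dvd_unit ⟨d, hd⟩ hu)
  · apply hint
    have hmem : aeval t z ∈ Algebra.adjoin ↥O {t} := by
      rw [Algebra.adjoin_singleton_eq_range_aeval]
      exact ⟨z, rfl⟩
    exact isIntegral_algebraMap (R := ↥(Algebra.adjoin ↥O {t})) (A := ↥E) (x := ⟨_, hmem⟩)

/-- **The horizontal bridge at the cusp point `(π, t⁻¹)` of the chart `t⁻¹`, generic `(O, E)`.** -/
theorem hunrCuspInv_generic (H : HorizData n jF tF T cv)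
    (hconst : ∀ c : Kbar, tF ≠ algebraMap Kbar Fb c)
    {K : Type*} [Field K] [CharZero K] [Algebra K Kbar] [Algebra.IsAlgebraic K Kbar]
    (O : ValuationSubring K) [IsDiscreteValuationRing ↥O]
    (E : IntermediateField K (LaurentSeries K))
    (hcvA : ∀ γ c, cv γ = some c → ∃ a : ↥O, algebraMap K Kbar (a : K) = c)
    (bc : ↥E →+* Fb)
    (hbc : ∀ a : K, bc (algebraMap K ↥E a) = algebraMap Kbar Fb (algebraMap K Kbar a))
    (t : ↥E) (ht : bc t = tF)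
    (hExt : ∀ w : Place K ↥E, ∃ (v : Place Kbar Fb) (d : ℕ), 0 < d ∧
      ∀ f : ↥E, v.ord (bc f) = (d : ℤ) * w.ord f)
    {π : ↥O} (hπ : Irreducible π) :
    HUNRCusp O E π t⁻¹ 0 := by
  intro O' hint hdvr hπO hq hcen
  letI : Algebra ↥O Kbar := ((algebraMap K Kbar).comp O.subtype).toAlgebra
  haveI : IsScalarTower ↥O K Kbar := IsScalarTower.of_algebraMap_eq fun _ => rfl
  haveI : IsScalarTower ↥O K ↥E := Fermat.Agent.RED.NumInst4.isScalarTower_OE O E
  have hinjE : Function.Injective (algebraMap ↥O ↥E) := by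
    rw [IsScalarTower.algebraMap_eq ↥O K ↥E]
    exact (algebraMap K ↥E).injective.comp Subtype.val_injective
  have hs : bc t⁻¹ = (tF)⁻¹ := by rw [map_inv₀, ht]
  have hq' : (t⁻¹ : ↥E)⁻¹ ∈ O' := by
    have := hq
    rwa [map_zero, sub_zero] at this
  refine hUNR_cusp_inv_poly H hconst (A := ↥O) (K := K) (F := ↥E)
    (fun γ c' hγ => ?_) bc hbc t⁻¹ hs hExt π ?_ (fun a => ?_) (cuspIdeal π 0) (fun a ha hmem => ?_)
    O' (fun z => ?_) hdvr hπO hq' hcen
  · obtain ⟨a, ha⟩ := hcvA γ c' hγ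
    exact ⟨a, ha⟩
  · exact fun h0 => hπ.ne_zero (hinjE (by rw [h0, map_zero]))
  · obtain ⟨r, k, hrk⟩ := exists_mul_pow_mem O hπ a
    refine ⟨r, k, ?_⟩
    rw [IsScalarTower.algebraMap_apply ↥O K ↥E, IsScalarTower.algebraMap_apply ↥O K ↥E,
      ← map_pow, ← map_mul]
    exact congrArg (algebraMap K ↥E) hrk
  · rw [mem_cuspIdeal_iff, eval_sub, eval_mul, eval_X, eval_C, eval_one, mul_zero, zero_sub] at hmem
    obtain ⟨d, hd⟩ := Ideal.mem_span_singleton.mp hmem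
    exact hπ.not_isUnit (isUnit_of_dvd_unit ⟨d, hd⟩ (isUnit_one.neg))
  · apply hint
    have hmem : aeval (t⁻¹ : ↥E) z ∈ Algebra.adjoin ↥O {(t⁻¹ : ↥E)} := by
      rw [Algebra.adjoin_singleton_eq_range_aeval]
      exact ⟨z, rfl⟩
    exact isIntegral_algebraMap (R := ↥(Algebra.adjoin ↥O {(t⁻¹ : ↥E)})) (A := ↥E) (x := ⟨_, hmem⟩)

end Generic

/-! ## Part B: the concrete deliverables -/

section Concrete

open HahnSeries
open Fermat.Agent.RED.Interface4 Fermat.Agent.RED.PUR.GaussGen8 Fermat.Agent.RED.PUR.KtGauss8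
  Fermat.Agent.RED.PUR.G1Package8 Fermat.Agent.RED.ModelIface4 Fermat.Agent.RED.ModelTargets4
  Fermat.Agent.RED.NumInst4 Fermat.Agent.RED.DESC.NumberFieldDVR27
  Fermat.Agent.RED.BASE.Hauptmodul12 Fermat.Agent.RED.BASE Fermat.Agent.RED.DESC
open Fermat.Agent.M48.DictIface4 Fermat.Agent.M48.Red1Iface4 Fermat.Agent.M48.PurGauss1
  Fermat.Agent.M48.PurOff1

variable {n e : ℕ} [NeZero n] {M L : ℕ} [NeZero M] [NeZero L] {A : ValuationSubring Qbar}

/-- the finite cusp values lie in `A_K` for `K` large. -/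
theorem exists_cvA {ℓ : ℕ} (hℓp : ℓ.Prime) (hℓn : ¬ ℓ ∣ n) (hA : A.LiesOverPrime ℓ)
    {Fb : Type*} [Field Fb] [Algebra Kbar Fb] {jF tF : Fb}
    {T : SL(2, ℤ) → Fb →+* LaurentSeries Kbar} {cv : SL(2, ℤ) → Option Kbar}
    (H : HorizData n jF tF T cv) {S : Finset Kbar}
    (hS : ∀ (γ : SL(2, ℤ)) (c : Kbar), cv γ = some c → c ∈ S)
    {K : IntermediateField ℚ Qbar} (hSK : ∀ c ∈ S, c ∈ K) :
    ∀ γ c, cv γ = some c → ∃ a : ↥(AK A K), algebraMap ↥K Kbar (a : ↥K) = c := by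
  have hnA : ((n : Kbar))⁻¹ ∈ A := inv_natCast_mem hℓp hA n hℓn
  intro γ c hγ
  have hcK : c ∈ K := hSK c (hS γ c hγ)
  have hshape := H.shape γ
  rw [hγ] at hshape
  obtain ⟨a, lam, V, -, -, -, -, hcint, -⟩ := hshape
  have hcA : c ∈ A := hcint.mem_of_inv_mem A hnA (NeZero.ne n)
  exact ⟨⟨⟨c, hcK⟩, hcA⟩, rfl⟩

/-- **The horizontal bridge at the cusp points over the finite cusp values, concrete types.** -/
theorem hH_over1 (hM : 2 ≤ M) (hnML : n ∣ M * L) {ℓ : ℕ} [Fact ℓ.Prime]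
    (hℓ : ¬ ℓ ∣ M * L) (hA : A.LiesOverPrime ℓ)
    (hmem : TMem1 n e M L) {T : SL(2, ℤ) → ↥(F1b M L) →+* LaurentSeries Kbar}
    (cv : SL(2, ℤ) → Option Kbar)
    (H : HorizData n (jF1 M L) (tF1 M L hmem) T cv)
    (hconst : ∀ c : Kbar, tF1 M L hmem ≠ algebraMap Kbar ↥(F1b M L) c)
    (hS : ∃ S : Finset Kbar, ∀ (γ : SL(2, ℤ)) (c : Kbar), cv γ = some c → c ∈ S)
    (hsepcv : CuspSeparated n cv) :
    EventuallyT1 n e M L A fun K ϖ t =>
      ∀ c ∈ cuspSet A K cv, HUNRCusp (AK A K) (F1K M L K) ϖ t c := by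
  classical
  have hℓp : ℓ.Prime := Fact.out
  obtain ⟨S, hS⟩ := hS
  obtain ⟨K₀, hK₀, -, hSK⟩ := exists_numberField (⊥ : IntermediateField ℚ Qbar) S
  refine ⟨K₀, hK₀, fun K hKfd hle ϖ hϖ t htq c hc => ?_⟩
  have hdvr : IsDiscreteValuationRing ↥(AK A K) := isDiscreteValuationRing_AK A K hℓp.ne_zero hA
  haveI halg : Algebra.IsAlgebraic ↥K Kbar := PlaceExtend27.isAlgebraic_Qbar_over K
  have hℓn : ¬ ℓ ∣ n := fun hdvd => hℓ (hdvd.trans hnML)
  have hnA : ((n : Kbar))⁻¹ ∈ A := inv_natCast_mem hℓp hA n hℓn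
  have hcvA := exists_cvA (A := A) hℓp hℓn hA H hS (K := K) (fun c hc => hle (hSK c hc))
  obtain ⟨γ₀, hγ₀⟩ := hc
  have hsep : ∀ a : ↥(AK A K), (∃ γ, cv γ = some (algebraMap ↥K Kbar (a : ↥K))) →
      a = c ∨ IsUnit (c - a) := by
    rintro a ⟨γ, hγ⟩
    rcases hsepcv γ₀ γ _ _ hγ₀ hγ with heq | hunit
    · left
      have h1 : ((c : ↥(AK A K)) : ↥K) = ((a : ↥(AK A K)) : ↥K) :=
        (algebraMap ↥K Kbar).injective heq
      exact (Subtype.ext h1).symm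
    · right
      obtain ⟨hx, hxinv⟩ := hunit.inv_mem_of_inv_mem A hnA (NeZero.ne n)
      have hne : (((c - a : ↥(AK A K)) : ↥(AK A K)) : ↥K) ≠ 0 := by
        intro h0
        apply hunit.1
        have h1 : ((c : ↥(AK A K)) : ↥K) - ((a : ↥(AK A K)) : ↥K) = 0 := h0
        rw [← map_sub, h1, map_zero]
      have hmem : ((((c - a : ↥(AK A K)) : ↥(AK A K)) : ↥K))⁻¹ ∈ AK A K := by
        show algebraMap ↥K Qbar ((((c - a : ↥(AK A K)) : ↥(AK A K)) : ↥K))⁻¹ ∈ A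
        rw [map_inv₀]
        have h1 : algebraMap ↥K Qbar (((c - a : ↥(AK A K)) : ↥(AK A K)) : ↥K) =
            algebraMap ↥K Kbar ((c : ↥(AK A K)) : ↥K) - algebraMap ↥K Kbar ((a : ↥(AK A K)) : ↥K) := by
          rw [← map_sub]; rfl
        rw [h1]
        exact hxinv
      exact isUnit_iff_exists_inv.mpr ⟨⟨_, hmem⟩, Subtype.ext (mul_inv_cancel₀ hne)⟩
  exact hunrCusp_generic H hconst (AK A K) (F1K M L K) hcvA
    (bcK1 M L K) (bcK1_algebraMap M L K) t (bcK1_eq_tF1 M L K hmem t htq)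
    (exists_place_above_bcK1 M L K hM) hϖ c hsep

/-- **The horizontal bridge at the cusp points `t⁻¹ = 0`, concrete types.** -/
theorem hH_inf1 (hM : 2 ≤ M) (hnML : n ∣ M * L) {ℓ : ℕ} [Fact ℓ.Prime]
    (hℓ : ¬ ℓ ∣ M * L) (hA : A.LiesOverPrime ℓ)
    (hmem : TMem1 n e M L) {T : SL(2, ℤ) → ↥(F1b M L) →+* LaurentSeries Kbar}
    (cv : SL(2, ℤ) → Option Kbar)
    (H : HorizData n (jF1 M L) (tF1 M L hmem) T cv)
    (hconst : ∀ c : Kbar, tF1 M L hmem ≠ algebraMap Kbar ↥(F1b M L) c)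
    (hS : ∃ S : Finset Kbar, ∀ (γ : SL(2, ℤ)) (c : Kbar), cv γ = some c → c ∈ S) :
    EventuallyT1 n e M L A fun K ϖ t => HUNRCusp (AK A K) (F1K M L K) ϖ t⁻¹ 0 := by
  classical
  have hℓp : ℓ.Prime := Fact.out
  obtain ⟨S, hS⟩ := hS
  obtain ⟨K₀, hK₀, -, hSK⟩ := exists_numberField (⊥ : IntermediateField ℚ Qbar) S
  refine ⟨K₀, hK₀, fun K hKfd hle ϖ hϖ t htq => ?_⟩
  have hdvr : IsDiscreteValuationRing ↥(AK A K) := isDiscreteValuationRing_AK A K hℓp.ne_zero hA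
  haveI halg : Algebra.IsAlgebraic ↥K Kbar := PlaceExtend27.isAlgebraic_Qbar_over K
  have hℓn : ¬ ℓ ∣ n := fun hdvd => hℓ (hdvd.trans hnML)
  have hcvA := exists_cvA (A := A) hℓp hℓn hA H hS (K := K) (fun c hc => hle (hSK c hc))
  exact hunrCuspInv_generic H hconst (AK A K) (F1K M L K) hcvA
    (bcK1 M L K) (bcK1_algebraMap M L K) t (bcK1_eq_tF1 M L K hmem t htq)
    (exists_place_above_bcK1 M L K hM) hϖ

/-- **[CUSP1] at the finite cusp values**: `OverTarget1`, from the cusp families over all large number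
fields. -/
theorem overTarget1 (hb : BaseHyp n e) (hM : 2 ≤ M) (hnML : n ∣ M * L) {ℓ : ℕ} [Fact ℓ.Prime]
    (hℓ : ¬ ℓ ∣ M * L) (hA : A.LiesOverPrime ℓ) (hIG : IG1 M L)
    (hmem : TMem1 n e M L) {T : SL(2, ℤ) → ↥(F1b M L) →+* LaurentSeries Kbar}
    (cv : SL(2, ℤ) → Option Kbar)
    (H : HorizData n (jF1 M L) (tF1 M L hmem) T cv)
    (hconst : ∀ c : Kbar, tF1 M L hmem ≠ algebraMap Kbar ↥(F1b M L) c)
    (hS : ∃ S : Finset Kbar, ∀ (γ : SL(2, ℤ)) (c : Kbar), cv γ = some c → c ∈ S)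
    (hsepcv : CuspSeparated n cv)
    (hfam : EventuallyT1 n e M L A fun K ϖ t => ∀ c ∈ cuspSet A K cv,
      HasCuspFamily (AK A K) (F1K M L K) t c (Module.finrank ↥K⟮t⟯ ↥(F1K M L K))) :
    OverTarget1 n e M L A cv := by
  have hℓp : ℓ.Prime := Fact.out
  haveI : NeZero (M * L) := ⟨Nat.mul_ne_zero (NeZero.ne M) (NeZero.ne L)⟩
  have hB := Main12.baseExports hb (M * L) hnML
  obtain ⟨K₂, hK₂, hJ⟩ := Fermat.Agent.RED.ModelFinal4.jTarget (n := n) (e := e) hB.genBase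
  obtain ⟨K₃, hK₃, hfam⟩ := hfam
  obtain ⟨K₄, hK₄, hH⟩ := hH_over1 (e := e) hM hnML hℓ hA hmem cv H hconst hS hsepcv
  refine ⟨K₂ ⊔ K₃ ⊔ K₄, inferInstance, fun K hKfd hle ϖ hϖ t htq c hc => ?_⟩
  have hle2 : K₂ ≤ K := le_trans (le_trans le_sup_left le_sup_left) hle
  have hle3 : K₃ ≤ K := le_trans (le_trans le_sup_right le_sup_left) hle
  have hle4 : K₄ ≤ K := le_trans le_sup_right hle
  have hdvr : IsDiscreteValuationRing ↥(AK A K) := isDiscreteValuationRing_AK A K hℓp.ne_zero hA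
  have hchar : CharP (Res (AK A K)) ℓ := charP_residueField_AK A K hℓp hA
  have hfinres : Finite (Res (AK A K)) := finite_residueField_AK A K hℓp.ne_zero hA
  have hE : F1K M L K ≤ fracField (AK A K) := laurentBaseChange_le_fracField (AK A K) M L
  have ht : ((t : ↥(F1K M L K)) : LaurentSeries K) ∈ gaussRing (AK A K) := by
    rw [htq]; exact tq_mem_gaussRing (AK A K) n e
  have htr : Transcendental (Res (AK A K))
      (gaussRed (AK A K) ⟨((t : ↥(F1K M L K)) : LaurentSeries K), ht⟩) := by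
    have h1 : (⟨((t : ↥(F1K M L K)) : LaurentSeries K), ht⟩ : gaussRing (AK A K)) =
        ⟨tq K n e, tq_mem_gaussRing (AK A K) n e⟩ := Subtype.ext htq
    rw [h1]
    exact transcendental_gaussRed_tq (AK A K) n e
  have hjt : jqModC K ∈ Kt (AK A K) ⟨((t : ↥(F1K M L K)) : LaurentSeries K), ht⟩ := by
    show jqModC K ∈ IntermediateField.adjoin K {((t : ↥(F1K M L K)) : LaurentSeries K)}
    rw [htq]
    exact hJ K hKfd hle2
  have htE' : ((t : ↥(F1K M L K)) : LaurentSeries K) ∈ F1K M L K := t.2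
  obtain ⟨hn, hdeg, hirr⟩ := degLe_irr_laurentBaseChange (AK A K) hϖ ℓ M L hM hℓ hIG
    ⟨((t : ↥(F1K M L K)) : LaurentSeries K), ht⟩ htE' hjt
  have hfd : FiniteDimensional ↥(IntermediateField.adjoin K {t}) ↥(F1K M L K) :=
    Fermat.Agent.RED.ModelAsm4.finiteDimensional_adjoin t hn
  have htrK : Transcendental K t :=
    Fermat.Agent.RED.ModelAsm4.transcendental_of_coe t
      (transcendental_t (tG := ⟨((t : ↥(F1K M L K)) : LaurentSeries K), ht⟩) hϖ htr)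
  have hord := Fermat.Agent.RED.PUR.TqOrder26.isCoprime_order_gaussRed (AK A K) n e t ht htq (ℓ : ℤ)
  exact smoothOver_of_family hϖ hE t ht htr hdeg hirr ℓ hord htrK c
    (hfam K hKfd hle3 ϖ hϖ t htq c hc) (hH K hKfd hle4 ϖ hϖ t htq c hc)

/-- **[CUSP1] at infinity**: `InfTarget1`, from the cusp family over the poles of `t` over all large
number fields. -/
theorem infTarget1 (hb : BaseHyp n e) (hM : 2 ≤ M) (hnML : n ∣ M * L) {ℓ : ℕ} [Fact ℓ.Prime]
    (hℓ : ¬ ℓ ∣ M * L) (hA : A.LiesOverPrime ℓ) (hIG : IG1 M L)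
    (hmem : TMem1 n e M L) {T : SL(2, ℤ) → ↥(F1b M L) →+* LaurentSeries Kbar}
    (cv : SL(2, ℤ) → Option Kbar)
    (H : HorizData n (jF1 M L) (tF1 M L hmem) T cv)
    (hconst : ∀ c : Kbar, tF1 M L hmem ≠ algebraMap Kbar ↥(F1b M L) c)
    (hS : ∃ S : Finset Kbar, ∀ (γ : SL(2, ℤ)) (c : Kbar), cv γ = some c → c ∈ S)
    (hfam : EventuallyT1 n e M L A fun K ϖ t =>
      HasCuspFamily (AK A K) (F1K M L K) t⁻¹ 0
        (Module.finrank ↥K⟮(t⁻¹ : ↥(F1K M L K))⟯ ↥(F1K M L K))) :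
    InfTarget1 n e M L A := by
  have hℓp : ℓ.Prime := Fact.out
  haveI : NeZero (M * L) := ⟨Nat.mul_ne_zero (NeZero.ne M) (NeZero.ne L)⟩
  have hB := Main12.baseExports hb (M * L) hnML
  obtain ⟨K₂, hK₂, hJ⟩ := Fermat.Agent.RED.ModelFinal4.jTarget (n := n) (e := e) hB.genBase
  obtain ⟨K₃, hK₃, hfam⟩ := hfam
  obtain ⟨K₄, hK₄, hH⟩ := hH_inf1 (e := e) hM hnML hℓ hA hmem cv H hconst hS
  refine ⟨K₂ ⊔ K₃ ⊔ K₄, inferInstance, fun K hKfd hle ϖ hϖ t htq => ?_⟩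
  have hle2 : K₂ ≤ K := le_trans (le_trans le_sup_left le_sup_left) hle
  have hle3 : K₃ ≤ K := le_trans (le_trans le_sup_right le_sup_left) hle
  have hle4 : K₄ ≤ K := le_trans le_sup_right hle
  have hdvr : IsDiscreteValuationRing ↥(AK A K) := isDiscreteValuationRing_AK A K hℓp.ne_zero hA
  have hchar : CharP (Res (AK A K)) ℓ := charP_residueField_AK A K hℓp hA
  have hfinres : Finite (Res (AK A K)) := finite_residueField_AK A K hℓp.ne_zero hA
  have hE : F1K M L K ≤ fracField (AK A K) := laurentBaseChange_le_fracField (AK A K) M L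
  have ht : ((t : ↥(F1K M L K)) : LaurentSeries K) ∈ gaussRing (AK A K) := by
    rw [htq]; exact tq_mem_gaussRing (AK A K) n e
  have htr : Transcendental (Res (AK A K))
      (gaussRed (AK A K) ⟨((t : ↥(F1K M L K)) : LaurentSeries K), ht⟩) := by
    have h1 : (⟨((t : ↥(F1K M L K)) : LaurentSeries K), ht⟩ : gaussRing (AK A K)) =
        ⟨tq K n e, tq_mem_gaussRing (AK A K) n e⟩ := Subtype.ext htq
    rw [h1]
    exact transcendental_gaussRed_tq (AK A K) n e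
  have hjt : jqModC K ∈ Kt (AK A K) ⟨((t : ↥(F1K M L K)) : LaurentSeries K), ht⟩ := by
    show jqModC K ∈ IntermediateField.adjoin K {((t : ↥(F1K M L K)) : LaurentSeries K)}
    rw [htq]
    exact hJ K hKfd hle2
  have htE' : ((t : ↥(F1K M L K)) : LaurentSeries K) ∈ F1K M L K := t.2
  obtain ⟨hn, hdeg, hirr⟩ := degLe_irr_laurentBaseChange (AK A K) hϖ ℓ M L hM hℓ hIG
    ⟨((t : ↥(F1K M L K)) : LaurentSeries K), ht⟩ htE' hjt
  have hfd : FiniteDimensional ↥(IntermediateField.adjoin K {t}) ↥(F1K M L K) :=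
    Fermat.Agent.RED.ModelAsm4.finiteDimensional_adjoin t hn
  have htrK : Transcendental K t :=
    Fermat.Agent.RED.ModelAsm4.transcendental_of_coe t
      (transcendental_t (tG := ⟨((t : ↥(F1K M L K)) : LaurentSeries K), ht⟩) hϖ htr)
  -- the inverse coordinate
  have hcoe : (((t⁻¹ : ↥(F1K M L K)) : ↥(F1K M L K)) : LaurentSeries K) =
      ((t : ↥(F1K M L K)) : LaurentSeries K)⁻¹ := rfl
  have hs : (((t⁻¹ : ↥(F1K M L K)) : ↥(F1K M L K)) : LaurentSeries K) ∈ gaussRing (AK A K) := by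
    rw [hcoe]
    exact Fermat.Agent.RED.PUR.GaussInv8.inv_mem_gaussRing
      (⟨((t : ↥(F1K M L K)) : LaurentSeries K), ht⟩ : gaussRing (AK A K)) htr
  have htrs := Fermat.Agent.RED.PUR.GaussInv8.transcendental_gaussRed
    (⟨((t : ↥(F1K M L K)) : LaurentSeries K), ht⟩ : gaussRing (AK A K))
    (⟨(((t⁻¹ : ↥(F1K M L K)) : ↥(F1K M L K)) : LaurentSeries K), hs⟩ : gaussRing (AK A K)) hcoe htr
  have hdegs := Fermat.Agent.RED.PUR.GaussInv8.degLe_of_inv
    (⟨((t : ↥(F1K M L K)) : LaurentSeries K), ht⟩ : gaussRing (AK A K))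
    (⟨(((t⁻¹ : ↥(F1K M L K)) : ↥(F1K M L K)) : LaurentSeries K), hs⟩ : gaussRing (AK A K)) hcoe
    (F1K M L K) hdeg
  have hirrs := Fermat.Agent.RED.PUR.GaussInv8.irr_of_inv
    (⟨((t : ↥(F1K M L K)) : LaurentSeries K), ht⟩ : gaussRing (AK A K))
    (⟨(((t⁻¹ : ↥(F1K M L K)) : ↥(F1K M L K)) : LaurentSeries K), hs⟩ : gaussRing (AK A K)) hcoe htr
    (F1K M L K) hirr
  have hsq : (((t⁻¹ : ↥(F1K M L K)) : ↥(F1K M L K)) : LaurentSeries K) = (tq K n e)⁻¹ := by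
    rw [hcoe, htq]
  have hords := Fermat.Agent.RED.PUR.TqOrder26.isCoprime_order_gaussRed_inv (AK A K) n e
    (t⁻¹ : ↥(F1K M L K)) hs hsq (ℓ : ℤ)
  have htrKs : Transcendental K (t⁻¹ : ↥(F1K M L K)) := fun hal =>
    htrK (IsAlgebraic.inv_iff.1 hal)
  have hEE : IntermediateField.adjoin K {t} = IntermediateField.adjoin K {(t⁻¹ : ↥(F1K M L K))} :=
    (Fermat.Agent.RED.CUSP.RankConcrete16.adjoin_inv_eq (k := ↥K) t).symm
  have hfds : FiniteDimensional ↥(IntermediateField.adjoin K {(t⁻¹ : ↥(F1K M L K))})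
      ↥(F1K M L K) := hEE ▸ hfd
  exact smoothOver_of_family hϖ hE (t⁻¹ : ↥(F1K M L K)) hs htrs hdegs hirrs ℓ hords htrKs 0
    (hfam K hKfd hle3 ϖ hϖ t htq) (hH K hKfd hle4 ϖ hϖ t htq)

end Concrete

end Fermat.Agent.M48.CuspHoriz1
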