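/-
M48 (lead), chapter [RED1], input (LIFT) of the (Φ3)/TOP layer: **every nonzero element of the
special-fibre field is a ratio of reductions of integral elements.**

* `liftRatio_of_lifts` (generic twin of `RED/TOP/LiftRatio2.exists_lift_ratio`, helper2): if
  `Fk = k(S)` and every `s ∈ S` is the reduction of an `A`-integral series whose generic fibre lies
  in `FB`, then `Phi3Top0.LiftRatio A π FB Fk`;
* `liftRatio_G10` : the instance `FB = FK L M L'` (`= QModel8.fieldG10C L M L'`),
  `Fk = QModel8.fieldG10C k M L'` for every valuation subring `A` of a field `L ⊇ ℚ` and every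
  surjective `π : A →+* k` (generators `j(q^d)`, `g_{M,a}(q^e)` have integer coefficients).

Nothing is left unproved in this file.  Imported by no statement.
-/
import Mathlib
import Fermat.Agent.M48.Phi3Top0
import Fermat.Agent.M48.QModel8

set_option autoImplicit false
set_option linter.unusedSectionVars false

noncomputable section

open HahnSeries IntermediateField ModularCurve

namespace Fermat.Agent.M48.LiftRatioG0

open Fermat.Agent.M48.Phi3Top0

section General

variable {L : Type*} [Field L] (A : ValuationSubring L)
variable {k : Type*} [Field k] (π : A →+* k)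
variable (FB : IntermediateField L (LaurentSeries L)) (Fk : IntermediateField k (LaurentSeries k))

theorem coeffMap_C' {R S : Type*} [CommRing R] [CommRing S] (f : R →+* S) (a : R) :
    coeffMap f (HahnSeries.C a : LaurentSeries R) = HahnSeries.C (f a) := by
  exact coeffMap_single f 0 a

theorem C_eq_algebraMap' {K : Type*} [Field K] (c : K) :
    (HahnSeries.C c : LaurentSeries K) = algebraMap K (LaurentSeries K) c := by
  rw [algebraMap_laurentSeries_eq_single]
  rfl

variable {A π FB Fk}

/-- **(LIFT) from lifts of a generating set.** -/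
theorem liftRatio_of_lifts (hπ : Function.Surjective π) (S : Set (LaurentSeries k))
    (hFk : Fk = IntermediateField.adjoin k S)
    (hS : ∀ s ∈ S, ∃ y : LaurentSeries A, coeffMap A.subtype y ∈ FB ∧ coeffMap π y = s) :
    LiftRatio A π FB Fk := by
  classical
  choose! lift hliftB hliftk using hS
  -- the evaluation `A[X_s] → A((q))`
  let Phi : MvPolynomial S A →+* LaurentSeries A :=
    MvPolynomial.eval₂Hom (HahnSeries.C : A →+* LaurentSeries A) (fun s => lift s)
  have hPhi_red : ∀ R : MvPolynomial S A, coeffMap π (Phi R) =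
      MvPolynomial.aeval (Subtype.val : S → LaurentSeries k) (MvPolynomial.map π R) := by
    intro R
    induction R using MvPolynomial.induction_on with
    | C a =>
      rw [MvPolynomial.coe_eval₂Hom, MvPolynomial.eval₂_C, MvPolynomial.map_C,
        MvPolynomial.aeval_C, coeffMap_C', C_eq_algebraMap']
    | add p q hp hq => rw [map_add, map_add, hp, hq, map_add, map_add]
    | mul_X p s hp =>
      rw [map_mul, map_mul, hp, map_mul, map_mul, MvPolynomial.map_X, MvPolynomial.aeval_X]
      congr 1
      rw [MvPolynomial.coe_eval₂Hom, MvPolynomial.eval₂_X]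
      exact hliftk s s.2
  have hPhi_k : ∀ R : MvPolynomial S A, coeffMap π (Phi R) ∈ Fk := by
    intro R
    rw [hPhi_red, hFk]
    have h : MvPolynomial.aeval (Subtype.val : S → LaurentSeries k) (MvPolynomial.map π R) ∈
        Algebra.adjoin k S := by
      have := Algebra.adjoin_range_eq_range_aeval k (Subtype.val : S → LaurentSeries k)
      rw [Subtype.range_coe] at this
      rw [this]
      exact ⟨_, rfl⟩
    exact IntermediateField.algebra_adjoin_le_adjoin k _ h
  have hPhi_B : ∀ R : MvPolynomial S A, coeffMap A.subtype (Phi R) ∈ FB := by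
    intro R
    induction R using MvPolynomial.induction_on with
    | C a =>
      rw [MvPolynomial.coe_eval₂Hom, MvPolynomial.eval₂_C, coeffMap_C', C_eq_algebraMap']
      exact FB.algebraMap_mem _
    | add p q hp hq => rw [map_add, map_add]; exact add_mem hp hq
    | mul_X p s hp =>
      rw [map_mul, map_mul]
      refine mul_mem hp ?_
      rw [MvPolynomial.coe_eval₂Hom, MvPolynomial.eval₂_X]
      exact hliftB s s.2
  intro g hg hg0
  rw [hFk, IntermediateField.mem_adjoin_iff] at hg
  obtain ⟨r, s, hrs⟩ := hg
  obtain ⟨R, rfl⟩ := MvPolynomial.map_surjective π hπ r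
  obtain ⟨S', rfl⟩ := MvPolynomial.map_surjective π hπ s
  rw [← hPhi_red R, ← hPhi_red S'] at hrs
  refine ⟨Phi R, Phi S', hPhi_B R, hPhi_B S', hPhi_k R, hPhi_k S', ?_, ?_, hrs⟩
  · intro h0
    rw [h0, zero_div] at hrs
    exact hg0 hrs
  · intro h0
    rw [h0, div_zero] at hrs
    exact hg0 hrs

end General

/-! ### The instance for the `Γ₁(M) ∩ Γ₀(M L')` model -/

section G10

open Fermat.Agent.M48.QModel8 Fermat.Agent.M48.J1Defs8

variable {L : Type*} [Field L] [Algebra ℚ L] (A : ValuationSubring L)
variable {k : Type*} [Field k] (π : A →+* k)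

/-- **(LIFT) for the `G10` model.** -/
theorem liftRatio_G10 (hπ : Function.Surjective π) (M L' : ℕ) :
    LiftRatio A π (FK L M L') (fieldG10C k M L') := by
  refine liftRatio_of_lifts hπ (divisorExpansionsC k (M * L') ∪ gExpansionsC k M L') rfl ?_
  rintro s (⟨d, hne, hd, rfl⟩ | ⟨a, e, hne, he, rfl⟩)
  · haveI := hne
    refine ⟨qExpand A d (jqModC A), ?_, ?_⟩
    · rw [coeffMap_qExpand, coeffMap_jqModC, FK_eq]
      exact jqd_mem_fieldG10C L M L' hd
    · rw [coeffMap_qExpand, coeffMap_jqModC]
  · haveI := hne
    refine ⟨qExpand A e (gqR A M (a : ZMod M)), ?_, ?_⟩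
    · rw [coeffMap_qExpand, coeffMap_gqR, FK_eq]
      exact gqe_mem_fieldG10C L M L' a he
    · rw [coeffMap_qExpand, coeffMap_gqR]

end G10

end Fermat.Agent.M48.LiftRatioG0
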