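/-
M48 (lead), chapter [RED1]: **NUM from MODEL and the (Φ3) chain end to end, for an ARBITRARY model
field** `F₀ ≤ ℚ((q))`.

Generic twin of `RED/NumMain4` + `RED/S18OfTargets4` (helper4): the abstract CORE
(`CoreMain24.coreB`), `AlgClosedIn10.algClosedIn` and `NumInst4.clStmt_of_hasModel` are generic in
`(O, Kt, E)` already, so

* `ModelStepG F₀ A` := over every sufficiently large number field `K ⊂ ℚ̄` the field `K·F₀` has a
  two-chart model over the DVR `A ∩ K` whose valuation ring is the Gauss valuation ring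
  (`NumInst4.HasModel (AK A K) (FKg F₀ K)`) - the literal deliverable of the MODEL chapter;
* `numStepG_of_model : ℓ.Prime → A.LiesOverPrime ℓ → ModelStepG F₀ A → NumStepG F₀ ℓ A`;
* `clBarG_of_model` : with a generator of `ℚ̄·F₀` (`X0.FF.IsGen`) and principal divisors,
  `CLBarG F₀ ℓ A` (through `DescG0.descStepGeG`);
* `deg_eq_one_FBg`, `nonempty_place_FBg` : the function-field facts the TOP layer needs, from a
  generator (twin of `FbarFacts20`);
* **`phi3_of_model`** : (Φ3) - `redPic0 r hr hgen` is injective on the prime-to-`ℓ` torsion of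
  `Pic⁰ (ℚ̄·F₀)` - from `ModelStepG F₀ A` + `Phi3Top0.LiftRatio`.

Nothing is left unproved in this file.  Imported by no statement.
-/
import Mathlib
import Fermat.Agent.RED.NumMain4
import Fermat.Agent.M48.DescG0

set_option autoImplicit false
set_option linter.unusedSectionVars false

open HahnSeries AlgebraicCurve ModularCurve

noncomputable section

namespace Fermat.Agent.M48.NumG0

open Fermat.Agent.X0 Fermat.Agent.RED.Interface4 Fermat.Agent.RED.NumInst4
open Fermat.Agent.M48.DescG0 Fermat.Agent.M48.RedSpec8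

variable {F₀ : IntermediateField ℚ (LaurentSeries ℚ)}

/-- `CLNumG` is `NumInst4.CLStmt` for `(K, AK A K, FKg F₀ K)`. -/
theorem clNumG_iff (ℓ : ℕ) (A : ValuationSubring Qbar) (K : IntermediateField ℚ Qbar) :
    CLNumG F₀ ℓ A K ↔ CLStmt (AK A K) (FKg F₀ K) ℓ :=
  Iff.rfl

variable (F₀) in
/-- **The deliverable of MODEL** for the model field `F₀` over the place `A`. -/
def ModelStepG (A : ValuationSubring Qbar) : Prop :=
  ∃ K₀ : IntermediateField ℚ Qbar, FiniteDimensional ℚ K₀ ∧
    ∀ K : IntermediateField ℚ Qbar, FiniteDimensional ℚ K → K₀ ≤ K →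
      HasModel (AK A K) (FKg F₀ K)

/-- **NUM from MODEL.** -/
theorem numStepG_of_model {ℓ : ℕ} (hℓ : ℓ.Prime) {A : ValuationSubring Qbar}
    (hA : A.LiesOverPrime ℓ) (h : ModelStepG F₀ A) : NumStepG F₀ ℓ A := by
  obtain ⟨K₀, hK₀, hK⟩ := h
  refine ⟨K₀, hK₀, fun K hKfd hle => ?_⟩
  exact (clNumG_iff ℓ A K).mpr
    (clStmt_of_hasModel ℓ (Fermat.Agent.RED.NumMain4.coreBAt (AK A K) (FKg F₀ K)) (hK K hKfd hle)
      (Fermat.Agent.RED.PUR.AlgClosedIn10.algClosedIn (FKg F₀ K))
      (exists_inv_of_not_dvd hℓ hA K))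

/-- **The core lemma over `ℚ̄` from MODEL.** -/
theorem clBarG_of_model {x : FBg F₀} (hx : FF.IsGen Qbar x)
    (hdiv : HasPrincipalDivisors Qbar ↥(FBg F₀)) {ℓ : ℕ} (hℓ : ℓ.Prime)
    {A : ValuationSubring Qbar} (hA : A.LiesOverPrime ℓ) (h : ModelStepG F₀ A) :
    CLBarG F₀ ℓ A :=
  clBarG_of_descStepGeG (descStepGeG hx hdiv ℓ A) (numStepG_of_model hℓ hA h)

/-! ### Function-field facts from a generator -/

theorem deg_eq_one_FBg {x : FBg F₀} (hx : FF.IsGen Qbar x) (v : Place Qbar (FBg F₀)) :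
    v.deg = 1 :=
  FF.deg_eq_one hx v

theorem nonempty_place_FBg {x : FBg F₀} (hx : FF.IsGen Qbar x) :
    Nonempty (Place Qbar (FBg F₀)) := by
  by_contra hempty
  rw [not_nonempty_iff] at hempty
  have h := FF.sum_ord_poles hx
  have h0 : (∑ᶠ (v : Place Qbar (FBg F₀)) (_ : v.ord x < 0), -v.ord x) = 0 := by
    apply finsum_eq_zero_of_forall_eq_zero
    intro v
    exact (hempty.false v).elim
  rw [h0] at h
  have := hx.finite
  have hpos : 0 < Module.finrank (IntermediateField.adjoin Qbar {x}) (FBg F₀) :=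
    Module.finrank_pos
  omega

/-! ### (Φ3) end to end -/

/-- **(Φ3) from MODEL**: for the model field `F₀` with a generator of `ℚ̄·F₀` and principal
divisors, a place `A` of `ℚ̄` over `ℓ`, ANY special-fibre field `Fk` with the lifting property, and
ANY place reduction `r`: the reduction map on `Pic⁰` is injective on prime-to-`ℓ` torsion. -/
theorem phi3_of_model {x : FBg F₀} (hx : FF.IsGen Qbar x)
    (hdiv : HasPrincipalDivisors Qbar ↥(FBg F₀)) {ℓ : ℕ} (hℓ : ℓ.Prime)
    {A : ValuationSubring Qbar} (hA : A.LiesOverPrime ℓ) (hmodel : ModelStepG F₀ A)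
    {Fk : IntermediateField (IsLocalRing.ResidueField A)
      (LaurentSeries (IsLocalRing.ResidueField A))}
    (hlift : Phi3Top0.LiftRatio A (IsLocalRing.residue A) (FBg F₀) Fk)
    {r : Place Qbar (FBg F₀) → Place (IsLocalRing.ResidueField A) Fk}
    (hr : IsPlaceRed A (IsLocalRing.residue A) (FBg F₀) Fk r)
    (hgen : PrincipalGenByIntegral A (IsLocalRing.residue A) (FBg F₀) Fk)
    (m : ℕ) (hm : ¬ ℓ ∣ m) (z : Pic0 Qbar (FBg F₀))
    (hmz : m • z = 0) (hz : redPic0 r hr hgen z = 0) : z = 0 :=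
  Phi3Top0.red_injective IsLocalRing.residue_surjective hdiv (deg_eq_one_FBg hx)
    (nonempty_place_FBg hx) hlift
    (clField_of_clBarG (clBarG_of_model hx hdiv hℓ hA hmodel) Fk) hr hgen m hm z hmz hz

end Fermat.Agent.M48.NumG0
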