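/-
M48 (lead), chapter [RED1]: **the sub-contract (Φ3) of `SP1Top8` for the `Γ₁(M)` model, from the
deliverable of the MODEL chapter alone.**

`phi3_G10` : for `2 ≤ M`, `ℓ` prime, `A` a valuation subring of `ℚ̄` over `ℓ`, ANY place reduction
`r : Place ℚ̄ (FK ℚ̄ M L) → Place κ (fieldG10C κ M L)` with `RedSpec8.IsPlaceRed` and
`PrincipalGenByIntegral`: if `NumG0.ModelStepG (fieldG10 M L) A` (two-chart models of `K·fieldG10 M L`
over the DVRs `A ∩ K`, `K` a sufficiently large number field, with the Gauss valuation ring), then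
`redPic0 r hr hgen` is injective on the prime-to-`ℓ` torsion of `Pic⁰ (FK ℚ̄ M L)`.

Plugs helper2's `G10Degree2.isGen_jK`, `hasPrincipalDivisors_FK` and `LiftRatioG0.liftRatio_G10`
into `NumG0.phi3_of_model`.  Nothing is left unproved in this file.  Imported by no statement.
-/
import Mathlib
import Fermat.Agent.M48.NumG0
import Fermat.Agent.M48.LiftRatioG0
import Fermat.Agent.M48.G10Degree2

set_option autoImplicit false
set_option linter.unusedSectionVars false

noncomputable section

open HahnSeries IntermediateField AlgebraicCurve ModularCurve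

namespace Fermat.Agent.M48.Phi3G10_0

open Fermat.Agent.M48.J1Defs8 Fermat.Agent.M48.QModel8 Fermat.Agent.M48.RedSpec8
  Fermat.Agent.M48.DictIface4

local notation "Qbar" => AlgebraicClosure ℚ

/-- **(Φ3) for the `G10` model from MODEL.** -/
theorem phi3_G10 (M L : ℕ) [NeZero M] [NeZero L] (hM : 2 ≤ M) {ℓ : ℕ} (hℓ : ℓ.Prime)
    {A : ValuationSubring Qbar} (hA : A.LiesOverPrime ℓ)
    (hmodel : NumG0.ModelStepG (fieldG10 M L) A)
    {r : Place Qbar (FK Qbar M L) →
      Place (IsLocalRing.ResidueField A) (fieldG10C (IsLocalRing.ResidueField A) M L)}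
    (hr : IsPlaceRed A (IsLocalRing.residue A) (FK Qbar M L)
      (fieldG10C (IsLocalRing.ResidueField A) M L) r)
    (hgen : PrincipalGenByIntegral A (IsLocalRing.residue A) (FK Qbar M L)
      (fieldG10C (IsLocalRing.ResidueField A) M L))
    (m : ℕ) (hm : ¬ ℓ ∣ m) (z : Pic0 Qbar (FK Qbar M L))
    (hmz : m • z = 0) (hz : redPic0 r hr hgen z = 0) : z = 0 :=
  NumG0.phi3_of_model (F₀ := fieldG10 M L) (G10Degree2.isGen_jK M L hM Qbar)
    (G10Degree2.hasPrincipalDivisors_FK M L hM Qbar) hℓ hA hmodel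
    (LiftRatioG0.liftRatio_G10 A (IsLocalRing.residue A) IsLocalRing.residue_surjective M L)
    hr hgen m hm z hmz hz

end Fermat.Agent.M48.Phi3G10_0
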