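/-
M48 (lead), chapter [RED1]: **the DESC, NUM and (Φ3)/TOP steps in the literal interfaces of
helper4's `Red1Iface4`.**

`Red1Iface4.F1b M L`, `F1K M L K`, `CLBar1`, `CLNum1`, `NumStep1`, `DescStepGe1`, `ModelStep1` are
(by `rfl` / `Iff.rfl`) the instances at `F₀ = fieldG10 M L` of `DescG0.FBg`, `FKg`, `CLBarG`, `CLNumG`,
`NumStepG`, `DescStepGeG`, `NumG0.ModelStepG`; hence, for `2 ≤ M`:

* `descStepGe1 : DescStepGe1 ℓ M L A`                         (chapter DESC, done);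
* `numStep1_of_modelStep1 : ModelStep1 M L A → NumStep1 ℓ M L A` (CORE is generic, done);
* `clBar1_of_modelStep1 : ModelStep1 M L A → CLBar1 ℓ M L A`;
* `phi3_of_modelStep1` : (Φ3) of `SP1Top8` for any place reduction `r`, from `ModelStep1 M L A`.

Nothing is left unproved in this file.  Imported by no statement.
-/
import Mathlib
import Fermat.Agent.M48.Red1Iface4
import Fermat.Agent.M48.Phi3G10_0

set_option autoImplicit false
set_option linter.unusedSectionVars false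

noncomputable section

open HahnSeries IntermediateField AlgebraicCurve ModularCurve

namespace Fermat.Agent.M48.Red1Adapt0

open Fermat.Agent.M48.Red1Iface4 Fermat.Agent.M48.DictIface4 Fermat.Agent.M48.QModel8
  Fermat.Agent.M48.RedSpec8 Fermat.Agent.RED.Interface4

/-! ### The interfaces agree -/

theorem clBar1_iff (ℓ M L : ℕ) (A : ValuationSubring Qbar) :
    CLBar1 ℓ M L A ↔ DescG0.CLBarG (fieldG10 M L) ℓ A := Iff.rfl

theorem clNum1_iff (ℓ M L : ℕ) (A : ValuationSubring Qbar) (K : IntermediateField ℚ Qbar) :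
    CLNum1 ℓ M L A K ↔ DescG0.CLNumG (fieldG10 M L) ℓ A K := Iff.rfl

theorem numStep1_iff (ℓ M L : ℕ) (A : ValuationSubring Qbar) :
    NumStep1 ℓ M L A ↔ DescG0.NumStepG (fieldG10 M L) ℓ A := Iff.rfl

theorem descStepGe1_iff (ℓ M L : ℕ) (A : ValuationSubring Qbar) :
    DescStepGe1 ℓ M L A ↔ DescG0.DescStepGeG (fieldG10 M L) ℓ A := Iff.rfl

theorem modelStep1_iff (M L : ℕ) (A : ValuationSubring Qbar) :
    ModelStep1 M L A ↔ NumG0.ModelStepG (fieldG10 M L) A := Iff.rfl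

/-! ### The steps -/

variable (M L : ℕ) [NeZero M] [NeZero L]

/-- **Chapter DESC for the pair `(M, L)`.** -/
theorem descStepGe1 (hM : 2 ≤ M) (ℓ : ℕ) (A : ValuationSubring Qbar) : DescStepGe1 ℓ M L A :=
  DescG0.descStepGeG (F₀ := fieldG10 M L) (G10Degree2.isGen_jK M L hM Qbar)
    (G10Degree2.hasPrincipalDivisors_FK M L hM Qbar) ℓ A

/-- **NUM from MODEL for the pair `(M, L)`.** -/
theorem numStep1_of_modelStep1 {ℓ : ℕ} (hℓ : ℓ.Prime) {A : ValuationSubring Qbar}
    (hA : A.LiesOverPrime ℓ) (h : ModelStep1 M L A) : NumStep1 ℓ M L A :=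
  NumG0.numStepG_of_model (F₀ := fieldG10 M L) hℓ hA h

/-- **The core lemma over `ℚ̄` from MODEL for the pair `(M, L)`.** -/
theorem clBar1_of_modelStep1 (hM : 2 ≤ M) {ℓ : ℕ} (hℓ : ℓ.Prime) {A : ValuationSubring Qbar}
    (hA : A.LiesOverPrime ℓ) (h : ModelStep1 M L A) : CLBar1 ℓ M L A :=
  clBar1_of_descStepGe1 (descStepGe1 M L hM ℓ A) (numStep1_of_modelStep1 M L hℓ hA h)

/-- **(Φ3) from MODEL for the pair `(M, L)`.** -/
theorem phi3_of_modelStep1 (hM : 2 ≤ M) {ℓ : ℕ} (hℓ : ℓ.Prime)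
    {A : ValuationSubring Qbar} (hA : A.LiesOverPrime ℓ) (hmodel : ModelStep1 M L A)
    {r : Place Qbar (F1b M L) →
      Place (IsLocalRing.ResidueField A) (fieldG10C (IsLocalRing.ResidueField A) M L)}
    (hr : IsPlaceRed A (IsLocalRing.residue A) (F1b M L)
      (fieldG10C (IsLocalRing.ResidueField A) M L) r)
    (hgen : PrincipalGenByIntegral A (IsLocalRing.residue A) (F1b M L)
      (fieldG10C (IsLocalRing.ResidueField A) M L))
    (m : ℕ) (hm : ¬ ℓ ∣ m) (z : Pic0 Qbar (F1b M L))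
    (hmz : m • z = 0) (hz : redPic0 r hr hgen z = 0) : z = 0 :=
  Phi3G10_0.phi3_G10 M L hM hℓ hA hmodel hr hgen m hm z hmz hz

end Fermat.Agent.M48.Red1Adapt0
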