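/-
M48 (lead), chapter [RED1]: **MODEL for the pair `(M, L)` from the three smoothness targets and the
Igusa input.**

Twin of `RED/ModelMain4.modelStep_of_targets` + `RED/ModelFinal4.modelStep_of_smooth` (helper4) for
the field `F1K M L K = K · fieldG10 M L`:

* the Hauptmodul `t = tq K n e` of `X₀(n)`, `(n, e) = (4, 8)` or `(9, 3)`, `n ∣ M L`, lies in the old
  field of level `M L`, hence in the new one (`RedTargets1.tTarget1`, helper1); `j ∈ K(t)` is the
  old `ModelFinal4.jTarget`;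
* `F1K M L K ⊂ Frac (A ∩ K)((q))` and (DEG) + (IRR) of `G1Package8` are helper1's
  `PurGauss1.laurentBaseChange_le_fracField` and `PurGauss1.degLe_irr_laurentBaseChange` (the latter
  from the Igusa input `PurGauss1.IG1 M L` = [IG1], helper6);
* the generic `ModelIface4.hasModel_of_split` assembles `NumInst4.HasModel (AK A K) (F1K M L K)`.

`modelStep1_of_targets : IG1 M L → OffTarget1 → OverTarget1 → InfTarget1 → ModelStep1 M L A`, and with
`Red1Adapt0`: `clBar1_of_targets`, `phi3_of_targets`.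

Nothing is left unproved in this file.  Imported by no statement.
-/
import Mathlib
import Fermat.Agent.M48.Red1Adapt0
import Fermat.Agent.M48.PurGauss1
import Fermat.Agent.M48.RedTargets1
import Fermat.Agent.RED.ModelFinal4

set_option autoImplicit false
set_option linter.unusedSectionVars false
set_option synthInstance.maxHeartbeats 400000

open HahnSeries ModularCurve IntermediateField AlgebraicCurve
open scoped MatrixGroups

noncomputable section

namespace Fermat.Agent.M48.ModelStep0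

open Fermat.Agent.M48.Red1Iface4 Fermat.Agent.M48.DictIface4 Fermat.Agent.M48.QModel8
  Fermat.Agent.M48.RedSpec8
open Fermat.Agent.RED.Interface4 Fermat.Agent.RED.PUR.GaussGen8 Fermat.Agent.RED.PUR.KtGauss8
  Fermat.Agent.RED.PUR.G1Package8 Fermat.Agent.RED.ModelIface4 Fermat.Agent.RED.ModelTargets4
  Fermat.Agent.RED.BASE.EtaQuot12 Fermat.Agent.RED.BASE.Interface12 Fermat.Agent.X0
  Fermat.Agent.RED.NumInst4 Fermat.Agent.RED.DESC.NumberFieldDVR27

variable {n e M L : ℕ} [NeZero n] [NeZero M] [NeZero L] {A : ValuationSubring Qbar}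

/-- **MODEL from the smoothness targets** for the pair `(M, L)`. -/
theorem modelStep1_of_targets (hM : 2 ≤ M) {ℓ : ℕ} [Fact ℓ.Prime] (hℓ : ¬ ℓ ∣ M * L)
    (hA : A.LiesOverPrime ℓ) (hIG : PurGauss1.IG1 M L)
    (hT : RedTargets1.TTarget1 n e M L) (hJ : JTarget n e)
    (cv : SL(2, ℤ) → Option Kbar)
    (hoff : OffTarget1 n e M L A cv) (hover : OverTarget1 n e M L A cv)
    (hinf : InfTarget1 n e M L A) : ModelStep1 M L A := by
  have hℓp : ℓ.Prime := Fact.out
  obtain ⟨K₁, hK₁, hT⟩ := hT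
  obtain ⟨K₂, hK₂, hJ⟩ := hJ
  obtain ⟨K₃, hK₃, hoff⟩ := hoff
  obtain ⟨K₄, hK₄, hover⟩ := hover
  obtain ⟨K₅, hK₅, hinf⟩ := hinf
  refine ⟨K₁ ⊔ K₂ ⊔ K₃ ⊔ K₄ ⊔ K₅, inferInstance, fun K hKfd hle => ?_⟩
  have hle1 : K₁ ≤ K := le_trans (le_trans (le_trans (le_trans le_sup_left le_sup_left)
    le_sup_left) le_sup_left) hle
  have hle2 : K₂ ≤ K := le_trans (le_trans (le_trans (le_trans le_sup_right le_sup_left)
    le_sup_left) le_sup_left) hle
  have hle3 : K₃ ≤ K := le_trans (le_trans (le_trans le_sup_right le_sup_left) le_sup_left) hle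
  have hle4 : K₄ ≤ K := le_trans (le_trans le_sup_right le_sup_left) hle
  have hle5 : K₅ ≤ K := le_trans le_sup_right hle
  have hdvr : IsDiscreteValuationRing ↥(AK A K) := isDiscreteValuationRing_AK A K hℓp.ne_zero hA
  obtain ⟨ϖ, hϖ⟩ := IsDiscreteValuationRing.exists_irreducible ↥(AK A K)
  have hchar : CharP (Res (AK A K)) ℓ := charP_residueField_AK A K hℓp hA
  have hfin : Finite (↥(AK A K) ⧸ (Ideal.span {ϖ} : Ideal ↥(AK A K))) := by
    have h1 : Finite (IsLocalRing.ResidueField ↥(AK A K)) :=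
      finite_residueField_AK A K hℓp.ne_zero hA
    rw [← hϖ.maximalIdeal_eq]
    exact h1
  have hE : F1K M L K ≤ fracField (AK A K) :=
    PurGauss1.laurentBaseChange_le_fracField (AK A K) M L
  have htE : tq K n e ∈ F1K M L K := hT K hKfd hle1
  let t : ↥(F1K M L K) := ⟨tq K n e, htE⟩
  have ht : ((t : ↥(F1K M L K)) : LaurentSeries K) ∈ gaussRing (AK A K) :=
    tq_mem_gaussRing (AK A K) n e
  have htr : Transcendental (Res (AK A K))
      (gaussRed (AK A K) ⟨((t : ↥(F1K M L K)) : LaurentSeries K), ht⟩) :=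
    transcendental_gaussRed_tq (AK A K) n e
  have hjt : jqModC K ∈ Kt (AK A K) ⟨((t : ↥(F1K M L K)) : LaurentSeries K), ht⟩ :=
    hJ K hKfd hle2
  obtain ⟨hn, hdeg, hirr⟩ := PurGauss1.degLe_irr_laurentBaseChange (AK A K) hϖ ℓ M L hM hℓ hIG
    ⟨((t : ↥(F1K M L K)) : LaurentSeries K), ht⟩ htE hjt
  exact hasModel_of_split hϖ hE t ht htr hn hdeg hirr (cuspSet A K cv)
    (hoff K hKfd hle3 ϖ hϖ t rfl) (hover K hKfd hle4 ϖ hϖ t rfl) (hinf K hKfd hle5 ϖ hϖ t rfl)

/-- **MODEL from (LOC)**, with the BASE inputs of the old chain at the level `M L`. -/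
theorem modelStep1_of_smooth (hM : 2 ≤ M) [NeZero (M * L)] (hmem : TMem n e (M * L))
    (hgen : TGenBase n e) {ℓ : ℕ} [Fact ℓ.Prime] (hℓ : ¬ ℓ ∣ M * L)
    (hA : A.LiesOverPrime ℓ) (hIG : PurGauss1.IG1 M L)
    (h : SmoothTargets1 n e M L A) : ModelStep1 M L A := by
  obtain ⟨cv, hoff, hover, hinf⟩ := h
  exact modelStep1_of_targets hM hℓ hA hIG (RedTargets1.tTarget1 M L hmem)
    (Fermat.Agent.RED.ModelFinal4.jTarget hgen) cv hoff hover hinf

/-- **The core lemma over `ℚ̄` from (LOC).** -/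
theorem clBar1_of_smooth (hM : 2 ≤ M) [NeZero (M * L)] (hmem : TMem n e (M * L))
    (hgen : TGenBase n e) {ℓ : ℕ} [Fact ℓ.Prime] (hℓ : ¬ ℓ ∣ M * L)
    (hA : A.LiesOverPrime ℓ) (hIG : PurGauss1.IG1 M L)
    (h : SmoothTargets1 n e M L A) : CLBar1 ℓ M L A :=
  Red1Adapt0.clBar1_of_modelStep1 M L hM Fact.out hA
    (modelStep1_of_smooth hM hmem hgen hℓ hA hIG h)

/-- **(Φ3) from (LOC)**: the sub-contract (Φ3) of `SP1Top8` from the three smoothness targets, the
Igusa input and the old BASE facts about the Hauptmodul. -/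
theorem phi3_of_smooth (hM : 2 ≤ M) [NeZero (M * L)] (hmem : TMem n e (M * L))
    (hgen : TGenBase n e) {ℓ : ℕ} [Fact ℓ.Prime] (hℓ : ¬ ℓ ∣ M * L)
    (hA : A.LiesOverPrime ℓ) (hIG : PurGauss1.IG1 M L)
    (h : SmoothTargets1 n e M L A)
    {r : Place Qbar (F1b M L) →
      Place (IsLocalRing.ResidueField A) (fieldG10C (IsLocalRing.ResidueField A) M L)}
    (hr : IsPlaceRed A (IsLocalRing.residue A) (F1b M L)
      (fieldG10C (IsLocalRing.ResidueField A) M L) r)
    (hgenI : PrincipalGenByIntegral A (IsLocalRing.residue A) (F1b M L)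
      (fieldG10C (IsLocalRing.ResidueField A) M L))
    (m : ℕ) (hm : ¬ ℓ ∣ m) (z : Pic0 Qbar (F1b M L))
    (hmz : m • z = 0) (hz : redPic0 r hr hgenI z = 0) : z = 0 :=
  Red1Adapt0.phi3_of_modelStep1 M L hM Fact.out hA
    (modelStep1_of_smooth hM hmem hgen hℓ hA hIG h) hr hgenI m hm z hmz hz

end Fermat.Agent.M48.ModelStep0
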