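/-
M48 (P1), [RED1] (helper1): **assembly of the three smoothness targets** `Red1Iface4.SmoothTargets1 n e M L A`
from the exports of the other chapters, in their literal `Red1Iface4` shapes:

* `horizData_of_exports` : `PurHoriz1.HorizData n (jF1 M L) (tF1 M L hmem) T cv` from `BaseExports1` ((B6), `j`
  generates), the cusp shapes (B5) and the three facts (MF2) about the cusp expansions `T γ`
  (`map_const`, every place over `j = ∞` is a cusp place);
* `smoothTargets1_of_horiz` : `SmoothTargets1` from `IG1 M L`, `BaseExports1`, the cusp data (general `T`),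
  `CuspSeparated`, `cuspPlaces`, and the two cusp-family statements of the K-level half of [CUSP1];
* `smoothTargets1_of_exports` : the same for `T = C.T`, `C : CuspData1 D`, with `CuspExports1 n e C cv`;
* `modelStep1_of_exports`, `clBar1_of_exports` : plugged into lead's `ModelStep0`.

Imported by no statement.
-/
import Mathlib
import Fermat.Agent.M48.CuspHoriz1
import Fermat.Agent.M48.ModelStep0

set_option autoImplicit false
set_option linter.unusedSectionVars false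
set_option linter.unusedVariables false

open HahnSeries ModularCurve IntermediateField AlgebraicCurve
open scoped MatrixGroups

noncomputable section

namespace Fermat.Agent.M48.SmoothAsm1

open Fermat.Agent.X0 Fermat.Agent.RED.Interface4 Fermat.Agent.RED.ModelTargets4
  Fermat.Agent.RED.BASE.Interface12 Fermat.Agent.RED.BASE.Hauptmodul12 Fermat.Agent.RED.BASE
  Fermat.Agent.RED.CUSP.CuspIface23
open Fermat.Agent.M48.DictIface4 Fermat.Agent.M48.Red1Iface4 Fermat.Agent.M48.PurHoriz1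
  Fermat.Agent.M48.PurGauss1

variable {n e : ℕ} [NeZero n] {M L : ℕ} [NeZero M] [NeZero L] {A : ValuationSubring Qbar}

/-- `t` is not a constant, from (B3'). -/
theorem tF1_ne_const (hB : BaseExports1 n e M L) (hmem : TMem1 n e M L) (c : Kbar) :
    tF1 M L hmem ≠ algebraMap Kbar ↥(F1b M L) c := by
  obtain ⟨h, hgen⟩ := hB.isGen
  exact fun h0 => hgen.sub_algebraMap_ne_zero c (sub_eq_zero.mpr h0)

/-- **The model facts of the horizontal bridge** from the exports. -/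
theorem horizData_of_exports (hB : BaseExports1 n e M L) (hmem : TMem1 n e M L)
    {T : SL(2, ℤ) → ↥(F1b M L) →+* LaurentSeries Kbar} {cv : SL(2, ℤ) → Option Kbar}
    (hshape : ∀ γ : SL(2, ℤ), CuspShape n (T γ (tF1 M L hmem)) (cv γ))
    (hTconst : ∀ (γ : SL(2, ℤ)) (c : Kbar), T γ (algebraMap Kbar ↥(F1b M L) c) = HahnSeries.C c)
    (hTsurj : ∀ v : Place Kbar ↥(F1b M L), v.ord (jF1 M L) < 0 →
      ∃ (γ : SL(2, ℤ)) (m : ℕ), 0 < m ∧
        ∀ f : ↥(F1b M L), f ≠ 0 → (T γ f).order = (m : ℤ) * v.ord f) :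
    HorizData n (jF1 M L) (tF1 M L hmem) T cv where
  isGen := hB.jIsGen
  map_const := hTconst
  cusp_surj := hTsurj
  unbranched := by
    obtain ⟨h, hU⟩ := hB.unbranched
    exact hU
  shape := hshape

/-- **The three smoothness targets**, general cusp expansions `T`. -/
theorem smoothTargets1_of_horiz (hb : BaseHyp n e) (hM : 2 ≤ M) (hnML : n ∣ M * L) {ℓ : ℕ}
    [Fact ℓ.Prime] (hℓ : ¬ ℓ ∣ M * L) (hA : A.LiesOverPrime ℓ) (hIG : IG1 M L)
    (hB : BaseExports1 n e M L) (hmem : TMem1 n e M L)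
    {T : SL(2, ℤ) → ↥(F1b M L) →+* LaurentSeries Kbar} (cv : SL(2, ℤ) → Option Kbar)
    (hshape : ∀ γ : SL(2, ℤ), CuspShape n (T γ (tF1 M L hmem)) (cv γ))
    (hsep : CuspSeparated n cv)
    (hcuspPlaces : ∀ (v : Place Kbar ↥(F1b M L)) (γ : SL(2, ℤ)) (c : Kbar), cv γ = some c →
      0 < v.ord (tF1 M L hmem - algebraMap Kbar ↥(F1b M L) c) → v.ord (jF1 M L) < 0)
    (hTconst : ∀ (γ : SL(2, ℤ)) (c : Kbar), T γ (algebraMap Kbar ↥(F1b M L) c) = HahnSeries.C c)
    (hTplace : ∀ γ : SL(2, ℤ), ∃ (v : Place Kbar ↥(F1b M L)) (m : ℕ), 0 < m ∧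
      ∀ f : ↥(F1b M L), f ≠ 0 → (T γ f).order = (m : ℤ) * v.ord f)
    (hTsurj : ∀ v : Place Kbar ↥(F1b M L), v.ord (jF1 M L) < 0 →
      ∃ (γ : SL(2, ℤ)) (m : ℕ), 0 < m ∧
        ∀ f : ↥(F1b M L), f ≠ 0 → (T γ f).order = (m : ℤ) * v.ord f)
    (hfamO : EventuallyT1 n e M L A fun K ϖ t => ∀ c ∈ cuspSet A K cv,
      HasCuspFamily (AK A K) (F1K M L K) t c (Module.finrank ↥K⟮t⟯ ↥(F1K M L K)))
    (hfamI : EventuallyT1 n e M L A fun K ϖ t =>
      HasCuspFamily (AK A K) (F1K M L K) t⁻¹ 0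
        (Module.finrank ↥K⟮(t⁻¹ : ↥(F1K M L K))⟯ ↥(F1K M L K))) :
    SmoothTargets1 n e M L A := by
  have H := horizData_of_exports hB hmem hshape hTconst hTsurj
  have hconst := tF1_ne_const hB hmem
  have hS := PurOff1.exists_finset_cuspValues_gen H hTplace hcuspPlaces
  exact ⟨cv, PurOff1.offTarget1 hb hM hnML hℓ hA hIG hmem cv H hconst hS,
    CuspHoriz1.overTarget1 hb hM hnML hℓ hA hIG hmem cv H hconst hS hsep hfamO,
    CuspHoriz1.infTarget1 hb hM hnML hℓ hA hIG hmem cv H hconst hS hfamI⟩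

/-- **The three smoothness targets** from the literal `Red1Iface4` exports. -/
theorem smoothTargets1_of_exports (hb : BaseHyp n e) (hM : 2 ≤ M) (hnML : n ∣ M * L) {ℓ : ℕ}
    [Fact ℓ.Prime] (hℓ : ¬ ℓ ∣ M * L) (hA : A.LiesOverPrime ℓ) (hIG : IG1 M L)
    (hB : BaseExports1 n e M L) {D : RealizeData1 M L} (C : CuspData1 D)
    (cv : SL(2, ℤ) → Option Kbar) (hcv : CuspExports1 n e C cv)
    (hTconst : ∀ (γ : SL(2, ℤ)) (c : Kbar),
      C.T γ (algebraMap Kbar ↥(F1b M L) c) = HahnSeries.C c)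
    (hTplace : ∀ γ : SL(2, ℤ), ∃ (v : Place Kbar ↥(F1b M L)) (m : ℕ), 0 < m ∧
      ∀ f : ↥(F1b M L), f ≠ 0 → (C.T γ f).order = (m : ℤ) * v.ord f)
    (hTsurj : ∀ v : Place Kbar ↥(F1b M L), v.ord (jF1 M L) < 0 →
      ∃ (γ : SL(2, ℤ)) (m : ℕ), 0 < m ∧
        ∀ f : ↥(F1b M L), f ≠ 0 → (C.T γ f).order = (m : ℤ) * v.ord f)
    (hfamO : EventuallyT1 n e M L A fun K ϖ t => ∀ c ∈ cuspSet A K cv,
      HasCuspFamily (AK A K) (F1K M L K) t c (Module.finrank ↥K⟮t⟯ ↥(F1K M L K)))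
    (hfamI : EventuallyT1 n e M L A fun K ϖ t =>
      HasCuspFamily (AK A K) (F1K M L K) t⁻¹ 0
        (Module.finrank ↥K⟮(t⁻¹ : ↥(F1K M L K))⟯ ↥(F1K M L K))) :
    SmoothTargets1 n e M L A := by
  obtain ⟨hmem, hshape⟩ := hcv.cuspExp
  obtain ⟨h', hcp⟩ := hcv.cuspPlaces
  exact smoothTargets1_of_horiz hb hM hnML hℓ hA hIG hB hmem cv hshape hcv.separated
    (fun v γ c hγ hpos => hcp v γ c hγ hpos) hTconst hTplace hTsurj hfamO hfamI

/-- **MODEL for the pair `(M, L)`** from the exports. -/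
theorem modelStep1_of_exports (hb : BaseHyp n e) (hM : 2 ≤ M) (hnML : n ∣ M * L) {ℓ : ℕ}
    [Fact ℓ.Prime] (hℓ : ¬ ℓ ∣ M * L) (hA : A.LiesOverPrime ℓ) (hIG : IG1 M L)
    (h : SmoothTargets1 n e M L A) : ModelStep1 M L A := by
  have : NeZero (M * L) := ⟨Nat.mul_ne_zero (NeZero.ne M) (NeZero.ne L)⟩
  have hB := Main12.baseExports hb (M * L) hnML
  exact ModelStep0.modelStep1_of_smooth hM hB.mem hB.genBase hℓ hA hIG h

/-- **The core lemma over `ℚbar`** from the exports. -/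
theorem clBar1_of_exports (hb : BaseHyp n e) (hM : 2 ≤ M) (hnML : n ∣ M * L) {ℓ : ℕ}
    [Fact ℓ.Prime] (hℓ : ¬ ℓ ∣ M * L) (hA : A.LiesOverPrime ℓ) (hIG : IG1 M L)
    (h : SmoothTargets1 n e M L A) : CLBar1 ℓ M L A := by
  have : NeZero (M * L) := ⟨Nat.mul_ne_zero (NeZero.ne M) (NeZero.ne L)⟩
  have hB := Main12.baseExports hb (M * L) hnML
  exact ModelStep0.clBar1_of_smooth hM hB.mem hB.genBase hℓ hA hIG h

end Fermat.Agent.M48.SmoothAsm1
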