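/-
M48 (P1), [RED1] (helper4): **the smooth half of [RED1] closed up to [IG1] and the two cusp-family
statements of [CUSP1]**: helper1's `SmoothAsm1.smoothTargets1_of_horiz` fed with

* the cusp expansions `T := CuspML4.T1ML M L hM` of the `ℚbar`-model (constants, cusp places,
  surjectivity: `CuspQ4`/`CuspML4`), the cusp shapes of `t` ((MF2c): `CuspML4.cuspShape_T1ML`);
* helper7's [BASE1] (`Base1Iface7.baseExports1`, `cuspPlaces1`).

Exports: `smoothTargets1_of_fam`, `modelStep1_of_fam`, and the instances `(n, e) = (4, 8), (9, 3)`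
with `cv = cvT n e (M L)`: `smoothTargets1_four/nine`, `modelStep1_four/nine`.

Imported by no statement.
-/
import Mathlib
import Fermat.Agent.M48.CuspML4
import Fermat.Agent.M48.SmoothAsm1
import Fermat.Agent.M48.Base1Iface7
import Fermat.Agent.RED.BASE.MainCusp12

set_option autoImplicit false
set_option linter.unusedSectionVars false
set_option linter.unusedVariables false
set_option linter.style.longLine false
set_option synthInstance.maxHeartbeats 400000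
set_option maxHeartbeats 1000000

open HahnSeries ModularCurve IntermediateField AlgebraicCurve
open scoped MatrixGroups

noncomputable section

namespace Fermat.Agent.M48.SmoothML4

open Fermat.Agent.X0 Fermat.Agent.RED.Interface4 Fermat.Agent.RED.ModelTargets4
  Fermat.Agent.RED.BASE.Interface12 Fermat.Agent.RED.BASE.Hauptmodul12 Fermat.Agent.RED.BASE
  Fermat.Agent.RED.CUSP.CuspIface23
open Fermat.Agent.M48.DictIface4 Fermat.Agent.M48.Red1Iface4 Fermat.Agent.M48.PurHoriz1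
  Fermat.Agent.M48.PurGauss1 Fermat.Agent.M48.CuspML4
open Fermat.Agent.RED.BASE.CuspExpMain11 (cvT)

variable {n e : ℕ} [NeZero n] {M L : ℕ} [NeZero M] [NeZero L] {A : ValuationSubring Qbar}

/-- every `T1ML γ` is the expansion at a cusp place. -/
theorem T1ML_place (hM : 2 ≤ M) (γ : SL(2, ℤ)) :
    ∃ (v : Place Kbar ↥(F1b M L)) (m : ℕ), 0 < m ∧
      ∀ f : ↥(F1b M L), f ≠ 0 → (T1ML M L hM γ f).order = (m : ℤ) * v.ord f := by
  refine ⟨placeML M L hM γ⁻¹, (cuspDatumML M L hM γ⁻¹).r, (cuspDatumML M L hM γ⁻¹).r_pos,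
    fun f hf => ?_⟩
  have h := order_T1ML M L hM γ⁻¹ hf
  rwa [inv_inv] at h

/-- **The three smoothness targets** from `IG1 M L` and the two cusp-family statements. -/
theorem smoothTargets1_of_fam (hb : BaseHyp n e) (hM4 : 4 ≤ M) (hnML : n ∣ M * L) {ℓ : ℕ}
    [Fact ℓ.Prime] (hℓ : ¬ ℓ ∣ M * L) (hA : A.LiesOverPrime ℓ) (hIG : IG1 M L)
    (cv : SL(2, ℤ) → Option Kbar) (hexp : CuspExp n e (M * L) cv) (hsep : CuspSeparated n cv)
    (hfamO : EventuallyT1 n e M L A fun K ϖ t => ∀ c ∈ cuspSet A K cv,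
      HasCuspFamily (AK A K) (F1K M L K) t c (Module.finrank ↥K⟮t⟯ ↥(F1K M L K)))
    (hfamI : EventuallyT1 n e M L A fun K ϖ t =>
      HasCuspFamily (AK A K) (F1K M L K) t⁻¹ 0
        (Module.finrank ↥K⟮(t⁻¹ : ↥(F1K M L K))⟯ ↥(F1K M L K))) :
    SmoothTargets1 n e M L A := by
  have hM : 2 ≤ M := by omega
  have hB := Base1Iface7.baseExports1 M L hM4 hb hnML
  obtain ⟨hmem, hcp⟩ := Base1Iface7.cuspPlaces1 M L hM4 hb hnML cv hexp
  exact SmoothAsm1.smoothTargets1_of_horiz (T := T1ML M L hM) hb hM hnML hℓ hA hIG hB hmem cv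
    (fun γ => cuspShape_T1ML' M L hM hexp hmem γ) hsep hcp
    (fun γ c => T1ML_algebraMap M L hM γ c) (T1ML_place hM)
    (fun v hv => cusp_surj_T1ML M L hM v hv) hfamO hfamI

/-- **MODEL for the pair `(M, L)`** from `IG1 M L` and the two cusp-family statements. -/
theorem modelStep1_of_fam (hb : BaseHyp n e) (hM4 : 4 ≤ M) (hnML : n ∣ M * L) {ℓ : ℕ}
    [Fact ℓ.Prime] (hℓ : ¬ ℓ ∣ M * L) (hA : A.LiesOverPrime ℓ) (hIG : IG1 M L)
    (cv : SL(2, ℤ) → Option Kbar) (hexp : CuspExp n e (M * L) cv) (hsep : CuspSeparated n cv)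
    (hfamO : EventuallyT1 n e M L A fun K ϖ t => ∀ c ∈ cuspSet A K cv,
      HasCuspFamily (AK A K) (F1K M L K) t c (Module.finrank ↥K⟮t⟯ ↥(F1K M L K)))
    (hfamI : EventuallyT1 n e M L A fun K ϖ t =>
      HasCuspFamily (AK A K) (F1K M L K) t⁻¹ 0
        (Module.finrank ↥K⟮(t⁻¹ : ↥(F1K M L K))⟯ ↥(F1K M L K))) :
    ModelStep1 M L A :=
  SmoothAsm1.modelStep1_of_exports hb (by omega) hnML hℓ hA hIG
    (smoothTargets1_of_fam hb hM4 hnML hℓ hA hIG cv hexp hsep hfamO hfamI)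

/-- `(n, e) = (4, 8)`. -/
theorem modelStep1_four (hM4 : 4 ≤ M) (h4 : 4 ∣ M * L) {ℓ : ℕ}
    [Fact ℓ.Prime] (hℓ : ¬ ℓ ∣ M * L) (hA : A.LiesOverPrime ℓ) (hIG : IG1 M L)
    (hfamO : EventuallyT1 4 8 M L A fun K ϖ t => ∀ c ∈ cuspSet A K (cvT 4 8 (M * L)),
      HasCuspFamily (AK A K) (F1K M L K) t c (Module.finrank ↥K⟮t⟯ ↥(F1K M L K)))
    (hfamI : EventuallyT1 4 8 M L A fun K ϖ t =>
      HasCuspFamily (AK A K) (F1K M L K) t⁻¹ 0
        (Module.finrank ↥K⟮(t⁻¹ : ↥(F1K M L K))⟯ ↥(F1K M L K))) :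
    ModelStep1 M L A := by
  have h := Fermat.Agent.RED.BASE.CuspExpMain11.cuspExp_four (M * L) h4 (tMem baseHyp_four)
  exact modelStep1_of_fam baseHyp_four hM4 h4 hℓ hA hIG _ h.1 h.2 hfamO hfamI

/-- `(n, e) = (9, 3)`. -/
theorem modelStep1_nine (hM4 : 4 ≤ M) (h9 : 9 ∣ M * L) {ℓ : ℕ}
    [Fact ℓ.Prime] (hℓ : ¬ ℓ ∣ M * L) (hA : A.LiesOverPrime ℓ) (hIG : IG1 M L)
    (hfamO : EventuallyT1 9 3 M L A fun K ϖ t => ∀ c ∈ cuspSet A K (cvT 9 3 (M * L)),
      HasCuspFamily (AK A K) (F1K M L K) t c (Module.finrank ↥K⟮t⟯ ↥(F1K M L K)))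
    (hfamI : EventuallyT1 9 3 M L A fun K ϖ t =>
      HasCuspFamily (AK A K) (F1K M L K) t⁻¹ 0
        (Module.finrank ↥K⟮(t⁻¹ : ↥(F1K M L K))⟯ ↥(F1K M L K))) :
    ModelStep1 M L A := by
  have h := Fermat.Agent.RED.BASE.CuspExpMain11.cuspExp_nine (M * L) h9 (tMem baseHyp_nine)
  exact modelStep1_of_fam baseHyp_nine hM4 h9 hℓ hA hIG _ h.1 h.2 hfamO hfamI

end Fermat.Agent.M48.SmoothML4
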