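/-
M48 (P1), [RED1] (helper4): **the `hstep` input of `SP1Final5.sp1Stmt49_of_model` from [IG1] and the
two cusp-family statements of [CUSP1]** (`CuspFamStmt`, the literal end target of the K-level half of
[CUSP1]).

* `CuspFamStmt : Prop` - for `(n, e)` with `BaseHyp n e`, `4 ≤ M`, `n ∣ M * 1`, `ℓ ∤ M * 1`, `A` over `ℓ`
  and every value function `cv` with the old `CuspExp n e (M * 1) cv`, `CuspSeparated n cv`: the two
  `hfam` hypotheses of helper1's `CuspHoriz1.overTarget1 / infTarget1`;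
* `modelStep1_of_cuspFam`, `hstep_of_cuspFam`.

Imported by no statement.
-/
import Mathlib
import Fermat.Agent.M48.SmoothML4

set_option autoImplicit false
set_option linter.unusedSectionVars false
set_option linter.unusedVariables false
set_option linter.style.longLine false
set_option synthInstance.maxHeartbeats 400000
set_option maxHeartbeats 1000000

open HahnSeries ModularCurve IntermediateField AlgebraicCurve
open scoped MatrixGroups

noncomputable section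

namespace Fermat.Agent.M48.StepOfFam4

open Fermat.Agent.X0 Fermat.Agent.RED.Interface4 Fermat.Agent.RED.ModelTargets4
  Fermat.Agent.RED.BASE.Interface12 Fermat.Agent.RED.BASE.Hauptmodul12 Fermat.Agent.RED.BASE
  Fermat.Agent.RED.CUSP.CuspIface23
open Fermat.Agent.M48.DictIface4 Fermat.Agent.M48.Red1Iface4 Fermat.Agent.M48.PurGauss1
open Fermat.Agent.RED.BASE.CuspExpMain11 (cvT)

/-- **The two cusp-family statements** (end target of the K-level half of [CUSP1]) at the pair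
`(M, 1)`. -/
def CuspFamStmt : Prop :=
  ∀ (n e : ℕ) [NeZero n], BaseHyp n e → ∀ (M : ℕ) [NeZero M], 4 ≤ M → n ∣ M * 1 →
    ∀ (ℓ : ℕ) [Fact ℓ.Prime], ¬ ℓ ∣ M * 1 → ∀ A : ValuationSubring Qbar, A.LiesOverPrime ℓ →
    ∀ cv : SL(2, ℤ) → Option Kbar, CuspExp n e (M * 1) cv → CuspSeparated n cv →
    (EventuallyT1 n e M 1 A fun K ϖ t => ∀ c ∈ cuspSet A K cv,
      HasCuspFamily (AK A K) (F1K M 1 K) t c (Module.finrank ↥K⟮t⟯ ↥(F1K M 1 K))) ∧
    (EventuallyT1 n e M 1 A fun K ϖ t =>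
      HasCuspFamily (AK A K) (F1K M 1 K) t⁻¹ 0
        (Module.finrank ↥K⟮(t⁻¹ : ↥(F1K M 1 K))⟯ ↥(F1K M 1 K)))

/-- a multiple of `4` or `9` (`≠ 0`) is `≥ 4`. -/
theorem four_le_of_dvd {M : ℕ} [NeZero M] (h : 4 ∣ M ∨ 9 ∣ M) : 4 ≤ M := by
  have hM : 0 < M := Nat.pos_of_ne_zero (NeZero.ne M)
  rcases h with h | h
  · exact Nat.le_of_dvd hM h
  · have := Nat.le_of_dvd hM h
    omega

/-- **MODEL for `(M, 1)`** from [IG1] and the cusp families. -/
theorem modelStep1_of_cuspFam (hfam : CuspFamStmt) (M : ℕ) [NeZero M] (h49 : 4 ∣ M ∨ 9 ∣ M)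
    (hIG : IG1 M 1) (ℓ : ℕ) (hℓ : ℓ.Prime) (hℓM : ¬ ℓ ∣ M) (A : ValuationSubring Qbar)
    (hA : A.LiesOverPrime ℓ) : ModelStep1 M 1 A := by
  have : Fact ℓ.Prime := ⟨hℓ⟩
  have hM4 : 4 ≤ M := four_le_of_dvd h49
  have hℓM1 : ¬ ℓ ∣ M * 1 := by rwa [Nat.mul_one]
  rcases h49 with h4 | h9
  · have h4' : 4 ∣ M * 1 := by rwa [Nat.mul_one]
    have hexp := Fermat.Agent.RED.BASE.CuspExpMain11.cuspExp_four (M * 1) h4' (tMem baseHyp_four)
    obtain ⟨hO, hI⟩ := hfam 4 8 baseHyp_four M hM4 h4' ℓ hℓM1 A hA _ hexp.1 hexp.2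
    exact SmoothML4.modelStep1_of_fam baseHyp_four hM4 h4' hℓM1 hA hIG _ hexp.1 hexp.2 hO hI
  · have h9' : 9 ∣ M * 1 := by rwa [Nat.mul_one]
    have hexp := Fermat.Agent.RED.BASE.CuspExpMain11.cuspExp_nine (M * 1) h9' (tMem baseHyp_nine)
    obtain ⟨hO, hI⟩ := hfam 9 3 baseHyp_nine M hM4 h9' ℓ hℓM1 A hA _ hexp.1 hexp.2
    exact SmoothML4.modelStep1_of_fam baseHyp_nine hM4 h9' hℓM1 hA hIG _ hexp.1 hexp.2 hO hI

/-- **the `hstep` input of `SP1Final5.sp1Stmt49_of_model`.** -/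
theorem hstep_of_cuspFam
    (hIG : ∀ (M : ℕ) [NeZero M], 2 ≤ M → (4 ∣ M ∨ 9 ∣ M) → IG1 M 1) (hfam : CuspFamStmt) :
    ∀ (M : ℕ) [NeZero M], 2 ≤ M → (4 ∣ M ∨ 9 ∣ M) → ∀ ℓ : ℕ, ℓ.Prime → ¬ ℓ ∣ M →
      ∀ A : ValuationSubring Qbar, A.LiesOverPrime ℓ → ModelStep1 M 1 A :=
  fun M _ hM h49 ℓ hℓ hℓM A hA =>
    modelStep1_of_cuspFam hfam M h49 (hIG M hM h49) ℓ hℓ hℓM A hA

end Fermat.Agent.M48.StepOfFam4
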