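/-
M48 (P1), [RED1], chapter [ESRED-MODEL] (helper1): **the explicit two-chart models over the number fields
at the pair `(M, 1)` from the two cusp-family statements alone** ([IG1] plugged: `IG1Main9.ig1`):

* `modelAtK1_of_cuspFam : StepOfFam4.CuspFamStmt → … → ModelExplicit1.ModelAtK1 A n e M 1` for `(n, e)` with
  `BaseHyp n e`, `4 ≤ M`, `n ∣ M * 1`, `cv` with `CuspExp n e (M * 1) cv` + `CuspSeparated n cv`;
* `modelAtK1_four_of_cuspFam` (`4 ∣ M`), `modelAtK1_nine_of_cuspFam` (`9 ∣ M`): the two cases used by S48,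
  in the hypothesis shape of `S48Final0.s48_of_cuspFam` (`ℓ.Prime`, `¬ ℓ ∣ M`);
* `levelAt_four_of_cuspFam`, `levelAt_nine_of_cuspFam` : the level data `LevelsInst1.LevelAt` at `t`, `t⁻¹`.

So `Red1Iface4.ModelAt1` (through the chart group + LEVELS/PEEL) and `Red1Iface4.ModelStep1`
(`StepOfFam4.modelStep1_of_cuspFam`) both reduce to `StepOfFam4.CuspFamStmt`.

Imported by no statement.
-/
import Mathlib
import Fermat.Agent.M48.ModelExplicit1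
import Fermat.Agent.M48.StepOfFam4
import Fermat.Agent.M48.IG1Main9

set_option autoImplicit false
set_option linter.unusedSectionVars false
set_option linter.unusedVariables false
set_option synthInstance.maxHeartbeats 400000

open HahnSeries ModularCurve IntermediateField AlgebraicCurve
open scoped MatrixGroups

noncomputable section

namespace Fermat.Agent.M48.ModelAtFam1

open Fermat.Agent.X0 Fermat.Agent.RED.Interface4 Fermat.Agent.RED.ModelTargets4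
  Fermat.Agent.RED.BASE.Interface12 Fermat.Agent.RED.BASE.Hauptmodul12 Fermat.Agent.RED.BASE
  Fermat.Agent.RED.CUSP.CuspIface23 Fermat.Agent.RED.BASE.EtaQuot12
open Fermat.Agent.M48.DictIface4 Fermat.Agent.M48.Red1Iface4 Fermat.Agent.M48.PurGauss1
  Fermat.Agent.M48.ModelExplicit1 Fermat.Agent.M48.StepOfFam4 Fermat.Agent.M48.LevelsInst1

/-- **The explicit two-chart models at `(M, 1)` from the cusp families.** -/
theorem modelAtK1_of_cuspFam (hfam : CuspFamStmt) {n e : ℕ} [NeZero n] (hb : BaseHyp n e)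
    (M : ℕ) [NeZero M] (hM4 : 4 ≤ M) (hnM : n ∣ M * 1) (ℓ : ℕ) [Fact ℓ.Prime] (hℓ : ¬ ℓ ∣ M * 1)
    (A : ValuationSubring Qbar) (hA : A.LiesOverPrime ℓ) (cv : SL(2, ℤ) → Option Kbar)
    (hexp : CuspExp n e (M * 1) cv) (hsep : CuspSeparated n cv) : ModelAtK1 A n e M 1 := by
  obtain ⟨hO, hI⟩ := hfam n e hb M hM4 hnM ℓ hℓ A hA cv hexp hsep
  exact modelAtK1_of_fam hb hM4 hnM hℓ hA (IG1Main9.ig1 M (by omega)) cv hexp hsep hO hI

/-- `(n, e) = (4, 8)`, `4 ∣ M`. -/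
theorem modelAtK1_four_of_cuspFam (hfam : CuspFamStmt) (M : ℕ) [NeZero M] (h4 : 4 ∣ M)
    (ℓ : ℕ) (hℓ : ℓ.Prime) (hℓM : ¬ ℓ ∣ M) (A : ValuationSubring Qbar)
    (hA : A.LiesOverPrime ℓ) : ModelAtK1 A 4 8 M 1 := by
  have : Fact ℓ.Prime := ⟨hℓ⟩
  have hM4 : 4 ≤ M := four_le_of_dvd (Or.inl h4)
  have hℓM1 : ¬ ℓ ∣ M * 1 := by rwa [Nat.mul_one]
  have h4' : 4 ∣ M * 1 := by rwa [Nat.mul_one]
  have hexp := Fermat.Agent.RED.BASE.CuspExpMain11.cuspExp_four (M * 1) h4' (tMem baseHyp_four)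
  exact modelAtK1_of_cuspFam hfam baseHyp_four M hM4 h4' ℓ hℓM1 A hA _ hexp.1 hexp.2

/-- `(n, e) = (9, 3)`, `9 ∣ M`. -/
theorem modelAtK1_nine_of_cuspFam (hfam : CuspFamStmt) (M : ℕ) [NeZero M] (h9 : 9 ∣ M)
    (ℓ : ℕ) (hℓ : ℓ.Prime) (hℓM : ¬ ℓ ∣ M) (A : ValuationSubring Qbar)
    (hA : A.LiesOverPrime ℓ) : ModelAtK1 A 9 3 M 1 := by
  have : Fact ℓ.Prime := ⟨hℓ⟩
  have hM4 : 4 ≤ M := four_le_of_dvd (Or.inr h9)
  have hℓM1 : ¬ ℓ ∣ M * 1 := by rwa [Nat.mul_one]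
  have h9' : 9 ∣ M * 1 := by rwa [Nat.mul_one]
  have hexp := Fermat.Agent.RED.BASE.CuspExpMain11.cuspExp_nine (M * 1) h9' (tMem baseHyp_nine)
  exact modelAtK1_of_cuspFam hfam baseHyp_nine M hM4 h9' ℓ hℓM1 A hA _ hexp.1 hexp.2

/-- the level data at `t`, `t⁻¹`, `(n, e) = (4, 8)`. -/
theorem levelAt_four_of_cuspFam (hfam : CuspFamStmt) (M : ℕ) [NeZero M] (h4 : 4 ∣ M)
    (ℓ : ℕ) (hℓ : ℓ.Prime) (hℓM : ¬ ℓ ∣ M) (A : ValuationSubring Qbar)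
    (hA : A.LiesOverPrime ℓ) :
    ∃ K₀ : IntermediateField ℚ Qbar, FiniteDimensional ℚ K₀ ∧
      ∀ K : IntermediateField ℚ Qbar, FiniteDimensional ℚ K → K₀ ≤ K →
        ∀ (ϖ : ↥(AK A K)) (_ : Irreducible ϖ) (t : ↥(F1K M 1 K)),
          (t : LaurentSeries K) = tq K 4 8 →
          LevelAt A (fieldG10 M 1) K t ϖ ∧ LevelAt A (fieldG10 M 1) K t⁻¹ ϖ :=
  (modelAtK1_four_of_cuspFam hfam M h4 ℓ hℓ hℓM A hA).levelAt

/-- the level data at `t`, `t⁻¹`, `(n, e) = (9, 3)`. -/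
theorem levelAt_nine_of_cuspFam (hfam : CuspFamStmt) (M : ℕ) [NeZero M] (h9 : 9 ∣ M)
    (ℓ : ℕ) (hℓ : ℓ.Prime) (hℓM : ¬ ℓ ∣ M) (A : ValuationSubring Qbar)
    (hA : A.LiesOverPrime ℓ) :
    ∃ K₀ : IntermediateField ℚ Qbar, FiniteDimensional ℚ K₀ ∧
      ∀ K : IntermediateField ℚ Qbar, FiniteDimensional ℚ K → K₀ ≤ K →
        ∀ (ϖ : ↥(AK A K)) (_ : Irreducible ϖ) (t : ↥(F1K M 1 K)),
          (t : LaurentSeries K) = tq K 9 3 →
          LevelAt A (fieldG10 M 1) K t ϖ ∧ LevelAt A (fieldG10 M 1) K t⁻¹ ϖ :=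
  (modelAtK1_nine_of_cuspFam hfam M h9 ℓ hℓ hℓM A hA).levelAt

end Fermat.Agent.M48.ModelAtFam1
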