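/-
Programme M48, pillar (P1), chapter [RED1] / [ESRED-MODEL], chart group (helper8), file 4:
**the two-chart model at the EXPLICIT charts over all large number fields, for the model
`fieldG10 M L` of `X(Γ₁(M) ∩ Γ₀(M L))`.**

Twin of `ES/RED/ModelExplicit26` §Concrete (helper26, Program I) and of `ES/RED/ChartInst1.ModelAt`
(helper1).  The generic assembly `ModelExplicit26.twoChartModel_of_split` (any `(O, E)`) is used as it
is; the inputs are the same as those of lead's `ModelStep0.modelStep1_of_targets`.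

* `gb1 A M L : ChartIntegralG5.GB1 A (fieldG10 M L)` : (GB1) `K·fieldG10 M L ⊂ Frac (A ∩ K)((q))`
  (helper1's `PurGauss1.laurentBaseChange_le_fracField`);
* `ModelAtG hGB n e` (generic in the model field `F₀`, `hGB : GB1 A F₀`) : for all number fields
  `K ⊇ K₀`: `A ∩ K` is a DVR and every uniformiser `ϖ` and every `t ∈ K·F₀` with `q`-expansion
  `tq K n e` give `CoreIface24.TwoChartModel` at the charts `chart (A ∩ K) t^{±1}` with the Gauss
  valuation ring `ChartIntegralG5.OvKg hGB K hu`  (twin of `ChartInst1.ModelAt`);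
* `modelAtG_of_targets` : `ModelAtG (gb1 A M L) n e` from `IG1 M L`, `TTarget1`, `JTarget` and the
  three smoothness targets `OffTarget1`, `OverTarget1`, `InfTarget1` of `Red1Iface4`;
* `modelAtG_of_smooth` : the same from `SmoothTargets1` and the old BASE facts `TMem n e (M L)`,
  `TGenBase n e`.

Nothing is left unproved in this file.  Imported by no statement.
-/
import Mathlib
import Fermat.Agent.ES.RED.ModelExplicit26
import Fermat.Agent.M48.ChartIntegralG5
import Fermat.Agent.M48.ModelStep0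

set_option autoImplicit false
set_option linter.unusedSectionVars false
set_option synthInstance.maxHeartbeats 400000

open HahnSeries ModularCurve IntermediateField
open scoped MatrixGroups

noncomputable section

namespace Fermat.Agent.M48.ModelExplicitG8

open Fermat.Agent.RED.CORE.CoreIface24 Fermat.Agent.RED.PUR.GaussGen8
  Fermat.Agent.RED.PUR.KtGauss8 Fermat.Agent.RED.PUR.G1Package8
  Fermat.Agent.RED.PUR.ChartGeneric22 Fermat.Agent.RED.NumInst4
  Fermat.Agent.RED.Interface4 Fermat.Agent.RED.ModelTargets4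
  Fermat.Agent.RED.BASE.EtaQuot12 Fermat.Agent.RED.BASE.Interface12 Fermat.Agent.X0
  Fermat.Agent.RED.DESC.NumberFieldDVR27
  Fermat.Agent.M48.DescG0 Fermat.Agent.M48.ChartIntegralG5 Fermat.Agent.M48.DictIface4
  Fermat.Agent.M48.Red1Iface4

/-- **(GB1)** for the `G10` model: `K·fieldG10 M L ⊂ Frac (A ∩ K)((q))`. -/
theorem gb1 (A : ValuationSubring Qbar) (M L : ℕ) : GB1 A (fieldG10 M L) :=
  fun K => PurGauss1.laurentBaseChange_le_fracField (AK A K) M L

section Generic

variable {A : ValuationSubring Qbar} {F₀ : IntermediateField ℚ (LaurentSeries ℚ)}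

/-- **The two-chart models over all large number fields** at the explicit charts
`chart (A ∩ K) t^{±1}`, `t = tq K n e` (twin of `ChartInst1.ModelAt`, generic in the model field). -/
def ModelAtG (hGB : GB1 A F₀) (n e : ℕ) [NeZero n] : Prop :=
  ∃ K₀ : IntermediateField ℚ Qbar, FiniteDimensional ℚ K₀ ∧
    ∀ K : IntermediateField ℚ Qbar, FiniteDimensional ℚ K → K₀ ≤ K →
      IsDiscreteValuationRing ↥(AK A K) ∧
      ∀ (ϖ : ↥(AK A K)) (_ : Irreducible ϖ) (hu : IsUnif (AK A K) ϖ) (t : ↥(FKg F₀ K)),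
        (t : LaurentSeries K) = tq K n e →
        TwoChartModel ↥(AK A K) K ↥(FKg F₀ K) ϖ t (chart ↥(AK A K) t) (chart ↥(AK A K) t⁻¹)
          (OvKg hGB K hu)

end Generic

section Concrete

variable {n e M L : ℕ} [NeZero n] [NeZero M] [NeZero L] {A : ValuationSubring Qbar}

/-- **The explicit model over all large number fields** for the pair `(M, L)`. -/
theorem modelAtG_of_targets (hM : 2 ≤ M) {ℓ : ℕ} [Fact ℓ.Prime] (hℓ : ¬ ℓ ∣ M * L)
    (hA : A.LiesOverPrime ℓ) (hIG : PurGauss1.IG1 M L)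
    (hT : RedTargets1.TTarget1 n e M L) (hJ : JTarget n e)
    (cv : SL(2, ℤ) → Option Kbar)
    (hoff : OffTarget1 n e M L A cv) (hover : OverTarget1 n e M L A cv)
    (hinf : InfTarget1 n e M L A) : ModelAtG (gb1 A M L) n e := by
  have hℓp : ℓ.Prime := Fact.out
  obtain ⟨K₁, hK₁, hT⟩ := hT
  obtain ⟨K₂, hK₂, hJ⟩ := hJ
  obtain ⟨K₃, hK₃, hoff⟩ := hoff
  obtain ⟨K₄, hK₄, hover⟩ := hover
  obtain ⟨K₅, hK₅, hinf⟩ := hinf
  refine ⟨K₁ ⊔ K₂ ⊔ K₃ ⊔ K₄ ⊔ K₅, inferInstance, fun K hKfd hle => ?_⟩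
  have hle1 : K₁ ≤ K := le_trans (le_trans (le_trans (le_trans le_sup_left le_sup_left)
    le_sup_left) le_sup_left) hle
  have hle2 : K₂ ≤ K := le_trans (le_trans (le_trans (le_trans le_sup_right le_sup_left)
    le_sup_left) le_sup_left) hle
  have hle3 : K₃ ≤ K := le_trans (le_trans (le_trans le_sup_right le_sup_left) le_sup_left) hle
  have hle4 : K₄ ≤ K := le_trans (le_trans le_sup_right le_sup_left) hle
  have hle5 : K₅ ≤ K := le_trans le_sup_right hle
  have hdvr : IsDiscreteValuationRing ↥(AK A K) := isDiscreteValuationRing_AK A K hℓp.ne_zero hA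
  refine ⟨hdvr, fun ϖ hϖ hu t htq => ?_⟩
  have hchar : CharP (Res (AK A K)) ℓ := charP_residueField_AK A K hℓp hA
  have hfin : Finite (↥(AK A K) ⧸ (Ideal.span {ϖ} : Ideal ↥(AK A K))) := by
    have h1 : Finite (IsLocalRing.ResidueField ↥(AK A K)) :=
      finite_residueField_AK A K hℓp.ne_zero hA
    rw [← hϖ.maximalIdeal_eq]
    exact h1
  have hE : F1K M L K ≤ fracField (AK A K) := gb1 A M L K
  have ht : ((t : ↥(F1K M L K)) : LaurentSeries K) ∈ gaussRing (AK A K) := by
    rw [htq]; exact tq_mem_gaussRing (AK A K) n e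
  have hGeq : (⟨((t : ↥(F1K M L K)) : LaurentSeries K), ht⟩ : ↥(gaussRing (AK A K))) =
      ⟨tq K n e, tq_mem_gaussRing (AK A K) n e⟩ := Subtype.ext htq
  have htr : Transcendental (Res (AK A K))
      (gaussRed (AK A K) ⟨((t : ↥(F1K M L K)) : LaurentSeries K), ht⟩) := by
    rw [hGeq]
    exact transcendental_gaussRed_tq (AK A K) n e
  have htE' : ((t : ↥(F1K M L K)) : LaurentSeries K) ∈ F1K M L K := t.2
  have hjt : jqModC K ∈ Kt (AK A K) ⟨((t : ↥(F1K M L K)) : LaurentSeries K), ht⟩ := by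
    rw [hGeq]
    exact hJ K hKfd hle2
  obtain ⟨hn, hdeg, hirr⟩ := PurGauss1.degLe_irr_laurentBaseChange (AK A K) hϖ ℓ M L hM hℓ hIG
    ⟨((t : ↥(F1K M L K)) : LaurentSeries K), ht⟩ htE' hjt
  exact Fermat.Agent.ES.RED.ModelExplicit26.twoChartModel_of_split hϖ hE t ht htr hn hdeg hirr
    (cuspSet A K cv) (hoff K hKfd hle3 ϖ hϖ t htq) (hover K hKfd hle4 ϖ hϖ t htq)
    (hinf K hKfd hle5 ϖ hϖ t htq)

/-- **The explicit model from (LOC)**, with the BASE inputs of the old chain at the level `M L`. -/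
theorem modelAtG_of_smooth (hM : 2 ≤ M) [NeZero (M * L)] (hmem : TMem n e (M * L))
    (hgen : TGenBase n e) {ℓ : ℕ} [Fact ℓ.Prime] (hℓ : ¬ ℓ ∣ M * L)
    (hA : A.LiesOverPrime ℓ) (hIG : PurGauss1.IG1 M L)
    (h : SmoothTargets1 n e M L A) : ModelAtG (gb1 A M L) n e := by
  obtain ⟨cv, hoff, hover, hinf⟩ := h
  exact modelAtG_of_targets hM hℓ hA hIG (RedTargets1.tTarget1 M L hmem)
    (Fermat.Agent.RED.ModelFinal4.jTarget hgen) cv hoff hover hinf

end Concrete

end Fermat.Agent.M48.ModelExplicitG8
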