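/-
Programme M48, pillar (P1), chapter [RED1], leaf RED-Z — helper9.  **The assembly
`RedSpec8.IsPlaceRed A (residue A) FB Fk T.r` for the global reduction map of a two-chart model,
GENERIC in the two function fields** `FB ≤ L((q))`, `Fk ≤ κ_A((q))`: twin of
`ES/RED/RedAssembly15`, `GaussRing15` (section Prelude), `RedCharts15`, `RedMain15`, which are the
case `FB = L · modularFunctionFieldFull N`, `Fk = modularFunctionFieldFullC κ_A N`.  (All the real
work is in the generic files `R2Abstract14`, `R2Peel14`, `R2Adapter9`, `ChangeG15`, `TwoCharts8`,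
which are used as they are.)

* `GaussBridgeG`, `gaussBridgeG` : the bridge between the `A`-integral `q`-expansions of
  `RedSpec8.IsPlaceRed` and the Gauss ring `GaussRing15.gaussRing A π FB Fk`;
* `isPlaceRed_of_charts` : two `R2Abstract14.ChartHyp`s covering the special fibre ⇒ `IsPlaceRed`;
* `CompatG S`, `isPlaceRed_of_chartSpecs` : from two `Contract8.ChartSpec`s;
* `ChartInputsG A S` (= `RedMain15.ChartInputs` with the fields general),
  **`isPlaceRed_twoCharts`** and **`isPlaceRed_twoCharts'`** (degrees and finiteness of divisors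
  discharged: `L`, `κ_A` algebraically closed, `L` of characteristic zero).
-/
import Mathlib
import Fermat.Agent.M48.RedSpec8
import Fermat.Agent.ES.RED.GaussRing15
import Fermat.Agent.ES.RED.ChangeG15
import Fermat.Agent.ES.RED.R2Adapter9
import Fermat.Agent.ES.RED.TwoCharts8
import Fermat.Agent.X0.FFGenus

set_option autoImplicit false
set_option linter.unusedSectionVars false
set_option linter.style.haveILetI false
set_option synthInstance.maxHeartbeats 400000

open AlgebraicCurve ModularCurve HahnSeries Polynomial IntermediateField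

noncomputable section

namespace Fermat.Agent.M48.RedZG9

open Fermat.Agent.ES.RED.R2Abstract14 Fermat.Agent.ES.RED.R2Peel14
open Fermat.Agent.ES.RED.RedAssembly15 Fermat.Agent.ES.RED.GaussRing15
open Fermat.Agent.ES.RED.Contract8 Fermat.Agent.ES.RED.ChangeG15
open Fermat.Agent.ES.RED.TwoCharts8 Fermat.Agent.ES.RED.R2Adapter9
open Fermat.Agent.X0 Fermat.Agent.X0.FF Fermat.Agent.M48.RedSpec8

/-! ### The abstract assembly -/

section Abstract

variable {L : Type*} [Field L] (A : ValuationSubring L)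
variable {k : Type*} [Field k] (π : A →+* k)
variable (FB : IntermediateField L (LaurentSeries L)) (Fk : IntermediateField k (LaurentSeries k))

/-- The bridge between the `A`-integral `q`-expansions of `IsPlaceRed` and a Gauss ring `G` with
its reduction `red`. -/
def GaussBridgeG (G : Subring ↥FB) (red : G →+* ↥Fk) : Prop :=
  ∀ (y : LaurentSeries A) (hy : coeffMap A.subtype y ∈ FB) (hyk : coeffMap π y ∈ Fk),
    ∃ g : G, (g : ↥FB) = ⟨coeffMap A.subtype y, hy⟩ ∧ red g = ⟨coeffMap π y, hyk⟩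

/-- The bridge holds by construction for `GaussRing15.gaussRing`. -/
theorem gaussBridgeG : GaussBridgeG A π FB Fk (gaussRing A π FB Fk) (gaussRed A π FB Fk) := by
  intro y hy hyk
  exact ⟨⟨⟨coeffMap A.subtype y, hy⟩, mem_gaussRing_of_coeffMap A π _ _ y hy hyk⟩, rfl,
    gaussRed_mk A π _ _ y hy hyk⟩

variable {A π FB Fk}

/-- **RED-Z, abstract form**: two charts covering the special fibre give `IsPlaceRed`. -/
theorem isPlaceRed_of_charts [IsAlgClosed L] (r : Place L ↥FB → Place k ↥Fk) (G : Subring ↥FB)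
    (red : G →+* ↥Fk) (hbridge : GaussBridgeG A π FB Fk G red) (hfin : FinDiv L ↥FB)
    (hdeg : ∀ P, (r P).deg = P.deg)
    {B₀ B₁ : Subring ↥FB} {x₀ x₁ : G} {n₀ n₁ : ℕ} {S₀ S₁ : Set (Place L ↥FB)}
    {St₀ St₁ : Set (Place k ↥Fk)}
    (h₀ : ChartHyp A π G red r B₀ x₀ n₀ S₀ St₀) (h₁ : ChartHyp A π G red r B₁ x₁ n₁ S₁ St₁)
    (hcov : ∀ Q : Place k ↥Fk, Q ∈ St₀ ∨ Q ∈ St₁) :
    IsPlaceRed A π FB Fk r := by
  refine ⟨hdeg, ?_⟩
  intro y hy hyk hne D hD Q
  obtain ⟨g, hg, hred⟩ := hbridge y hy hyk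
  have hredne : red g ≠ 0 := by
    rw [hred]
    intro h0
    exact hne (congrArg Subtype.val h0)
  have hD' : ∀ P, D P = P.ord (g : ↥FB) := by
    intro P
    rw [hD P, hg]
  rw [← hred]
  rcases hcov Q with hQ | hQ
  · exact r2_chart_mapDomain h₀ hfin hQ g hredne D hD'
  · exact r2_chart_mapDomain h₁ hfin hQ g hredne D hD'

end Abstract

/-! ### From two charts of `Contract8` -/

section Charts

variable {L : Type*} [Field L] [IsAlgClosed L] (A : ValuationSubring L)
variable {FB : IntermediateField L (LaurentSeries L)}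
  {Fk : IntermediateField (kA A) (LaurentSeries (kA A))}
variable {x : ↥FB} {hx : IsGen L x}

/-- **Compatibility of a chart with `q`-expansions**: every element of the chart ring has an
`A`-integral `q`-expansion, and the chart's reduction is its coefficientwise reduction. -/
def CompatG (S : ChartSpec A hx ↥Fk) : Prop :=
  ∀ b : ↥S.B, ∃ Y : LaurentSeries ↥A,
    coeffMap A.subtype Y = ((b : ↥FB) : LaurentSeries L) ∧
    ((S.red b : ↥Fk) : LaurentSeries (kA A)) = coeffMap (resA A) Y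

variable {A}

theorem CompatG.le_gaussRing {S : ChartSpec A hx ↥Fk} (hS : CompatG A S) :
    S.B ≤ gaussRing A (resA A) FB Fk := by
  intro b hb
  obtain ⟨Y, hY, hYr⟩ := hS ⟨b, hb⟩
  refine ⟨Y, hY, ?_⟩
  rw [← hYr]
  exact (S.red ⟨b, hb⟩).2

theorem CompatG.gaussRed_eq {S : ChartSpec A hx ↥Fk} (hS : CompatG A S) (b : ↥FB) (hb : b ∈ S.B) :
    gaussRed A (resA A) FB Fk ⟨b, hS.le_gaussRing hb⟩ = S.red ⟨b, hb⟩ := by
  obtain ⟨Y, hY, hYr⟩ := hS ⟨b, hb⟩
  apply Subtype.ext
  rw [Fermat.Agent.ES.RED.GaussRing15.gaussRed_eq A (resA A) _ _ _ (Y := Y) hY, hYr]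

variable {S₀ S₁ : ChartSpec A hx ↥Fk}

/-- **RED-Z from two charts of `Contract8`**. -/
theorem isPlaceRed_of_chartSpecs (r : Place L ↥FB → Place (kA A) ↥Fk)
    (hS₀ : CompatG A S₀) (hS₁ : CompatG A S₁) {n₀ n₁ : ℕ}
    (h₀ : ChartHypA A (resA A) S₀.B S₀.red r S₀.B S₀.sB n₀ {P | S₀.InChart P}
      {Q | 0 ≤ Q.ord (S₀.red S₀.sB)})
    (h₁ : ChartHypA A (resA A) S₁.B S₁.red r S₁.B S₁.sB n₁ {P | S₁.InChart P}
      {Q | 0 ≤ Q.ord (S₁.red S₁.sB)})
    (hinv : S₁.red S₁.sB = (S₀.red S₀.sB)⁻¹)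
    (hfin : FinDiv L ↥FB) (hdeg : ∀ P, (r P).deg = P.deg) :
    IsPlaceRed A (resA A) FB Fk r := by
  have g₀ := changeG h₀ (gaussRing A (resA A) FB Fk) (gaussRed A (resA A) FB Fk) hS₀.le_gaussRing
    (fun b hb => hS₀.gaussRed_eq b hb)
  have g₁ := changeG h₁ (gaussRing A (resA A) FB Fk) (gaussRed A (resA A) FB Fk) hS₁.le_gaussRing
    (fun b hb => hS₁.gaussRed_eq b hb)
  refine isPlaceRed_of_charts r _ _ (gaussBridgeG A (resA A) FB Fk) hfin hdeg
    g₀.toChartHyp g₁.toChartHyp ?_
  intro Q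
  rcases le_total 0 (Q.ord (S₀.red S₀.sB)) with h | h
  · exact Or.inl h
  · right
    show 0 ≤ Q.ord (S₁.red S₁.sB)
    rw [hinv, Q.ord_inv]
    omega

end Charts

/-! ### From a two-chart model -/

section Main

variable {L : Type*} [Field L] [IsAlgClosed L] (A : ValuationSubring L)
variable {FB : IntermediateField L (LaurentSeries L)}
  {Fk : IntermediateField (kA A) (LaurentSeries (kA A))}
variable {x : ↥FB} {hx : IsGen L x}

/-- The analytic inputs on one chart (`RedMain15.ChartInputs` with the two fields general). -/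
structure ChartInputsG (S : ChartSpec A hx ↥Fk) : Prop where
  compat : CompatG A S
  gen : IsGen L S.s
  gent : IsGen (kA A) (S.red S.sB)
  sep : Algebra.IsSeparable (kA A)⟮S.red S.sB⟯ ↥Fk
  peel : ∀ (P : Place L ↥FB) (hP : S.InChart P), S.PeelA P hP
  int : ∀ b : ↥S.B, IsIntegral (Algebra.adjoin (kA A) {S.red S.sB}) (S.red b)
  norm : ∀ z : ↥S.B, z ≠ 0 → ∃ z' : ↥S.B, z' ≠ 0 ∧ ∃ p : L[X],
    ((z : ↥FB) * (z' : ↥FB)) = aeval S.s p
  deg : Module.finrank L⟮S.s⟯ ↥FB = Module.finrank (kA A)⟮S.red S.sB⟯ ↥Fk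

variable {A}
variable (T : TwoCharts A hx ↥Fk)

/-- chart consistency in chart 0: `r P` has valuation ring `O_{rP}`. -/
theorem hr0 (P : Place L ↥FB) (hP : T.S0.InChart P) (y : ↥Fk) :
    y ∈ (T.r P).toValuationSubring ↔ y ∈ T.S0.rSubring P hP := by
  rw [T.r_eq0 P hP]
  exact Iff.rfl

/-- chart consistency in chart 1. -/
theorem hr1 [IsAlgClosed (kA A)] {xt : ↥Fk} (hxt : IsGen (kA A) xt) (P : Place L ↥FB)
    (hP : T.S1.InChart P) (y : ↥Fk) :
    y ∈ (T.r P).toValuationSubring ↔ y ∈ T.S1.rSubring P hP := by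
  rw [T.r_eq1 hxt P hP]
  exact Iff.rfl

/-- tube condition in chart 0. -/
theorem hrmem0 [IsAlgClosed (kA A)] {xt : ↥Fk} (hxt : IsGen (kA A) xt) (P : Place L ↥FB) :
    0 ≤ (T.r P).ord (T.S0.red T.S0.sB) ↔ T.S0.InChart P := by
  constructor
  · intro h
    exact T.inChart0_of_red_mem hxt P (FF.mem_of_ord_nonneg _ h)
  · intro hP
    apply FF.ord_nonneg_of_mem
    rw [T.r_eq0 P hP]
    exact red_mem_rAt T.places0 T.tr0 P hP _

/-- tube condition in chart 1. -/
theorem hrmem1 [IsAlgClosed (kA A)] {xt : ↥Fk} (hxt : IsGen (kA A) xt) (P : Place L ↥FB) :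
    0 ≤ (T.r P).ord (T.S1.red T.S1.sB) ↔ T.S1.InChart P := by
  constructor
  · intro h
    exact T.inChart1_of_red_mem hxt P (FF.mem_of_ord_nonneg _ h)
  · intro hP
    apply FF.ord_nonneg_of_mem
    rw [T.r_eq1 hxt P hP]
    exact red_mem_rAt T.places1 T.tr1 P hP _

/-- **RED-Z**: the global reduction map of two charts satisfying the analytic inputs is a place
reduction. -/
theorem isPlaceRed_twoCharts [CharZero L] [IsAlgClosed (kA A)]
    (h0 : ChartInputsG A T.S0) (h1 : ChartInputsG A T.S1) (hfin : FinDiv L ↥FB)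
    (hdeg : ∀ P, (T.r P).deg = P.deg) : IsPlaceRed A (resA A) FB Fk T.r := by
  have := h0.sep
  have := h1.sep
  have c0 := chartHypA_of_chartSpec_self T.S0 h0.gen h0.gent T.r (hr0 T)
    (hrmem0 T h0.gent) h0.peel h0.int h0.norm h0.deg
  have c1 := chartHypA_of_chartSpec_self T.S1 h1.gen h1.gent T.r (hr1 T h0.gent)
    (hrmem1 T h0.gent) h1.peel h1.int h1.norm h1.deg
  exact isPlaceRed_of_chartSpecs T.r h0.compat h1.compat c0 c1 T.red_s1_eq hfin hdeg

/-- **RED-Z**, with the degrees and the finiteness of divisors discharged (all places have degree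
one over algebraically closed fields; `HasPrincipalDivisors` from the generator). -/
theorem isPlaceRed_twoCharts' [CharZero L] [IsAlgClosed (kA A)]
    (h0 : ChartInputsG A T.S0) (h1 : ChartInputsG A T.S1) :
    IsPlaceRed A (resA A) FB Fk T.r := by
  haveI := FFGenus.hasPrincipalDivisors hx
  have hdeg : ∀ P, (T.r P).deg = P.deg := fun P => by
    rw [FF.deg_eq_one h0.gent (T.r P), FF.deg_eq_one hx P]
  exact isPlaceRed_twoCharts T h0 h1 finDiv_of_hasPrincipalDivisors hdeg

end Main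

end Fermat.Agent.M48.RedZG9
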