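/-
Programme M48, pillar (P1), chapter [RED1], leaf RED-Z — helper9.  **`RedZG9.ChartInputsG` for a
COEFFICIENTWISE chart, generic in the two function fields** (twin of `ES/RED/ChartInputsOf15`).

For `S : ChartSpec A hx ↥Fk` at `F = L · F₀` with `GaloisR3G9.CoeffChartG S` (chart ring = integral
closure of `A[s]`, every element has an `A`-integral `q`-expansion, `red` = coefficientwise
reduction) the fields `compat`, `int`, `norm` of `ChartInputsG` are automatic; what remains are the
generator / separability / degree facts of the special fibre and (PEEL-a).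

* `compatG_of_coeffChartG`, `int_of_coeffChartG`, `norm_of_coeffChartG`,
  **`chartInputsG_of_coeffChartG`**;
* **`isPlaceRed_of_coeffCharts`** : `IsPlaceRed A (residue A) (L · F₀) Fk T.r` for a two-chart model
  with coefficientwise charts, from (PEEL-a) ×2 and the special-fibre facts ×2.
-/
import Mathlib
import Fermat.Agent.M48.RedZG9
import Fermat.Agent.M48.GaloisR3G9
import Fermat.Agent.ES.RED.ChartFacts9
import Fermat.Agent.ES.RED.NormFrac18

set_option autoImplicit false
set_option linter.unusedSectionVars false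
set_option linter.style.haveILetI false
set_option synthInstance.maxHeartbeats 400000

open AlgebraicCurve ModularCurve HahnSeries Polynomial IntermediateField

noncomputable section

namespace Fermat.Agent.M48.ChartInputsOfG9

open Fermat.Agent.ES.RED.Contract8 Fermat.Agent.ES.RED.TwoCharts8
open Fermat.Agent.ES.RED.ChartFacts9 Fermat.Agent.RED.PUR.ChartGeneric22 Fermat.Agent.X0.FF
open Fermat.Agent.M48.RedZG9 Fermat.Agent.M48.GaloisR3G9 Fermat.Agent.M48.RedSpec8

variable {L : Type*} [Field L] [Algebra ℚ L] [IsAlgClosed L] {A : ValuationSubring L}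
  {F₀ : IntermediateField ℚ (LaurentSeries ℚ)} {x : ↥(laurentBaseChange L F₀)} {hx : IsGen L x}
  {Fk : IntermediateField (kA A) (LaurentSeries (kA A))}
variable {S : ChartSpec A hx ↥Fk}

/-- compatibility with `q`-expansions from a `CoeffChartG`. -/
theorem compatG_of_coeffChartG (hS : CoeffChartG (F₀ := F₀) S) : CompatG A S := by
  intro b
  obtain ⟨Y, hY⟩ := hS.exists_series b
  exact ⟨Y, hY, hS.red_eq b Y hY⟩

set_option maxHeartbeats 1000000 in
/-- integrality of the reductions from a `CoeffChartG`. -/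
theorem int_of_coeffChartG (hS : CoeffChartG (F₀ := F₀) S) (b : ↥S.B) :
    IsIntegral (Algebra.adjoin (kA A) {S.red S.sB}) (S.red b) :=
  isIntegral_red_of_mem_chart A (resA A) S.B S.red S.sB
    (fun c hc => (hS.mem_iff c).mpr (adjoin_le_chart S.s hc))
    (fun a _ => S.red_const a) b ((hS.mem_iff b).mp b.2)

/-- the norm property from a `CoeffChartG`. -/
theorem norm_of_coeffChartG (hS : CoeffChartG (F₀ := F₀) S) (hs : IsGen L S.s) (z : ↥S.B)
    (hz : z ≠ 0) :
    ∃ z' : ↥S.B, z' ≠ 0 ∧ ∃ p : L[X],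
      ((z : ↥(laurentBaseChange L F₀)) * (z' : ↥(laurentBaseChange L F₀))) = aeval S.s p := by
  have hzF : (z : ↥(laurentBaseChange L F₀)) ≠ 0 := fun h0 => hz (Subtype.ext h0)
  obtain ⟨z', hz', hz'0, p, e⟩ :=
    Fermat.Agent.ES.RED.NormFrac18.norm_chart A hs.transcendental ((hS.mem_iff z).mp z.2) hzF
  exact ⟨⟨z', (hS.mem_iff z').mpr hz'⟩, fun h0 => hz'0 (congrArg Subtype.val h0), p, e⟩

/-- **`ChartInputsG` for a coefficientwise chart.** -/
theorem chartInputsG_of_coeffChartG (hS : CoeffChartG (F₀ := F₀) S)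
    (gen : IsGen L S.s) (gent : IsGen (kA A) (S.red S.sB))
    (sep : Algebra.IsSeparable (kA A)⟮S.red S.sB⟯ ↥Fk)
    (peel : ∀ (P : Place L ↥(laurentBaseChange L F₀)) (hP : S.InChart P), S.PeelA P hP)
    (deg : Module.finrank L⟮S.s⟯ ↥(laurentBaseChange L F₀) =
      Module.finrank (kA A)⟮S.red S.sB⟯ ↥Fk) :
    ChartInputsG A S where
  compat := compatG_of_coeffChartG hS
  gen := gen
  gent := gent
  sep := sep
  peel := peel
  int := int_of_coeffChartG hS
  norm := norm_of_coeffChartG hS gen
  deg := deg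

/-- **(R-r) for a two-chart model with coefficientwise charts**: the global reduction map is a
place reduction, from (PEEL-a) and the generator / separability / degree facts of the two reduced
coordinates. -/
theorem isPlaceRed_of_coeffCharts [CharZero L] [IsAlgClosed (kA A)] (T : TwoCharts A hx ↥Fk)
    (h0 : CoeffChartG (F₀ := F₀) T.S0) (h1 : CoeffChartG (F₀ := F₀) T.S1)
    (gen0 : IsGen L T.S0.s) (gen1 : IsGen L T.S1.s)
    (gent0 : IsGen (kA A) (T.S0.red T.S0.sB)) (gent1 : IsGen (kA A) (T.S1.red T.S1.sB))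
    (sep0 : Algebra.IsSeparable (kA A)⟮T.S0.red T.S0.sB⟯ ↥Fk)
    (sep1 : Algebra.IsSeparable (kA A)⟮T.S1.red T.S1.sB⟯ ↥Fk)
    (peel0 : ∀ (P : Place L ↥(laurentBaseChange L F₀)) (hP : T.S0.InChart P), T.S0.PeelA P hP)
    (peel1 : ∀ (P : Place L ↥(laurentBaseChange L F₀)) (hP : T.S1.InChart P), T.S1.PeelA P hP)
    (deg0 : Module.finrank L⟮T.S0.s⟯ ↥(laurentBaseChange L F₀) =
      Module.finrank (kA A)⟮T.S0.red T.S0.sB⟯ ↥Fk)
    (deg1 : Module.finrank L⟮T.S1.s⟯ ↥(laurentBaseChange L F₀) =
      Module.finrank (kA A)⟮T.S1.red T.S1.sB⟯ ↥Fk) :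
    IsPlaceRed A (resA A) (laurentBaseChange L F₀) Fk T.r :=
  isPlaceRed_twoCharts' T
    (chartInputsG_of_coeffChartG h0 gen0 gent0 sep0 peel0 deg0)
    (chartInputsG_of_coeffChartG h1 gen1 gent1 sep1 peel1 deg1)

end Fermat.Agent.M48.ChartInputsOfG9
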