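/-
Programme M48, pillar (P1), chapter [RED1], leaf RED-Z — helper9.  **The concrete
`RedZG9.ChartInputsG` for the two-chart model of `X(Γ₁(M) ∩ Γ₀(M L))` and the resulting (R-r)**
(twin of `ES/RED/RedInst15`, which is the `Γ₀` case).

For `2 ≤ M`, `A` over `ℓ ∤ M L`, a Hauptmodul datum `(n, e)` with `t = tq ℚ̄ n e ∈ FK ℚ̄ M L`
(`Red1Iface4.TMem1 n e M L`) and `ℚ̄(t) = Fbar_n` (`Interface12.TGenBase n e`), given
`PurGauss1.IG1 M L`: for any `T : TwoCharts A hx (fieldG10C κ_A M L)` whose two charts are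
coefficientwise (`GaloisR3G9.CoeffChartG`) with `T.S0.s = t` (hence `T.S1.s = t⁻¹`) and satisfy
(PEEL-a):

* `red_sB_eq_tRes`, `red_sB_eq_tRes_inv` : the reduced coordinates are `t̃^{±1}`;
* `chartInputsG_t`, `chartInputsG_t_inv`, **`chartInputsG_both`** : both `RedZG9.ChartInputsG`;
* **`isPlaceRed_main`** : `RedSpec8.IsPlaceRed A (residue A) (FK ℚ̄ M L) (fieldG10C κ_A M L) T.r`
  (= sub-contract (R-r) of `SP1Top8`);
* `coeffChartG_of_iface` : helper4's `Red1Iface4.CoeffChartG` ⇒ `GaloisR3G9.CoeffChartG`;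
* **`exists_of_modelAt1`** : from `Red1Iface4.ModelAt1 A n e M L h` the whole package
  `∃ x hx T, CoeffChartG T.S0 ∧ CoeffChartG T.S1 ∧ T.S0.s = tF1 M L h ∧ ChartInputsG A T.S0 ∧
  ChartInputsG A T.S1 ∧ IsPlaceRed … T.r ∧ IsGen κ_A (T.S0.red T.S0.sB)`.

Nothing is left unproved in this file.  Imported by no statement.
-/
import Mathlib
import Fermat.Agent.M48.SpecialDegG9
import Fermat.Agent.M48.ChartInputsOfG9
import Fermat.Agent.M48.Red1Iface4

set_option autoImplicit false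
set_option linter.unusedSectionVars false
set_option linter.style.haveILetI false
set_option synthInstance.maxHeartbeats 400000

open AlgebraicCurve ModularCurve HahnSeries Polynomial IntermediateField

noncomputable section

namespace Fermat.Agent.M48.RedInstG9

open Fermat.Agent.ES.RED.Contract8 Fermat.Agent.ES.RED.TwoCharts8
open Fermat.Agent.X0 Fermat.Agent.X0.FF Fermat.Agent.RED.BASE Fermat.Agent.RED.BASE.EtaQuot12
open Fermat.Agent.RED.Interface4 (Qbar)
open Fermat.Agent.ES.RED.SpecialInv25 (tqInv)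
open Fermat.Agent.M48.DictIface4 Fermat.Agent.M48.QModel8 Fermat.Agent.M48.PurGauss1
  Fermat.Agent.M48.RedZG9 Fermat.Agent.M48.GaloisR3G9 Fermat.Agent.M48.ChartInputsOfG9
  Fermat.Agent.M48.RedSpec8 Fermat.Agent.M48.SpecialDegG9

/-! ### The two `CoeffChartG` -/

section Iface

variable {Lf : Type*} [Field Lf] [Algebra ℚ Lf] [IsAlgClosed Lf] {A' : ValuationSubring Lf}
  {F₀ : IntermediateField ℚ (LaurentSeries ℚ)} {x' : ↥(laurentBaseChange Lf F₀)}
  {hx' : IsGen Lf x'} {Fk : IntermediateField (kA A') (LaurentSeries (kA A'))}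

/-- helper4's `Red1Iface4.CoeffChartG` is `GaloisR3G9.CoeffChartG`. -/
theorem coeffChartG_of_iface {S : ChartSpec A' hx' ↥Fk}
    (h : Red1Iface4.CoeffChartG (F₀ := F₀) S) : CoeffChartG (F₀ := F₀) S :=
  ⟨h.mem_iff, h.smul_s, h.exists_series, h.red_eq⟩

theorem iface_of_coeffChartG {S : ChartSpec A' hx' ↥Fk}
    (h : CoeffChartG (F₀ := F₀) S) : Red1Iface4.CoeffChartG (F₀ := F₀) S :=
  ⟨h.mem_iff, h.smul_s, h.exists_series, h.red_eq⟩

end Iface

variable (n e M L : ℕ) [NeZero n] [NeZero M] [NeZero L] (hM : 2 ≤ M) (ℓ : ℕ) [Fact ℓ.Prime]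
  (hℓ : ¬ ℓ ∣ M * L) (hIG : IG1 M L)
  (hmem : tq Qbar n e ∈ J1Defs8.FK Qbar M L) (hgen : Interface12.TGenBase n e)
  (A : ValuationSubring Qbar) (hA : A.LiesOverPrime ℓ)
variable {x : ↥(J1Defs8.FK Qbar M L)} {hx : IsGen Qbar x}

include hM hℓ hIG hgen hA

/-- In a coefficientwise chart with coordinate `t`, the reduced coordinate is `t̃`. -/
theorem red_sB_eq_tRes (S : ChartSpec A hx ↥(fieldG10C (kA A) M L))
    (hS : CoeffChartG (F₀ := fieldG10 M L) S) (hs : S.s = tBar n e M L hmem) :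
    S.red S.sB = tRes n e M L hM ℓ hℓ hIG hmem hgen A hA := by
  apply Subtype.ext
  have hY : coeffMap A.subtype (tq ↥A n e) =
      (((S.sB : ↥S.B) : ↥(J1Defs8.FK Qbar M L)) : LaurentSeries Qbar) := by
    rw [← coe_tBar n e M L hmem A, ← hs]
    rfl
  rw [hS.red_eq S.sB _ hY, coe_tRes_eq]

/-- In a coefficientwise chart with coordinate `t⁻¹`, the reduced coordinate is `t̃⁻¹`. -/
theorem red_sB_eq_tRes_inv (S : ChartSpec A hx ↥(fieldG10C (kA A) M L))
    (hS : CoeffChartG (F₀ := fieldG10 M L) S) (hs : S.s = (tBar n e M L hmem)⁻¹) :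
    S.red S.sB = (tRes n e M L hM ℓ hℓ hIG hmem hgen A hA)⁻¹ := by
  apply Subtype.ext
  have hY : coeffMap A.subtype (tqInv ↥A n e) =
      (((S.sB : ↥S.B) : ↥(J1Defs8.FK Qbar M L)) : LaurentSeries Qbar) := by
    rw [← coe_tBar_inv n e M L hmem A, ← hs]
    rfl
  rw [hS.red_eq S.sB _ hY, coe_tRes_inv]

/-- **`ChartInputsG` for the chart with coordinate `t`.** -/
theorem chartInputsG_t (S : ChartSpec A hx ↥(fieldG10C (kA A) M L))
    (hS : CoeffChartG (F₀ := fieldG10 M L) S) (hs : S.s = tBar n e M L hmem)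
    (peel : ∀ (P : Place Qbar ↥(J1Defs8.FK Qbar M L)) (hP : S.InChart P), S.PeelA P hP) :
    ChartInputsG A S := by
  have hred := red_sB_eq_tRes n e M L hM ℓ hℓ hIG hmem hgen A hA S hS hs
  refine chartInputsG_of_coeffChartG hS ?_ ?_ ?_ peel ?_
  · rw [hs]; exact isGen_tBar n e M L hM hmem hgen
  · rw [hred]; exact isGen_tRes n e M L hM ℓ hℓ hIG hmem hgen A hA
  · rw [hred]; exact isSeparable_tRes n e M L hM ℓ hℓ hIG hmem hgen A hA
  · rw [hred, hs, finrank_tRes]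

/-- **`ChartInputsG` for the chart with coordinate `t⁻¹`.** -/
theorem chartInputsG_t_inv (S : ChartSpec A hx ↥(fieldG10C (kA A) M L))
    (hS : CoeffChartG (F₀ := fieldG10 M L) S) (hs : S.s = (tBar n e M L hmem)⁻¹)
    (peel : ∀ (P : Place Qbar ↥(J1Defs8.FK Qbar M L)) (hP : S.InChart P), S.PeelA P hP) :
    ChartInputsG A S := by
  have hred := red_sB_eq_tRes_inv n e M L hM ℓ hℓ hIG hmem hgen A hA S hS hs
  refine chartInputsG_of_coeffChartG hS ?_ ?_ ?_ peel ?_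
  · rw [hs]; exact isGen_tBar_inv n e M L hM hmem hgen
  · rw [hred]; exact isGen_tRes_inv n e M L hM ℓ hℓ hIG hmem hgen A hA
  · rw [hred]; exact isSeparable_tRes_inv n e M L hM ℓ hℓ hIG hmem hgen A hA
  · rw [hred, hs, finrank_tRes_inv_eq]

variable (T : TwoCharts A hx ↥(fieldG10C (kA A) M L))

/-- Both `ChartInputsG` for a concrete `TwoCharts`. -/
theorem chartInputsG_both
    (hS0 : CoeffChartG (F₀ := fieldG10 M L) T.S0) (hS1 : CoeffChartG (F₀ := fieldG10 M L) T.S1)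
    (hs0 : T.S0.s = tBar n e M L hmem)
    (peel0 : ∀ (P : Place Qbar ↥(J1Defs8.FK Qbar M L)) (hP : T.S0.InChart P), T.S0.PeelA P hP)
    (peel1 : ∀ (P : Place Qbar ↥(J1Defs8.FK Qbar M L)) (hP : T.S1.InChart P), T.S1.PeelA P hP) :
    ChartInputsG A T.S0 ∧ ChartInputsG A T.S1 :=
  ⟨chartInputsG_t n e M L hM ℓ hℓ hIG hmem hgen A hA T.S0 hS0 hs0 peel0,
    chartInputsG_t_inv n e M L hM ℓ hℓ hIG hmem hgen A hA T.S1 hS1 (by rw [T.s_inv, hs0]) peel1⟩

/-- **(R-r), concrete**: the global reduction map of the two-chart model of the `G10` model is a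
place reduction. -/
theorem isPlaceRed_main
    (hS0 : CoeffChartG (F₀ := fieldG10 M L) T.S0) (hS1 : CoeffChartG (F₀ := fieldG10 M L) T.S1)
    (hs0 : T.S0.s = tBar n e M L hmem)
    (peel0 : ∀ (P : Place Qbar ↥(J1Defs8.FK Qbar M L)) (hP : T.S0.InChart P), T.S0.PeelA P hP)
    (peel1 : ∀ (P : Place Qbar ↥(J1Defs8.FK Qbar M L)) (hP : T.S1.InChart P), T.S1.PeelA P hP) :
    IsPlaceRed A (resA A) (J1Defs8.FK Qbar M L) (fieldG10C (kA A) M L) T.r := by
  haveI : IsAlgClosed (kA A) := Fermat.Agent.ES.KRON.KronInst10.isAlgClosed_residueField A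
  obtain ⟨h0, h1⟩ := chartInputsG_both n e M L hM ℓ hℓ hIG hmem hgen A hA T hS0 hS1 hs0 peel0 peel1
  exact isPlaceRed_twoCharts' T h0 h1

/-! ### From helper4's `ModelAt1` -/

/-- **The whole (R-r) package from `Red1Iface4.ModelAt1`.** -/
theorem exists_of_modelAt1 (h : Red1Iface4.TMem1 n e M L)
    (hmodel : Red1Iface4.ModelAt1 A n e M L h) :
    ∃ (x : Red1Iface4.F1b M L) (hx : IsGen Qbar x)
      (T : TwoCharts A hx ↥(fieldG10C (kA A) M L)),
      CoeffChartG (F₀ := fieldG10 M L) T.S0 ∧ CoeffChartG (F₀ := fieldG10 M L) T.S1 ∧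
      T.S0.s = Red1Iface4.tF1 M L h ∧
      ChartInputsG A T.S0 ∧ ChartInputsG A T.S1 ∧
      IsPlaceRed A (resA A) (J1Defs8.FK Qbar M L) (fieldG10C (kA A) M L) T.r ∧
      IsGen (kA A) (T.S0.red T.S0.sB) := by
  obtain ⟨x, hx, T, hS0, hS1, hs0, peel0, peel1⟩ := hmodel
  have hS0' := coeffChartG_of_iface hS0
  have hS1' := coeffChartG_of_iface hS1
  have hs0' : T.S0.s = tBar n e M L h := hs0
  obtain ⟨h0, h1⟩ := chartInputsG_both n e M L hM ℓ hℓ hIG h hgen A hA T hS0' hS1' hs0' peel0 peel1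
  exact ⟨x, hx, T, hS0', hS1', hs0, h0, h1,
    isPlaceRed_main n e M L hM ℓ hℓ hIG h hgen A hA T hS0' hS1' hs0' peel0 peel1, h0.gent⟩

end Fermat.Agent.M48.RedInstG9
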