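/-
Programme M48, pillar (P1), chapter [RED1] / [ESRED-MODEL], chart group (helper8), file 5:
**the two charts `chart A t`, `chart A t⁻¹` over `A ≤ ℚ̄` as `Contract8.ChartSpec`s, the
`TwoCharts` structure and (PEEL-a), for an ARBITRARY model field `F₀ ≤ ℚ((q))`, an ARBITRARY
special-fibre field `Fk ≤ κ_A((q))` and a coordinate `t ∈ ℚ̄·F₀` with `q`-expansion `tq ℚ̄ n e`; and
the instance `ModelAt1 A n e M L h` for the model `fieldG10 M L`.**

Generic twin of `ES/RED/{ChartInst1, ChartInstGen4, ChartInstCompat1, ModelInst4}` (helper1, helper4,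
Program I) on top of helper5's `ChartIntegralG5` (`intF`, `redChart`, `LevelSat`, `exists_content`) and
`ModelExplicitG8.ModelAtG`.  The generic `ChartSpecOfChart18.chartSpecOfChart`, `Overlap23`,
`ModelInstGen4` (`HasLevels`, `PIRHyp`, `twoChartsOf`, `peelA_of_levels`), `Tr0Inst18`, `PIRInst13` are
used as they are.

Part 1 (generic `t`): `chartSpecG`, `exists_series_chartSpecG`, `red_eq_chartSpecG`,
`coeffChartG_chartSpecG` (helper9's `GaloisR3G9.CoeffChartG`).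
Part 2 (`t` with expansion `tq ℚ̄ n e`): `t_mem_intF`, `t_inv_mem_intF`, `levelSat_of_modelAt`,
`levelSat_inv_of_modelAt`, `S0`, `S1` (`.s = t`, `.s = t⁻¹`, `.B = (chart A _).toSubring` by `rfl`),
`coeffChart0/1`, `coe_red_s0/1`, `tr0`, `red_s_mul`, `ov0`, `twoCharts … hlev0 hlev1 hpir`, `peelA0/1`.
Part 3 (`F₀ = fieldG10 M L`, `Fk = fieldG10C κ_A M L`): `r0A_G10`, `pirHyp_G10`, `S0G`, `S1G`,
`twoChartsG`, **`modelAt1_of_levels`** : `Red1Iface4.ModelAt1 A n e M L h` from `IG1 M L`,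
`TGenBase n e`, the two `LevelSat` and the two `HasLevels`.

Nothing is left unproved in this file.  Imported by no statement.
-/
import Mathlib
import Fermat.Agent.ES.RED.ModelInst4
import Fermat.Agent.M48.ModelExplicitG8
import Fermat.Agent.M48.RedInstG9

set_option autoImplicit false
set_option linter.unusedSectionVars false
set_option synthInstance.maxHeartbeats 400000

open HahnSeries ModularCurve AlgebraicCurve

noncomputable section

namespace Fermat.Agent.M48.ModelInstG8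

open Fermat.Agent.RED.Interface4 Fermat.Agent.RED.PUR.ChartGeneric22
  Fermat.Agent.RED.BASE.Interface12 Fermat.Agent.RED.BASE.EtaQuot12
  Fermat.Agent.RED.PUR.GaussGen8 Fermat.Agent.RED.DESC.NumberFieldDVR27
  Fermat.Agent.ES.RED.Contract8 Fermat.Agent.ES.RED.TwoCharts8 Fermat.Agent.ES.RED.ModelInstGen4
  Fermat.Agent.ES.RED.ChartSpecOfChart18 Fermat.Agent.ES.RED.SpecialInv25 Fermat.Agent.X0.FF
  Fermat.Agent.M48.DescG0 Fermat.Agent.M48.ModelExplicitG8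
open Fermat.Agent.M48.ChartIntegralG5 hiding kA

/-! ### Part 1: the chart with a general coordinate -/

section Spec

variable {A : ValuationSubring Qbar} {F₀ : IntermediateField ℚ (LaurentSeries ℚ)}
  {Fk : IntermediateField (kA A) (LaurentSeries (kA A))}
  (hGB : GB1 A F₀) (hR : R0A A F₀ Fk) (ℓ : ℕ) [Fact ℓ.Prime] (hA : A.LiesOverPrime ℓ)
variable {x : ↥(FBg F₀)} (hx : IsGen Qbar x)

/-- **The chart over `A` with coordinate `t`** (twin of `ChartInstGen4.chartSpecA`). -/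
def chartSpecG (t : ↥(FBg F₀)) (ht : t ∈ intF A F₀) (hgen : IsGen Qbar t)
    (hsat : LevelSat hGB t) : ChartSpec A hx ↥Fk :=
  chartSpecOfChart A hx t hgen (redChart hGB hR ℓ hA ht)
    (fun a => redChart_const hGB hR ℓ hA ht a)
    (fun b hb0 => exists_content hGB hR ℓ hA ht hsat b hb0)

@[simp] theorem chartSpecG_s (t : ↥(FBg F₀)) (ht : t ∈ intF A F₀) (hgen : IsGen Qbar t)
    (hsat : LevelSat hGB t) : (chartSpecG hGB hR ℓ hA hx t ht hgen hsat).s = t := rfl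

@[simp] theorem chartSpecG_B (t : ↥(FBg F₀)) (ht : t ∈ intF A F₀) (hgen : IsGen Qbar t)
    (hsat : LevelSat hGB t) :
    (chartSpecG hGB hR ℓ hA hx t ht hgen hsat).B = (chart ↥A t).toSubring := rfl

@[simp] theorem chartSpecG_red (t : ↥(FBg F₀)) (ht : t ∈ intF A F₀) (hgen : IsGen Qbar t)
    (hsat : LevelSat hGB t) :
    (chartSpecG hGB hR ℓ hA hx t ht hgen hsat).red = redChart hGB hR ℓ hA ht := rfl

/-- every element of the chart ring has an `A`-series. -/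
theorem exists_series_chartSpecG (t : ↥(FBg F₀)) (ht : t ∈ intF A F₀) (hgen : IsGen Qbar t)
    (hsat : LevelSat hGB t) (b : ↥(chartSpecG hGB hR ℓ hA hx t ht hgen hsat).B) :
    ∃ Y : LaurentSeries ↥A,
      coeffMap A.subtype Y = ((b : ↥(FBg F₀)) : LaurentSeries Qbar) :=
  (mem_intF_iff A F₀).mp (chart_le_intF hGB ℓ hA ht b.2)

/-- the reduction is the coefficientwise reduction of the `A`-series. -/
theorem red_eq_chartSpecG (t : ↥(FBg F₀)) (ht : t ∈ intF A F₀) (hgen : IsGen Qbar t)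
    (hsat : LevelSat hGB t) (b : ↥(chartSpecG hGB hR ℓ hA hx t ht hgen hsat).B)
    (Y : LaurentSeries ↥A)
    (hY : coeffMap A.subtype Y = ((b : ↥(FBg F₀)) : LaurentSeries Qbar)) :
    (((chartSpecG hGB hR ℓ hA hx t ht hgen hsat).red b : ↥Fk) :
        LaurentSeries (kA A)) = coeffMap (resA A) Y :=
  coe_redChart_eq_of hGB hR ℓ hA ht b hY

/-- **(R3) interface**: the chart is coefficientwise (for `t` with rational coefficients). -/
theorem coeffChartG_chartSpecG (t : ↥(FBg F₀)) (ht : t ∈ intF A F₀) (hgen : IsGen Qbar t)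
    (hsat : LevelSat hGB t)
    (hsσ : ∀ σ : Qbar ≃ₐ[ℚ] Qbar, coeffMap ((σ : Qbar ≃+* Qbar) : Qbar →+* Qbar)
      ((t : ↥(FBg F₀)) : LaurentSeries Qbar) = ((t : ↥(FBg F₀)) : LaurentSeries Qbar)) :
    GaloisR3G9.CoeffChartG (F₀ := F₀) (chartSpecG hGB hR ℓ hA hx t ht hgen hsat) where
  mem_iff _ := Iff.rfl
  smul_s σ := Subtype.ext (hsσ σ)
  exists_series b := exists_series_chartSpecG hGB hR ℓ hA hx t ht hgen hsat b
  red_eq b Y hY := red_eq_chartSpecG hGB hR ℓ hA hx t ht hgen hsat b Y hY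

end Spec

/-! ### Part 2: the two charts of a coordinate with expansion `tq ℚ̄ n e` -/

section TwoCharts

variable {A : ValuationSubring Qbar} {F₀ : IntermediateField ℚ (LaurentSeries ℚ)}
  {Fk : IntermediateField (kA A) (LaurentSeries (kA A))}
  (hGB : GB1 A F₀) (hR : R0A A F₀ Fk) (ℓ : ℕ) [Fact ℓ.Prime] (hA : A.LiesOverPrime ℓ)
  {n e : ℕ} [NeZero n] (t : ↥(FBg F₀))
  (htq : ((t : ↥(FBg F₀)) : LaurentSeries Qbar) = tq Qbar n e) (hgen : IsGen Qbar t)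

include htq in
/-- `t` has the `A`-integral expansion `tq A n e`. -/
theorem t_mem_intF : t ∈ intF A F₀ :=
  (mem_intF_iff A F₀).mpr ⟨tq ↥A n e, by rw [coeffMap_tq, htq]⟩

include htq in
theorem coe_inv_eq : (((t⁻¹ : ↥(FBg F₀)) : ↥(FBg F₀)) : LaurentSeries Qbar) = (tq Qbar n e)⁻¹ := by
  rw [← htq]
  rfl

include htq in
/-- `t⁻¹` has the `A`-integral expansion `tqInv A n e`. -/
theorem t_inv_mem_intF : t⁻¹ ∈ intF A F₀ := by
  refine (mem_intF_iff A F₀).mpr ⟨tqInv ↥A n e, ?_⟩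
  rw [coeffMap_tqInv, tqInv_eq_inv, coe_inv_eq t htq]

include htq in
theorem coe_eq_tq_of_baseChangeHom (K : IntermediateField ℚ Qbar) (tK : FKg F₀ K)
    (h : baseChangeHom F₀ K tK = t) : ((tK : FKg F₀ K) : LaurentSeries K) = tq K n e := by
  apply Fermat.Agent.RED.DESC.CoeffDescent1.coeffMap_injective (algebraMap K Qbar)
  rw [coeffMap_tq, ← coe_baseChangeHom, h, htq]

include htq in
/-- level-`K` saturation of the chart of `t` from the two-chart models. -/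
theorem levelSat_of_modelAt (hmodel : ModelAtG hGB n e) : LevelSat hGB t := by
  obtain ⟨K₀, hfin, H⟩ := hmodel
  refine ⟨K₀, hfin, fun K hK hle ϖ hϖ hu tK htK => ?_⟩
  have hm := (H K hK hle).2 ϖ hϖ hu tK (coe_eq_tq_of_baseChangeHom t htq K tK htK)
  exact hm.sat0

include htq in
/-- level-`K` saturation of the chart of `t⁻¹` from the two-chart models. -/
theorem levelSat_inv_of_modelAt (hmodel : ModelAtG hGB n e) : LevelSat hGB t⁻¹ := by
  obtain ⟨K₀, hfin, H⟩ := hmodel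
  refine ⟨K₀, hfin, fun K hK hle ϖ hϖ hu tK htK => ?_⟩
  have h1 : baseChangeHom F₀ K tK⁻¹ = t := by
    rw [map_inv₀, htK, inv_inv]
  have hm := (H K hK hle).2 ϖ hϖ hu tK⁻¹ (coe_eq_tq_of_baseChangeHom t htq K tK⁻¹ h1)
  have h2 := hm.sat1
  rw [inv_inv] at h2
  exact h2

variable (hsat0 : LevelSat hGB t) (hsat1 : LevelSat hGB t⁻¹)

/-- **Chart 0**: coordinate `t`. -/
def S0 : ChartSpec A hgen ↥Fk :=
  chartSpecG hGB hR ℓ hA hgen t (t_mem_intF t htq) hgen hsat0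

/-- **Chart 1**: coordinate `t⁻¹`. -/
def S1 : ChartSpec A hgen ↥Fk :=
  chartSpecG hGB hR ℓ hA hgen t⁻¹ (t_inv_mem_intF t htq) hgen.inv hsat1

@[simp] theorem S0_s : (S0 hGB hR ℓ hA t htq hgen hsat0).s = t := rfl

@[simp] theorem S1_s : (S1 hGB hR ℓ hA t htq hgen hsat1).s = t⁻¹ := rfl

theorem S0_B : (S0 hGB hR ℓ hA t htq hgen hsat0).B = (chart ↥A t).toSubring := rfl

theorem S1_B : (S1 hGB hR ℓ hA t htq hgen hsat1).B = (chart ↥A t⁻¹).toSubring := rfl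

include htq in
/-- the coordinates have rational coefficients. -/
theorem coeffMap_sigma_t (σ : Qbar ≃ₐ[ℚ] Qbar) :
    coeffMap ((σ : Qbar ≃+* Qbar) : Qbar →+* Qbar)
      ((t : ↥(FBg F₀)) : LaurentSeries Qbar) = ((t : ↥(FBg F₀)) : LaurentSeries Qbar) := by
  rw [htq]
  exact coeffMap_tq Qbar ((σ : Qbar ≃+* Qbar) : Qbar →+* Qbar) n e

include htq in
theorem coeffMap_sigma_t_inv (σ : Qbar ≃ₐ[ℚ] Qbar) :
    coeffMap ((σ : Qbar ≃+* Qbar) : Qbar →+* Qbar)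
      (((t⁻¹ : ↥(FBg F₀)) : ↥(FBg F₀)) : LaurentSeries Qbar) =
        (((t⁻¹ : ↥(FBg F₀)) : ↥(FBg F₀)) : LaurentSeries Qbar) := by
  rw [coe_inv_eq t htq, map_inv₀, coeffMap_tq]

/-- (R3) interface, chart 0. -/
theorem coeffChart0 :
    GaloisR3G9.CoeffChartG (F₀ := F₀) (S0 hGB hR ℓ hA t htq hgen hsat0) :=
  coeffChartG_chartSpecG hGB hR ℓ hA hgen t (t_mem_intF t htq) hgen hsat0
    (coeffMap_sigma_t t htq)

/-- (R3) interface, chart 1. -/
theorem coeffChart1 :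
    GaloisR3G9.CoeffChartG (F₀ := F₀) (S1 hGB hR ℓ hA t htq hgen hsat1) :=
  coeffChartG_chartSpecG hGB hR ℓ hA hgen t⁻¹ (t_inv_mem_intF t htq) hgen.inv hsat1
    (coeffMap_sigma_t_inv t htq)

/-- **`red₀ t = t̃`**, on expansions. -/
theorem coe_red_s0 :
    (((S0 hGB hR ℓ hA t htq hgen hsat0).red (S0 hGB hR ℓ hA t htq hgen hsat0).sB : ↥Fk) :
      LaurentSeries (kA A)) = tq (kA A) n e := by
  have h := red_eq_chartSpecG hGB hR ℓ hA hgen t (t_mem_intF t htq) hgen hsat0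
    (S0 hGB hR ℓ hA t htq hgen hsat0).sB (tq ↥A n e)
    (by rw [coeffMap_tq]; exact htq.symm)
  exact h.trans (coeffMap_tq ↥A (resA A) n e)

/-- **`red₁ t⁻¹ = t̃⁻¹`**, on expansions. -/
theorem coe_red_s1 :
    (((S1 hGB hR ℓ hA t htq hgen hsat1).red (S1 hGB hR ℓ hA t htq hgen hsat1).sB : ↥Fk) :
      LaurentSeries (kA A)) = (tq (kA A) n e)⁻¹ := by
  have h : coeffMap A.subtype (tqInv ↥A n e) =
      ((((S1 hGB hR ℓ hA t htq hgen hsat1).sB : ↥(S1 hGB hR ℓ hA t htq hgen hsat1).B) :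
        ↥(FBg F₀)) : LaurentSeries Qbar) := by
    rw [coeffMap_tqInv, tqInv_eq_inv]
    exact (coe_inv_eq t htq).symm
  have h2 := red_eq_chartSpecG hGB hR ℓ hA hgen t⁻¹ (t_inv_mem_intF t htq) hgen.inv hsat1
    (S1 hGB hR ℓ hA t htq hgen hsat1).sB (tqInv ↥A n e) h
  refine h2.trans ?_
  rw [coeffMap_tqInv, tqInv_eq_inv]

/-- **`tr0`**. -/
theorem tr0 : Transcendental (kA A)
    ((S0 hGB hR ℓ hA t htq hgen hsat0).red (S0 hGB hR ℓ hA t htq hgen hsat0).sB) :=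
  Fermat.Agent.ES.RED.Tr0Inst18.transcendental_of_coe_eq_tq n e Fk _
    (coe_red_s0 hGB hR ℓ hA t htq hgen hsat0)

/-- the overlap: `red₀ t · red₁ t⁻¹ = 1`. -/
theorem red_s_mul :
    (S0 hGB hR ℓ hA t htq hgen hsat0).red (S0 hGB hR ℓ hA t htq hgen hsat0).sB *
      (S1 hGB hR ℓ hA t htq hgen hsat1).red (S1 hGB hR ℓ hA t htq hgen hsat1).sB = 1 :=
  Fermat.Agent.ES.RED.Overlap23.red_s_mul_of_series A (FBg F₀) Fk t _ _
    (fun b hb => exists_series_chartSpecG hGB hR ℓ hA hgen t (t_mem_intF t htq) hgen hsat0 ⟨b, hb⟩)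
    (fun b hb => exists_series_chartSpecG hGB hR ℓ hA hgen t⁻¹ (t_inv_mem_intF t htq) hgen.inv
      hsat1 ⟨b, hb⟩)
    (fun b Y hY => red_eq_chartSpecG hGB hR ℓ hA hgen t (t_mem_intF t htq) hgen hsat0 b Y hY)
    (fun b Y hY => red_eq_chartSpecG hGB hR ℓ hA hgen t⁻¹ (t_inv_mem_intF t htq) hgen.inv hsat1
      b Y hY)
    hgen.ne_zero

/-- the overlap: `B₁ ⊆ B₀[1/t]`, compatibly with the reductions. -/
theorem ov0 (b : ↥(S1 hGB hR ℓ hA t htq hgen hsat1).B) :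
    ∃ (m : ℕ) (b0 : ↥(S0 hGB hR ℓ hA t htq hgen hsat0).B),
      (b0 : ↥(FBg F₀)) = (S0 hGB hR ℓ hA t htq hgen hsat0).s ^ m * (b : ↥(FBg F₀)) ∧
      (S0 hGB hR ℓ hA t htq hgen hsat0).red b0 =
        (S0 hGB hR ℓ hA t htq hgen hsat0).red (S0 hGB hR ℓ hA t htq hgen hsat0).sB ^ m *
          (S1 hGB hR ℓ hA t htq hgen hsat1).red b :=
  Fermat.Agent.ES.RED.Overlap23.ov0_of_series A (FBg F₀) Fk t _ _
    (fun b hb => exists_series_chartSpecG hGB hR ℓ hA hgen t (t_mem_intF t htq) hgen hsat0 ⟨b, hb⟩)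
    (fun b hb => exists_series_chartSpecG hGB hR ℓ hA hgen t⁻¹ (t_inv_mem_intF t htq) hgen.inv
      hsat1 ⟨b, hb⟩)
    (fun b Y hY => red_eq_chartSpecG hGB hR ℓ hA hgen t (t_mem_intF t htq) hgen hsat0 b Y hY)
    (fun b Y hY => red_eq_chartSpecG hGB hR ℓ hA hgen t⁻¹ (t_inv_mem_intF t htq) hgen.inv hsat1
      b Y hY)
    hgen.ne_zero b

variable (hlev0 : HasLevels (S0 hGB hR ℓ hA t htq hgen hsat0))
  (hlev1 : HasLevels (S1 hGB hR ℓ hA t htq hgen hsat1)) (hpir : PIRHyp A ↥Fk)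

/-- **The two-chart structure over `A`.** -/
def twoCharts : TwoCharts A hgen ↥Fk :=
  twoChartsOf (S0 hGB hR ℓ hA t htq hgen hsat0) (S1 hGB hR ℓ hA t htq hgen hsat1)
    hgen.ne_zero rfl
    (red_s_mul hGB hR ℓ hA t htq hgen hsat0 hsat1)
    (ov0 hGB hR ℓ hA t htq hgen hsat0 hsat1) hlev0 hlev1
    (tr0 hGB hR ℓ hA t htq hgen hsat0) hpir

@[simp] theorem twoCharts_S0 :
    (twoCharts hGB hR ℓ hA t htq hgen hsat0 hsat1 hlev0 hlev1 hpir).S0 =
      S0 hGB hR ℓ hA t htq hgen hsat0 := rfl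

@[simp] theorem twoCharts_S1 :
    (twoCharts hGB hR ℓ hA t htq hgen hsat0 hsat1 hlev0 hlev1 hpir).S1 =
      S1 hGB hR ℓ hA t htq hgen hsat1 := rfl

include hlev0 hpir in
/-- **(PEEL-a)** on chart 0. -/
theorem peelA0 (P : Place Qbar ↥(FBg F₀)) (hP : (S0 hGB hR ℓ hA t htq hgen hsat0).InChart P) :
    (S0 hGB hR ℓ hA t htq hgen hsat0).PeelA P hP :=
  peelA_of_levels hlev0 (tr0 hGB hR ℓ hA t htq hgen hsat0) hpir P hP

include hsat0 hlev1 hpir in
/-- **(PEEL-a)** on chart 1. -/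
theorem peelA1 (P : Place Qbar ↥(FBg F₀)) (hP : (S1 hGB hR ℓ hA t htq hgen hsat1).InChart P) :
    (S1 hGB hR ℓ hA t htq hgen hsat1).PeelA P hP :=
  peelA_of_levels hlev1
    (transcendental_of_mul_eq_one (tr0 hGB hR ℓ hA t htq hgen hsat0)
      (red_s_mul hGB hR ℓ hA t htq hgen hsat0 hsat1))
    hpir P hP

end TwoCharts

/-! ### Part 3: the model `fieldG10 M L` -/

section G10

open Fermat.Agent.M48.DictIface4 Fermat.Agent.M48.QModel8 Fermat.Agent.M48.Red1Iface4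
  Fermat.Agent.M48.SpecialDegG9

variable (n e M L : ℕ) [NeZero n] [NeZero M] [NeZero L] (hM : 2 ≤ M) (ℓ : ℕ) [Fact ℓ.Prime]
  (hℓ : ¬ ℓ ∣ M * L) (hIG : PurGauss1.IG1 M L)
  (h : TMem1 n e M L) (hgenB : TGenBase n e)
  (A : ValuationSubring Qbar) (hA : A.LiesOverPrime ℓ)

include hM hℓ hIG hA in
/-- **(R0a) over `A`** for the `G10` model (helper9's `GaussUnitG9.resField_FK_eq`). -/
theorem r0A_G10 : R0A A (fieldG10 M L) (fieldG10C (kA A) M L) :=
  r0A_of_resField ⟨⊥, inferInstance, fun K hK _ => by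
    have := hK
    exact le_of_eq (GaussUnitG9.resField_FK_eq A K ℓ hA M L hM hℓ hIG)⟩

include hM hℓ hIG h hgenB hA in
/-- **(PIR) for the special fibre** `fieldG10C κ_A M L` (helper9's `isGen_tRes`, `isSeparable_tRes`). -/
theorem pirHyp_G10 : PIRHyp A ↥(fieldG10C (kA A) M L) := by
  have := isSeparable_tRes n e M L hM ℓ hℓ hIG h hgenB A hA
  exact Fermat.Agent.ES.RED.PIRInst13.pirHyp_of_isGen
    (isGen_tRes n e M L hM ℓ hℓ hIG h hgenB A hA)

include hM hgenB in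
/-- `t = tF1 M L h` is a transcendental generator of `F1b M L`. -/
theorem isGen_tF1 : IsGen Qbar (tF1 M L h) := isGen_tBar n e M L hM h hgenB

variable (hsat0 : LevelSat (gb1 A M L) (tF1 M L h)) (hsat1 : LevelSat (gb1 A M L) (tF1 M L h)⁻¹)

/-- **Chart 0 of the `G10` model** (coordinate `t = tF1 M L h`). -/
def S0G : ChartSpec A (isGen_tF1 n e M L hM h hgenB) ↥(fieldG10C (kA A) M L) :=
  S0 (gb1 A M L) (r0A_G10 M L hM ℓ hℓ hIG A hA) ℓ hA (tF1 M L h) rfl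
    (isGen_tF1 n e M L hM h hgenB) hsat0

/-- **Chart 1 of the `G10` model** (coordinate `t⁻¹`). -/
def S1G : ChartSpec A (isGen_tF1 n e M L hM h hgenB) ↥(fieldG10C (kA A) M L) :=
  S1 (gb1 A M L) (r0A_G10 M L hM ℓ hℓ hIG A hA) ℓ hA (tF1 M L h) rfl
    (isGen_tF1 n e M L hM h hgenB) hsat1

@[simp] theorem S0G_s : (S0G n e M L hM ℓ hℓ hIG h hgenB A hA hsat0).s = tF1 M L h := rfl

@[simp] theorem S1G_s : (S1G n e M L hM ℓ hℓ hIG h hgenB A hA hsat1).s = (tF1 M L h)⁻¹ := rfl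

theorem coeffChart0G : GaloisR3G9.CoeffChartG (F₀ := fieldG10 M L)
    (S0G n e M L hM ℓ hℓ hIG h hgenB A hA hsat0) :=
  coeffChart0 (gb1 A M L) (r0A_G10 M L hM ℓ hℓ hIG A hA) ℓ hA (tF1 M L h) rfl
    (isGen_tF1 n e M L hM h hgenB) hsat0

theorem coeffChart1G : GaloisR3G9.CoeffChartG (F₀ := fieldG10 M L)
    (S1G n e M L hM ℓ hℓ hIG h hgenB A hA hsat1) :=
  coeffChart1 (gb1 A M L) (r0A_G10 M L hM ℓ hℓ hIG A hA) ℓ hA (tF1 M L h) rfl
    (isGen_tF1 n e M L hM h hgenB) hsat1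

variable (hlev0 : HasLevels (S0G n e M L hM ℓ hℓ hIG h hgenB A hA hsat0))
  (hlev1 : HasLevels (S1G n e M L hM ℓ hℓ hIG h hgenB A hA hsat1))

/-- **The two-chart structure of the `G10` model over `A`.** -/
def twoChartsG :
    TwoCharts A (isGen_tF1 n e M L hM h hgenB) ↥(fieldG10C (kA A) M L) :=
  twoCharts (gb1 A M L) (r0A_G10 M L hM ℓ hℓ hIG A hA) ℓ hA (tF1 M L h) rfl
    (isGen_tF1 n e M L hM h hgenB) hsat0 hsat1 hlev0 hlev1
    (pirHyp_G10 n e M L hM ℓ hℓ hIG h hgenB A hA)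

@[simp] theorem twoChartsG_S0 :
    (twoChartsG n e M L hM ℓ hℓ hIG h hgenB A hA hsat0 hsat1 hlev0 hlev1).S0 =
      S0G n e M L hM ℓ hℓ hIG h hgenB A hA hsat0 := rfl

@[simp] theorem twoChartsG_S1 :
    (twoChartsG n e M L hM ℓ hℓ hIG h hgenB A hA hsat0 hsat1 hlev0 hlev1).S1 =
      S1G n e M L hM ℓ hℓ hIG h hgenB A hA hsat1 := rfl

include hlev0 hlev1 in
/-- **The model input of the top for the pair `(M, L)`**: `Red1Iface4.ModelAt1 A n e M L h` from the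
Igusa input, the old BASE fact `TGenBase n e`, level-`K` saturation and the level systems of the two
charts. -/
theorem modelAt1_of_levels : ModelAt1 A n e M L h := by
  refine ⟨tF1 M L h, isGen_tF1 n e M L hM h hgenB,
    twoChartsG n e M L hM ℓ hℓ hIG h hgenB A hA hsat0 hsat1 hlev0 hlev1, ?_, ?_, rfl, ?_, ?_⟩
  · exact RedInstG9.iface_of_coeffChartG (coeffChart0G n e M L hM ℓ hℓ hIG h hgenB A hA hsat0)
  · exact RedInstG9.iface_of_coeffChartG (coeffChart1G n e M L hM ℓ hℓ hIG h hgenB A hA hsat1)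
  · intro P hP
    exact peelA0 (gb1 A M L) (r0A_G10 M L hM ℓ hℓ hIG A hA) ℓ hA (tF1 M L h) rfl
      (isGen_tF1 n e M L hM h hgenB) hsat0 hlev0 (pirHyp_G10 n e M L hM ℓ hℓ hIG h hgenB A hA) P hP
  · intro P hP
    exact peelA1 (gb1 A M L) (r0A_G10 M L hM ℓ hℓ hIG A hA) ℓ hA (tF1 M L h) rfl
      (isGen_tF1 n e M L hM h hgenB) hsat0 hsat1 hlev1
      (pirHyp_G10 n e M L hM ℓ hℓ hIG h hgenB A hA) P hP

end G10

end Fermat.Agent.M48.ModelInstG8
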