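/-
M48 (P1), [RED1], chapter [ESRED-MODEL] (helper1): **`Red1Iface4.ModelAt1`, UNCONDITIONALLY, in the shape of
the two model hypotheses of `S48Final0.s48_of_cuspFam`** — the top of the chart group + LEVELS/PEEL.

* `hasLevels_of_modelAtK1` (twin of `ES/RED/ModelInstLevels4.hasLevels_of_levelAt`): a coefficientwise
  chart `S` of the `G10` model (`GaloisR3G9.CoeffChartG S`) with coordinate `t = tF1 M L h` or `t⁻¹` has
  level systems at every place, from the explicit two-chart models over the number fields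
  (`ModelExplicit1.ModelAtK1`): levels `LevelsInst1.LevelAt` from `LevelAtInv1.levelAt_tq_both_gaussVS`,
  `(L4)` from helper7's `L4Inst7`, closed centres from `LevelMax17.exists_pow_eq_self`, and the generic
  `LevelsMain1.chartLevels`;
* `modelAt1_of_modelAtK1` : `Red1Iface4.ModelAt1 A n e M L h` from `IG1 M L`, `TGenBase n e` and
  `ModelAtK1 A n e M L` (helper8's `ModelInstG8.modelAt1_of_levels`; level-`K` saturation from the model);
* **`hmodel_four`, `hmodel_nine`** : the two hypotheses `hmodel4`, `hmodel9` of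
  `S48Final0.s48_of_cuspFam`, with no hypothesis left ([IG1] = `IG1Main9.ig1`, [CUSP1] =
  `CuspFamMain4.cuspFamStmt`).

Imported by no statement.
-/
import Mathlib
import Fermat.Agent.M48.ModelInstG8
import Fermat.Agent.M48.ModelAtFam1
import Fermat.Agent.M48.LevelsMain1
import Fermat.Agent.M48.L4Inst7
import Fermat.Agent.M48.CuspFamMain4
import Fermat.Agent.ES.RED.LevelMax17

set_option autoImplicit false
set_option linter.unusedSectionVars false
set_option linter.unusedVariables false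
set_option linter.style.haveILetI false
set_option synthInstance.maxHeartbeats 400000

open HahnSeries ModularCurve IntermediateField AlgebraicCurve
open scoped MatrixGroups

noncomputable section

namespace Fermat.Agent.M48.ModelAtTop1

open Fermat.Agent.X0.FF Fermat.Agent.RED.Interface4 Fermat.Agent.RED.PUR.ChartGeneric22
  Fermat.Agent.RED.BASE.Interface12 Fermat.Agent.RED.BASE.EtaQuot12
  Fermat.Agent.RED.BASE.Hauptmodul12 Fermat.Agent.RED.BASE
  Fermat.Agent.RED.PUR.GaussGen8 Fermat.Agent.RED.DESC.NumberFieldDVR27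
  Fermat.Agent.ES.RED.Contract8 Fermat.Agent.ES.RED.TwoCharts8 Fermat.Agent.ES.RED.ModelInstGen4
open Fermat.Agent.M48.DictIface4 Fermat.Agent.M48.QModel8 Fermat.Agent.M48.Red1Iface4
  Fermat.Agent.M48.DescG0 Fermat.Agent.M48.PurGauss1 Fermat.Agent.M48.LevelsInst1
  Fermat.Agent.M48.ModelExplicit1 Fermat.Agent.M48.ModelExplicitG8

variable {n e M L : ℕ} [NeZero n] [NeZero M] [NeZero L] {A : ValuationSubring Qbar}

/-- `ModelExplicit1.ModelAtK1` is helper8's `ModelExplicitG8.ModelAtG` at `F₀ = fieldG10 M L`. -/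
theorem modelAtG_of_modelAtK1 (h : ModelAtK1 A n e M L) : ModelAtG (gb1 A M L) n e := h

/-- **`HasLevels`, generic**: a coefficientwise chart of the `G10` model with coordinate `t` or `t⁻¹`
(twin of `ModelInstLevels4.hasLevels_of_levelAt`). -/
theorem hasLevels_of_modelAtK1 {x : ↥(F1b M L)} {hx : IsGen Qbar x}
    (S : ChartSpec A hx ↥(fieldG10C (kA A) M L))
    (hS : GaloisR3G9.CoeffChartG (F₀ := fieldG10 M L) S)
    (ℓ : ℕ) [Fact ℓ.Prime] (hM : 2 ≤ M) (hℓ : ¬ ℓ ∣ M * L) (hIG : IG1 M L)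
    (hmem : TMem1 n e M L) (hgen : TGenBase n e) (hA : A.LiesOverPrime ℓ)
    (hs : S.s = tF1 M L hmem ∨ S.s = (tF1 M L hmem)⁻¹)
    (hmodel : ModelAtK1 A n e M L) : HasLevels S := by
  have hℓp : ℓ.Prime := Fact.out
  obtain ⟨K₁, hK₁, H⟩ := hmodel
  obtain ⟨K₂, hK₂, hT⟩ := SpecialDegG9.exists_tq_mem n e M L hmem
  haveI := hK₁
  haveI := hK₂
  have hdvr : ∀ K : Idx (K₁ ⊔ K₂), IsDiscreteValuationRing ↥(AK A K.1) :=
    fun K => (H K.1 K.2.1 (le_sup_left.trans K.2.2)).1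
  have hirr : ∀ K : Idx (K₁ ⊔ K₂), ∃ ϖ : ↥(AK A K.1), Irreducible ϖ := fun K => by
    haveI := hdvr K
    exact IsDiscreteValuationRing.exists_irreducible _
  choose ϖ hϖ using hirr
  let tK : ∀ K : Idx (K₁ ⊔ K₂), ↥(F1K M L K.1) :=
    fun K => ⟨tq K.1 n e, hT K.1 (le_sup_right.trans K.2.2)⟩
  have htK : ∀ K : Idx (K₁ ⊔ K₂), baseChangeHom (fieldG10 M L) K.1 (tK K) = tF1 M L hmem :=
    fun K => PurOff1.bcK1_eq_tF1 M L K.1 hmem (tK K) rfl
  have hboth : ∀ K : Idx (K₁ ⊔ K₂),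
      LevelAt A (fieldG10 M L) K.1 (tK K) (ϖ K) ∧ LevelAt A (fieldG10 M L) K.1 (tK K)⁻¹ (ϖ K) :=
    fun K => by
      haveI := hdvr K
      have hu : IsUnif (AK A K.1) (ϖ K) := isUnif_of_irreducible (AK A K.1) (hϖ K)
      exact LevelAtInv1.levelAt_tq_both_gaussVS A (fieldG10 M L) K.1 hu
        (laurentBaseChange_le_fracField (AK A K.1) M L) (tK K)
        ((H K.1 K.2.1 (le_sup_left.trans K.2.2)).2 (ϖ K) (hϖ K) hu (tK K) rfl) rfl
  have hk := Fermat.Agent.ES.RED.LevelMax17.exists_pow_eq_self hℓp A hA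
  have hL4 := L4Inst7.chartLevels_L4_of_coeffChartG9 S hS n e ℓ hM hℓ hIG hmem hgen hA hs
  intro P hP
  rcases hs with hs | hs
  · exact ⟨Idx (K₁ ⊔ K₂), _, _, _, _,
      LevelsMain1.chartLevels S (fun b hb => (hS.mem_iff b).mpr hb)
        (fun b hb => (hS.mem_iff b).mp hb) hS.red_eq (K₁ ⊔ K₂) tK
        (fun K => (htK K).trans hs.symm) ϖ (fun K => (hboth K).1) hk hL4 P hP⟩
  · exact ⟨Idx (K₁ ⊔ K₂), _, _, _, _,
      LevelsMain1.chartLevels S (fun b hb => (hS.mem_iff b).mpr hb)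
        (fun b hb => (hS.mem_iff b).mp hb) hS.red_eq (K₁ ⊔ K₂) (fun K => (tK K)⁻¹)
        (fun K => by rw [map_inv₀, htK K, hs]) ϖ (fun K => (hboth K).2) hk hL4 P hP⟩

/-- **`ModelAt1` from the explicit two-chart models over the number fields.** -/
theorem modelAt1_of_modelAtK1 (hM : 2 ≤ M) (ℓ : ℕ) [Fact ℓ.Prime] (hℓ : ¬ ℓ ∣ M * L)
    (hIG : IG1 M L) (h : TMem1 n e M L) (hgenB : TGenBase n e) (hA : A.LiesOverPrime ℓ)
    (hmodel : ModelAtK1 A n e M L) : ModelAt1 A n e M L h := by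
  have hG : ModelAtG (gb1 A M L) n e := modelAtG_of_modelAtK1 hmodel
  have hsat0 : ChartIntegralG5.LevelSat (gb1 A M L) (tF1 M L h) :=
    ModelInstG8.levelSat_of_modelAt (gb1 A M L) (tF1 M L h) rfl hG
  have hsat1 : ChartIntegralG5.LevelSat (gb1 A M L) (tF1 M L h)⁻¹ :=
    ModelInstG8.levelSat_inv_of_modelAt (gb1 A M L) (tF1 M L h) rfl hG
  exact ModelInstG8.modelAt1_of_levels n e M L hM ℓ hℓ hIG h hgenB A hA hsat0 hsat1
    (hasLevels_of_modelAtK1 _
      (ModelInstG8.coeffChart0G n e M L hM ℓ hℓ hIG h hgenB A hA hsat0) ℓ hM hℓ hIG h hgenB hA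
      (Or.inl rfl) hmodel)
    (hasLevels_of_modelAtK1 _
      (ModelInstG8.coeffChart1G n e M L hM ℓ hℓ hIG h hgenB A hA hsat1) ℓ hM hℓ hIG h hgenB hA
      (Or.inr rfl) hmodel)

/-- **`hmodel4` of `S48Final0.s48_of_cuspFam`, unconditionally.** -/
theorem hmodel_four : ∀ (M : ℕ) [NeZero M], 2 ≤ M → 4 ∣ M → ∀ (h : TMem1 4 8 M 1) (ℓ : ℕ),
    ℓ.Prime → ¬ ℓ ∣ M → ∀ A : ValuationSubring Qbar, A.LiesOverPrime ℓ →
      ModelAt1 A 4 8 M 1 h := by
  intro M _ hM h4 h ℓ hℓ hℓM A hA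
  have : Fact ℓ.Prime := ⟨hℓ⟩
  have hℓM1 : ¬ ℓ ∣ M * 1 := by rwa [Nat.mul_one]
  exact modelAt1_of_modelAtK1 hM ℓ hℓM1 (IG1Main9.ig1 M hM) h (tGenBase' baseHyp_four) hA
    (ModelAtFam1.modelAtK1_four_of_cuspFam CuspFamMain4.cuspFamStmt M h4 ℓ hℓ hℓM A hA)

/-- **`hmodel9` of `S48Final0.s48_of_cuspFam`, unconditionally.** -/
theorem hmodel_nine : ∀ (M : ℕ) [NeZero M], 2 ≤ M → 9 ∣ M → ∀ (h : TMem1 9 3 M 1) (ℓ : ℕ),
    ℓ.Prime → ¬ ℓ ∣ M → ∀ A : ValuationSubring Qbar, A.LiesOverPrime ℓ →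
      ModelAt1 A 9 3 M 1 h := by
  intro M _ hM h9 h ℓ hℓ hℓM A hA
  have : Fact ℓ.Prime := ⟨hℓ⟩
  have hℓM1 : ¬ ℓ ∣ M * 1 := by rwa [Nat.mul_one]
  exact modelAt1_of_modelAtK1 hM ℓ hℓM1 (IG1Main9.ig1 M hM) h (tGenBase' baseHyp_nine) hA
    (ModelAtFam1.modelAtK1_nine_of_cuspFam CuspFamMain4.cuspFamStmt M h9 ℓ hℓ hℓM A hA)

end Fermat.Agent.M48.ModelAtTop1
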