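/-
Programme M48, pillar (P1), chapter [ESRED1], item (KR2) — helper3.  **THE REDUCED DIAMOND.**

Part 0 (generic algebra): a finitely generated field `F(g_i) ⊂ E` is presented by the relations
between the `g_i`; a permutation of the generators preserving the relations extends to an
automorphism.

Part 1 (any field `κ`): uniform generators `genR R M : Idx M → R((q))` of `fieldG10C κ M 1`
(`j(q^e)`, `e ∣ M`, and `g_{M,a}`), `IsDiamondAutC κ M d δ̃`, uniqueness, commutation with every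
coefficientwise ring endomorphism.

Part 2: existence of the reduced diamond and its compatibility with the reduction of integral
elements, from a Gauss-stability hypothesis on the characteristic-zero diamond.

!! USE THE PAIR FORMS `GaussStableG2`, `exists_redAut2`, `GaussStable2`, `DiaRed2`,
`exists_diamondRed2`.  The first versions (`GaussStableG`, `GaussStable`, `exists_diamondRed`,
with an EXISTENTIAL integral lift of `δ f`) have hypotheses which are FALSE for the diamonds `⟨d⟩`,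
`d ≠ ±1` (the diamond moves the cusp `∞`; `1/(g_{M,1} - ℓ)` has an integral `q`-expansion, its image
`1/(g_{M,d⁻¹} - ℓ)` has not); they are kept only because they are correct implications.
-/
import Mathlib
import Fermat.Agent.M48.QModel8
import Fermat.Agent.M48.J1Defs8

set_option autoImplicit false
set_option linter.unusedSectionVars false
set_option linter.style.haveILetI false

open AlgebraicCurve ModularCurve IntermediateField HahnSeries

noncomputable section

namespace Fermat.Agent.M48.DiamondRed3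

open Fermat.Agent.M48.QModel8 Fermat.Agent.M48.J1Defs8 Fermat.Agent.M48.DictIface4

/-! ### Part 0: presentations of finitely generated fields -/

section Presentation

variable {F : Type*} [Field F] {E : Type*} [Field E] [Algebra F E]

/-- Two ring homomorphisms from `F(S)` to a division ring agreeing on `F` and on `S` are equal. -/
theorem ringHom_ext_adjoin {S : Set E} {T : Type*} [DivisionRing T]
    {f g : IntermediateField.adjoin F S →+* T}
    (hF : ∀ c : F, f (algebraMap F _ c) = g (algebraMap F _ c))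
    (hS : ∀ s (hs : s ∈ S), f ⟨s, subset_adjoin F S hs⟩ = g ⟨s, subset_adjoin F S hs⟩) :
    f = g := by
  ext ⟨x, hx⟩
  induction hx using IntermediateField.adjoin_induction with
  | mem x hx => exact hS x hx
  | algebraMap c => exact hF c
  | add x y hx hy ihx ihy =>
      have h : (⟨x + y, add_mem hx hy⟩ : IntermediateField.adjoin F S) = ⟨x, hx⟩ + ⟨y, hy⟩ := rfl
      rw [h, map_add, map_add, ihx, ihy]
  | inv x hx ih =>
      have h : (⟨x⁻¹, inv_mem hx⟩ : IntermediateField.adjoin F S) = (⟨x, hx⟩)⁻¹ := rfl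
      rw [h, map_inv₀, map_inv₀, ih]
  | mul x y hx hy ihx ihy =>
      have h : (⟨x * y, mul_mem hx hy⟩ : IntermediateField.adjoin F S) = ⟨x, hx⟩ * ⟨y, hy⟩ := rfl
      rw [h, map_mul, map_mul, ihx, ihy]

/-- Variant for a field given as `F(S)` up to a propositional equality. -/
theorem ringHom_ext_of_eq_adjoin {S : Set E} {T : Type*} [DivisionRing T]
    {L : IntermediateField F E} (hL : L = IntermediateField.adjoin F S) {f g : L →+* T}
    (hF : ∀ c : F, f (algebraMap F _ c) = g (algebraMap F _ c))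
    (hS : ∀ s (_ : s ∈ S) (hs' : s ∈ L), f ⟨s, hs'⟩ = g ⟨s, hs'⟩) : f = g := by
  subst hL
  exact ringHom_ext_adjoin hF fun s hs => hS s hs _

open scoped IntermediateField.algebraAdjoinAdjoin

variable {ι : Type*} {E' : Type*} [Field E'] [Algebra F E'] (g : ι → E) (g' : ι → E')

/-- The surjection `F[X_i] → F[g_i]`. -/
def evAdj : MvPolynomial ι F →ₐ[F] Algebra.adjoin F (Set.range g) :=
  AlgHom.codRestrict (MvPolynomial.aeval g) _ fun P => by
    rw [Algebra.adjoin_range_eq_range_aeval]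
    exact ⟨P, rfl⟩

@[simp]
theorem coe_evAdj (P : MvPolynomial ι F) : ((evAdj g P : Algebra.adjoin F (Set.range g)) : E)
    = MvPolynomial.aeval g P := rfl

theorem evAdj_surjective : Function.Surjective (evAdj (F := F) g) := by
  rintro ⟨x, hx⟩
  have hx' := hx
  rw [Algebra.adjoin_range_eq_range_aeval] at hx'
  obtain ⟨P, rfl⟩ := hx'
  exact ⟨P, Subtype.ext rfl⟩

/-- **Presentation**: if the `g'_i` satisfy exactly the relations of the `g_i`, then `g_i ↦ g'_i`
extends to a homomorphism of fields `F(g_i) → E'`. -/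
theorem exists_algHom_adjoin
    (hker : ∀ P : MvPolynomial ι F, MvPolynomial.aeval g P = 0 ↔ MvPolynomial.aeval g' P = 0) :
    ∃ Φ : IntermediateField.adjoin F (Set.range g) →ₐ[F] E',
      ∀ i, Φ ⟨g i, subset_adjoin F _ ⟨i, rfl⟩⟩ = g' i := by
  have H : RingHom.ker (evAdj (F := F) g).toRingHom
      ≤ RingHom.ker (MvPolynomial.aeval g' : MvPolynomial ι F →ₐ[F] E').toRingHom := by
    intro P hP
    rw [RingHom.mem_ker] at hP ⊢
    have h0 : MvPolynomial.aeval g P = 0 := by
      have := congrArg (Subtype.val) hP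
      simpa using this
    exact (hker P).1 h0
  let φ : Algebra.adjoin F (Set.range g) →ₐ[F] E' :=
    AlgHom.liftOfSurjective (evAdj g) (evAdj_surjective g) (MvPolynomial.aeval g') H
  have hφ : ∀ P, φ (evAdj g P) = MvPolynomial.aeval g' P := fun P =>
    AlgHom.liftOfSurjective_apply _ _ _ _ P
  have hinj : Function.Injective φ := by
    rw [injective_iff_map_eq_zero]
    intro x hx
    obtain ⟨P, rfl⟩ := evAdj_surjective g x
    rw [hφ] at hx
    exact Subtype.ext ((hker P).2 hx)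
  refine ⟨IsFractionRing.liftAlgHom (K := IntermediateField.adjoin F (Set.range g)) hinj,
    fun i => ?_⟩
  have h : (⟨g i, subset_adjoin F _ ⟨i, rfl⟩⟩ : IntermediateField.adjoin F (Set.range g))
      = algebraMap (Algebra.adjoin F (Set.range g)) _ (evAdj g (MvPolynomial.X i)) :=
    Subtype.ext (by simp)
  rw [h, IsFractionRing.liftAlgHom_apply, IsFractionRing.lift_algebraMap]
  exact (hφ _).trans (MvPolynomial.aeval_X _ _)

/-- `(aeval g' P : F(S)) = aeval (↑ ∘ g') P` in `E`. -/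
theorem coe_aeval_adjoin {L : IntermediateField F E} (g₀ : ι → L) (P : MvPolynomial ι F) :
    ((MvPolynomial.aeval g₀ P : L) : E) = MvPolynomial.aeval (fun i => (g₀ i : E)) P :=
  MvPolynomial.comp_aeval_apply g₀ L.val P

theorem aeval_mem_of_mem {L : IntermediateField F E} {g : ι → E} (h : ∀ i, g i ∈ L)
    (P : MvPolynomial ι F) : MvPolynomial.aeval g P ∈ L := by
  have := coe_aeval_adjoin (fun i => (⟨g i, h i⟩ : L)) P
  rw [← this]
  exact Subtype.property _

/-- An automorphism permuting the generators acts on polynomials in the generators by renaming. -/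
theorem coe_algEquiv_aeval {L : IntermediateField F E} (δ : L ≃ₐ[F] L) {g : ι → E}
    (h : ∀ i, g i ∈ L) (p : ι → ι) (hδ : ∀ i, ((δ ⟨g i, h i⟩ : L) : E) = g (p i))
    (P : MvPolynomial ι F) (hP : MvPolynomial.aeval g P ∈ L) :
    ((δ ⟨MvPolynomial.aeval g P, hP⟩ : L) : E) = MvPolynomial.aeval (g ∘ p) P := by
  have h1 : (⟨MvPolynomial.aeval g P, hP⟩ : L)
      = MvPolynomial.aeval (fun i => (⟨g i, h i⟩ : L)) P :=
    Subtype.ext (coe_aeval_adjoin (fun i => (⟨g i, h i⟩ : L)) P).symm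
  have h2 : δ (MvPolynomial.aeval (fun i => (⟨g i, h i⟩ : L)) P)
      = MvPolynomial.aeval (fun i => δ (⟨g i, h i⟩ : L)) P :=
    MvPolynomial.comp_aeval_apply _ (δ : L →ₐ[F] L) P
  rw [h1, h2, coe_aeval_adjoin]
  have h3 : (fun i => ((δ (⟨g i, h i⟩ : L) : L) : E)) = g ∘ p := funext hδ
  rw [h3]

theorem aeval_perm_iff (p : ι ≃ ι)
    (hker : ∀ P : MvPolynomial ι F, MvPolynomial.aeval g P = 0 →
      MvPolynomial.aeval (g ∘ p) P = 0)
    (hker' : ∀ P : MvPolynomial ι F, MvPolynomial.aeval g P = 0 →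
      MvPolynomial.aeval (g ∘ p.symm) P = 0) (P : MvPolynomial ι F) :
    MvPolynomial.aeval g P = 0 ↔ MvPolynomial.aeval (g ∘ p) P = 0 := by
  refine ⟨hker P, fun h => ?_⟩
  have h1 : MvPolynomial.aeval g (MvPolynomial.rename p P) = 0 := by
    rw [MvPolynomial.aeval_rename]; exact h
  have h2 := hker' _ h1
  rw [MvPolynomial.aeval_rename] at h2
  have h3 : (g ∘ p.symm) ∘ p = g := by
    funext i; simp
  rwa [h3] at h2

/-- A map of the generators preserving exactly the relations extends to an endomorphism. -/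
theorem exists_algHom_adjoin_self (p : ι → ι)
    (hiff : ∀ P : MvPolynomial ι F, MvPolynomial.aeval g P = 0 ↔
      MvPolynomial.aeval (g ∘ p) P = 0) :
    ∃ Φ : IntermediateField.adjoin F (Set.range g) →ₐ[F] IntermediateField.adjoin F (Set.range g),
      ∀ i, Φ ⟨g i, subset_adjoin F _ ⟨i, rfl⟩⟩ = ⟨g (p i), subset_adjoin F _ ⟨p i, rfl⟩⟩ := by
  refine exists_algHom_adjoin g
    (fun i => (⟨g (p i), subset_adjoin F _ ⟨p i, rfl⟩⟩ : IntermediateField.adjoin F (Set.range g)))
    fun P => ?_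
  rw [hiff P, ← Subtype.coe_inj (a := MvPolynomial.aeval _ P), coe_aeval_adjoin]
  rfl

/-- **A permutation of the generators preserving the relations (in both directions) extends to an
automorphism of `F(g_i)`.** -/
theorem exists_algEquiv_adjoin_perm (p : ι ≃ ι)
    (hker : ∀ P : MvPolynomial ι F, MvPolynomial.aeval g P = 0 →
      MvPolynomial.aeval (g ∘ p) P = 0)
    (hker' : ∀ P : MvPolynomial ι F, MvPolynomial.aeval g P = 0 →
      MvPolynomial.aeval (g ∘ p.symm) P = 0) :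
    ∃ Φ : IntermediateField.adjoin F (Set.range g) ≃ₐ[F] IntermediateField.adjoin F (Set.range g),
      ∀ i, ((Φ ⟨g i, subset_adjoin F _ ⟨i, rfl⟩⟩ : IntermediateField.adjoin F (Set.range g)) : E)
        = g (p i) := by
  obtain ⟨Φ₁, h₁⟩ := exists_algHom_adjoin_self g p (aeval_perm_iff g p hker hker')
  obtain ⟨Φ₂, h₂⟩ := exists_algHom_adjoin_self g p.symm (aeval_perm_iff g p.symm hker' hker)
  have h12 : Φ₁.comp Φ₂ = AlgHom.id F _ := by
    apply IntermediateField.adjoin_algHom_ext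
    rintro x ⟨i, rfl⟩
    rw [AlgHom.comp_apply, h₂, h₁]
    simp
  have h21 : Φ₂.comp Φ₁ = AlgHom.id F _ := by
    apply IntermediateField.adjoin_algHom_ext
    rintro x ⟨i, rfl⟩
    rw [AlgHom.comp_apply, h₁, h₂]
    simp
  refine ⟨AlgEquiv.ofAlgHom Φ₁ Φ₂ h12 h21, fun i => ?_⟩
  show ((Φ₁ _ : IntermediateField.adjoin F (Set.range g)) : E) = _
  rw [h₁]

end Presentation

/-! ### Polynomial expressions in Laurent series over a ring and their coefficientwise images -/

section EvR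

variable {σ : Type*}

/-- Evaluation of a polynomial at a family of Laurent series over a commutative ring. -/
def evR {R : Type*} [CommRing R] (g : σ → LaurentSeries R) :
    MvPolynomial σ R →+* LaurentSeries R :=
  MvPolynomial.eval₂Hom (HahnSeries.C : R →+* LaurentSeries R) g

theorem coeffMap_evR {R : Type*} [CommRing R] {K : Type*} [Field K] (f : R →+* K)
    (g : σ → LaurentSeries R) (P : MvPolynomial σ R) :
    coeffMap f (evR g P)
      = MvPolynomial.aeval (fun i => coeffMap f (g i)) (MvPolynomial.map f P) := by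
  induction P using MvPolynomial.induction_on with
  | C a =>
      rw [evR, MvPolynomial.coe_eval₂Hom, MvPolynomial.eval₂_C, MvPolynomial.map_C,
        MvPolynomial.aeval_C, algebraMap_laurentSeries_eq_single, HahnSeries.C_apply,
        coeffMap_single]
  | add p q hp hq => rw [map_add, map_add, hp, hq, map_add, map_add]
  | mul_X p i hp =>
      rw [map_mul, map_mul, hp, map_mul, map_mul, MvPolynomial.map_X, MvPolynomial.aeval_X, evR,
        MvPolynomial.coe_eval₂Hom, MvPolynomial.eval₂_X]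

theorem coeffMap_injective {R S : Type*} [CommRing R] [CommRing S] {f : R →+* S}
    (hf : Function.Injective f) : Function.Injective (coeffMap f) := by
  intro x y h
  ext k
  apply hf
  have := congrArg (fun s => s.coeff k) h
  simpa using this

end EvR

/-! ### Part 2 (generic core): reduction of an automorphism permuting integral generators -/

section Core

variable {A : Type*} [CommRing A] {K : Type*} [Field K] {κ : Type*} [Field κ]
variable (ι : A →+* K) (π : A →+* κ)

/-- **Gauss stability** (EXISTENTIAL form — false for the diamonds, use `GaussStableG2`) of an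
automorphism `δ` of a field `FB ⊂ K((q))` with respect to `A → K`, `A → κ`: `δ` preserves the
elements with `A`-integral expansion, and among them those with zero reduction. -/
def GaussStableG (FB : IntermediateField K (LaurentSeries K)) (δ : FB ≃ₐ[K] FB) : Prop :=
  ∀ (y : LaurentSeries A) (hy : coeffMap ι y ∈ FB), ∃ y' : LaurentSeries A,
    coeffMap ι y' = ((δ ⟨_, hy⟩ : FB) : LaurentSeries K) ∧
      (coeffMap π y = 0 → coeffMap π y' = 0)

/-- **Gauss stability, pair form** (the TRUE one for the diamonds, see the warning below): if `f` and `δ f` both have `A`-integral expansions and the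
reduction of `f` vanishes, then so does the reduction of `δ f`. -/
def GaussStableG2 (FB : IntermediateField K (LaurentSeries K)) (δ : FB ≃ₐ[K] FB) : Prop :=
  ∀ (y y' : LaurentSeries A) (hy : coeffMap ι y ∈ FB),
    coeffMap ι y' = ((δ ⟨_, hy⟩ : FB) : LaurentSeries K) → coeffMap π y = 0 → coeffMap π y' = 0

variable {ι π}
variable {σ : Type*} (gA : σ → LaurentSeries A) (p : σ → σ)
variable {FB : IntermediateField K (LaurentSeries K)} {δ : FB ≃ₐ[K] FB}

/-- The relations between the reduced generators are preserved by the permutation. -/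
theorem ker_of_gaussStable (hι : Function.Injective ι) (hπ : Function.Surjective π)
    (hFB : ∀ i, coeffMap ι (gA i) ∈ FB)
    (hδ : ∀ i, ((δ ⟨_, hFB i⟩ : FB) : LaurentSeries K) = coeffMap ι (gA (p i)))
    (h₁ : GaussStableG ι π FB δ) (P : MvPolynomial σ κ)
    (hP : MvPolynomial.aeval (fun i => coeffMap π (gA i)) P = 0) :
    MvPolynomial.aeval ((fun i => coeffMap π (gA i)) ∘ p) P = 0 := by
  obtain ⟨P', rfl⟩ := MvPolynomial.map_surjective π hπ P
  have hyK := coeffMap_evR ι gA P'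
  have hymem : coeffMap ι (evR gA P') ∈ FB := by
    rw [hyK]; exact aeval_mem_of_mem hFB _
  obtain ⟨y', hy'1, hy'2⟩ := h₁ (evR gA P') hymem
  have hy0 : coeffMap π (evR gA P') = 0 := by rw [coeffMap_evR]; exact hP
  have h1 : ((δ ⟨_, hymem⟩ : FB) : LaurentSeries K)
      = MvPolynomial.aeval ((fun i => coeffMap ι (gA i)) ∘ p) (MvPolynomial.map ι P') := by
    have hmem' : MvPolynomial.aeval (fun i => coeffMap ι (gA i)) (MvPolynomial.map ι P') ∈ FB :=
      aeval_mem_of_mem hFB _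
    have hsub : (⟨_, hymem⟩ : FB) = ⟨_, hmem'⟩ := Subtype.ext hyK
    rw [hsub]
    exact coe_algEquiv_aeval δ hFB p hδ _ hmem'
  have hy'eq : y' = evR (gA ∘ p) P' := by
    apply coeffMap_injective hι
    rw [hy'1, h1, coeffMap_evR]
    rfl
  have := hy'2 hy0
  rw [hy'eq, coeffMap_evR] at this
  exact this

/-- **Compatibility (Hδ)** of `δ` with an automorphism `δt` of the field generated by the reduced
generators which permutes them in the same way. -/
theorem hdelta_of_gaussStable (hι : Function.Injective ι) (hπ : Function.Surjective π)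
    (hFB : ∀ i, coeffMap ι (gA i) ∈ FB)
    (hδ : ∀ i, ((δ ⟨_, hFB i⟩ : FB) : LaurentSeries K) = coeffMap ι (gA (p i)))
    (h₁ : GaussStableG ι π FB δ)
    {Fκ : IntermediateField κ (LaurentSeries κ)}
    (hFκ : Fκ = IntermediateField.adjoin κ (Set.range fun i => coeffMap π (gA i)))
    (hFκmem : ∀ i, coeffMap π (gA i) ∈ Fκ)
    (δt : Fκ ≃ₐ[κ] Fκ)
    (hδt : ∀ i, ((δt ⟨_, hFκmem i⟩ : Fκ) : LaurentSeries κ) = coeffMap π (gA (p i)))
    (y : LaurentSeries A) (hy : coeffMap ι y ∈ FB) (hyκ : coeffMap π y ∈ Fκ) :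
    ∃ y' : LaurentSeries A, coeffMap ι y' = ((δ ⟨_, hy⟩ : FB) : LaurentSeries K) ∧
      coeffMap π y' = ((δt ⟨_, hyκ⟩ : Fκ) : LaurentSeries κ) := by
  obtain ⟨y', hy'1, hy'2⟩ := h₁ y hy
  refine ⟨y', hy'1, ?_⟩
  have hmem := hyκ
  rw [hFκ, IntermediateField.mem_adjoin_range_iff] at hmem
  obtain ⟨P, Q, hPQ⟩ := hmem
  by_cases hQ0 : MvPolynomial.aeval (fun i => coeffMap π (gA i)) Q = 0
  · have h0 : coeffMap π y = 0 := by rw [hPQ, hQ0, div_zero]
    rw [hy'2 h0]
    have hz : (⟨coeffMap π y, hyκ⟩ : Fκ) = 0 := Subtype.ext h0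
    rw [hz, map_zero]
    rfl
  · obtain ⟨P', rfl⟩ := MvPolynomial.map_surjective π hπ P
    obtain ⟨Q', rfl⟩ := MvPolynomial.map_surjective π hπ Q
    have hQmem : MvPolynomial.aeval (fun i => coeffMap ι (gA i)) (MvPolynomial.map ι Q') ∈ FB :=
      aeval_mem_of_mem hFB _
    have hPmem : MvPolynomial.aeval (fun i => coeffMap ι (gA i)) (MvPolynomial.map ι P') ∈ FB :=
      aeval_mem_of_mem hFB _
    have hzK : coeffMap ι (y * evR gA Q' - evR gA P')
        = coeffMap ι y * MvPolynomial.aeval (fun i => coeffMap ι (gA i)) (MvPolynomial.map ι Q')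
          - MvPolynomial.aeval (fun i => coeffMap ι (gA i)) (MvPolynomial.map ι P') := by
      rw [map_sub, map_mul, coeffMap_evR, coeffMap_evR]
    have hzmem : coeffMap ι (y * evR gA Q' - evR gA P') ∈ FB := by
      rw [hzK]; exact sub_mem (mul_mem hy hQmem) hPmem
    have hzκ : coeffMap π (y * evR gA Q' - evR gA P') = 0 := by
      rw [map_sub, map_mul, coeffMap_evR, coeffMap_evR, hPQ, div_mul_cancel₀ _ hQ0, sub_self]
    obtain ⟨z', hz'1, hz'2⟩ := h₁ _ hzmem
    have hz'0 := hz'2 hzκ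
    have hδz : ((δ ⟨_, hzmem⟩ : FB) : LaurentSeries K)
        = coeffMap ι y' * MvPolynomial.aeval ((fun i => coeffMap ι (gA i)) ∘ p)
              (MvPolynomial.map ι Q')
          - MvPolynomial.aeval ((fun i => coeffMap ι (gA i)) ∘ p) (MvPolynomial.map ι P') := by
      have hsub : (⟨_, hzmem⟩ : FB) = ⟨_, hy⟩ * ⟨_, hQmem⟩ - ⟨_, hPmem⟩ := Subtype.ext hzK
      rw [hsub, map_sub, map_mul, AddSubgroupClass.coe_sub, IntermediateField.coe_mul,
        coe_algEquiv_aeval δ hFB p hδ _ hQmem, coe_algEquiv_aeval δ hFB p hδ _ hPmem, hy'1]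
    have hz'eq : z' = y' * evR (gA ∘ p) Q' - evR (gA ∘ p) P' := by
      apply coeffMap_injective hι
      rw [hz'1, hδz, map_sub, map_mul, coeffMap_evR, coeffMap_evR]
      rfl
    have hκ : coeffMap π y' * MvPolynomial.aeval ((fun i => coeffMap π (gA i)) ∘ p)
          (MvPolynomial.map π Q')
        = MvPolynomial.aeval ((fun i => coeffMap π (gA i)) ∘ p) (MvPolynomial.map π P') := by
      have h := hz'0
      rw [hz'eq, map_sub, map_mul, coeffMap_evR, coeffMap_evR, sub_eq_zero] at h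
      exact h
    have hQκmem : MvPolynomial.aeval (fun i => coeffMap π (gA i)) (MvPolynomial.map π Q') ∈ Fκ :=
      aeval_mem_of_mem hFκmem _
    have hPκmem : MvPolynomial.aeval (fun i => coeffMap π (gA i)) (MvPolynomial.map π P') ∈ Fκ :=
      aeval_mem_of_mem hFκmem _
    have hyQ : (⟨_, hyκ⟩ : Fκ) * ⟨_, hQκmem⟩ = ⟨_, hPκmem⟩ :=
      Subtype.ext (by
        rw [IntermediateField.coe_mul]
        show coeffMap π y * _ = _
        rw [hPQ, div_mul_cancel₀ _ hQ0])
    have ht := congrArg (fun x => ((δt x : Fκ) : LaurentSeries κ)) hyQ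
    simp only [map_mul, IntermediateField.coe_mul] at ht
    rw [coe_algEquiv_aeval δt hFκmem p hδt _ hQκmem,
      coe_algEquiv_aeval δt hFκmem p hδt _ hPκmem] at ht
    have hne : MvPolynomial.aeval ((fun i => coeffMap π (gA i)) ∘ p) (MvPolynomial.map π Q') ≠ 0 := by
      intro h0
      rw [← coe_algEquiv_aeval δt hFκmem p hδt _ hQκmem] at h0
      have h1 : δt ⟨_, hQκmem⟩ = 0 := Subtype.ext h0
      rw [map_eq_zero_iff δt δt.injective] at h1
      exact hQ0 (congrArg Subtype.val h1)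
    exact mul_right_cancel₀ hne (hκ.trans ht.symm)

/-- **Generic existence + compatibility**: an automorphism `δ` of `FB ⊂ K((q))` which permutes a
family of `A`-integral elements whose reductions generate `Fκ ⊂ κ((q))`, and which is Gauss stable
together with its inverse, has a reduction `δt ∈ Aut(Fκ/κ)`. -/
theorem exists_redAut (hι : Function.Injective ι) (hπ : Function.Surjective π) (p : σ ≃ σ)
    (hFB : ∀ i, coeffMap ι (gA i) ∈ FB)
    (hδ : ∀ i, ((δ ⟨_, hFB i⟩ : FB) : LaurentSeries K) = coeffMap ι (gA (p i)))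
    (h₁ : GaussStableG ι π FB δ) (h₂ : GaussStableG ι π FB δ.symm)
    {Fκ : IntermediateField κ (LaurentSeries κ)}
    (hFκ : Fκ = IntermediateField.adjoin κ (Set.range fun i => coeffMap π (gA i)))
    (hFκmem : ∀ i, coeffMap π (gA i) ∈ Fκ) :
    ∃ δt : Fκ ≃ₐ[κ] Fκ,
      (∀ i, ((δt ⟨_, hFκmem i⟩ : Fκ) : LaurentSeries κ) = coeffMap π (gA (p i))) ∧
      ∀ (y : LaurentSeries A) (hy : coeffMap ι y ∈ FB) (hyκ : coeffMap π y ∈ Fκ),
        ∃ y' : LaurentSeries A, coeffMap ι y' = ((δ ⟨_, hy⟩ : FB) : LaurentSeries K) ∧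
          coeffMap π y' = ((δt ⟨_, hyκ⟩ : Fκ) : LaurentSeries κ) := by
  have hδ' : ∀ i, ((δ.symm ⟨_, hFB i⟩ : FB) : LaurentSeries K) = coeffMap ι (gA (p.symm i)) := by
    intro i
    have h1 : δ ⟨_, hFB (p.symm i)⟩ = ⟨_, hFB i⟩ := Subtype.ext (by rw [hδ, p.apply_symm_apply])
    rw [← h1, AlgEquiv.symm_apply_apply]
  have hk₁ := ker_of_gaussStable gA p hι hπ hFB hδ h₁
  have hk₂ := ker_of_gaussStable gA p.symm hι hπ hFB hδ' h₂
  subst hFκ
  obtain ⟨δt, hδt⟩ := exists_algEquiv_adjoin_perm (fun i => coeffMap π (gA i)) p hk₁ hk₂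
  exact ⟨δt, hδt, hdelta_of_gaussStable gA p hι hπ hFB hδ h₁ rfl hFκmem δt hδt⟩

/-! #### The PAIR forms (the ones that are TRUE for the diamonds)

WARNING: `GaussStableG` above asserts that `δ` maps EVERY element with `A`-integral `q`-expansion to
one with `A`-integral `q`-expansion.  For the diamond automorphisms `⟨d⟩`, `d ≠ ±1`, this is FALSE
(`⟨d⟩` moves the cusp `∞`: `1/(g_{M,1} - ℓ)` is integral, `⟨d⟩` of it is `1/(g_{M,d⁻¹} - ℓ)`, which
is not).  The statements below only speak about pairs `(y, y')` of integral series with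
`y' = δ y`; they are the usable ones. -/

theorem GaussStableG.toG2 (hι : Function.Injective ι) {FB : IntermediateField K (LaurentSeries K)}
    {δ : FB ≃ₐ[K] FB} (h : GaussStableG ι π FB δ) : GaussStableG2 ι π FB δ := by
  intro y y' hy hy' h0
  obtain ⟨y'', h1, h2⟩ := h y hy
  have : y' = y'' := coeffMap_injective hι (hy'.trans h1.symm)
  rw [this]
  exact h2 h0

/-- The relations between the reduced generators are preserved by the permutation (pair form). -/
theorem ker_of_gaussStable2 (hπ : Function.Surjective π)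
    (hFB : ∀ i, coeffMap ι (gA i) ∈ FB)
    (hδ : ∀ i, ((δ ⟨_, hFB i⟩ : FB) : LaurentSeries K) = coeffMap ι (gA (p i)))
    (h₁ : GaussStableG2 ι π FB δ) (P : MvPolynomial σ κ)
    (hP : MvPolynomial.aeval (fun i => coeffMap π (gA i)) P = 0) :
    MvPolynomial.aeval ((fun i => coeffMap π (gA i)) ∘ p) P = 0 := by
  obtain ⟨P', rfl⟩ := MvPolynomial.map_surjective π hπ P
  have hyK := coeffMap_evR ι gA P'
  have hymem : coeffMap ι (evR gA P') ∈ FB := by
    rw [hyK]; exact aeval_mem_of_mem hFB _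
  have hy0 : coeffMap π (evR gA P') = 0 := by rw [coeffMap_evR]; exact hP
  have h1 : coeffMap ι (evR (gA ∘ p) P') = ((δ ⟨_, hymem⟩ : FB) : LaurentSeries K) := by
    have hmem' : MvPolynomial.aeval (fun i => coeffMap ι (gA i)) (MvPolynomial.map ι P') ∈ FB :=
      aeval_mem_of_mem hFB _
    have hsub : (⟨_, hymem⟩ : FB) = ⟨_, hmem'⟩ := Subtype.ext hyK
    rw [hsub, coe_algEquiv_aeval δ hFB p hδ _ hmem', coeffMap_evR]
    rfl
  have := h₁ (evR gA P') (evR (gA ∘ p) P') hymem h1 hy0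
  rw [coeffMap_evR] at this
  exact this

/-- **Compatibility, pair form (Hδ2)**: whenever `f` and `δ f` both have `A`-integral expansions,
the reduction of `δ f` is `δt` of the reduction of `f`. -/
theorem hdelta2_of_gaussStable2 (hπ : Function.Surjective π)
    (hFB : ∀ i, coeffMap ι (gA i) ∈ FB)
    (hδ : ∀ i, ((δ ⟨_, hFB i⟩ : FB) : LaurentSeries K) = coeffMap ι (gA (p i)))
    (h₁ : GaussStableG2 ι π FB δ)
    {Fκ : IntermediateField κ (LaurentSeries κ)}
    (hFκ : Fκ = IntermediateField.adjoin κ (Set.range fun i => coeffMap π (gA i)))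
    (hFκmem : ∀ i, coeffMap π (gA i) ∈ Fκ)
    (δt : Fκ ≃ₐ[κ] Fκ)
    (hδt : ∀ i, ((δt ⟨_, hFκmem i⟩ : Fκ) : LaurentSeries κ) = coeffMap π (gA (p i)))
    (y y' : LaurentSeries A) (hy : coeffMap ι y ∈ FB) (hyκ : coeffMap π y ∈ Fκ)
    (hy' : coeffMap ι y' = ((δ ⟨_, hy⟩ : FB) : LaurentSeries K)) :
    coeffMap π y' = ((δt ⟨_, hyκ⟩ : Fκ) : LaurentSeries κ) := by
  have hmem := hyκ
  rw [hFκ, IntermediateField.mem_adjoin_range_iff] at hmem
  obtain ⟨P, Q, hPQ⟩ := hmem
  by_cases hQ0 : MvPolynomial.aeval (fun i => coeffMap π (gA i)) Q = 0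
  · have h0 : coeffMap π y = 0 := by rw [hPQ, hQ0, div_zero]
    rw [h₁ y y' hy hy' h0]
    have hz : (⟨coeffMap π y, hyκ⟩ : Fκ) = 0 := Subtype.ext h0
    rw [hz, map_zero]
    rfl
  · obtain ⟨P', rfl⟩ := MvPolynomial.map_surjective π hπ P
    obtain ⟨Q', rfl⟩ := MvPolynomial.map_surjective π hπ Q
    have hQmem : MvPolynomial.aeval (fun i => coeffMap ι (gA i)) (MvPolynomial.map ι Q') ∈ FB :=
      aeval_mem_of_mem hFB _
    have hPmem : MvPolynomial.aeval (fun i => coeffMap ι (gA i)) (MvPolynomial.map ι P') ∈ FB :=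
      aeval_mem_of_mem hFB _
    have hzK : coeffMap ι (y * evR gA Q' - evR gA P')
        = coeffMap ι y * MvPolynomial.aeval (fun i => coeffMap ι (gA i)) (MvPolynomial.map ι Q')
          - MvPolynomial.aeval (fun i => coeffMap ι (gA i)) (MvPolynomial.map ι P') := by
      rw [map_sub, map_mul, coeffMap_evR, coeffMap_evR]
    have hzmem : coeffMap ι (y * evR gA Q' - evR gA P') ∈ FB := by
      rw [hzK]; exact sub_mem (mul_mem hy hQmem) hPmem
    have hzκ : coeffMap π (y * evR gA Q' - evR gA P') = 0 := by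
      rw [map_sub, map_mul, coeffMap_evR, coeffMap_evR, hPQ, div_mul_cancel₀ _ hQ0, sub_self]
    have hδz : coeffMap ι (y' * evR (gA ∘ p) Q' - evR (gA ∘ p) P')
        = ((δ ⟨_, hzmem⟩ : FB) : LaurentSeries K) := by
      have hsub : (⟨_, hzmem⟩ : FB) = ⟨_, hy⟩ * ⟨_, hQmem⟩ - ⟨_, hPmem⟩ := Subtype.ext hzK
      have hR : ((δ ⟨_, hzmem⟩ : FB) : LaurentSeries K)
          = coeffMap ι y' * MvPolynomial.aeval ((fun i => coeffMap ι (gA i)) ∘ p)
              (MvPolynomial.map ι Q')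
            - MvPolynomial.aeval ((fun i => coeffMap ι (gA i)) ∘ p) (MvPolynomial.map ι P') := by
        rw [hsub, map_sub, map_mul, AddSubgroupClass.coe_sub, IntermediateField.coe_mul,
          coe_algEquiv_aeval δ hFB p hδ _ hQmem, coe_algEquiv_aeval δ hFB p hδ _ hPmem, hy']
      rw [hR, map_sub, map_mul, coeffMap_evR, coeffMap_evR]
      rfl
    have hz'0 := h₁ _ _ hzmem hδz hzκ
    have hκ : coeffMap π y' * MvPolynomial.aeval ((fun i => coeffMap π (gA i)) ∘ p)
          (MvPolynomial.map π Q')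
        = MvPolynomial.aeval ((fun i => coeffMap π (gA i)) ∘ p) (MvPolynomial.map π P') := by
      have h := hz'0
      rw [map_sub, map_mul, coeffMap_evR, coeffMap_evR, sub_eq_zero] at h
      exact h
    have hQκmem : MvPolynomial.aeval (fun i => coeffMap π (gA i)) (MvPolynomial.map π Q') ∈ Fκ :=
      aeval_mem_of_mem hFκmem _
    have hPκmem : MvPolynomial.aeval (fun i => coeffMap π (gA i)) (MvPolynomial.map π P') ∈ Fκ :=
      aeval_mem_of_mem hFκmem _
    have hyQ : (⟨_, hyκ⟩ : Fκ) * ⟨_, hQκmem⟩ = ⟨_, hPκmem⟩ :=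
      Subtype.ext (by
        rw [IntermediateField.coe_mul]
        show coeffMap π y * _ = _
        rw [hPQ, div_mul_cancel₀ _ hQ0])
    have ht := congrArg (fun x => ((δt x : Fκ) : LaurentSeries κ)) hyQ
    simp only [map_mul, IntermediateField.coe_mul] at ht
    rw [coe_algEquiv_aeval δt hFκmem p hδt _ hQκmem,
      coe_algEquiv_aeval δt hFκmem p hδt _ hPκmem] at ht
    have hne : MvPolynomial.aeval ((fun i => coeffMap π (gA i)) ∘ p) (MvPolynomial.map π Q') ≠ 0 := by
      intro h0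
      rw [← coe_algEquiv_aeval δt hFκmem p hδt _ hQκmem] at h0
      have h1 : δt ⟨_, hQκmem⟩ = 0 := Subtype.ext h0
      rw [map_eq_zero_iff δt δt.injective] at h1
      exact hQ0 (congrArg Subtype.val h1)
    exact mul_right_cancel₀ hne (hκ.trans ht.symm)

/-- **Generic existence + compatibility, pair form.** -/
theorem exists_redAut2 (hπ : Function.Surjective π) (p : σ ≃ σ)
    (hFB : ∀ i, coeffMap ι (gA i) ∈ FB)
    (hδ : ∀ i, ((δ ⟨_, hFB i⟩ : FB) : LaurentSeries K) = coeffMap ι (gA (p i)))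
    (h₁ : GaussStableG2 ι π FB δ) (h₂ : GaussStableG2 ι π FB δ.symm)
    {Fκ : IntermediateField κ (LaurentSeries κ)}
    (hFκ : Fκ = IntermediateField.adjoin κ (Set.range fun i => coeffMap π (gA i)))
    (hFκmem : ∀ i, coeffMap π (gA i) ∈ Fκ) :
    ∃ δt : Fκ ≃ₐ[κ] Fκ,
      (∀ i, ((δt ⟨_, hFκmem i⟩ : Fκ) : LaurentSeries κ) = coeffMap π (gA (p i))) ∧
      ∀ (y y' : LaurentSeries A) (hy : coeffMap ι y ∈ FB) (hyκ : coeffMap π y ∈ Fκ),
        coeffMap ι y' = ((δ ⟨_, hy⟩ : FB) : LaurentSeries K) →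
          coeffMap π y' = ((δt ⟨_, hyκ⟩ : Fκ) : LaurentSeries κ) := by
  have hδ' : ∀ i, ((δ.symm ⟨_, hFB i⟩ : FB) : LaurentSeries K) = coeffMap ι (gA (p.symm i)) := by
    intro i
    have h1 : δ ⟨_, hFB (p.symm i)⟩ = ⟨_, hFB i⟩ := Subtype.ext (by rw [hδ, p.apply_symm_apply])
    rw [← h1, AlgEquiv.symm_apply_apply]
  have hk₁ := ker_of_gaussStable2 gA p hπ hFB hδ h₁
  have hk₂ := ker_of_gaussStable2 gA p.symm hπ hFB hδ' h₂
  subst hFκ
  obtain ⟨δt, hδt⟩ := exists_algEquiv_adjoin_perm (fun i => coeffMap π (gA i)) p hk₁ hk₂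
  exact ⟨δt, hδt, fun y y' hy hyκ hy' =>
    hdelta2_of_gaussStable2 gA p hπ hFB hδ h₁ rfl hFκmem δt hδt y y' hy hyκ hy'⟩

end Core

/-! ### Part 1: the generators of `fieldG10C κ M 1`, the reduced diamond automorphisms -/

section Generators

/-- Index set of the generators of `fieldG10C κ M 1`: the divisors `e` of `M` (for `j(q^e)`) and
the units `a` of `ℤ/M` (for `g_{M,a}`). -/
abbrev Idx (M : ℕ) : Type := {e : ℕ // e ≠ 0 ∧ e ∣ M} ⊕ (ZMod M)ˣ

/-- The generators `j(q^e)` (`e ∣ M`) and `g_{M,a}` with coefficients in any commutative ring. -/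
def genR (R : Type*) [CommRing R] (M : ℕ) : Idx M → LaurentSeries R
  | Sum.inl e => haveI : NeZero e.1 := ⟨e.2.1⟩; qExpand R e.1 (jqModC R)
  | Sum.inr a => gqR R M (a : ZMod M)

theorem genR_inl (R : Type*) [CommRing R] (M : ℕ) (e : ℕ) [NeZero e] (he : e ∣ M) :
    genR R M (Sum.inl ⟨e, NeZero.ne e, he⟩) = qExpand R e (jqModC R) := rfl

@[simp]
theorem genR_inr (R : Type*) [CommRing R] (M : ℕ) (a : (ZMod M)ˣ) :
    genR R M (Sum.inr a) = gqR R M (a : ZMod M) := rfl

theorem coeffMap_genR {R S : Type*} [CommRing R] [CommRing S] (f : R →+* S) (M : ℕ)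
    (i : Idx M) : coeffMap f (genR R M i) = genR S M i := by
  rcases i with e | a
  · haveI : NeZero e.1 := ⟨e.2.1⟩
    show coeffMap f (qExpand R e.1 (jqModC R)) = qExpand S e.1 (jqModC S)
    rw [coeffMap_qExpand, coeffMap_jqModC]
  · exact coeffMap_gqR f M _

/-- The permutation of the generators induced by `⟨d⟩`: `j(q^e) ↦ j(q^e)`,
`g_{M,a} ↦ g_{M, a d⁻¹}`. -/
def dperm {M : ℕ} (d : (ZMod M)ˣ) : Idx M ≃ Idx M :=
  Equiv.sumCongr (Equiv.refl _) (Equiv.mulRight d⁻¹)

@[simp]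
theorem dperm_inl {M : ℕ} (d : (ZMod M)ˣ) (e : {e : ℕ // e ≠ 0 ∧ e ∣ M}) :
    dperm d (Sum.inl e) = Sum.inl e := rfl

@[simp]
theorem dperm_inr {M : ℕ} (d : (ZMod M)ˣ) (a : (ZMod M)ˣ) :
    dperm d (Sum.inr a) = Sum.inr (a * d⁻¹) := rfl

theorem dperm_symm {M : ℕ} (d : (ZMod M)ˣ) : (dperm d).symm = dperm d⁻¹ := by
  ext i
  rcases i with e | a
  · rfl
  · simp [dperm]

theorem dperm_one {M : ℕ} (i : Idx M) : dperm (1 : (ZMod M)ˣ) i = i := by
  rcases i with e | a
  · rfl
  · simp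

theorem dperm_mul {M : ℕ} (d d' : (ZMod M)ˣ) (i : Idx M) :
    dperm (d * d') i = dperm d' (dperm d i) := by
  rcases i with e | a
  · rfl
  · simp [mul_assoc, mul_comm]

variable (κ : Type*) [Field κ]

theorem range_genR (M : ℕ) :
    Set.range (genR κ M) = divisorExpansionsC κ (M * 1) ∪ gExpansionsC κ M 1 := by
  ext x
  constructor
  · rintro ⟨i, rfl⟩
    rcases i with e | a
    · exact Or.inl ⟨e.1, ⟨e.2.1⟩, by simpa using e.2.2, rfl⟩
    · exact Or.inr ⟨a, 1, ⟨one_ne_zero⟩, dvd_rfl, (qExpand_one_apply _).symm⟩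
  · rintro (⟨e, hne, he, rfl⟩ | ⟨a, e, hne, he, rfl⟩)
    · exact ⟨Sum.inl ⟨e, hne.ne, by simpa using he⟩, rfl⟩
    · obtain rfl : e = 1 := Nat.dvd_one.mp he
      exact ⟨Sum.inr a, (qExpand_one_apply _).symm⟩

/-- `fieldG10C κ M 1 = κ(j(q^e), e ∣ M; g_{M,a})`. -/
theorem fieldG10C_one_eq (M : ℕ) :
    fieldG10C κ M 1 = IntermediateField.adjoin κ (Set.range (genR κ M)) := by
  rw [range_genR]
  rfl

theorem genR_mem (M : ℕ) (i : Idx M) : genR κ M i ∈ fieldG10C κ M 1 := by
  rw [fieldG10C_one_eq]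
  exact subset_adjoin κ _ ⟨i, rfl⟩

/-- Two ring homomorphisms out of `fieldG10C κ M 1` agreeing on `κ` and on the generators are
equal. -/
theorem ringHom_ext_fieldG10C {M : ℕ} {T : Type*} [DivisionRing T]
    {f g : fieldG10C κ M 1 →+* T}
    (hc : ∀ c : κ, f (algebraMap κ _ c) = g (algebraMap κ _ c))
    (hg : ∀ i, f ⟨genR κ M i, genR_mem κ M i⟩ = g ⟨genR κ M i, genR_mem κ M i⟩) : f = g := by
  refine ringHom_ext_of_eq_adjoin (fieldG10C_one_eq κ M) hc ?_
  rintro s ⟨i, rfl⟩ hs'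
  exact hg i

/-- Induction principle for `fieldG10C κ M 1`. -/
theorem fieldG10C_one_induction {M : ℕ} {P : LaurentSeries κ → Prop}
    (hc : ∀ c : κ, P (algebraMap κ _ c)) (hg : ∀ i, P (genR κ M i))
    (hadd : ∀ x y, x ∈ fieldG10C κ M 1 → y ∈ fieldG10C κ M 1 → P x → P y → P (x + y))
    (hinv : ∀ x, x ∈ fieldG10C κ M 1 → P x → P x⁻¹)
    (hmul : ∀ x y, x ∈ fieldG10C κ M 1 → y ∈ fieldG10C κ M 1 → P x → P y → P (x * y))
    {x : LaurentSeries κ} (hx : x ∈ fieldG10C κ M 1) : P x := by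
  have key : ∀ x ∈ IntermediateField.adjoin κ (Set.range (genR κ M)), P x := by
    intro x hx
    induction hx using IntermediateField.adjoin_induction with
    | mem x hx => obtain ⟨i, rfl⟩ := hx; exact hg i
    | algebraMap c => exact hc c
    | add x y hx hy ihx ihy =>
        exact hadd x y (by rwa [fieldG10C_one_eq]) (by rwa [fieldG10C_one_eq]) ihx ihy
    | inv x hx ih => exact hinv x (by rwa [fieldG10C_one_eq]) ih
    | mul x y hx hy ihx ihy =>
        exact hmul x y (by rwa [fieldG10C_one_eq]) (by rwa [fieldG10C_one_eq]) ihx ihy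
  exact key x (by rwa [← fieldG10C_one_eq])

/-- `δt` is **the reduced diamond automorphism `⟨d⟩`** of `fieldG10C κ M 1`: it fixes `j(q^e)`
(`e ∣ M`) and maps `g_{M,a}` to `g_{M, a d⁻¹}`. -/
def IsDiamondAutC (M : ℕ) (d : (ZMod M)ˣ) (δt : fieldG10C κ M 1 ≃ₐ[κ] fieldG10C κ M 1) : Prop :=
  ∀ i, ((δt ⟨genR κ M i, genR_mem κ M i⟩ : fieldG10C κ M 1) : LaurentSeries κ)
    = genR κ M (dperm d i)

variable {κ}

/-- The `J1Defs8.IsDiamondAut`-style wording. -/
theorem isDiamondAutC_iff {M : ℕ} {d : (ZMod M)ˣ}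
    {δt : fieldG10C κ M 1 ≃ₐ[κ] fieldG10C κ M 1} :
    IsDiamondAutC κ M d δt ↔
      (∀ (e : ℕ) [NeZero e], e ∣ M → ∀ y : fieldG10C κ M 1,
        (y : LaurentSeries κ) = qExpand κ e (jqModC κ) → δt y = y) ∧
      ∀ (a : (ZMod M)ˣ) (y : fieldG10C κ M 1), (y : LaurentSeries κ) = gqR κ M (a : ZMod M) →
        ((δt y : fieldG10C κ M 1) : LaurentSeries κ)
          = gqR κ M ((a * d⁻¹ : (ZMod M)ˣ) : ZMod M) := by
  constructor
  · intro h
    refine ⟨fun e _ he y hy => ?_, fun a y hy => ?_⟩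
    · have h1 := h (Sum.inl ⟨e, NeZero.ne e, he⟩)
      have hy' : y = ⟨genR κ M (Sum.inl ⟨e, NeZero.ne e, he⟩), genR_mem κ M _⟩ := Subtype.ext hy
      rw [hy']
      exact Subtype.ext h1
    · have h1 := h (Sum.inr a)
      have hy' : y = ⟨genR κ M (Sum.inr a), genR_mem κ M _⟩ := Subtype.ext hy
      rw [hy']
      exact h1
  · rintro ⟨h1, h2⟩ i
    rcases i with e | a
    · haveI : NeZero e.1 := ⟨e.2.1⟩
      rw [h1 e.1 e.2.2 _ rfl]
      rfl
    · exact h2 a _ rfl

theorem IsDiamondAutC.apply_gen {M : ℕ} {d : (ZMod M)ˣ}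
    {δt : fieldG10C κ M 1 ≃ₐ[κ] fieldG10C κ M 1} (h : IsDiamondAutC κ M d δt) (i : Idx M) :
    δt ⟨genR κ M i, genR_mem κ M i⟩ = ⟨genR κ M (dperm d i), genR_mem κ M _⟩ :=
  Subtype.ext (h i)

/-- The reduced diamond automorphism is unique. -/
theorem IsDiamondAutC.unique {M : ℕ} {d : (ZMod M)ˣ}
    {δ₁ δ₂ : fieldG10C κ M 1 ≃ₐ[κ] fieldG10C κ M 1} (h₁ : IsDiamondAutC κ M d δ₁)
    (h₂ : IsDiamondAutC κ M d δ₂) : δ₁ = δ₂ := by
  have h : ((δ₁ : fieldG10C κ M 1 ≃+* fieldG10C κ M 1) : fieldG10C κ M 1 →+* fieldG10C κ M 1)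
      = ((δ₂ : fieldG10C κ M 1 ≃+* fieldG10C κ M 1) : fieldG10C κ M 1 →+* fieldG10C κ M 1) := by
    refine ringHom_ext_fieldG10C κ (fun c => ?_) (fun i => ?_)
    · exact (δ₁.commutes c).trans (δ₂.commutes c).symm
    · exact (h₁.apply_gen i).trans (h₂.apply_gen i).symm
  exact AlgEquiv.ext fun x => RingHom.congr_fun h x

theorem isDiamondAutC_one {M : ℕ} : IsDiamondAutC κ M 1 AlgEquiv.refl := by
  intro i
  rw [dperm_one]
  rfl

theorem IsDiamondAutC.symm {M : ℕ} {d : (ZMod M)ˣ}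
    {δt : fieldG10C κ M 1 ≃ₐ[κ] fieldG10C κ M 1} (h : IsDiamondAutC κ M d δt) :
    IsDiamondAutC κ M d⁻¹ δt.symm := by
  intro i
  have h1 := h.apply_gen ((dperm d).symm i)
  rw [Equiv.apply_symm_apply] at h1
  rw [← h1, AlgEquiv.symm_apply_apply, dperm_symm]

theorem IsDiamondAutC.trans {M : ℕ} {d d' : (ZMod M)ˣ}
    {δt δt' : fieldG10C κ M 1 ≃ₐ[κ] fieldG10C κ M 1} (h : IsDiamondAutC κ M d δt)
    (h' : IsDiamondAutC κ M d' δt') : IsDiamondAutC κ M (d * d') (δt.trans δt') := by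
  intro i
  show ((δt' (δt _) : fieldG10C κ M 1) : LaurentSeries κ) = _
  rw [h.apply_gen, h'.apply_gen, dperm_mul]

/-- The coefficientwise action of a ring endomorphism of `κ` on `fieldG10C κ M L`. -/
def coeffEnd (φ : κ →+* κ) (M L : ℕ) : fieldG10C κ M L →+* fieldG10C κ M L where
  toFun x := ⟨coeffMap φ x, coeffMap_mem_fieldG10C φ M L x.2⟩
  map_one' := Subtype.ext (map_one _)
  map_mul' _ _ := Subtype.ext (map_mul _ _ _)
  map_zero' := Subtype.ext (map_zero _)
  map_add' _ _ := Subtype.ext (map_add _ _ _)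

@[simp]
theorem coe_coeffEnd (φ : κ →+* κ) (M L : ℕ) (x : fieldG10C κ M L) :
    ((coeffEnd φ M L x : fieldG10C κ M L) : LaurentSeries κ) = coeffMap φ x := rfl

/-- **The reduced diamond commutes with every coefficientwise ring endomorphism** (Frobenius,
Galois). -/
theorem IsDiamondAutC.comm_coeffEnd {M : ℕ} {d : (ZMod M)ˣ}
    {δt : fieldG10C κ M 1 ≃ₐ[κ] fieldG10C κ M 1} (h : IsDiamondAutC κ M d δt) (φ : κ →+* κ)
    (x : fieldG10C κ M 1) : δt (coeffEnd φ M 1 x) = coeffEnd φ M 1 (δt x) := by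
  have key : ((δt : fieldG10C κ M 1 ≃+* fieldG10C κ M 1) : fieldG10C κ M 1 →+* _).comp
        (coeffEnd φ M 1)
      = (coeffEnd φ M 1).comp
        ((δt : fieldG10C κ M 1 ≃+* fieldG10C κ M 1) : fieldG10C κ M 1 →+* _) := by
    refine ringHom_ext_fieldG10C κ (fun c => ?_) (fun i => ?_)
    · have h1 : coeffEnd φ M 1 (algebraMap κ _ c) = algebraMap κ _ (φ c) :=
        Subtype.ext (coeffMap_algebraMap φ c)
      show δt (coeffEnd φ M 1 (algebraMap κ _ c)) = coeffEnd φ M 1 (δt (algebraMap κ _ c))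
      rw [h1, δt.commutes, δt.commutes, h1]
    · have h1 : ∀ j, coeffEnd φ M 1 ⟨genR κ M j, genR_mem κ M j⟩ = ⟨genR κ M j, genR_mem κ M j⟩ :=
        fun j => Subtype.ext (coeffMap_genR φ M j)
      show δt (coeffEnd φ M 1 _) = coeffEnd φ M 1 (δt _)
      rw [h1, h.apply_gen, h1]
  exact RingHom.congr_fun key x

/-- The series form of `comm_coeffEnd`. -/
theorem coeffMap_diaC {M : ℕ} {d : (ZMod M)ˣ}
    {δt : fieldG10C κ M 1 ≃ₐ[κ] fieldG10C κ M 1} (h : IsDiamondAutC κ M d δt) (φ : κ →+* κ)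
    (x : LaurentSeries κ) (hx : x ∈ fieldG10C κ M 1) :
    ((δt ⟨coeffMap φ x, coeffMap_mem_fieldG10C φ M 1 hx⟩ : fieldG10C κ M 1) : LaurentSeries κ)
      = coeffMap φ ((δt ⟨x, hx⟩ : fieldG10C κ M 1) : LaurentSeries κ) :=
  congrArg Subtype.val (h.comm_coeffEnd φ ⟨x, hx⟩)

/-- **`ofAlgAut δt` commutes with every semilinear automorphism acting coefficientwise** (the
hypothesis is `GaloisR3G9.IsCoeffSemi h ψ` unfolded). -/
theorem IsDiamondAutC.commute_semilinear {M : ℕ} {d : (ZMod M)ˣ}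
    {δt : fieldG10C κ M 1 ≃ₐ[κ] fieldG10C κ M 1} (hδ : IsDiamondAutC κ M d δt)
    (h : SemilinearAut κ (fieldG10C κ M 1)) (ψ : κ ≃+* κ)
    (hh : ∀ y : fieldG10C κ M 1, ((h • y : fieldG10C κ M 1) : LaurentSeries κ)
      = coeffMap (ψ : κ →+* κ) (y : LaurentSeries κ)) :
    SemilinearAut.ofAlgAut δt * h = h * SemilinearAut.ofAlgAut δt := by
  have hsm : ∀ y : fieldG10C κ M 1, h • y = coeffEnd (ψ : κ →+* κ) M 1 y := fun y =>
    Subtype.ext (hh y)
  refine Subtype.ext (Prod.ext (RingEquiv.ext fun y => ?_) ?_)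
  · show δt (h • y) = h • δt y
    rw [hsm, hsm, hδ.comm_coeffEnd]
  · show (1 : RingAut κ) * SemilinearAut.baseAut h = SemilinearAut.baseAut h * 1
    rw [one_mul, mul_one]

end Generators


/-! ### Part 2: existence of the reduced diamond and the compatibility (Hδ) -/

section Existence

variable {K : Type*} [Field K] [Algebra ℚ K] {κ : Type*} [Field κ] {M : ℕ}

theorem genR_mem_FK (K : Type*) [Field K] [Algebra ℚ K] (M : ℕ) (i : Idx M) :
    genR K M i ∈ FK K M 1 := by
  rw [FK_eq]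
  exact genR_mem K M i

/-- The characteristic-zero diamond permutes the generators. -/
theorem isDiamondAut_apply_gen {d : (ZMod M)ˣ} {δ : FK K M 1 ≃ₐ[K] FK K M 1}
    (hδ : IsDiamondAut K M d δ) (i : Idx M) :
    ((δ ⟨genR K M i, genR_mem_FK K M i⟩ : FK K M 1) : LaurentSeries K)
      = genR K M (dperm d i) := by
  rcases i with e | a
  · haveI : NeZero e.1 := ⟨e.2.1⟩
    have h1 : genR K M (Sum.inl e) = coeffEmb K (qExpand ℚ e.1 jq) := by
      rw [J1Defs8.coeffEmb_qExpand, coeffEmb_jq]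
      rfl
    rw [hδ.1 e.1 e.2.2 ⟨genR K M (Sum.inl e), genR_mem_FK K M _⟩ h1]
    rfl
  · have h1 : genR K M (Sum.inr a) = coeffEmb K (gq M (a : ZMod M)) := (coeffEmb_gq K M _).symm
    rw [hδ.2 a ⟨genR K M (Sum.inr a), genR_mem_FK K M _⟩ h1, coeffEmb_gq]
    rfl

variable (A : ValuationSubring K) (π : A →+* κ)

/-- **Gauss stability of the diamond `δ`** at `A`, EXISTENTIAL form (FALSE for `⟨d⟩`, `d ≠ ±1`:
use `GaussStable2`): for every `x ∈ FK K M 1` whose `q`-expansion is `A`-integral, `δ x` has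
`A`-integral `q`-expansion, and if the reduction of `x` vanishes so does that of `δ x`. -/
def GaussStable (δ : FK K M 1 ≃ₐ[K] FK K M 1) : Prop :=
  ∀ (y : LaurentSeries A) (hy : coeffMap A.subtype y ∈ FK K M 1), ∃ y' : LaurentSeries A,
    coeffMap A.subtype y' = ((δ ⟨_, hy⟩ : FK K M 1) : LaurentSeries K) ∧
      (coeffMap π y = 0 → coeffMap π y' = 0)

theorem gaussStable_iff (δ : FK K M 1 ≃ₐ[K] FK K M 1) :
    GaussStable A π δ ↔ GaussStableG A.subtype π (FK K M 1) δ := Iff.rfl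

variable {A π}

/-- (KR2), EXISTENTIAL form (hypotheses unprovable for the diamonds; use `exists_diamondRed2`):
existence, and compatibility (Hδ) with the reduction of integral elements. -/
theorem exists_diamondRed (hπ : Function.Surjective π) {d : (ZMod M)ˣ}
    {δ : FK K M 1 ≃ₐ[K] FK K M 1} (hδ : IsDiamondAut K M d δ) (h₁ : GaussStable A π δ)
    (h₂ : GaussStable A π δ.symm) :
    ∃ δt : fieldG10C κ M 1 ≃ₐ[κ] fieldG10C κ M 1, IsDiamondAutC κ M d δt ∧
      ∀ (y : LaurentSeries A) (hy : coeffMap A.subtype y ∈ FK K M 1)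
        (hyκ : coeffMap π y ∈ fieldG10C κ M 1),
        ∃ y' : LaurentSeries A,
          coeffMap A.subtype y' = ((δ ⟨_, hy⟩ : FK K M 1) : LaurentSeries K) ∧
          coeffMap π y' = ((δt ⟨_, hyκ⟩ : fieldG10C κ M 1) : LaurentSeries κ) := by
  have hFB : ∀ i, coeffMap A.subtype (genR A M i) ∈ FK K M 1 := fun i => by
    rw [coeffMap_genR]; exact genR_mem_FK K M i
  have hδg : ∀ i, ((δ ⟨_, hFB i⟩ : FK K M 1) : LaurentSeries K)
      = coeffMap A.subtype (genR A M (dperm d i)) := by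
    intro i
    have e : (⟨_, hFB i⟩ : FK K M 1) = ⟨genR K M i, genR_mem_FK K M i⟩ :=
      Subtype.ext (coeffMap_genR A.subtype M i)
    rw [e, isDiamondAut_apply_gen hδ, coeffMap_genR]
  have hFκ : fieldG10C κ M 1
      = IntermediateField.adjoin κ (Set.range fun i => coeffMap π (genR A M i)) := by
    rw [fieldG10C_one_eq]
    congr 2
    funext i
    exact (coeffMap_genR π M i).symm
  have hFκmem : ∀ i, coeffMap π (genR A M i) ∈ fieldG10C κ M 1 := fun i => by
    rw [coeffMap_genR]; exact genR_mem κ M i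
  obtain ⟨δt, hδt, hH⟩ := exists_redAut (genR A M) Subtype.val_injective hπ (dperm d) hFB hδg
    h₁ h₂ hFκ hFκmem
  refine ⟨δt, fun i => ?_, hH⟩
  have e : (⟨genR κ M i, genR_mem κ M i⟩ : fieldG10C κ M 1) = ⟨_, hFκmem i⟩ :=
    Subtype.ext (coeffMap_genR π M i).symm
  rw [e, hδt, coeffMap_genR]

/-! #### The PAIR forms (TRUE for the diamonds; see the warning in section `Core`) -/

variable (A π)

/-- **Gauss stability of the diamond `δ`, pair form**: if `x ∈ FK K M 1` and `δ x` BOTH have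
`A`-integral `q`-expansions and the reduction of `x` vanishes, so does that of `δ x`.
(`GaussStable` above is FALSE for `⟨d⟩`, `d ≠ ±1`; this one follows from the uniqueness of the
extension of the Gauss valuation, i.e. from [IG1].) -/
def GaussStable2 (δ : FK K M 1 ≃ₐ[K] FK K M 1) : Prop :=
  ∀ (y y' : LaurentSeries A) (hy : coeffMap A.subtype y ∈ FK K M 1),
    coeffMap A.subtype y' = ((δ ⟨_, hy⟩ : FK K M 1) : LaurentSeries K) →
      coeffMap π y = 0 → coeffMap π y' = 0

/-- **(Hδ2)**: `δt` is the reduction of `δ`: whenever `f ∈ FK K M 1` and `δ f` both have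
`A`-integral `q`-expansions (`y`, `y'`) and `f~ ∈ fieldG10C κ M 1`, then `(δ f)~ = δt f~`. -/
def DiaRed2 (δ : FK K M 1 ≃ₐ[K] FK K M 1)
    (δt : fieldG10C κ M 1 ≃ₐ[κ] fieldG10C κ M 1) : Prop :=
  ∀ (y y' : LaurentSeries A) (hy : coeffMap A.subtype y ∈ FK K M 1)
    (hyκ : coeffMap π y ∈ fieldG10C κ M 1),
    coeffMap A.subtype y' = ((δ ⟨_, hy⟩ : FK K M 1) : LaurentSeries K) →
      coeffMap π y' = ((δt ⟨_, hyκ⟩ : fieldG10C κ M 1) : LaurentSeries κ)

variable {A π}

theorem GaussStable.to2 {δ : FK K M 1 ≃ₐ[K] FK K M 1} (h : GaussStable A π δ) :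
    GaussStable2 A π δ :=
  GaussStableG.toG2 Subtype.val_injective h

/-- **(KR2) THE REDUCED DIAMOND, pair form**: existence, and the compatibility (Hδ2). -/
theorem exists_diamondRed2 (hπ : Function.Surjective π) {d : (ZMod M)ˣ}
    {δ : FK K M 1 ≃ₐ[K] FK K M 1} (hδ : IsDiamondAut K M d δ) (h₁ : GaussStable2 A π δ)
    (h₂ : GaussStable2 A π δ.symm) :
    ∃ δt : fieldG10C κ M 1 ≃ₐ[κ] fieldG10C κ M 1, IsDiamondAutC κ M d δt ∧ DiaRed2 A π δ δt := by
  have hFB : ∀ i, coeffMap A.subtype (genR A M i) ∈ FK K M 1 := fun i => by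
    rw [coeffMap_genR]; exact genR_mem_FK K M i
  have hδg : ∀ i, ((δ ⟨_, hFB i⟩ : FK K M 1) : LaurentSeries K)
      = coeffMap A.subtype (genR A M (dperm d i)) := by
    intro i
    have e : (⟨_, hFB i⟩ : FK K M 1) = ⟨genR K M i, genR_mem_FK K M i⟩ :=
      Subtype.ext (coeffMap_genR A.subtype M i)
    rw [e, isDiamondAut_apply_gen hδ, coeffMap_genR]
  have hFκ : fieldG10C κ M 1
      = IntermediateField.adjoin κ (Set.range fun i => coeffMap π (genR A M i)) := by
    rw [fieldG10C_one_eq]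
    congr 2
    funext i
    exact (coeffMap_genR π M i).symm
  have hFκmem : ∀ i, coeffMap π (genR A M i) ∈ fieldG10C κ M 1 := fun i => by
    rw [coeffMap_genR]; exact genR_mem κ M i
  obtain ⟨δt, hδt, hH⟩ := exists_redAut2 (ι := A.subtype) (genR A M) hπ (dperm d) hFB hδg
    h₁ h₂ hFκ hFκmem
  refine ⟨δt, fun i => ?_, hH⟩
  have e : (⟨genR κ M i, genR_mem κ M i⟩ : fieldG10C κ M 1) = ⟨_, hFκmem i⟩ :=
    Subtype.ext (coeffMap_genR π M i).symm
  rw [e, hδt, coeffMap_genR]

/-- Consequence of (Hδ2) for an element fixed by `δ`: its reduction is fixed by `δt`. -/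
theorem DiaRed2.fixed {δ : FK K M 1 ≃ₐ[K] FK K M 1}
    {δt : fieldG10C κ M 1 ≃ₐ[κ] fieldG10C κ M 1} (h : DiaRed2 A π δ δt)
    (y : LaurentSeries A) (hy : coeffMap A.subtype y ∈ FK K M 1)
    (hyκ : coeffMap π y ∈ fieldG10C κ M 1) (hfix : δ ⟨_, hy⟩ = ⟨_, hy⟩) :
    δt ⟨_, hyκ⟩ = ⟨_, hyκ⟩ :=
  Subtype.ext (h y y hy hyκ (by rw [hfix])).symm

end Existence

end Fermat.Agent.M48.DiamondRed3
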