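/-
Programme M48, pillar (P1), chapter [ESRED1], item (KR2) — helper3.  **Gauss stability from plain
stability.**

For `A ⊂ ℚbar` a valuation ring over `ℓ` and `FB = ℚbar · F₀ ⊂ ℚbar((q))`: an element of `FB` all of
whose coefficients lie in the maximal ideal of `A` is `ϖ · x₁` with `ϖ ∈ 𝔪_A`, `x₁` `A`-integral
(descent to a number field `K`, where `A ∩ K` is a discrete valuation ring).  Hence a
`ℚbar`-linear automorphism of `FB` which preserves `A`-integrality of `q`-expansions also preserves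
"zero reduction": `GaussStableG` (and `DiamondRed3.GaussStable`) follows from plain stability.

!! For the DIAMONDS plain stability is FALSE (the diamond moves the cusp `∞`), so
`gaussStable_of_stable`/`exists_diamondRed_of_stable` are correct but useless there; the useful
part of this file is `exists_unif_dvd` (used by `DiamondInv3` for the pair form `GaussStable2`).
-/
import Mathlib
import Fermat.Agent.M48.DiamondRed3
import Fermat.Agent.RED.DESC.CoeffDescent1
import Fermat.Agent.RED.DESC.NumberFieldDVR27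

set_option autoImplicit false
set_option linter.unusedSectionVars false
set_option linter.style.haveILetI false

open AlgebraicCurve ModularCurve IntermediateField HahnSeries

noncomputable section

namespace Fermat.Agent.M48.GaussStableOf3

open Fermat.Agent.M48.DiamondRed3 Fermat.Agent.M48.J1Defs8
open Fermat.Agent.RED.DESC Fermat.Agent.RED.DESC.NumberFieldDVR27

/-- `ℚbar`. -/
local notation "Qb" => AlgebraicClosure ℚ

/-- Lifting a Laurent series along an injective coefficient map (copy of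
`UnifDescent14.exists_coeffMap_eq`, to keep the imports light). -/
theorem exists_coeffMap_eq' {R S : Type*} [CommRing R] [CommRing S] (φ : R →+* S)
    (hφ : Function.Injective φ) (x : LaurentSeries S) (h : ∀ n, x.coeff n ∈ Set.range φ) :
    ∃ y : LaurentSeries R, coeffMap φ y = x := by
  classical
  choose c hc using h
  have hsupp : Function.support c ⊆ x.support := by
    intro n hn
    rw [Function.mem_support] at hn
    rw [HahnSeries.mem_support]
    intro h0
    apply hn
    apply hφ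
    rw [hc n, h0, map_zero]
  refine ⟨⟨c, x.isPWO_support.mono hsupp⟩, ?_⟩
  ext n
  show (HahnSeries.map _ φ).coeff n = x.coeff n
  rw [HahnSeries.map_coeff]
  exact hc n

section Unif

variable {ℓ : ℕ} (hℓ : ℓ ≠ 0) (A : ValuationSubring Qb) (hA : A.LiesOverPrime ℓ)
variable (F₀ : IntermediateField ℚ (LaurentSeries ℚ))

include hℓ hA in
/-- **Uniform divisibility**: an element of `ℚbar · F₀` with all coefficients in `𝔪_A` has all its
coefficients divisible in `A` by one element `ϖ ∈ 𝔪_A`. -/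
theorem exists_unif_dvd {x : LaurentSeries Qb} (hx : x ∈ laurentBaseChange Qb F₀)
    (hm : ∀ n, x.coeff n ∈ A.nonunits) :
    ∃ ϖ : A, ϖ ∈ IsLocalRing.maximalIdeal A ∧ ϖ ≠ 0 ∧
      ∀ n, ∃ c : A, x.coeff n = (ϖ : Qb) * (c : Qb) := by
  haveI := NumberFieldDVR27.isAlgebraic_Qbar
  obtain ⟨K, -, hfin, x', -, rfl⟩ :=
    CoeffDescent1.exists_finite_descent (L := Qb) (F₀ := F₀) ⊥ hx
  haveI := hfin
  haveI hdvr := isDiscreteValuationRing_AK A K hℓ hA
  obtain ⟨ϖ₀, hϖ₀⟩ := IsDiscreteValuationRing.exists_irreducible (Fermat.Agent.RED.Interface4.AK A K)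
  have hϖ₀m : ϖ₀ ∈ IsLocalRing.maximalIdeal (Fermat.Agent.RED.Interface4.AK A K) := by
    rw [IsLocalRing.mem_maximalIdeal, mem_nonunits_iff]
    exact hϖ₀.not_isUnit
  refine ⟨incl A K ϖ₀, (mem_maximalIdeal_iff A K ϖ₀).mp hϖ₀m, ?_, fun n => ?_⟩
  · intro h0
    exact hϖ₀.ne_zero (incl_injective A K (h0.trans (map_zero _).symm))
  · have hn := hm n
    have hcoe : (coeffMap (algebraMap K Qb) x').coeff n = ((x'.coeff n : K) : Qb) := rfl
    rw [hcoe] at hn ⊢
    have hmemA : ((x'.coeff n : K) : Qb) ∈ A := A.nonunits_subset hn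
    have hmem : x'.coeff n ∈ Fermat.Agent.RED.Interface4.AK A K := (mem_AK_iff A K _).mpr hmemA
    have hmax : (⟨x'.coeff n, hmem⟩ : Fermat.Agent.RED.Interface4.AK A K)
        ∈ IsLocalRing.maximalIdeal (Fermat.Agent.RED.Interface4.AK A K) := by
      rw [mem_maximalIdeal_iff, ValuationSubring.valuation_lt_one_iff]
      exact (ValuationSubring.mem_nonunits_iff (A := A)).mp hn
    rw [hϖ₀.maximalIdeal_eq, Ideal.mem_span_singleton'] at hmax
    obtain ⟨c, hc⟩ := hmax
    refine ⟨incl A K c, ?_⟩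
    have h1 := congrArg (fun z : Fermat.Agent.RED.Interface4.AK A K => ((z : K) : Qb)) hc
    simp only at h1
    rw [← h1, mul_comm]
    push_cast
    rfl

end Unif

section Main

variable {ℓ : ℕ} (hℓ : ℓ ≠ 0) {A : ValuationSubring Qb} (hA : A.LiesOverPrime ℓ)
variable {κ : Type*} [Field κ] {π : A →+* κ} (hπ : Function.Surjective π)
variable {F₀ : IntermediateField ℚ (LaurentSeries ℚ)}

include hπ in
theorem ker_eq_maximalIdeal : RingHom.ker π = IsLocalRing.maximalIdeal A :=
  IsLocalRing.eq_maximalIdeal (RingHom.ker_isMaximal_of_surjective π hπ)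

include hℓ hA hπ in
/-- **Gauss stability from plain stability** (generic): a `ℚbar`-algebra automorphism of
`ℚbar · F₀` preserving `A`-integrality of `q`-expansions preserves "zero reduction". -/
theorem gaussStableG_of_stable
    {δ : laurentBaseChange Qb F₀ ≃ₐ[Qb] laurentBaseChange Qb F₀}
    (hst : ∀ (y : LaurentSeries A) (hy : coeffMap A.subtype y ∈ laurentBaseChange Qb F₀),
      ∃ y' : LaurentSeries A, coeffMap A.subtype y'
        = ((δ ⟨_, hy⟩ : laurentBaseChange Qb F₀) : LaurentSeries Qb)) :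
    GaussStableG A.subtype π (laurentBaseChange Qb F₀) δ := by
  intro y hy
  obtain ⟨y', hy'⟩ := hst y hy
  refine ⟨y', hy', fun h0 => ?_⟩
  have hker := ker_eq_maximalIdeal hπ
  -- all coefficients of `y` are in the maximal ideal
  have hcoef : ∀ n, (coeffMap A.subtype y).coeff n ∈ A.nonunits := by
    intro n
    have h1 : π (y.coeff n) = 0 := by
      have := congrArg (fun s => s.coeff n) h0
      simpa using this
    have h2 : y.coeff n ∈ IsLocalRing.maximalIdeal A := by
      rw [← hker]; exact h1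
    rw [ValuationSubring.valuation_lt_one_iff] at h2
    exact (ValuationSubring.mem_nonunits_iff (A := A)).mpr h2
  obtain ⟨ϖ, hϖm, hϖ0, hdiv⟩ := exists_unif_dvd hℓ A hA F₀ hy hcoef
  have hϖQ : (ϖ : Qb) ≠ 0 := fun h => hϖ0 (Subtype.ext h)
  -- `z = ϖ⁻¹ • y`
  have hzmem : algebraMap Qb (LaurentSeries Qb) (ϖ : Qb)⁻¹ * coeffMap A.subtype y
      ∈ laurentBaseChange Qb F₀ :=
    mul_mem ((laurentBaseChange Qb F₀).algebraMap_mem _) hy
  have hzcoef : ∀ n, (algebraMap Qb (LaurentSeries Qb) (ϖ : Qb)⁻¹ * coeffMap A.subtype y).coeff n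
      ∈ Set.range A.subtype := by
    intro n
    obtain ⟨c, hc⟩ := hdiv n
    refine ⟨c, ?_⟩
    rw [algebraMap_laurentSeries_eq_single, ← HahnSeries.C_apply, HahnSeries.C_mul_eq_smul,
      HahnSeries.coeff_smul, hc, smul_eq_mul, ← mul_assoc, inv_mul_cancel₀ hϖQ, one_mul]
    rfl
  obtain ⟨y₁, hy₁⟩ := exists_coeffMap_eq' A.subtype Subtype.val_injective _ hzcoef
  have hy₁mem : coeffMap A.subtype y₁ ∈ laurentBaseChange Qb F₀ := by rw [hy₁]; exact hzmem
  obtain ⟨y₁', hy₁'⟩ := hst y₁ hy₁mem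
  -- `δ z = ϖ⁻¹ • δ y`
  have hδz : ((δ ⟨_, hy₁mem⟩ : laurentBaseChange Qb F₀) : LaurentSeries Qb)
      = algebraMap Qb (LaurentSeries Qb) (ϖ : Qb)⁻¹ * coeffMap A.subtype y' := by
    have hsub : (⟨_, hy₁mem⟩ : laurentBaseChange Qb F₀)
        = algebraMap Qb (laurentBaseChange Qb F₀) (ϖ : Qb)⁻¹ * ⟨_, hy⟩ := Subtype.ext hy₁
    rw [hsub, map_mul, δ.commutes, IntermediateField.coe_mul, ← hy']
    rfl
  have hy'eq : y' = HahnSeries.C ϖ * y₁' := by
    apply coeffMap_injective (f := A.subtype) Subtype.val_injective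
    rw [map_mul, hy₁', hδz, HahnSeries.C_apply, coeffMap_single, algebraMap_laurentSeries_eq_single,
      ← mul_assoc, HahnSeries.single_mul_single, add_zero]
    have : (A.subtype ϖ : Qb) * (ϖ : Qb)⁻¹ = 1 := mul_inv_cancel₀ hϖQ
    rw [this]
    exact (one_mul _).symm
  have hπϖ : π ϖ = 0 := by
    have : ϖ ∈ RingHom.ker π := by rw [hker]; exact hϖm
    exact this
  rw [hy'eq, map_mul, HahnSeries.C_apply, coeffMap_single, hπϖ, HahnSeries.single_eq_zero,
    zero_mul]

include hℓ hA hπ in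
/-- **`DiamondRed3.GaussStable` from plain stability.** -/
theorem gaussStable_of_stable {M : ℕ} {δ : FK Qb M 1 ≃ₐ[Qb] FK Qb M 1}
    (hst : ∀ (y : LaurentSeries A) (hy : coeffMap A.subtype y ∈ FK Qb M 1),
      ∃ y' : LaurentSeries A, coeffMap A.subtype y'
        = ((δ ⟨_, hy⟩ : FK Qb M 1) : LaurentSeries Qb)) :
    GaussStable A π δ :=
  gaussStableG_of_stable hℓ hA hπ hst

include hℓ hA hπ in
/-- **(KR2) from plain stability**: if the diamond `δ` and its inverse preserve `A`-integrality of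
`q`-expansions, the reduced diamond exists and is compatible with `δ` (Hδ). -/
theorem exists_diamondRed_of_stable {M : ℕ} {d : (ZMod M)ˣ} {δ : FK Qb M 1 ≃ₐ[Qb] FK Qb M 1}
    (hδ : IsDiamondAut Qb M d δ)
    (hst₁ : ∀ (y : LaurentSeries A) (hy : coeffMap A.subtype y ∈ FK Qb M 1),
      ∃ y' : LaurentSeries A, coeffMap A.subtype y'
        = ((δ ⟨_, hy⟩ : FK Qb M 1) : LaurentSeries Qb))
    (hst₂ : ∀ (y : LaurentSeries A) (hy : coeffMap A.subtype y ∈ FK Qb M 1),
      ∃ y' : LaurentSeries A, coeffMap A.subtype y'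
        = ((δ.symm ⟨_, hy⟩ : FK Qb M 1) : LaurentSeries Qb)) :
    ∃ δt : QModel8.fieldG10C κ M 1 ≃ₐ[κ] QModel8.fieldG10C κ M 1, IsDiamondAutC κ M d δt ∧
      ∀ (y : LaurentSeries A) (hy : coeffMap A.subtype y ∈ FK Qb M 1)
        (hyκ : coeffMap π y ∈ QModel8.fieldG10C κ M 1),
        ∃ y' : LaurentSeries A,
          coeffMap A.subtype y' = ((δ ⟨_, hy⟩ : FK Qb M 1) : LaurentSeries Qb) ∧
          coeffMap π y' = ((δt ⟨_, hyκ⟩ : QModel8.fieldG10C κ M 1) : LaurentSeries κ) :=
  exists_diamondRed hπ hδ (gaussStable_of_stable hℓ hA hπ hst₁)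
    (gaussStable_of_stable hℓ hA hπ hst₂)

end Main

end Fermat.Agent.M48.GaussStableOf3
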