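/-
Programme M48, pillar (P1), chapter [ESRED1], item (KR2) — helper3.  **The Gauss valuation of
`FK K M 1` is invariant under the diamond automorphisms, and `GaussStable2` follows from [IG1].**

Part A (a DVR `O ⊂ K`, residue characteristic `ℓ ∤ M`, `IG1 M 1`): the Gauss valuation ring
`gaussRing O ∩ FK K M 1` is integral over `Ov0 = K(j) ∩ gaussRing` (`G1Package8.span`, from
(DEG)+(IRR) = helper1's `PurGauss1.degLe_irr_laurentBaseChange`), and it is integrally closed; a
`K`-automorphism fixing `j` fixes `Ov0` pointwise, hence preserves the Gauss valuation ring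
(`gauss_inv`).

Part B (`A ⊂ ℚbar` over `ℓ`): if `f, δ f ∈ FK ℚbar M 1` both have `A`-integral `q`-expansions and
`f~ = 0` then `(δ f)~ = 0` (`DiamondRed3.GaussStable2`), by descent to a number field; hence the
reduced diamond exists and is compatible with `δ` (`exists_diamondRed_of_IG1`).
-/
import Mathlib
import Fermat.Agent.M48.DiamondRed3
import Fermat.Agent.M48.GaussStableOf3
import Fermat.Agent.M48.PurGauss1
import Fermat.Agent.M48.DiamondAut5
import Fermat.Agent.M48.G10Model4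
import Fermat.Agent.RED.DESC.CoeffDescent1
import Fermat.Agent.RED.DESC.NumberFieldDVR27

set_option autoImplicit false
set_option linter.unusedSectionVars false
set_option linter.style.haveILetI false
set_option synthInstance.maxHeartbeats 400000

open AlgebraicCurve ModularCurve IntermediateField HahnSeries

noncomputable section

namespace Fermat.Agent.M48.DiamondInv3

open Fermat.Agent.M48.DiamondRed3 Fermat.Agent.M48.J1Defs8 Fermat.Agent.M48.QModel8
open Fermat.Agent.M48.PurGauss1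
open Fermat.Agent.RED.PUR.GaussGen8 Fermat.Agent.RED.PUR.KtGauss8 Fermat.Agent.RED.PUR.G1Package8
open Fermat.Agent.RED.PUR.GaussInst25

/-! ### Part A: invariance of the Gauss valuation ring -/

section General

/-- An element integral over a subring of a valuation subring lies in the valuation subring. -/
theorem mem_of_isIntegral_subring {E : Type*} [Field E] (V : ValuationSubring E) (R : Subring E)
    (hRV : R ≤ V.toSubring) {x : E} (hx : IsIntegral R x) : x ∈ V := by
  obtain ⟨p, hp, hpx⟩ := hx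
  have hint : IsIntegral V x := by
    refine ⟨p.map (Subring.inclusion hRV), hp.map _, ?_⟩
    rw [Polynomial.eval₂_map]
    exact hpx
  have hic : IsIntegrallyClosedIn V E := inferInstance
  obtain ⟨y, hy⟩ := IsIntegrallyClosedIn.isIntegral_iff.mp hint
  rw [← hy]
  exact y.2

end General

section Inv

variable {K : Type} [Field K] [Algebra ℚ K] (O : ValuationSubring K)
  [IsDiscreteValuationRing ↥O] {π : ↥O} (hπ : Irreducible π) (ℓ : ℕ) [Fact ℓ.Prime]
  [CharP (Res O) ℓ] (M : ℕ) [NeZero M] (hM : 2 ≤ M) (hℓ : ¬ ℓ ∣ M) (hIG : IG1 M 1)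

set_option maxHeartbeats 1000000 in
include hπ hM hℓ hIG in
/-- **Invariance of the Gauss valuation**: a `K`-automorphism of `FK K M 1` fixing `j` preserves
`gaussRing O ∩ FK K M 1`. -/
theorem gauss_inv (δ : FK K M 1 ≃ₐ[K] FK K M 1)
    (hδj : ∀ y : FK K M 1, (y : LaurentSeries K) = jqModC K → δ y = y)
    (x : FK K M 1) (hx : (x : LaurentSeries K) ∈ gaussRing O) :
    ((δ x : FK K M 1) : LaurentSeries K) ∈ gaussRing O := by
  have hE : FK K M 1 ≤ fracField O := laurentBaseChange_le_fracField O M 1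
  have htE : ((jG O : ↥(gaussRing O)) : LaurentSeries K) ∈ FK K M 1 := by
    rw [FK_eq]
    exact jqModC_mem_fieldG10C K M 1
  have hjt : jqModC K ∈ Kt O (jG O) := IntermediateField.mem_adjoin_simple_self K _
  have hℓ' : ¬ ℓ ∣ M * 1 := by rwa [mul_one]
  obtain ⟨-, hdeg, hirr⟩ := degLe_irr_laurentBaseChange O hπ ℓ M 1 hM hℓ' hIG (jG O) htE hjt
  have htr : Transcendental (Res O) (gaussRed O (jG O)) := by
    rw [gaussRed_jG]
    exact Fermat.Agent.IG.VAL.OvBasics22.transcendental_jqModC (Res O)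
  have hxV : x ∈ OvE O hπ (FK K M 1) hE := (mem_OvE_iff O hπ (FK K M 1) hE x).mpr hx
  have hint : IsIntegral ↥(Ov0 O (FK K M 1) (jG O)) x :=
    span hπ hE htr htE hdeg hirr x hxV
  -- `δ` fixes `K(j) ∩ FK` pointwise
  have hfixKt : ∀ z ∈ Kt O (jG O), ∀ hz : z ∈ FK K M 1, δ ⟨z, hz⟩ = ⟨z, hz⟩ := by
    intro z hz
    induction hz using IntermediateField.adjoin_induction with
    | mem z hz =>
        intro hz'
        rw [Set.mem_singleton_iff] at hz
        exact hδj _ hz
    | algebraMap c =>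
        intro hz'
        exact δ.commutes c
    | add a b ha hb iha ihb =>
        intro hz'
        have ha' : a ∈ FK K M 1 := Kt_le htE ha
        have hb' : b ∈ FK K M 1 := Kt_le htE hb
        have e : (⟨a + b, hz'⟩ : FK K M 1) = ⟨a, ha'⟩ + ⟨b, hb'⟩ := rfl
        rw [e, map_add, iha ha', ihb hb']
    | inv a ha iha =>
        intro hz'
        have ha' : a ∈ FK K M 1 := Kt_le htE ha
        have e : (⟨a⁻¹, hz'⟩ : FK K M 1) = (⟨a, ha'⟩ : FK K M 1)⁻¹ := rfl
        rw [e, map_inv₀, iha ha']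
    | mul a b ha hb iha ihb =>
        intro hz'
        have ha' : a ∈ FK K M 1 := Kt_le htE ha
        have hb' : b ∈ FK K M 1 := Kt_le htE hb
        have e : (⟨a * b, hz'⟩ : FK K M 1) = ⟨a, ha'⟩ * ⟨b, hb'⟩ := rfl
        rw [e, map_mul, iha ha', ihb hb']
  have hfix : ∀ c : ↥(Ov0 O (FK K M 1) (jG O)), δ (c : FK K M 1) = c := fun c =>
    hfixKt _ c.2.1 (c : FK K M 1).2
  let δ' : FK K M 1 →ₐ[↥(Ov0 O (FK K M 1) (jG O))] FK K M 1 :=
    { (δ : FK K M 1 →+* FK K M 1) with
      commutes' := fun c => hfix c }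
  have hint' : IsIntegral ↥(Ov0 O (FK K M 1) (jG O)) (δ x) := hint.map δ'
  have hmem := mem_of_isIntegral_subring (OvE O hπ (FK K M 1) hE) (Ov0 O (FK K M 1) (jG O))
    (Ov0_le_OvE O hπ (FK K M 1) hE (jG O)) hint'
  exact (mem_OvE_iff O hπ (FK K M 1) hE _).mp hmem

end Inv

/-! ### Part B: `GaussStable2` over `ℚbar` from [IG1] -/

section GS2

/-- `ℚbar`. -/
local notation "Qb" => AlgebraicClosure ℚ

open Fermat.Agent.RED.DESC Fermat.Agent.RED.DESC.NumberFieldDVR27
open Fermat.Agent.M48.GaussStableOf3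
open Fermat.Agent.RED.Interface4 (AK)

section BaseChange

variable (K : IntermediateField ℚ Qb) (M : ℕ)

/-- Coefficientwise base change `FK K M 1 → FK ℚbar M 1`. -/
def bcK : FK K M 1 →+* FK Qb M 1 :=
  RingHom.codRestrict ((coeffMap (algebraMap K Qb)).comp (FK K M 1).val.toRingHom) (FK Qb M 1)
    (fun f => CoeffDescent1.coeffMap_mem_laurentBaseChange_of_algHom (algebraMap K Qb)
      (DictIface4.fieldG10 M 1) f.2)

@[simp]
theorem coe_bcK (f : FK K M 1) :
    ((bcK K M f : FK Qb M 1) : LaurentSeries Qb)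
      = coeffMap (algebraMap K Qb) (f : LaurentSeries K) := rfl

theorem bcK_algebraMap (c : K) :
    bcK K M (algebraMap K (FK K M 1) c) = algebraMap Qb (FK Qb M 1) (c : Qb) :=
  Subtype.ext (CoeffDescent1.coeffMap_algebraMap_of_ringHom (algebraMap K Qb) c)

theorem bcK_gen (i : Idx M) (h : genR K M i ∈ FK K M 1) :
    bcK K M ⟨genR K M i, h⟩ = ⟨genR Qb M i, genR_mem_FK Qb M i⟩ :=
  Subtype.ext (coeffMap_genR _ M i)

variable {K M}

/-- The diamonds over `K` and over `ℚbar` are compatible with base change. -/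
theorem diamond_bcK {d : (ZMod M)ˣ} {δ : FK Qb M 1 ≃ₐ[Qb] FK Qb M 1}
    (hδ : IsDiamondAut Qb M d δ) {δK : FK K M 1 ≃ₐ[K] FK K M 1} (hδK : IsDiamondAut K M d δK)
    (x : FK K M 1) : δ (bcK K M x) = bcK K M (δK x) := by
  have key : ((δ : FK Qb M 1 ≃+* FK Qb M 1) : FK Qb M 1 →+* FK Qb M 1).comp (bcK K M)
      = (bcK K M).comp ((δK : FK K M 1 ≃+* FK K M 1) : FK K M 1 →+* FK K M 1) := by
    refine ringHom_ext_of_eq_adjoin ((FK_eq K M 1).trans (fieldG10C_one_eq K M)) (fun c => ?_) ?_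
    · show δ (bcK K M (algebraMap K _ c)) = bcK K M (δK (algebraMap K _ c))
      rw [bcK_algebraMap, δ.commutes, δK.commutes, bcK_algebraMap]
    · rintro s ⟨i, rfl⟩ hs'
      show δ (bcK K M ⟨genR K M i, hs'⟩) = bcK K M (δK ⟨genR K M i, hs'⟩)
      have h1 : δK ⟨genR K M i, hs'⟩ = ⟨genR K M (dperm d i), genR_mem_FK K M _⟩ :=
        Subtype.ext (isDiamondAut_apply_gen hδK i)
      rw [bcK_gen, h1, bcK_gen]
      exact Subtype.ext (isDiamondAut_apply_gen hδ i)
  exact RingHom.congr_fun key x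

end BaseChange

set_option maxHeartbeats 2000000 in
/-- **`GaussStable2` for the diamonds, from [IG1]**: if `f` and `⟨d⟩ f` both have `A`-integral
`q`-expansions and the reduction of `f` vanishes, so does the reduction of `⟨d⟩ f`. -/
theorem gaussStable2_of_IG1 {ℓ : ℕ} [hℓ : Fact ℓ.Prime] {M : ℕ} [NeZero M] (hM : 2 ≤ M)
    (hℓM : ¬ ℓ ∣ M) (hIG : IG1 M 1) {A : ValuationSubring Qb} (hA : A.LiesOverPrime ℓ)
    {κ : Type*} [Field κ] {π : A →+* κ} (hπ : Function.Surjective π)
    {d : (ZMod M)ˣ} {δ : FK Qb M 1 ≃ₐ[Qb] FK Qb M 1} (hδ : IsDiamondAut Qb M d δ) :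
    GaussStable2 A π δ := by
  intro y y' hy hy' h0
  have hker := ker_eq_maximalIdeal hπ
  have hℓ0 : ℓ ≠ 0 := hℓ.out.ne_zero
  haveI := NumberFieldDVR27.isAlgebraic_Qbar
  -- descent to a number field
  obtain ⟨K, -, hfin, x', hx'mem, hx'⟩ :=
    CoeffDescent1.exists_finite_descent (L := Qb) (F₀ := DictIface4.fieldG10 M 1) ⊥ hy
  haveI := hfin
  haveI hdvr : IsDiscreteValuationRing ↥(AK A K) :=
    isDiscreteValuationRing_AK A K hℓ0 hA
  haveI hchar : CharP (Res (AK A K)) ℓ :=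
    charP_residueField_AK A K hℓ.out hA
  obtain ⟨ϖ₀, hϖ₀⟩ := IsDiscreteValuationRing.exists_irreducible ↥(AK A K)
  -- the diamond over `K`
  obtain ⟨δK, hδK⟩ := DiamondAut5.exists_isDiamondAut_of_emb G10Model4.g10ModelStmt hM
    ((Fermat.Agent.X0.iotaK).comp (algebraMap K Qb)) d
  -- the coefficients of `x'` lie in the maximal ideal of `(AK A K)`
  have hcoe : ∀ n, ((x'.coeff n : K) : Qb) = ((y.coeff n : A) : Qb) := fun n => by
    have := congrArg (fun s => s.coeff n) hx'
    exact this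
  have hyn : ∀ n, y.coeff n ∈ IsLocalRing.maximalIdeal A := fun n => by
    rw [← hker]
    have := congrArg (fun s => s.coeff n) h0
    exact this
  have hmemO : ∀ n, x'.coeff n ∈ (AK A K) := fun n => by
    rw [mem_AK_iff, hcoe]; exact (y.coeff n).2
  have hmax : ∀ n, (⟨x'.coeff n, hmemO n⟩ : (AK A K)) ∈ IsLocalRing.maximalIdeal (AK A K) := fun n => by
    rw [mem_maximalIdeal_iff]
    have : incl A K ⟨x'.coeff n, hmemO n⟩ = y.coeff n := Subtype.ext (hcoe n)
    rw [this]
    exact hyn n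
  have hdiv : ∀ n, ∃ c : (AK A K), (⟨x'.coeff n, hmemO n⟩ : (AK A K)) = ϖ₀ * c := fun n => by
    have h := hmax n
    rw [hϖ₀.maximalIdeal_eq, Ideal.mem_span_singleton'] at h
    obtain ⟨c, hc⟩ := h
    exact ⟨c, by rw [← hc, mul_comm]⟩
  have hϖK : ((ϖ₀ : (AK A K)) : K) ≠ 0 := fun h => hϖ₀.ne_zero (Subtype.ext h)
  -- `x₁ = x' / ϖ₀` has coefficients in `(AK A K)`
  have hzcoef : ∀ n, (algebraMap K (LaurentSeries K) ((ϖ₀ : (AK A K)) : K)⁻¹ * x').coeff n
      ∈ Set.range (AK A K).subtype := by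
    intro n
    obtain ⟨c, hc⟩ := hdiv n
    refine ⟨c, ?_⟩
    have hc' : x'.coeff n = ((ϖ₀ : (AK A K)) : K) * ((c : (AK A K)) : K) := congrArg Subtype.val hc
    rw [algebraMap_laurentSeries_eq_single, ← HahnSeries.C_apply, HahnSeries.C_mul_eq_smul,
      HahnSeries.coeff_smul, hc', smul_eq_mul, ← mul_assoc, inv_mul_cancel₀ hϖK, one_mul]
    rfl
  obtain ⟨x₁, hx₁⟩ := exists_coeffMap_eq' (AK A K).subtype Subtype.val_injective _ hzcoef
  have hx₁mem : embK (AK A K) x₁ ∈ FK K M 1 := by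
    show coeffMap (AK A K).subtype x₁ ∈ _
    rw [hx₁]
    exact mul_mem ((FK K M 1).algebraMap_mem _) hx'mem
  -- invariance of the Gauss valuation
  have hδKj : ∀ z : FK K M 1, (z : LaurentSeries K) = jqModC K → δK z = z := by
    intro z hz
    have h1 := (DiamondRed3.isDiamondAut_apply_gen hδK
      (Sum.inl ⟨1, one_ne_zero, one_dvd M⟩))
    have h2 : genR K M (Sum.inl ⟨1, one_ne_zero, one_dvd M⟩) = jqModC K :=
      qExpand_one_apply _
    have hz' : z = ⟨genR K M (Sum.inl ⟨1, one_ne_zero, one_dvd M⟩), genR_mem_FK K M _⟩ :=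
      Subtype.ext (hz.trans h2.symm)
    rw [hz']
    exact Subtype.ext h1
  obtain ⟨a, s, hs0, hsa⟩ := gauss_inv (AK A K) hϖ₀ ℓ M hM hℓM hIG δK hδKj ⟨embK (AK A K) x₁, hx₁mem⟩
    (embK_mem (AK A K) x₁)
  -- back to `ℚbar`
  have hx'eq : (⟨x', hx'mem⟩ : FK K M 1)
      = algebraMap K (FK K M 1) ((ϖ₀ : (AK A K)) : K) * ⟨embK (AK A K) x₁, hx₁mem⟩ := by
    apply Subtype.ext
    show x' = algebraMap K (LaurentSeries K) ((ϖ₀ : (AK A K)) : K) * coeffMap (AK A K).subtype x₁
    rw [hx₁, ← mul_assoc, ← map_mul, mul_inv_cancel₀ hϖK, map_one, one_mul]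
  have hιy' : coeffMap A.subtype y' = coeffMap (algebraMap K Qb)
      (algebraMap K (LaurentSeries K) ((ϖ₀ : (AK A K)) : K)
        * ((δK ⟨embK (AK A K) x₁, hx₁mem⟩ : FK K M 1) : LaurentSeries K)) := by
    have h1 : (⟨coeffMap A.subtype y, hy⟩ : FK Qb M 1) = bcK K M ⟨x', hx'mem⟩ :=
      Subtype.ext hx'.symm
    rw [hy', h1, diamond_bcK hδ hδK, coe_bcK, hx'eq, map_mul, δK.commutes]
    rfl
  have hcomp : (A.subtype : ↥A →+* Qb).comp (incl A K) = (algebraMap K Qb).comp (AK A K).subtype :=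
    RingHom.ext fun _ => rfl
  have hinc : ∀ u : LaurentSeries ↥(AK A K), coeffMap A.subtype (coeffMap (incl A K) u)
      = coeffMap (algebraMap K Qb) (embK (AK A K) u) := by
    intro u
    show _ = coeffMap (algebraMap K Qb) (coeffMap (AK A K).subtype u)
    rw [coeffMap_coeffMap, coeffMap_coeffMap, hcomp]
  have hprod : y' * coeffMap (incl A K) s
      = HahnSeries.C (incl A K ϖ₀) * coeffMap (incl A K) a := by
    apply DiamondRed3.coeffMap_injective (f := A.subtype) Subtype.val_injective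
    rw [map_mul, map_mul, hιy', hinc, hinc, ← map_mul, mul_assoc, hsa, HahnSeries.C_apply,
      coeffMap_single, algebraMap_laurentSeries_eq_single, map_mul, coeffMap_single]
    rfl
  -- reduce
  have hπϖ : π (incl A K ϖ₀) = 0 := by
    have h1 : ϖ₀ ∈ IsLocalRing.maximalIdeal (AK A K) := by
      rw [IsLocalRing.mem_maximalIdeal, mem_nonunits_iff]
      exact hϖ₀.not_isUnit
    have h2 : incl A K ϖ₀ ∈ RingHom.ker π := by
      rw [hker]; exact (mem_maximalIdeal_iff A K ϖ₀).mp h1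
    exact h2
  have hred := congrArg (coeffMap π) hprod
  rw [map_mul, map_mul, HahnSeries.C_apply, coeffMap_single, hπϖ, HahnSeries.single_eq_zero,
    zero_mul] at hred
  have hsne : coeffMap π (coeffMap (incl A K) s) ≠ 0 := by
    intro h
    apply hs0
    ext n
    show res0 (AK A K) (s.coeff n) = 0
    have h1 : π (incl A K (s.coeff n)) = 0 := by
      have := congrArg (fun t => t.coeff n) h
      exact this
    have h2 : incl A K (s.coeff n) ∈ IsLocalRing.maximalIdeal A := by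
      rw [← hker]; exact h1
    have h3 : s.coeff n ∈ IsLocalRing.maximalIdeal (AK A K) := (mem_maximalIdeal_iff A K _).mpr h2
    exact (IsLocalRing.residue_eq_zero_iff _).mpr h3
  exact (mul_eq_zero.mp hred).resolve_right hsne

/-- **(KR2) FROM [IG1]: the reduced diamond exists and is compatible with `⟨d⟩`** (pair form
`DiaRed2`: whenever `f` and `⟨d⟩ f` both have `A`-integral `q`-expansions, the reduction of `⟨d⟩ f`
is `δt` of the reduction of `f`). -/
theorem exists_diamondRed_of_IG1 {ℓ : ℕ} [Fact ℓ.Prime] {M : ℕ} [NeZero M] (hM : 2 ≤ M)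
    (hℓM : ¬ ℓ ∣ M) (hIG : IG1 M 1) {A : ValuationSubring Qb} (hA : A.LiesOverPrime ℓ)
    {κ : Type*} [Field κ] {π : A →+* κ} (hπ : Function.Surjective π)
    {d : (ZMod M)ˣ} {δ : FK Qb M 1 ≃ₐ[Qb] FK Qb M 1} (hδ : IsDiamondAut Qb M d δ) :
    ∃ δt : fieldG10C κ M 1 ≃ₐ[κ] fieldG10C κ M 1,
      IsDiamondAutC κ M d δt ∧ DiaRed2 A π δ δt :=
  exists_diamondRed2 hπ hδ (gaussStable2_of_IG1 hM hℓM hIG hA hπ hδ)
    (gaussStable2_of_IG1 hM hℓM hIG hA hπ (DiamondAut5.diaAut_symm hδ))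

end GS2

end Fermat.Agent.M48.DiamondInv3
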