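/-
Programme M48 (target S48), pillar (P1), ES.HECKE twin (helper2), file 3:
**the index `[±Γ₁(M) : ±(Γ₁(M) ∩ Γ₀(M ℓ))] = ℓ + 1`** for a prime `ℓ ∤ M`, hence
`#(SL(2,ℤ) ⧸ ±(Γ₁(M) ∩ Γ₀(M ℓ))) = (ℓ + 1) · #(SL(2,ℤ) ⧸ ±Γ₁(M))`.

The cosets of `±(Γ₁(M) ∩ Γ₀(M ℓ))` in `±Γ₁(M)` are classified by the point `(a : c) ∈ ℙ¹(𝔽_ℓ)` of the
first column; representatives: `[[1, 0], [M j, 1]]` (`j mod ℓ`) and `[[ℓ u, -v], [M, 1]]`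
(`ℓ u + M v = 1`).  Mathlib only (+ the definitions `pm`, `Gamma10` of `DictIface4`).
-/
import Mathlib
import Fermat.Agent.M48.DictIface4

set_option autoImplicit false
set_option linter.unusedSectionVars false

open CongruenceSubgroup Matrix Matrix.SpecialLinearGroup
open scoped MatrixGroups

noncomputable section

namespace Fermat.Agent.M48.G10Index2

open Fermat.Agent.M48.DictIface4

theorem Gamma10_mul_one (M : ℕ) : Gamma10 M (M * 1) = Gamma1 M := by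
  rw [Gamma10, mul_one]
  exact inf_eq_left.mpr (Gamma1_in_Gamma0 M)

theorem pm_mono {Γ Γ' : Subgroup SL(2, ℤ)} (h : Γ ≤ Γ') : pm Γ ≤ pm Γ' := by
  rintro γ (hγ | hγ)
  · exact Or.inl (h hγ)
  · exact Or.inr (h hγ)

theorem Gamma10_le (M ℓ : ℕ) : Gamma10 M (M * ℓ) ≤ Gamma1 M := inf_le_left

section Prime

variable {M ℓ : ℕ} [hℓ : Fact ℓ.Prime]

theorem neg_apply_10 (γ : SL(2, ℤ)) : ((-γ : SL(2, ℤ)) 1 0 : ℤ) = -(γ 1 0) := by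
  simp [Matrix.SpecialLinearGroup.coe_neg]

/-- For `γ ∈ ±Γ₁(M)`: `γ ∈ ±(Γ₁(M) ∩ Γ₀(M ℓ))` iff `ℓ` divides the lower left entry. -/
theorem mem_pm_Gamma10_iff (hℓM : ¬ ℓ ∣ M) {γ : SL(2, ℤ)} (hγ : γ ∈ pm (Gamma1 M)) :
    γ ∈ pm (Gamma10 M (M * ℓ)) ↔ ((γ 1 0 : ℤ) : ZMod ℓ) = 0 := by
  have hcop : Nat.Coprime M ℓ := ((Nat.Prime.coprime_iff_not_dvd hℓ.out).mpr hℓM).symm
  have key : ∀ δ : SL(2, ℤ), δ ∈ Gamma1 M →
      (δ ∈ Gamma0 (M * ℓ) ↔ ((δ 1 0 : ℤ) : ZMod ℓ) = 0) := by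
    intro δ hδ
    have h1 : ((δ 1 0 : ℤ) : ZMod M) = 0 := ((Gamma1_mem M δ).mp hδ).2.2
    rw [ZMod.intCast_zmod_eq_zero_iff_dvd] at h1
    rw [Gamma0_mem, ZMod.intCast_zmod_eq_zero_iff_dvd, ZMod.intCast_zmod_eq_zero_iff_dvd]
    constructor
    · intro h
      exact (Int.natCast_dvd_natCast.mpr (dvd_mul_left ℓ M)).trans h
    · intro h
      rw [Nat.cast_mul]
      exact IsCoprime.mul_dvd (Nat.isCoprime_iff_coprime.mpr hcop) h1 h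
  constructor
  · rintro (h | h)
    · exact (key γ h.1).mp h.2
    · have := (key (-γ) h.1).mp h.2
      rw [neg_apply_10, Int.cast_neg, neg_eq_zero] at this
      exact this
  · intro h
    rcases hγ with hγ | hγ
    · exact Or.inl ⟨hγ, (key γ hγ).mpr h⟩
    · refine Or.inr ⟨hγ, (key (-γ) hγ).mpr ?_⟩
      rw [neg_apply_10, Int.cast_neg, h, neg_zero]

/-- The point `(a : c) ∈ ℙ¹(𝔽_ℓ)` of the first column, as an element of `Option (ZMod ℓ)`. -/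
def colPt (γ : SL(2, ℤ)) : Option (ZMod ℓ) :=
  if ((γ 0 0 : ℤ) : ZMod ℓ) = 0 then none
  else some (((γ 1 0 : ℤ) : ZMod ℓ) / ((γ 0 0 : ℤ) : ZMod ℓ))

theorem inv_mul_apply_10 (γ₁ γ₂ : SL(2, ℤ)) :
    ((γ₂⁻¹ * γ₁ : SL(2, ℤ)) 1 0 : ℤ) = γ₂ 0 0 * γ₁ 1 0 - γ₂ 1 0 * γ₁ 0 0 := by
  rw [Matrix.SpecialLinearGroup.coe_mul, Matrix.SpecialLinearGroup.coe_inv,
    Matrix.adjugate_fin_two, Matrix.mul_apply, Fin.sum_univ_two]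
  simp
  ring

theorem col_ne_zero (γ : SL(2, ℤ)) :
    ¬ (((γ 0 0 : ℤ) : ZMod ℓ) = 0 ∧ ((γ 1 0 : ℤ) : ZMod ℓ) = 0) := by
  rintro ⟨h1, h2⟩
  have hdet := Matrix.SpecialLinearGroup.det_coe γ
  rw [Matrix.det_fin_two] at hdet
  have h3 := congrArg (Int.cast : ℤ → ZMod ℓ) hdet
  push_cast at h3
  rw [h1, h2] at h3
  simp at h3

/-- Two matrices have the same column point iff `γ₂⁻¹ γ₁ ∈ Γ₀(ℓ)`. -/
theorem colPt_eq_iff (γ₁ γ₂ : SL(2, ℤ)) :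
    colPt (ℓ := ℓ) γ₁ = colPt γ₂ ↔ (((γ₂⁻¹ * γ₁ : SL(2, ℤ)) 1 0 : ℤ) : ZMod ℓ) = 0 := by
  rw [inv_mul_apply_10]
  push_cast
  set a₁ : ZMod ℓ := ((γ₁ 0 0 : ℤ) : ZMod ℓ)
  set c₁ : ZMod ℓ := ((γ₁ 1 0 : ℤ) : ZMod ℓ)
  set a₂ : ZMod ℓ := ((γ₂ 0 0 : ℤ) : ZMod ℓ)
  set c₂ : ZMod ℓ := ((γ₂ 1 0 : ℤ) : ZMod ℓ)
  have hn1 : ¬ (a₁ = 0 ∧ c₁ = 0) := col_ne_zero γ₁
  have hn2 : ¬ (a₂ = 0 ∧ c₂ = 0) := col_ne_zero γ₂
  unfold colPt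
  by_cases h1 : a₁ = 0
  · have hc1 : c₁ ≠ 0 := fun h => hn1 ⟨h1, h⟩
    by_cases h2 : a₂ = 0
    · simp only [show ((γ₁ 0 0 : ℤ) : ZMod ℓ) = 0 from h1, show ((γ₂ 0 0 : ℤ) : ZMod ℓ) = 0 from h2,
        if_true, true_iff]
      rw [h1, h2]; ring
    · simp only [show ((γ₁ 0 0 : ℤ) : ZMod ℓ) = 0 from h1, if_true,
        show ¬ ((γ₂ 0 0 : ℤ) : ZMod ℓ) = 0 from h2, if_false]
      constructor
      · intro h; exact absurd h (by simp)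
      · intro h
        rw [h1, mul_zero, sub_zero] at h
        exact absurd h (mul_ne_zero h2 hc1)
  · by_cases h2 : a₂ = 0
    · have hc2 : c₂ ≠ 0 := fun h => hn2 ⟨h2, h⟩
      simp only [show ((γ₂ 0 0 : ℤ) : ZMod ℓ) = 0 from h2, if_true,
        show ¬ ((γ₁ 0 0 : ℤ) : ZMod ℓ) = 0 from h1, if_false]
      constructor
      · intro h; exact absurd h (by simp)
      · intro h
        rw [h2, zero_mul, zero_sub, neg_eq_zero] at h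
        exact absurd h (mul_ne_zero hc2 h1)
    · simp only [show ¬ ((γ₁ 0 0 : ℤ) : ZMod ℓ) = 0 from h1, if_false,
        show ¬ ((γ₂ 0 0 : ℤ) : ZMod ℓ) = 0 from h2, Option.some.injEq]
      rw [div_eq_div_iff h1 h2, sub_eq_zero]
      constructor
      · intro h; rw [mul_comm a₂, h, mul_comm]
      · intro h; rw [mul_comm c₁, h, mul_comm]

/-! ### Representatives -/

/-- `[[1, 0], [M j, 1]] ∈ Γ₁(M)`. -/
def lowRep (M : ℕ) (j : ℤ) : SL(2, ℤ) :=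
  ⟨!![1, 0; (M : ℤ) * j, 1], by simp [Matrix.det_fin_two]⟩

theorem lowRep_mem (M : ℕ) (j : ℤ) : lowRep M j ∈ Gamma1 M := by
  rw [Gamma1_mem]
  simp [lowRep]

theorem colPt_lowRep (hℓM : ¬ ℓ ∣ M) (t : ZMod ℓ) :
    ∃ j : ℤ, colPt (ℓ := ℓ) (lowRep M j) = some t := by
  have hM : (M : ZMod ℓ) ≠ 0 := by
    rw [Ne, ZMod.natCast_eq_zero_iff]
    exact hℓM
  refine ⟨(((M : ZMod ℓ)⁻¹ * t).val : ℤ), ?_⟩
  unfold colPt
  have h00 : ((lowRep M (((M : ZMod ℓ)⁻¹ * t).val : ℤ) 0 0 : ℤ) : ZMod ℓ) = 1 := by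
    simp [lowRep]
  have h10 : ((lowRep M (((M : ZMod ℓ)⁻¹ * t).val : ℤ) 1 0 : ℤ) : ZMod ℓ) = t := by
    simp only [lowRep, Matrix.SpecialLinearGroup.coe_mk, Matrix.of_apply, Matrix.cons_val',
      Matrix.cons_val_zero, Matrix.cons_val_one, Matrix.cons_val_fin_one]
    push_cast
    rw [ZMod.natCast_zmod_val, ← mul_assoc, mul_inv_cancel₀ hM, one_mul]
  rw [h00, h10, if_neg one_ne_zero, div_one]

/-- `[[ℓ u, -v], [M, 1]]` with `ℓ u + M v = 1`: an element of `Γ₁(M)` whose upper left entry is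
divisible by `ℓ`. -/
theorem exists_mem_Gamma1_colPt_none (hℓM : ¬ ℓ ∣ M) :
    ∃ γ : SL(2, ℤ), γ ∈ Gamma1 M ∧ colPt (ℓ := ℓ) γ = none := by
  have hcop : IsCoprime (ℓ : ℤ) (M : ℤ) :=
    Nat.isCoprime_iff_coprime.mpr ((Nat.Prime.coprime_iff_not_dvd hℓ.out).mpr hℓM)
  obtain ⟨u, v, huv⟩ := hcop
  refine ⟨⟨!![(ℓ : ℤ) * u, -v; (M : ℤ), 1], by rw [Matrix.det_fin_two_of]; linarith⟩, ?_, ?_⟩
  · rw [Gamma1_mem]
    simp only [Matrix.of_apply, Matrix.cons_val',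
      Matrix.cons_val_zero, Matrix.cons_val_one, Matrix.cons_val_fin_one]
    refine ⟨?_, by simp, by simp⟩
    have h1 : (ℓ : ℤ) * u = 1 - v * M := by linarith
    rw [h1]
    push_cast
    simp
  · unfold colPt
    rw [if_pos]
    simp

/-! ### The index -/

/-- The classifying map on the quotient. -/
def colPtQ (M ℓ : ℕ) [Fact ℓ.Prime] (hℓM : ¬ ℓ ∣ M) :
    (↥(pm (Gamma1 M)) ⧸ (pm (Gamma10 M (M * ℓ))).subgroupOf (pm (Gamma1 M))) →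
      Option (ZMod ℓ) :=
  Quotient.lift (fun γ : ↥(pm (Gamma1 M)) => colPt (ℓ := ℓ) (γ : SL(2, ℤ))) (by
    intro γ₁ γ₂ h
    have h' : γ₁⁻¹ * γ₂ ∈ (pm (Gamma10 M (M * ℓ))).subgroupOf (pm (Gamma1 M)) :=
      QuotientGroup.leftRel_apply.mp h
    rw [Subgroup.mem_subgroupOf, mem_pm_Gamma10_iff hℓM (γ₁⁻¹ * γ₂).2] at h'
    exact ((colPt_eq_iff (γ₂ : SL(2, ℤ)) (γ₁ : SL(2, ℤ))).mpr h').symm)

theorem colPtQ_bijective (M ℓ : ℕ) [Fact ℓ.Prime] (hℓM : ¬ ℓ ∣ M) :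
    Function.Bijective (colPtQ M ℓ hℓM) := by
  constructor
  · intro x y h
    induction x using QuotientGroup.induction_on with
    | H γ₁ =>
      induction y using QuotientGroup.induction_on with
      | H γ₂ =>
        have h1 : colPt (ℓ := ℓ) (γ₁ : SL(2, ℤ)) = colPt (γ₂ : SL(2, ℤ)) := h
        rw [QuotientGroup.eq, Subgroup.mem_subgroupOf, mem_pm_Gamma10_iff hℓM (γ₁⁻¹ * γ₂).2]
        exact (colPt_eq_iff (γ₂ : SL(2, ℤ)) (γ₁ : SL(2, ℤ))).mp h1.symm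
  · intro t
    rcases t with _ | t
    · obtain ⟨γ, hγ, hpt⟩ := exists_mem_Gamma1_colPt_none (ℓ := ℓ) hℓM
      exact ⟨QuotientGroup.mk ⟨γ, Or.inl hγ⟩, hpt⟩
    · obtain ⟨j, hj⟩ := colPt_lowRep (ℓ := ℓ) hℓM t
      exact ⟨QuotientGroup.mk ⟨lowRep M j, Or.inl (lowRep_mem M j)⟩, hj⟩

/-- **`[±Γ₁(M) : ±(Γ₁(M) ∩ Γ₀(M ℓ))] = ℓ + 1`.** -/
theorem relIndex_pm (M ℓ : ℕ) [Fact ℓ.Prime] (hℓM : ¬ ℓ ∣ M) :
    (pm (Gamma10 M (M * ℓ))).relIndex (pm (Gamma1 M)) = ℓ + 1 := by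
  rw [Subgroup.relIndex, Subgroup.index_eq_card,
    Nat.card_congr (Equiv.ofBijective _ (colPtQ_bijective M ℓ hℓM)), Nat.card_eq_fintype_card,
    Fintype.card_option, ZMod.card]

/-- **The index formula**:
`#(SL(2,ℤ) ⧸ ±(Γ₁(M) ∩ Γ₀(M ℓ))) = (ℓ + 1) · #(SL(2,ℤ) ⧸ ±(Γ₁(M) ∩ Γ₀(M)))`. -/
theorem card_quotient_mul (M ℓ : ℕ) (hℓ' : ℓ.Prime) (hℓM : ¬ ℓ ∣ M) :
    Nat.card (SL(2, ℤ) ⧸ pm (Gamma10 M (M * ℓ))) =
      (ℓ + 1) * Nat.card (SL(2, ℤ) ⧸ pm (Gamma10 M (M * 1))) := by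
  have : Fact ℓ.Prime := ⟨hℓ'⟩
  rw [Gamma10_mul_one, ← Subgroup.index_eq_card, ← Subgroup.index_eq_card,
    ← Subgroup.relIndex_mul_index (pm_mono (Gamma10_le M ℓ)), relIndex_pm M ℓ hℓM]

end Prime

end Fermat.Agent.M48.G10Index2
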