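/-
Programme M48 (target S48), pillar (P1), ES.HECKE twin (helper2), file 4:
**the degrees of the two degeneracy maps of `X(Γ₁(M) ∩ Γ₀(M ℓ)) → X₁(M)` and the inputs of the
Hecke correspondence `T_ℓ = β_* α^*` on `J₁(M)`.**

For `2 ≤ M`, `ℓ ∤ M` prime and every field `K ⊇ ℚ`:
`finrankAlong K (alpha1 K M ℓ) = ℓ + 1`, `finrankAlong K (beta1 K M ℓ) = ℓ + 1`
(from `G10Degree2.relfinrank_FK`, `G10Index2.card_quotient_mul` and the prime level degrees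
`[K(j, j_ℓ) : K(j)] = [K(j, j_ℓ) : K(j_ℓ)] = ℓ + 1` of `IG/PR/Main20.primeLevel`), and over `ℚbar`
`hecke1Inputs : Hecke1Inputs ℚbar M ℓ` (generic `FundIdentity19`, `NormFormula15`).
Final literal: `hecke_twin` = the hypothesis `hHecke` of helper3's `Kum1Of3.kum1_of_hecke`.
-/
import Mathlib
import Fermat.Agent.M48.G10Degree2
import Fermat.Agent.M48.G10Index2
import Fermat.Agent.ES.HECKE.AlongDegree25
import Fermat.Agent.ES.HECKE.FundIdentity19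
import Fermat.Agent.ES.HECKE.NormFormula15

set_option autoImplicit false
set_option linter.unusedSectionVars false

open HahnSeries IntermediateField ModularCurve AlgebraicCurve
open scoped MatrixGroups

noncomputable section

namespace Fermat.Agent.M48.Hecke1Deg2

open Fermat.Agent.M48.DictIface4 Fermat.Agent.M48.J1Defs8 Fermat.Agent.X0
open Fermat.Agent.M48.G10Degree2 Fermat.Agent.IG

/-- `ℚbar`. -/
local notation "Qb" => AlgebraicClosure ℚ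

section Degrees

variable (K : Type) [Field K] [Algebra ℚ K] (M ℓ : ℕ) [NeZero M] [NeZero ℓ]

theorem simple_le_FK (L : ℕ) [NeZero L] : K⟮jqModC K⟯ ≤ FK K M L := by
  rw [adjoin_simple_le_iff]
  exact jqModC_mem_FK M L K

theorem FK_one_le : FK K M 1 ≤ FK K M ℓ :=
  laurentBaseChange_mono K (fieldG10_mono M (one_dvd ℓ))

/-- `j(q^ℓ) ∈ FK K M ℓ`. -/
theorem jl_mem_FK : qExpand K ℓ (jqModC K) ∈ FK K M ℓ := by
  have h := qExpand_mem_FK K M ℓ (jK M 1 K)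
  rwa [coe_jK] at h

theorem map_FK_le : (FK K M 1).map (qExpandAlgHomC K ℓ) ≤ FK K M ℓ := by
  rintro _ ⟨x, hx, rfl⟩
  exact qExpand_mem_FK K M ℓ ⟨x, hx⟩

variable {M ℓ}

theorem relfinrank_FK_one_pos (hM : 2 ≤ M) : 0 < relfinrank K⟮jqModC K⟯ (FK K M 1) := by
  rw [relfinrank_FK M 1 hM K]
  exact Nat.pos_of_ne_zero (card_quotient_ne_zero M 1 hM)

theorem relfinrank_FK_prime (hM : 2 ≤ M) (hℓ : ℓ.Prime) (hℓM : ¬ ℓ ∣ M) :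
    relfinrank K⟮jqModC K⟯ (FK K M ℓ) = (ℓ + 1) * relfinrank K⟮jqModC K⟯ (FK K M 1) := by
  rw [relfinrank_FK M ℓ hM K, relfinrank_FK M 1 hM K]
  exact G10Index2.card_quotient_mul M ℓ hℓ hℓM

/-- **`[FK M ℓ : FK M 1] = ℓ + 1`** (`α` = inclusion). -/
theorem relfinrank_alpha (hM : 2 ≤ M) (hℓ : ℓ.Prime) (hℓM : ¬ ℓ ∣ M) :
    relfinrank (FK K M 1) (FK K M ℓ) = ℓ + 1 := by
  have hmul := relfinrank_mul_relfinrank (simple_le_FK K M 1) (FK_one_le K M ℓ)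
  rw [relfinrank_FK_prime K hM hℓ hℓM, mul_comm] at hmul
  exact Nat.eq_of_mul_eq_mul_right (relfinrank_FK_one_pos K hM) hmul

/-- **`[FK M ℓ : V(FK M 1)] = ℓ + 1`**, `V = (q ↦ q^ℓ)` (`β`). -/
theorem relfinrank_beta (hM : 2 ≤ M) (hℓ : ℓ.Prime) (hℓM : ¬ ℓ ∣ M) :
    relfinrank ((FK K M 1).map (qExpandAlgHomC K ℓ)) (FK K M ℓ) = ℓ + 1 := by
  have : CharZero K := algebraRat.charZero K
  set d₁ := relfinrank K⟮jqModC K⟯ (FK K M 1) with hd₁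
  have hd₁pos : 0 < d₁ := relfinrank_FK_one_pos K hM
  have hdℓ := relfinrank_FK_prime K hM hℓ hℓM
  have hℓκ : (ℓ : K) ≠ 0 := Nat.cast_ne_zero.mpr hℓ.ne_zero
  obtain ⟨⟨-, hleft⟩, ⟨-, hright⟩⟩ := PR.Main20.primeLevel ℓ hℓ.two_le (AN.ModPoly3.p0 ℓ hℓ)
    AN.FormalJ10.p1 (AN.P2Final9.p2 ℓ) K hℓκ
  -- the fields
  have hA : K⟮jqModC K⟯ ≤ K⟮jqModC K⟯ ⊔ K⟮qExpand K ℓ (jqModC K)⟯ := le_sup_left
  have hAℓ : K⟮qExpand K ℓ (jqModC K)⟯ ≤ K⟮jqModC K⟯ ⊔ K⟮qExpand K ℓ (jqModC K)⟯ := le_sup_right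
  have hC : K⟮jqModC K⟯ ⊔ K⟮qExpand K ℓ (jqModC K)⟯ ≤ FK K M ℓ :=
    sup_le (simple_le_FK K M ℓ) (adjoin_simple_le_iff.mpr (jl_mem_FK K M ℓ))
  -- `[FK M ℓ : K(j, j_ℓ)] = d₁`
  have h1 := relfinrank_mul_relfinrank hA hC
  rw [hleft, hdℓ] at h1
  have hx : relfinrank (K⟮jqModC K⟯ ⊔ K⟮qExpand K ℓ (jqModC K)⟯) (FK K M ℓ) = d₁ :=
    Nat.eq_of_mul_eq_mul_left (Nat.succ_pos ℓ) h1
  -- `[FK M ℓ : K(j_ℓ)] = (ℓ + 1) d₁`
  have h2 := relfinrank_mul_relfinrank hAℓ hC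
  rw [hright, hx] at h2
  -- `V(K(j)) = K(j_ℓ) ≤ V(FK M 1) ≤ FK M ℓ`
  have hmapA : (K⟮jqModC K⟯).map (qExpandAlgHomC K ℓ) = K⟮qExpand K ℓ (jqModC K)⟯ := by
    rw [adjoin_map, Set.image_singleton, qExpandAlgHomC_apply]
  have hle1 : K⟮qExpand K ℓ (jqModC K)⟯ ≤ (FK K M 1).map (qExpandAlgHomC K ℓ) := by
    rw [← hmapA]
    exact IntermediateField.map_mono _ (simple_le_FK K M 1)
  have h3 : relfinrank K⟮qExpand K ℓ (jqModC K)⟯ ((FK K M 1).map (qExpandAlgHomC K ℓ)) = d₁ := by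
    rw [← hmapA, relfinrank_map_map]
  have h4 := relfinrank_mul_relfinrank hle1 (map_FK_le K M ℓ)
  rw [h3, ← h2, mul_comm (ℓ + 1)] at h4
  exact Nat.eq_of_mul_eq_mul_left hd₁pos h4

/-! ### `Along` forms -/

open Fermat.Agent.ES.HECKE.AlongDegree25

/-- **`[FK M ℓ : α(FK M 1)] = ℓ + 1`** in the Prelude's `Along` form. -/
theorem finrankAlong_alpha1 (hM : 2 ≤ M) (hℓ : ℓ.Prime) (hℓM : ¬ ℓ ∣ M) :
    finrankAlong K (alpha1 K M ℓ) = ℓ + 1 := by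
  rw [finrankAlong_eq_relfinrank _ _ (alpha1 K M ℓ) (AlgHom.id K (LaurentSeries K))
    (fun a => by rw [coe_alpha1]; rfl), IntermediateField.map_id]
  exact relfinrank_alpha K hM hℓ hℓM

/-- **`[FK M ℓ : β(FK M 1)] = ℓ + 1`** in the Prelude's `Along` form. -/
theorem finrankAlong_beta1 (hM : 2 ≤ M) (hℓ : ℓ.Prime) (hℓM : ¬ ℓ ∣ M) :
    finrankAlong K (beta1 K M ℓ) = ℓ + 1 := by
  rw [finrankAlong_eq_relfinrank _ _ (beta1 K M ℓ) (qExpandAlgHomC K ℓ)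
    (fun a => by rw [coe_beta1, qExpandAlgHomC_apply])]
  exact relfinrank_beta K hM hℓ hℓM

theorem finiteAlong_alpha1 (hM : 2 ≤ M) (hℓ : ℓ.Prime) (hℓM : ¬ ℓ ∣ M) :
    FiniteAlong K (alpha1 K M ℓ) :=
  finiteAlong_of_finrankAlong_pos _ (by rw [finrankAlong_alpha1 K hM hℓ hℓM]; exact Nat.succ_pos ℓ)

theorem finiteAlong_beta1 (hM : 2 ≤ M) (hℓ : ℓ.Prime) (hℓM : ¬ ℓ ∣ M) :
    FiniteAlong K (beta1 K M ℓ) :=
  finiteAlong_of_finrankAlong_pos _ (by rw [finrankAlong_beta1 K hM hℓ hℓM]; exact Nat.succ_pos ℓ)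

theorem alpha1_isIntegral (hM : 2 ≤ M) (hℓ : ℓ.Prime) (hℓM : ¬ ℓ ∣ M) :
    (alpha1 K M ℓ).toRingHom.IsIntegral :=
  isIntegral_of_finiteAlong _ (finiteAlong_alpha1 K hM hℓ hℓM)

theorem beta1_isIntegral (hM : 2 ≤ M) (hℓ : ℓ.Prime) (hℓM : ¬ ℓ ∣ M) :
    (beta1 K M ℓ).toRingHom.IsIntegral :=
  isIntegral_of_finiteAlong _ (finiteAlong_beta1 K hM hℓ hℓM)

end Degrees

/-! ### The inputs of the Hecke correspondence over `ℚbar` -/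

section Inputs

variable {M ℓ : ℕ} [NeZero M] [NeZero ℓ]

/-- **The inputs of `T_ℓ = β_* α^*` on `J₁(M)`**, `2 ≤ M`, `ℓ ∤ M` prime. -/
theorem hecke1Inputs (hM : 2 ≤ M) (hℓ : ℓ.Prime) (hℓM : ¬ ℓ ∣ M) : Hecke1Inputs Qb M ℓ := by
  have hP : HasPrincipalDivisors Qb ↥(FK Qb M ℓ) := hasPrincipalDivisors_FK M ℓ hM Qb
  refine ⟨alpha1_isIntegral Qb hM hℓ hℓM, beta1_isIntegral Qb hM hℓ hℓM, hP,
    finiteAlong_beta1 Qb hM hℓ hℓM, ?_, ?_⟩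
  · exact Fermat.Agent.ES.HECKE.FundIdentity19.fundamentalIdentityAlong (alpha1 Qb M ℓ)
      (alpha1_isIntegral Qb hM hℓ hℓM) (finiteAlong_alpha1 Qb hM hℓ hℓM)
      (isGen_jK M 1 hM Qb) (isGen_jK M ℓ hM Qb)
  · exact Fermat.Agent.ES.HECKE.NormFormula15.normFormulaAlong_of_isGen (beta1 Qb M ℓ)
      (finiteAlong_beta1 Qb hM hℓ hℓM) (isGen_jK M ℓ hM Qb)

end Inputs

/-- **The ES.HECKE twin** (= the hypothesis `hHecke` of helper3's `Kum1Of3.kum1_of_hecke`). -/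
theorem hecke_twin : ∀ (M : ℕ) [NeZero M], 2 ≤ M → ∀ (ℓ : ℕ) [NeZero ℓ], ℓ.Prime → ¬ ℓ ∣ M →
    Hecke1Inputs Qb M ℓ ∧ finrankAlong Qb (beta1 Qb M ℓ) = ℓ + 1 :=
  fun _ _ hM _ _ hℓ hℓM => ⟨hecke1Inputs hM hℓ hℓM, finrankAlong_beta1 Qb hM hℓ hℓM⟩

end Fermat.Agent.M48.Hecke1Deg2
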