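/-
M48 (P1), chapter [ESRED1] / KRON twin (helper5): **THE ATKIN–LEHNER ENDOMORPHISM `w_ℓ` OF THE
FUNCTION FIELD OF `X(Γ₁(M) ∩ Γ₀(ℓ))`** (`ℓ ∤ M` prime), i.e. the expansion at the "other" cusp.

For `FK K M ℓ = K · fieldG10 M ℓ ⊂ K((q))` with the two degeneracy maps
`α = alpha1 K M ℓ` (inclusion) and `β = beta1 K M ℓ` (`q ↦ q^ℓ`) out of `FK K M 1`:

  `w ∘ β = α`,   `w ∘ α = β ∘ ⟨ℓ⟩`      (`⟨ℓ⟩` = the diamond automorphism `δ`, `IsDiamondAut K M d δ`,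
                                          `d ≡ ℓ (mod M)`).

Hence `W := incl ∘ w : FK K M ℓ →+* K((q))` satisfies `W (β h) = h`, `W (α f) = (⟨ℓ⟩ f)(q^ℓ)`: the
`Γ₁(M)`-twin of `ES/KRON/Conjugates11.exists_W`.

* Part A (generic, any `A : AnModel Γ N F₀`): a ring endomorphism `T` of `MerH` which maps the
  realisation of the ring `A.R` into itself and fixes constants induces a `ℂ`-algebra endomorphism of
  the function field: `endOf A T hR hc`, `realMer_endOf`;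
* Part B: induction principle `FKL_induction` for `FK K M L`, named generators `jGenL`, `gGenL`, the
  embedding `inclCL ι : FK K M L →+* FK ℂ M L` for `ι : K →+* ℂ`, compatibilities with `α`, `β`;
* Part C: over `ℂ`, with helper4's models `G10Model4.model M 1 hM`, `model M ℓ hM` and helper3's
  matrix `HeckeReal3.delta hℓM none = X · diag(ℓ, 1)` (`X ∈ Γ₀(M)` with lower right entry `ℓ`):
  `wC`, `wC_beta`, `wC_alpha`;
* Part D: descent to any `K` embedded in `ℂ`: `exists_atkinLehner`, `exists_W`.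
-/
import Fermat.Agent.M48.DiamondAut5
import Fermat.Agent.M48.G10Model4
import Fermat.Agent.M48.AnQExpMer3
import Fermat.Agent.M48.HeckeReal3

set_option autoImplicit false
set_option linter.unusedSectionVars false
set_option linter.style.haveILetI false
set_option synthInstance.maxHeartbeats 400000

open UpperHalfPlane ModularCurve AlgebraicCurve CongruenceSubgroup
open scoped MatrixGroups ModularForm

noncomputable section

namespace Fermat.Agent.M48.AtkinLehner5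

open Fermat.Agent.X0 Fermat.Agent.X0.Analytic Fermat.Agent.X0.SurjPoint Fermat.Agent.ES.KUM
open Fermat.Agent.M48.DictIface4 Fermat.Agent.M48.AnReal4 Fermat.Agent.M48.AnRatio4
open Fermat.Agent.M48.J1Defs8 Fermat.Agent.M48.DiamondAut5

/-! ### Part A: endomorphisms of `MerH` preserving the realisation of `R` -/

section Generic

variable {Γ : Subgroup SL(2, ℤ)} {N : ℕ} {F₀ : IntermediateField ℚ (LaurentSeries ℚ)}
  (A : AnModel Γ N F₀)

theorem realMer_inj : Function.Injective (realMer A) := emb_injective A 1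

theorem exists_realMer_eq_of_R (T : MerH →+* MerH)
    (hR : ∀ u : A.R, ∃ u' : A.R,
      realMer A ((u' : A.R) : A.F) = T (realMer A ((u : A.R) : A.F)))
    (f : A.F) : ∃ f' : A.F, realMer A f' = T (realMer A f) := by
  obtain ⟨u, s, -, rfl⟩ := exists_div_ne_zero A f
  obtain ⟨u', hu'⟩ := hR u
  obtain ⟨s', hs'⟩ := hR s
  refine ⟨((u' : A.R) : A.F) / ((s' : A.R) : A.F), ?_⟩
  rw [map_div₀, map_div₀, map_div₀, hu', hs']

/-- the underlying function of the endomorphism. -/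
def endFun (T : MerH →+* MerH)
    (hR : ∀ u : A.R, ∃ u' : A.R,
      realMer A ((u' : A.R) : A.F) = T (realMer A ((u : A.R) : A.F)))
    (f : A.F) : A.F :=
  (exists_realMer_eq_of_R A T hR f).choose

theorem realMer_endFun (T : MerH →+* MerH)
    (hR : ∀ u : A.R, ∃ u' : A.R,
      realMer A ((u' : A.R) : A.F) = T (realMer A ((u : A.R) : A.F)))
    (f : A.F) : realMer A (endFun A T hR f) = T (realMer A f) :=
  (exists_realMer_eq_of_R A T hR f).choose_spec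

/-- **the `ℂ`-algebra endomorphism of the function field induced by `T`.** -/
def endOf (T : MerH →+* MerH)
    (hR : ∀ u : A.R, ∃ u' : A.R,
      realMer A ((u' : A.R) : A.F) = T (realMer A ((u : A.R) : A.F)))
    (hc : ∀ c : ℂ, T (algebraMap HolH MerH (algebraMap ℂ HolH c)) =
      algebraMap HolH MerH (algebraMap ℂ HolH c)) : A.F →ₐ[ℂ] A.F where
  toFun := endFun A T hR
  map_one' := by
    apply realMer_inj A
    rw [realMer_endFun, RingHom.map_one, RingHom.map_one]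
  map_mul' x y := by
    apply realMer_inj A
    rw [realMer_endFun, RingHom.map_mul, RingHom.map_mul, RingHom.map_mul, realMer_endFun,
      realMer_endFun]
  map_zero' := by
    apply realMer_inj A
    rw [realMer_endFun, RingHom.map_zero, RingHom.map_zero]
  map_add' x y := by
    apply realMer_inj A
    rw [realMer_endFun, RingHom.map_add, RingHom.map_add, RingHom.map_add, realMer_endFun,
      realMer_endFun]
  commutes' c := by
    apply realMer_inj A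
    rw [realMer_endFun, AnReal4.realMer_algebraMap, hc]

@[simp] theorem realMer_endOf (T : MerH →+* MerH)
    (hR : ∀ u : A.R, ∃ u' : A.R,
      realMer A ((u' : A.R) : A.F) = T (realMer A ((u : A.R) : A.F)))
    (hc : ∀ c : ℂ, T (algebraMap HolH MerH (algebraMap ℂ HolH c)) =
      algebraMap HolH MerH (algebraMap ℂ HolH c)) (f : A.F) :
    realMer A (endOf A T hR hc f) = T (realMer A f) := realMer_endFun A T hR f

end Generic

/-! ### Part B: induction on `FK K M L`, generators, the embedding into `FK ℂ M L` -/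

section Induction

variable {K : Type*} [Field K] [Algebra ℚ K] {M L : ℕ}

/-- **Induction principle for `FK K M L = K(j(q^d), g_{M,a}(q^e))`.** -/
theorem FKL_induction (P : FK K M L → Prop)
    (hj : ∀ (d : ℕ) [NeZero d], d ∣ M * L → ∀ y : FK K M L,
      (y : LaurentSeries K) = coeffEmb K (qExpand ℚ d jq) → P y)
    (hg : ∀ (a : (ZMod M)ˣ) (e : ℕ) [NeZero e], e ∣ L → ∀ y : FK K M L,
      (y : LaurentSeries K) = coeffEmb K (qExpand ℚ e (gq M (a : ZMod M))) → P y)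
    (hc : ∀ c : K, P (algebraMap K (FK K M L) c))
    (hadd : ∀ x y, P x → P y → P (x + y))
    (hmul : ∀ x y, P x → P y → P (x * y))
    (hinv : ∀ x, P x → P x⁻¹) : ∀ x, P x := by
  let Q : LaurentSeries K → Prop := fun x => ∃ hx : x ∈ FK K M L, P ⟨x, hx⟩
  have hQc : ∀ c : K, Q (algebraMap K (LaurentSeries K) c) := fun c =>
    ⟨(FK K M L).algebraMap_mem c, hc c⟩
  have hQadd : ∀ x y, Q x → Q y → Q (x + y) := by
    rintro x y ⟨hx, px⟩ ⟨hy, py⟩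
    exact ⟨add_mem hx hy, hadd ⟨x, hx⟩ ⟨y, hy⟩ px py⟩
  have hQmul : ∀ x y, Q x → Q y → Q (x * y) := by
    rintro x y ⟨hx, px⟩ ⟨hy, py⟩
    exact ⟨mul_mem hx hy, hmul ⟨x, hx⟩ ⟨y, hy⟩ px py⟩
  have hQinv : ∀ x, Q x → Q x⁻¹ := by
    rintro x ⟨hx, px⟩
    exact ⟨inv_mem hx, hinv ⟨x, hx⟩ px⟩
  have hQ0 : ∀ z : LaurentSeries ℚ,
      z ∈ IntermediateField.adjoin ℚ (divisorExpansions (M * L) ∪ gExpansions M L) →
        Q (coeffEmb K z) := by
    intro z hz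
    induction hz using IntermediateField.adjoin_induction with
    | mem z hz =>
        rcases hz with ⟨d, hne, hd, rfl⟩ | ⟨a, e, hne, he, rfl⟩
        · haveI := hne
          have hmem : qExpand ℚ d jq ∈ fieldG10 M L :=
            IntermediateField.subset_adjoin ℚ _ (Or.inl ⟨d, hne, hd, rfl⟩)
          exact ⟨coeffEmb_mem_laurentBaseChange K hmem, hj d hd _ rfl⟩
        · haveI := hne
          have hmem : qExpand ℚ e (gq M (a : ZMod M)) ∈ fieldG10 M L :=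
            IntermediateField.subset_adjoin ℚ _ (Or.inr ⟨a, e, hne, he, rfl⟩)
          exact ⟨coeffEmb_mem_laurentBaseChange K hmem, hg a e he _ rfl⟩
    | algebraMap q =>
        rw [coeffEmb_algebraMap]
        exact hQc _
    | add x y hx hy ihx ihy =>
        rw [map_add]
        exact hQadd _ _ ihx ihy
    | inv x hx ihx =>
        rw [map_inv₀]
        exact hQinv _ ihx
    | mul x y hx hy ihx ihy =>
        rw [map_mul]
        exact hQmul _ _ ihx ihy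
  have hQall : ∀ x : LaurentSeries K, x ∈ IntermediateField.adjoin K
        (⇑(coeffEmb K) '' ((fieldG10 M L : IntermediateField ℚ (LaurentSeries ℚ)) :
          Set (LaurentSeries ℚ))) → Q x := by
    intro x hx
    induction hx using IntermediateField.adjoin_induction with
    | mem x hx =>
        obtain ⟨z, hz, rfl⟩ := hx
        exact hQ0 z hz
    | algebraMap c => exact hQc c
    | add x y hx hy ihx ihy => exact hQadd _ _ ihx ihy
    | inv x hx ihx => exact hQinv _ ihx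
    | mul x y hx hy ihx ihy => exact hQmul _ _ ihx ihy
  rintro ⟨x, hx⟩
  obtain ⟨_, h⟩ := hQall x hx
  exact h

theorem jqL_mem (d : ℕ) [NeZero d] (hd : d ∣ M * L) : qExpand ℚ d jq ∈ fieldG10 M L :=
  IntermediateField.subset_adjoin ℚ _ (Or.inl ⟨d, inferInstance, hd, rfl⟩)

theorem gqL_mem (a : (ZMod M)ˣ) (e : ℕ) [NeZero e] (he : e ∣ L) :
    qExpand ℚ e (gq M (a : ZMod M)) ∈ fieldG10 M L :=
  IntermediateField.subset_adjoin ℚ _ (Or.inr ⟨a, e, inferInstance, he, rfl⟩)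

/-- the generator `j(q^d)` of `FK K M L`, `d ∣ M L`. -/
def jGenL (K : Type*) [Field K] [Algebra ℚ K] (M L d : ℕ) [NeZero d] (hd : d ∣ M * L) :
    FK K M L :=
  ⟨coeffEmb K (qExpand ℚ d jq), coeffEmb_mem_laurentBaseChange K (jqL_mem d hd)⟩

/-- the generator `g_{M,a}(q^e)` of `FK K M L`, `e ∣ L`. -/
def gGenL (K : Type*) [Field K] [Algebra ℚ K] (M L : ℕ) (a : (ZMod M)ˣ) (e : ℕ) [NeZero e]
    (he : e ∣ L) : FK K M L :=
  ⟨coeffEmb K (qExpand ℚ e (gq M (a : ZMod M))),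
    coeffEmb_mem_laurentBaseChange K (gqL_mem a e he)⟩

@[simp] theorem coe_jGenL (d : ℕ) [NeZero d] (hd : d ∣ M * L) :
    ((jGenL K M L d hd : FK K M L) : LaurentSeries K) = coeffEmb K (qExpand ℚ d jq) := rfl

@[simp] theorem coe_gGenL (a : (ZMod M)ˣ) (e : ℕ) [NeZero e] (he : e ∣ L) :
    ((gGenL K M L a e he : FK K M L) : LaurentSeries K) =
      coeffEmb K (qExpand ℚ e (gq M (a : ZMod M))) := rfl

/-- induction principle in terms of the named generators. -/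
theorem FKL_induction' (P : FK K M L → Prop)
    (hj : ∀ (d : ℕ) [NeZero d] (hd : d ∣ M * L), P (jGenL K M L d hd))
    (hg : ∀ (a : (ZMod M)ˣ) (e : ℕ) [NeZero e] (he : e ∣ L), P (gGenL K M L a e he))
    (hc : ∀ c : K, P (algebraMap K (FK K M L) c))
    (hadd : ∀ x y, P x → P y → P (x + y))
    (hmul : ∀ x y, P x → P y → P (x * y))
    (hinv : ∀ x, P x → P x⁻¹) : ∀ x, P x := by
  refine FKL_induction P ?_ ?_ hc hadd hmul hinv
  · intro d _ hd y hy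
    have : y = jGenL K M L d hd := Subtype.ext hy
    rw [this]
    exact hj d hd
  · intro a e _ he y hy
    have : y = gGenL K M L a e he := Subtype.ext hy
    rw [this]
    exact hg a e he

end Induction

section Incl

variable {K : Type*} [Field K] [Algebra ℚ K] {M L : ℕ} (ι : K →+* ℂ)

theorem coeffMap_mem_FKL (x : FK K M L) : coeffMap ι (x : LaurentSeries K) ∈ FK ℂ M L := by
  revert x
  refine FKL_induction' _ ?_ ?_ ?_ ?_ ?_ ?_
  · intro d _ hd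
    rw [coe_jGenL, coeffMap_coeffEmb']
    exact coeffEmb_mem_laurentBaseChange ℂ (jqL_mem d hd)
  · intro a e _ he
    rw [coe_gGenL, coeffMap_coeffEmb']
    exact coeffEmb_mem_laurentBaseChange ℂ (gqL_mem a e he)
  · intro c
    show coeffMap ι (algebraMap K (LaurentSeries K) c) ∈ _
    rw [coeffMap_algebraMap']
    exact (FK ℂ M L).algebraMap_mem _
  · intro x y hx hy
    show coeffMap ι ((x : LaurentSeries K) + (y : LaurentSeries K)) ∈ _
    rw [map_add]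
    exact add_mem hx hy
  · intro x y hx hy
    show coeffMap ι ((x : LaurentSeries K) * (y : LaurentSeries K)) ∈ _
    rw [map_mul]
    exact mul_mem hx hy
  · intro x hx
    show coeffMap ι ((x : LaurentSeries K)⁻¹) ∈ _
    rw [map_inv₀]
    exact inv_mem hx

/-- the embedding `FK K M L → FK ℂ M L` induced by `ι : K → ℂ`. -/
def inclCL : FK K M L →+* FK ℂ M L where
  toFun x := ⟨coeffMap ι (x : LaurentSeries K), coeffMap_mem_FKL ι x⟩
  map_one' := Subtype.ext (map_one (coeffMap ι))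
  map_mul' _ _ := Subtype.ext (map_mul (coeffMap ι) _ _)
  map_zero' := Subtype.ext (map_zero (coeffMap ι))
  map_add' _ _ := Subtype.ext (map_add (coeffMap ι) _ _)

@[simp] theorem coe_inclCL (x : FK K M L) :
    ((inclCL ι x : FK ℂ M L) : LaurentSeries ℂ) = coeffMap ι (x : LaurentSeries K) := rfl

theorem inclCL_injective : Function.Injective (inclCL (M := M) (L := L) ι) :=
  RingHom.injective (inclCL (M := M) (L := L) ι)

theorem inclCL_jGenL (d : ℕ) [NeZero d] (hd : d ∣ M * L) :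
    inclCL ι (jGenL K M L d hd) = jGenL ℂ M L d hd :=
  Subtype.ext (coeffMap_coeffEmb' ι _)

theorem inclCL_gGenL (a : (ZMod M)ˣ) (e : ℕ) [NeZero e] (he : e ∣ L) :
    inclCL ι (gGenL K M L a e he) = gGenL ℂ M L a e he :=
  Subtype.ext (coeffMap_coeffEmb' ι _)

theorem inclCL_algebraMap (c : K) :
    inclCL (M := M) (L := L) ι (algebraMap K (FK K M L) c) = algebraMap ℂ (FK ℂ M L) (ι c) :=
  Subtype.ext (coeffMap_algebraMap' ι c)

theorem inclCL_one_eq (x : FK K M 1) : inclCL ι x = inclC ι x := rfl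

/-- `inclCL` commutes with `α`. -/
theorem inclCL_alpha1 (ℓ : ℕ) (x : FK K M 1) :
    inclCL ι (alpha1 K M ℓ x) = alpha1 ℂ M ℓ (inclC ι x) :=
  Subtype.ext (by rw [coe_inclCL, coe_alpha1, coe_alpha1, coe_inclC])

/-- `inclCL` commutes with `β`. -/
theorem inclCL_beta1 (ℓ : ℕ) [NeZero ℓ] (x : FK K M 1) :
    inclCL ι (beta1 K M ℓ x) = beta1 ℂ M ℓ (inclC ι x) :=
  Subtype.ext (by
    rw [coe_inclCL, coe_beta1, coe_beta1, coe_inclC]
    exact ModularCurve.coeffMap_qExpand ι ℓ _)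

end Incl

/-! ### generators under `α`, `β` -/

section Gens

variable {K : Type*} [Field K] [Algebra ℚ K] {M : ℕ}

theorem alpha1_jGen (ℓ : ℕ) (d : ℕ) [NeZero d] (hd : d ∣ M) :
    alpha1 K M ℓ (jGen K M d hd) = jGenL K M ℓ d (hd.mul_right ℓ) :=
  Subtype.ext (by rw [coe_alpha1]; rfl)

theorem beta1_jGen (ℓ : ℕ) [NeZero ℓ] (d : ℕ) [NeZero d] (hd : d ∣ M) :
    beta1 K M ℓ (jGen K M d hd) =
      jGenL K M ℓ (ℓ * d) (by rw [mul_comm ℓ d]; exact mul_dvd_mul_right hd ℓ) :=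
  Subtype.ext (by
    rw [coe_beta1, coe_jGenL]
    show qExpand K ℓ (coeffEmb K (qExpand ℚ d jq)) = _
    rw [← coeffEmb_qExpand, qExpand_qExpand])

theorem alpha1_gGen (ℓ : ℕ) (a : (ZMod M)ˣ) :
    alpha1 K M ℓ (gGen K M a) = gGenL K M ℓ a 1 (one_dvd ℓ) :=
  Subtype.ext (by
    rw [coe_alpha1, coe_gGenL, qExpand_one_apply]
    rfl)

theorem beta1_gGen (ℓ : ℕ) [NeZero ℓ] (a : (ZMod M)ˣ) :
    beta1 K M ℓ (gGen K M a) = gGenL K M ℓ a ℓ dvd_rfl :=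
  Subtype.ext (by
    rw [coe_beta1, coe_gGenL]
    show qExpand K ℓ (coeffEmb K (gq M (a : ZMod M))) = _
    rw [← coeffEmb_qExpand])

/-- the divisors of `M ℓ` (`ℓ` prime) are the `d` and the `ℓ d`, `d ∣ M`. -/
theorem dvd_mul_prime_cases' {ℓ : ℕ} (hℓ : ℓ.Prime) {d' : ℕ} (hd' : d' ∣ M * ℓ) :
    d' ∣ M ∨ ∃ d, d ∣ M ∧ d' = ℓ * d := by
  by_cases h : ℓ ∣ d'
  · obtain ⟨d, rfl⟩ := h
    right
    refine ⟨d, ?_, rfl⟩
    rw [mul_comm M ℓ] at hd'
    exact Nat.dvd_of_mul_dvd_mul_left hℓ.pos hd'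
  · left
    have hcop : Nat.Coprime d' ℓ := ((Nat.Prime.coprime_iff_not_dvd hℓ).mpr h).symm
    exact hcop.dvd_of_dvd_mul_right hd'

end Gens

/-! ### Part C: the Atkin–Lehner endomorphism over `ℂ` -/

section Complex

open Fermat.Agent.M48.G10Model4 Fermat.Agent.M48.HeckeReal3 Fermat.Agent.M48.AnQExpMer3
open Fermat.Agent.ES.HEQ.BetaMer19 Fermat.Agent.M48.Diamond1 Fermat.Agent.M48.G1Reps3
open Fermat.Agent.M48.KummerCoset3 Fermat.Agent.M48.CosetOp3 Matrix.SpecialLinearGroup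

variable {M ℓ : ℕ} [NeZero M] [NeZero ℓ] [hℓ : Fact ℓ.Prime] (hM : 2 ≤ M) (hℓM : ¬ ℓ ∣ M)

/-- the realisation of `FK ℂ M 1`. -/
def an1 : FK ℂ M 1 →+* MerH := realMer (model M 1 hM)

/-- the realisation of `FK ℂ M ℓ`. -/
def anL : FK ℂ M ℓ →+* MerH := realMer (model M ℓ hM)

theorem anL_alpha (x : FK ℂ M 1) : anL (ℓ := ℓ) hM (alpha1 ℂ M ℓ x) = an1 hM x :=
  realMer_eq_of_coe_eq (model M ℓ hM) (model M 1 hM) (coe_alpha1 ℂ M ℓ x)

theorem anL_beta (x : FK ℂ M 1) :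
    anL (ℓ := ℓ) hM (beta1 ℂ M ℓ x) = betaMer ℓ none (an1 hM x) :=
  realMer_scale (model M 1 hM) (model M ℓ hM) (coe_beta1 ℂ M ℓ x)

theorem an1_inv (γ : SL(2, ℤ)) (hγ : γ ∈ Gamma1 M) (x : FK ℂ M 1) :
    slMer γ (an1 hM x) = an1 hM x :=
  slMer_realMer_of_mem (model M 1 hM) γ (le_pm _ (by rw [gamma10_mul_one]; exact hγ)) x

theorem jReal_model : JReal (model M 1 hM) := by
  intro d _ hd
  exact ⟨jdRG M 1 d hd, coe_jdRG M 1 d hd, realG_jdRG M 1 hM d hd⟩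

theorem gReal_model : GReal (model M 1 hM) := by
  intro a e _ he
  exact ⟨gaRG M 1 a e he, coe_gaRG M 1 a e he, realG_gaRG M 1 hM a e he⟩

/-- precomposition with helper3's matrix `X · diag(ℓ, 1)`. -/
def TW : MerH →+* MerH := glMer (delta hℓM none) (det_delta_pos hℓM none)

theorem TW_const (c : ℂ) :
    TW hℓM (algebraMap HolH MerH (algebraMap ℂ HolH c)) =
      algebraMap HolH MerH (algebraMap ℂ HolH c) :=
  glMer_const _ _ c

/-- `T ∘ an' ∘ β = an`. -/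
theorem TW_anL_beta (x : FK ℂ M 1) :
    TW hℓM (anL (ℓ := ℓ) hM (beta1 ℂ M ℓ x)) = an1 hM x :=
  sig_psi hℓM ((beta1 ℂ M ℓ : FK ℂ M 1 →ₐ[ℂ] FK ℂ M ℓ) : FK ℂ M 1 →+* FK ℂ M ℓ) (an1 hM)
    (anL hM) (anL_beta hM) (an1_inv hM) none x

theorem XX_11 : ((XX hℓM 1 1 : ℤ) : ZMod M) = (ℓ : ZMod M) := by
  simp [XX]

theorem glB_heckeCoset1_none (y : MerH) :
    glB (heckeCoset1 hℓM (XG hℓM) (Gamma0Map_XG hℓM)) none y =
      betaMer ℓ none (slMer (XX hℓM) y) := by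
  unfold betaMer
  rw [← glMer_mapGL, ← glMer_mul]
  rfl

/-- `T ∘ an' ∘ α = an' ∘ β ∘ ⟨ℓ⟩`. -/
theorem TW_anL_alpha {d : (ZMod M)ˣ} (hd : (d : ZMod M) = (ℓ : ZMod M))
    {δ : FK ℂ M 1 ≃ₐ[ℂ] FK ℂ M 1} (hδ : IsDiamondAut ℂ M d δ) (x : FK ℂ M 1) :
    TW hℓM (anL (ℓ := ℓ) hM (alpha1 ℂ M ℓ x)) = anL hM (beta1 ℂ M ℓ (δ x)) := by
  have h1 := sig_phi hℓM ((alpha1 ℂ M ℓ : FK ℂ M 1 →ₐ[ℂ] FK ℂ M ℓ) : FK ℂ M 1 →+* FK ℂ M ℓ)
    (an1 hM) (anL hM) (anL_alpha hM) (an1_inv hM) (XG hℓM) (Gamma0Map_XG hℓM) none x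
  have h2 : an1 hM (δ x) = slMer (XX hℓM) (an1 hM x) :=
    realMer_of_isDiamondAut (model M 1 hM) (jReal_model hM) (gReal_model hM) hδ (XX hℓM)
      (XX_mem hℓM) ((XX_11 hℓM).trans hd.symm) x
  rw [anL_beta, h2, ← glB_heckeCoset1_none hℓM]
  exact h1

theorem coe_jdRG_eq (d : ℕ) [NeZero d] (hd : d ∣ M * ℓ) :
    ((jdRG M ℓ d hd : RG M ℓ) : FK ℂ M ℓ) = jGenL ℂ M ℓ d hd := rfl

theorem coe_gaRG_eq (a : (ZMod M)ˣ) (e : ℕ) [NeZero e] (he : e ∣ ℓ) :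
    ((gaRG M ℓ a e he : RG M ℓ) : FK ℂ M ℓ) = gGenL ℂ M ℓ a e he := rfl

theorem anL_algebraMap (c : ℂ) :
    anL (ℓ := ℓ) hM (algebraMap ℂ (FK ℂ M ℓ) c) = algebraMap HolH MerH (algebraMap ℂ HolH c) :=
  AnReal4.realMer_algebraMap (model M ℓ hM) c

/-- `T` maps the realisation of the ring `RG M ℓ` into itself. -/
theorem exists_TW {d : (ZMod M)ˣ} (hd : (d : ZMod M) = (ℓ : ZMod M))
    {δ : FK ℂ M 1 ≃ₐ[ℂ] FK ℂ M 1} (hδ : IsDiamondAut ℂ M d δ) (u : RG M ℓ) :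
    ∃ u' : RG M ℓ, anL hM ((u' : RG M ℓ) : FK ℂ M ℓ) =
      TW hℓM (anL hM ((u : RG M ℓ) : FK ℂ M ℓ)) := by
  induction u using RG_induction with
  | hj d' hd' =>
      rcases dvd_mul_prime_cases' hℓ.out hd' with h | ⟨d₀, hd₀, h⟩
      · refine ⟨jdRG M ℓ (ℓ * d') (by rw [mul_comm ℓ d']; exact mul_dvd_mul_right h ℓ), ?_⟩
        rw [coe_jdRG_eq, coe_jdRG_eq, ← alpha1_jGen ℓ d' h, TW_anL_alpha hM hℓM hd hδ,
          diaAut_jGen hδ, beta1_jGen]
      · subst h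
        haveI : NeZero d₀ := ⟨fun h0 => NeZero.ne (ℓ * d₀) (by rw [h0, mul_zero])⟩
        refine ⟨jdRG M ℓ d₀ (hd₀.mul_right ℓ), ?_⟩
        rw [coe_jdRG_eq, coe_jdRG_eq, ← beta1_jGen ℓ d₀ hd₀, TW_anL_beta, ← alpha1_jGen ℓ d₀ hd₀,
          anL_alpha]
  | hg a e he =>
      rcases (Nat.dvd_prime hℓ.out).mp he with h | h
      · subst h
        refine ⟨gaRG M ℓ (a * d⁻¹) ℓ dvd_rfl, ?_⟩
        rw [coe_gaRG_eq, coe_gaRG_eq, ← alpha1_gGen ℓ a, TW_anL_alpha hM hℓM hd hδ,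
          diaAut_gGen hδ, beta1_gGen]
      · subst h
        refine ⟨gaRG M e a 1 (one_dvd e), ?_⟩
        rw [coe_gaRG_eq, coe_gaRG_eq, ← beta1_gGen e a, TW_anL_beta, ← alpha1_gGen e a,
          anL_alpha]
  | hconst c =>
      refine ⟨algebraMap ℂ (RG M ℓ) c, ?_⟩
      show anL hM (algebraMap ℂ (FK ℂ M ℓ) c) = TW hℓM (anL hM (algebraMap ℂ (FK ℂ M ℓ) c))
      rw [anL_algebraMap, TW_const]
  | hadd u v ihu ihv =>
      obtain ⟨u', hu'⟩ := ihu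
      obtain ⟨v', hv'⟩ := ihv
      refine ⟨u' + v', ?_⟩
      show anL hM (((u' : RG M ℓ) : FK ℂ M ℓ) + ((v' : RG M ℓ) : FK ℂ M ℓ)) =
        TW hℓM (anL hM (((u : RG M ℓ) : FK ℂ M ℓ) + ((v : RG M ℓ) : FK ℂ M ℓ)))
      rw [RingHom.map_add, RingHom.map_add, RingHom.map_add, hu', hv']
  | hmul u v ihu ihv =>
      obtain ⟨u', hu'⟩ := ihu
      obtain ⟨v', hv'⟩ := ihv
      refine ⟨u' * v', ?_⟩
      show anL hM (((u' : RG M ℓ) : FK ℂ M ℓ) * ((v' : RG M ℓ) : FK ℂ M ℓ)) =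
        TW hℓM (anL hM (((u : RG M ℓ) : FK ℂ M ℓ) * ((v : RG M ℓ) : FK ℂ M ℓ)))
      rw [RingHom.map_mul, RingHom.map_mul, RingHom.map_mul, hu', hv']

/-- **the Atkin–Lehner endomorphism of `FK ℂ M ℓ`.** -/
def wC {d : (ZMod M)ˣ} (hd : (d : ZMod M) = (ℓ : ZMod M))
    {δ : FK ℂ M 1 ≃ₐ[ℂ] FK ℂ M 1} (hδ : IsDiamondAut ℂ M d δ) : FK ℂ M ℓ →ₐ[ℂ] FK ℂ M ℓ :=
  endOf (model M ℓ hM) (TW hℓM) (exists_TW hM hℓM hd hδ) (TW_const hℓM)

theorem anL_wC {d : (ZMod M)ˣ} (hd : (d : ZMod M) = (ℓ : ZMod M))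
    {δ : FK ℂ M 1 ≃ₐ[ℂ] FK ℂ M 1} (hδ : IsDiamondAut ℂ M d δ) (f : FK ℂ M ℓ) :
    anL hM (wC hM hℓM hd hδ f) = TW hℓM (anL hM f) :=
  realMer_endOf (model M ℓ hM) (TW hℓM) (exists_TW hM hℓM hd hδ) (TW_const hℓM) f

theorem anL_injective : Function.Injective (anL (ℓ := ℓ) hM) := realMer_inj (model M ℓ hM)

/-- **`w ∘ β = α`.** -/
theorem wC_beta {d : (ZMod M)ˣ} (hd : (d : ZMod M) = (ℓ : ZMod M))
    {δ : FK ℂ M 1 ≃ₐ[ℂ] FK ℂ M 1} (hδ : IsDiamondAut ℂ M d δ) (x : FK ℂ M 1) :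
    wC hM hℓM hd hδ (beta1 ℂ M ℓ x) = alpha1 ℂ M ℓ x := by
  apply anL_injective hM
  rw [anL_wC, TW_anL_beta, anL_alpha]

/-- **`w ∘ α = β ∘ ⟨ℓ⟩`.** -/
theorem wC_alpha {d : (ZMod M)ˣ} (hd : (d : ZMod M) = (ℓ : ZMod M))
    {δ : FK ℂ M 1 ≃ₐ[ℂ] FK ℂ M 1} (hδ : IsDiamondAut ℂ M d δ) (x : FK ℂ M 1) :
    wC hM hℓM hd hδ (alpha1 ℂ M ℓ x) = beta1 ℂ M ℓ (δ x) := by
  apply anL_injective hM
  rw [anL_wC, TW_anL_alpha hM hℓM hd hδ]

end Complex

/-! ### Part D: descent along an embedding `K → ℂ` -/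

section Descent

open Fermat.Agent.M48.G10Model4

variable {K : Type*} [Field K] [Algebra ℚ K] {M ℓ : ℕ} [NeZero M] [NeZero ℓ]
  [hℓ : Fact ℓ.Prime] (hM : 2 ≤ M) (hℓM : ¬ ℓ ∣ M) (ι : K →+* ℂ)
  {d : (ZMod M)ˣ} (hd : (d : ZMod M) = (ℓ : ZMod M))
  {δC : FK ℂ M 1 ≃ₐ[ℂ] FK ℂ M 1} (hδC : IsDiamondAut ℂ M d δC)

theorem wC_jGenL_of_dvd (e : ℕ) [NeZero e] (he : e ∣ M) :
    wC hM hℓM hd hδC (jGenL ℂ M ℓ e (he.mul_right ℓ)) =
      jGenL ℂ M ℓ (ℓ * e) (by rw [mul_comm ℓ e]; exact mul_dvd_mul_right he ℓ) := by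
  rw [← alpha1_jGen ℓ e he, wC_alpha, diaAut_jGen hδC, beta1_jGen]

theorem wC_jGenL_mul (e : ℕ) [NeZero e] (he : e ∣ M) :
    wC hM hℓM hd hδC
        (jGenL ℂ M ℓ (ℓ * e) (by rw [mul_comm ℓ e]; exact mul_dvd_mul_right he ℓ)) =
      jGenL ℂ M ℓ e (he.mul_right ℓ) := by
  rw [← beta1_jGen ℓ e he, wC_beta, alpha1_jGen]

theorem wC_gGenL_one (a : (ZMod M)ˣ) :
    wC hM hℓM hd hδC (gGenL ℂ M ℓ a 1 (one_dvd ℓ)) = gGenL ℂ M ℓ (a * d⁻¹) ℓ dvd_rfl := by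
  rw [← alpha1_gGen ℓ a, wC_alpha, diaAut_gGen hδC, beta1_gGen]

theorem wC_gGenL_self (a : (ZMod M)ˣ) :
    wC hM hℓM hd hδC (gGenL ℂ M ℓ a ℓ dvd_rfl) = gGenL ℂ M ℓ a 1 (one_dvd ℓ) := by
  rw [← beta1_gGen ℓ a, wC_beta, alpha1_gGen]

/-- the Atkin–Lehner endomorphism over `ℂ` preserves the image of `FK K M ℓ`. -/
theorem exists_inclCL_eq_wC (x : FK K M ℓ) :
    ∃ x' : FK K M ℓ, inclCL ι x' = wC hM hℓM hd hδC (inclCL ι x) := by
  revert x
  refine FKL_induction' _ ?_ ?_ ?_ ?_ ?_ ?_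
  · intro e _ he
    rw [inclCL_jGenL]
    rcases dvd_mul_prime_cases' hℓ.out he with h | ⟨e₀, he₀, h⟩
    · refine ⟨jGenL K M ℓ (ℓ * e) (by rw [mul_comm ℓ e]; exact mul_dvd_mul_right h ℓ), ?_⟩
      rw [inclCL_jGenL]
      exact (wC_jGenL_of_dvd hM hℓM hd hδC e h).symm
    · subst h
      haveI : NeZero e₀ := ⟨fun h0 => NeZero.ne (ℓ * e₀) (by rw [h0, mul_zero])⟩
      refine ⟨jGenL K M ℓ e₀ (he₀.mul_right ℓ), ?_⟩
      rw [inclCL_jGenL]
      exact (wC_jGenL_mul hM hℓM hd hδC e₀ he₀).symm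
  · intro a e _ he
    rw [inclCL_gGenL]
    rcases (Nat.dvd_prime hℓ.out).mp he with h | h
    · subst h
      refine ⟨gGenL K M ℓ (a * d⁻¹) ℓ dvd_rfl, ?_⟩
      rw [inclCL_gGenL]
      exact (wC_gGenL_one hM hℓM hd hδC a).symm
    · subst h
      refine ⟨gGenL K M e a 1 (one_dvd e), ?_⟩
      rw [inclCL_gGenL]
      exact (wC_gGenL_self hM hℓM hd hδC a).symm
  · intro c
    rw [inclCL_algebraMap, AlgHom.commutes]
    exact ⟨_, inclCL_algebraMap ι c⟩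
  · rintro x y ⟨x', hx⟩ ⟨y', hy⟩
    exact ⟨x' + y', by rw [map_add, map_add, map_add, hx, hy]⟩
  · rintro x y ⟨x', hx⟩ ⟨y', hy⟩
    exact ⟨x' * y', by rw [map_mul, map_mul, map_mul, hx, hy]⟩
  · rintro x ⟨x', hx⟩
    exact ⟨x'⁻¹, by rw [map_inv₀, map_inv₀, map_inv₀, hx]⟩

/-- the descended map. -/
def wKFun (x : FK K M ℓ) : FK K M ℓ := (exists_inclCL_eq_wC hM hℓM ι hd hδC x).choose

theorem inclCL_wKFun (x : FK K M ℓ) :
    inclCL ι (wKFun hM hℓM ι hd hδC x) = wC hM hℓM hd hδC (inclCL ι x) :=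
  (exists_inclCL_eq_wC hM hℓM ι hd hδC x).choose_spec

/-- **the Atkin–Lehner endomorphism of `FK K M ℓ`** (descended from `ℂ`). -/
def wK : FK K M ℓ →ₐ[K] FK K M ℓ where
  toFun := wKFun hM hℓM ι hd hδC
  map_one' := by
    apply inclCL_injective ι
    rw [inclCL_wKFun, map_one, map_one]
  map_mul' x y := by
    apply inclCL_injective ι
    rw [inclCL_wKFun, map_mul, map_mul, map_mul, inclCL_wKFun, inclCL_wKFun]
  map_zero' := by
    apply inclCL_injective ι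
    rw [inclCL_wKFun, map_zero, map_zero]
  map_add' x y := by
    apply inclCL_injective ι
    rw [inclCL_wKFun, map_add, map_add, map_add, inclCL_wKFun, inclCL_wKFun]
  commutes' c := by
    apply inclCL_injective ι
    rw [inclCL_wKFun, inclCL_algebraMap, AlgHom.commutes]

@[simp] theorem inclCL_wK (x : FK K M ℓ) :
    inclCL ι (wK hM hℓM ι hd hδC x) = wC hM hℓM hd hδC (inclCL ι x) :=
  inclCL_wKFun hM hℓM ι hd hδC x

theorem wK_beta (x : FK K M 1) :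
    wK hM hℓM ι hd hδC (beta1 K M ℓ x) = alpha1 K M ℓ x := by
  apply inclCL_injective ι
  rw [inclCL_wK, inclCL_beta1, wC_beta, inclCL_alpha1]

theorem wK_alpha {δ : FK K M 1 ≃ₐ[K] FK K M 1} (hδ : IsDiamondAut K M d δ) (x : FK K M 1) :
    wK hM hℓM ι hd hδC (alpha1 K M ℓ x) = beta1 K M ℓ (δ x) := by
  apply inclCL_injective ι
  rw [inclCL_wK, inclCL_alpha1, wC_alpha, inclCL_beta1,
    diaAut_unique hδ (isDiamondAut_descAut (ι := ι) hδC), inclC_descAut]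

end Descent

/-! ### Main theorems -/

section Main

open Fermat.Agent.M48.G10Model4

variable {K : Type*} [Field K] [Algebra ℚ K] {M ℓ : ℕ} [NeZero M] [NeZero ℓ]

/-- **The Atkin–Lehner endomorphism `w_ℓ` of the function field of `X(Γ₁(M) ∩ Γ₀(ℓ))` over any
field `K` embedded in `ℂ`**: `w ∘ β = α`, `w ∘ α = β ∘ ⟨ℓ⟩`. -/
theorem exists_atkinLehner (hM : 2 ≤ M) (hℓ : ℓ.Prime) (hℓM : ¬ ℓ ∣ M) (ι : K →+* ℂ)
    {d : (ZMod M)ˣ} (hd : (d : ZMod M) = (ℓ : ZMod M))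
    {δ : FK K M 1 ≃ₐ[K] FK K M 1} (hδ : IsDiamondAut K M d δ) :
    ∃ w : FK K M ℓ →ₐ[K] FK K M ℓ,
      (∀ x : FK K M 1, w (beta1 K M ℓ x) = alpha1 K M ℓ x) ∧
      ∀ x : FK K M 1, w (alpha1 K M ℓ x) = beta1 K M ℓ (δ x) := by
  haveI : Fact ℓ.Prime := ⟨hℓ⟩
  obtain ⟨δC, hδC⟩ := exists_isDiamondAut_complex g10ModelStmt hM d
  exact ⟨wK hM hℓM ι hd hδC, wK_beta hM hℓM ι hd hδC, wK_alpha hM hℓM ι hd hδC hδ⟩

/-- **(W)** the embedding `W : FK K M ℓ → K((q))` (expansion at the other cusp) with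
`W (β h) = h`, `W (α f) = (⟨ℓ⟩ f)(q^ℓ)`: the `Γ₁(M)`-twin of `Conjugates11.exists_W`. -/
theorem exists_W (hM : 2 ≤ M) (hℓ : ℓ.Prime) (hℓM : ¬ ℓ ∣ M) (ι : K →+* ℂ)
    {d : (ZMod M)ˣ} (hd : (d : ZMod M) = (ℓ : ZMod M))
    {δ : FK K M 1 ≃ₐ[K] FK K M 1} (hδ : IsDiamondAut K M d δ) :
    ∃ W : FK K M ℓ →+* LaurentSeries K,
      (∀ h : FK K M 1, W (beta1 K M ℓ h) = (h : LaurentSeries K)) ∧
      ∀ f : FK K M 1, W (alpha1 K M ℓ f) = qExpand K ℓ ((δ f : FK K M 1) : LaurentSeries K) := by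
  obtain ⟨w, hβ, hα⟩ := exists_atkinLehner hM hℓ hℓM ι hd hδ
  refine ⟨(algebraMap (FK K M ℓ) (LaurentSeries K)).comp (w : FK K M ℓ →+* FK K M ℓ), ?_, ?_⟩
  · intro h
    show ((w (beta1 K M ℓ h) : FK K M ℓ) : LaurentSeries K) = _
    rw [hβ, coe_alpha1]
  · intro f
    show ((w (alpha1 K M ℓ f) : FK K M ℓ) : LaurentSeries K) = _
    rw [hα, coe_beta1]

end Main

end Fermat.Agent.M48.AtkinLehner5
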