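/-
M48 (P1), chapter [ESRED1] / KRON twin (helper5): the Kronecker congruences WITH A DIAMOND, pure
`q`-series algebra.  Two-series versions of `ES/KRON/KronCong24` and `ES/KRON/KronNorm10`.

For `Γ₁(M)` the `ℓ + 1` conjugates of `α f` over `β F` are `f(ζ^b q)` (`b < ℓ`) and
`(⟨ℓ⟩^{±1} f)(q^{ℓ²})`: the conjugate at infinity involves a SECOND series `y' = ⟨ℓ⟩^{±1} y`.

* `kronProd2 l ζ y y' = ∏_{b < l} (Y - y(ζ^b q)) * (Y - y'(q^{l²}))`  (`kronProd2_self`: `y' = y` is
  the old `kronProd`);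
* `kronProd2_map_res` : modulo `res : R → k` (characteristic `l`)
  `kronProd2 l ζ y y' ≡ (Y^l - (ȳ^φ)(q^l)) * (Y - ((ȳ'^ψ)(q^l))^l)`;
* `kron_descent2` : if `kronProd2 l ζ y y'` is `Ψ(q^l)` after an injective coefficient extension, then
  `Ψ` has coefficients in `R((q))` and reduces to `(Y^l - ȳ^φ) * (Y - (ȳ'^ψ)^l)`;
* `normProd2 l ζ y y' = ∏_{b<l} y(ζ^b q) · y'(q^{l²})`, `norm_descent2`, `norm_descent2_sign`,
  `kronProd2_coeff_zero`, `frob_mul_pow_ne_zero2`;
* `kron_inst2`, `norm_inst2`, `norm_inst2_sign` : the same at a valuation subring `A` (over `ℓ`) of an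
  algebraically closed field.
-/
import Mathlib
import Fermat.Agent.ES.KRON.KronCong24
import Fermat.Agent.ES.KRON.KronInst10
import Fermat.Agent.ES.KRON.KronNorm10

set_option autoImplicit false
set_option linter.style.haveILetI false

open HahnSeries Polynomial ModularCurve

noncomputable section

namespace Fermat.Agent.M48.KronCong5

open Fermat.Agent.ES.KRON.KronCong24 Fermat.Agent.ES.KRON.KronInst10
open Fermat.Agent.ES.KRON.KronNorm10

/-! ### The Kronecker product polynomial with two series -/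

section Kron

variable {R : Type*} [CommRing R]

/-- `∏_{b < l} (Y - y(ζ^b q)) * (Y - y'(q^{l²}))`. -/
def kronProd2 (l : ℕ) [NeZero l] (ζ : Rˣ) (y y' : LaurentSeries R) :
    Polynomial (LaurentSeries R) :=
  (∏ b ∈ Finset.range l, (X - Polynomial.C (twistU (ζ ^ b) y))) *
    (X - Polynomial.C (qExpand R (l ^ 2) y'))

theorem kronProd2_self (l : ℕ) [NeZero l] (ζ : Rˣ) (y : LaurentSeries R) :
    kronProd2 l ζ y y = kronProd l ζ y := rfl

theorem kronProd2_monic (l : ℕ) [NeZero l] (ζ : Rˣ) (y y' : LaurentSeries R) [Nontrivial R] :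
    (kronProd2 l ζ y y').Monic :=
  (monic_prod_of_monic _ _ fun _ _ => monic_X_sub_C _).mul (monic_X_sub_C _)

theorem kronProd2_natDegree (l : ℕ) [NeZero l] (ζ : Rˣ) (y y' : LaurentSeries R) [Nontrivial R] :
    (kronProd2 l ζ y y').natDegree = l + 1 := by
  rw [kronProd2, Monic.natDegree_mul (monic_prod_of_monic _ _ fun b _ => monic_X_sub_C _)
    (monic_X_sub_C _), natDegree_X_sub_C, natDegree_prod_of_monic _ _ fun b _ => monic_X_sub_C _]
  simp

theorem kronProd2_map {S : Type*} [CommRing S] (φ : R →+* S) (l : ℕ) [NeZero l] (ζ : Rˣ)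
    (y y' : LaurentSeries R) :
    (kronProd2 l ζ y y').map (coeffMap φ) =
      kronProd2 l (Units.map (φ : R →* S) ζ) (coeffMap φ y) (coeffMap φ y') := by
  rw [kronProd2, kronProd2, Polynomial.map_mul, Polynomial.map_prod]
  congr 1
  · refine Finset.prod_congr rfl fun b _ => ?_
    rw [Polynomial.map_sub, Polynomial.map_X, Polynomial.map_C, coeffMap_twistU, map_pow]
  · rw [Polynomial.map_sub, Polynomial.map_X, Polynomial.map_C, coeffMap_qExpand]

variable {k : Type*} [Field k] (l : ℕ) [hl : Fact l.Prime] [CharP k l]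

/-- `kronProd2` over a field of characteristic `l` (where `ζ = 1`). -/
theorem kronProd2_char (ψ : k →+* k) (hψ : ∀ a, ψ a ^ l = a) (ζ : kˣ) (hζ : ζ ^ l = 1)
    (x x' : LaurentSeries k) :
    haveI : NeZero l := ⟨hl.out.ne_zero⟩
    kronProd2 l ζ x x' = ((X ^ l - Polynomial.C (coeffMap (frobenius k l) x)) *
      (X - Polynomial.C ((coeffMap ψ x') ^ l))).map (qExpand k l) := by
  haveI : NeZero l := ⟨hl.out.ne_zero⟩
  have hζ1 : ζ = 1 := by
    apply Units.ext
    apply eq_one_of_pow_char_eq_one l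
    rw [← Units.val_pow_eq_pow_val, hζ, Units.val_one]
  subst hζ1
  rw [kronProd2, Polynomial.map_mul, Polynomial.map_sub, Polynomial.map_sub, Polynomial.map_pow,
    Polynomial.map_X, Polynomial.map_C, Polynomial.map_C, map_pow, ← qExpand_sq_eq_pow l ψ hψ,
    ← pow_char]
  congr 1
  simp only [one_pow, twistU_one, Finset.prod_const, Finset.card_range]
  rw [sub_pow_char, ← Polynomial.C_pow]

/-- **(K1) with a diamond**: modulo `res : R → k` (characteristic `l`),
`∏_b (Y - y(ζ^b q)) * (Y - y'(q^{l²})) ≡ (Y^l - (ȳ^φ)(q^l)) * (Y - ((ȳ'^{φ⁻¹})(q^l))^l)`. -/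
theorem kronProd2_map_res (res : R →+* k) (ψ : k →+* k) (hψ : ∀ a, ψ a ^ l = a)
    (ζ : Rˣ) (hζ : ζ ^ l = 1) (y y' : LaurentSeries R) :
    haveI : NeZero l := ⟨hl.out.ne_zero⟩
    (kronProd2 l ζ y y').map (coeffMap res) =
      ((X ^ l - Polynomial.C (coeffMap (frobenius k l) (coeffMap res y))) *
        (X - Polynomial.C ((coeffMap ψ (coeffMap res y')) ^ l))).map (qExpand k l) := by
  haveI : NeZero l := ⟨hl.out.ne_zero⟩
  rw [kronProd2_map]
  exact kronProd2_char l ψ hψ _ (by rw [← map_pow, hζ, map_one]) _ _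

/-- **(K1′) with a diamond**: descent and reduction of `Ψ`: if `kronProd2 l ζ y y'` (after the
injective coefficient extension `ι`) equals `Ψ(q^l)`, then `Ψ` has coefficients in `R((q))`,
`Ψ_R(q^l) = kronProd2 l ζ y y'`, and `Ψ_R` reduces modulo `res` to
`(Y^l - ȳ^φ) * (Y - (ȳ'^{φ⁻¹})^l)`. -/
theorem kron_descent2 {K : Type*} [CommRing K] (ι : R →+* K) (hι : Function.Injective ι)
    (res : R →+* k) (ψ : k →+* k) (hψ : ∀ a, ψ a ^ l = a)
    (ζ : Rˣ) (hζ : ζ ^ l = 1) (y y' : LaurentSeries R) (Ψ : Polynomial (LaurentSeries K)) :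
    haveI : NeZero l := ⟨hl.out.ne_zero⟩
    Ψ.map (qExpand K l) = (kronProd2 l ζ y y').map (coeffMap ι) →
    ∃ ΨR : Polynomial (LaurentSeries R),
      ΨR.map (qExpand R l) = kronProd2 l ζ y y' ∧
      ΨR.map (coeffMap ι) = Ψ ∧
      ΨR.map (coeffMap res) =
        (X ^ l - Polynomial.C (coeffMap (frobenius k l) (coeffMap res y))) *
          (X - Polynomial.C ((coeffMap ψ (coeffMap res y')) ^ l)) := by
  haveI : NeZero l := ⟨hl.out.ne_zero⟩
  intro hΨ
  have hlift : kronProd2 l ζ y y' ∈ Polynomial.lifts (qExpand R l) := by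
    rw [Polynomial.lifts_iff_coeff_lifts]
    intro n
    have h := congrArg (fun P => P.coeff n) hΨ
    simp only [Polynomial.coeff_map] at h
    obtain ⟨z, hz⟩ := mem_range_qExpand_of_coeffMap ι hι l _ _ h.symm
    exact ⟨z, hz⟩
  obtain ⟨ΨR, hΨR⟩ := (Polynomial.mem_lifts _).mp hlift
  refine ⟨ΨR, hΨR, ?_, ?_⟩
  · apply map_qExpand_injective l
    rw [hΨ, ← hΨR, Polynomial.map_map, Polynomial.map_map]
    congr 1
    ext x : 1
    exact (coeffMap_qExpand ι l x).symm
  · apply map_qExpand_injective l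
    rw [← kronProd2_map_res l res ψ hψ ζ hζ y y', ← hΨR, Polynomial.map_map, Polynomial.map_map]
    congr 1
    ext x : 1
    exact (coeffMap_qExpand res l x).symm

end Kron

/-! ### The norm product with two series ("Kronecker at `Y = 0`") -/

section Norm

variable {R : Type*} [CommRing R]

/-- The norm product `∏_{b<l} y(ζ^b q) · y'(q^{l²})`. -/
def normProd2 (l : ℕ) [NeZero l] (ζ : Rˣ) (y y' : LaurentSeries R) : LaurentSeries R :=
  (∏ b ∈ Finset.range l, twistU (ζ ^ b) y) * qExpand R (l ^ 2) y'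

theorem normProd2_self (l : ℕ) [NeZero l] (ζ : Rˣ) (y : LaurentSeries R) :
    normProd2 l ζ y y = normProd l ζ y := rfl

theorem normProd2_map {S : Type*} [CommRing S] (φ : R →+* S) (l : ℕ) [NeZero l] (ζ : Rˣ)
    (y y' : LaurentSeries R) :
    coeffMap φ (normProd2 l ζ y y') =
      normProd2 l (Units.map (φ : R →* S) ζ) (coeffMap φ y) (coeffMap φ y') := by
  unfold normProd2
  rw [map_mul, map_prod, coeffMap_qExpand]
  congr 1
  refine Finset.prod_congr rfl fun b _ => ?_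
  rw [coeffMap_twistU, map_pow]

variable {k : Type*} [Field k] (l : ℕ) [hl : Fact l.Prime] [CharP k l]

/-- In characteristic `l`: `∏_b y(ζ^b q) · y'(q^{l²}) = (y^φ · (y'^ψ)^l)(q^l)`. -/
theorem normProd2_char (ψ : k →+* k) (hψ : ∀ a, ψ a ^ l = a) (ζ : kˣ) (hζ : ζ ^ l = 1)
    (x x' : LaurentSeries k) :
    haveI : NeZero l := ⟨hl.out.ne_zero⟩
    normProd2 l ζ x x' = qExpand k l (coeffMap (frobenius k l) x * (coeffMap ψ x') ^ l) := by
  haveI : NeZero l := ⟨hl.out.ne_zero⟩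
  have hζ1 : ζ = 1 := by
    apply Units.ext
    apply eq_one_of_pow_char_eq_one l
    rw [← Units.val_pow_eq_pow_val, hζ, Units.val_one]
  subst hζ1
  unfold normProd2
  rw [map_mul, map_pow, ← qExpand_sq_eq_pow l ψ hψ, ← pow_char]
  congr 1
  simp only [one_pow, twistU_one, Finset.prod_const, Finset.card_range]

/-- **Kronecker at `Y = 0` with a diamond, descent form.** -/
theorem norm_descent2 {K : Type*} [CommRing K] (ι : R →+* K) (hι : Function.Injective ι)
    (res : R →+* k) (ψ : k →+* k) (hψ : ∀ a, ψ a ^ l = a)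
    (ζ : Rˣ) (hζ : ζ ^ l = 1) (y y' : LaurentSeries R) (Nn : LaurentSeries K) :
    haveI : NeZero l := ⟨hl.out.ne_zero⟩
    qExpand K l Nn = coeffMap ι (normProd2 l ζ y y') →
    ∃ NR : LaurentSeries R, qExpand R l NR = normProd2 l ζ y y' ∧ coeffMap ι NR = Nn ∧
      coeffMap res NR =
        coeffMap (frobenius k l) (coeffMap res y) * (coeffMap ψ (coeffMap res y')) ^ l := by
  haveI : NeZero l := ⟨hl.out.ne_zero⟩
  intro hN
  obtain ⟨z, hz⟩ := mem_range_qExpand_of_coeffMap ι hι l (normProd2 l ζ y y') Nn hN.symm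
  refine ⟨z, hz, ?_, ?_⟩
  · apply qExpand_injective (R := K) l
    rw [hN, ← hz, coeffMap_qExpand]
  · apply qExpand_injective (R := k) l
    rw [← coeffMap_qExpand, hz, normProd2_map]
    exact normProd2_char l ψ hψ _ (by rw [← map_pow, hζ, map_one]) _ _

/-- Signed variant of `norm_descent2`. -/
theorem norm_descent2_sign {K : Type*} [CommRing K] (ι : R →+* K) (hι : Function.Injective ι)
    (res : R →+* k) (ψ : k →+* k) (hψ : ∀ a, ψ a ^ l = a)
    (ζ : Rˣ) (hζ : ζ ^ l = 1) (y y' : LaurentSeries R) (Nn : LaurentSeries K) :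
    haveI : NeZero l := ⟨hl.out.ne_zero⟩
    qExpand K l Nn = (-1) ^ (l + 1) * coeffMap ι (normProd2 l ζ y y') →
    ∃ NR : LaurentSeries R, coeffMap ι NR = Nn ∧
      coeffMap res NR = (-1) ^ (l + 1) *
        (coeffMap (frobenius k l) (coeffMap res y) * (coeffMap ψ (coeffMap res y')) ^ l) := by
  haveI : NeZero l := ⟨hl.out.ne_zero⟩
  intro hN
  have hs : ((-1 : LaurentSeries K) ^ (l + 1)) * ((-1) ^ (l + 1)) = 1 := by
    rw [← _root_.pow_add, ← two_mul, pow_mul, neg_one_sq, one_pow]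
  have hN' : qExpand K l ((-1) ^ (l + 1) * Nn) = coeffMap ι (normProd2 l ζ y y') := by
    rw [map_mul, map_pow, map_neg, map_one, hN, ← mul_assoc, hs, one_mul]
  obtain ⟨NR', -, h2, h3⟩ := norm_descent2 l ι hι res ψ hψ ζ hζ y y' _ hN'
  refine ⟨(-1) ^ (l + 1) * NR', ?_, ?_⟩
  · rw [map_mul, map_pow, map_neg, map_one, h2, ← mul_assoc, hs, one_mul]
  · rw [map_mul, map_pow, map_neg, map_one, h3]

/-- The norm product is, up to the sign `(-1)^(l+1)`, the constant coefficient of `kronProd2`. -/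
theorem kronProd2_coeff_zero (l' : ℕ) [NeZero l'] (ζ : Rˣ) (y y' : LaurentSeries R) :
    (kronProd2 l' ζ y y').coeff 0 = (-1) ^ (l' + 1) * normProd2 l' ζ y y' := by
  unfold kronProd2 normProd2
  rw [Polynomial.coeff_zero_eq_eval_zero, Polynomial.eval_mul, Polynomial.eval_prod]
  simp only [Polynomial.eval_sub, Polynomial.eval_X, Polynomial.eval_C, zero_sub]
  rw [Finset.prod_neg, Finset.card_range]
  generalize qExpand R (l' ^ 2) y' = c
  generalize ∏ b ∈ Finset.range l', twistU (ζ ^ b) y = P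
  ring

/-- Nonvanishing of the reduced norm. -/
theorem frob_mul_pow_ne_zero2 (ψ : k →+* k) {x x' : LaurentSeries k} (hx : x ≠ 0) (hx' : x' ≠ 0) :
    coeffMap (frobenius k l) x * (coeffMap ψ x') ^ l ≠ 0 := by
  have h1 : coeffMap (frobenius k l) x ≠ 0 := by
    intro h0
    apply hx
    ext n
    have := congrArg (fun z => z.coeff n) h0
    simp only [coeffMap_coeff, HahnSeries.coeff_zero] at this
    exact (map_eq_zero (frobenius k l)).mp this
  have h2 : coeffMap ψ x' ≠ 0 := by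
    intro h0
    apply hx'
    ext n
    have := congrArg (fun z => z.coeff n) h0
    simp only [coeffMap_coeff, HahnSeries.coeff_zero] at this
    exact (map_eq_zero ψ).mp this
  exact mul_ne_zero h1 (pow_ne_zero _ h2)

end Norm

/-! ### Instantiation at a valuation subring of an algebraically closed field -/

section Inst

variable {L : Type*} [Field L] [IsAlgClosed L] (A : ValuationSubring L) (ℓ : ℕ) [Fact ℓ.Prime]

/-- **(K1-inst) with a diamond.** -/
theorem kron_inst2 (hA : A.LiesOverPrime ℓ) (ζ : Lˣ) (hζ : ζ ^ ℓ = 1) :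
    haveI := charP_residueField A (Fact.out : ℓ.Prime) hA
    haveI : NeZero ℓ := ⟨(Fact.out : ℓ.Prime).ne_zero⟩
    ∃ ψ : IsLocalRing.ResidueField A →+* IsLocalRing.ResidueField A,
      (∀ a, ψ a ^ ℓ = a) ∧ (∀ a, ψ (a ^ ℓ) = a) ∧
      ∀ (y y' : LaurentSeries ↥A) (Ψ : Polynomial (LaurentSeries L)),
        Ψ.map (qExpand L ℓ) = kronProd2 ℓ ζ (coeffMap A.subtype y) (coeffMap A.subtype y') →
        ∃ ΨR : Polynomial (LaurentSeries ↥A),
          ΨR.map (coeffMap A.subtype) = Ψ ∧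
          ΨR.map (coeffMap (IsLocalRing.residue A)) =
            (X ^ ℓ - Polynomial.C (coeffMap (frobenius (IsLocalRing.ResidueField A) ℓ)
                (coeffMap (IsLocalRing.residue A) y))) *
              (X - Polynomial.C ((coeffMap ψ (coeffMap (IsLocalRing.residue A) y')) ^ ℓ)) := by
  haveI := charP_residueField A (Fact.out : ℓ.Prime) hA
  haveI := isAlgClosed_residueField A
  haveI : NeZero ℓ := ⟨(Fact.out : ℓ.Prime).ne_zero⟩
  obtain ⟨ψ, hψ1, hψ2⟩ := exists_frobInv (k := IsLocalRing.ResidueField A) ℓ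
  refine ⟨ψ, hψ1, hψ2, fun y y' Ψ hΨ => ?_⟩
  have hℓpos : 0 < ℓ := (Fact.out : ℓ.Prime).pos
  have hζL : (ζ : L) ^ ℓ = 1 := by rw [← Units.val_pow_eq_pow_val, hζ, Units.val_one]
  set ζA : (↥A)ˣ := unitOfPowEqOne A hℓpos hζL with hζA
  have hmap : Units.map ((A.subtype : ↥A →+* L) : ↥A →* L) ζA = ζ := Units.ext rfl
  have hΨ' : Ψ.map (qExpand L ℓ) = (kronProd2 ℓ ζA y y').map (coeffMap A.subtype) := by
    rw [kronProd2_map, hmap]
    exact hΨ
  obtain ⟨ΨR, -, h2, h3⟩ := kron_descent2 ℓ A.subtype Subtype.val_injective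
    (IsLocalRing.residue A) ψ hψ1 ζA (unitOfPowEqOne_pow A hℓpos hζL) y y' Ψ hΨ'
  exact ⟨ΨR, h2, h3⟩

/-- **Kronecker at `Y = 0` with a diamond at a valuation subring.** -/
theorem norm_inst2 (hA : A.LiesOverPrime ℓ) (ζ : Lˣ) (hζ : ζ ^ ℓ = 1) :
    haveI := charP_residueField A (Fact.out : ℓ.Prime) hA
    haveI : NeZero ℓ := ⟨(Fact.out : ℓ.Prime).ne_zero⟩
    ∃ ψ : IsLocalRing.ResidueField A →+* IsLocalRing.ResidueField A,
      (∀ a, ψ a ^ ℓ = a) ∧ (∀ a, ψ (a ^ ℓ) = a) ∧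
      ∀ (y y' : LaurentSeries ↥A) (Nn : LaurentSeries L),
        qExpand L ℓ Nn = normProd2 ℓ ζ (coeffMap A.subtype y) (coeffMap A.subtype y') →
        ∃ NR : LaurentSeries ↥A,
          coeffMap A.subtype NR = Nn ∧
          coeffMap (IsLocalRing.residue A) NR =
            coeffMap (frobenius (IsLocalRing.ResidueField A) ℓ)
                (coeffMap (IsLocalRing.residue A) y) *
              (coeffMap ψ (coeffMap (IsLocalRing.residue A) y')) ^ ℓ := by
  haveI := charP_residueField A (Fact.out : ℓ.Prime) hA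
  haveI := isAlgClosed_residueField A
  haveI : NeZero ℓ := ⟨(Fact.out : ℓ.Prime).ne_zero⟩
  obtain ⟨ψ, hψ1, hψ2⟩ := exists_frobInv (k := IsLocalRing.ResidueField A) ℓ
  refine ⟨ψ, hψ1, hψ2, fun y y' Nn hN => ?_⟩
  have hℓpos : 0 < ℓ := (Fact.out : ℓ.Prime).pos
  have hζL : (ζ : L) ^ ℓ = 1 := by rw [← Units.val_pow_eq_pow_val, hζ, Units.val_one]
  set ζA : (↥A)ˣ := unitOfPowEqOne A hℓpos hζL with hζA
  have hmap : Units.map ((A.subtype : ↥A →+* L) : ↥A →* L) ζA = ζ := Units.ext rfl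
  have hN' : qExpand L ℓ Nn = coeffMap A.subtype (normProd2 ℓ ζA y y') := by
    rw [normProd2_map, hmap]
    exact hN
  obtain ⟨NR, -, h2, h3⟩ := norm_descent2 ℓ A.subtype Subtype.val_injective
    (IsLocalRing.residue A) ψ hψ1 ζA (unitOfPowEqOne_pow A hℓpos hζL) y y' Nn hN'
  exact ⟨NR, h2, h3⟩

/-- Signed variant of `norm_inst2`. -/
theorem norm_inst2_sign (hA : A.LiesOverPrime ℓ) (ζ : Lˣ) (hζ : ζ ^ ℓ = 1) :
    haveI := charP_residueField A (Fact.out : ℓ.Prime) hA
    haveI : NeZero ℓ := ⟨(Fact.out : ℓ.Prime).ne_zero⟩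
    ∃ ψ : IsLocalRing.ResidueField A →+* IsLocalRing.ResidueField A,
      (∀ a, ψ a ^ ℓ = a) ∧ (∀ a, ψ (a ^ ℓ) = a) ∧
      ∀ (y y' : LaurentSeries ↥A) (Nn : LaurentSeries L),
        qExpand L ℓ Nn =
          (-1) ^ (ℓ + 1) * normProd2 ℓ ζ (coeffMap A.subtype y) (coeffMap A.subtype y') →
        ∃ NR : LaurentSeries ↥A,
          coeffMap A.subtype NR = Nn ∧
          coeffMap (IsLocalRing.residue A) NR = (-1) ^ (ℓ + 1) *
            (coeffMap (frobenius (IsLocalRing.ResidueField A) ℓ)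
                (coeffMap (IsLocalRing.residue A) y) *
              (coeffMap ψ (coeffMap (IsLocalRing.residue A) y')) ^ ℓ) := by
  haveI := charP_residueField A (Fact.out : ℓ.Prime) hA
  haveI := isAlgClosed_residueField A
  haveI : NeZero ℓ := ⟨(Fact.out : ℓ.Prime).ne_zero⟩
  obtain ⟨ψ, hψ1, hψ2⟩ := exists_frobInv (k := IsLocalRing.ResidueField A) ℓ
  refine ⟨ψ, hψ1, hψ2, fun y y' Nn hN => ?_⟩
  have hℓpos : 0 < ℓ := (Fact.out : ℓ.Prime).pos
  have hζL : (ζ : L) ^ ℓ = 1 := by rw [← Units.val_pow_eq_pow_val, hζ, Units.val_one]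
  set ζA : (↥A)ˣ := unitOfPowEqOne A hℓpos hζL with hζA
  have hmap : Units.map ((A.subtype : ↥A →+* L) : ↥A →* L) ζA = ζ := Units.ext rfl
  have hN' : qExpand L ℓ Nn = (-1) ^ (ℓ + 1) * coeffMap A.subtype (normProd2 ℓ ζA y y') := by
    rw [normProd2_map, hmap]
    exact hN
  exact norm_descent2_sign ℓ A.subtype Subtype.val_injective
    (IsLocalRing.residue A) ψ hψ1 ζA (unitOfPowEqOne_pow A hℓpos hζL) y y' Nn hN'

end Inst

end Fermat.Agent.M48.KronCong5
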