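/-
M48 (P1), chapter [ESRED1] / KRON twin (helper5): **(POLY-β) and (NORM-β) for `Γ₁(M)`**: the `ℓ + 1`
conjugates of `FK K M ℓ` over `β (FK K M 1)` in `K((q))` and the Kronecker form of the characteristic
polynomial / norm of `α f`.  `Γ₁(M)`-twin of `ES/KRON/Conjugates11` + `ConjAlpha24`.

The Hecke correspondence of `J1Defs8` is `T_ℓ = β_* α^*`, so `T_ℓ (div f) = div (N_β (α f))`.  The
conjugates over the base embedding `(q ↦ q^ℓ) ∘ incl ∘ β⁻¹`: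
`σ_b = (q ↦ ζ^b q) ∘ incl` (`β h ↦ h(q^ℓ)`, `α f ↦ f(ζ^b q)`), `b < ℓ`, and
`σ_∞ = (q ↦ q^ℓ) ∘ W` (`β h ↦ h(q^ℓ)`, `α f ↦ (⟨ℓ⟩ f)(q^{ℓ²})`) with `W` the Atkin–Lehner embedding of
`AtkinLehner5.exists_W`.

* `charpolyAlong_beta_map` **(POLY-β)**:
  `((charpolyAlong β α hfin f).map incl).map (q ↦ q^ℓ) = kronProd2 ℓ ζ f (⟨ℓ⟩ f)`;
* `qExpand_normAlong_beta` **(NORM-β)**:
  `N_β (α f) (q^ℓ) = ∏_b f(ζ^b q) · (⟨ℓ⟩ f)(q^{ℓ²}) = normProd2 ℓ ζ f (⟨ℓ⟩ f)`.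

Hypotheses: `2 ≤ M`, `ℓ ∤ M` prime, `K` embedded in `ℂ`, `δ` the diamond automorphism `⟨ℓ⟩`
(`IsDiamondAut K M d δ`, `d ≡ ℓ`), `ζ` a primitive `ℓ`-th root of unity of `K`, and the degree
`finrankAlong K (beta1 K M ℓ) = ℓ + 1` (helper2's ES.HECKE twin).
-/
import Fermat.Agent.M48.AtkinLehner5
import Fermat.Agent.M48.KronCong5
import Fermat.Agent.ES.KRON.ConjAlpha24

set_option autoImplicit false
set_option linter.unusedSectionVars false
set_option linter.style.haveILetI false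
set_option synthInstance.maxHeartbeats 400000

open ModularCurve AlgebraicCurve Polynomial

noncomputable section

namespace Fermat.Agent.M48.ConjBeta5

open Fermat.Agent.M48.DictIface4 Fermat.Agent.M48.J1Defs8 Fermat.Agent.M48.DiamondAut5
open Fermat.Agent.M48.AtkinLehner5 Fermat.Agent.M48.KronCong5
open Fermat.Agent.ES.KRON.KronCong24 Fermat.Agent.ES.KRON.Conjugates11
open Fermat.Agent.ES.KRON.ConjAlpha24 Fermat.Agent.ES.HECKE.PointFormula28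

variable {K : Type*} [Field K] [Algebra ℚ K] {M ℓ : ℕ} [NeZero M] [NeZero ℓ]

/-- the coefficient at `q⁻¹` of the generator `j`. -/
theorem coeff_jGen_neg_one :
    ((jGen K M 1 (one_dvd M) : FK K M 1) : LaurentSeries K).coeff (-1) = 1 := by
  show (coeffEmb K (qExpand ℚ 1 jq)).coeff (-1) = 1
  rw [qExpand_one_apply, coeffEmb_coeff, coeff_jq_neg_one, map_one]

/-- **(POLY-β)** the characteristic polynomial of `α f` over `β (FK K M 1)`, read in `K((q))` through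
`q ↦ q^ℓ`, is the Kronecker product `∏_b (Y - f(ζ^b q)) · (Y - (⟨ℓ⟩ f)(q^{ℓ²}))`. -/
theorem charpolyAlong_beta_map (hM : 2 ≤ M) (hℓ : ℓ.Prime) (hℓM : ¬ ℓ ∣ M) (ι : K →+* ℂ)
    {d : (ZMod M)ˣ} (hd : (d : ZMod M) = (ℓ : ZMod M))
    {δ : FK K M 1 ≃ₐ[K] FK K M 1} (hδ : IsDiamondAut K M d δ)
    (ζ : Kˣ) (hζ : IsPrimitiveRoot ζ ℓ)
    (hfin : FiniteAlong K (beta1 K M ℓ)) (hn : finrankAlong K (beta1 K M ℓ) = ℓ + 1)
    (f : FK K M 1) :
    ((charpolyAlong (beta1 K M ℓ) (alpha1 K M ℓ) hfin f).map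
        (algebraMap (FK K M 1) (LaurentSeries K))).map (qExpand K ℓ) =
      kronProd2 ℓ ζ (f : LaurentSeries K) ((δ f : FK K M 1) : LaurentSeries K) := by
  obtain ⟨W, hWβ, hWα⟩ := exists_W hM hℓ hℓM ι hd hδ
  have hζℓ : ζ ^ ℓ = 1 := hζ.pow_eq_one
  set val : FK K M 1 →+* LaurentSeries K := algebraMap (FK K M 1) (LaurentSeries K) with hval
  set σ' : FK K M ℓ →+* LaurentSeries K := (qExpand K ℓ).comp W with hσ'def
  have hσ'β : ∀ h : FK K M 1, σ' (beta1 K M ℓ h) = qExpand K ℓ (h : LaurentSeries K) := by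
    intro h
    rw [hσ'def, RingHom.comp_apply, hWβ]
  have hσ'α : ∀ g : FK K M 1, σ' (alpha1 K M ℓ g) =
      qExpand K (ℓ ^ 2) ((δ g : FK K M 1) : LaurentSeries K) := by
    intro g
    rw [hσ'def, RingHom.comp_apply, hWα, qExpand_qExpand]
    exact qExpand_congr (sq ℓ).symm _
  set emb : ℕ → (FK K M ℓ →+* LaurentSeries K) := fun b =>
    (twistU (ζ ^ b)).comp (algebraMap (FK K M ℓ) (LaurentSeries K)) with hemb
  have hembβ : ∀ (b : ℕ) (h : FK K M 1),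
      emb b (beta1 K M ℓ h) = qExpand K ℓ (h : LaurentSeries K) := by
    intro b h
    show twistU (ζ ^ b) ((beta1 K M ℓ h : FK K M ℓ) : LaurentSeries K) = _
    rw [coe_beta1]
    exact twistU_qExpand ℓ _ (by rw [← pow_mul, mul_comm, pow_mul, hζℓ, one_pow]) _
  have hembα : ∀ (b : ℕ) (g : FK K M 1),
      emb b (alpha1 K M ℓ g) = twistU (ζ ^ b) (g : LaurentSeries K) := by
    intro b g
    show twistU (ζ ^ b) ((alpha1 K M ℓ g : FK K M ℓ) : LaurentSeries K) = _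
    rw [coe_alpha1]
  set σ : Fin (ℓ + 1) → (FK K M ℓ →+* LaurentSeries K) :=
    fun i => if (i : ℕ) < ℓ then emb (i : ℕ) else σ' with hσdef
  have hσlt : ∀ i : Fin (ℓ + 1), (i : ℕ) < ℓ → σ i = emb (i : ℕ) := by
    intro i hi
    simp only [hσdef, if_pos hi]
  have hσge : ∀ i : Fin (ℓ + 1), ¬ (i : ℕ) < ℓ → σ i = σ' := by
    intro i hi
    simp only [hσdef, if_neg hi]
  have hσ : ∀ (i : Fin (ℓ + 1)) (a : FK K M 1),
      σ i (beta1 K M ℓ a) = ((qExpand K ℓ).comp val) a := by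
    intro i a
    rw [RingHom.comp_apply]
    by_cases hi : (i : ℕ) < ℓ
    · rw [hσlt i hi, hembβ]
      rfl
    · rw [hσge i hi, hσ'β]
      rfl
  have hℓ2 : ¬ ((ℓ ^ 2 : ℕ) : ℤ) ∣ (-1 : ℤ) := by
    intro h
    have h1 : ((ℓ ^ 2 : ℕ) : ℤ) ∣ 1 := (dvd_neg).mp h
    have h2 : (ℓ ^ 2 : ℕ) ∣ 1 := by exact_mod_cast h1
    have h3 : ℓ ^ 2 = 1 := Nat.dvd_one.mp h2
    have h4 : ℓ = 1 := by
      rcases Nat.pow_eq_one.mp h3 with h | h
      · exact h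
      · exact absurd h (by norm_num)
    exact hℓ.one_lt.ne' h4
  set jF : FK K M 1 := jGen K M 1 (one_dvd M) with hjF
  have hcoeff' : (σ' (alpha1 K M ℓ jF)).coeff (-1) = 0 := by
    rw [hσ'α]
    exact qExpand_coeff_of_not_dvd (ℓ ^ 2) _ hℓ2
  have hcoeff : ∀ b : ℕ, (emb b (alpha1 K M ℓ jF)).coeff (-1) =
      (((ζ ^ b) ^ (-1 : ℤ) : Kˣ) : K) := by
    intro b
    rw [hembα, twistU_coeff, hjF, coeff_jGen_neg_one, mul_one]
  have hinj : Function.Injective σ := by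
    intro i j hij
    have hval' : (σ i (alpha1 K M ℓ jF)).coeff (-1) = (σ j (alpha1 K M ℓ jF)).coeff (-1) := by
      rw [hij]
    by_cases hi : (i : ℕ) < ℓ <;> by_cases hj : (j : ℕ) < ℓ
    · rw [hσlt i hi, hσlt j hj, hcoeff, hcoeff] at hval'
      have h1 : (ζ ^ (i : ℕ)) ^ (-1 : ℤ) = (ζ ^ (j : ℕ)) ^ (-1 : ℤ) := Units.ext hval'
      have h2 : ζ ^ (i : ℕ) = ζ ^ (j : ℕ) := by
        rw [zpow_neg_one, zpow_neg_one] at h1
        exact inv_injective h1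
      exact Fin.ext (hζ.pow_inj hi hj h2)
    · rw [hσlt i hi, hσge j hj, hcoeff, hcoeff'] at hval'
      exact absurd hval' (Units.ne_zero _)
    · rw [hσge i hi, hσlt j hj, hcoeff, hcoeff'] at hval'
      exact absurd hval'.symm (Units.ne_zero _)
    · have hi' : (i : ℕ) = ℓ := le_antisymm (Nat.lt_succ_iff.mp i.isLt) (not_lt.mp hi)
      have hj' : (j : ℕ) = ℓ := le_antisymm (Nat.lt_succ_iff.mp j.isLt) (not_lt.mp hj)
      exact Fin.ext (hi'.trans hj'.symm)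
  rw [Polynomial.map_map,
    charpolyAlong_map_eq_prod (beta1 K M ℓ) (alpha1 K M ℓ) hfin hn
      ((qExpand K ℓ).comp val) σ hσ hinj f,
    Fin.prod_univ_castSucc, kronProd2]
  congr 1
  · rw [← Fin.prod_univ_eq_prod_range (fun b => X - Polynomial.C (twistU (ζ ^ b)
      (f : LaurentSeries K))) ℓ]
    refine Finset.prod_congr rfl fun i _ => ?_
    have hi : ((Fin.castSucc i : Fin (ℓ + 1)) : ℕ) < ℓ := by
      rw [Fin.val_castSucc]
      exact i.isLt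
    rw [hσlt _ hi, hembα, Fin.val_castSucc]
  · have hl : ¬ ((Fin.last ℓ : Fin (ℓ + 1)) : ℕ) < ℓ := by
      rw [Fin.val_last]
      exact lt_irrefl ℓ
    rw [hσge _ hl, hσ'α]

/-- **(NORM-β)**: `N_β (α f) (q^ℓ) = ∏_b f(ζ^b q) · (⟨ℓ⟩ f)(q^{ℓ²})`: the `q`-expansion of the function
whose divisor is `T_ℓ (div f)`, `T_ℓ = β_* α^*`. -/
theorem qExpand_normAlong_beta (hM : 2 ≤ M) (hℓ : ℓ.Prime) (hℓM : ¬ ℓ ∣ M) (ι : K →+* ℂ)
    {d : (ZMod M)ˣ} (hd : (d : ZMod M) = (ℓ : ZMod M))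
    {δ : FK K M 1 ≃ₐ[K] FK K M 1} (hδ : IsDiamondAut K M d δ)
    (ζ : Kˣ) (hζ : IsPrimitiveRoot ζ ℓ)
    (hfin : FiniteAlong K (beta1 K M ℓ)) (hn : finrankAlong K (beta1 K M ℓ) = ℓ + 1)
    (f : FK K M 1) :
    qExpand K ℓ ((normAlong (beta1 K M ℓ) (alpha1 K M ℓ f) : FK K M 1) : LaurentSeries K) =
      normProd2 ℓ ζ (f : LaurentSeries K) ((δ f : FK K M 1) : LaurentSeries K) := by
  have hpoly := charpolyAlong_beta_map hM hℓ hℓM ι hd hδ ζ hζ hfin hn f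
  have h0 := congrArg (fun p => p.coeff 0) hpoly
  simp only [Polynomial.coeff_map] at h0
  rw [kronProd2_coeff_zero] at h0
  rw [normAlong_eq_coeff_zero (beta1 K M ℓ) (alpha1 K M ℓ) hfin f, hn]
  have hs : ((-1 : LaurentSeries K) ^ (ℓ + 1)) * (-1) ^ (ℓ + 1) = 1 := by
    rw [← mul_pow, neg_one_mul, neg_neg, one_pow]
  show qExpand K ℓ (algebraMap (FK K M 1) (LaurentSeries K)
    ((-1) ^ (ℓ + 1) * (charpolyAlong (beta1 K M ℓ) (alpha1 K M ℓ) hfin f).coeff 0)) = _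
  rw [map_mul, map_mul, h0, map_pow, map_pow, map_neg, map_neg, map_one, map_one, ← mul_assoc, hs,
    one_mul]

end Fermat.Agent.M48.ConjBeta5
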