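/-
M48 (P1), chapter [ESRED1] / KRON twin (helper5): **the CONCRETE Kronecker identity (3) of (ES-div)
for `Γ₁(M)`**, twin of `ES/KRON/KronMain24`:

  `r_* (T_ℓ (div f)) = Fr_* (div f~) + ℓ · (Fr⁻¹ ⟨ℓ⟩~)_* (div f~)`

for every `f ∈ FK ℚbar M 1` with `A`-integral `q`-expansion and non-zero reduction `f~` in
`Fk = QModel8.fieldG10C k M 1`, against helper8's `RedSpec8.IsPlaceRed A π FB Fk r` (R2),
`T_ℓ = β_* α^* = Divisor.correspondence (alpha1 ℚbar M ℓ) (beta1 ℚbar M ℓ) hα hβ`, ANY semilinear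
automorphism `frS` of `Fk` acting coefficientwise by the Frobenius of `k`
(`GaloisR3G9.IsCoeffSemi frS (frobeniusEquiv k ℓ)`), the diamond automorphism `δ = ⟨ℓ⟩` of
`FK ℚbar M 1` and ANY `k`-automorphism `δt` of `Fk` compatible with `δ` under reduction:

  `(Hδ) DiaRed M A π δ δt` : an `A`-integral `f` with `f~ ∈ Fk` has `δ f` `A`-integral with
                            reduction `δt f~`.

Ingredients: `PointFormula28.correspondence_eq_ord_norm` (`T_ℓ div f = div N_β (α f)`),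
`ConjBeta5.qExpand_normAlong_beta` (`N_β (α f) (q^ℓ) = ∏_b f(ζ^b q) · (⟨ℓ⟩ f)(q^{ℓ²})`),
`KronCong5.norm_descent2` (Kronecker at `Y = 0` with a diamond), (R2) for `N_β (α f)`,
`SemilinearAut.ord_smul`.

* `exists_norm_reduction1`, `map_hecke_principal1` : the identity (3) on the divisor of one function;
* `princ1`, `redHecke1`, `setup1 : EsDivAbs5.Setup2 r Fr V ℓ (r_* T_ℓ) princ1` with
  `Fr = frS • ·`, `V = (frS⁻¹ * ofAlgAut δt) • ·`;
* `es_div_of_charts1` : (ES-div) on all divisors from a cover by `Chart2`s;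
* `es_div_of_charts1'` : the same with `V = (ofAlgAut δt * frS⁻¹) • ·` when `δt` commutes with `frS`.
-/
import Fermat.Agent.M48.ConjBeta5
import Fermat.Agent.M48.EsDivAbs5
import Fermat.Agent.M48.QModel8
import Fermat.Agent.M48.RedSpec8
import Fermat.Agent.M48.GaloisR3G9
import Fermat.Agent.ES.KRON.KronMain24

set_option autoImplicit false
set_option linter.unusedSectionVars false
set_option linter.style.haveILetI false
set_option synthInstance.maxHeartbeats 400000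

open ModularCurve AlgebraicCurve HahnSeries IntermediateField

noncomputable section

namespace Fermat.Agent.M48.KronMain5

open Fermat.Agent.X0
open Fermat.Agent.M48.J1Defs8 Fermat.Agent.M48.QModel8 Fermat.Agent.M48.RedSpec8
open Fermat.Agent.M48.GaloisR3G9 Fermat.Agent.M48.KronCong5 Fermat.Agent.M48.ConjBeta5
open Fermat.Agent.ES.KRON.KronInst10
open Fermat.Agent.ES.HECKE.PointFormula28

/-! ### The inverse of a coefficientwise semilinear automorphism -/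

section CoeffSemi

variable {k : Type*} [Field k] {Fk : IntermediateField k (LaurentSeries k)}

/-- the inverse of the coefficientwise action of `ψ` is the coefficientwise action of `ψ⁻¹`. -/
theorem isCoeffSemi_inv {h : SemilinearAut k ↥Fk} {ψ : k ≃+* k} (hh : IsCoeffSemi h ψ) :
    IsCoeffSemi h⁻¹ ψ.symm := by
  intro y
  have h1 := hh (h⁻¹ • y)
  rw [smul_inv_smul] at h1
  rw [h1, coeffMap_coeffMap]
  have : (ψ.symm : k →+* k).comp (ψ : k →+* k) = RingHom.id k :=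
    RingHom.ext fun a => ψ.symm_apply_apply a
  rw [this, coeffMap_id]

end CoeffSemi

/-! ### The reduced norm -/

section Norm

variable (M ℓ : ℕ) [NeZero M] [NeZero ℓ] [hℓ : Fact ℓ.Prime]
variable (A : ValuationSubring Kbar) {k : Type*} [Field k] [CharP k ℓ] [PerfectField k]
  (π : A →+* k)

/-- **The reduced norm**: for `f = coeffMap A.subtype y ∈ FK ℚbar M 1` and `⟨ℓ⟩ f = coeffMap
A.subtype y'`, the function `N_β (α f)` (whose divisor is `T_ℓ (div f)`) has `A`-integral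
`q`-expansion `NR`, with reduction `f~^φ · ((⟨ℓ⟩ f)~^{φ⁻¹})^ℓ`. -/
theorem exists_norm_reduction1 (hM : 2 ≤ M) (hℓM : ¬ ℓ ∣ M)
    {d : (ZMod M)ˣ} (hd : (d : ZMod M) = (ℓ : ZMod M))
    {δ : FK Kbar M 1 ≃ₐ[Kbar] FK Kbar M 1} (hδ : IsDiamondAut Kbar M d δ)
    (hfin : FiniteAlong Kbar (beta1 Kbar M ℓ)) (hn : finrankAlong Kbar (beta1 Kbar M ℓ) = ℓ + 1)
    (y y' : LaurentSeries A) (hy : coeffMap A.subtype y ∈ FK Kbar M 1)
    (hy' : coeffMap A.subtype y' =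
      ((δ (⟨coeffMap A.subtype y, hy⟩ : FK Kbar M 1) : FK Kbar M 1) : LaurentSeries Kbar)) :
    ∃ NR : LaurentSeries A,
      coeffMap A.subtype NR =
        ((normAlong (beta1 Kbar M ℓ)
          (alpha1 Kbar M ℓ (⟨coeffMap A.subtype y, hy⟩ : FK Kbar M 1)) : FK Kbar M 1) :
            LaurentSeries Kbar) ∧
      coeffMap π NR = coeffMap (frobenius k ℓ) (coeffMap π y) *
        (coeffMap ((frobeniusEquiv k ℓ).symm : k →+* k) (coeffMap π y')) ^ ℓ := by
  obtain ⟨ζ, hζ1, hζp⟩ := exists_primitiveRoot_unit (L := Kbar) ℓ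
  have hℓpos : 0 < ℓ := hℓ.out.pos
  have hζL : (ζ : Kbar) ^ ℓ = 1 := by rw [← Units.val_pow_eq_pow_val, hζ1, Units.val_one]
  set ζA : (↥A)ˣ := unitOfPowEqOne A hℓpos hζL with hζA
  have hmap : Units.map ((A.subtype : ↥A →+* Kbar) : ↥A →* Kbar) ζA = ζ := Units.ext rfl
  have hψ : ∀ a : k, ((frobeniusEquiv k ℓ).symm : k →+* k) a ^ ℓ = a := fun a =>
    frobeniusEquiv_symm_pow_p k ℓ a
  have hq := qExpand_normAlong_beta hM hℓ.out hℓM iotaK hd hδ ζ
    (IsPrimitiveRoot.coe_units_iff.mp hζp) hfin hn (⟨coeffMap A.subtype y, hy⟩ : FK Kbar M 1)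
  have hN' : qExpand Kbar ℓ ((normAlong (beta1 Kbar M ℓ)
      (alpha1 Kbar M ℓ (⟨coeffMap A.subtype y, hy⟩ : FK Kbar M 1)) : FK Kbar M 1) :
        LaurentSeries Kbar) = coeffMap A.subtype (normProd2 ℓ ζA y y') := by
    rw [normProd2_map, hmap, hy']
    exact hq
  obtain ⟨NR, -, h2, h3⟩ := norm_descent2 ℓ A.subtype Subtype.val_injective π
    ((frobeniusEquiv k ℓ).symm : k →+* k) hψ ζA (unitOfPowEqOne_pow A hℓpos hζL) y y' _ hN'
  exact ⟨NR, h2, h3⟩

end Norm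

/-! ### The compatibility of the two diamonds -/

section DiaRed

variable (M : ℕ) [NeZero M]
variable (A : ValuationSubring Kbar) {k : Type*} [Field k] (π : A →+* k)

/-- **(Hδ)**: `δt` is the reduction of `δ`: an `A`-integral `f ∈ FK ℚbar M 1` with reduction
`f~ ∈ Fk` has `δ f` `A`-integral, with reduction `δt f~`. -/
def DiaRed (δ : FK Kbar M 1 ≃ₐ[Kbar] FK Kbar M 1)
    (δt : fieldG10C k M 1 ≃ₐ[k] fieldG10C k M 1) : Prop :=
  ∀ (y : LaurentSeries A) (hy : coeffMap A.subtype y ∈ FK Kbar M 1)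
    (hyk : coeffMap π y ∈ fieldG10C k M 1),
    ∃ y' : LaurentSeries A,
      coeffMap A.subtype y' =
        ((δ (⟨coeffMap A.subtype y, hy⟩ : FK Kbar M 1) : FK Kbar M 1) : LaurentSeries Kbar) ∧
      coeffMap π y' =
        ((δt (⟨coeffMap π y, hyk⟩ : fieldG10C k M 1) : fieldG10C k M 1) : LaurentSeries k)

end DiaRed

/-! ### The Kronecker identity on the divisor of a function -/

section Kron

variable (M ℓ : ℕ) [NeZero M] [NeZero ℓ] [hℓ : Fact ℓ.Prime]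
variable (A : ValuationSubring Kbar) {k : Type*} [Field k] [CharP k ℓ] [PerfectField k]
  (π : A →+* k)

/-- **The Kronecker identity (3), concrete form**:
`r_* (T_ℓ (div f)) = Fr_* (div f~) + ℓ · (Fr⁻¹ δt)_* (div f~)`, coefficientwise. -/
theorem map_hecke_principal1 (hM : 2 ≤ M) (hℓM : ¬ ℓ ∣ M)
    {d : (ZMod M)ˣ} (hd : (d : ZMod M) = (ℓ : ZMod M))
    {δ : FK Kbar M 1 ≃ₐ[Kbar] FK Kbar M 1} (hδ : IsDiamondAut Kbar M d δ)
    (hα : (alpha1 Kbar M ℓ).toRingHom.IsIntegral) (hβ : (beta1 Kbar M ℓ).toRingHom.IsIntegral)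
    [HasPrincipalDivisors Kbar (FK Kbar M ℓ)]
    (hfin : FiniteAlong Kbar (beta1 Kbar M ℓ)) (hn : finrankAlong Kbar (beta1 Kbar M ℓ) = ℓ + 1)
    (hN : NormFormulaAlong Kbar (beta1 Kbar M ℓ) hfin)
    {r : Place Kbar (FK Kbar M 1) → Place k (fieldG10C k M 1)}
    (hr : IsPlaceRed A π (FK Kbar M 1) (fieldG10C k M 1) r)
    {frS : SemilinearAut k (fieldG10C k M 1)} (hfr : IsCoeffSemi frS (frobeniusEquiv k ℓ))
    (δt : fieldG10C k M 1 ≃ₐ[k] fieldG10C k M 1)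
    (y y' : LaurentSeries A) (hy : coeffMap A.subtype y ∈ FK Kbar M 1)
    (hyk : coeffMap π y ∈ fieldG10C k M 1) (hne : coeffMap π y ≠ 0)
    (hy' : coeffMap A.subtype y' =
      ((δ (⟨coeffMap A.subtype y, hy⟩ : FK Kbar M 1) : FK Kbar M 1) : LaurentSeries Kbar))
    (hy'k : coeffMap π y' =
      ((δt (⟨coeffMap π y, hyk⟩ : fieldG10C k M 1) : fieldG10C k M 1) : LaurentSeries k))
    (D : Divisor Kbar (FK Kbar M 1))
    (hD : ∀ P, D P = P.ord (⟨coeffMap A.subtype y, hy⟩ : FK Kbar M 1))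
    (Q : Place k (fieldG10C k M 1)) :
    Finsupp.mapDomain r
        (Divisor.correspondence (alpha1 Kbar M ℓ) (beta1 Kbar M ℓ) hα hβ D) Q =
      (frS⁻¹ • Q).ord (⟨coeffMap π y, hyk⟩ : fieldG10C k M 1) +
        (ℓ : ℤ) * ((frS⁻¹ * SemilinearAut.ofAlgAut δt)⁻¹ • Q).ord
          (⟨coeffMap π y, hyk⟩ : fieldG10C k M 1) := by
  set f : FK Kbar M 1 := ⟨coeffMap A.subtype y, hy⟩ with hf
  set g : ↥(fieldG10C k M 1) := ⟨coeffMap π y, hyk⟩ with hg
  have hf0 : f ≠ 0 := by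
    intro h
    apply hne
    have h1 : coeffMap A.subtype y = 0 := congrArg Subtype.val h
    have h2 : y = 0 := by
      ext n
      have := congrArg (fun z => z.coeff n) h1
      simpa using this
    rw [h2, map_zero]
  have hg0 : g ≠ 0 := fun h => hne (congrArg Subtype.val h)
  obtain ⟨NR, hNR1, hNR2⟩ :=
    exists_norm_reduction1 M ℓ A π hM hℓM hd hδ hfin hn y y' hy hy'
  have hTD : ∀ v, Divisor.correspondence (alpha1 Kbar M ℓ) (beta1 Kbar M ℓ) hα hβ D v =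
      v.ord (normAlong (beta1 Kbar M ℓ) (alpha1 Kbar M ℓ f)) := fun v =>
    correspondence_eq_ord_norm (alpha1 Kbar M ℓ) (beta1 Kbar M ℓ) hα hβ hfin hN hf0 hD v
  have hNRmem : coeffMap A.subtype NR ∈ FK Kbar M 1 := by
    rw [hNR1]
    exact Subtype.property _
  have hinv := isCoeffSemi_inv hfr
  have hNRk_eq : coeffMap π NR =
      ((frS • g * (frS⁻¹ • δt g) ^ ℓ : ↥(fieldG10C k M 1)) : LaurentSeries k) := by
    rw [hNR2, hy'k]
    push_cast
    rw [hfr g, hinv (δt g)]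
    rfl
  have hNRk : coeffMap π NR ∈ fieldG10C k M 1 := by
    rw [hNRk_eq]
    exact Subtype.property _
  have hδg0 : δt g ≠ 0 := by
    rw [Ne, map_eq_zero_iff δt δt.injective]
    exact hg0
  have hprod0 : frS • g * (frS⁻¹ • δt g) ^ ℓ ≠ 0 := by
    refine mul_ne_zero ?_ (pow_ne_zero _ ?_)
    · rw [Ne, SemilinearAut.smul_def, map_eq_zero_iff _ (RingEquiv.injective _)]
      exact hg0
    · rw [Ne, SemilinearAut.smul_def, map_eq_zero_iff _ (RingEquiv.injective _)]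
      exact hδg0
  have hne' : coeffMap π NR ≠ 0 := by
    rw [hNRk_eq]
    intro h0
    exact hprod0 (Subtype.ext h0)
  have h := hr.2 NR hNRmem hNRk hne'
    (Divisor.correspondence (alpha1 Kbar M ℓ) (beta1 Kbar M ℓ) hα hβ D)
    (fun P => by
      rw [hTD P]
      congr 1
      exact Subtype.ext hNR1.symm) Q
  rw [h]
  have hprod : (⟨coeffMap π NR, hNRk⟩ : ↥(fieldG10C k M 1)) =
      frS • g * (frS⁻¹ • δt g) ^ ℓ := Subtype.ext hNRk_eq
  rw [hprod, Place.ord_mul _ (left_ne_zero_of_mul hprod0) (right_ne_zero_of_mul hprod0),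
    Fermat.Agent.X0.FF.ord_pow]
  have h1 : Q.ord (frS • g) = (frS⁻¹ • Q).ord g := by
    have := SemilinearAut.ord_smul frS (frS⁻¹ • Q) g
    rwa [smul_inv_smul] at this
  have h2 : Q.ord (frS⁻¹ • δt g) = ((frS⁻¹ * SemilinearAut.ofAlgAut δt)⁻¹ • Q).ord g := by
    have := SemilinearAut.ord_smul (frS⁻¹ * SemilinearAut.ofAlgAut δt)
      ((frS⁻¹ * SemilinearAut.ofAlgAut δt)⁻¹ • Q) g
    rw [smul_inv_smul, mul_smul, SemilinearAut.ofAlgAut_smul] at this
    exact this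
  rw [h1, h2]

end Kron

/-! ### The global hypotheses of the abstract (ES-div) -/

section SetupInst

open Fermat.Agent.M48.EsDivAbs5
open Fermat.Agent.ES.KRON.KronMain24 (mapDomain_nonneg sum_mapDomain degree_eq_sum)

variable (M ℓ : ℕ) [NeZero M] [NeZero ℓ] [hℓ : Fact ℓ.Prime]
variable (A : ValuationSubring Kbar) {k : Type*} [Field k] [CharP k ℓ] [PerfectField k]
  (π : A →+* k)

/-- `princ1 D D'`: `D = div f`, `D' = div f~` for an `A`-integral `f ∈ FK ℚbar M 1` with non-zero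
reduction in `fieldG10C k M 1`. -/
def princ1 (D : Divisor Kbar (FK Kbar M 1)) (D' : Divisor k (fieldG10C k M 1)) : Prop :=
  ∃ (y : LaurentSeries A) (hy : coeffMap A.subtype y ∈ FK Kbar M 1)
    (hyk : coeffMap π y ∈ fieldG10C k M 1), coeffMap π y ≠ 0 ∧
    (∀ P, D P = P.ord (⟨coeffMap A.subtype y, hy⟩ : FK Kbar M 1)) ∧
    ∀ Q, D' Q = Q.ord (⟨coeffMap π y, hyk⟩ : fieldG10C k M 1)

/-- `L = r_* ∘ T_ℓ`, `T_ℓ = β_* α^*`. -/
def redHecke1 (hα : (alpha1 Kbar M ℓ).toRingHom.IsIntegral)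
    (hβ : (beta1 Kbar M ℓ).toRingHom.IsIntegral) [HasPrincipalDivisors Kbar (FK Kbar M ℓ)]
    (r : Place Kbar (FK Kbar M 1) → Place k (fieldG10C k M 1)) :
    Divisor Kbar (FK Kbar M 1) →+ Divisor k (fieldG10C k M 1) :=
  (Finsupp.mapDomain.addMonoidHom r).comp
    (Divisor.correspondence (alpha1 Kbar M ℓ) (beta1 Kbar M ℓ) hα hβ)

theorem redHecke1_apply (hα : (alpha1 Kbar M ℓ).toRingHom.IsIntegral)
    (hβ : (beta1 Kbar M ℓ).toRingHom.IsIntegral) [HasPrincipalDivisors Kbar (FK Kbar M ℓ)]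
    (r : Place Kbar (FK Kbar M 1) → Place k (fieldG10C k M 1)) (D : Divisor Kbar (FK Kbar M 1)) :
    redHecke1 M ℓ hα hβ r D = Finsupp.mapDomain r
      (Divisor.correspondence (alpha1 Kbar M ℓ) (beta1 Kbar M ℓ) hα hβ D) := rfl

/-- **The global hypotheses of the abstract (ES-div) with a diamond** for `r_* ∘ T_ℓ`, from (R2). -/
theorem setup1 (hM : 2 ≤ M) (hℓM : ¬ ℓ ∣ M)
    {d : (ZMod M)ˣ} (hd : (d : ZMod M) = (ℓ : ZMod M))
    {δ : FK Kbar M 1 ≃ₐ[Kbar] FK Kbar M 1} (hδ : IsDiamondAut Kbar M d δ)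
    (hα : (alpha1 Kbar M ℓ).toRingHom.IsIntegral) (hβ : (beta1 Kbar M ℓ).toRingHom.IsIntegral)
    [HasPrincipalDivisors Kbar (FK Kbar M ℓ)]
    (hFI : FundamentalIdentityAlong Kbar (alpha1 Kbar M ℓ) hα)
    (hnα : finrankAlong Kbar (alpha1 Kbar M ℓ) = ℓ + 1)
    (hfin : FiniteAlong Kbar (beta1 Kbar M ℓ)) (hn : finrankAlong Kbar (beta1 Kbar M ℓ) = ℓ + 1)
    (hN : NormFormulaAlong Kbar (beta1 Kbar M ℓ) hfin)
    (hdeg : ∀ P : Place Kbar (FK Kbar M 1), P.deg = 1)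
    {r : Place Kbar (FK Kbar M 1) → Place k (fieldG10C k M 1)}
    (hr : IsPlaceRed A π (FK Kbar M 1) (fieldG10C k M 1) r)
    {frS : SemilinearAut k (fieldG10C k M 1)} (hfr : IsCoeffSemi frS (frobeniusEquiv k ℓ))
    {δt : fieldG10C k M 1 ≃ₐ[k] fieldG10C k M 1} (hδt : DiaRed M A π δ δt) :
    Setup2 r (MulAction.toPerm frS) (MulAction.toPerm (frS⁻¹ * SemilinearAut.ofAlgAut δt)) ℓ
      (redHecke1 M ℓ hα hβ r) (princ1 M A π) where
  pos := by
    classical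
    intro p y
    show 0 ≤ Finsupp.mapDomain r
      (Divisor.correspondence (alpha1 Kbar M ℓ) (beta1 Kbar M ℓ) hα hβ (Finsupp.single p 1)) y
    refine mapDomain_nonneg r _ (fun v => ?_) y
    rw [correspondence_single, Finsupp.finsetSum_apply]
    refine Finset.sum_nonneg fun w _ => ?_
    rw [Finsupp.single_apply]
    split_ifs
    · positivity
    · exact le_rfl
  deg := by
    intro p
    show (Finsupp.mapDomain r (Divisor.correspondence (alpha1 Kbar M ℓ) (beta1 Kbar M ℓ) hα hβ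
      (Finsupp.single p 1))).sum (fun _ n => n) = _
    rw [sum_mapDomain, ← degree_eq_sum hdeg,
      degree_correspondence_single _ _ hα hβ hFI, hnα, hdeg]
    push_cast
    ring
  red := by
    rintro D D' ⟨y, hy, hyk, hne, hD, hD'⟩
    ext Q
    rw [hD' Q]
    exact hr.2 y hy hyk hne D hD Q
  kron := by
    rintro D D' ⟨y, hy, hyk, hne, hD, hD'⟩ Q
    obtain ⟨y', hy', hy'k⟩ := hδt y hy hyk
    rw [hD', hD']
    exact map_hecke_principal1 M ℓ A π hM hℓM hd hδ hα hβ hfin hn hN hr hfr δt y y' hy hyk hne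
      hy' hy'k D hD Q

/-- **(ES-div) for `Γ₁(M)`, concrete form modulo the chart data**:
`r_* (T_ℓ D) = (Fr)_* (r_* D) + ℓ · (Fr⁻¹ δt)_* (r_* D)`. -/
theorem es_div_of_charts1 (hM : 2 ≤ M) (hℓM : ¬ ℓ ∣ M)
    {d : (ZMod M)ˣ} (hd : (d : ZMod M) = (ℓ : ZMod M))
    {δ : FK Kbar M 1 ≃ₐ[Kbar] FK Kbar M 1} (hδ : IsDiamondAut Kbar M d δ)
    (hα : (alpha1 Kbar M ℓ).toRingHom.IsIntegral) (hβ : (beta1 Kbar M ℓ).toRingHom.IsIntegral)
    [HasPrincipalDivisors Kbar (FK Kbar M ℓ)]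
    (hFI : FundamentalIdentityAlong Kbar (alpha1 Kbar M ℓ) hα)
    (hnα : finrankAlong Kbar (alpha1 Kbar M ℓ) = ℓ + 1)
    (hfin : FiniteAlong Kbar (beta1 Kbar M ℓ)) (hn : finrankAlong Kbar (beta1 Kbar M ℓ) = ℓ + 1)
    (hN : NormFormulaAlong Kbar (beta1 Kbar M ℓ) hfin)
    (hdeg : ∀ P : Place Kbar (FK Kbar M 1), P.deg = 1)
    {r : Place Kbar (FK Kbar M 1) → Place k (fieldG10C k M 1)}
    (hr : IsPlaceRed A π (FK Kbar M 1) (fieldG10C k M 1) r)
    {frS : SemilinearAut k (fieldG10C k M 1)} (hfr : IsCoeffSemi frS (frobeniusEquiv k ℓ))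
    {δt : fieldG10C k M 1 ≃ₐ[k] fieldG10C k M 1} (hδt : DiaRed M A π δ δt)
    {ι : Type*} {C : ι → Set (Place Kbar (FK Kbar M 1))}
    {Dinf : ι → Divisor Kbar (FK Kbar M 1)} {Dinf' : ι → Divisor k (fieldG10C k M 1)}
    (hC : ∀ i, Chart2 r (MulAction.toPerm frS)
      (MulAction.toPerm (frS⁻¹ * SemilinearAut.ofAlgAut δt)) (princ1 M A π)
      (C i) (Dinf i) (Dinf' i))
    (hcov : ∀ P, ∃ i, P ∈ C i) (D : Divisor Kbar (FK Kbar M 1)) :
    Finsupp.mapDomain r (Divisor.correspondence (alpha1 Kbar M ℓ) (beta1 Kbar M ℓ) hα hβ D) =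
      Finsupp.mapDomain (fun Q => frS • Q) (Finsupp.mapDomain r D) +
        (ℓ : ℤ) • Finsupp.mapDomain (fun Q => (frS⁻¹ * SemilinearAut.ofAlgAut δt) • Q)
          (Finsupp.mapDomain r D) :=
  es_div_all (setup1 M ℓ A π hM hℓM hd hδ hα hβ hFI hnα hfin hn hN hdeg hr hfr hδt) hC hcov D

/-- **(ES-div) for `Γ₁(M)`, commuted form** `V = δt Fr⁻¹`, when `δt` commutes with the coefficientwise
Frobenius. -/
theorem es_div_of_charts1' (hM : 2 ≤ M) (hℓM : ¬ ℓ ∣ M)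
    {d : (ZMod M)ˣ} (hd : (d : ZMod M) = (ℓ : ZMod M))
    {δ : FK Kbar M 1 ≃ₐ[Kbar] FK Kbar M 1} (hδ : IsDiamondAut Kbar M d δ)
    (hα : (alpha1 Kbar M ℓ).toRingHom.IsIntegral) (hβ : (beta1 Kbar M ℓ).toRingHom.IsIntegral)
    [HasPrincipalDivisors Kbar (FK Kbar M ℓ)]
    (hFI : FundamentalIdentityAlong Kbar (alpha1 Kbar M ℓ) hα)
    (hnα : finrankAlong Kbar (alpha1 Kbar M ℓ) = ℓ + 1)
    (hfin : FiniteAlong Kbar (beta1 Kbar M ℓ)) (hn : finrankAlong Kbar (beta1 Kbar M ℓ) = ℓ + 1)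
    (hN : NormFormulaAlong Kbar (beta1 Kbar M ℓ) hfin)
    (hdeg : ∀ P : Place Kbar (FK Kbar M 1), P.deg = 1)
    {r : Place Kbar (FK Kbar M 1) → Place k (fieldG10C k M 1)}
    (hr : IsPlaceRed A π (FK Kbar M 1) (fieldG10C k M 1) r)
    {frS : SemilinearAut k (fieldG10C k M 1)} (hfr : IsCoeffSemi frS (frobeniusEquiv k ℓ))
    {δt : fieldG10C k M 1 ≃ₐ[k] fieldG10C k M 1} (hδt : DiaRed M A π δ δt)
    (hcomm : Commute (SemilinearAut.ofAlgAut δt) frS)
    {ι : Type*} {C : ι → Set (Place Kbar (FK Kbar M 1))}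
    {Dinf : ι → Divisor Kbar (FK Kbar M 1)} {Dinf' : ι → Divisor k (fieldG10C k M 1)}
    (hC : ∀ i, Chart2 r (MulAction.toPerm frS)
      (MulAction.toPerm (frS⁻¹ * SemilinearAut.ofAlgAut δt)) (princ1 M A π)
      (C i) (Dinf i) (Dinf' i))
    (hcov : ∀ P, ∃ i, P ∈ C i) (D : Divisor Kbar (FK Kbar M 1)) :
    Finsupp.mapDomain r (Divisor.correspondence (alpha1 Kbar M ℓ) (beta1 Kbar M ℓ) hα hβ D) =
      Finsupp.mapDomain (fun Q => frS • Q) (Finsupp.mapDomain r D) +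
        (ℓ : ℤ) • Finsupp.mapDomain (fun Q => (SemilinearAut.ofAlgAut δt * frS⁻¹) • Q)
          (Finsupp.mapDomain r D) := by
  rw [hcomm.inv_right.eq]
  exact es_div_of_charts1 M ℓ A π hM hℓM hd hδ hα hβ hFI hnα hfin hn hN hdeg hr hfr hδt hC hcov D

end SetupInst

end Fermat.Agent.M48.KronMain5
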