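/-
M48 (P1), chapter [ESRED1] / KRON twin (helper5): **(ES-div) FOR `Γ₁(M)`, FINAL FORM, from a
`TwoCharts8.TwoCharts`**: twin of `ES/KRON/EsDivMain24` + `EsDivFinal24`.

Part 1 (generic in `(L, A, F, Ft)`): the two `EsDivAbs5.Chart2`s (charts stable under TWO bijections
`Fr`, `V` of the places of the special fibre) of a `TwoCharts` and their cover
(`charts2_of_twoCharts`; the bridge `ChartBridge24.chart_of_bridge` is used as it is).

Part 2 (concrete: `L = ℚbar`, `F = FK ℚbar M 1`, `Ft = QModel8.fieldG10C κ_A M 1`):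
* `es_div_main1` : `r_* T_ℓ = (Fr_* + ℓ (Fr⁻¹ δt)_*) r_*` on divisors for `r = T.r`,
  `T_ℓ = β_* α^* = Divisor.correspondence (alpha1 ℚbar M ℓ) (beta1 ℚbar M ℓ) hα hβ`;
* **`es_div_final1`** : the same against helper9's `RedZG9.ChartInputsG` (the SAME inputs that give
  (R2) `RedZG9.isPlaceRed_twoCharts'`), with all the Hecke inputs discharged by helper2's
  `Hecke1Deg2`, in the form
  `mapDomain T.r (T_ℓ D) = mapDomain (frS • ·) (mapDomain T.r D)
      + ℓ • mapDomain ((ofAlgAut δt * frS⁻¹) • ·) (mapDomain T.r D)`.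

What is left as hypotheses: the two-chart model `T` with its `ChartInputsG`, integrality of the chart
rings over `ℚbar[s]` (order form `hintU0/1`, from `CoeffChartG.mem_iff`: `hintU_of_mem_chart`),
`frS` coefficientwise Frobenius (`IsCoeffSemi`), the diamond pair `(δ, δt)` with
`KronMain5.DiaRed` (= helper3's (Hδ)) commuting with `frS`, and the invariance of the reduced chart
coordinate `s~` under `frS` and `δt`.
-/
import Fermat.Agent.M48.KronMain5
import Fermat.Agent.M48.RedZG9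
import Fermat.Agent.M48.Hecke1Deg2
import Fermat.Agent.ES.KRON.EsDivFinal24
import Fermat.Agent.ES.RED.ChartSpecOfChart18

set_option autoImplicit false
set_option linter.unusedSectionVars false
set_option linter.style.haveILetI false
set_option synthInstance.maxHeartbeats 400000

noncomputable section

open AlgebraicCurve

namespace Fermat.Agent.M48.EsDivMain5

open Fermat.Agent.X0.FF Fermat.Agent.ES.RED.PlaceValue13 Fermat.Agent.ES.RED.Contract8
open Fermat.Agent.ES.RED.TwoCharts8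
open Fermat.Agent.ES.KRON.EsDivAbs24 Fermat.Agent.ES.KRON.ChartBridge24
open Fermat.Agent.M48.EsDivAbs5
open Fermat.Agent.ES.KRON.EsDivMain24 (hr0 hr1 hrbad0 hrbad1 not_const_of_transcendental
  exists_poleDiv)

/-! ### Part 1: the two charts, generic -/

section Abs

variable {P Q : Type*} {r : P → Q} {Fr V : Q ≃ Q} {princ : (P →₀ ℤ) → (Q →₀ ℤ) → Prop}
  {C : Set P} {Dinf : P →₀ ℤ} {Dinf' : Q →₀ ℤ}

/-- a chart whose polar locus downstairs is also stable under `V` is a `Chart2`. -/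
theorem chart2_of_chart (h : Chart r Fr princ C Dinf Dinf')
    (hV : ∀ y, y ∈ Dinf'.support ↔ V y ∈ Dinf'.support) : Chart2 r Fr V princ C Dinf Dinf' where
  dinf_pos := h.dinf_pos
  dinf'_pos := h.dinf'_pos
  deg_eq := h.deg_eq
  stable := h.stable
  stableV := hV
  r_bad := h.r_bad
  r_good := h.r_good
  coord := h.coord
  lift := h.lift

end Abs

section Generic

variable {L : Type*} [Field L] [IsAlgClosed L] {A : ValuationSubring L}
variable {F : Type*} [Field F] [Algebra L F] {x : F} {hx : IsGen L x}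
variable {Ft : Type*} [Field Ft] [Algebra (kA A) Ft] [IsAlgClosed (kA A)]
variable {xt : Ft} (hxt : IsGen (kA A) xt)
variable (T : TwoCharts A hx Ft)

include hxt in
/-- **The two abstract charts (with two bijections) of a `TwoCharts`**, and their cover. -/
theorem charts2_of_twoCharts
    (princ : (Place L F →₀ ℤ) → (Place (kA A) Ft →₀ ℤ) → Prop)
    (Fr V : Place (kA A) Ft ≃ Place (kA A) Ft)
    (hintU0 : ∀ P : Place L F, T.S0.s ∈ P.toValuationSubring →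
      ∀ b ∈ T.S0.B, b ∈ P.toValuationSubring)
    (hintU1 : ∀ P : Place L F, T.S1.s ∈ P.toValuationSubring →
      ∀ b ∈ T.S1.B, b ∈ P.toValuationSubring)
    (hintD0 : ∀ Q : Place (kA A) Ft, T.S0.red T.S0.sB ∈ Q.toValuationSubring →
      ∀ b : ↥T.S0.B, T.S0.red b ∈ Q.toValuationSubring)
    (hintD1 : ∀ Q : Place (kA A) Ft, T.S1.red T.S1.sB ∈ Q.toValuationSubring →
      ∀ b : ↥T.S1.B, T.S1.red b ∈ Q.toValuationSubring)
    (hprinc0 : ∀ b : ↥T.S0.B, T.S0.red b ≠ 0 →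
      ∀ (D : Place L F →₀ ℤ) (D' : Place (kA A) Ft →₀ ℤ),
      (∀ P, D P = P.ord (b : F)) → (∀ Q, D' Q = Q.ord (T.S0.red b)) → princ D D')
    (hprinc1 : ∀ b : ↥T.S1.B, T.S1.red b ≠ 0 →
      ∀ (D : Place L F →₀ ℤ) (D' : Place (kA A) Ft →₀ ℤ),
      (∀ P, D P = P.ord (b : F)) → (∀ Q, D' Q = Q.ord (T.S1.red b)) → princ D D')
    (hdivF : ∀ f : F, f ≠ 0 → ∃ D : Place L F →₀ ℤ, ∀ P, D P = P.ord f)
    (hdivFt : ∀ g : Ft, g ≠ 0 → ∃ D' : Place (kA A) Ft →₀ ℤ, ∀ Q, D' Q = Q.ord g)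
    (hunif : ∀ Q : Place (kA A) Ft, ∃ ϖ : Ft, Q.ord ϖ = 1)
    (hdeg0 : ∀ (Dinf : Place L F →₀ ℤ) (Dinf' : Place (kA A) Ft →₀ ℤ),
      (∀ P, Dinf P = max (-(P.ord T.S0.s)) 0) →
      (∀ Q, Dinf' Q = max (-(Q.ord (T.S0.red T.S0.sB))) 0) →
      Dinf.sum (fun _ n => n) = Dinf'.sum (fun _ n => n))
    (hdeg1 : ∀ (Dinf : Place L F →₀ ℤ) (Dinf' : Place (kA A) Ft →₀ ℤ),
      (∀ P, Dinf P = max (-(P.ord T.S1.s)) 0) →
      (∀ Q, Dinf' Q = max (-(Q.ord (T.S1.red T.S1.sB))) 0) →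
      Dinf.sum (fun _ n => n) = Dinf'.sum (fun _ n => n))
    (hFr0 : ∀ Q : Place (kA A) Ft,
      (Fr Q).ord (T.S0.red T.S0.sB) = Q.ord (T.S0.red T.S0.sB))
    (hV0 : ∀ Q : Place (kA A) Ft,
      (V Q).ord (T.S0.red T.S0.sB) = Q.ord (T.S0.red T.S0.sB)) :
    ∃ (C : Bool → Set (Place L F)) (Dinf : Bool → Place L F →₀ ℤ)
      (Dinf' : Bool → Place (kA A) Ft →₀ ℤ),
      (∀ i, Chart2 T.r Fr V princ (C i) (Dinf i) (Dinf' i)) ∧ ∀ P, ∃ i, P ∈ C i := by
  have hs1F : T.S1.s ≠ 0 := by rw [T.s_inv]; exact inv_ne_zero T.s_ne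
  have hs1t : T.S1.red T.S1.sB ≠ 0 := by
    rw [T.red_s1_eq]; exact inv_ne_zero T.red_s0_ne_zero
  obtain ⟨D0, hD0⟩ := exists_poleDiv T.S0.s (hdivF _ T.s_ne)
  obtain ⟨D0', hD0'⟩ := exists_poleDiv (T.S0.red T.S0.sB) (hdivFt _ T.red_s0_ne_zero)
  obtain ⟨D1, hD1⟩ := exists_poleDiv T.S1.s (hdivF _ hs1F)
  obtain ⟨D1', hD1'⟩ := exists_poleDiv (T.S1.red T.S1.sB) (hdivFt _ hs1t)
  have hFr1 : ∀ Q : Place (kA A) Ft,
      (Fr Q).ord (T.S1.red T.S1.sB) = Q.ord (T.S1.red T.S1.sB) := by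
    intro Q
    rw [T.red_s1_eq, Place.ord_inv, Place.ord_inv, hFr0]
  have hV1 : ∀ Q : Place (kA A) Ft,
      (V Q).ord (T.S1.red T.S1.sB) = Q.ord (T.S1.red T.S1.sB) := by
    intro Q
    rw [T.red_s1_eq, Place.ord_inv, Place.ord_inv, hV0]
  have hB0 : BridgeHyp T.S0 T.r princ D0 D0' :=
    { hr := hr0 hxt T
      hrbad := hrbad0 hxt T
      hintU := hintU0
      hintD := hintD0
      hprinc := hprinc0
      hst := not_const_of_transcendental T.tr0
      hdivF := hdivF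
      hdivFt := hdivFt
      hunif := hunif
      hDinf := hD0
      hDinf' := hD0' }
  have hB1 : BridgeHyp T.S1 T.r princ D1 D1' :=
    { hr := hr1 hxt T
      hrbad := hrbad1 hxt T
      hintU := hintU1
      hintD := hintD1
      hprinc := hprinc1
      hst := not_const_of_transcendental T.tr1
      hdivF := hdivF
      hdivFt := hdivFt
      hunif := hunif
      hDinf := hD1
      hDinf' := hD1' }
  have hst0 : ∀ Q, Q ∈ D0'.support ↔ Fr Q ∈ D0'.support := by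
    intro Q
    rw [mem_support_Dinf'_iff hB0, mem_support_Dinf'_iff hB0, hFr0]
  have hst1 : ∀ Q, Q ∈ D1'.support ↔ Fr Q ∈ D1'.support := by
    intro Q
    rw [mem_support_Dinf'_iff hB1, mem_support_Dinf'_iff hB1, hFr1]
  have hstV0 : ∀ Q, Q ∈ D0'.support ↔ V Q ∈ D0'.support := by
    intro Q
    rw [mem_support_Dinf'_iff hB0, mem_support_Dinf'_iff hB0, hV0]
  have hstV1 : ∀ Q, Q ∈ D1'.support ↔ V Q ∈ D1'.support := by
    intro Q
    rw [mem_support_Dinf'_iff hB1, mem_support_Dinf'_iff hB1, hV1]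
  have hC0 := chart2_of_chart (V := V)
    (chart_of_bridge hxt hB0 Fr (hdeg0 D0 D0' hD0 hD0') hst0) hstV0
  have hC1 := chart2_of_chart (V := V)
    (chart_of_bridge hxt hB1 Fr (hdeg1 D1 D1' hD1 hD1') hst1) hstV1
  refine ⟨fun i => cond i {P | T.S1.InChart P} {P | T.S0.InChart P},
    fun i => cond i D1 D0, fun i => cond i D1' D0', ?_, ?_⟩
  · intro i
    cases i
    · exact hC0
    · exact hC1
  · intro P
    rcases T.inChart_or P with h | h
    · exact ⟨false, h⟩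
    · exact ⟨true, h⟩

end Generic

/-! ### Part 2: `Γ₁(M)` -/

section Concrete

open ModularCurve HahnSeries IntermediateField
open Fermat.Agent.X0 Fermat.Agent.M48.J1Defs8 Fermat.Agent.M48.QModel8
open Fermat.Agent.M48.RedSpec8 Fermat.Agent.M48.GaloisR3G9 Fermat.Agent.M48.KronMain5

variable (M ℓ : ℕ) [NeZero M] [NeZero ℓ] [hℓ : Fact ℓ.Prime]
variable (A : ValuationSubring Kbar) [CharP (kA A) ℓ] [IsAlgClosed (kA A)]

/-- `princ1` from an `A`-integral `q`-expansion reducing to `red b`. -/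
theorem princ1_of_series (b : ↥(FK Kbar M 1)) (bt : ↥(fieldG10C (kA A) M 1)) (hbt : bt ≠ 0)
    (hG : ∃ y : LaurentSeries A, coeffMap A.subtype y = (b : LaurentSeries Kbar) ∧
      coeffMap (resA A) y = (bt : LaurentSeries (kA A)))
    (D : Place Kbar ↥(FK Kbar M 1) →₀ ℤ) (D' : Place (kA A) ↥(fieldG10C (kA A) M 1) →₀ ℤ)
    (hD : ∀ P, D P = P.ord b) (hD' : ∀ Q, D' Q = Q.ord bt) :
    princ1 M A (resA A) D D' := by
  obtain ⟨y, h1, h2⟩ := hG
  have hy : coeffMap A.subtype y ∈ FK Kbar M 1 := by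
    rw [h1]; exact b.2
  have hyk : coeffMap (resA A) y ∈ fieldG10C (kA A) M 1 := by
    rw [h2]; exact bt.2
  have e1 : (⟨coeffMap A.subtype y, hy⟩ : ↥(FK Kbar M 1)) = b := Subtype.ext h1
  have e2 : (⟨coeffMap (resA A) y, hyk⟩ : ↥(fieldG10C (kA A) M 1)) = bt := Subtype.ext h2
  refine ⟨y, hy, hyk, ?_, ?_, ?_⟩
  · rw [h2]
    intro h0
    exact hbt (Subtype.ext h0)
  · intro P; rw [e1]; exact hD P
  · intro Q; rw [e2]; exact hD' Q

/-- a function fixed by a semilinear automorphism has the same order at `Q` and `g • Q`. -/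
theorem ord_smul_of_fixed {k E : Type*} [Field k] [Field E] [Algebra k E]
    (g : SemilinearAut k E) {s : E} (hs : g • s = s) (Q : Place k E) :
    (g • Q).ord s = Q.ord s := by
  have := SemilinearAut.ord_smul g Q s
  rwa [hs] at this

/-- **(ES-div) for `Γ₁(M)`, final form**: `r_* (T_ℓ D) = Fr_* (r_* D) + ℓ · (Fr⁻¹ δt)_* (r_* D)` for
the reduction map `r = T.r` of a `TwoCharts`. -/
theorem es_div_main1
    {x : ↥(FK Kbar M 1)} {hx : IsGen Kbar x}
    (T : TwoCharts A hx ↥(fieldG10C (kA A) M 1))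
    {xt : ↥(fieldG10C (kA A) M 1)} (hxt : IsGen (kA A) xt)
    [Algebra.IsSeparable (kA A)⟮xt⟯ ↥(fieldG10C (kA A) M 1)]
    (hM : 2 ≤ M) (hℓM : ¬ ℓ ∣ M)
    {d : (ZMod M)ˣ} (hd : (d : ZMod M) = (ℓ : ZMod M))
    {δ : FK Kbar M 1 ≃ₐ[Kbar] FK Kbar M 1} (hδ : IsDiamondAut Kbar M d δ)
    (hα : (alpha1 Kbar M ℓ).toRingHom.IsIntegral) (hβ : (beta1 Kbar M ℓ).toRingHom.IsIntegral)
    [HasPrincipalDivisors Kbar (FK Kbar M ℓ)] [HasPrincipalDivisors Kbar (FK Kbar M 1)]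
    (hFI : FundamentalIdentityAlong Kbar (alpha1 Kbar M ℓ) hα)
    (hnα : finrankAlong Kbar (alpha1 Kbar M ℓ) = ℓ + 1)
    (hfin : FiniteAlong Kbar (beta1 Kbar M ℓ)) (hn : finrankAlong Kbar (beta1 Kbar M ℓ) = ℓ + 1)
    (hN : NormFormulaAlong Kbar (beta1 Kbar M ℓ) hfin)
    (hdegP : ∀ P : Place Kbar (FK Kbar M 1), P.deg = 1)
    (hr : IsPlaceRed A (resA A) (FK Kbar M 1) (fieldG10C (kA A) M 1) T.r)
    {frS : SemilinearAut (kA A) (fieldG10C (kA A) M 1)}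
    (hfr : IsCoeffSemi frS (frobeniusEquiv (kA A) ℓ))
    {δt : fieldG10C (kA A) M 1 ≃ₐ[kA A] fieldG10C (kA A) M 1}
    (hδt : DiaRed M A (resA A) δ δt)
    (hintU0 : ∀ P : Place Kbar ↥(FK Kbar M 1),
      T.S0.s ∈ P.toValuationSubring → ∀ b ∈ T.S0.B, b ∈ P.toValuationSubring)
    (hintU1 : ∀ P : Place Kbar ↥(FK Kbar M 1),
      T.S1.s ∈ P.toValuationSubring → ∀ b ∈ T.S1.B, b ∈ P.toValuationSubring)
    (hintD0 : ∀ Q : Place (kA A) ↥(fieldG10C (kA A) M 1),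
      T.S0.red T.S0.sB ∈ Q.toValuationSubring → ∀ b : ↥T.S0.B, T.S0.red b ∈ Q.toValuationSubring)
    (hintD1 : ∀ Q : Place (kA A) ↥(fieldG10C (kA A) M 1),
      T.S1.red T.S1.sB ∈ Q.toValuationSubring → ∀ b : ↥T.S1.B, T.S1.red b ∈ Q.toValuationSubring)
    (hG0 : ∀ b : ↥T.S0.B, ∃ y : LaurentSeries A,
      coeffMap A.subtype y = (((b : ↥(FK Kbar M 1)) : LaurentSeries Kbar)) ∧
      coeffMap (resA A) y = ((T.S0.red b : ↥(fieldG10C (kA A) M 1)) : LaurentSeries (kA A)))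
    (hG1 : ∀ b : ↥T.S1.B, ∃ y : LaurentSeries A,
      coeffMap A.subtype y = (((b : ↥(FK Kbar M 1)) : LaurentSeries Kbar)) ∧
      coeffMap (resA A) y = ((T.S1.red b : ↥(fieldG10C (kA A) M 1)) : LaurentSeries (kA A)))
    (hdeg0 : ∀ (Dinf : Place Kbar ↥(FK Kbar M 1) →₀ ℤ)
      (Dinf' : Place (kA A) ↥(fieldG10C (kA A) M 1) →₀ ℤ),
      (∀ P, Dinf P = max (-(P.ord T.S0.s)) 0) →
      (∀ Q, Dinf' Q = max (-(Q.ord (T.S0.red T.S0.sB))) 0) →
      Dinf.sum (fun _ n => n) = Dinf'.sum (fun _ n => n))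
    (hdeg1 : ∀ (Dinf : Place Kbar ↥(FK Kbar M 1) →₀ ℤ)
      (Dinf' : Place (kA A) ↥(fieldG10C (kA A) M 1) →₀ ℤ),
      (∀ P, Dinf P = max (-(P.ord T.S1.s)) 0) →
      (∀ Q, Dinf' Q = max (-(Q.ord (T.S1.red T.S1.sB))) 0) →
      Dinf.sum (fun _ n => n) = Dinf'.sum (fun _ n => n))
    (hfix : frS • T.S0.red T.S0.sB = T.S0.red T.S0.sB)
    (hfixδ : δt (T.S0.red T.S0.sB) = T.S0.red T.S0.sB)
    (D : Divisor Kbar (FK Kbar M 1)) :
    Finsupp.mapDomain T.r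
        (Divisor.correspondence (alpha1 Kbar M ℓ) (beta1 Kbar M ℓ) hα hβ D) =
      Finsupp.mapDomain (fun Q => frS • Q) (Finsupp.mapDomain T.r D) +
        (ℓ : ℤ) • Finsupp.mapDomain (fun Q => (frS⁻¹ * SemilinearAut.ofAlgAut δt) • Q)
          (Finsupp.mapDomain T.r D) := by
  have hFr0 : ∀ Q : Place (kA A) ↥(fieldG10C (kA A) M 1),
      (MulAction.toPerm frS Q).ord (T.S0.red T.S0.sB) = Q.ord (T.S0.red T.S0.sB) :=
    fun Q => ord_smul_of_fixed frS hfix Q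
  have hfixV : (frS⁻¹ * SemilinearAut.ofAlgAut δt) • T.S0.red T.S0.sB = T.S0.red T.S0.sB := by
    rw [mul_smul, SemilinearAut.ofAlgAut_smul, hfixδ, inv_smul_eq_iff, hfix]
  have hV0 : ∀ Q : Place (kA A) ↥(fieldG10C (kA A) M 1),
      (MulAction.toPerm (frS⁻¹ * SemilinearAut.ofAlgAut δt) Q).ord (T.S0.red T.S0.sB) =
        Q.ord (T.S0.red T.S0.sB) :=
    fun Q => ord_smul_of_fixed _ hfixV Q
  obtain ⟨C, Dinf, Dinf', hC, hcov⟩ := charts2_of_twoCharts hxt T (princ1 M A (resA A))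
    (MulAction.toPerm frS) (MulAction.toPerm (frS⁻¹ * SemilinearAut.ofAlgAut δt))
    hintU0 hintU1 hintD0 hintD1
    (fun b hb D D' hD hD' => princ1_of_series M A _ _ hb (hG0 b) D D' hD hD')
    (fun b hb D D' hD hD' => princ1_of_series M A _ _ hb (hG1 b) D D' hD hD')
    (fun f hf => (HasPrincipalDivisors.exists_divisor f hf).imp fun D h => h.1)
    (fun g hg => Fermat.Agent.ES.KRON.FinDiv18.exists_divisor hxt hg)
    (fun Q => Fermat.Agent.ES.KRON.FinDiv18.exists_ord_eq_one Q)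
    hdeg0 hdeg1 hFr0 hV0
  exact es_div_of_charts1 M ℓ A (resA A) hM hℓM hd hδ hα hβ hFI hnα hfin hn hN hdegP hr hfr hδt
    hC hcov D

end Concrete

/-! ### Part 3: against `RedZG9.ChartInputsG`, Hecke inputs discharged -/

section Final

open ModularCurve HahnSeries IntermediateField
open Fermat.Agent.X0 Fermat.Agent.M48.J1Defs8 Fermat.Agent.M48.QModel8
open Fermat.Agent.M48.RedSpec8 Fermat.Agent.M48.GaloisR3G9 Fermat.Agent.M48.KronMain5
open Fermat.Agent.M48.RedZG9 Fermat.Agent.M48.Hecke1Deg2 Fermat.Agent.M48.G10Degree2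
open Fermat.Agent.ES.KRON.EsDivFinal24 (sum_poleDiv)

variable (M ℓ : ℕ) [NeZero M] [NeZero ℓ] [hℓ : Fact ℓ.Prime]
variable (A : ValuationSubring Kbar) [CharP (kA A) ℓ] [IsAlgClosed (kA A)]
variable {x : ↥(FK Kbar M 1)} {hx : IsGen Kbar x}

/-- the degree equality of the pole divisors, from `ChartInputsG`. -/
theorem deg_eq_of_inputsG (S : ChartSpec A hx ↥(fieldG10C (kA A) M 1))
    (h : ChartInputsG A S)
    (Dinf : Place Kbar ↥(FK Kbar M 1) →₀ ℤ)
    (Dinf' : Place (kA A) ↥(fieldG10C (kA A) M 1) →₀ ℤ)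
    (hD : ∀ P, Dinf P = max (-(P.ord S.s)) 0)
    (hD' : ∀ Q, Dinf' Q = max (-(Q.ord (S.red S.sB))) 0) :
    Dinf.sum (fun _ n => n) = Dinf'.sum (fun _ n => n) := by
  have := h.sep
  rw [sum_poleDiv S.s Dinf hD, sum_poleDiv (S.red S.sB) Dinf' hD', sum_ord_poles h.gen,
    Fermat.Agent.ES.RED.SumOrdSep15.sum_ord_poles_sep h.gent, h.deg]

/-- integrality of the reductions, order form. -/
theorem hintD_of_inputsG (S : ChartSpec A hx ↥(fieldG10C (kA A) M 1))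
    (h : ChartInputsG A S) (Q : Place (kA A) ↥(fieldG10C (kA A) M 1))
    (hQ : S.red S.sB ∈ Q.toValuationSubring) (b : ↥S.B) : S.red b ∈ Q.toValuationSubring :=
  Fermat.Agent.ES.RED.ChartFacts9.mem_of_isIntegral_adjoin Q (R := kA A)
    (fun c => Q.algebraMap_mem' c) hQ (h.int b)

/-- integrality of a chart ring `B = chart A s` over `ℚbar[s]`, order form (`hintU0/1`). -/
theorem hintU_of_mem_chart (S : ChartSpec A hx ↥(fieldG10C (kA A) M 1))
    (hS : ∀ b : ↥(FK Kbar M 1), b ∈ S.B → b ∈ Fermat.Agent.RED.PUR.ChartGeneric22.chart ↥A S.s)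
    (P : Place Kbar ↥(FK Kbar M 1)) (hs : S.s ∈ P.toValuationSubring) (b : ↥(FK Kbar M 1))
    (hb : b ∈ S.B) : b ∈ P.toValuationSubring :=
  Fermat.Agent.ES.RED.ChartSpecOfChart18.mem_place_of_mem_chart' A S.s P hs (hS b hb)

/-- **(ES-div) for `Γ₁(M)`** from the chart inputs of `RedZG9`, all Hecke inputs discharged; the
second bijection in the form `δt Fr⁻¹`. -/
theorem es_div_final1 (hM : 2 ≤ M) (hℓM : ¬ ℓ ∣ M)
    (T : TwoCharts A hx ↥(fieldG10C (kA A) M 1))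
    (h0 : ChartInputsG A T.S0) (h1 : ChartInputsG A T.S1)
    {d : (ZMod M)ˣ} (hd : (d : ZMod M) = (ℓ : ZMod M))
    {δ : FK Kbar M 1 ≃ₐ[Kbar] FK Kbar M 1} (hδ : IsDiamondAut Kbar M d δ)
    {frS : SemilinearAut (kA A) (fieldG10C (kA A) M 1)}
    (hfr : IsCoeffSemi frS (frobeniusEquiv (kA A) ℓ))
    {δt : fieldG10C (kA A) M 1 ≃ₐ[kA A] fieldG10C (kA A) M 1}
    (hδt : DiaRed M A (resA A) δ δt)
    (hcomm : Commute (SemilinearAut.ofAlgAut δt) frS)
    (hintU0 : ∀ P : Place Kbar ↥(FK Kbar M 1),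
      T.S0.s ∈ P.toValuationSubring → ∀ b ∈ T.S0.B, b ∈ P.toValuationSubring)
    (hintU1 : ∀ P : Place Kbar ↥(FK Kbar M 1),
      T.S1.s ∈ P.toValuationSubring → ∀ b ∈ T.S1.B, b ∈ P.toValuationSubring)
    (hfix : frS • T.S0.red T.S0.sB = T.S0.red T.S0.sB)
    (hfixδ : δt (T.S0.red T.S0.sB) = T.S0.red T.S0.sB)
    (hα : (alpha1 Kbar M ℓ).toRingHom.IsIntegral) (hβ : (beta1 Kbar M ℓ).toRingHom.IsIntegral)
    [HasPrincipalDivisors Kbar (FK Kbar M ℓ)]
    (D : Divisor Kbar (FK Kbar M 1)) :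
    Finsupp.mapDomain T.r
        (Divisor.correspondence (alpha1 Kbar M ℓ) (beta1 Kbar M ℓ) hα hβ D) =
      Finsupp.mapDomain (fun Q => frS • Q) (Finsupp.mapDomain T.r D) +
        (ℓ : ℤ) • Finsupp.mapDomain (fun Q => (SemilinearAut.ofAlgAut δt * frS⁻¹) • Q)
          (Finsupp.mapDomain T.r D) := by
  have := h0.sep
  haveI : HasPrincipalDivisors Kbar (FK Kbar M 1) := hasPrincipalDivisors_FK M 1 hM Kbar
  have hfinα := finiteAlong_alpha1 Kbar hM hℓ.out hℓM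
  have hfinβ := finiteAlong_beta1 Kbar hM hℓ.out hℓM
  have hFI : FundamentalIdentityAlong Kbar (alpha1 Kbar M ℓ) hα :=
    Fermat.Agent.ES.HECKE.FundIdentity19.fundamentalIdentityAlong (alpha1 Kbar M ℓ) hα hfinα
      (isGen_jK M 1 hM Kbar) (isGen_jK M ℓ hM Kbar)
  have hN : NormFormulaAlong Kbar (beta1 Kbar M ℓ) hfinβ :=
    Fermat.Agent.ES.HECKE.NormFormula15.normFormulaAlong_of_isGen (beta1 Kbar M ℓ) hfinβ
      (isGen_jK M ℓ hM Kbar)
  have hr : IsPlaceRed A (resA A) (FK Kbar M 1) (fieldG10C (kA A) M 1) T.r :=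
    isPlaceRed_twoCharts' T h0 h1
  rw [hcomm.inv_right.eq]
  exact es_div_main1 M ℓ A T h0.gent hM hℓM hd hδ hα hβ hFI
    (finrankAlong_alpha1 Kbar hM hℓ.out hℓM) hfinβ (finrankAlong_beta1 Kbar hM hℓ.out hℓM) hN
    (fun P => Fermat.Agent.X0.FF.deg_eq_one hx P) hr hfr hδt hintU0 hintU1
    (hintD_of_inputsG M A T.S0 h0) (hintD_of_inputsG M A T.S1 h1)
    (fun b => (h0.compat b).imp fun y h => ⟨h.1, h.2.symm⟩)
    (fun b => (h1.compat b).imp fun y h => ⟨h.1, h.2.symm⟩)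
    (deg_eq_of_inputsG M A T.S0 h0) (deg_eq_of_inputsG M A T.S1 h1) hfix hfixδ D

end Final

end Fermat.Agent.M48.EsDivMain5
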