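/-
M48 (P1), chapter [ESRED1] / KRON twin (helper5): **(ES-div) for `Γ₁(M)` with the inputs of the model
chapter** (twin of `ES/KRON/EsDivInst24`): the hypotheses `hintU0/1`, `hfix`, `hfixδ` of
`EsDivMain5.es_div_final1` are discharged for a two-chart model whose chart rings are the integral
closures of `A[s]` and whose coordinate is `s = t = tq ℚbar n e` (the Hauptmodul of `Γ₀(n)`, `n ∣ M`).

* `isDiamondAut_apply_eq_of_mem_old` : a diamond automorphism of `FK K M 1` fixes the `Γ₀(M)`-field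
  `K · modularFunctionFieldFull M` pointwise (this is also the hypothesis `hs : δ S.s = S.s` of
  helper9's `GaloisR3G9.chartSymOfAlgEquiv` for `s = t`);
* `diaRed_fixed` : under `KronMain5.DiaRed` (= (Hδ)), if `δ` fixes an `A`-integral `f`, then `δt`
  fixes its reduction; `red_sB_fixed` : the chart form;
* `smul_eq_of_coeffMap_eq`, `coe_red_sB_of_eq_tq`, `frS_smul_red_sB` : the reduced coordinate is
  `tq κ n e`, with prime-field coefficients, hence fixed by the coefficientwise Frobenius;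
* **`es_div_inst1`** : (ES-div) from `T`, `ChartInputsG` ×2, `S.B ⊂ chart A s` ×2, `s₀ = tq ℚbar n e`,
  `tq ℚbar n e ∈ ℚbar · modularFunctionFieldFull M` (`Interface12.TMem n e M`), the diamond pair with
  (Hδ) and commutation with `frS`.
-/
import Fermat.Agent.M48.EsDivMain5
import Fermat.Agent.RED.BASE.EtaQuot12

set_option autoImplicit false
set_option linter.unusedSectionVars false
set_option linter.style.haveILetI false
set_option synthInstance.maxHeartbeats 400000

noncomputable section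

open AlgebraicCurve ModularCurve HahnSeries IntermediateField

namespace Fermat.Agent.M48.EsDivInst5

open Fermat.Agent.X0 Fermat.Agent.X0.FF
open Fermat.Agent.M48.DictIface4 Fermat.Agent.M48.J1Defs8 Fermat.Agent.M48.QModel8
open Fermat.Agent.M48.RedSpec8 Fermat.Agent.M48.GaloisR3G9 Fermat.Agent.M48.KronMain5
open Fermat.Agent.M48.RedZG9 Fermat.Agent.M48.DiamondAut5 Fermat.Agent.M48.EsDivMain5
open Fermat.Agent.ES.RED.Contract8 Fermat.Agent.ES.RED.TwoCharts8
open Fermat.Agent.RED.BASE.EtaQuot12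

/-! ### Diamonds fix the `Γ₀(M)`-field -/

section Old

variable {K : Type*} [Field K] [Algebra ℚ K] {M : ℕ} [NeZero M]

/-- **A diamond automorphism of `FK K M 1` fixes `K · modularFunctionFieldFull M` pointwise.** -/
theorem isDiamondAut_apply_eq_of_mem_old {d : (ZMod M)ˣ} {δ : FK K M 1 ≃ₐ[K] FK K M 1}
    (hδ : IsDiamondAut K M d δ) (y : FK K M 1)
    (hy : (y : LaurentSeries K) ∈ laurentBaseChange K (modularFunctionFieldFull M)) :
    δ y = y := by
  let Q : LaurentSeries K → Prop := fun x => ∃ hx : x ∈ FK K M 1, δ ⟨x, hx⟩ = ⟨x, hx⟩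
  have hQc : ∀ c : K, Q (algebraMap K (LaurentSeries K) c) := fun c =>
    ⟨(FK K M 1).algebraMap_mem c, δ.commutes c⟩
  have hQadd : ∀ x y, Q x → Q y → Q (x + y) := by
    rintro x y ⟨hx, px⟩ ⟨hy, py⟩
    refine ⟨add_mem hx hy, ?_⟩
    have : (⟨x + y, add_mem hx hy⟩ : FK K M 1) = ⟨x, hx⟩ + ⟨y, hy⟩ := rfl
    rw [this, map_add, px, py]
  have hQmul : ∀ x y, Q x → Q y → Q (x * y) := by
    rintro x y ⟨hx, px⟩ ⟨hy, py⟩
    refine ⟨mul_mem hx hy, ?_⟩
    have : (⟨x * y, mul_mem hx hy⟩ : FK K M 1) = ⟨x, hx⟩ * ⟨y, hy⟩ := rfl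
    rw [this, map_mul, px, py]
  have hQinv : ∀ x, Q x → Q x⁻¹ := by
    rintro x ⟨hx, px⟩
    refine ⟨inv_mem hx, ?_⟩
    have : (⟨x⁻¹, inv_mem hx⟩ : FK K M 1) = (⟨x, hx⟩ : FK K M 1)⁻¹ := rfl
    rw [this, map_inv₀, px]
  have hQ0 : ∀ z : LaurentSeries ℚ, z ∈ modularFunctionFieldFull M → Q (coeffEmb K z) := by
    intro z hz
    unfold modularFunctionFieldFull at hz
    induction hz using IntermediateField.adjoin_induction with
    | mem z hz =>
        obtain ⟨e, hne, he, rfl⟩ := hz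
        haveI := hne
        have hmem : qExpand ℚ e jq ∈ fieldG10 M 1 :=
          IntermediateField.subset_adjoin ℚ _ (Or.inl ⟨e, hne, by simpa using he, rfl⟩)
        exact ⟨coeffEmb_mem_laurentBaseChange K hmem, hδ.1 e he _ rfl⟩
    | algebraMap q =>
        rw [coeffEmb_algebraMap]
        exact hQc _
    | add x y hx hy ihx ihy =>
        rw [map_add]
        exact hQadd _ _ ihx ihy
    | inv x hx ihx =>
        rw [map_inv₀]
        exact hQinv _ ihx
    | mul x y hx hy ihx ihy =>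
        rw [map_mul]
        exact hQmul _ _ ihx ihy
  have hQall : ∀ x : LaurentSeries K,
      x ∈ laurentBaseChange K (modularFunctionFieldFull M) → Q x := by
    intro x hx
    unfold laurentBaseChange at hx
    induction hx using IntermediateField.adjoin_induction with
    | mem x hx =>
        obtain ⟨z, hz, rfl⟩ := hx
        exact hQ0 z hz
    | algebraMap c => exact hQc c
    | add x y hx hy ihx ihy => exact hQadd _ _ ihx ihy
    | inv x hx ihx => exact hQinv _ ihx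
    | mul x y hx hy ihx ihy => exact hQmul _ _ ihx ihy
  obtain ⟨hx, h⟩ := hQall _ hy
  exact h

end Old

/-! ### Reduction of fixed functions -/

section Fixed

variable {M : ℕ} [NeZero M] {A : ValuationSubring Kbar} {k : Type*} [Field k] {π : A →+* k}

/-- under (Hδ), if `δ` fixes an `A`-integral function then `δt` fixes its reduction. -/
theorem diaRed_fixed {δ : FK Kbar M 1 ≃ₐ[Kbar] FK Kbar M 1}
    {δt : fieldG10C k M 1 ≃ₐ[k] fieldG10C k M 1} (hδt : DiaRed M A π δ δt)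
    (y : LaurentSeries A) (hy : coeffMap A.subtype y ∈ FK Kbar M 1)
    (hyk : coeffMap π y ∈ fieldG10C k M 1)
    (hfix : δ (⟨coeffMap A.subtype y, hy⟩ : FK Kbar M 1) = ⟨coeffMap A.subtype y, hy⟩) :
    δt (⟨coeffMap π y, hyk⟩ : fieldG10C k M 1) = ⟨coeffMap π y, hyk⟩ := by
  obtain ⟨y', h1, h2⟩ := hδt y hy hyk
  rw [hfix] at h1
  have hyy : y' = y :=
    Fermat.Agent.ES.RED.GaussRing15.coeffMap_subtype_injective A h1
  apply Subtype.ext
  rw [← h2, hyy]

end Fixed

section Chart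

variable {M : ℕ} [NeZero M] {A : ValuationSubring Kbar}
variable {x : ↥(FK Kbar M 1)} {hx : IsGen Kbar x}

/-- **`hfixδ`**: if `δ` fixes the chart coordinate `s`, then `δt` fixes its reduction `s~`. -/
theorem red_sB_fixed {S : ChartSpec A hx ↥(fieldG10C (kA A) M 1)} (hS : CompatG A S)
    {δ : FK Kbar M 1 ≃ₐ[Kbar] FK Kbar M 1}
    {δt : fieldG10C (kA A) M 1 ≃ₐ[kA A] fieldG10C (kA A) M 1}
    (hδt : DiaRed M A (resA A) δ δt) (hδs : δ S.s = S.s) :
    δt (S.red S.sB) = S.red S.sB := by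
  obtain ⟨Y, hY1, hY2⟩ := hS S.sB
  have hy : coeffMap A.subtype Y ∈ FK Kbar M 1 := by
    rw [hY1]
    exact Subtype.property _
  have hyk : coeffMap (resA A) Y ∈ fieldG10C (kA A) M 1 := by
    rw [← hY2]
    exact Subtype.property _
  have e1 : (⟨coeffMap A.subtype Y, hy⟩ : FK Kbar M 1) = S.s := Subtype.ext hY1
  have e2 : (⟨coeffMap (resA A) Y, hyk⟩ : fieldG10C (kA A) M 1) = S.red S.sB :=
    Subtype.ext hY2.symm
  have h := diaRed_fixed hδt Y hy hyk (by rw [e1, hδs])
  rwa [e2] at h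

/-- a function whose series is fixed by `coeffMap ψ` is fixed by the coefficientwise action. -/
theorem smul_eq_of_coeffMap_eq {k : Type*} [Field k] {Fk : IntermediateField k (LaurentSeries k)}
    {h : SemilinearAut k ↥Fk} {ψ : k ≃+* k} (hh : IsCoeffSemi h ψ) {t : ↥Fk}
    (ht : coeffMap (ψ : k →+* k) (t : LaurentSeries k) = (t : LaurentSeries k)) : h • t = t :=
  Subtype.ext (by rw [hh t, ht])

variable (n e : ℕ) [NeZero n]

/-- the reduction of the coordinate `s = tq ℚbar n e` is `tq κ n e`. -/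
theorem coe_red_sB_of_eq_tq {S : ChartSpec A hx ↥(fieldG10C (kA A) M 1)} (hS : CompatG A S)
    (hs : ((S.s : ↥(FK Kbar M 1)) : LaurentSeries Kbar) = tq Kbar n e) :
    ((S.red S.sB : ↥(fieldG10C (kA A) M 1)) : LaurentSeries (kA A)) = tq (kA A) n e := by
  obtain ⟨Y, hY1, hY2⟩ := hS S.sB
  have hY : Y = tq ↥A n e := by
    apply Fermat.Agent.ES.RED.GaussRing15.coeffMap_subtype_injective A
    rw [hY1, coeffMap_tq]
    exact hs
  rw [hY2, hY, coeffMap_tq]

/-- **`hfix`**: the reduced coordinate `tq κ n e` is fixed by every coefficientwise automorphism. -/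
theorem frS_smul_red_sB {S : ChartSpec A hx ↥(fieldG10C (kA A) M 1)} (hS : CompatG A S)
    (hs : ((S.s : ↥(FK Kbar M 1)) : LaurentSeries Kbar) = tq Kbar n e)
    {h : SemilinearAut (kA A) ↥(fieldG10C (kA A) M 1)} {ψ : kA A ≃+* kA A}
    (hh : IsCoeffSemi h ψ) : h • S.red S.sB = S.red S.sB :=
  smul_eq_of_coeffMap_eq hh (by rw [coe_red_sB_of_eq_tq n e hS hs, coeffMap_tq])

end Chart

/-! ### (ES-div) with the inputs of the model chapter -/

section Inst

variable (M ℓ : ℕ) [NeZero M] [NeZero ℓ] [hℓ : Fact ℓ.Prime]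
variable (A : ValuationSubring Kbar) [CharP (kA A) ℓ] [IsAlgClosed (kA A)]
variable {x : ↥(FK Kbar M 1)} {hx : IsGen Kbar x}
variable (n e : ℕ) [NeZero n]

/-- **(ES-div) for `Γ₁(M)`** for a two-chart model with coordinate `t = tq ℚbar n e`:
`r_* (T_ℓ D) = Fr_* (r_* D) + ℓ · (δt Fr⁻¹)_* (r_* D)`, `r = T.r`. -/
theorem es_div_inst1 (hM : 2 ≤ M) (hℓM : ¬ ℓ ∣ M)
    (T : TwoCharts A hx ↥(fieldG10C (kA A) M 1))
    (h0 : ChartInputsG A T.S0) (h1 : ChartInputsG A T.S1)
    (hB0 : ∀ b : ↥(FK Kbar M 1), b ∈ T.S0.B →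
      b ∈ Fermat.Agent.RED.PUR.ChartGeneric22.chart ↥A T.S0.s)
    (hB1 : ∀ b : ↥(FK Kbar M 1), b ∈ T.S1.B →
      b ∈ Fermat.Agent.RED.PUR.ChartGeneric22.chart ↥A T.S1.s)
    (hs0 : ((T.S0.s : ↥(FK Kbar M 1)) : LaurentSeries Kbar) = tq Kbar n e)
    (hold : tq Kbar n e ∈ laurentBaseChange Kbar (modularFunctionFieldFull M))
    {d : (ZMod M)ˣ} (hd : (d : ZMod M) = (ℓ : ZMod M))
    {δ : FK Kbar M 1 ≃ₐ[Kbar] FK Kbar M 1} (hδ : IsDiamondAut Kbar M d δ)
    {frS : SemilinearAut (kA A) (fieldG10C (kA A) M 1)}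
    (hfr : IsCoeffSemi frS (frobeniusEquiv (kA A) ℓ))
    {δt : fieldG10C (kA A) M 1 ≃ₐ[kA A] fieldG10C (kA A) M 1}
    (hδt : DiaRed M A (resA A) δ δt)
    (hcomm : Commute (SemilinearAut.ofAlgAut δt) frS)
    (hα : (alpha1 Kbar M ℓ).toRingHom.IsIntegral) (hβ : (beta1 Kbar M ℓ).toRingHom.IsIntegral)
    [HasPrincipalDivisors Kbar (FK Kbar M ℓ)]
    (D : Divisor Kbar (FK Kbar M 1)) :
    Finsupp.mapDomain T.r
        (Divisor.correspondence (alpha1 Kbar M ℓ) (beta1 Kbar M ℓ) hα hβ D) =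
      Finsupp.mapDomain (fun Q => frS • Q) (Finsupp.mapDomain T.r D) +
        (ℓ : ℤ) • Finsupp.mapDomain (fun Q => (SemilinearAut.ofAlgAut δt * frS⁻¹) • Q)
          (Finsupp.mapDomain T.r D) := by
  have hδs : δ T.S0.s = T.S0.s := isDiamondAut_apply_eq_of_mem_old hδ _ (by rw [hs0]; exact hold)
  exact es_div_final1 M ℓ A hM hℓM T h0 h1 hd hδ hfr hδt hcomm
    (hintU_of_mem_chart M A T.S0 hB0) (hintU_of_mem_chart M A T.S1 hB1)
    (frS_smul_red_sB n e h0.compat hs0 hfr) (red_sB_fixed h0.compat hδt hδs) hα hβ D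

end Inst

end Fermat.Agent.M48.EsDivInst5
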