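/-
M48 (P1), chapter [ESRED1] / KRON twin (helper5), ruling R7: **the global hypotheses of (ES-div) for
`Γ₁(M)` in the PAIR form** (`KronMain5.DiaRed`, the existential form of (Hδ), is FALSE for the
diamonds: `⟨d⟩` moves the cusp `∞`, so an `A`-integral `f` need not have `⟨d⟩ f` `A`-integral; see
helper3's warning in `DiamondRed3`).  This file replaces `KronMain5.setup1`, `es_div_of_charts1(')`;
`KronMain5.exists_norm_reduction1` and `map_hecke_principal1` take the pair `(y, y')` explicitly and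
are used as they are.

* `princ2 M A π δ D D'` : `D = div f`, `D' = div f~` for an `A`-integral `f ∈ FK ℚbar M 1` with non-zero
  reduction in `fieldG10C k M 1` **such that `δ f` is `A`-integral too**;
* `setup2 : EsDivAbs5.Setup2 r Fr V ℓ (r_* T_ℓ) (princ2 M A π δ)` from helper3's
  `DiamondRed3.DiaRed2 A π δ δt` (whenever `f` and `δ f` are both integral, `(δ f)~ = δt f~`);
* `es_div_of_charts2`, `es_div_of_charts2'`.
-/
import Fermat.Agent.M48.KronMain5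
import Fermat.Agent.M48.DiamondRed3

set_option autoImplicit false
set_option linter.unusedSectionVars false
set_option linter.style.haveILetI false
set_option synthInstance.maxHeartbeats 400000

open ModularCurve AlgebraicCurve HahnSeries IntermediateField

noncomputable section

namespace Fermat.Agent.M48.KronMain2_5

open Fermat.Agent.X0
open Fermat.Agent.M48.J1Defs8 Fermat.Agent.M48.QModel8 Fermat.Agent.M48.RedSpec8
open Fermat.Agent.M48.GaloisR3G9 Fermat.Agent.M48.KronMain5 Fermat.Agent.M48.DiamondRed3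
open Fermat.Agent.M48.EsDivAbs5
open Fermat.Agent.ES.HECKE.PointFormula28
open Fermat.Agent.ES.KRON.KronMain24 (mapDomain_nonneg sum_mapDomain degree_eq_sum)

variable (M ℓ : ℕ) [NeZero M] [NeZero ℓ] [hℓ : Fact ℓ.Prime]
variable (A : ValuationSubring Kbar) {k : Type*} [Field k] [CharP k ℓ] [PerfectField k]
  (π : A →+* k)

/-- `princ2 D D'`: `D = div f`, `D' = div f~` for an `A`-integral `f ∈ FK ℚbar M 1` with non-zero
reduction in `fieldG10C k M 1`, such that `δ f` is `A`-integral too. -/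
def princ2 (δ : FK Kbar M 1 ≃ₐ[Kbar] FK Kbar M 1)
    (D : Divisor Kbar (FK Kbar M 1)) (D' : Divisor k (fieldG10C k M 1)) : Prop :=
  ∃ (y y' : LaurentSeries A) (hy : coeffMap A.subtype y ∈ FK Kbar M 1)
    (hyk : coeffMap π y ∈ fieldG10C k M 1), coeffMap π y ≠ 0 ∧
    coeffMap A.subtype y' =
      ((δ (⟨coeffMap A.subtype y, hy⟩ : FK Kbar M 1) : FK Kbar M 1) : LaurentSeries Kbar) ∧
    (∀ P, D P = P.ord (⟨coeffMap A.subtype y, hy⟩ : FK Kbar M 1)) ∧
    ∀ Q, D' Q = Q.ord (⟨coeffMap π y, hyk⟩ : fieldG10C k M 1)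

/-- **The global hypotheses of the abstract (ES-div) with a diamond** for `r_* ∘ T_ℓ`, pair form. -/
theorem setup2 (hM : 2 ≤ M) (hℓM : ¬ ℓ ∣ M)
    {d : (ZMod M)ˣ} (hd : (d : ZMod M) = (ℓ : ZMod M))
    {δ : FK Kbar M 1 ≃ₐ[Kbar] FK Kbar M 1} (hδ : IsDiamondAut Kbar M d δ)
    (hα : (alpha1 Kbar M ℓ).toRingHom.IsIntegral) (hβ : (beta1 Kbar M ℓ).toRingHom.IsIntegral)
    [HasPrincipalDivisors Kbar (FK Kbar M ℓ)]
    (hFI : FundamentalIdentityAlong Kbar (alpha1 Kbar M ℓ) hα)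
    (hnα : finrankAlong Kbar (alpha1 Kbar M ℓ) = ℓ + 1)
    (hfin : FiniteAlong Kbar (beta1 Kbar M ℓ)) (hn : finrankAlong Kbar (beta1 Kbar M ℓ) = ℓ + 1)
    (hN : NormFormulaAlong Kbar (beta1 Kbar M ℓ) hfin)
    (hdeg : ∀ P : Place Kbar (FK Kbar M 1), P.deg = 1)
    {r : Place Kbar (FK Kbar M 1) → Place k (fieldG10C k M 1)}
    (hr : IsPlaceRed A π (FK Kbar M 1) (fieldG10C k M 1) r)
    {frS : SemilinearAut k (fieldG10C k M 1)} (hfr : IsCoeffSemi frS (frobeniusEquiv k ℓ))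
    {δt : fieldG10C k M 1 ≃ₐ[k] fieldG10C k M 1} (hδt : DiaRed2 A π δ δt) :
    Setup2 r (MulAction.toPerm frS) (MulAction.toPerm (frS⁻¹ * SemilinearAut.ofAlgAut δt)) ℓ
      (redHecke1 M ℓ hα hβ r) (princ2 M A π δ) where
  pos := by
    classical
    intro p y
    show 0 ≤ Finsupp.mapDomain r
      (Divisor.correspondence (alpha1 Kbar M ℓ) (beta1 Kbar M ℓ) hα hβ (Finsupp.single p 1)) y
    refine mapDomain_nonneg r _ (fun v => ?_) y
    rw [correspondence_single, Finsupp.finsetSum_apply]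
    refine Finset.sum_nonneg fun w _ => ?_
    rw [Finsupp.single_apply]
    split_ifs
    · positivity
    · exact le_rfl
  deg := by
    intro p
    show (Finsupp.mapDomain r (Divisor.correspondence (alpha1 Kbar M ℓ) (beta1 Kbar M ℓ) hα hβ
      (Finsupp.single p 1))).sum (fun _ n => n) = _
    rw [sum_mapDomain, ← degree_eq_sum hdeg,
      degree_correspondence_single _ _ hα hβ hFI, hnα, hdeg]
    push_cast
    ring
  red := by
    rintro D D' ⟨y, y', hy, hyk, hne, -, hD, hD'⟩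
    ext Q
    rw [hD' Q]
    exact hr.2 y hy hyk hne D hD Q
  kron := by
    rintro D D' ⟨y, y', hy, hyk, hne, hy', hD, hD'⟩ Q
    have hy'k := hδt y y' hy hyk hy'
    rw [hD', hD']
    exact map_hecke_principal1 M ℓ A π hM hℓM hd hδ hα hβ hfin hn hN hr hfr δt y y' hy hyk hne
      hy' hy'k D hD Q

/-- **(ES-div) for `Γ₁(M)`, concrete form modulo the chart data** (pair form):
`r_* (T_ℓ D) = (Fr)_* (r_* D) + ℓ · (Fr⁻¹ δt)_* (r_* D)`. -/
theorem es_div_of_charts2 (hM : 2 ≤ M) (hℓM : ¬ ℓ ∣ M)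
    {d : (ZMod M)ˣ} (hd : (d : ZMod M) = (ℓ : ZMod M))
    {δ : FK Kbar M 1 ≃ₐ[Kbar] FK Kbar M 1} (hδ : IsDiamondAut Kbar M d δ)
    (hα : (alpha1 Kbar M ℓ).toRingHom.IsIntegral) (hβ : (beta1 Kbar M ℓ).toRingHom.IsIntegral)
    [HasPrincipalDivisors Kbar (FK Kbar M ℓ)]
    (hFI : FundamentalIdentityAlong Kbar (alpha1 Kbar M ℓ) hα)
    (hnα : finrankAlong Kbar (alpha1 Kbar M ℓ) = ℓ + 1)
    (hfin : FiniteAlong Kbar (beta1 Kbar M ℓ)) (hn : finrankAlong Kbar (beta1 Kbar M ℓ) = ℓ + 1)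
    (hN : NormFormulaAlong Kbar (beta1 Kbar M ℓ) hfin)
    (hdeg : ∀ P : Place Kbar (FK Kbar M 1), P.deg = 1)
    {r : Place Kbar (FK Kbar M 1) → Place k (fieldG10C k M 1)}
    (hr : IsPlaceRed A π (FK Kbar M 1) (fieldG10C k M 1) r)
    {frS : SemilinearAut k (fieldG10C k M 1)} (hfr : IsCoeffSemi frS (frobeniusEquiv k ℓ))
    {δt : fieldG10C k M 1 ≃ₐ[k] fieldG10C k M 1} (hδt : DiaRed2 A π δ δt)
    {ι : Type*} {C : ι → Set (Place Kbar (FK Kbar M 1))}
    {Dinf : ι → Divisor Kbar (FK Kbar M 1)} {Dinf' : ι → Divisor k (fieldG10C k M 1)}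
    (hC : ∀ i, Chart2 r (MulAction.toPerm frS)
      (MulAction.toPerm (frS⁻¹ * SemilinearAut.ofAlgAut δt)) (princ2 M A π δ)
      (C i) (Dinf i) (Dinf' i))
    (hcov : ∀ P, ∃ i, P ∈ C i) (D : Divisor Kbar (FK Kbar M 1)) :
    Finsupp.mapDomain r (Divisor.correspondence (alpha1 Kbar M ℓ) (beta1 Kbar M ℓ) hα hβ D) =
      Finsupp.mapDomain (fun Q => frS • Q) (Finsupp.mapDomain r D) +
        (ℓ : ℤ) • Finsupp.mapDomain (fun Q => (frS⁻¹ * SemilinearAut.ofAlgAut δt) • Q)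
          (Finsupp.mapDomain r D) :=
  es_div_all (setup2 M ℓ A π hM hℓM hd hδ hα hβ hFI hnα hfin hn hN hdeg hr hfr hδt) hC hcov D

/-- **(ES-div) for `Γ₁(M)`, commuted form** `V = δt Fr⁻¹` (pair form). -/
theorem es_div_of_charts2' (hM : 2 ≤ M) (hℓM : ¬ ℓ ∣ M)
    {d : (ZMod M)ˣ} (hd : (d : ZMod M) = (ℓ : ZMod M))
    {δ : FK Kbar M 1 ≃ₐ[Kbar] FK Kbar M 1} (hδ : IsDiamondAut Kbar M d δ)
    (hα : (alpha1 Kbar M ℓ).toRingHom.IsIntegral) (hβ : (beta1 Kbar M ℓ).toRingHom.IsIntegral)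
    [HasPrincipalDivisors Kbar (FK Kbar M ℓ)]
    (hFI : FundamentalIdentityAlong Kbar (alpha1 Kbar M ℓ) hα)
    (hnα : finrankAlong Kbar (alpha1 Kbar M ℓ) = ℓ + 1)
    (hfin : FiniteAlong Kbar (beta1 Kbar M ℓ)) (hn : finrankAlong Kbar (beta1 Kbar M ℓ) = ℓ + 1)
    (hN : NormFormulaAlong Kbar (beta1 Kbar M ℓ) hfin)
    (hdeg : ∀ P : Place Kbar (FK Kbar M 1), P.deg = 1)
    {r : Place Kbar (FK Kbar M 1) → Place k (fieldG10C k M 1)}
    (hr : IsPlaceRed A π (FK Kbar M 1) (fieldG10C k M 1) r)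
    {frS : SemilinearAut k (fieldG10C k M 1)} (hfr : IsCoeffSemi frS (frobeniusEquiv k ℓ))
    {δt : fieldG10C k M 1 ≃ₐ[k] fieldG10C k M 1} (hδt : DiaRed2 A π δ δt)
    (hcomm : Commute (SemilinearAut.ofAlgAut δt) frS)
    {ι : Type*} {C : ι → Set (Place Kbar (FK Kbar M 1))}
    {Dinf : ι → Divisor Kbar (FK Kbar M 1)} {Dinf' : ι → Divisor k (fieldG10C k M 1)}
    (hC : ∀ i, Chart2 r (MulAction.toPerm frS)
      (MulAction.toPerm (frS⁻¹ * SemilinearAut.ofAlgAut δt)) (princ2 M A π δ)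
      (C i) (Dinf i) (Dinf' i))
    (hcov : ∀ P, ∃ i, P ∈ C i) (D : Divisor Kbar (FK Kbar M 1)) :
    Finsupp.mapDomain r (Divisor.correspondence (alpha1 Kbar M ℓ) (beta1 Kbar M ℓ) hα hβ D) =
      Finsupp.mapDomain (fun Q => frS • Q) (Finsupp.mapDomain r D) +
        (ℓ : ℤ) • Finsupp.mapDomain (fun Q => (SemilinearAut.ofAlgAut δt * frS⁻¹) • Q)
          (Finsupp.mapDomain r D) := by
  rw [hcomm.inv_right.eq]
  exact es_div_of_charts2 M ℓ A π hM hℓM hd hδ hα hβ hFI hnα hfin hn hN hdeg hr hfr hδt hC hcov D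

end Fermat.Agent.M48.KronMain2_5
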