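/-
M48 (P1), chapter [ESRED1] / KRON twin (helper5), ruling R7: **(ES-div) FOR `Γ₁(M)`, FINAL FORM, from a
`TwoCharts8.TwoCharts`, PAIR form of the diamond compatibility** (replaces `EsDivMain5.es_div_main1`,
`es_div_final1`, whose hypothesis `KronMain5.DiaRed` is false for the diamonds).

New hypotheses with respect to `EsDivMain5`: `hδt : DiamondRed3.DiaRed2 A (resA A) δ δt` (helper3) and
the `δ`-stability of the two chart rings `hδB0 : ∀ b ∈ T.S0.B, δ b ∈ T.S0.B`, `hδB1` (so that `δ b` has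
an `A`-integral `q`-expansion for every chart function `b`: `hG0`/`hG1` at `δ b`).

* `princ2_of_series`, `es_div_main2`;
* **`es_div_final2`** : against helper9's `RedZG9.ChartInputsG`, all Hecke inputs discharged by helper2's
  `Hecke1Deg2`, conclusion in helper8's literal form with `V = (ofAlgAut δt * frS⁻¹) • ·`.
-/
import Fermat.Agent.M48.EsDivMain5
import Fermat.Agent.M48.KronMain2_5

set_option autoImplicit false
set_option linter.unusedSectionVars false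
set_option linter.style.haveILetI false
set_option synthInstance.maxHeartbeats 400000

noncomputable section

open AlgebraicCurve

namespace Fermat.Agent.M48.EsDivMain2_5

open Fermat.Agent.X0.FF Fermat.Agent.ES.RED.PlaceValue13 Fermat.Agent.ES.RED.Contract8
open Fermat.Agent.ES.RED.TwoCharts8
open Fermat.Agent.M48.EsDivAbs5 Fermat.Agent.M48.EsDivMain5
open ModularCurve HahnSeries IntermediateField
open Fermat.Agent.X0 Fermat.Agent.M48.J1Defs8 Fermat.Agent.M48.QModel8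
open Fermat.Agent.M48.RedSpec8 Fermat.Agent.M48.GaloisR3G9 Fermat.Agent.M48.KronMain5
open Fermat.Agent.M48.KronMain2_5 Fermat.Agent.M48.DiamondRed3

section Concrete

variable (M ℓ : ℕ) [NeZero M] [NeZero ℓ] [hℓ : Fact ℓ.Prime]
variable (A : ValuationSubring Kbar) [CharP (kA A) ℓ] [IsAlgClosed (kA A)]

/-- `princ2` from `A`-integral `q`-expansions of `b` (reducing to `bt`) and of `δ b`. -/
theorem princ2_of_series (δ : FK Kbar M 1 ≃ₐ[Kbar] FK Kbar M 1)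
    (b : ↥(FK Kbar M 1)) (bt : ↥(fieldG10C (kA A) M 1)) (hbt : bt ≠ 0)
    (hG : ∃ y : LaurentSeries A, coeffMap A.subtype y = (b : LaurentSeries Kbar) ∧
      coeffMap (resA A) y = (bt : LaurentSeries (kA A)))
    (hG' : ∃ y' : LaurentSeries A, coeffMap A.subtype y' = ((δ b : ↥(FK Kbar M 1)) :
      LaurentSeries Kbar))
    (D : Place Kbar ↥(FK Kbar M 1) →₀ ℤ) (D' : Place (kA A) ↥(fieldG10C (kA A) M 1) →₀ ℤ)
    (hD : ∀ P, D P = P.ord b) (hD' : ∀ Q, D' Q = Q.ord bt) :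
    princ2 M A (resA A) δ D D' := by
  obtain ⟨y, h1, h2⟩ := hG
  obtain ⟨y', h1'⟩ := hG'
  have hy : coeffMap A.subtype y ∈ FK Kbar M 1 := by
    rw [h1]; exact b.2
  have hyk : coeffMap (resA A) y ∈ fieldG10C (kA A) M 1 := by
    rw [h2]; exact bt.2
  have e1 : (⟨coeffMap A.subtype y, hy⟩ : ↥(FK Kbar M 1)) = b := Subtype.ext h1
  have e2 : (⟨coeffMap (resA A) y, hyk⟩ : ↥(fieldG10C (kA A) M 1)) = bt := Subtype.ext h2
  refine ⟨y, y', hy, hyk, ?_, ?_, ?_, ?_⟩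
  · rw [h2]
    intro h0
    exact hbt (Subtype.ext h0)
  · rw [e1]; exact h1'
  · intro P; rw [e1]; exact hD P
  · intro Q; rw [e2]; exact hD' Q

/-- **(ES-div) for `Γ₁(M)`, final form (pair form)**:
`r_* (T_ℓ D) = Fr_* (r_* D) + ℓ · (Fr⁻¹ δt)_* (r_* D)` for the reduction map `r = T.r` of a
`TwoCharts`. -/
theorem es_div_main2
    {x : ↥(FK Kbar M 1)} {hx : IsGen Kbar x}
    (T : TwoCharts A hx ↥(fieldG10C (kA A) M 1))
    {xt : ↥(fieldG10C (kA A) M 1)} (hxt : IsGen (kA A) xt)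
    [Algebra.IsSeparable (kA A)⟮xt⟯ ↥(fieldG10C (kA A) M 1)]
    (hM : 2 ≤ M) (hℓM : ¬ ℓ ∣ M)
    {d : (ZMod M)ˣ} (hd : (d : ZMod M) = (ℓ : ZMod M))
    {δ : FK Kbar M 1 ≃ₐ[Kbar] FK Kbar M 1} (hδ : IsDiamondAut Kbar M d δ)
    (hα : (alpha1 Kbar M ℓ).toRingHom.IsIntegral) (hβ : (beta1 Kbar M ℓ).toRingHom.IsIntegral)
    [HasPrincipalDivisors Kbar (FK Kbar M ℓ)] [HasPrincipalDivisors Kbar (FK Kbar M 1)]
    (hFI : FundamentalIdentityAlong Kbar (alpha1 Kbar M ℓ) hα)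
    (hnα : finrankAlong Kbar (alpha1 Kbar M ℓ) = ℓ + 1)
    (hfin : FiniteAlong Kbar (beta1 Kbar M ℓ)) (hn : finrankAlong Kbar (beta1 Kbar M ℓ) = ℓ + 1)
    (hN : NormFormulaAlong Kbar (beta1 Kbar M ℓ) hfin)
    (hdegP : ∀ P : Place Kbar (FK Kbar M 1), P.deg = 1)
    (hr : IsPlaceRed A (resA A) (FK Kbar M 1) (fieldG10C (kA A) M 1) T.r)
    {frS : SemilinearAut (kA A) (fieldG10C (kA A) M 1)}
    (hfr : IsCoeffSemi frS (frobeniusEquiv (kA A) ℓ))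
    {δt : fieldG10C (kA A) M 1 ≃ₐ[kA A] fieldG10C (kA A) M 1}
    (hδt : DiaRed2 A (resA A) δ δt)
    (hδB0 : ∀ b : ↥(FK Kbar M 1), b ∈ T.S0.B → δ b ∈ T.S0.B)
    (hδB1 : ∀ b : ↥(FK Kbar M 1), b ∈ T.S1.B → δ b ∈ T.S1.B)
    (hintU0 : ∀ P : Place Kbar ↥(FK Kbar M 1),
      T.S0.s ∈ P.toValuationSubring → ∀ b ∈ T.S0.B, b ∈ P.toValuationSubring)
    (hintU1 : ∀ P : Place Kbar ↥(FK Kbar M 1),
      T.S1.s ∈ P.toValuationSubring → ∀ b ∈ T.S1.B, b ∈ P.toValuationSubring)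
    (hintD0 : ∀ Q : Place (kA A) ↥(fieldG10C (kA A) M 1),
      T.S0.red T.S0.sB ∈ Q.toValuationSubring → ∀ b : ↥T.S0.B, T.S0.red b ∈ Q.toValuationSubring)
    (hintD1 : ∀ Q : Place (kA A) ↥(fieldG10C (kA A) M 1),
      T.S1.red T.S1.sB ∈ Q.toValuationSubring → ∀ b : ↥T.S1.B, T.S1.red b ∈ Q.toValuationSubring)
    (hG0 : ∀ b : ↥T.S0.B, ∃ y : LaurentSeries A,
      coeffMap A.subtype y = (((b : ↥(FK Kbar M 1)) : LaurentSeries Kbar)) ∧
      coeffMap (resA A) y = ((T.S0.red b : ↥(fieldG10C (kA A) M 1)) : LaurentSeries (kA A)))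
    (hG1 : ∀ b : ↥T.S1.B, ∃ y : LaurentSeries A,
      coeffMap A.subtype y = (((b : ↥(FK Kbar M 1)) : LaurentSeries Kbar)) ∧
      coeffMap (resA A) y = ((T.S1.red b : ↥(fieldG10C (kA A) M 1)) : LaurentSeries (kA A)))
    (hdeg0 : ∀ (Dinf : Place Kbar ↥(FK Kbar M 1) →₀ ℤ)
      (Dinf' : Place (kA A) ↥(fieldG10C (kA A) M 1) →₀ ℤ),
      (∀ P, Dinf P = max (-(P.ord T.S0.s)) 0) →
      (∀ Q, Dinf' Q = max (-(Q.ord (T.S0.red T.S0.sB))) 0) →
      Dinf.sum (fun _ n => n) = Dinf'.sum (fun _ n => n))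
    (hdeg1 : ∀ (Dinf : Place Kbar ↥(FK Kbar M 1) →₀ ℤ)
      (Dinf' : Place (kA A) ↥(fieldG10C (kA A) M 1) →₀ ℤ),
      (∀ P, Dinf P = max (-(P.ord T.S1.s)) 0) →
      (∀ Q, Dinf' Q = max (-(Q.ord (T.S1.red T.S1.sB))) 0) →
      Dinf.sum (fun _ n => n) = Dinf'.sum (fun _ n => n))
    (hfix : frS • T.S0.red T.S0.sB = T.S0.red T.S0.sB)
    (hfixδ : δt (T.S0.red T.S0.sB) = T.S0.red T.S0.sB)
    (D : Divisor Kbar (FK Kbar M 1)) :
    Finsupp.mapDomain T.r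
        (Divisor.correspondence (alpha1 Kbar M ℓ) (beta1 Kbar M ℓ) hα hβ D) =
      Finsupp.mapDomain (fun Q => frS • Q) (Finsupp.mapDomain T.r D) +
        (ℓ : ℤ) • Finsupp.mapDomain (fun Q => (frS⁻¹ * SemilinearAut.ofAlgAut δt) • Q)
          (Finsupp.mapDomain T.r D) := by
  have hFr0 : ∀ Q : Place (kA A) ↥(fieldG10C (kA A) M 1),
      (MulAction.toPerm frS Q).ord (T.S0.red T.S0.sB) = Q.ord (T.S0.red T.S0.sB) :=
    fun Q => ord_smul_of_fixed frS hfix Q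
  have hfixV : (frS⁻¹ * SemilinearAut.ofAlgAut δt) • T.S0.red T.S0.sB = T.S0.red T.S0.sB := by
    rw [mul_smul, SemilinearAut.ofAlgAut_smul, hfixδ, inv_smul_eq_iff, hfix]
  have hV0 : ∀ Q : Place (kA A) ↥(fieldG10C (kA A) M 1),
      (MulAction.toPerm (frS⁻¹ * SemilinearAut.ofAlgAut δt) Q).ord (T.S0.red T.S0.sB) =
        Q.ord (T.S0.red T.S0.sB) :=
    fun Q => ord_smul_of_fixed _ hfixV Q
  have hG0' : ∀ b : ↥T.S0.B, ∃ y' : LaurentSeries A, coeffMap A.subtype y' =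
      ((δ (b : ↥(FK Kbar M 1)) : ↥(FK Kbar M 1)) : LaurentSeries Kbar) := fun b =>
    (hG0 ⟨δ (b : ↥(FK Kbar M 1)), hδB0 _ b.2⟩).imp fun y h => h.1
  have hG1' : ∀ b : ↥T.S1.B, ∃ y' : LaurentSeries A, coeffMap A.subtype y' =
      ((δ (b : ↥(FK Kbar M 1)) : ↥(FK Kbar M 1)) : LaurentSeries Kbar) := fun b =>
    (hG1 ⟨δ (b : ↥(FK Kbar M 1)), hδB1 _ b.2⟩).imp fun y h => h.1
  obtain ⟨C, Dinf, Dinf', hC, hcov⟩ := charts2_of_twoCharts hxt T (princ2 M A (resA A) δ)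
    (MulAction.toPerm frS) (MulAction.toPerm (frS⁻¹ * SemilinearAut.ofAlgAut δt))
    hintU0 hintU1 hintD0 hintD1
    (fun b hb D D' hD hD' => princ2_of_series M A δ _ _ hb (hG0 b) (hG0' b) D D' hD hD')
    (fun b hb D D' hD hD' => princ2_of_series M A δ _ _ hb (hG1 b) (hG1' b) D D' hD hD')
    (fun f hf => (HasPrincipalDivisors.exists_divisor f hf).imp fun D h => h.1)
    (fun g hg => Fermat.Agent.ES.KRON.FinDiv18.exists_divisor hxt hg)
    (fun Q => Fermat.Agent.ES.KRON.FinDiv18.exists_ord_eq_one Q)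
    hdeg0 hdeg1 hFr0 hV0
  exact es_div_of_charts2 M ℓ A (resA A) hM hℓM hd hδ hα hβ hFI hnα hfin hn hN hdegP hr hfr hδt
    hC hcov D

end Concrete

/-! ### against `RedZG9.ChartInputsG`, Hecke inputs discharged -/

section Final

open Fermat.Agent.M48.RedZG9 Fermat.Agent.M48.Hecke1Deg2 Fermat.Agent.M48.G10Degree2

variable (M ℓ : ℕ) [NeZero M] [NeZero ℓ] [hℓ : Fact ℓ.Prime]
variable (A : ValuationSubring Kbar) [CharP (kA A) ℓ] [IsAlgClosed (kA A)]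
variable {x : ↥(FK Kbar M 1)} {hx : IsGen Kbar x}

/-- **(ES-div) for `Γ₁(M)`** from the chart inputs of `RedZG9`, all Hecke inputs discharged, pair
form of the diamond compatibility; the second bijection in the form `δt Fr⁻¹`. -/
theorem es_div_final2 (hM : 2 ≤ M) (hℓM : ¬ ℓ ∣ M)
    (T : TwoCharts A hx ↥(fieldG10C (kA A) M 1))
    (h0 : ChartInputsG A T.S0) (h1 : ChartInputsG A T.S1)
    {d : (ZMod M)ˣ} (hd : (d : ZMod M) = (ℓ : ZMod M))
    {δ : FK Kbar M 1 ≃ₐ[Kbar] FK Kbar M 1} (hδ : IsDiamondAut Kbar M d δ)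
    {frS : SemilinearAut (kA A) (fieldG10C (kA A) M 1)}
    (hfr : IsCoeffSemi frS (frobeniusEquiv (kA A) ℓ))
    {δt : fieldG10C (kA A) M 1 ≃ₐ[kA A] fieldG10C (kA A) M 1}
    (hδt : DiaRed2 A (resA A) δ δt)
    (hcomm : Commute (SemilinearAut.ofAlgAut δt) frS)
    (hδB0 : ∀ b : ↥(FK Kbar M 1), b ∈ T.S0.B → δ b ∈ T.S0.B)
    (hδB1 : ∀ b : ↥(FK Kbar M 1), b ∈ T.S1.B → δ b ∈ T.S1.B)
    (hintU0 : ∀ P : Place Kbar ↥(FK Kbar M 1),
      T.S0.s ∈ P.toValuationSubring → ∀ b ∈ T.S0.B, b ∈ P.toValuationSubring)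
    (hintU1 : ∀ P : Place Kbar ↥(FK Kbar M 1),
      T.S1.s ∈ P.toValuationSubring → ∀ b ∈ T.S1.B, b ∈ P.toValuationSubring)
    (hfix : frS • T.S0.red T.S0.sB = T.S0.red T.S0.sB)
    (hfixδ : δt (T.S0.red T.S0.sB) = T.S0.red T.S0.sB)
    (hα : (alpha1 Kbar M ℓ).toRingHom.IsIntegral) (hβ : (beta1 Kbar M ℓ).toRingHom.IsIntegral)
    [HasPrincipalDivisors Kbar (FK Kbar M ℓ)]
    (D : Divisor Kbar (FK Kbar M 1)) :
    Finsupp.mapDomain T.r
        (Divisor.correspondence (alpha1 Kbar M ℓ) (beta1 Kbar M ℓ) hα hβ D) =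
      Finsupp.mapDomain (fun Q => frS • Q) (Finsupp.mapDomain T.r D) +
        (ℓ : ℤ) • Finsupp.mapDomain (fun Q => (SemilinearAut.ofAlgAut δt * frS⁻¹) • Q)
          (Finsupp.mapDomain T.r D) := by
  have := h0.sep
  haveI : HasPrincipalDivisors Kbar (FK Kbar M 1) := hasPrincipalDivisors_FK M 1 hM Kbar
  have hfinα := finiteAlong_alpha1 Kbar hM hℓ.out hℓM
  have hfinβ := finiteAlong_beta1 Kbar hM hℓ.out hℓM
  have hFI : FundamentalIdentityAlong Kbar (alpha1 Kbar M ℓ) hα :=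
    Fermat.Agent.ES.HECKE.FundIdentity19.fundamentalIdentityAlong (alpha1 Kbar M ℓ) hα hfinα
      (isGen_jK M 1 hM Kbar) (isGen_jK M ℓ hM Kbar)
  have hN : NormFormulaAlong Kbar (beta1 Kbar M ℓ) hfinβ :=
    Fermat.Agent.ES.HECKE.NormFormula15.normFormulaAlong_of_isGen (beta1 Kbar M ℓ) hfinβ
      (isGen_jK M ℓ hM Kbar)
  have hr : IsPlaceRed A (resA A) (FK Kbar M 1) (fieldG10C (kA A) M 1) T.r :=
    isPlaceRed_twoCharts' T h0 h1
  rw [hcomm.inv_right.eq]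
  exact es_div_main2 M ℓ A T h0.gent hM hℓM hd hδ hα hβ hFI
    (finrankAlong_alpha1 Kbar hM hℓ.out hℓM) hfinβ (finrankAlong_beta1 Kbar hM hℓ.out hℓM) hN
    (fun P => Fermat.Agent.X0.FF.deg_eq_one hx P) hr hfr hδt hδB0 hδB1 hintU0 hintU1
    (hintD_of_inputsG M A T.S0 h0) (hintD_of_inputsG M A T.S1 h1)
    (fun b => (h0.compat b).imp fun y h => ⟨h.1, h.2.symm⟩)
    (fun b => (h1.compat b).imp fun y h => ⟨h.1, h.2.symm⟩)
    (deg_eq_of_inputsG M A T.S0 h0) (deg_eq_of_inputsG M A T.S1 h1) hfix hfixδ D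

end Final

end Fermat.Agent.M48.EsDivMain2_5
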