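/-
Programme M48, pillar (P1), chapter [RED1], layer (R3-D) — helper9.  **The reduction map commutes
with a LINEAR automorphism fixing the coordinate (diamond), from the PAIR FORM of (Hδ).**

Generic in the two function fields `FB = L · F₀ ≤ L((q))`, `Fk ≤ κ_A((q))`.

* `PairRed A δ δt` : whenever `f ∈ FB` and `δ f` BOTH have `A`-integral `q`-expansions `y`, `y'` and
  the reduction of `y` lies in `Fk`, the reduction of `y'` is `δt` of the reduction of `y`
  (for `F₀ = fieldG10 M 1`, `Fk = fieldG10C κ_A M 1` this is helper3's `DiaRed2 M A (resA A) δ δt`: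
  the form of (Hδ) that is TRUE — an automorphism moving the cusp `∞` does not preserve
  integrality of the expansion at `∞`);
* `mem_B_of_fix` : `δ` fixing the coordinate `s` of a coefficientwise chart preserves the chart
  ring (`= chart A s`, the integral closure of `A[s]`);
* `chartSymOfPairRed` : the chart symmetry `ChartSym S (ofAlgAut δ) (ofAlgAut δt)`;
* **`r_smul_of_pairRed`** : `T.r (ofAlgAut δ • P) = ofAlgAut δt • T.r P` for a two-chart model with
  coefficientwise charts, `δ T.S0.s = T.S0.s` (= sub-contract (R3-D) of `SP1Top8`; divisor form: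
  `GaloisR3G9.mapDomain_smul`).

Nothing is left unproved in this file.  Imported by no statement.
-/
import Mathlib
import Fermat.Agent.M48.GaloisR3G9

set_option autoImplicit false
set_option linter.unusedSectionVars false
set_option synthInstance.maxHeartbeats 400000
set_option linter.style.haveILetI false

noncomputable section

open AlgebraicCurve ModularCurve HahnSeries

namespace Fermat.Agent.M48.GaloisR3D9

open Fermat.Agent.X0.FF Fermat.Agent.ES.RED.PlaceValue13 Fermat.Agent.ES.RED.Contract8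
  Fermat.Agent.ES.RED.TwoCharts8 Fermat.Agent.ES.RED.GaloisContract21
  Fermat.Agent.ES.RED.GaloisRed21 Fermat.Agent.RED.PUR.ChartGeneric22
  Fermat.Agent.M48.GaloisR3G9

variable {L : Type*} [Field L] [Algebra ℚ L] [IsAlgClosed L] {A : ValuationSubring L}
  {F₀ : IntermediateField ℚ (LaurentSeries ℚ)} {x : ↥(laurentBaseChange L F₀)} {hx : IsGen L x}
  {Fk : IntermediateField (kA A) (LaurentSeries (kA A))}

/-- **(Hδ), pair form**: if `f` and `δ f` both have `A`-integral `q`-expansions `y`, `y'` and the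
reduction of `y` lies in `Fk`, then the reduction of `y'` is `δt` of the reduction of `y`. -/
def PairRed (A : ValuationSubring L) {F₀ : IntermediateField ℚ (LaurentSeries ℚ)}
    {Fk : IntermediateField (kA A) (LaurentSeries (kA A))}
    (δ : ↥(laurentBaseChange L F₀) ≃ₐ[L] ↥(laurentBaseChange L F₀))
    (δt : ↥Fk ≃ₐ[kA A] ↥Fk) : Prop :=
  ∀ (y y' : LaurentSeries ↥A) (hy : coeffMap A.subtype y ∈ laurentBaseChange L F₀)
    (hyk : coeffMap (resA A) y ∈ Fk),
    coeffMap A.subtype y' = ((δ ⟨_, hy⟩ : ↥(laurentBaseChange L F₀)) : LaurentSeries L) →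
    coeffMap (resA A) y' = ((δt ⟨_, hyk⟩ : ↥Fk) : LaurentSeries (kA A))

variable {S : ChartSpec A hx ↥Fk}

/-- a linear automorphism fixing the coordinate preserves the ring of a coefficientwise chart. -/
theorem mem_B_of_fix (hS : CoeffChartG (F₀ := F₀) S)
    (δ : ↥(laurentBaseChange L F₀) ≃ₐ[L] ↥(laurentBaseChange L F₀)) (hs : δ S.s = S.s)
    {b : ↥(laurentBaseChange L F₀)} (hb : b ∈ S.B) : δ b ∈ S.B :=
  (hS.mem_iff _).mpr (algEquiv_mem_chart δ hs ((hS.mem_iff b).mp hb))

theorem symm_fix (δ : ↥(laurentBaseChange L F₀) ≃ₐ[L] ↥(laurentBaseChange L F₀))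
    {s : ↥(laurentBaseChange L F₀)} (hs : δ s = s) : δ.symm s = s := by
  conv_lhs => rw [← hs]
  exact δ.symm_apply_apply s

/-- `red` commutes with `(δ, δt)` on a coefficientwise chart, from the pair form of (Hδ). -/
theorem red_comm_of_pairRed (hS : CoeffChartG (F₀ := F₀) S)
    (δ : ↥(laurentBaseChange L F₀) ≃ₐ[L] ↥(laurentBaseChange L F₀)) (δt : ↥Fk ≃ₐ[kA A] ↥Fk)
    (hs : δ S.s = S.s) (hdt : PairRed A δ δt) (b : ↥S.B) :
    S.red ⟨δ (b : ↥(laurentBaseChange L F₀)), mem_B_of_fix hS δ hs b.2⟩ = δt (S.red b) := by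
  obtain ⟨Y, hY⟩ := hS.exists_series b
  obtain ⟨Y', hY'⟩ := hS.exists_series ⟨δ (b : ↥(laurentBaseChange L F₀)), mem_B_of_fix hS δ hs b.2⟩
  have hred := hS.red_eq b Y hY
  have hred' := hS.red_eq ⟨δ (b : ↥(laurentBaseChange L F₀)), mem_B_of_fix hS δ hs b.2⟩ Y' hY'
  have hy : coeffMap A.subtype Y ∈ laurentBaseChange L F₀ := by
    rw [hY]; exact (b : ↥(laurentBaseChange L F₀)).2
  have hyk : coeffMap (resA A) Y ∈ Fk := by
    rw [← hred]; exact (S.red b).2
  have hb : (⟨coeffMap A.subtype Y, hy⟩ : ↥(laurentBaseChange L F₀)) = (b : ↥(laurentBaseChange L F₀)) :=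
    Subtype.ext hY
  have hbk : (⟨coeffMap (resA A) Y, hyk⟩ : ↥Fk) = S.red b := Subtype.ext hred.symm
  have h1 := hdt Y Y' hy hyk (by rw [hY', hb])
  apply Subtype.ext
  rw [hred', h1, hbk]

/-- **the chart symmetry of `(δ, δt)`** for a coefficientwise chart whose coordinate is fixed by
`δ`, from the pair form of (Hδ). -/
def chartSymOfPairRed (hS : CoeffChartG (F₀ := F₀) S)
    (δ : ↥(laurentBaseChange L F₀) ≃ₐ[L] ↥(laurentBaseChange L F₀)) (δt : ↥Fk ≃ₐ[kA A] ↥Fk)
    (hs : δ S.s = S.s) (hdt : PairRed A δ δt) :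
    ChartSym S (SemilinearAut.ofAlgAut δ) (SemilinearAut.ofAlgAut δt) :=
  chartSymOfAlgEquiv S δ δt (fun _ hb => mem_B_of_fix hS δ hs hb)
    (fun _ hb => mem_B_of_fix hS δ.symm (symm_fix δ hs) hb) hs
    (fun b => red_comm_of_pairRed hS δ δt hs hdt b)

variable (T : TwoCharts A hx ↥Fk) [IsAlgClosed (kA A)] {xt : ↥Fk} (hxt : IsGen (kA A) xt)
  (h0 : CoeffChartG (F₀ := F₀) T.S0) (h1 : CoeffChartG (F₀ := F₀) T.S1)

set_option maxHeartbeats 1000000 in
include hxt h0 h1 in
/-- **(R3-D)**: `r (δ P) = δt (r P)` for a linear automorphism `δ` fixing the coordinate of the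
two-chart model, and `δt` its reduction in the pair form. -/
theorem r_smul_of_pairRed
    (δ : ↥(laurentBaseChange L F₀) ≃ₐ[L] ↥(laurentBaseChange L F₀)) (δt : ↥Fk ≃ₐ[kA A] ↥Fk)
    (hs0 : δ T.S0.s = T.S0.s) (hdt : PairRed A δ δt) (P : Place L ↥(laurentBaseChange L F₀)) :
    T.r (SemilinearAut.ofAlgAut δ • P) = SemilinearAut.ofAlgAut δt • T.r P := by
  have hs1 : δ T.S1.s = T.S1.s := by rw [T.s_inv, map_inv₀, hs0]
  exact r_smul_algEquiv T hxt δ δt (chartSymOfPairRed h0 δ δt hs0 hdt)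
    (chartSymOfPairRed h1 δ δt hs1 hdt) P

end Fermat.Agent.M48.GaloisR3D9
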