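/-
M48 (P1), chapter [ESRED1] / KRON twin (helper5), ruling R7: **(ES-div) for `Γ₁(M)` with the inputs of
the model chapter, PAIR form** (replaces `EsDivInst5.es_div_inst1`, whose hypothesis `KronMain5.DiaRed`
is false for the diamonds).

The hypotheses `hδB0/1`, `hintU0/1`, `hfix`, `hfixδ` of `EsDivMain2_5.es_div_final2` are discharged for a
two-chart model with `GaloisR3G9.CoeffChartG` charts (`S.B = chart A s`) whose coordinate is
`s₀ = t = tq ℚbar n e` (the Hauptmodul of `Γ₀(n)`, `n ∣ M`, an element of the `Γ₀(M)`-field):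

* `red_sB_fixed2` : under helper3's `DiaRed2`, if `δ` fixes the chart coordinate `s`, then `δt` fixes
  its reduction;
* `pairRed_of_diaRed2` / `diaRed2_of_pairRed` : helper3's `DiaRed2` is helper9's `GaloisR3D9.PairRed`
  at `F₀ = fieldG10 M 1`, `Fk = fieldG10C κ M 1`;
* **`es_div_inst2`** : (ES-div) from `T`, `ChartInputsG` ×2, `CoeffChartG` ×2, `s₀ = tq ℚbar n e`,
  `tq ℚbar n e ∈ ℚbar · modularFunctionFieldFull M` (`Interface12.TMem n e M`), the diamond pair with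
  `DiaRed2` and commutation with `frS`.
-/
import Fermat.Agent.M48.EsDivMain2_5
import Fermat.Agent.M48.EsDivInst5
import Fermat.Agent.M48.GaloisR3D9

set_option autoImplicit false
set_option linter.unusedSectionVars false
set_option linter.style.haveILetI false
set_option synthInstance.maxHeartbeats 400000

noncomputable section

open AlgebraicCurve ModularCurve HahnSeries IntermediateField

namespace Fermat.Agent.M48.EsDivInst2_5

open Fermat.Agent.X0 Fermat.Agent.X0.FF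
open Fermat.Agent.M48.DictIface4 Fermat.Agent.M48.J1Defs8 Fermat.Agent.M48.QModel8
open Fermat.Agent.M48.RedSpec8 Fermat.Agent.M48.GaloisR3G9 Fermat.Agent.M48.KronMain5
open Fermat.Agent.M48.RedZG9 Fermat.Agent.M48.DiamondAut5 Fermat.Agent.M48.EsDivMain5
open Fermat.Agent.M48.EsDivInst5 Fermat.Agent.M48.EsDivMain2_5 Fermat.Agent.M48.DiamondRed3
open Fermat.Agent.M48.GaloisR3D9
open Fermat.Agent.ES.RED.Contract8 Fermat.Agent.ES.RED.TwoCharts8
open Fermat.Agent.RED.BASE.EtaQuot12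

section Pair

variable {M : ℕ} [NeZero M] {A : ValuationSubring Kbar}

/-- helper3's `DiaRed2` is helper9's `PairRed` at the `Γ₁(M)`-model. -/
theorem pairRed_of_diaRed2 {δ : FK Kbar M 1 ≃ₐ[Kbar] FK Kbar M 1}
    {δt : fieldG10C (kA A) M 1 ≃ₐ[kA A] fieldG10C (kA A) M 1}
    (hδt : DiaRed2 A (resA A) δ δt) :
    PairRed A (F₀ := fieldG10 M 1) (Fk := fieldG10C (kA A) M 1) δ δt :=
  fun y y' hy hyk h => hδt y y' hy hyk h

theorem diaRed2_of_pairRed {δ : FK Kbar M 1 ≃ₐ[Kbar] FK Kbar M 1}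
    {δt : fieldG10C (kA A) M 1 ≃ₐ[kA A] fieldG10C (kA A) M 1}
    (hδt : PairRed A (F₀ := fieldG10 M 1) (Fk := fieldG10C (kA A) M 1) δ δt) :
    DiaRed2 A (resA A) δ δt :=
  fun y y' hy hyk h => hδt y y' hy hyk h

variable {x : ↥(FK Kbar M 1)} {hx : IsGen Kbar x}

/-- **`hfixδ`, pair form**: if `δ` fixes the chart coordinate `s`, then `δt` fixes its reduction. -/
theorem red_sB_fixed2 {S : ChartSpec A hx ↥(fieldG10C (kA A) M 1)} (hS : CompatG A S)
    {δ : FK Kbar M 1 ≃ₐ[Kbar] FK Kbar M 1}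
    {δt : fieldG10C (kA A) M 1 ≃ₐ[kA A] fieldG10C (kA A) M 1}
    (hδt : DiaRed2 A (resA A) δ δt) (hδs : δ S.s = S.s) :
    δt (S.red S.sB) = S.red S.sB := by
  obtain ⟨Y, hY1, hY2⟩ := hS S.sB
  have hy : coeffMap A.subtype Y ∈ FK Kbar M 1 := by
    rw [hY1]
    exact Subtype.property _
  have hyk : coeffMap (resA A) Y ∈ fieldG10C (kA A) M 1 := by
    rw [← hY2]
    exact Subtype.property _
  have e1 : (⟨coeffMap A.subtype Y, hy⟩ : FK Kbar M 1) = S.s := Subtype.ext hY1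
  have e2 : (⟨coeffMap (resA A) Y, hyk⟩ : fieldG10C (kA A) M 1) = S.red S.sB :=
    Subtype.ext hY2.symm
  have h := DiaRed2.fixed hδt Y hy hyk (by rw [e1, hδs])
  rwa [e2] at h

end Pair

/-! ### (ES-div) with the inputs of the model chapter -/

section Inst

variable (M ℓ : ℕ) [NeZero M] [NeZero ℓ] [hℓ : Fact ℓ.Prime]
variable (A : ValuationSubring Kbar) [CharP (kA A) ℓ] [IsAlgClosed (kA A)]
variable {x : ↥(FK Kbar M 1)} {hx : IsGen Kbar x}
variable (n e : ℕ) [NeZero n]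

/-- **(ES-div) for `Γ₁(M)`, pair form**, for a two-chart model with coordinate `t = tq ℚbar n e`:
`r_* (T_ℓ D) = Fr_* (r_* D) + ℓ · (δt Fr⁻¹)_* (r_* D)`, `r = T.r`. -/
theorem es_div_inst2 (hM : 2 ≤ M) (hℓM : ¬ ℓ ∣ M)
    (T : TwoCharts A hx ↥(fieldG10C (kA A) M 1))
    (h0 : ChartInputsG A T.S0) (h1 : ChartInputsG A T.S1)
    (hc0 : CoeffChartG (F₀ := fieldG10 M 1) T.S0) (hc1 : CoeffChartG (F₀ := fieldG10 M 1) T.S1)
    (hs0 : ((T.S0.s : ↥(FK Kbar M 1)) : LaurentSeries Kbar) = tq Kbar n e)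
    (hold : tq Kbar n e ∈ laurentBaseChange Kbar (modularFunctionFieldFull M))
    {d : (ZMod M)ˣ} (hd : (d : ZMod M) = (ℓ : ZMod M))
    {δ : FK Kbar M 1 ≃ₐ[Kbar] FK Kbar M 1} (hδ : IsDiamondAut Kbar M d δ)
    {frS : SemilinearAut (kA A) (fieldG10C (kA A) M 1)}
    (hfr : IsCoeffSemi frS (frobeniusEquiv (kA A) ℓ))
    {δt : fieldG10C (kA A) M 1 ≃ₐ[kA A] fieldG10C (kA A) M 1}
    (hδt : DiaRed2 A (resA A) δ δt)
    (hcomm : Commute (SemilinearAut.ofAlgAut δt) frS)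
    (hα : (alpha1 Kbar M ℓ).toRingHom.IsIntegral) (hβ : (beta1 Kbar M ℓ).toRingHom.IsIntegral)
    [HasPrincipalDivisors Kbar (FK Kbar M ℓ)]
    (D : Divisor Kbar (FK Kbar M 1)) :
    Finsupp.mapDomain T.r
        (Divisor.correspondence (alpha1 Kbar M ℓ) (beta1 Kbar M ℓ) hα hβ D) =
      Finsupp.mapDomain (fun Q => frS • Q) (Finsupp.mapDomain T.r D) +
        (ℓ : ℤ) • Finsupp.mapDomain (fun Q => (SemilinearAut.ofAlgAut δt * frS⁻¹) • Q)
          (Finsupp.mapDomain T.r D) := by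
  have hδs : δ T.S0.s = T.S0.s := isDiamondAut_apply_eq_of_mem_old hδ _ (by rw [hs0]; exact hold)
  have hδs1 : δ T.S1.s = T.S1.s := by rw [T.s_inv, map_inv₀, hδs]
  exact es_div_final2 M ℓ A hM hℓM T h0 h1 hd hδ hfr hδt hcomm
    (fun b hb => mem_B_of_fix hc0 δ hδs hb) (fun b hb => mem_B_of_fix hc1 δ hδs1 hb)
    (hintU_of_mem_chart M A T.S0 fun b hb => (hc0.mem_iff b).mp hb)
    (hintU_of_mem_chart M A T.S1 fun b hb => (hc1.mem_iff b).mp hb)
    (frS_smul_red_sB n e h0.compat hs0 hfr) (red_sB_fixed2 h0.compat hδt hδs) hα hβ D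

end Inst

end Fermat.Agent.M48.EsDivInst2_5
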