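/-
Programme M48, pillar (P1), chapter [GAL1] — helper9.  **DRY**: the literal target
`P1Jac8.GAL1 M` from ONE curve fact, `IsGen ℚbar j` for the function field `FK ℚbar M 1` of
`X₁(M)` over `ℚbar` (`j` transcendental, `FK ℚbar M 1` finite over `ℚbar(j)`):

  `gal1_of : IsGen ℚbar (jK M 1) → GAL1 M`,   `gal1Stmt_of : (∀ M, 2 ≤ M → IsGen ℚbar (jK M 1)) → GAL1Stmt`.

* `ringHom_ext_of_gens` : two ring homomorphisms on `L · F₀` (`F₀ = ℚ(S)`) agreeing on the constants
  and on the generators `S` coincide;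
* `hasLevel_elt`, `hasLevel_place`, `hasLevel_divisor`, `hasLevel_pic0` : open stabilisers for the
  coefficientwise Galois action on `ℚbar · F₀`, for ANY `F₀ ⊂ ℚ((q))` with a Galois-fixed generator
  (twin of `ES/GAL/OpenStab12`, which is the case `F₀ = modularFunctionFieldFull N`);
* `alpha1_smul`, `beta1_smul`, `hecke1_smul`, `hecke1'_smul` : `T_ℓ = β_* α^*` commutes with the Galois
  action (twin of `ES/HECKE/HeckeGalois12.heckeOperatorAlong_smul`);
* `comm_of_isDiamondAut`, `dia1_smul` : the diamond automorphism commutes with the coefficientwise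
  Galois action (both sides agree on the rational generators), hence `dia1` is Galois-equivariant;
  `isDiamondAut_unique` : uniqueness of the diamond automorphism.
-/
import Mathlib
import Fermat.Agent.M48.P1Jac8
import Fermat.Agent.ES.HECKE.HeckeGalois12
import Fermat.Agent.ES.GAL.OpenStab12

set_option autoImplicit false
set_option synthInstance.maxHeartbeats 400000
set_option linter.unusedSectionVars false
set_option linter.style.haveILetI false

noncomputable section

open AlgebraicCurve ModularCurve IntermediateField HahnSeries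

namespace Fermat.Agent.M48.Gal1Of9

open Fermat.Agent.M48.DictIface4 Fermat.Agent.M48.J1Defs8 Fermat.Agent.M48.P1Jac8
  Fermat.Agent.ES.GAL.OpenStab12 Fermat.Agent.X0.FF Fermat.Agent.ES.RED.SpecialFibre13
  Fermat.Agent.ES.RED.PlaceValue13

/-- `ℚbar`. -/
local notation "Qb" => AlgebraicClosure ℚ

attribute [local instance] isAlgebraic_qb

/-! ### Ring homomorphisms on `L · F₀` are determined by constants and generators -/

section Ext

variable {L : Type*} [Field L] [Algebra ℚ L] {F₀ : IntermediateField ℚ (LaurentSeries ℚ)}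
  {R : Type*} [Field R]

/-- Two ring homomorphisms on `L · F₀`, `F₀ = ℚ(S)`, which agree on the constants and on the
generators `S` coincide. -/
theorem ringHom_ext_of_gens (S : Set (LaurentSeries ℚ)) (hS : F₀ = IntermediateField.adjoin ℚ S)
    (φ ψ : laurentBaseChange L F₀ →+* R)
    (hc : ∀ a : L, φ (algebraMap L (laurentBaseChange L F₀) a) =
      ψ (algebraMap L (laurentBaseChange L F₀) a))
    (hg : ∀ y : laurentBaseChange L F₀,
      (∃ z ∈ S, (y : LaurentSeries L) = coeffEmb L z) → φ y = ψ y) : φ = ψ := by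
  let E : Subfield (laurentBaseChange L F₀) := RingHom.eqLocusField φ ψ
  let T : Subfield (LaurentSeries L) :=
    E.map (IntermediateField.val (laurentBaseChange L F₀)).toRingHom
  have hT : ∀ y : laurentBaseChange L F₀, (y : LaurentSeries L) ∈ T → φ y = ψ y := by
    rintro y ⟨y', hy', e⟩
    have e' : y' = y := Subtype.ext e
    subst e'
    exact hy'
  have hTmem : ∀ y : laurentBaseChange L F₀, φ y = ψ y → (y : LaurentSeries L) ∈ T :=
    fun y h => ⟨y, h, rfl⟩
  have hF₀ : ∀ z ∈ F₀, coeffEmb L z ∈ T := by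
    have hle : F₀ ≤ (T.comap (coeffEmb L)).toIntermediateField
        (fun r => by
          rw [eq_ratCast]
          exact SubfieldClass.ratCast_mem _ r) := by
      rw [hS, IntermediateField.adjoin_le_iff]
      intro z hz
      exact hTmem ⟨coeffEmb L z, coeffEmb_mem_laurentBaseChange L
        (hS ▸ IntermediateField.subset_adjoin ℚ S hz)⟩ (hg _ ⟨z, hz, rfl⟩)
    exact fun z hz => hle hz
  have hsub : ∀ x ∈ laurentBaseChange L F₀, x ∈ T := by
    intro x hx
    rw [mem_laurentBaseChange_iff] at hx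
    refine Subfield.closure_le.2 ?_ hx
    rintro x (⟨a, rfl⟩ | ⟨z, hz, rfl⟩)
    · exact hTmem (algebraMap L (laurentBaseChange L F₀) a) (hc a)
    · exact hF₀ z hz
  exact RingHom.ext fun y => hT y (hsub y y.2)

end Ext

/-! ### Open stabilisers for the coefficientwise Galois action on `ℚbar · F₀` -/

section Level

variable (F₀ : IntermediateField ℚ (LaurentSeries ℚ))

/-- every element of `ℚbar · F₀` is fixed by an open subgroup. -/
theorem hasLevel_elt (b : laurentBaseChange Qb F₀) :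
    HasLevel (fun σ => arithmeticGalois F₀ σ • b = b) := by
  obtain ⟨L, -, hL, b', -, hb'⟩ :=
    Fermat.Agent.RED.DESC.CoeffDescent1.exists_finite_descent (L := Qb) (F₀ := F₀) ⊥ b.2
  refine ⟨L, hL, fun σ hσ => Subtype.ext ?_⟩
  rw [coe_arithmeticGalois_smul, ← hb', coeffMap_coeffMap]
  refine coeffMap_congr (RingHom.ext fun a => ?_) b'
  exact hσ _ a.2

variable {F₀}

/-- **every place of `ℚbar · F₀` is fixed by an open subgroup of `Gal(ℚbar/ℚ)`**, as soon as there
is a Galois-fixed generator. -/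
theorem hasLevel_place {x₀ : laurentBaseChange Qb F₀} (hx₀ : IsGen Qb x₀)
    (hgx₀ : ∀ σ : Qb ≃ₐ[ℚ] Qb, arithmeticGalois F₀ σ • x₀ = x₀)
    (P : Place Qb (laurentBaseChange Qb F₀)) :
    HasLevel (fun σ => arithmeticGalois F₀ σ • P = P) := by
  obtain ⟨x, hx, hgx, hP⟩ : ∃ x : laurentBaseChange Qb F₀, IsGen Qb x ∧
      (∀ σ : Qb ≃ₐ[ℚ] Qb, arithmeticGalois F₀ σ • x = x) ∧ x ∈ P.toValuationSubring := by
    rcases mem_or_inv_mem (x := x₀) P with h | h
    · exact ⟨_, hx₀, hgx₀, h⟩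
    · refine ⟨_, isGen_inv hx₀, fun σ => ?_, h⟩
      rw [smul_inv'', hgx₀]
  haveI := finite_intRing hx
  obtain ⟨S, hS⟩ := (Module.finite_def.1 (finite_intRing hx) :
    (⊤ : Submodule (polyRing Qb x) (intRing Qb x)).FG)
  have h1 := hasLevel_forall_finset S
    (fun b σ => arithmeticGalois F₀ σ • ((b : intRing Qb x) : laurentBaseChange Qb F₀) = b)
    (fun b _ => hasLevel_elt F₀ b)
  have h2 := hasLevel_forall_finset S
    (fun b σ => σ (chartPoint hx P hP b) = chartPoint hx P hP b)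
    (fun b _ => hasLevel_const _)
  have h3 := hasLevel_const (chartPoint hx P hP (genB Qb x))
  refine ((h1.and h2).and h3).mono ?_
  rintro σ ⟨⟨hσ1, hσ2⟩, hσ3⟩
  exact smul_place_eq hx _ (hgx σ) P hP S hS hσ1 hσ3 hσ2

/-- every divisor of `ℚbar · F₀` is fixed by an open subgroup. -/
theorem hasLevel_divisor {x₀ : laurentBaseChange Qb F₀} (hx₀ : IsGen Qb x₀)
    (hgx₀ : ∀ σ : Qb ≃ₐ[ℚ] Qb, arithmeticGalois F₀ σ • x₀ = x₀)
    (D : Divisor Qb (laurentBaseChange Qb F₀)) :
    HasLevel (fun σ => arithmeticGalois F₀ σ • D = D) := by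
  refine (hasLevel_forall_finset D.support
    (fun P σ => arithmeticGalois F₀ σ • P = P)
    (fun P _ => hasLevel_place hx₀ hgx₀ P)).mono fun σ hσ => ?_
  rw [SemilinearAut.divisor_smul_def]
  have := Finsupp.mapDomain_congr (v := D)
    (f := (arithmeticGalois F₀ σ • ·)) (g := id) (fun P hP => hσ P hP)
  rw [this, Finsupp.mapDomain_id]

/-- **every point of `Pic⁰(ℚbar · F₀)` is fixed by an open subgroup.** -/
theorem hasLevel_pic0 {x₀ : laurentBaseChange Qb F₀} (hx₀ : IsGen Qb x₀)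
    (hgx₀ : ∀ σ : Qb ≃ₐ[ℚ] Qb, arithmeticGalois F₀ σ • x₀ = x₀)
    (y : Pic0 Qb (laurentBaseChange Qb F₀)) : HasLevel (fun σ => σ • y = y) := by
  obtain ⟨D, rfl⟩ := Pic0.mk_surjective y
  refine (hasLevel_divisor hx₀ hgx₀ (D : Divisor Qb (laurentBaseChange Qb F₀))).mono fun σ hσ => ?_
  rw [galois_smul_pic0_def, SemilinearAut.pic0_smul_mk]
  exact congrArg Pic0.mk (Subtype.ext hσ)

end Level

/-! ### The formal `j` in `FK K M L` -/

section JK

variable (K : Type*) [Field K] [Algebra ℚ K] (M L : ℕ)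

theorem jq_mem_fieldG10 : jq ∈ fieldG10 M L := by
  have h : qExpand ℚ 1 jq ∈ divisorExpansions (M * L) := mem_divisorExpansions (M * L) (one_dvd _)
  rw [qExpand_one_apply] at h
  exact IntermediateField.subset_adjoin ℚ _ (Or.inl h)

/-- the formal `j` as an element of `FK K M L`. -/
def jK : FK K M L := ⟨coeffEmb K jq, coeffEmb_mem_laurentBaseChange K (jq_mem_fieldG10 M L)⟩

@[simp]
theorem coe_jK : ((jK K M L : FK K M L) : LaurentSeries K) = coeffEmb K jq := rfl

theorem arithmeticGalois_smul_jK (σ : K ≃ₐ[ℚ] K) :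
    arithmeticGalois (fieldG10 M L) σ • jK K M L = jK K M L := by
  apply Subtype.ext
  rw [coe_arithmeticGalois_smul]
  exact coeffMap_coeffEmb σ _

end JK

/-! ### `T_ℓ` commutes with the Galois action -/

section Hecke

variable {K : Type*} [Field K] [Algebra ℚ K] (M ℓ : ℕ)

theorem alpha1_smul (σ : K ≃ₐ[ℚ] K) (f : FK K M 1) :
    alpha1 K M ℓ (arithmeticGalois (fieldG10 M 1) σ • f) =
      arithmeticGalois (fieldG10 M ℓ) σ • alpha1 K M ℓ f := by
  apply Subtype.ext
  rw [coe_alpha1, coe_arithmeticGalois_smul, coe_arithmeticGalois_smul, coe_alpha1]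

theorem beta1_smul [NeZero ℓ] (σ : K ≃ₐ[ℚ] K) (f : FK K M 1) :
    beta1 K M ℓ (arithmeticGalois (fieldG10 M 1) σ • f) =
      arithmeticGalois (fieldG10 M ℓ) σ • beta1 K M ℓ f := by
  apply Subtype.ext
  rw [coe_beta1, coe_arithmeticGalois_smul, coe_arithmeticGalois_smul, coe_beta1,
    Fermat.Agent.X0.CuspGood.coeffMap_qExpand]

/-- **`T_ℓ (σ • x) = σ • T_ℓ x`** on `J₁(M)(ℚbar)`. -/
theorem hecke1_smul [NeZero ℓ] {x₀ : FK Qb M 1} (hx₀ : IsGen Qb x₀) (σ : Qb ≃ₐ[ℚ] Qb)
    (x : J1 M) : hecke1 Qb M ℓ (σ • x) = σ • hecke1 Qb M ℓ x := by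
  by_cases h : Hecke1Inputs Qb M ℓ
  · obtain ⟨hα, hβ, hP, hfin, hFI, hN⟩ := h
    haveI := hP
    rw [hecke1_eq hα hβ hFI hfin hN, galois_smul_pic0_def, galois_smul_pic0_def]
    exact Fermat.Agent.ES.HECKE.HeckeGalois12.pic0_correspondence_smul
      (alpha1 Qb M ℓ) (beta1 Qb M ℓ) hα hβ
      (arithmeticGalois (fieldG10 M 1) σ) (arithmeticGalois (fieldG10 M ℓ) σ) hFI hfin hN
      (alpha1_smul M ℓ σ) (beta1_smul M ℓ σ)
      (fun w => Fermat.Agent.ES.HECKE.FundId12.inertiaDegAlong_eq_one (beta1 Qb M ℓ) hβ hfin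
        hx₀ w) x
  · have h0 : hecke1 Qb M ℓ = 0 := by rw [hecke1, dif_neg h]
    rw [h0, AddMonoidHom.zero_apply, AddMonoidHom.zero_apply, smul_zero]

theorem hecke1'_smul {x₀ : FK Qb M 1} (hx₀ : IsGen Qb x₀) (σ : Qb ≃ₐ[ℚ] Qb) (x : J1 M) :
    hecke1' Qb M ℓ (σ • x) = σ • hecke1' Qb M ℓ x := by
  by_cases hℓ : ℓ = 0
  · have h0 : hecke1' Qb M ℓ = 0 := by rw [hecke1', dif_pos hℓ]
    rw [h0, AddMonoidHom.zero_apply, AddMonoidHom.zero_apply, smul_zero]
  · haveI : NeZero ℓ := ⟨hℓ⟩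
    rw [hecke1'_eq]
    exact hecke1_smul M ℓ hx₀ σ x

end Hecke

/-! ### The diamond automorphism commutes with the Galois action -/

section Diamond

variable {K : Type*} [Field K] [Algebra ℚ K] {M : ℕ}

theorem fieldG10_one_eq (M : ℕ) :
    fieldG10 M 1 = IntermediateField.adjoin ℚ (divisorExpansions (M * 1) ∪ gExpansions M 1) := rfl

/-- the values of a diamond automorphism on the rational generators. -/
theorem apply_gen_of_isDiamondAut {d : (ZMod M)ˣ} {δ : FK K M 1 ≃ₐ[K] FK K M 1}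
    (hδ : IsDiamondAut K M d δ) (y : FK K M 1)
    (hy : ∃ z ∈ divisorExpansions (M * 1) ∪ gExpansions M 1,
      (y : LaurentSeries K) = coeffEmb K z) :
    ∃ z' : LaurentSeries ℚ, ((δ y : FK K M 1) : LaurentSeries K) = coeffEmb K z' := by
  obtain ⟨z, hz, hyz⟩ := hy
  rcases hz with ⟨e, hne, he, rfl⟩ | ⟨a, e, hne, he, rfl⟩
  · haveI := hne
    rw [mul_one] at he
    exact ⟨_, by rw [hδ.1 e he y hyz, hyz]⟩
  · haveI := hne
    have he1 : e = 1 := Nat.dvd_one.1 he
    subst he1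
    rw [qExpand_one_apply] at hyz
    exact ⟨_, hδ.2 a y hyz⟩

/-- **the diamond automorphism commutes with the coefficientwise Galois action.** -/
theorem comm_of_isDiamondAut {d : (ZMod M)ˣ} {δ : FK K M 1 ≃ₐ[K] FK K M 1}
    (hδ : IsDiamondAut K M d δ) (σ : K ≃ₐ[ℚ] K) :
    SemilinearAut.ofAlgAut δ * arithmeticGalois (fieldG10 M 1) σ =
      arithmeticGalois (fieldG10 M 1) σ * SemilinearAut.ofAlgAut δ := by
  have key : ((δ : FK K M 1 ≃+* FK K M 1) : FK K M 1 →+* FK K M 1).comp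
      ((arithmeticRingAut (fieldG10 M 1) σ : FK K M 1 ≃+* FK K M 1) : FK K M 1 →+* FK K M 1) =
      ((arithmeticRingAut (fieldG10 M 1) σ : FK K M 1 ≃+* FK K M 1) : FK K M 1 →+* FK K M 1).comp
        ((δ : FK K M 1 ≃+* FK K M 1) : FK K M 1 →+* FK K M 1) := by
    refine ringHom_ext_of_gens _ (fieldG10_one_eq M) _ _ (fun a => ?_) (fun y hy => ?_)
    · show δ (arithmeticRingAut (fieldG10 M 1) σ (algebraMap K (FK K M 1) a)) =
        arithmeticRingAut (fieldG10 M 1) σ (δ (algebraMap K (FK K M 1) a))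
      rw [arithmeticRingAut_algebraMap, δ.commutes, δ.commutes, arithmeticRingAut_algebraMap]
    · show δ (arithmeticRingAut (fieldG10 M 1) σ y) = arithmeticRingAut (fieldG10 M 1) σ (δ y)
      have h1 : arithmeticRingAut (fieldG10 M 1) σ y = y := by
        obtain ⟨z, -, hyz⟩ := hy
        apply Subtype.ext
        rw [coe_arithmeticRingAut_apply, hyz]
        exact coeffMap_coeffEmb σ z
      have h2 : arithmeticRingAut (fieldG10 M 1) σ (δ y) = δ y := by
        obtain ⟨z', hz'⟩ := apply_gen_of_isDiamondAut hδ y hy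
        apply Subtype.ext
        rw [coe_arithmeticRingAut_apply, hz']
        exact coeffMap_coeffEmb σ z'
      rw [h1, h2]
  refine Subtype.ext (Prod.ext (RingEquiv.ext fun f => ?_) ?_)
  · exact RingHom.congr_fun key f
  · show (1 : RingAut K) * σ.toRingEquiv = σ.toRingEquiv * 1
    rw [one_mul, mul_one]

/-- **uniqueness of the diamond automorphism.** -/
theorem isDiamondAut_unique {d : (ZMod M)ˣ} {δ δ' : FK K M 1 ≃ₐ[K] FK K M 1}
    (hδ : IsDiamondAut K M d δ) (hδ' : IsDiamondAut K M d δ') : δ = δ' := by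
  have key : ((δ : FK K M 1 ≃+* FK K M 1) : FK K M 1 →+* FK K M 1) =
      ((δ' : FK K M 1 ≃+* FK K M 1) : FK K M 1 →+* FK K M 1) := by
    refine ringHom_ext_of_gens _ (fieldG10_one_eq M) _ _ (fun a => ?_) (fun y hy => ?_)
    · show δ (algebraMap K (FK K M 1) a) = δ' (algebraMap K (FK K M 1) a)
      rw [δ.commutes, δ'.commutes]
    · show δ y = δ' y
      obtain ⟨z, hz, hyz⟩ := hy
      rcases hz with ⟨e, hne, he, rfl⟩ | ⟨a, e, hne, he, rfl⟩
      · haveI := hne
        rw [mul_one] at he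
        rw [hδ.1 e he y hyz, hδ'.1 e he y hyz]
      · haveI := hne
        have he1 : e = 1 := Nat.dvd_one.1 he
        subst he1
        rw [qExpand_one_apply] at hyz
        exact Subtype.ext ((hδ.2 a y hyz).trans (hδ'.2 a y hyz).symm)
  exact AlgEquiv.ext fun f => RingHom.congr_fun key f

/-- the action of a diamond automorphism on `Pic⁰` commutes with the Galois action. -/
theorem ofAlgAut_smul_comm {d : (ZMod M)ˣ} {δ : FK K M 1 ≃ₐ[K] FK K M 1}
    (hδ : IsDiamondAut K M d δ) (σ : K ≃ₐ[ℚ] K) (y : Pic0 K (FK K M 1)) :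
    SemilinearAut.ofAlgAut δ • (σ • y) = σ • (SemilinearAut.ofAlgAut δ • y) := by
  rw [galois_smul_pic0_def, galois_smul_pic0_def, ← mul_smul, ← mul_smul,
    comm_of_isDiamondAut hδ σ]

theorem dia1_eq_of_isDiamondAut {d : (ZMod M)ˣ}
    (h : ∃ δ : FK K M 1 ≃ₐ[K] FK K M 1, IsDiamondAut K M d δ) (y : Pic0 K (FK K M 1)) :
    dia1 K M d y = SemilinearAut.ofAlgAut h.choose • y := by
  rw [dia1, dif_pos h]
  rfl

/-- **`⟨d⟩ (σ • y) = σ • ⟨d⟩ y`** on `Pic⁰ (FK K M 1)`. -/
theorem dia1_smul (M : ℕ) (d : (ZMod M)ˣ) (σ : K ≃ₐ[ℚ] K) (y : Pic0 K (FK K M 1)) :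
    dia1 K M d (σ • y) = σ • dia1 K M d y := by
  by_cases h : ∃ δ : FK K M 1 ≃ₐ[K] FK K M 1, IsDiamondAut K M d δ
  · rw [dia1_eq_of_isDiamondAut h, dia1_eq_of_isDiamondAut h]
    exact ofAlgAut_smul_comm h.choose_spec σ y
  · have h0 : dia1 K M d = 0 := by rw [dia1, dif_neg h]
    rw [h0, AddMonoidHom.zero_apply, AddMonoidHom.zero_apply, smul_zero]

end Diamond

/-! ### [GAL1] -/

/-- **[GAL1] for the level `M` from the curve fact `IsGen ℚbar j`.** -/
theorem gal1_of (M : ℕ) [NeZero M] (hj : IsGen Qb (jK Qb M 1)) : GAL1 M where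
  hecke_smul ℓ σ y := hecke1'_smul M ℓ hj σ y
  dia_smul d σ y := dia1_smul (K := Qb) M d σ y
  level y := hasLevel_pic0 hj (arithmeticGalois_smul_jK Qb M 1) y

/-- **[GAL1]**, literal target, from the curve fact. -/
theorem gal1Stmt_of (hj : ∀ (M : ℕ) [NeZero M], 2 ≤ M → IsGen Qb (jK Qb M 1)) : GAL1Stmt :=
  fun M _ hM => gal1_of M (hj M hM)

end Fermat.Agent.M48.Gal1Of9
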