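/-
Programme M48, pillar (P1), chapter [SP1] — helper8.  **THE DRY TOP OF [SP1]** (ruling R6: no
auxiliary level):

  `sp1_of_red : (sub-contracts of [RED1], [ESRED1], ES.HECKE at the level M) → P1Jac8.SP1 M hℓ hℓM A`.

Setting: `2 ≤ M`, `ℓ ∤ M` prime, `A` a valuation subring of `ℚbar` over `ℓ`, `κ` its residue field,
`F := FK ℚbar M 1 = ℚbar · fieldG10 M 1`, `Fκ : IntermediateField κ κ((q))` the function field of the
special fibre (in the application `QModel8.fieldG10C κ M 1`; the assembly does not need to know).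
`Φ := redPic0 r hr hgen : J₁(M) →+ Pic⁰ Fκ` (no level pullback).

Sub-contracts (hypotheses of `sp1_of_red`):
* (R-r), (R-gen) [RED1] : `r`, `hr : IsPlaceRed A (residue A) F Fκ r`, `hgen`;
* (R3-I)  [RED1] : `r (τ P) = r P` for `τ` in the inertia group of `A`;
* (R3-F)  [RED1] : `r (σ P) = frS • r P` for `σ` a Frobenius element at `A` (`frS` a semilinear
                   automorphism of `Fκ`: the coefficientwise Frobenius);
* (R3-D)  [RED1] : `r (δ P) = dS • r P` for `δ` the diamond automorphism `⟨ℓ⟩` of `F` (`dS` a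
                   semilinear automorphism of `Fκ`: the reduced diamond automorphism);
* (H1)    [ES.HECKE, helper2] : the pieces of `Hecke1Inputs ℚbar M ℓ`;
* (ES-div) [ESRED1] : `r_* (β_* α^* D) = Fr_* (r_* D) + ℓ • (dS Fr⁻¹)_* (r_* D)` on divisors;
* (Φ3)    [RED1] : `Φ` is injective on prime-to-`ℓ` torsion.

`SP1Inputs M hℓ hℓM A` packages them as one proposition; `sp1Stmt49_of_inputs` gives
`P1Jac49_8.SP1Stmt49`.
-/
import Mathlib
import Fermat.Agent.M48.P1Jac49_8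
import Fermat.Agent.M48.RedSpec8
import Fermat.Agent.M48.Gal1Of9

set_option autoImplicit false
set_option linter.unusedSectionVars false
set_option linter.style.haveILetI false
set_option synthInstance.maxHeartbeats 400000

open AlgebraicCurve ModularCurve IntermediateField HahnSeries

noncomputable section

namespace Fermat.Agent.M48.SP1Top8

open Fermat.Agent.M48.J1Defs8 Fermat.Agent.M48.P1Jac8 Fermat.Agent.M48.RedSpec8
  Fermat.Agent.M48.DictIface4 Fermat.Agent.M48.P1Lattice8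

local notation "Qb" => AlgebraicClosure ℚ

/-! ### The abstract relation -/

section Abstract

variable {Γ J G : Type*} [Group Γ] [AddCommGroup J] [DistribMulAction Γ J] [AddCommGroup G]
  {S : Type*} [Group S] [DistribMulAction S G]

/-- The Eichler–Shimura relation for `Φ` from: `Φ σ = Fr Φ`, `Φ T = (Fr + ℓ d Fr⁻¹) Φ`,
`Φ D = d Φ`. -/
theorem relation_of_red (Φ : J →+ G) (T D : J →+ J) (σ : Γ) (fr d : S) (ℓ : ℕ)
    (hσ : ∀ y, Φ (σ • y) = fr • Φ y)
    (hT : ∀ y, Φ (T y) = fr • Φ y + ℓ • ((d * fr⁻¹) • Φ y))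
    (hD : ∀ y, Φ (D y) = d • Φ y) (x : J) :
    Φ (σ • σ • x - T (σ • x) + ℓ • D x) = 0 := by
  rw [map_add, map_sub, map_nsmul, hσ, hσ, hT, hσ, hD, mul_smul, inv_smul_smul]
  abel

end Abstract

/-! ### The `Pic⁰` passage of (ES-div) -/

section EsPic

variable {L : Type*} [Field L] {A : ValuationSubring L} {k : Type*} [Field k] {π : A →+* k}
variable {FB FB' : IntermediateField L (LaurentSeries L)}
  {Fk : IntermediateField k (LaurentSeries k)}
variable (r : Place L FB → Place k Fk)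

/-- **(ES) on `Pic⁰`** from the divisor identity (ES-div), for an arbitrary correspondence
`ψ_* φ^*` on `FB` and semilinear automorphisms `fr`, `v` of the special fibre. -/
theorem red_correspondence (hr : IsPlaceRed A π FB Fk r) (hgen : PrincipalGenByIntegral A π FB Fk)
    [HasPrincipalDivisors L FB'] (φ ψ : FB →ₐ[L] FB')
    (hφ : φ.toRingHom.IsIntegral) (hψ : ψ.toRingHom.IsIntegral)
    (hFI : FundamentalIdentityAlong L φ hφ) (hfin : FiniteAlong L ψ)
    (hN : NormFormulaAlong L ψ hfin) (fr v : SemilinearAut k Fk) (ℓ : ℕ)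
    (hES : ∀ D : Divisor L FB, Finsupp.mapDomain r (Divisor.correspondence φ ψ hφ hψ D) =
      fr • Finsupp.mapDomain r D + (ℓ : ℤ) • (v • Finsupp.mapDomain r D))
    (z : Pic0 L FB) :
    redPic0 r hr hgen (Pic0.correspondence φ ψ hφ hψ hFI hfin hN z) =
      fr • redPic0 r hr hgen z + ℓ • (v • redPic0 r hr hgen z) := by
  obtain ⟨D, rfl⟩ := Pic0.mk_surjective z
  rw [Pic0.correspondence_mk, redPic0_mk, redPic0_mk, SemilinearAut.pic0_smul_mk,
    SemilinearAut.pic0_smul_mk]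
  have key : redDegZero r hr.1 (Pic0.degZeroCorrespondence φ ψ hφ hψ hFI D) =
      SemilinearAut.degZeroSMulHom fr (redDegZero r hr.1 D) +
        ℓ • SemilinearAut.degZeroSMulHom v (redDegZero r hr.1 D) := by
    apply Subtype.ext
    rw [coe_redDegZero, Pic0.coe_degZeroCorrespondence, AddSubgroup.coe_add,
      AddSubgroup.coe_nsmul, SemilinearAut.coe_degZeroSMulHom, SemilinearAut.coe_degZeroSMulHom,
      coe_redDegZero, ← Nat.cast_smul_eq_nsmul ℤ]
    exact hES D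
  rw [key]
  show QuotientAddGroup.mk' _ _ = QuotientAddGroup.mk' _ _ + ℓ • QuotientAddGroup.mk' _ _
  rw [map_add, map_nsmul]

end EsPic

/-! ### The assembly -/

/-- `dia1` unfolded along any diamond automorphism. -/
theorem dia1_apply_of {K : Type*} [Field K] [Algebra ℚ K] {M : ℕ} {d : (ZMod M)ˣ}
    {δ : FK K M 1 ≃ₐ[K] FK K M 1} (hδ : IsDiamondAut K M d δ) (y : Pic0 K (FK K M 1)) :
    dia1 K M d y = SemilinearAut.ofAlgAut δ • y := by
  have h : ∃ δ : FK K M 1 ≃ₐ[K] FK K M 1, IsDiamondAut K M d δ := ⟨δ, hδ⟩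
  rw [Fermat.Agent.M48.Gal1Of9.dia1_eq_of_isDiamondAut h,
    Fermat.Agent.M48.Gal1Of9.isDiamondAut_unique h.choose_spec hδ]

section Assembly

variable {M : ℕ} [NeZero M] {ℓ : ℕ} (hℓ : ℓ.Prime) (hℓM : ¬ ℓ ∣ M) {A : ValuationSubring Qb}
variable {Fκ : IntermediateField (IsLocalRing.ResidueField A)
  (LaurentSeries (IsLocalRing.ResidueField A))}
variable (r : Place Qb (FK Qb M 1) → Place (IsLocalRing.ResidueField A) Fκ)
variable (hr : IsPlaceRed A (IsLocalRing.residue A) (FK Qb M 1) Fκ r)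
  (hgen : PrincipalGenByIntegral A (IsLocalRing.residue A) (FK Qb M 1) Fκ)

/-- `Φ (σ • x) = red (σ • x)` with the Prelude's Galois action unfolded. -/
theorem red_galois_smul (g : SemilinearAut (IsLocalRing.ResidueField A) Fκ) (σ : Qb ≃ₐ[ℚ] Qb)
    (h : ∀ P : Place Qb (FK Qb M 1), r (arithmeticGalois (fieldG10 M 1) σ • P) = g • r P)
    (x : J1 M) : redPic0 r hr hgen (σ • x) = g • redPic0 r hr hgen x := by
  rw [galois_smul_pic0_def]
  exact redPic0_smul r hr hgen _ g h x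

/-- **[SP1] from the sub-contracts at the level `M`** (no auxiliary level). -/
theorem sp1_of_red [NeZero ℓ]
    (frS dS : SemilinearAut (IsLocalRing.ResidueField A) Fκ)
    (hI : ∀ τ ∈ A.inertiaSubgroupIn ℚ, ∀ P : Place Qb (FK Qb M 1),
      r (arithmeticGalois (fieldG10 M 1) τ • P) = r P)
    (hFr : ∀ σ : Qb ≃ₐ[ℚ] Qb, A.IsFrobeniusAt σ ℓ → ∀ P : Place Qb (FK Qb M 1),
      r (arithmeticGalois (fieldG10 M 1) σ • P) = frS • r P)
    (δ : FK Qb M 1 ≃ₐ[Qb] FK Qb M 1) (hδ : IsDiamondAut Qb M (unitAt hℓ hℓM) δ)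
    (hdia : ∀ P : Place Qb (FK Qb M 1), r (SemilinearAut.ofAlgAut δ • P) = dS • r P)
    (hα : (alpha1 Qb M ℓ).toRingHom.IsIntegral) (hβ : (beta1 Qb M ℓ).toRingHom.IsIntegral)
    [HasPrincipalDivisors Qb (FK Qb M ℓ)]
    (hFI : FundamentalIdentityAlong Qb (alpha1 Qb M ℓ) hα)
    (hfin : FiniteAlong Qb (beta1 Qb M ℓ)) (hN : NormFormulaAlong Qb (beta1 Qb M ℓ) hfin)
    (hES : ∀ D : Divisor Qb (FK Qb M 1),
      Finsupp.mapDomain r
          (Divisor.correspondence (alpha1 Qb M ℓ) (beta1 Qb M ℓ) hα hβ D) =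
        frS • Finsupp.mapDomain r D + (ℓ : ℤ) • ((dS * frS⁻¹) • Finsupp.mapDomain r D))
    (h3 : ∀ (m : ℕ) (x : J1 M), ¬ ℓ ∣ m → m • x = 0 → redPic0 r hr hgen x = 0 → x = 0) :
    SP1 M hℓ hℓM A := by
  refine ⟨Pic0 (IsLocalRing.ResidueField A) Fκ, inferInstance, redPic0 r hr hgen, ?_, ?_, h3⟩
  · intro τ hτ x
    rw [galois_smul_pic0_def]
    exact redPic0_smul_of_fixed r hr hgen _ (hI τ hτ) x
  · intro σ hσ x
    have hT : ∀ y : J1 M, redPic0 r hr hgen (hecke1' Qb M ℓ y) =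
        frS • redPic0 r hr hgen y + ℓ • ((dS * frS⁻¹) • redPic0 r hr hgen y) := by
      intro y
      rw [hecke1'_eq, hecke1_eq hα hβ hFI hfin hN]
      exact red_correspondence r hr hgen _ _ hα hβ hFI hfin hN frS (dS * frS⁻¹) ℓ hES y
    have hD : ∀ y : J1 M, redPic0 r hr hgen (dia1 Qb M (unitAt hℓ hℓM) y) =
        dS • redPic0 r hr hgen y := by
      intro y
      rw [dia1_apply_of hδ]
      exact redPic0_smul r hr hgen _ dS hdia y
    exact relation_of_red (redPic0 r hr hgen) (hecke1' Qb M ℓ) (dia1 Qb M (unitAt hℓ hℓM)) σ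
      frS dS ℓ (red_galois_smul r hr hgen frS σ (hFr σ hσ)) hT hD x

end Assembly

/-! ### The sub-contracts as one proposition -/

/-- **The inputs of [SP1] at `(M, ℓ, A)`** as one proposition: the deliverable of
[RED1] + [ESRED1] + ES.HECKE. -/
def SP1Inputs (M : ℕ) [NeZero M] {ℓ : ℕ} (hℓ : ℓ.Prime) (hℓM : ¬ ℓ ∣ M)
    (A : ValuationSubring Qb) : Prop :=
  haveI : NeZero ℓ := ⟨hℓ.ne_zero⟩
  ∃ (Fκ : IntermediateField (IsLocalRing.ResidueField A)
        (LaurentSeries (IsLocalRing.ResidueField A)))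
    (r : Place Qb (FK Qb M 1) → Place (IsLocalRing.ResidueField A) Fκ)
    (hr : IsPlaceRed A (IsLocalRing.residue A) (FK Qb M 1) Fκ r)
    (hgen : PrincipalGenByIntegral A (IsLocalRing.residue A) (FK Qb M 1) Fκ)
    (frS dS : SemilinearAut (IsLocalRing.ResidueField A) Fκ)
    (δ : FK Qb M 1 ≃ₐ[Qb] FK Qb M 1)
    (hα : (alpha1 Qb M ℓ).toRingHom.IsIntegral) (hβ : (beta1 Qb M ℓ).toRingHom.IsIntegral)
    (_ : HasPrincipalDivisors Qb (FK Qb M ℓ))
    (hfin : FiniteAlong Qb (beta1 Qb M ℓ)),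
    FundamentalIdentityAlong Qb (alpha1 Qb M ℓ) hα ∧ NormFormulaAlong Qb (beta1 Qb M ℓ) hfin ∧
    IsDiamondAut Qb M (unitAt hℓ hℓM) δ ∧
    (∀ τ ∈ A.inertiaSubgroupIn ℚ, ∀ P : Place Qb (FK Qb M 1),
      r (arithmeticGalois (fieldG10 M 1) τ • P) = r P) ∧
    (∀ σ : Qb ≃ₐ[ℚ] Qb, A.IsFrobeniusAt σ ℓ → ∀ P : Place Qb (FK Qb M 1),
      r (arithmeticGalois (fieldG10 M 1) σ • P) = frS • r P) ∧
    (∀ P : Place Qb (FK Qb M 1), r (SemilinearAut.ofAlgAut δ • P) = dS • r P) ∧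
    (∀ D : Divisor Qb (FK Qb M 1),
      Finsupp.mapDomain r
          (Divisor.correspondence (alpha1 Qb M ℓ) (beta1 Qb M ℓ) hα hβ D) =
        frS • Finsupp.mapDomain r D + (ℓ : ℤ) • ((dS * frS⁻¹) • Finsupp.mapDomain r D)) ∧
    (∀ (m : ℕ) (x : J1 M), ¬ ℓ ∣ m → m • x = 0 → redPic0 r hr hgen x = 0 → x = 0)

theorem sp1_of_inputs {M : ℕ} [NeZero M] {ℓ : ℕ} (hℓ : ℓ.Prime) (hℓM : ¬ ℓ ∣ M)
    {A : ValuationSubring Qb} (h : SP1Inputs M hℓ hℓM A) : SP1 M hℓ hℓM A := by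
  haveI : NeZero ℓ := ⟨hℓ.ne_zero⟩
  obtain ⟨Fκ, r, hr, hgen, frS, dS, δ, hα, hβ, hP, hfin, hFI, hN, hδ, hI, hFr, hdia, hES, h3⟩ := h
  exact sp1_of_red hℓ hℓM r hr hgen frS dS hI hFr δ hδ hdia hα hβ hFI hfin hN hES h3

/-- **`SP1Stmt49` from the inputs at every level with a Hauptmodul base.** -/
theorem sp1Stmt49_of_inputs
    (h : ∀ (M : ℕ) [NeZero M], 2 ≤ M → (4 ∣ M ∨ 9 ∣ M) → ∀ (ℓ : ℕ) (hℓ : ℓ.Prime)
      (hℓM : ¬ ℓ ∣ M) (A : ValuationSubring Qb), A.LiesOverPrime ℓ → SP1Inputs M hℓ hℓM A) :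
    Fermat.Agent.M48.P1Jac49_8.SP1Stmt49 :=
  fun M _ hM h49 ℓ hℓ hℓM A hA => sp1_of_inputs hℓ hℓM (h M hM h49 ℓ hℓ hℓM A hA)

end Fermat.Agent.M48.SP1Top8
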