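/-
M48 (P1), chapter [SP1], FINAL ASSEMBLY (helper5; helper8's spec with ruling R7):

  **`sp1Inputs_of_model` : `ModelAt1 A n e M 1` + `ModelStep1 M 1 A` + `IG1 M 1` + the BASE facts on the
  Hauptmodul `t = tq ℚbar n e` ⟹ `SP1Top8.SP1Inputs M hℓ hℓM A`**,

hence (`sp1Stmt49_of_model`) `P1Jac49_8.SP1Stmt49` from these three inputs at every level `M` with
`4 ∣ M` or `9 ∣ M`.

Setting: `2 ≤ M`, `ℓ ∤ M` prime, `A` a valuation subring of `ℚbar` over `ℓ`, `κ` its residue field,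
`Fκ := fieldG10C κ M 1`, `(n, e)` a Hauptmodul datum with `t ∈ ℚbar · modularFunctionFieldFull M`
(`Interface12.TMem n e M`) and `ℚbar(t) = Fbar_n` (`Interface12.TGenBase n e`).

Plugs:
* (R-r), the two `ChartInputsG`, `CoeffChartG` ×2, `T.S0.s = t`, `IsGen κ t~` :
  helper9's `RedInstG9.exists_of_modelAt1`;
* (R-gen) : helper9's `GaussUnitG9.principalGenByIntegral`;
* `frS` := the coefficientwise Frobenius `GaloisR3G9.coeffSemiOf … (frobeniusEquiv κ ℓ)`;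
* `δ` := `DiamondAut5.exists_isDiamondAut_Qbar` (with helper4's `G10Model4.g10ModelStmt`),
  `δt`, `DiaRed2` := helper3's `DiamondInv3.exists_diamondRed_of_IG1`, `dS := ofAlgAut δt`,
  commutation with `frS` := helper3's `IsDiamondAutC.commute_semilinear`;
* (R3-I), (R3-F) : helper9's `GaloisR3G9.r_smul_of_mem_inertia`, `r_smul_of_isFrobeniusAt`;
* (R3-D) : helper9's `GaloisR3D9.r_smul_of_pairRed`;
* (H1) : helper2's `Hecke1Deg2` + `FundIdentity19` + `NormFormula15`;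
* (ES-div) : `EsDivInst2_5.es_div_inst2`;
* (Φ3) : lead's `Red1Adapt0.phi3_of_modelStep1`.
-/
import Fermat.Agent.M48.EsDivInst2_5
import Fermat.Agent.M48.RedInstG9
import Fermat.Agent.M48.GaussUnitG9
import Fermat.Agent.M48.DiamondInv3
import Fermat.Agent.M48.Red1Adapt0
import Fermat.Agent.M48.SP1Top8
import Fermat.Agent.M48.Hecke1Deg2
import Fermat.Agent.M48.G10Model4
import Fermat.Agent.RED.BASE.Main12

set_option autoImplicit false
set_option linter.unusedSectionVars false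
set_option linter.style.haveILetI false
set_option synthInstance.maxHeartbeats 400000

noncomputable section

open AlgebraicCurve ModularCurve HahnSeries IntermediateField

namespace Fermat.Agent.M48.SP1Final5

open Fermat.Agent.X0 Fermat.Agent.X0.FF
open Fermat.Agent.M48.DictIface4 Fermat.Agent.M48.J1Defs8 Fermat.Agent.M48.QModel8
open Fermat.Agent.M48.RedSpec8 Fermat.Agent.M48.GaloisR3G9 Fermat.Agent.M48.RedZG9
open Fermat.Agent.M48.DiamondRed3 Fermat.Agent.M48.P1Lattice8 Fermat.Agent.M48.P1Jac8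
open Fermat.Agent.M48.Hecke1Deg2 Fermat.Agent.M48.G10Degree2
open Fermat.Agent.ES.RED.Contract8 Fermat.Agent.ES.RED.TwoCharts8
open Fermat.Agent.RED.BASE Fermat.Agent.RED.BASE.EtaQuot12

local notation "Qb" => AlgebraicClosure ℚ

variable {n e : ℕ} [NeZero n]

/-- `t ∈ ℚbar · modularFunctionFieldFull M` survives in the `Γ₁(M)`-field. -/
theorem tMem1_of_old {M : ℕ} [NeZero M] (hold : Interface12.TMem n e M) :
    Red1Iface4.TMem1 n e M 1 := by
  have h := Red1Iface4.fbar_le_F1b M 1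
  rw [mul_one] at h
  exact h hold

/-- **The inputs of [SP1] at `(M, ℓ, A)` from the model chapter.** -/
theorem sp1Inputs_of_model (n e M : ℕ) [NeZero n] [NeZero M] (hM : 2 ≤ M) {ℓ : ℕ} (hℓ : ℓ.Prime)
    (hℓM : ¬ ℓ ∣ M) (A : ValuationSubring Qb) (hA : A.LiesOverPrime ℓ)
    (hIG : PurGauss1.IG1 M 1) (hgenB : Interface12.TGenBase n e) (hold : Interface12.TMem n e M)
    (h : Red1Iface4.TMem1 n e M 1) (hmodel : Red1Iface4.ModelAt1 A n e M 1 h)
    (hstep : Red1Iface4.ModelStep1 M 1 A) : SP1Top8.SP1Inputs M hℓ hℓM A := by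
  haveI : Fact ℓ.Prime := ⟨hℓ⟩
  haveI : NeZero ℓ := ⟨hℓ.ne_zero⟩
  haveI : CharP (kA A) ℓ := Fermat.Agent.ES.KRON.KronInst10.charP_residueField A hℓ hA
  haveI : IsAlgClosed (kA A) := Fermat.Agent.ES.KRON.KronInst10.isAlgClosed_residueField A
  have hℓM1 : ¬ ℓ ∣ M * 1 := by rwa [mul_one]
  obtain ⟨x, hx, T, hc0, hc1, hs0, h0, h1, hr, hxt⟩ :=
    RedInstG9.exists_of_modelAt1 n e M 1 hM ℓ hℓM1 hIG hgenB A hA h hmodel
  have hgen := GaussUnitG9.principalGenByIntegral A ℓ hA M 1 hM hℓM1 hIG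
  -- the coefficientwise Frobenius
  let frS : SemilinearAut (kA A) (fieldG10C (kA A) M 1) :=
    coeffSemiOf (fieldG10C (kA A) M 1) (fun s _ hy => QModel8.coeffMap_mem_fieldG10C s M 1 hy)
      (frobeniusEquiv (kA A) ℓ)
  have hfr : IsCoeffSemi frS (frobeniusEquiv (kA A) ℓ) := isCoeffSemi_coeffSemiOf _ _ _
  -- the diamond and its reduction
  obtain ⟨δ, hδ⟩ :=
    DiamondAut5.exists_isDiamondAut_Qbar G10Model4.g10ModelStmt hM (unitAt hℓ hℓM)
  obtain ⟨δt, hδtC, hδt⟩ := DiamondInv3.exists_diamondRed_of_IG1 hM hℓM hIG hA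
    (π := resA A) Ideal.Quotient.mk_surjective hδ
  have hcomm : Commute (SemilinearAut.ofAlgAut δt) frS :=
    hδtC.commute_semilinear frS _ hfr
  have hd : ((unitAt hℓ hℓM : (ZMod M)ˣ) : ZMod M) = (ℓ : ZMod M) :=
    ZMod.coe_unitOfCoprime ℓ _
  have hs0c : ((T.S0.s : ↥(FK Qb M 1)) : LaurentSeries Qb) = tq Qb n e := by
    rw [hs0]
    rfl
  have hδs : δ T.S0.s = T.S0.s :=
    EsDivInst5.isDiamondAut_apply_eq_of_mem_old hδ _ (by rw [hs0c]; exact hold)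
  -- the Hecke inputs
  have hα : (alpha1 Qb M ℓ).toRingHom.IsIntegral := alpha1_isIntegral Qb hM hℓ hℓM
  have hβ : (beta1 Qb M ℓ).toRingHom.IsIntegral := beta1_isIntegral Qb hM hℓ hℓM
  haveI hPD : HasPrincipalDivisors Qb (FK Qb M ℓ) := hasPrincipalDivisors_FK M ℓ hM Qb
  have hfinα := finiteAlong_alpha1 Qb hM hℓ hℓM
  have hfinβ := finiteAlong_beta1 Qb hM hℓ hℓM
  have hFI : FundamentalIdentityAlong Qb (alpha1 Qb M ℓ) hα :=
    Fermat.Agent.ES.HECKE.FundIdentity19.fundamentalIdentityAlong (alpha1 Qb M ℓ) hα hfinα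
      (isGen_jK M 1 hM Qb) (isGen_jK M ℓ hM Qb)
  have hN : NormFormulaAlong Qb (beta1 Qb M ℓ) hfinβ :=
    Fermat.Agent.ES.HECKE.NormFormula15.normFormulaAlong_of_isGen (beta1 Qb M ℓ) hfinβ
      (isGen_jK M ℓ hM Qb)
  refine ⟨fieldG10C (kA A) M 1, T.r, hr, hgen, frS, SemilinearAut.ofAlgAut δt, δ, hα, hβ, hPD,
    hfinβ, hFI, hN, hδ, ?_, ?_, ?_, ?_, ?_⟩
  · intro τ hτ P
    exact r_smul_of_mem_inertia T hxt hc0 hc1 hτ P
  · intro σ hσ P
    exact r_smul_of_isFrobeniusAt T hxt hc0 hc1 hσ frS hfr P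
  · intro P
    exact GaloisR3D9.r_smul_of_pairRed T hxt hc0 hc1 δ δt hδs
      (EsDivInst2_5.pairRed_of_diaRed2 hδt) P
  · intro D
    exact EsDivInst2_5.es_div_inst2 M ℓ A n e hM hℓM T h0 h1 hc0 hc1 hs0c hold hd hδ hfr hδt hcomm
      hα hβ D
  · intro m z hm hmz hz
    exact Red1Adapt0.phi3_of_modelStep1 M 1 hM hℓ hA hstep hr hgen m hm z hmz hz

/-- The same with the BASE facts discharged from `Hauptmodul12.BaseHyp n e`, `n ∣ M`. -/
theorem sp1Inputs_of_baseHyp (n e M : ℕ) [NeZero n] [NeZero M] (hM : 2 ≤ M)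
    (hb : Hauptmodul12.BaseHyp n e) (hnM : n ∣ M) {ℓ : ℕ} (hℓ : ℓ.Prime)
    (hℓM : ¬ ℓ ∣ M) (A : ValuationSubring Qb) (hA : A.LiesOverPrime ℓ)
    (hIG : PurGauss1.IG1 M 1)
    (h : Red1Iface4.TMem1 n e M 1) (hmodel : Red1Iface4.ModelAt1 A n e M 1 h)
    (hstep : Red1Iface4.ModelStep1 M 1 A) : SP1Top8.SP1Inputs M hℓ hℓM A :=
  sp1Inputs_of_model n e M hM hℓ hℓM A hA hIG (Main12.baseExports hb M hnM).genBase
    (Main12.baseExports hb M hnM).mem h hmodel hstep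

/-- **`SP1Stmt49` from [IG1] + [ESRED-MODEL] (`ModelAt1`) + [RED1] smooth half (`ModelStep1`)** at every
level `M` with `4 ∣ M` or `9 ∣ M` (Hauptmodul data `(4, 8)`, `(9, 3)`). -/
theorem sp1Stmt49_of_model
    (hIG : ∀ (M : ℕ) [NeZero M], 2 ≤ M → (4 ∣ M ∨ 9 ∣ M) → PurGauss1.IG1 M 1)
    (hmodel : ∀ (n e : ℕ) [NeZero n], Hauptmodul12.BaseHyp n e → ∀ (M : ℕ) [NeZero M], 2 ≤ M →
      n ∣ M → ∀ (h : Red1Iface4.TMem1 n e M 1) (ℓ : ℕ), ℓ.Prime → ¬ ℓ ∣ M →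
      ∀ A : ValuationSubring Qb, A.LiesOverPrime ℓ → Red1Iface4.ModelAt1 A n e M 1 h)
    (hstep : ∀ (M : ℕ) [NeZero M], 2 ≤ M → (4 ∣ M ∨ 9 ∣ M) → ∀ ℓ : ℕ, ℓ.Prime → ¬ ℓ ∣ M →
      ∀ A : ValuationSubring Qb, A.LiesOverPrime ℓ → Red1Iface4.ModelStep1 M 1 A) :
    Fermat.Agent.M48.P1Jac49_8.SP1Stmt49 := by
  refine SP1Top8.sp1Stmt49_of_inputs fun M _ hM h49 ℓ hℓ hℓM A hA => ?_
  rcases h49 with h4 | h9
  · have hmem := tMem1_of_old (Main12.baseExports Hauptmodul12.baseHyp_four M h4).mem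
    exact sp1Inputs_of_baseHyp 4 8 M hM Hauptmodul12.baseHyp_four h4 hℓ hℓM A hA
      (hIG M hM (Or.inl h4)) hmem
      (hmodel 4 8 Hauptmodul12.baseHyp_four M hM h4 hmem ℓ hℓ hℓM A hA)
      (hstep M hM (Or.inl h4) ℓ hℓ hℓM A hA)
  · have hmem := tMem1_of_old (Main12.baseExports Hauptmodul12.baseHyp_nine M h9).mem
    exact sp1Inputs_of_baseHyp 9 3 M hM Hauptmodul12.baseHyp_nine h9 hℓ hℓM A hA
      (hIG M hM (Or.inr h9)) hmem
      (hmodel 9 3 Hauptmodul12.baseHyp_nine M hM h9 hmem ℓ hℓ hℓM A hA)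
      (hstep M hM (Or.inr h9) ℓ hℓ hℓM A hA)

end Fermat.Agent.M48.SP1Final5
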