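/-
M48 / (CHEB) leaf (N) of helper2 (helper5): counting in a finite cyclic group.  If `N₀ ^ t ∣ |T|`
(`t ≥ 1`), the elements of `T` whose order is not divisible by `N₀` are at most
`ω(N₀) · |T| / 2 ^ t`: such an element is killed by `|T| / ℓ ^ t` for some prime `ℓ ∣ N₀`, and a
cyclic group has at most `m` elements killed by `m`.  Mathlib only.
-/
import Mathlib

set_option autoImplicit false

namespace Fermat.Agent.M48.ChebCount5

open Finset

/-- If `τ ^ (|T| / ℓ ^ t) ≠ 1` for every prime `ℓ ∣ N₀` and `N₀ ^ t ∣ |T|` (`t ≥ 1`), then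
`N₀ ∣ orderOf τ`. -/
theorem dvd_orderOf_of_pow_ne_one {T : Type*} [Group T] [Fintype T] (N₀ t : ℕ) (hN₀ : 0 < N₀)
    (ht : 0 < t) (hdvd : N₀ ^ t ∣ Fintype.card T) (τ : T)
    (h : ∀ ℓ ∈ N₀.primeFactors, τ ^ (Fintype.card T / ℓ ^ t) ≠ 1) : N₀ ∣ orderOf τ := by
  have hd : orderOf τ ≠ 0 := (orderOf_pos τ).ne'
  have hn : Fintype.card T ≠ 0 := Fintype.card_ne_zero
  have hdn : orderOf τ ∣ Fintype.card T := orderOf_dvd_card
  rw [← Nat.factorization_le_iff_dvd hN₀.ne' hd]
  intro ℓ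
  by_cases hℓ : ℓ ∈ N₀.primeFactors
  · have hp : ℓ.Prime := Nat.prime_of_mem_primeFactors hℓ
    have hℓN : ℓ ∣ N₀ := Nat.dvd_of_mem_primeFactors hℓ
    by_contra hlt
    rw [not_le] at hlt
    apply h ℓ hℓ
    rw [← orderOf_dvd_iff_pow_eq_one]
    have hℓt : ℓ ^ t ∣ Fintype.card T := (pow_dvd_pow_of_dvd hℓN t).trans hdvd
    have hn' : Fintype.card T / ℓ ^ t ≠ 0 := by
      intro h0
      rw [Nat.div_eq_zero_iff] at h0
      rcases h0 with h0 | h0
      · exact (pow_pos hp.pos t).ne' h0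
      · exact absurd (Nat.le_of_dvd (Nat.pos_of_ne_zero hn) hℓt) (not_le.mpr h0)
    rw [← Nat.factorization_le_iff_dvd hd hn']
    intro p
    rw [Nat.factorization_div hℓt, hp.factorization_pow]
    have h1 : (orderOf τ).factorization p ≤ (Fintype.card T).factorization p :=
      (Nat.factorization_le_iff_dvd hd hn).mpr hdn p
    by_cases hpℓ : p = ℓ
    · subst hpℓ
      simp only [Finsupp.coe_tsub, Pi.sub_apply, Finsupp.single_eq_same]
      have h2 : t * N₀.factorization p ≤ (Fintype.card T).factorization p := by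
        have := (Nat.factorization_le_iff_dvd (pow_pos hN₀ t).ne' hn).mpr hdvd p
        simpa [Nat.factorization_pow] using this
      have h3 : 1 ≤ N₀.factorization p := by
        rw [Nat.one_le_iff_ne_zero]
        exact (Nat.Prime.factorization_pos_of_dvd hp hN₀.ne' hℓN).ne'
      have h4 : N₀.factorization p - 1 + t ≤ t * N₀.factorization p := by
        obtain ⟨v, hv⟩ := Nat.exists_eq_add_of_le h3
        obtain ⟨s, hs⟩ := Nat.exists_eq_add_of_le ht
        rw [hv, hs, Nat.add_sub_cancel_left]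
        nlinarith [Nat.zero_le (s * v)]
      omega
    · simp only [Finsupp.coe_tsub, Pi.sub_apply, Finsupp.single_apply]
      rw [if_neg (Ne.symm hpℓ)]
      simpa using h1
  · have : N₀.factorization ℓ = 0 := by
      rw [← Finsupp.notMem_support_iff, Nat.support_factorization]
      exact hℓ
    rw [this]
    exact Nat.zero_le _

/-- **(N)** counting in a finite cyclic group: if `N₀ ^ t ∣ |T|` then the elements whose order is
not divisible by `N₀` are at most `ω(N₀) |T| / 2 ^ t`. -/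
theorem card_not_dvd_orderOf_le {T : Type*} [CommGroup T] [Fintype T] [IsCyclic T] (N₀ t : ℕ)
    (hN₀ : 0 < N₀) (ht : 0 < t) (hdvd : N₀ ^ t ∣ Fintype.card T) :
    ((Finset.univ.filter (fun τ : T => ¬ N₀ ∣ orderOf τ)).card : ℝ) ≤
      (N₀.primeFactors.card : ℝ) * Fintype.card T / 2 ^ t := by
  classical
  set n := Fintype.card T with hn
  have hnpos : 0 < n := Fintype.card_pos
  -- the bad set is covered by the kernels of `τ ↦ τ ^ (n / ℓ ^ t)`
  have hsub : (Finset.univ.filter (fun τ : T => ¬ N₀ ∣ orderOf τ)) ⊆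
      N₀.primeFactors.biUnion (fun ℓ => Finset.univ.filter (fun τ : T => τ ^ (n / ℓ ^ t) = 1)) := by
    intro τ hτ
    rw [Finset.mem_filter] at hτ
    by_contra hcon
    apply hτ.2
    refine dvd_orderOf_of_pow_ne_one N₀ t hN₀ ht hdvd τ fun ℓ hℓ h1 => hcon ?_
    rw [Finset.mem_biUnion]
    exact ⟨ℓ, hℓ, Finset.mem_filter.mpr ⟨Finset.mem_univ _, h1⟩⟩
  have hcard : ∀ ℓ ∈ N₀.primeFactors,
      ((Finset.univ.filter (fun τ : T => τ ^ (n / ℓ ^ t) = 1)).card : ℝ) ≤ (n : ℝ) / 2 ^ t := by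
    intro ℓ hℓ
    have hp : ℓ.Prime := Nat.prime_of_mem_primeFactors hℓ
    have hℓN : ℓ ∣ N₀ := Nat.dvd_of_mem_primeFactors hℓ
    have hℓt : ℓ ^ t ∣ n := (pow_dvd_pow_of_dvd hℓN t).trans hdvd
    have hpos : 0 < n / ℓ ^ t := Nat.div_pos (Nat.le_of_dvd hnpos hℓt) (pow_pos hp.pos t)
    have h1 : (Finset.univ.filter (fun τ : T => τ ^ (n / ℓ ^ t) = 1)).card ≤ n / ℓ ^ t := by
      have := IsCyclic.card_pow_eq_one_le (α := T) hpos
      convert this
    calc ((Finset.univ.filter (fun τ : T => τ ^ (n / ℓ ^ t) = 1)).card : ℝ)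
        ≤ ((n / ℓ ^ t : ℕ) : ℝ) := by exact_mod_cast h1
      _ = (n : ℝ) / (ℓ : ℝ) ^ t := by
          rw [Nat.cast_div hℓt (by exact_mod_cast (pow_pos hp.pos t).ne')]
          push_cast
          rfl
      _ ≤ (n : ℝ) / 2 ^ t := by
          have h2 : (2 : ℝ) ≤ ℓ := by exact_mod_cast hp.two_le
          gcongr
  calc ((Finset.univ.filter (fun τ : T => ¬ N₀ ∣ orderOf τ)).card : ℝ)
      ≤ ((N₀.primeFactors.biUnion
          (fun ℓ => Finset.univ.filter (fun τ : T => τ ^ (n / ℓ ^ t) = 1))).card : ℝ) := by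
        exact_mod_cast Finset.card_le_card hsub
    _ ≤ ∑ ℓ ∈ N₀.primeFactors,
          ((Finset.univ.filter (fun τ : T => τ ^ (n / ℓ ^ t) = 1)).card : ℝ) := by
        exact_mod_cast Finset.card_biUnion_le
    _ ≤ ∑ _ℓ ∈ N₀.primeFactors, (n : ℝ) / 2 ^ t := Finset.sum_le_sum hcard
    _ = (N₀.primeFactors.card : ℝ) * n / 2 ^ t := by
        rw [Finset.sum_const, nsmul_eq_mul, mul_div_assoc]

end Fermat.Agent.M48.ChebCount5
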