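/-
Programme M48 (target S48), leaf (P6) = Chebotarev's density theorem, file T (helper2):
**transfer of prime sums from the fixed field of `⟨g⟩` to the base field, with the fibre bound
`#Z(g) / ord g`.**

`Ω/K` a Galois extension of number fields, `g ∈ Gal(Ω/K)`, `F` the fixed field of `⟨g⟩`, `g'` the
automorphism `g` of `Ω/F`.  A prime `P` of `F` of prime norm `ℓ ∤ m disc Ω` at which `g'` is a
Frobenius lies over a prime `p` of `K` of norm `ℓ` at which `g` is a Frobenius, and at most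
`#Z(g) / ord g` such `P` lie over the same `p` (`transfer_le`).
-/
import Mathlib
import Fermat.Agent.CFT.NotAllSplit
import Fermat.Agent.CFT.ArtinSymbol
import Fermat.Agent.CFT.FrobFunct
import Fermat.Agent.PT.GLOB.FrobGenerate19
import Fermat.Agent.ES.GAL.ChebDensity23

set_option autoImplicit false
set_option linter.unusedSectionVars false

open NumberField Ideal IsDedekindDomain
open scoped Pointwise
open Fermat.Agent.CFT.SplitPrimes Fermat.Agent.CFT.NotAllSplit Fermat.Agent.CFT.ArtinSymbol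
open Fermat.Agent.PT.GLOB.FrobGenerate19 Fermat.Agent.ES.GAL.ChebAbstract23

noncomputable section

namespace Fermat.Agent.M48.ChebTransfer2

/-! ### An orbit bound -/

/-- If `g` fixes every element of `Y` and any two elements of `Y` are conjugate under the
centraliser of `g`, then `#Y * ord g ≤ #Z(g)`. -/
theorem ncard_mul_orderOf_le {G X : Type*} [Group G] [Finite G] [MulAction G X] (g : G)
    (Y : Set X) (hfix : ∀ y ∈ Y, g • y = y)
    (htrans : ∀ y ∈ Y, ∀ y' ∈ Y, ∃ γ : G, γ * g = g * γ ∧ γ • y = y') :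
    Y.ncard * orderOf g ≤ Nat.card (Subgroup.centralizer ({g} : Set G)) := by
  classical
  rcases Y.eq_empty_or_nonempty with hY | ⟨y₁, hy₁⟩
  · rw [hY, Set.ncard_empty, zero_mul]
    exact Nat.zero_le _
  set Z : Subgroup G := Subgroup.centralizer ({g} : Set G) with hZ
  have hgZ : g ∈ Z := by
    rw [hZ, Subgroup.mem_centralizer_iff]
    intro h hh
    rw [Set.mem_singleton_iff.mp hh]
  -- `Y` is contained in the orbit of `y₁` under `Z`
  have hsub : Y ⊆ MulAction.orbit Z y₁ := by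
    intro y' hy'
    obtain ⟨γ, hγ, hγy⟩ := htrans y₁ hy₁ y' hy'
    have hγZ : γ ∈ Z := by
      rw [hZ, Subgroup.mem_centralizer_iff]
      intro h hh
      rw [Set.mem_singleton_iff.mp hh]
      exact hγ.symm
    exact ⟨⟨γ, hγZ⟩, hγy⟩
  have hfin : (MulAction.orbit Z y₁).Finite := Set.finite_range _
  have h1 : Y.ncard ≤ (MulAction.orbit Z y₁).ncard := Set.ncard_le_ncard hsub hfin
  -- orbit-stabiliser
  have h2 : Nat.card (MulAction.orbit Z y₁) * Nat.card (MulAction.stabilizer Z y₁) =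
      Nat.card Z := by
    rw [Nat.card_congr (MulAction.orbitEquivQuotientStabilizer Z y₁)]
    exact (Subgroup.card_eq_card_quotient_mul_card_subgroup _).symm
  -- `⟨g⟩` stabilises `y₁`
  have h3 : orderOf g ≤ Nat.card (MulAction.stabilizer Z y₁) := by
    have hmem : (⟨g, hgZ⟩ : Z) ∈ MulAction.stabilizer Z y₁ := by
      rw [MulAction.mem_stabilizer_iff]
      exact hfix y₁ hy₁
    have h4 : orderOf (⟨g, hgZ⟩ : Z) = orderOf g := Subgroup.orderOf_mk g hgZ
    rw [← h4, ← Nat.card_zpowers]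
    exact Subgroup.card_le_of_le ((Subgroup.zpowers_le).mpr hmem)
  rw [Nat.card_coe_set_eq] at h2
  calc Y.ncard * orderOf g
      ≤ (MulAction.orbit Z y₁).ncard * Nat.card (MulAction.stabilizer Z y₁) :=
        Nat.mul_le_mul h1 h3
    _ = Nat.card Z := h2

/-! ### Primes at which a given automorphism is a Frobenius -/

section Galois

variable (K Ω : Type) [Field K] [NumberField K] [Field Ω] [NumberField Ω] [Algebra K Ω]
  [IsGalois K Ω]

/-- The primes of `Ω` over `p` at which `g` is a Frobenius. -/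
def frobOver (g : Ω ≃ₐ[K] Ω) (p : Ideal (𝓞 K)) : Set (Ideal (𝓞 Ω)) :=
  {Q | Q.IsPrime ∧ Q.under (𝓞 K) = p ∧ IsArithFrobAt (𝓞 K) g Q}

/-- The primes of `K` of prime norm not dividing `m disc Ω` at which `g` is a Frobenius. -/
def frobAt (m : ℕ) (g : Ω ≃ₐ[K] Ω) : Set (HeightOneSpectrum (𝓞 K)) :=
  {p | p ∈ goodPrimes K (m * (discr Ω).natAbs) ∧ (frobOver K Ω g p.asIdeal).Nonempty}

variable {K Ω}

/-- Trivial inertia over a good prime. -/
theorem inertia_eq_bot_of_good {m : ℕ} {p : HeightOneSpectrum (𝓞 K)}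
    (hp : p ∈ goodPrimes K (m * (discr Ω).natAbs)) {Q : Ideal (𝓞 Ω)} [Q.IsPrime]
    (hQp : Q.under (𝓞 K) = p.asIdeal) : Q.inertia (Ω ≃ₐ[K] Ω) = ⊥ := by
  have h1 : ((absNorm (Q.under (𝓞 K)) : ℕ) : 𝓞 Ω) ∈ Q :=
    Fermat.Agent.ES.GAL.ChebDensity23.natCast_absNorm_under_mem (K := K) Q
  rw [hQp] at h1
  exact inertia_eq_bot_of_not_dvd_discr Q hp.1 h1
    (Fermat.Agent.ES.GAL.ChebDensity23.not_dvd_discr_of_not_dvd_mul hp.2)

theorem finite_frobOver (g : Ω ≃ₐ[K] Ω) (p : HeightOneSpectrum (𝓞 K)) :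
    (frobOver K Ω g p.asIdeal).Finite := by
  have := p.isMaximal
  refine (IsDedekindDomain.primesOver_finite p.asIdeal (𝓞 Ω)).subset ?_
  rintro Q ⟨hQ, hQp, -⟩
  exact ⟨hQ, ⟨hQp.symm⟩⟩

/-- **The fibre bound**: over a good prime `p` of `K` there are at most `#Z(g) / ord g` primes of
`Ω` at which `g` is a Frobenius. -/
theorem ncard_frobOver_mul_le {m : ℕ} (g : Ω ≃ₐ[K] Ω) {p : HeightOneSpectrum (𝓞 K)}
    (hp : p ∈ goodPrimes K (m * (discr Ω).natAbs)) :
    (frobOver K Ω g p.asIdeal).ncard * orderOf g ≤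
      Nat.card (Subgroup.centralizer ({g} : Set (Ω ≃ₐ[K] Ω))) := by
  refine ncard_mul_orderOf_le g (frobOver K Ω g p.asIdeal) ?_ ?_
  · rintro Q ⟨hQ, -, hg⟩
    exact MulAction.mem_stabilizer_iff.mp hg.mem_stabilizer
  · rintro Q ⟨hQ, hQp, hg⟩ Q' ⟨hQ', hQ'p, hg'⟩
    obtain ⟨γ, hγ⟩ := Algebra.IsInvariant.exists_smul_of_under_eq (𝓞 K) (𝓞 Ω) (Ω ≃ₐ[K] Ω) Q Q'
      (hQp.trans hQ'p.symm)
    refine ⟨γ, ?_, hγ.symm⟩
    have h1 : IsArithFrobAt (𝓞 K) (γ * g * γ⁻¹) Q' := hγ ▸ hg.conj γ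
    have h2 := isArithFrobAt_unique (inertia_eq_bot_of_good hp hQ'p) h1 hg'
    calc γ * g = (γ * g * γ⁻¹) * γ := by group
      _ = g * γ := by rw [h2]

/-- A Frobenius over an intermediate field `F` at a prime `Q` whose trace on `F` has prime norm
is a Frobenius over `K`, and the trace of `Q` on `K` has the same norm. -/
theorem isArithFrobAt_restrictScalars (F : IntermediateField K Ω) {τ : Ω ≃ₐ[F] Ω}
    {Q : Ideal (𝓞 Ω)} [Q.IsPrime] (hN : (absNorm (Q.under (𝓞 F))).Prime)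
    (hτ : IsArithFrobAt (𝓞 F) τ Q) :
    absNorm (Q.under (𝓞 K)) = absNorm (Q.under (𝓞 F)) ∧
      IsArithFrobAt (𝓞 K) (τ.restrictScalars K) Q := by
  set ℓ := absNorm (Q.under (𝓞 F)) with hℓ
  have hfinw : Finite (𝓞 F ⧸ Q.under (𝓞 F)) := hτ.finite_quotient
  have : (Q.under (𝓞 F)).IsMaximal := Fermat.Agent.CFT.FrobFunct.isMaximal_of_finite_quotient _
  have : ((Q.under (𝓞 F)).under (𝓞 K)).IsMaximal :=
    Ideal.isMaximal_comap_of_isIntegral_of_isMaximal (Q.under (𝓞 F))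
  have hw0 : Q.under (𝓞 F) ≠ ⊥ := by
    intro h0
    rw [hℓ, h0, Ideal.absNorm_bot] at hN
    exact Nat.not_prime_zero hN
  have hq0 : (Q.under (𝓞 F)).under (𝓞 K) ≠ ⊥ := fun h => hw0 (Ideal.eq_bot_of_comap_eq_bot h)
  have : Finite (𝓞 K ⧸ (Q.under (𝓞 F)).under (𝓞 K)) :=
    Ideal.finiteQuotientOfFreeOfNeBot _ hq0
  have hcard := Fermat.Agent.CFT.FrobFunct.card_quot_eq_pow_inertiaDeg (R := 𝓞 K)
    (Q.under (𝓞 F))
  have hKK : (Q.under (𝓞 F)).under (𝓞 K) = Q.under (𝓞 K) := Ideal.under_under _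
  rw [hKK] at hcard
  have hcardw : Nat.card (𝓞 F ⧸ Q.under (𝓞 F)) = ℓ := by
    rw [hℓ, Fermat.Agent.CFT.NotAllSplit10.absNorm_eq_card]
  rw [hcardw] at hcard
  have hcardq : Nat.card (𝓞 K ⧸ Q.under (𝓞 K)) = ℓ := eq_of_pow_prime hN hcard.symm
  refine ⟨by rw [Fermat.Agent.CFT.NotAllSplit10.absNorm_eq_card, hcardq], ?_⟩
  intro x
  have h := hτ x
  change (τ.restrictScalars K) • x - x ^ Nat.card (𝓞 K ⧸ Q.under (𝓞 K)) ∈ Q
  rw [hcardq, Fermat.Agent.CFT.FrobFunct.restrictScalars_smul, ← hcardw]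
  exact h

/-- The prime of `K` below a prime of `F` at which `τ` is a Frobenius carries the Frobenius
`τ|_K`. -/
theorem below_mem_frobAt (F : IntermediateField K Ω) (τ : Ω ≃ₐ[F] Ω) (m : ℕ)
    {P : HeightOneSpectrum (𝓞 F)} (hP : P ∈ frobAt F Ω m τ) :
    below (R := 𝓞 K) P ∈ frobAt K Ω m (τ.restrictScalars K) ∧
      absNorm (below (R := 𝓞 K) P).asIdeal = absNorm P.asIdeal ∧
      ∀ Q ∈ frobOver F Ω τ P.asIdeal,
        Q ∈ frobOver K Ω (τ.restrictScalars K) (below (R := 𝓞 K) P).asIdeal := by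
  obtain ⟨hgood, Q₀, hQ₀⟩ := hP
  have key : ∀ Q ∈ frobOver F Ω τ P.asIdeal,
      absNorm (Q.under (𝓞 K)) = absNorm P.asIdeal ∧
      Q ∈ frobOver K Ω (τ.restrictScalars K) (below (R := 𝓞 K) P).asIdeal := by
    rintro Q ⟨hQ, hQP, hτ⟩
    have hN : (absNorm (Q.under (𝓞 F))).Prime := by rw [hQP]; exact hgood.1
    obtain ⟨h1, h2⟩ := isArithFrobAt_restrictScalars F hN hτ
    rw [hQP] at h1
    refine ⟨h1, hQ, ?_, h2⟩
    rw [below_asIdeal, ← hQP, Ideal.under_under]
  obtain ⟨h1, h2⟩ := key Q₀ hQ₀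
  have h3 : absNorm (below (R := 𝓞 K) P).asIdeal = absNorm P.asIdeal := by
    rw [← h2.2.1]
    exact h1
  refine ⟨⟨⟨?_, ?_⟩, Q₀, h2⟩, h3, fun Q hQ => (key Q hQ).2⟩
  · rw [h3]; exact hgood.1
  · rw [h3]; exact hgood.2

/-- **Transfer**: the prime sum over the primes of `F` at which `τ` is a Frobenius is at most
`#Z(g) / ord g` times the prime sum over the primes of `K` at which `g = τ|_K` is a Frobenius. -/
theorem transfer_le (F : IntermediateField K Ω) (τ : Ω ≃ₐ[F] Ω) (m : ℕ) {s : ℝ} (hs : 1 < s) :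
    wsum (xP F s) (frobAt F Ω m τ) ≤
      ((Nat.card (Subgroup.centralizer ({τ.restrictScalars K} : Set (Ω ≃ₐ[K] Ω))) /
        orderOf (τ.restrictScalars K) : ℕ) : ℝ) *
        wsum (xP K s) (frobAt K Ω m (τ.restrictScalars K)) := by
  classical
  set g : Ω ≃ₐ[K] Ω := τ.restrictScalars K with hg
  set c : ℕ := Nat.card (Subgroup.centralizer ({g} : Set (Ω ≃ₐ[K] Ω))) / orderOf g with hc
  let π : {P : HeightOneSpectrum (𝓞 F) // P ∈ frobAt F Ω m τ} → HeightOneSpectrum (𝓞 K) :=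
    fun P => below (R := 𝓞 K) P.1
  let h : HeightOneSpectrum (𝓞 K) → ENNReal :=
    (frobAt K Ω m g).indicator (fun p => ENNReal.ofReal (xP K s p))
  -- the fibres
  have hfib : ∀ p : HeightOneSpectrum (𝓞 K), (π ⁻¹' {p}).Finite ∧ (π ⁻¹' {p}).ncard ≤ c := by
    intro p
    -- choose a prime of `Ω` over each `P`
    let φ : {P : HeightOneSpectrum (𝓞 F) // P ∈ frobAt F Ω m τ} → Ideal (𝓞 Ω) :=
      fun P => P.2.2.choose
    have hφ : ∀ P : {P : HeightOneSpectrum (𝓞 F) // P ∈ frobAt F Ω m τ},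
        φ P ∈ frobOver F Ω τ P.1.asIdeal := fun P => P.2.2.choose_spec
    have hmaps : ∀ P ∈ π ⁻¹' {p}, φ P ∈ frobOver K Ω g p.asIdeal := by
      intro P hP
      have hP' : below (R := 𝓞 K) P.1 = p := hP
      have := (below_mem_frobAt F τ m P.2).2.2 (φ P) (hφ P)
      rwa [hP'] at this
    have hinj : Set.InjOn φ (π ⁻¹' {p}) := by
      intro P _ P' _ hPP'
      apply Subtype.ext
      apply HeightOneSpectrum.ext
      rw [← (hφ P).2.1, ← (hφ P').2.1, hPP']
    have hfin := finite_frobOver g p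
    refine ⟨Set.Finite.of_injOn hmaps hinj hfin, ?_⟩
    have h1 := Set.ncard_le_ncard_of_injOn φ hmaps hinj hfin
    by_cases hp : p ∈ goodPrimes K (m * (discr Ω).natAbs)
    · have h2 := ncard_frobOver_mul_le g hp
      refine h1.trans ?_
      rw [hc]
      exact (Nat.le_div_iff_mul_le (orderOf_pos g)).mpr h2
    · have hempty : π ⁻¹' {p} = ∅ := by
        rw [Set.eq_empty_iff_forall_notMem]
        intro P hP
        have hP' : below (R := 𝓞 K) P.1 = p := hP
        apply hp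
        have := (below_mem_frobAt F τ m P.2).1.1
        rwa [hP'] at this
      rw [hempty, Set.ncard_empty]
      exact Nat.zero_le _
  have hmain := tsum_comp_le_mul_tsum π c hfib h
  -- the left hand side
  have hL : ∑' P : {P : HeightOneSpectrum (𝓞 F) // P ∈ frobAt F Ω m τ}, h (π P) =
      ENNReal.ofReal (wsum (xP F s) (frobAt F Ω m τ)) := by
    have h1 : ∀ P : {P : HeightOneSpectrum (𝓞 F) // P ∈ frobAt F Ω m τ},
        h (π P) = ENNReal.ofReal (xP F s P.1) := by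
      intro P
      obtain ⟨hmem, hN, -⟩ := below_mem_frobAt F τ m P.2
      show (frobAt K Ω m g).indicator (fun p => ENNReal.ofReal (xP K s p))
        (below (R := 𝓞 K) P.1) = _
      rw [Set.indicator_of_mem hmem]
      unfold xP
      rw [hN]
    rw [tsum_congr h1, ← Fermat.Agent.ES.GAL.ChebDensity23.primeIdealZetaSum_eq_wsum,
      ← tsum_indicator_ofReal F _ hs]
    exact (tsum_subtype (frobAt F Ω m τ) (fun P => ENNReal.ofReal (xP F s P)))
  have hR : ∑' p, h p = ENNReal.ofReal (wsum (xP K s) (frobAt K Ω m g)) := by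
    rw [← Fermat.Agent.ES.GAL.ChebDensity23.primeIdealZetaSum_eq_wsum,
      ← tsum_indicator_ofReal K _ hs]
  rw [hL, hR, ← ENNReal.ofReal_natCast, ← ENNReal.ofReal_mul (Nat.cast_nonneg _)] at hmain
  have hnn : 0 ≤ (c : ℝ) * wsum (xP K s) (frobAt K Ω m g) :=
    mul_nonneg (Nat.cast_nonneg _) (wsum_nonneg (fun p => (xP_pos K s p).le) _)
  exact (ENNReal.ofReal_le_ofReal_iff hnn).mp hmain

end Galois

end Fermat.Agent.M48.ChebTransfer2
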