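/-
Programme M48 (target S48), leaf (P6) = Chebotarev's density theorem, file D (helper2):
**assembly over conjugacy classes.**

`Ω/K` Galois, `m ≠ 0`.  For a finite set `C` of elements of `Gal(Ω/K)`,

  `∑_{g ∈ C} (#Z(g) / #G) * ∑_{p : g Frobenius over p} N p ^ (-s) ≤ ∑_{p : some g ∈ C Frobenius over p} N p ^ (-s)`

(`assembly`): over a good prime the Frobenius elements are pairwise conjugate, and the centralisers
of pairwise conjugate elements have total cardinality at most `#G`.  With `ChebTransfer2.transfer_le`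
this bounds `∑_{g ∈ C} (ord g / #G) * (prime sum over the fixed field of ⟨g⟩)` (`assembly_fixed`).
-/
import Mathlib
import Fermat.Agent.M48.ChebTransfer2

set_option autoImplicit false
set_option linter.unusedSectionVars false

open NumberField Ideal IsDedekindDomain
open scoped Pointwise
open Fermat.Agent.CFT.SplitPrimes Fermat.Agent.CFT.NotAllSplit Fermat.Agent.CFT.ArtinSymbol
open Fermat.Agent.ES.GAL.ChebAbstract23 Fermat.Agent.M48.ChebTransfer2

noncomputable section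

namespace Fermat.Agent.M48.ChebAssembly2

/-! ### Centralisers of pairwise conjugate elements -/

theorem sum_card_centralizer_le {G : Type*} [Group G] [Finite G] (S : Finset G)
    (hS : ∀ g ∈ S, ∀ g' ∈ S, ∃ γ : G, γ * g * γ⁻¹ = g') :
    ∑ g ∈ S, Nat.card (Subgroup.centralizer ({g} : Set G)) ≤ Nat.card G := by
  classical
  rcases S.eq_empty_or_nonempty with hS0 | ⟨g₀, hg₀⟩
  · rw [hS0, Finset.sum_empty]
    exact Nat.zero_le _
  choose! γ hγ using fun g hg => hS g₀ hg₀ g hg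
  let f : (Σ g : S, Subgroup.centralizer ({g.1} : Set G)) → G := fun x => x.2.1 * γ x.1.1
  have hconj : ∀ x : (Σ g : S, Subgroup.centralizer ({g.1} : Set G)),
      f x * g₀ * (f x)⁻¹ = x.1.1 := by
    rintro ⟨⟨g, hg⟩, ⟨z, hz⟩⟩
    have h1 : γ g * g₀ * (γ g)⁻¹ = g := hγ g hg
    have h2 : g * z = z * g := (Subgroup.mem_centralizer_iff.mp hz) g rfl
    show z * γ g * g₀ * (z * γ g)⁻¹ = g
    calc z * γ g * g₀ * (z * γ g)⁻¹ = z * (γ g * g₀ * (γ g)⁻¹) * z⁻¹ := by group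
      _ = z * g * z⁻¹ := by rw [h1]
      _ = g := by rw [← h2]; group
  have hf : Function.Injective f := by
    intro x y hxy
    have h1 : x.1.1 = y.1.1 := by rw [← hconj x, ← hconj y, hxy]
    obtain ⟨⟨g, hg⟩, ⟨z, hz⟩⟩ := x
    obtain ⟨⟨g', hg'⟩, ⟨z', hz'⟩⟩ := y
    simp only at h1
    subst h1
    have h2 : z * γ g = z' * γ g := hxy
    have h3 : z = z' := mul_right_cancel h2
    subst h3
    rfl
  have h1 := Nat.card_le_card_of_injective f hf
  rw [Nat.card_sigma] at h1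
  rwa [Finset.sum_coe_sort S (fun g => Nat.card (Subgroup.centralizer ({g} : Set G)))] at h1

/-! ### Frobenius elements over a good prime -/

section Galois

variable {K Ω : Type} [Field K] [NumberField K] [Field Ω] [NumberField Ω] [Algebra K Ω]
  [IsGalois K Ω]

/-- Over a good prime, Frobenius elements are conjugate. -/
theorem exists_conj_of_frobOver {m : ℕ} {p : HeightOneSpectrum (𝓞 K)}
    (hp : p ∈ goodPrimes K (m * (discr Ω).natAbs)) {g g' : Ω ≃ₐ[K] Ω}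
    (hg : (frobOver K Ω g p.asIdeal).Nonempty) (hg' : (frobOver K Ω g' p.asIdeal).Nonempty) :
    ∃ γ : Ω ≃ₐ[K] Ω, γ * g * γ⁻¹ = g' := by
  obtain ⟨Q, hQ, hQp, hgQ⟩ := hg
  obtain ⟨Q', hQ', hQ'p, hgQ'⟩ := hg'
  obtain ⟨γ, hγ⟩ := Algebra.IsInvariant.exists_smul_of_under_eq (𝓞 K) (𝓞 Ω) (Ω ≃ₐ[K] Ω) Q Q'
    (hQp.trans hQ'p.symm)
  have h1 : IsArithFrobAt (𝓞 K) (γ * g * γ⁻¹) Q' := hγ ▸ hgQ.conj γ
  exact ⟨γ, isArithFrobAt_unique (inertia_eq_bot_of_good hp hQ'p) h1 hgQ'⟩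

/-- The pointwise inequality behind `assembly`. -/
theorem sum_indicator_le (m : ℕ) (C : Finset (Ω ≃ₐ[K] Ω)) (s : ℝ)
    (p : HeightOneSpectrum (𝓞 K)) :
    ∑ g ∈ C, (Nat.card (Subgroup.centralizer ({g} : Set (Ω ≃ₐ[K] Ω))) : ℝ) /
        Nat.card (Ω ≃ₐ[K] Ω) * (frobAt K Ω m g).indicator (xP K s) p ≤
      (⋃ g ∈ C, frobAt K Ω m g).indicator (xP K s) p := by
  classical
  set S : Finset (Ω ≃ₐ[K] Ω) := C.filter (fun g => p ∈ frobAt K Ω m g) with hS
  have hx : 0 ≤ xP K s p := (xP_pos K s p).le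
  have hcard : (0 : ℝ) < Nat.card (Ω ≃ₐ[K] Ω) := by exact_mod_cast Nat.card_pos
  have h1 : ∑ g ∈ C, (Nat.card (Subgroup.centralizer ({g} : Set (Ω ≃ₐ[K] Ω))) : ℝ) /
        Nat.card (Ω ≃ₐ[K] Ω) * (frobAt K Ω m g).indicator (xP K s) p =
      (∑ g ∈ S, (Nat.card (Subgroup.centralizer ({g} : Set (Ω ≃ₐ[K] Ω))) : ℝ)) /
        Nat.card (Ω ≃ₐ[K] Ω) * xP K s p := by
    rw [hS, Finset.sum_filter, Finset.sum_div, Finset.sum_mul]
    refine Finset.sum_congr rfl (fun g _ => ?_)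
    by_cases hg : p ∈ frobAt K Ω m g
    · rw [if_pos hg, Set.indicator_of_mem hg]
    · rw [if_neg hg, Set.indicator_of_notMem hg, mul_zero, zero_div, zero_mul]
  rw [h1]
  rcases S.eq_empty_or_nonempty with hS0 | ⟨g₀, hg₀⟩
  · rw [hS0, Finset.sum_empty, zero_div, zero_mul]
    exact Set.indicator_nonneg (fun _ _ => hx) p
  have hg₀' := Finset.mem_filter.mp hg₀
  have hmem : p ∈ ⋃ g ∈ C, frobAt K Ω m g := Set.mem_biUnion hg₀'.1 hg₀'.2
  rw [Set.indicator_of_mem hmem]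
  have hconj : ∀ g ∈ S, ∀ g' ∈ S, ∃ γ : Ω ≃ₐ[K] Ω, γ * g * γ⁻¹ = g' := by
    intro g hg g' hg'
    have h2 := (Finset.mem_filter.mp hg).2
    have h3 := (Finset.mem_filter.mp hg').2
    exact exists_conj_of_frobOver h2.1 h2.2 h3.2
  have h2 := sum_card_centralizer_le S hconj
  have h3 : (∑ g ∈ S, (Nat.card (Subgroup.centralizer ({g} : Set (Ω ≃ₐ[K] Ω))) : ℝ)) ≤
      Nat.card (Ω ≃ₐ[K] Ω) := by exact_mod_cast h2
  calc (∑ g ∈ S, (Nat.card (Subgroup.centralizer ({g} : Set (Ω ≃ₐ[K] Ω))) : ℝ)) /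
        Nat.card (Ω ≃ₐ[K] Ω) * xP K s p ≤ 1 * xP K s p :=
        mul_le_mul_of_nonneg_right ((div_le_one hcard).mpr h3) hx
    _ = xP K s p := one_mul _

/-- **Assembly over conjugacy classes.** -/
theorem assembly (m : ℕ) (C : Finset (Ω ≃ₐ[K] Ω)) {s : ℝ} (hs : 1 < s) :
    ∑ g ∈ C, (Nat.card (Subgroup.centralizer ({g} : Set (Ω ≃ₐ[K] Ω))) : ℝ) /
        Nat.card (Ω ≃ₐ[K] Ω) * wsum (xP K s) (frobAt K Ω m g) ≤
      wsum (xP K s) (⋃ g ∈ C, frobAt K Ω m g) := by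
  unfold wsum
  have hsum : ∀ T : Set (HeightOneSpectrum (𝓞 K)), Summable (T.indicator (xP K s)) :=
    fun T => (summable_xP K hs).indicator T
  simp_rw [← tsum_mul_left]
  rw [← Summable.tsum_finsetSum (fun g _ => (hsum _).mul_left _)]
  refine Summable.tsum_le_tsum (sum_indicator_le m C s) ?_ (hsum _)
  exact summable_sum (fun g _ => (hsum _).mul_left _)

/-! ### The fixed field of `⟨g⟩` -/

/-- The fixed field of `⟨g⟩`. -/
abbrev fixF (g : Ω ≃ₐ[K] Ω) : IntermediateField K Ω :=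
  IntermediateField.fixedField (Subgroup.zpowers g)

theorem mem_fixingSubgroup_fixF (g : Ω ≃ₐ[K] Ω) : g ∈ (fixF g).fixingSubgroup := by
  rw [IntermediateField.fixingSubgroup_fixedField]
  exact Subgroup.mem_zpowers g

/-- `g` as an automorphism of `Ω` over the fixed field of `⟨g⟩`. -/
def overFix (g : Ω ≃ₐ[K] Ω) : Ω ≃ₐ[fixF g] Ω :=
  (fixF g).fixingSubgroupEquiv ⟨g, mem_fixingSubgroup_fixF g⟩

theorem overFix_apply (g : Ω ≃ₐ[K] Ω) (x : Ω) : overFix g x = g x := rfl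

theorem overFix_restrictScalars (g : Ω ≃ₐ[K] Ω) : (overFix g).restrictScalars K = g := by
  ext x
  rfl

/-- **Assembly, fixed field form.** -/
theorem assembly_fixed (m : ℕ) (C : Finset (Ω ≃ₐ[K] Ω)) {s : ℝ} (hs : 1 < s) :
    ∑ g ∈ C, (orderOf g : ℝ) / Nat.card (Ω ≃ₐ[K] Ω) *
        wsum (xP (fixF g) s) (frobAt (fixF g) Ω m (overFix g)) ≤
      wsum (xP K s) (⋃ g ∈ C, frobAt K Ω m g) := by
  refine le_trans (Finset.sum_le_sum (fun g _ => ?_)) (assembly m C hs)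
  have h1 := transfer_le (fixF g) (overFix g) m hs
  rw [overFix_restrictScalars] at h1
  set Z : ℕ := Nat.card (Subgroup.centralizer ({g} : Set (Ω ≃ₐ[K] Ω))) with hZ
  set a : ℝ := wsum (xP K s) (frobAt K Ω m g) with ha
  have ha0 : 0 ≤ a := wsum_nonneg (fun p => (xP_pos K s p).le) _
  have hcard : (0 : ℝ) < Nat.card (Ω ≃ₐ[K] Ω) := by exact_mod_cast Nat.card_pos
  have hord : (0 : ℝ) < orderOf g := by exact_mod_cast orderOf_pos g
  have h2 : ((Z / orderOf g : ℕ) : ℝ) ≤ (Z : ℝ) / orderOf g := Nat.cast_div_le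
  have h3 : wsum (xP (fixF g) s) (frobAt (fixF g) Ω m (overFix g)) ≤ (Z : ℝ) / orderOf g * a :=
    h1.trans (mul_le_mul_of_nonneg_right h2 ha0)
  calc (orderOf g : ℝ) / Nat.card (Ω ≃ₐ[K] Ω) *
        wsum (xP (fixF g) s) (frobAt (fixF g) Ω m (overFix g))
      ≤ (orderOf g : ℝ) / Nat.card (Ω ≃ₐ[K] Ω) * ((Z : ℝ) / orderOf g * a) :=
        mul_le_mul_of_nonneg_left h3 (div_nonneg hord.le hcard.le)
    _ = (Z : ℝ) / Nat.card (Ω ≃ₐ[K] Ω) * a := by
        field_simp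

end Galois

end Fermat.Agent.M48.ChebAssembly2
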