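/-
Programme M48 (target S48), leaf (P6) = Chebotarev's density theorem, file C3 (helper2):
**the density theorem for a cyclotomic extension `Ω = F(ζ_q)` of a totally complex field `F`,
for the pairs `{g, g⁻¹}` of elements of `Gal(Ω/F)`.**

`thetaOf χ 𝔞 = χ (N 𝔞 mod q)` for a Dirichlet character `χ` modulo the prime `q` is a ray class
character modulo `q 𝓞 F` (`isRayChar_thetaOf`; `F` totally complex: norms of elements are
positive).  With `G = ` the image of the cyclotomic character `Gal(Ω/F) → (ℤ/q)ˣ`, the labelling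
`P ↦ N P mod q` (a Frobenius at `P` has cyclotomic character `N P`), `ChebRayB2.re_primeSum_le`,
"Frobenius elements generate" (`PT/GLOB/FrobGenerate19`) and the lower bound for the primes of
degree one (`CFT/SplitPrimes.log_le_degOnePrimes`), `ChebFourier2.fourier_density_re` gives
`cyclo_dens`.
-/
import Mathlib
import Fermat.Agent.CFT.CycloArtin
import Fermat.Agent.PT.GLOB.FrobGenerate19
import Fermat.Agent.ES.GAL.ChebDensity23
import Fermat.Agent.M48.ChebRayB2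

set_option autoImplicit false
set_option linter.unusedSectionVars false

open NumberField Ideal IsDedekindDomain nonZeroDivisors
open Fermat.Agent.CFT.SplitPrimes Fermat.Agent.CFT.CycloRecip Fermat.Agent.CFT.CycloArtin
open Fermat.Agent.ES.GAL.ChebAbstract23
open Fermat.Agent.M48.ChebLSeries2 Fermat.Agent.M48.ChebRayL2 Fermat.Agent.M48.ChebRayB2
open Fermat.Agent.M48.ChebFourier2

noncomputable section

namespace Fermat.Agent.M48.ChebCyclo2

/-! ### Norm residue characters -/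

section Theta

variable {F : Type*} [Field F] [NumberField F] (q : ℕ) [hq : Fact q.Prime]

/-- `𝔞 ↦ χ (N 𝔞 mod q)` as a completely multiplicative function on ideals. -/
def thetaOf (χ : DirichletCharacter ℂ q) : Ideal (𝓞 F) →*₀ ℂ where
  toFun a := χ ((absNorm a : ℕ) : ZMod q)
  map_zero' := by
    rw [Ideal.zero_eq_bot, Ideal.absNorm_bot, Nat.cast_zero]
    exact χ.map_zero
  map_one' := by
    rw [Ideal.one_eq_top, Ideal.absNorm_top, Nat.cast_one, map_one]
  map_mul' a b := by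
    rw [map_mul, Nat.cast_mul, map_mul]

theorem thetaOf_apply (χ : DirichletCharacter ℂ q) (a : Ideal (𝓞 F)) :
    thetaOf q χ a = χ ((absNorm a : ℕ) : ZMod q) := rfl

/-- A prime ideal containing `q` has norm divisible by `q`. -/
theorem dvd_absNorm_of_mem {P : Ideal (𝓞 F)} [P.IsPrime] (hqP : (q : 𝓞 F) ∈ P) :
    q ∣ absNorm P := by
  have h0 : ((q : ℕ) : 𝓞 F ⧸ P) = 0 := by
    have := Ideal.Quotient.eq_zero_iff_mem.mpr hqP
    rwa [map_natCast] at this
  have h1 : q • (1 : 𝓞 F ⧸ P) = 0 := by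
    rw [nsmul_eq_mul, mul_one]
    exact h0
  have h2 : (1 : 𝓞 F ⧸ P) ≠ 0 := one_ne_zero
  have h3 : addOrderOf (1 : 𝓞 F ⧸ P) = q := addOrderOf_eq_prime h1 h2
  rw [absNorm_eq_natCard, ← h3]
  exact addOrderOf_dvd_natCard _

/-- An ideal not prime to `q` has norm divisible by `q`. -/
theorem dvd_absNorm_of_sup_ne_top {a : Ideal (𝓞 F)}
    (ha : a ⊔ span {(q : 𝓞 F)} ≠ ⊤) : q ∣ absNorm a := by
  obtain ⟨P, hP, hle⟩ := Ideal.exists_le_maximal _ ha
  have haP : a ≤ P := le_sup_left.trans hle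
  have hqP : (q : 𝓞 F) ∈ P := hle (mem_sup_right (mem_span_singleton_self _))
  have := hP.isPrime
  exact (dvd_absNorm_of_mem q hqP).trans (Ideal.absNorm_dvd_absNorm_of_le haP)

theorem isRayChar_thetaOf [IsTotallyComplex F] (χ : DirichletCharacter ℂ q) :
    IsRayChar (span {(q : 𝓞 F)}) (thetaOf (F := F) q χ) where
  norm_le a := χ.norm_le_one _
  eq_zero a ha := by
    rw [thetaOf_apply]
    apply χ.map_nonunit
    have h1 := dvd_absNorm_of_sup_ne_top q ha
    have h2 : ((absNorm a : ℕ) : ZMod q) = 0 := (ZMod.natCast_eq_zero_iff _ _).mpr h1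
    rw [h2]
    exact not_isUnit_zero
  principal α hα := by
    have hα0 : α ≠ 0 := by
      rintro rfl
      have h1 : (1 : 𝓞 F) ∈ span {(q : 𝓞 F)} := by
        have := neg_mem hα
        simpa using this
      exact modulus_ne_top (F := F) hq.out.ne_one ((Ideal.eq_top_iff_one _).mpr h1)
    rw [thetaOf_apply, absNorm_span_singleton_cast q α hα0 hα, map_one]

end Theta

/-! ### The cyclotomic extension -/

section Cyclo

variable (F Ω : Type) [Field F] [NumberField F] [Field Ω] [NumberField Ω] [Algebra F Ω]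
  [IsGalois F Ω] (q : ℕ) [hq : Fact q.Prime] [IsCyclotomicExtension {q} F Ω]

/-- The cyclotomic character of `Gal(Ω/F)`, `Ω = F(ζ_q)`. -/
def kap : (Ω ≃ₐ[F] Ω) →* (ZMod q)ˣ :=
  (IsCyclotomicExtension.zeta_spec q F Ω).autToPow F

theorem kap_injective : Function.Injective (kap F Ω q) :=
  (IsCyclotomicExtension.zeta_spec q F Ω).autToPow_injective F

include q in
theorem gal_comm (σ τ : Ω ≃ₐ[F] Ω) : σ * τ = τ * σ := by
  apply kap_injective F Ω q
  rw [map_mul, map_mul, mul_comm]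

/-- The primes dividing `q`. -/
def badSet : Set (HeightOneSpectrum (𝓞 F)) := {P | P.asIdeal ∣ span {(q : 𝓞 F)}}

theorem span_q_ne_bot : span {(q : 𝓞 F)} ≠ ⊥ := by
  rw [Ne, span_singleton_eq_bot]
  exact_mod_cast hq.out.ne_zero

theorem finite_badSet : (badSet F q).Finite := Ideal.finite_factors (span_q_ne_bot F q)

theorem sup_eq_top_of_notMem_badSet {P : HeightOneSpectrum (𝓞 F)} (hP : P ∉ badSet F q) :
    P.asIdeal ⊔ span {(q : 𝓞 F)} = ⊤ :=
  sup_eq_top_of_not_dvd P hP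

theorem sup_ne_top_of_mem_badSet {P : HeightOneSpectrum (𝓞 F)} (hP : P ∈ badSet F q) :
    P.asIdeal ⊔ span {(q : 𝓞 F)} ≠ ⊤ := by
  have h1 : span {(q : 𝓞 F)} ≤ P.asIdeal := Ideal.dvd_iff_le.mp hP
  rw [sup_eq_left.mpr h1]
  exact P.isPrime.ne_top

/-- A Frobenius at a prime over `P ∤ q` has cyclotomic character `N P mod q`. -/
theorem kap_eq_of_isArithFrobAt {P : HeightOneSpectrum (𝓞 F)} (hP : P ∉ badSet F q)
    {Q : Ideal (𝓞 Ω)} [Q.LiesOver P.asIdeal] {σ : Ω ≃ₐ[F] Ω}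
    (hσ : IsArithFrobAt (𝓞 F) σ Q) :
    ((kap F Ω q σ : (ZMod q)ˣ) : ZMod q) = ((absNorm P.asIdeal : ℕ) : ZMod q) := by
  have := P.isPrime
  have hc : IsCoprime P.asIdeal (modulus (F := F) q) :=
    Ideal.isCoprime_iff_sup_eq.mpr (sup_eq_top_of_notMem_badSet F q hP)
  exact autToPow_of_isArithFrobAt' (IsCyclotomicExtension.zeta_spec q F Ω) hc hσ

theorem exists_frob (P : HeightOneSpectrum (𝓞 F)) :
    ∃ (Q : Ideal (𝓞 Ω)) (σ : Ω ≃ₐ[F] Ω), Q.IsPrime ∧ Q.LiesOver P.asIdeal ∧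
      IsArithFrobAt (𝓞 F) σ Q := by
  have := P.isPrime
  exact exists_isArithFrobAt_over (Ω := Ω) P.asIdeal P.ne_bot

open scoped Classical in
/-- The label of a prime: `N P mod q` as an element of the image of the cyclotomic character. -/
def lab (P : HeightOneSpectrum (𝓞 F)) : (kap F Ω q).range :=
  if h : ∃ g : (kap F Ω q).range,
      ((g : (ZMod q)ˣ) : ZMod q) = ((absNorm P.asIdeal : ℕ) : ZMod q) then h.choose else 1

theorem lab_spec {P : HeightOneSpectrum (𝓞 F)} (hP : P ∉ badSet F q) :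
    (((lab F Ω q P : (kap F Ω q).range) : (ZMod q)ˣ) : ZMod q) =
      ((absNorm P.asIdeal : ℕ) : ZMod q) := by
  classical
  obtain ⟨Q, σ, hQ, hQP, hσ⟩ := exists_frob F Ω P
  have h : ∃ g : (kap F Ω q).range,
      ((g : (ZMod q)ˣ) : ZMod q) = ((absNorm P.asIdeal : ℕ) : ZMod q) :=
    ⟨⟨kap F Ω q σ, σ, rfl⟩, kap_eq_of_isArithFrobAt F Ω q hP hσ⟩
  unfold lab
  rw [dif_pos h]
  exact h.choose_spec

/-- The label of `P` is the cyclotomic character of any Frobenius over `P`. -/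
theorem lab_eq_of_isArithFrobAt {P : HeightOneSpectrum (𝓞 F)} (hP : P ∉ badSet F q)
    {Q : Ideal (𝓞 Ω)} [Q.LiesOver P.asIdeal] {σ : Ω ≃ₐ[F] Ω}
    (hσ : IsArithFrobAt (𝓞 F) σ Q) :
    lab F Ω q P = ⟨kap F Ω q σ, σ, rfl⟩ := by
  apply Subtype.ext
  apply Units.ext
  rw [lab_spec F Ω q hP, kap_eq_of_isArithFrobAt F Ω q hP hσ]

/-- Extension of a character of the image of the cyclotomic character to `(ℤ/q)ˣ`. -/
theorem exists_ext (χ : (kap F Ω q).range →* ℂˣ) :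
    ∃ ψ : (ZMod q)ˣ →* ℂˣ, ∀ g : (kap F Ω q).range, ψ (g : (ZMod q)ˣ) = χ g := by
  have := Fermat.Agent.CFT.CharOrtho.hasEnoughRootsOfUnity_complex (ZMod q)ˣ
  obtain ⟨ψ, hψ⟩ := MonoidHom.domRestrict_surjective ℂ (kap F Ω q).range χ
  exact ⟨ψ, fun g => DFunLike.congr_fun hψ g⟩

/-- The family of completely multiplicative functions. -/
def thetaFam (χ : (kap F Ω q).range →* ℂˣ) : Ideal (𝓞 F) →*₀ ℂ :=
  thetaOf q (MulChar.ofUnitHom (exists_ext F Ω q χ).choose)

theorem thetaFam_good (χ : (kap F Ω q).range →* ℂˣ) {P : HeightOneSpectrum (𝓞 F)}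
    (hP : P ∉ badSet F q) :
    thetaFam F Ω q χ P.asIdeal = ((χ (lab F Ω q P) : ℂˣ) : ℂ) := by
  unfold thetaFam
  rw [thetaOf_apply, ← lab_spec F Ω q hP, MulChar.ofUnitHom_coe,
    (exists_ext F Ω q χ).choose_spec]

theorem thetaFam_bad [IsTotallyComplex F] (χ : (kap F Ω q).range →* ℂˣ)
    {P : HeightOneSpectrum (𝓞 F)} (hP : P ∈ badSet F q) :
    thetaFam F Ω q χ P.asIdeal = 0 :=
  (isRayChar_thetaOf q _).eq_zero _ (sup_ne_top_of_mem_badSet F q hP)

/-- A nontrivial character of the image of the cyclotomic character gives a nontrivial ray class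
character (Frobenius elements generate `Gal(Ω/F)`). -/
theorem exists_thetaFam_ne_one (χ : (kap F Ω q).range →* ℂˣ) (hχ : χ ≠ 1) :
    ∃ a : Ideal (𝓞 F), a ⊔ span {(q : 𝓞 F)} = ⊤ ∧ thetaFam F Ω q χ a ≠ 1 := by
  classical
  set χ' : (Ω ≃ₐ[F] Ω) →* ℂˣ := χ.comp (kap F Ω q).rangeRestrict with hχ'
  have hχ'1 : χ' ≠ 1 := by
    intro h1
    apply hχ
    ext g
    obtain ⟨σ, hσ⟩ := (kap F Ω q).rangeRestrict_surjective g
    have := DFunLike.congr_fun h1 σ
    rw [hχ', MonoidHom.comp_apply, hσ] at this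
    rw [this]
    rfl
  have htop := Fermat.Agent.PT.GLOB.FrobGenerate19.closure_frobSet_eq_top F Ω (gal_comm F Ω q) q
    hq.out.ne_zero
  obtain ⟨σ, hσmem, hσne⟩ : ∃ σ ∈ Fermat.Agent.PT.GLOB.FrobGenerate19.frobSet F Ω q,
      χ' σ ≠ 1 := by
    by_contra hcon
    push Not at hcon
    apply hχ'1
    have hle : Subgroup.closure (Fermat.Agent.PT.GLOB.FrobGenerate19.frobSet F Ω q) ≤ χ'.ker := by
      rw [Subgroup.closure_le]
      intro σ hσ
      exact MonoidHom.mem_ker.mpr (hcon σ hσ)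
    rw [htop] at hle
    ext σ
    have := MonoidHom.mem_ker.mp (hle (Subgroup.mem_top σ))
    rw [this]
    rfl
  obtain ⟨p, Q, hp, hpn, hpq, hQ, hQp, -, hσ⟩ := hσmem
  have hp0 : p ≠ ⊥ := by
    rintro rfl
    rw [Ideal.absNorm_bot] at hpn
    exact Nat.not_prime_zero hpn
  have hcop : p ⊔ span {(q : 𝓞 F)} = ⊤ := by
    by_contra hne
    have h1 := dvd_absNorm_of_sup_ne_top q hne
    have h2 : q = absNorm p := (Nat.prime_dvd_prime_iff_eq hq.out hpn).mp h1
    exact hpq (h2 ▸ dvd_rfl)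
  refine ⟨p, hcop, ?_⟩
  let P : HeightOneSpectrum (𝓞 F) := ⟨p, hp, hp0⟩
  have hPbad : P ∉ badSet F q := by
    intro hbad
    exact sup_ne_top_of_mem_badSet F q hbad hcop
  have hQP : Q.LiesOver P.asIdeal := ⟨hQp.symm⟩
  have h3 := thetaFam_good F Ω q χ hPbad
  rw [lab_eq_of_isArithFrobAt F Ω q hPbad hσ] at h3
  have h4 : thetaFam F Ω q χ p = ((χ' σ : ℂˣ) : ℂ) := h3
  rw [h4]
  intro h5
  apply hσne
  exact Units.ext h5

/-- The identity is a Frobenius at a prime of residue degree one. -/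
theorem isArithFrobAt_one_of_absNorm_eq (P : HeightOneSpectrum (𝓞 F))
    (Q : HeightOneSpectrum (𝓞 Ω)) (hQP : Q.asIdeal.under (𝓞 F) = P.asIdeal)
    (hN : absNorm Q.asIdeal = absNorm P.asIdeal) :
    IsArithFrobAt (𝓞 F) (1 : Ω ≃ₐ[F] Ω) Q.asIdeal := by
  classical
  intro x
  change (1 : Ω ≃ₐ[F] Ω) • x - x ^ Nat.card (𝓞 F ⧸ Q.asIdeal.under (𝓞 F)) ∈ Q.asIdeal
  rw [one_smul, hQP, ← absNorm_eq_natCard, ← hN, absNorm_eq_natCard]
  have := Q.isMaximal
  let _ : Field (𝓞 Ω ⧸ Q.asIdeal) := Ideal.Quotient.field Q.asIdeal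
  have : Finite (𝓞 Ω ⧸ Q.asIdeal) := Ideal.finiteQuotientOfFreeOfNeBot Q.asIdeal Q.ne_bot
  let _ : Fintype (𝓞 Ω ⧸ Q.asIdeal) := Fintype.ofFinite _
  rw [← Ideal.Quotient.eq, map_pow, Nat.card_eq_fintype_card, FiniteField.pow_card]

/-- The primes of degree one not dividing `q` have label `1`. -/
theorem lab_eq_one_of_mem_degOnePrimes {P : HeightOneSpectrum (𝓞 F)}
    (hP : P ∈ Fermat.Agent.CFT.C1ClassDefs.degOnePrimes F Ω) (hPbad : P ∉ badSet F q) :
    lab F Ω q P = 1 := by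
  obtain ⟨Q, hQP, hN⟩ := hP
  have hσ := isArithFrobAt_one_of_absNorm_eq F Ω P Q hQP hN
  have : Q.asIdeal.LiesOver P.asIdeal := ⟨hQP.symm⟩
  rw [lab_eq_of_isArithFrobAt F Ω q hPbad hσ]
  apply Subtype.ext
  exact map_one _

theorem card_range_kap : Nat.card (kap F Ω q).range = Module.finrank F Ω := by
  rw [← IsGalois.card_aut_eq_finrank]
  exact (Nat.card_congr (MonoidHom.ofInjective (kap_injective F Ω q)).toEquiv).symm

theorem wsum_finite_le (T : Set (HeightOneSpectrum (𝓞 F))) (hT : T.Finite) {s : ℝ}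
    (hs : 1 < s) : wsum (xP F s) T ≤ hT.toFinset.card := by
  classical
  unfold wsum
  have h1 : (∑' P, T.indicator (xP F s) P) = ∑ P ∈ hT.toFinset, xP F s P := by
    rw [tsum_eq_sum (s := hT.toFinset)]
    · refine Finset.sum_congr rfl (fun P hP => ?_)
      rw [Set.indicator_of_mem (hT.mem_toFinset.mp hP)]
    · intro P hP
      rw [Set.indicator_of_notMem (fun h => hP (hT.mem_toFinset.mpr h))]
  rw [h1]
  calc ∑ P ∈ hT.toFinset, xP F s P ≤ ∑ _P ∈ hT.toFinset, (1 : ℝ) := by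
        refine Finset.sum_le_sum (fun P _ => ?_)
        have := xP_le_half F hs.le P
        linarith
    _ = hT.toFinset.card := by rw [Finset.sum_const, nsmul_eq_mul, mul_one]

/-- Enough primes with trivial label. -/
theorem exists_split_bound :
    ∃ B : ℝ, ∀ s ∈ Set.Ioc (1 : ℝ) 2, Real.log (1 / (s - 1)) - B ≤
      Nat.card (kap F Ω q).range * dens (badSet F q) (lab F Ω q) 1 s := by
  obtain ⟨B, hB⟩ := log_le_degOnePrimes F Ω
  set c : ℝ := ((finite_badSet F q).toFinset.card : ℝ) with hc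
  refine ⟨B + Module.finrank F Ω * c, fun s hs => ?_⟩
  have h1 := hB s hs
  rw [card_range_kap]
  have hx0 : ∀ P, 0 ≤ xP F s P := fun P => (xP_pos F s P).le
  have hsub : Fermat.Agent.CFT.C1ClassDefs.degOnePrimes F Ω ⊆
      {P | P ∉ badSet F q ∧ lab F Ω q P = 1} ∪ badSet F q := by
    intro P hP
    by_cases hPbad : P ∈ badSet F q
    · exact Or.inr hPbad
    · exact Or.inl ⟨hPbad, lab_eq_one_of_mem_degOnePrimes F Ω q hP hPbad⟩
  have h2 : (Fermat.Agent.CFT.C1ClassDefs.degOnePrimes F Ω).primeIdealZetaSum s ≤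
      dens (badSet F q) (lab F Ω q) 1 s + c := by
    rw [Fermat.Agent.ES.GAL.ChebDensity23.primeIdealZetaSum_eq_wsum]
    refine (wsum_mono hx0 (summable_xP F hs.1) hsub).trans ?_
    refine (wsum_union_le hx0 (summable_xP F hs.1) _ _).trans ?_
    exact add_le_add le_rfl (wsum_finite_le F _ (finite_badSet F q) hs.1)
  have h3 : (Module.finrank F Ω : ℝ) *
      (Fermat.Agent.CFT.C1ClassDefs.degOnePrimes F Ω).primeIdealZetaSum s ≤
      Module.finrank F Ω * (dens (badSet F q) (lab F Ω q) 1 s + c) :=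
    mul_le_mul_of_nonneg_left h2 (Nat.cast_nonneg _)
  rw [mul_add] at h3
  linarith

/-- The primes of `F` not dividing `q` at which `g` is a Frobenius. -/
def frobPrimes (g : Ω ≃ₐ[F] Ω) : Set (HeightOneSpectrum (𝓞 F)) :=
  {P | ¬ P.asIdeal ∣ span {(q : 𝓞 F)} ∧ ∃ Q : Ideal (𝓞 Ω), Q.IsPrime ∧ Q.LiesOver P.asIdeal ∧
    IsArithFrobAt (𝓞 F) g Q}

theorem frobPrimes_eq (g : Ω ≃ₐ[F] Ω) :
    frobPrimes F Ω q g =
      {P | P ∉ badSet F q ∧ lab F Ω q P = ⟨kap F Ω q g, g, rfl⟩} := by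
  ext P
  constructor
  · rintro ⟨hP, Q, hQ, hQP, hg⟩
    exact ⟨hP, lab_eq_of_isArithFrobAt F Ω q hP hg⟩
  · rintro ⟨hP, hlab⟩
    refine ⟨hP, ?_⟩
    obtain ⟨Q, σ, hQ, hQP, hσ⟩ := exists_frob F Ω P
    have h1 := lab_eq_of_isArithFrobAt F Ω q hP hσ
    rw [hlab] at h1
    have h2 : kap F Ω q g = kap F Ω q σ := congrArg Subtype.val h1
    have h3 : g = σ := kap_injective F Ω q h2
    exact ⟨Q, hQ, hQP, h3 ▸ hσ⟩

/-- **The density theorem for the cyclotomic extension `Ω = F(ζ_q)` of a totally complex field,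
for the pairs `{g, g⁻¹}`.** -/
theorem cyclo_dens [IsTotallyComplex F] (g : Ω ≃ₐ[F] Ω) :
    ∃ B : ℝ, ∀ s ∈ Set.Ioc (1 : ℝ) 2,
      |(Module.finrank F Ω : ℝ) / 2 *
          (wsum (xP F s) (frobPrimes F Ω q g) + wsum (xP F s) (frobPrimes F Ω q g⁻¹)) -
        Real.log (1 / (s - 1))| ≤ B := by
  have hfin : Finite (kap F Ω q).range := inferInstance
  have hRe : ∀ χ : (kap F Ω q).range →* ℂˣ, χ ≠ 1 →
      ∃ B : ℝ, ∀ s ∈ Set.Ioc (1 : ℝ) 2, (primeSum (thetaFam F Ω q χ) s).re ≤ B := by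
    intro χ hχ
    exact re_primeSum_le (isRayChar_thetaOf q _) (span_q_ne_bot F q)
      (exists_thetaFam_ne_one F Ω q χ hχ)
  obtain ⟨B, hB⟩ := fourier_density_re (badSet F q) (finite_badSet F q) (lab F Ω q)
    (thetaFam F Ω q) (fun χ P hP => thetaFam_bad F Ω q χ hP)
    (fun χ P hP => thetaFam_good F Ω q χ hP) hRe (exists_split_bound F Ω q)
    ⟨kap F Ω q g, g, rfl⟩
  refine ⟨B, fun s hs => ?_⟩
  have h1 := hB s hs
  rw [card_range_kap] at h1
  have h2 : (⟨kap F Ω q g, g, rfl⟩ : (kap F Ω q).range)⁻¹ = ⟨kap F Ω q g⁻¹, g⁻¹, rfl⟩ := by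
    apply Subtype.ext
    exact (map_inv (kap F Ω q) g).symm
  rw [h2] at h1
  rw [frobPrimes_eq, frobPrimes_eq]
  exact h1

end Cyclo

end Fermat.Agent.M48.ChebCyclo2
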