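/-
Programme M48 (target S48), leaf (P6) = Chebotarev's density theorem, file X (helper2):
**Chebotarev's field crossing.**

`E/ℚ` a totally complex Galois number field, `q` a prime not dividing `disc E`, `Ω = E(ζ_q)`, so
that `Gal(Ω/ℚ) = Gal(E/ℚ) × (ℤ/q)ˣ` (`CFT/CycloDisjoint.galEquivProd`).  An element `g` of
`Gal(Ω/ℚ)` is *good* if `2 #Gal(E/ℚ)` divides the order of its cyclotomic character.  For a good
`g` the fixed field `F` of `⟨g⟩` is totally complex (`isTotallyComplex_fixF`) and `Ω = F(ζ_q)`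
(`isCyclotomicExtension_fixF`), so `ChebCyclo2.cyclo_dens` applies to `Ω/F`.
-/
import Mathlib
import Fermat.Agent.CFT.CycloDisjoint
import Fermat.Agent.M48.ChebCyclo2
import Fermat.Agent.M48.ChebAssembly2

set_option autoImplicit false
set_option linter.unusedSectionVars false

open NumberField Ideal IsDedekindDomain IntermediateField
open scoped Pointwise
open Fermat.Agent.CFT.SplitPrimes Fermat.Agent.CFT.NotAllSplit Fermat.Agent.CFT.CycloDisjoint
open Fermat.Agent.ES.GAL.ChebAbstract23 Fermat.Agent.M48.ChebTransfer2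
open Fermat.Agent.M48.ChebAssembly2 Fermat.Agent.M48.ChebCyclo2

noncomputable section

namespace Fermat.Agent.M48.ChebCross2

section Cross

variable {E Ω : Type} [Field E] [NumberField E] [Field Ω] [NumberField Ω] [Algebra E Ω]
  [IsGalois ℚ E] [IsGalois ℚ Ω] {q : ℕ} [hq : Fact q.Prime] [IsCyclotomicExtension {q} E Ω]
  {ζ : Ω} (hζ : IsPrimitiveRoot ζ q)

/-- `g` is good if `2 #Gal(E/ℚ)` divides the order of its cyclotomic character. -/
def Good (g : Ω ≃ₐ[ℚ] Ω) : Prop :=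
  2 * Nat.card (E ≃ₐ[ℚ] E) ∣ orderOf (hζ.autToPow ℚ g)

theorem good_inv {g : Ω ≃ₐ[ℚ] Ω} (hg : Good (E := E) hζ g) : Good (E := E) hζ g⁻¹ := by
  unfold Good at hg ⊢
  rwa [map_inv, orderOf_inv]

/-- If the square of the `j`-th power of the cyclotomic character of a good `g` is trivial, then
the `j`-th power of `g` is trivial on `E`. -/
theorem restrict_zpow_eq_one {g : Ω ≃ₐ[ℚ] Ω} (hg : Good (E := E) hζ g) {j : ℤ}
    (hj : (hζ.autToPow ℚ g) ^ (2 * j) = 1) :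
    (AlgEquiv.restrictNormalHom E g) ^ j = 1 := by
  have h1 : ((orderOf (hζ.autToPow ℚ g) : ℕ) : ℤ) ∣ 2 * j := orderOf_dvd_iff_zpow_eq_one.mpr hj
  have h2 : ((2 * Nat.card (E ≃ₐ[ℚ] E) : ℕ) : ℤ) ∣ 2 * j :=
    (Int.natCast_dvd_natCast.mpr hg).trans h1
  have h3 : ((Nat.card (E ≃ₐ[ℚ] E) : ℕ) : ℤ) ∣ j := by
    rw [Nat.cast_mul, Nat.cast_ofNat] at h2
    exact Int.dvd_of_mul_dvd_mul_left (by norm_num) h2
  obtain ⟨k, rfl⟩ := h3
  rw [zpow_mul, zpow_natCast, pow_card_eq_one', one_zpow]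

theorem restrict_zpow_eq_one' {g : Ω ≃ₐ[ℚ] Ω} (hg : Good (E := E) hζ g) {j : ℤ}
    (hj : (hζ.autToPow ℚ g) ^ j = 1) :
    (AlgEquiv.restrictNormalHom E g) ^ j = 1 := by
  apply restrict_zpow_eq_one hζ hg
  rw [mul_comm, zpow_mul, hj, one_zpow]

/-- For a good `g`, the subgroup `⟨g⟩` meets the kernel of the cyclotomic character trivially. -/
theorem zpowers_inf_ker_eq_bot {g : Ω ≃ₐ[ℚ] Ω} (hg : Good (E := E) hζ g) :
    Subgroup.zpowers g ⊓ (hζ.autToPow ℚ : (Ω ≃ₐ[ℚ] Ω) →* (ZMod q)ˣ).ker = ⊥ := by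
  rw [eq_bot_iff]
  rintro x ⟨hx1, hx2⟩
  obtain ⟨j, rfl⟩ := Subgroup.mem_zpowers_iff.mp hx1
  have h1 : (hζ.autToPow ℚ g) ^ j = 1 := by
    have := MonoidHom.mem_ker.mp hx2
    rwa [map_zpow] at this
  have h2 := restrict_zpow_eq_one' hζ hg h1
  rw [Subgroup.mem_bot]
  apply eq_one_of_restrict_of_autToPow (K := ℚ) (L := E) hζ
  · rw [map_zpow]; exact h2
  · rw [map_zpow]; exact h1

/-- For a good `g`, `Ω` is generated by `ζ` over the fixed field of `⟨g⟩`. -/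
theorem isCyclotomicExtension_fixF {g : Ω ≃ₐ[ℚ] Ω} (hg : Good (E := E) hζ g) :
    IsCyclotomicExtension {q} (fixF g) Ω := by
  set F : IntermediateField ℚ Ω := fixF g with hF
  -- `F ⊔ ℚ(ζ) = ⊤`
  have hsup : F ⊔ ℚ⟮ζ⟯ = ⊤ := by
    rw [← IsGalois.fixedField_fixingSubgroup (F ⊔ ℚ⟮ζ⟯), fixingSubgroup_sup,
      fixingSubgroup_adjoin_zeta hζ, hF, fixingSubgroup_fixedField,
      zpowers_inf_ker_eq_bot hζ hg, fixedField_bot]
  -- `F(ζ) = ⊤` over `F`
  have htop : (F⟮ζ⟯ : IntermediateField F Ω) = ⊤ := by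
    rw [eq_top_iff]
    intro x _
    have hx : x ∈ F ⊔ ℚ⟮ζ⟯ := by rw [hsup]; trivial
    have hle : F ⊔ ℚ⟮ζ⟯ ≤ (F⟮ζ⟯ : IntermediateField F Ω).restrictScalars ℚ := by
      refine sup_le ?_ ?_
      · intro y hy
        exact (F⟮ζ⟯ : IntermediateField F Ω).algebraMap_mem ⟨y, hy⟩
      · rw [adjoin_simple_le_iff]
        exact mem_adjoin_simple_self F ζ
    exact hle hx
  have h1 : IsCyclotomicExtension {q} F (F⟮ζ⟯ : IntermediateField F Ω) :=
    hζ.intermediateField_adjoin_isCyclotomicExtension F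
  exact IsCyclotomicExtension.equiv {q} F _
    ((IntermediateField.equivOfEq htop).trans IntermediateField.topEquiv)

/-- For a good `g` and `E` totally complex, the fixed field of `⟨g⟩` is totally complex. -/
theorem isTotallyComplex_fixF [IsTotallyComplex E] {g : Ω ≃ₐ[ℚ] Ω} (hg : Good (E := E) hζ g) :
    IsTotallyComplex (fixF g) := by
  set F : IntermediateField ℚ Ω := fixF g with hF
  refine ⟨fun v => ?_⟩
  rw [← InfinitePlace.not_isReal_iff_isComplex, InfinitePlace.isReal_iff]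
  intro hreal
  set φ : F →+* ℂ := v.embedding with hφ
  have hφc : ComplexEmbedding.conjugate φ = φ := ComplexEmbedding.isReal_iff.mp hreal
  -- extend to `Ω`
  set ψ : Ω →+* ℂ := ComplexEmbedding.lift Ω φ with hψ
  have hψφ : ψ.comp (algebraMap F Ω) = φ := ComplexEmbedding.lift_comp_algebraMap Ω φ
  have hcomp : ψ.comp (algebraMap F Ω) =
      (ComplexEmbedding.conjugate ψ).comp (algebraMap F Ω) := by
    rw [ComplexEmbedding.conjugate_comp, hψφ, hφc]
  obtain ⟨c, hc⟩ := ComplexEmbedding.exists_comp_symm_eq_of_comp_eq (k := F) ψ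
    (ComplexEmbedding.conjugate ψ) hcomp
  -- `d = c⁻¹` is complex conjugation with respect to `ψ`
  have hd : ∀ x : Ω, ψ (c.symm x) = (starRingEnd ℂ) (ψ x) := by
    intro x
    have := RingHom.congr_fun hc x
    rwa [RingHom.comp_apply, ComplexEmbedding.conjugate_coe_eq] at this
  -- as an element of `⟨g⟩`
  have hmem : (c.symm.restrictScalars ℚ : Ω ≃ₐ[ℚ] Ω) ∈ Subgroup.zpowers g := by
    rw [← fixingSubgroup_fixedField (Subgroup.zpowers g), IntermediateField.mem_fixingSubgroup_iff]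
    intro x hx
    exact c.symm.commutes ⟨x, hx⟩
  obtain ⟨j, hj⟩ := Subgroup.mem_zpowers_iff.mp hmem
  -- `d² = 1`
  have hdd : ∀ x : Ω, c.symm (c.symm x) = x := by
    intro x
    apply ψ.injective
    rw [hd, hd, Complex.conj_conj]
  have hsq : (g ^ j) ^ (2 : ℤ) = 1 := by
    rw [hj]
    ext x
    rw [zpow_two]
    exact hdd x
  have hκ : (hζ.autToPow ℚ g) ^ (2 * j) = 1 := by
    rw [mul_comm, zpow_mul, ← map_zpow, ← map_zpow, hsq, map_one]
  have hres := restrict_zpow_eq_one hζ hg hκ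
  -- `d` is trivial on `E`
  have hE : ∀ x : E, c.symm (algebraMap E Ω x) = algebraMap E Ω x := by
    intro x
    have h1 : AlgEquiv.restrictNormalHom E (g ^ j) = 1 := by
      rw [map_zpow]; exact hres
    have h2 := (restrictNormalHom_eq_iff (K := ℚ) (L := E) (g ^ j) 1).mp h1 x
    rw [hj] at h2
    exact h2
  -- so `ψ` restricted to `E` is real
  have hrealE : ComplexEmbedding.IsReal (ψ.comp (algebraMap E Ω)) := by
    rw [ComplexEmbedding.isReal_iff]
    ext x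
    rw [ComplexEmbedding.conjugate_coe_eq, RingHom.comp_apply, ← hd, hE]
  exact IsTotallyComplex.complexEmbedding_not_isReal _ hrealE

end Cross

/-! ### Prime sums over the fixed fields -/

section Sums

variable {Ω : Type} [Field Ω] [NumberField Ω] [IsGalois ℚ Ω]

/-- The prime sum over the primes of the fixed field of `⟨g⟩` (prime norm not dividing
`m disc Ω`) at which `g` is a Frobenius. -/
def W (m : ℕ) (g : Ω ≃ₐ[ℚ] Ω) (s : ℝ) : ℝ :=
  wsum (xP (fixF g) s) (frobAt (fixF g) Ω m (overFix g))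

theorem W_nonneg (m : ℕ) (g : Ω ≃ₐ[ℚ] Ω) (s : ℝ) : 0 ≤ W m g s :=
  wsum_nonneg (fun P => (xP_pos _ s P).le) _

theorem wsum_congr_field {F₁ F₂ : IntermediateField ℚ Ω} (h : F₁ = F₂) (τ₁ : Ω ≃ₐ[F₁] Ω)
    (τ₂ : Ω ≃ₐ[F₂] Ω) (hτ : ∀ x, τ₁ x = τ₂ x) (m : ℕ) (s : ℝ) :
    wsum (xP F₁ s) (frobAt F₁ Ω m τ₁) = wsum (xP F₂ s) (frobAt F₂ Ω m τ₂) := by
  subst h
  have : τ₁ = τ₂ := AlgEquiv.ext hτ
  rw [this]

theorem W_inv (m : ℕ) (g : Ω ≃ₐ[ℚ] Ω) (s : ℝ) :
    W m g⁻¹ s = wsum (xP (fixF g) s) (frobAt (fixF g) Ω m (overFix g)⁻¹) := by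
  unfold W
  have h : fixF g⁻¹ = fixF g := by
    unfold fixF
    rw [Subgroup.zpowers_inv]
  refine wsum_congr_field h _ _ (fun x => ?_) m s
  apply (overFix g).injective
  rw [overFix_apply, overFix_apply]
  have h1 : (overFix g) ((overFix g)⁻¹ x) = x := (overFix g).apply_symm_apply x
  have h2 : g (g⁻¹ x) = x := g.apply_symm_apply x
  rw [h1, h2]

/-- Discarding the primes of non-prime norm or dividing `M` costs `O(1)`. -/
theorem wsum_le_wsum_inter_good {F : Type} [Field F] [NumberField F] {M : ℕ} (hM : M ≠ 0)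
    (T : Set (HeightOneSpectrum (𝓞 F))) {s : ℝ} (hs : 1 < s) :
    wsum (xP F s) T ≤ wsum (xP F s) (T ∩ goodPrimes F M) +
      (Module.finrank ℚ F * primeZeta ℚ 2 + (smallPrimes F M).ncard) := by
  have hx0 : ∀ P, 0 ≤ xP F s P := fun P => (xP_pos F s P).le
  have hsum := summable_xP F hs
  have h1 : T ⊆ (T ∩ goodPrimes F M) ∪ (goodPrimes F M)ᶜ := by
    intro P hP
    by_cases hg : P ∈ goodPrimes F M
    · exact Or.inl ⟨hP, hg⟩
    · exact Or.inr hg
  have h2 := (wsum_mono hx0 hsum h1).trans (wsum_union_le hx0 hsum _ _)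
  have h3 := primeZeta_le_goodPrimes F hM hs
  rw [Fermat.Agent.ES.GAL.ChebDensity23.primeIdealZetaSum_eq_wsum,
    Fermat.Agent.ES.GAL.ChebDensity23.primeZeta_eq_wsum_add F (goodPrimes F M) hs] at h3
  linarith

end Sums

/-! ### The lower bound for a good element -/

section GoodLower

variable {E Ω : Type} [Field E] [NumberField E] [Field Ω] [NumberField Ω] [Algebra E Ω]
  [IsGalois ℚ E] [IsGalois ℚ Ω] {q : ℕ} [hq : Fact q.Prime] [IsCyclotomicExtension {q} E Ω]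
  {ζ : Ω} (hζ : IsPrimitiveRoot ζ q)

theorem frobPrimes_inter_good_subset (F : IntermediateField ℚ Ω) (τ : Ω ≃ₐ[F] Ω) (m : ℕ) :
    frobPrimes F Ω q τ ∩ goodPrimes F (m * (discr Ω).natAbs) ⊆ frobAt F Ω m τ := by
  rintro P ⟨⟨-, Q, hQ, hQP, hτ⟩, hgood⟩
  exact ⟨hgood, Q, hQ, hQP.over.symm, hτ⟩

/-- **Lower bound for a good element**: `W(g) + W(g⁻¹) ≥ (2 / ord g) log (1/(s-1)) - O(1)`. -/
theorem good_lower [IsTotallyComplex E] (m : ℕ) (hm : m ≠ 0) {g : Ω ≃ₐ[ℚ] Ω}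
    (hg : Good (E := E) hζ g) :
    ∃ B : ℝ, ∀ s ∈ Set.Ioc (1 : ℝ) 2,
      2 / (orderOf g : ℝ) * Real.log (1 / (s - 1)) - B ≤ W m g s + W m g⁻¹ s := by
  have hcyc := isCyclotomicExtension_fixF hζ hg
  have htc := isTotallyComplex_fixF hζ hg
  obtain ⟨B, hB⟩ := cyclo_dens (fixF g) Ω q (overFix g)
  set M : ℕ := m * (discr Ω).natAbs with hMdef
  have hM : M ≠ 0 := Nat.mul_ne_zero hm (Int.natAbs_ne_zero.mpr (discr_ne_zero Ω))
  set cF : ℝ := Module.finrank ℚ (fixF g) * primeZeta ℚ 2 + (smallPrimes (fixF g) M).ncard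
    with hcF
  have hn : Module.finrank (fixF g) Ω = orderOf g := by
    rw [IntermediateField.finrank_fixedField_eq_card, Nat.card_zpowers]
  have hord : (0 : ℝ) < orderOf g := by exact_mod_cast orderOf_pos g
  refine ⟨2 / (orderOf g : ℝ) * B + 2 * cF, fun s hs => ?_⟩
  have h1 := (abs_le.mp (hB s hs)).1
  rw [hn] at h1
  have hx0 : ∀ P, 0 ≤ xP (fixF g) s P := fun P => (xP_pos _ s P).le
  have hsum := summable_xP (fixF g) hs.1
  have hbound : ∀ τ : Ω ≃ₐ[fixF g] Ω, wsum (xP (fixF g) s) (frobPrimes (fixF g) Ω q τ) ≤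
      wsum (xP (fixF g) s) (frobAt (fixF g) Ω m τ) + cF := by
    intro τ
    refine (wsum_le_wsum_inter_good hM _ hs.1).trans ?_
    exact add_le_add (wsum_mono hx0 hsum (frobPrimes_inter_good_subset (fixF g) τ m)) le_rfl
  have h2 := hbound (overFix g)
  have h3 := hbound (overFix g)⁻¹
  rw [W_inv]
  unfold W
  set W1 := wsum (xP (fixF g) s) (frobPrimes (fixF g) Ω q (overFix g))
  set W2 := wsum (xP (fixF g) s) (frobPrimes (fixF g) Ω q (overFix g)⁻¹)
  -- `(n/2) (W1 + W2) ≥ lg - B`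
  have h4 : 2 / (orderOf g : ℝ) * (Real.log (1 / (s - 1)) - B) ≤ W1 + W2 := by
    have h5 : Real.log (1 / (s - 1)) - B ≤ (orderOf g : ℝ) / 2 * (W1 + W2) := by linarith
    calc 2 / (orderOf g : ℝ) * (Real.log (1 / (s - 1)) - B)
        ≤ 2 / (orderOf g : ℝ) * ((orderOf g : ℝ) / 2 * (W1 + W2)) :=
          mul_le_mul_of_nonneg_left h5 (div_nonneg zero_le_two hord.le)
      _ = W1 + W2 := by field_simp
  rw [mul_sub] at h4
  linarith

open scoped Classical in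
/-- **The crossing bound**: for an inversion-closed finite set `C'` of elements of `Gal(Ω/ℚ)`, the
primes at which some element of `C'` is a Frobenius carry at least
`#{g ∈ C' good} / #Gal(Ω/ℚ) * log (1/(s-1)) - O(1)`. -/
theorem cross_lower [IsTotallyComplex E] (m : ℕ) (hm : m ≠ 0) (C' : Finset (Ω ≃ₐ[ℚ] Ω))
    (hinv : ∀ g ∈ C', g⁻¹ ∈ C') :
    ∃ B : ℝ, ∀ s ∈ Set.Ioc (1 : ℝ) 2,
      ((C'.filter (fun g => Good (E := E) hζ g)).card : ℝ) / Nat.card (Ω ≃ₐ[ℚ] Ω) *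
          Real.log (1 / (s - 1)) - B ≤
        wsum (xP ℚ s) (⋃ g ∈ C', frobAt ℚ Ω m g) := by
  have hex : ∀ g : Ω ≃ₐ[ℚ] Ω, Good (E := E) hζ g → ∃ B : ℝ, ∀ s ∈ Set.Ioc (1 : ℝ) 2,
      2 / (orderOf g : ℝ) * Real.log (1 / (s - 1)) - B ≤ W m g s + W m g⁻¹ s :=
    fun g hg => good_lower hζ m hm hg
  choose! Bf hBf using hex
  set N : ℝ := (Nat.card (Ω ≃ₐ[ℚ] Ω) : ℝ) with hN
  have hNpos : 0 < N := by rw [hN]; exact_mod_cast Nat.card_pos
  set Cg : Finset (Ω ≃ₐ[ℚ] Ω) := C'.filter (fun g => Good (E := E) hζ g) with hCg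
  refine ⟨∑ g ∈ Cg, (orderOf g : ℝ) / N * Bf g / 2, fun s hs => ?_⟩
  have hasm := assembly_fixed m C' hs.1
  refine le_trans ?_ hasm
  -- symmetrise
  set f : (Ω ≃ₐ[ℚ] Ω) → ℝ := fun g => (orderOf g : ℝ) / N * W m g s with hf
  have hsym : ∑ g ∈ C', f g⁻¹ = ∑ g ∈ C', f g := by
    refine Finset.sum_nbij' (fun g => g⁻¹) (fun g => g⁻¹) hinv hinv ?_ ?_ ?_
    · intro g _; exact inv_inv g
    · intro g _; exact inv_inv g
    · intro g _; rfl
  have h1 : ∑ g ∈ C', f g = ∑ g ∈ C', (orderOf g : ℝ) / N * (W m g s + W m g⁻¹ s) / 2 := by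
    have h2 : ∀ g ∈ C', (orderOf g : ℝ) / N * (W m g s + W m g⁻¹ s) / 2 =
        (f g + f g⁻¹) / 2 := by
      intro g _
      simp only [hf, orderOf_inv]
      ring
    rw [Finset.sum_congr rfl h2, ← Finset.sum_div, Finset.sum_add_distrib, hsym]
    ring
  have h3 : ∑ g ∈ C', (orderOf g : ℝ) / N *
      wsum (xP (fixF g) s) (frobAt (fixF g) Ω m (overFix g)) = ∑ g ∈ C', f g := rfl
  rw [h3, h1]
  -- restrict to the good elements
  have hnonneg : ∀ g ∈ C', 0 ≤ (orderOf g : ℝ) / N * (W m g s + W m g⁻¹ s) / 2 := by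
    intro g _
    have := W_nonneg m g s
    have := W_nonneg m g⁻¹ s
    positivity
  have h4 : ∑ g ∈ Cg, (orderOf g : ℝ) / N * (W m g s + W m g⁻¹ s) / 2 ≤
      ∑ g ∈ C', (orderOf g : ℝ) / N * (W m g s + W m g⁻¹ s) / 2 :=
    Finset.sum_le_sum_of_subset_of_nonneg (Finset.filter_subset _ _)
      (fun g hg _ => hnonneg g hg)
  refine le_trans ?_ h4
  -- termwise
  have h5 : ∀ g ∈ Cg, 1 / N * Real.log (1 / (s - 1)) - (orderOf g : ℝ) / N * Bf g / 2 ≤
      (orderOf g : ℝ) / N * (W m g s + W m g⁻¹ s) / 2 := by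
    intro g hg
    have hgood : Good (E := E) hζ g := (Finset.mem_filter.mp hg).2
    have h6 := hBf g hgood s hs
    have hord : (0 : ℝ) < orderOf g := by exact_mod_cast orderOf_pos g
    have h7 : (orderOf g : ℝ) / N * (2 / (orderOf g : ℝ) * Real.log (1 / (s - 1)) - Bf g) / 2 ≤
        (orderOf g : ℝ) / N * (W m g s + W m g⁻¹ s) / 2 := by
      apply div_le_div_of_nonneg_right _ zero_le_two
      exact mul_le_mul_of_nonneg_left h6 (div_nonneg hord.le hNpos.le)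
    refine le_trans (le_of_eq ?_) h7
    field_simp
  have h8 := Finset.sum_le_sum h5
  rw [Finset.sum_sub_distrib, Finset.sum_const, nsmul_eq_mul] at h8
  refine le_trans (le_of_eq ?_) h8
  ring

end GoodLower

end Fermat.Agent.M48.ChebCross2
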