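/-
Programme M48 (target S48), leaf (P6) = Chebotarev's density theorem, file NF (helper2):
**Chebotarev's density theorem (lower bound, inversion-closed sets) for totally complex Galois
number fields over `ℚ`.**

For `E/ℚ` Galois and totally complex, `C ⊆ Gal(E/ℚ)` closed under inversion, `m ≠ 0` and `ε > 0`:
`∑_{p : Frob_p ∩ C ≠ ∅, p ∤ m disc E} p^{-s} ≥ (#C/#G - ε) log (1/(s-1)) - O(1)` on `(1,2]`.

Proof: choose `t` with `ω(2#G) / 2^t ≤ ε` and a prime `q ≡ 1 mod (2#G)^t`, `q > |disc E|`; put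
`Ω = E(ζ_q)`, so `Gal(Ω/ℚ) = G × (ℤ/q)ˣ`; apply `ChebCross2.cross_lower` to the preimage of `C`,
count the good elements with `ChebCount5.card_not_dvd_orderOf_le`, and descend from `Ω` to `E`
(the restriction of a Frobenius is a Frobenius).
-/
import Mathlib
import Fermat.Agent.CFT.CycloArtin
import Fermat.Agent.M48.ChebCross2
import Fermat.Agent.M48.ChebCount5

set_option autoImplicit false
set_option linter.unusedSectionVars false

open NumberField Ideal IsDedekindDomain IntermediateField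
open scoped Pointwise
open Fermat.Agent.CFT.SplitPrimes Fermat.Agent.CFT.NotAllSplit Fermat.Agent.CFT.CycloDisjoint
open Fermat.Agent.ES.GAL.ChebAbstract23 Fermat.Agent.M48.ChebTransfer2
open Fermat.Agent.M48.ChebCross2

noncomputable section

namespace Fermat.Agent.M48.ChebNF2

/-! ### Descent of Frobenius sets from `Ω` to `E` -/

section Descent

variable {E Ω : Type} [Field E] [NumberField E] [Field Ω] [NumberField Ω] [Algebra E Ω]
  [IsGalois ℚ E] [IsGalois ℚ Ω]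

theorem goodPrimes_subset_of_dvd {K : Type} [Field K] [NumberField K] {a b : ℕ} (h : a ∣ b) :
    goodPrimes K b ⊆ goodPrimes K a :=
  fun _ hp => ⟨hp.1, fun h' => hp.2 (h'.trans h)⟩

/-- A prime at which `g ∈ Gal(Ω/ℚ)` is a Frobenius is a prime at which `g|_E` is a Frobenius. -/
theorem frobAt_subset_restrict (m : ℕ) (g : Ω ≃ₐ[ℚ] Ω) :
    frobAt ℚ Ω m g ⊆ frobAt ℚ E m (AlgEquiv.restrictNormalHom E g) := by
  rintro p ⟨hgood, Q', hQ', hQ'p, hg⟩
  have hdvd : m * (discr E).natAbs ∣ m * (discr Ω).natAbs :=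
    Nat.mul_dvd_mul_left m (Int.natAbs_dvd_natAbs.mpr (discr_dvd_discr E Ω))
  refine ⟨goodPrimes_subset_of_dvd hdvd hgood, Q'.under (𝓞 E), ?_, ?_, ?_⟩
  · exact Ideal.IsPrime.under (𝓞 E) Q'
  · rw [Ideal.under_under]; exact hQ'p
  · exact Fermat.Agent.CFT.CycloArtin.isArithFrobAt_restrictNormal (M := E) hg

end Descent

/-! ### Counting the good elements -/

section Count

variable {E Ω : Type} [Field E] [NumberField E] [Field Ω] [NumberField Ω] [Algebra E Ω]
  [IsGalois ℚ E] [IsGalois ℚ Ω] {q : ℕ} [hq : Fact q.Prime] [IsCyclotomicExtension {q} E Ω]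
  {ζ : Ω} (hζ : IsPrimitiveRoot ζ q)

/-- The preimage in `Gal(Ω/ℚ)` of a finite set of elements of `Gal(E/ℚ)`. -/
def preim (hcop : q.Coprime (discr E).natAbs) (C : Finset (E ≃ₐ[ℚ] E)) : Finset (Ω ≃ₐ[ℚ] Ω) :=
  (C ×ˢ (Finset.univ : Finset (ZMod q)ˣ)).map
    (galEquivProd (K := ℚ) (L := E) hζ hcop).symm.toEquiv.toEmbedding

theorem mem_preim (hcop : q.Coprime (discr E).natAbs) (C : Finset (E ≃ₐ[ℚ] E))
    (g : Ω ≃ₐ[ℚ] Ω) : g ∈ preim hζ hcop C ↔ AlgEquiv.restrictNormalHom E g ∈ C := by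
  unfold preim
  rw [Finset.mem_map]
  constructor
  · rintro ⟨⟨σ, u⟩, hx, rfl⟩
    have h1 := galEquivProd_apply (K := ℚ) (L := E) hζ hcop
      ((galEquivProd (K := ℚ) (L := E) hζ hcop).symm (σ, u))
    rw [MulEquiv.apply_symm_apply] at h1
    have h2 : AlgEquiv.restrictNormalHom E
        ((galEquivProd (K := ℚ) (L := E) hζ hcop).symm (σ, u)) = σ := (congrArg Prod.fst h1).symm
    rw [Finset.mem_product] at hx
    show AlgEquiv.restrictNormalHom E
        ((galEquivProd (K := ℚ) (L := E) hζ hcop).symm (σ, u)) ∈ C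
    rw [h2]; exact hx.1
  · intro h
    refine ⟨galEquivProd (K := ℚ) (L := E) hζ hcop g, ?_, ?_⟩
    · rw [galEquivProd_apply, Finset.mem_product]
      exact ⟨h, Finset.mem_univ _⟩
    · exact (galEquivProd (K := ℚ) (L := E) hζ hcop).symm_apply_apply g

theorem preim_inv (hcop : q.Coprime (discr E).natAbs) (C : Finset (E ≃ₐ[ℚ] E))
    (hinv : ∀ σ ∈ C, σ⁻¹ ∈ C) : ∀ g ∈ preim hζ hcop C, g⁻¹ ∈ preim hζ hcop C := by
  intro g hg
  rw [mem_preim] at hg ⊢
  rw [map_inv]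
  exact hinv _ hg

include hζ in
theorem natCard_gal_top (hcop : q.Coprime (discr E).natAbs) :
    Nat.card (Ω ≃ₐ[ℚ] Ω) = Nat.card (E ≃ₐ[ℚ] E) * (q - 1) := by
  rw [Nat.card_congr (galEquivProd (K := ℚ) (L := E) hζ hcop).toEquiv, Nat.card_prod,
    Nat.card_eq_fintype_card (α := (ZMod q)ˣ), ZMod.card_units_eq_totient,
    Nat.totient_prime hq.out]

open scoped Classical in
/-- The number of good elements in the preimage of `C`. -/
theorem card_good_preim_ge (hcop : q.Coprime (discr E).natAbs) (C : Finset (E ≃ₐ[ℚ] E)) :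
    C.card * (Finset.univ.filter (fun u : (ZMod q)ˣ =>
        2 * Nat.card (E ≃ₐ[ℚ] E) ∣ orderOf u)).card ≤
      ((preim hζ hcop C).filter (fun g => Good (E := E) hζ g)).card := by
  rw [← Finset.card_product, ← Finset.card_map
    (galEquivProd (K := ℚ) (L := E) hζ hcop).symm.toEquiv.toEmbedding]
  apply Finset.card_le_card
  intro g hg
  rw [Finset.mem_map] at hg
  obtain ⟨⟨σ, u⟩, hx, rfl⟩ := hg
  rw [Finset.mem_product, Finset.mem_filter] at hx
  have h1 := galEquivProd_apply (K := ℚ) (L := E) hζ hcop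
    ((galEquivProd (K := ℚ) (L := E) hζ hcop).symm (σ, u))
  rw [MulEquiv.apply_symm_apply] at h1
  have h2 : AlgEquiv.restrictNormalHom E
      ((galEquivProd (K := ℚ) (L := E) hζ hcop).symm (σ, u)) = σ := (congrArg Prod.fst h1).symm
  have h3 : hζ.autToPow ℚ
      ((galEquivProd (K := ℚ) (L := E) hζ hcop).symm (σ, u)) = u := (congrArg Prod.snd h1).symm
  rw [Finset.mem_filter, mem_preim]
  refine ⟨?_, ?_⟩
  · show AlgEquiv.restrictNormalHom E
        ((galEquivProd (K := ℚ) (L := E) hζ hcop).symm (σ, u)) ∈ C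
    rw [h2]; exact hx.1
  · show 2 * Nat.card (E ≃ₐ[ℚ] E) ∣ orderOf (hζ.autToPow ℚ
        ((galEquivProd (K := ℚ) (L := E) hζ hcop).symm (σ, u)))
    rw [h3]; exact hx.2.2

open scoped Classical in
/-- The proportion of good elements in the preimage of `C` is at least `#C/#G - ω(2#G)/2^t` as
soon as `(2#G)^t ∣ q - 1`. -/
theorem ratio_good_preim_ge (hcop : q.Coprime (discr E).natAbs) (C : Finset (E ≃ₐ[ℚ] E))
    {t : ℕ} (ht : 0 < t) (hqt : (2 * Nat.card (E ≃ₐ[ℚ] E)) ^ t ∣ q - 1) :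
    (C.card : ℝ) / Nat.card (E ≃ₐ[ℚ] E) -
        ((2 * Nat.card (E ≃ₐ[ℚ] E)).primeFactors.card : ℝ) / 2 ^ t ≤
      (((preim hζ hcop C).filter (fun g => Good (E := E) hζ g)).card : ℝ) /
        Nat.card (Ω ≃ₐ[ℚ] Ω) := by
  set n : ℕ := Nat.card (E ≃ₐ[ℚ] E) with hn_def
  have hn : 0 < n := Nat.card_pos
  have hcard : Fintype.card (ZMod q)ˣ = q - 1 := by
    rw [ZMod.card_units_eq_totient, Nat.totient_prime hq.out]
  have hQ : 0 < q - 1 := by have := hq.out.two_le; omega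
  have hbad := Fermat.Agent.M48.ChebCount5.card_not_dvd_orderOf_le (T := (ZMod q)ˣ) (2 * n) t
    (by positivity) ht (by rw [hcard]; exact hqt)
  rw [hcard] at hbad
  have hsum := Finset.card_filter_add_card_filter_not (s := (Finset.univ : Finset (ZMod q)ˣ))
    (fun u : (ZMod q)ˣ => 2 * n ∣ orderOf u)
  rw [Finset.card_univ, hcard] at hsum
  have hgp := card_good_preim_ge hζ hcop C
  have hcn : C.card ≤ n := by
    rw [hn_def, Nat.card_eq_fintype_card]; exact Finset.card_le_univ C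
  rw [natCard_gal_top hζ hcop]
  set gd : ℕ := (Finset.univ.filter (fun u : (ZMod q)ˣ => 2 * n ∣ orderOf u)).card with hgd
  set bd : ℕ := (Finset.univ.filter (fun u : (ZMod q)ˣ => ¬ 2 * n ∣ orderOf u)).card with hbd
  set gp : ℕ := ((preim hζ hcop C).filter (fun g => Good (E := E) hζ g)).card with hgp_def
  set ω : ℕ := (2 * n).primeFactors.card
  have hnR : (0 : ℝ) < n := by exact_mod_cast hn
  have hQR : (0 : ℝ) < ((q - 1 : ℕ) : ℝ) := by exact_mod_cast hQ
  have hT : (0 : ℝ) < 2 ^ t := by positivity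
  have h1 : (gd : ℝ) + bd = ((q - 1 : ℕ) : ℝ) := by exact_mod_cast hsum
  have h2 : (C.card : ℝ) * gd ≤ gp := by exact_mod_cast hgp
  have h3 : (C.card : ℝ) ≤ n := by exact_mod_cast hcn
  have hbd0 : (0 : ℝ) ≤ bd := Nat.cast_nonneg _
  rw [Nat.cast_mul, le_div_iff₀ (by positivity)]
  have h4 : ((C.card : ℝ) / n - (ω : ℝ) / 2 ^ t) * ((n : ℝ) * ((q - 1 : ℕ) : ℝ)) =
      (C.card : ℝ) * ((q - 1 : ℕ) : ℝ) - n * ((ω : ℝ) * ((q - 1 : ℕ) : ℝ) / 2 ^ t) := by
    field_simp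
  rw [h4]
  have h5 : (n : ℝ) * bd ≤ n * ((ω : ℝ) * ((q - 1 : ℕ) : ℝ) / 2 ^ t) :=
    mul_le_mul_of_nonneg_left hbad hnR.le
  have h6 : (C.card : ℝ) * bd ≤ n * bd := mul_le_mul_of_nonneg_right h3 hbd0
  have h7 : (C.card : ℝ) * gd = C.card * ((q - 1 : ℕ) : ℝ) - C.card * bd := by
    rw [← h1]; ring
  linarith

end Count

/-! ### The theorem for totally complex Galois number fields -/

/-- **Chebotarev's density theorem (lower bound, inversion-closed sets)** for a totally complex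
Galois number field `E/ℚ`. -/
theorem cheb_nf (E : Type) [Field E] [NumberField E] [IsGalois ℚ E] [IsTotallyComplex E]
    (m : ℕ) (hm : m ≠ 0) (C : Finset (E ≃ₐ[ℚ] E)) (hinv : ∀ σ ∈ C, σ⁻¹ ∈ C)
    {ε : ℝ} (hε : 0 < ε) :
    ∃ B : ℝ, ∀ s ∈ Set.Ioc (1 : ℝ) 2,
      ((C.card : ℝ) / Nat.card (E ≃ₐ[ℚ] E) - ε) * Real.log (1 / (s - 1)) - B ≤
        wsum (xP ℚ s) (⋃ σ ∈ C, frobAt ℚ E m σ) := by
  classical
  set n : ℕ := Nat.card (E ≃ₐ[ℚ] E) with hn_def
  have hn : 0 < n := Nat.card_pos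
  -- the exponent `t`
  obtain ⟨t, ht0, ht⟩ : ∃ t : ℕ, 0 < t ∧ ((2 * n).primeFactors.card : ℝ) / 2 ^ t ≤ ε := by
    obtain ⟨t, ht⟩ := pow_unbounded_of_one_lt (((2 * n).primeFactors.card : ℝ) / ε)
      (by norm_num : (1 : ℝ) < 2)
    refine ⟨t + 1, Nat.succ_pos t, ?_⟩
    rw [div_le_iff₀ (by positivity)]
    rw [div_lt_iff₀ hε] at ht
    have h2 : (2 : ℝ) ^ t ≤ 2 ^ (t + 1) := pow_le_pow_right₀ (by norm_num) (Nat.le_succ t)
    nlinarith
  -- the prime `q`
  obtain ⟨q, hqp, hqgt, hqmod⟩ := Nat.exists_prime_gt_modEq_one (k := (2 * n) ^ t)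
    (discr E).natAbs (by positivity)
  have : Fact q.Prime := ⟨hqp⟩
  have hcop : q.Coprime (discr E).natAbs := by
    rw [Nat.Prime.coprime_iff_not_dvd hqp]
    intro h
    have := Nat.le_of_dvd (Int.natAbs_pos.mpr (discr_ne_zero E)) h
    omega
  have hqt : (2 * n) ^ t ∣ q - 1 := (Nat.modEq_iff_dvd' hqp.one_le).mp hqmod.symm
  -- the field `Ω = E(ζ_q)`
  let Ω := CyclotomicField q E
  have : NumberField Ω := IsCyclotomicExtension.numberField {q} E Ω
  have hζ := IsCyclotomicExtension.zeta_spec q E Ω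
  have : IsGalois ℚ Ω := isGalois_top (K := ℚ) (L := E) hζ
  obtain ⟨B, hB⟩ := cross_lower (E := E) hζ m hm (preim hζ hcop C) (preim_inv hζ hcop C hinv)
  have hratio := ratio_good_preim_ge hζ hcop C ht0 hqt
  refine ⟨B, fun s hs => ?_⟩
  have hlg : 0 ≤ Real.log (1 / (s - 1)) := by
    apply Real.log_nonneg
    rw [le_div_iff₀ (by linarith [hs.1])]
    linarith [hs.2]
  have hx0 : ∀ p, 0 ≤ xP ℚ s p := fun p => (xP_pos ℚ s p).le
  have hsub : (⋃ g ∈ preim hζ hcop C, frobAt ℚ Ω m g) ⊆ ⋃ σ ∈ C, frobAt ℚ E m σ := by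
    intro p hp
    simp only [Set.mem_iUnion] at hp ⊢
    obtain ⟨g, hg, hp⟩ := hp
    exact ⟨AlgEquiv.restrictNormalHom E g, (mem_preim hζ hcop C g).mp hg,
      frobAt_subset_restrict m g hp⟩
  have h1 := wsum_mono hx0 (summable_xP ℚ hs.1) hsub
  have h2 := hB s hs
  have h3 : ((C.card : ℝ) / n - ε) * Real.log (1 / (s - 1)) ≤
      (((preim hζ hcop C).filter (fun g => Good (E := E) hζ g)).card : ℝ) /
        Nat.card (Ω ≃ₐ[ℚ] Ω) * Real.log (1 / (s - 1)) := by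
    apply mul_le_mul_of_nonneg_right _ hlg
    linarith
  linarith

end Fermat.Agent.M48.ChebNF2
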