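/-
M48 (S48 = Deligne-Serre), block (DS) = DS-ALG (helper9): INTERFACES ONLY.

* density vocabulary shared by (P2) Rankin, (P6) Chebotarev and (DS):
  `PZ`, `lg`, `UpperDens`, `LowerDens`;
* the abstract residual family consumed by (DS): `ResBase` (the ring of coefficients and the
  integral lifts of `a p`, `e p`) and `ResDatum B ℓ` (one semisimple residual representation in
  characteristic `ℓ` whose Frobenius traces and determinants are the reductions of `a p`, `e p`
  and lie in the prime field);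
* the three analytic/arithmetic inputs in literal form: `SparseStmt`, `ChebStmt`, `RankinStmt`;
* the output `Conclusion N a e` (= the conclusion of S48 with `a p = qCoeff f p`,
  `e p = ε p`) and the target `DSAlgStmt`.

Definitions and `Prop` shapes only; no mathematical proof in this file.
-/
import Mathlib
import Fermat.Prelude.Def_GaloisRep_Residual
import Fermat.Prelude.Def_Deformations_MatrixRepresentation
import Fermat.Agent.M48.SemiSimple8

set_option autoImplicit false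

namespace Fermat.Agent.M48.DSInterfaces9

local notation "Qbar" => AlgebraicClosure ℚ
local notation "GQ" => (AlgebraicClosure ℚ ≃ₐ[ℚ] AlgebraicClosure ℚ)

/-! ### Density vocabulary -/

/-- The prime zeta sum of a set of natural numbers: `∑_{p ∈ S} p ^ (-s)`. -/
noncomputable def PZ (S : Set ℕ) (s : ℝ) : ℝ := ∑' p : S, ((p : ℕ) : ℝ) ^ (-s)

/-- `log (1 / (s - 1))`, the size of the prime zeta function near `s = 1`. -/
noncomputable def lg (s : ℝ) : ℝ := Real.log (1 / (s - 1))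

/-- `S` has upper Dirichlet density at most `η` (quantitative form on `(1, 2]`). -/
def UpperDens (S : Set ℕ) (η : ℝ) : Prop :=
  ∃ C : ℝ, ∀ s ∈ Set.Ioc (1 : ℝ) 2, PZ S s ≤ η * lg s + C

/-- `S` has lower Dirichlet density at least `δ` (quantitative form on `(1, 2]`). -/
def LowerDens (S : Set ℕ) (δ : ℝ) : Prop :=
  ∃ C : ℝ, ∀ s ∈ Set.Ioc (1 : ℝ) 2, δ * lg s - C ≤ PZ S s

/-! ### Residual families -/

/- Semisimplicity of a two-dimensional matrix representation (every stable subspace of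
`Fin 2 → k`, action by `mulVec`, has a stable complement) is helper8's
`Fermat.Agent.M48.SemiSimple8.IsSemisimpleRep` (generic in the group and the field): ONE `Prop`
for (P1-RES), (RESFAM), (A2) and (DS). -/

/-- The coefficient data: a ring `R` of algebraic integers inside `ℂ` (via the injective `ι`)
containing lifts `b p`, `c p` of the numbers `a p`, `e p` for the primes `p ∤ N`; the `e p`
take finitely many values. (For S48: `R = 𝓞 K`, `a p = qCoeff f p`, `e p = ε p`.) -/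
structure ResBase (N : ℕ) (a e : ℕ → ℂ) : Type 1 where
  R : Type
  [commRing : CommRing R]
  ι : R →+* ℂ
  ι_inj : Function.Injective ι
  int : ∀ x : R, IsIntegral ℤ (ι x)
  b : ℕ → R
  c : ℕ → R
  hb : ∀ p : ℕ, p.Prime → ¬ p ∣ N → ι (b p) = a p
  hc : ∀ p : ℕ, p.Prime → ¬ p ∣ N → ι (c p) = e p
  e_fin : {z : ℂ | ∃ p : ℕ, p.Prime ∧ ¬ p ∣ N ∧ z = e p}.Finite

attribute [instance] ResBase.commRing

/-- One residual representation in characteristic `ℓ`: a field `k` of characteristic `ℓ`, a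
reduction map `φ : R → k` with values in the prime field, and a semisimple representation
`ρ : G_ℚ → GL₂(k)` of finite level, unramified outside `N ℓ`, with
`tr ρ(Frob_p) = φ (b p)`, `det ρ(Frob_p) = φ (c p)` for `p ∤ N ℓ`. -/
structure ResDatum {N : ℕ} {a e : ℕ → ℂ} (B : ResBase N a e) (ℓ : ℕ) : Type 1 where
  k : Type
  [field : Field k]
  [charP : CharP k ℓ]
  φ : B.R →+* k
  φ_prime : ∀ x : B.R, φ x ^ ℓ = φ x
  ρ : GQ →* GL (Fin 2) k
  level : GaloisFactorsThroughFiniteLevel ρ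
  ss : Fermat.Agent.M48.SemiSimple8.IsSemisimpleRep ρ
  unram : ∀ p : ℕ, p.Prime → ¬ p ∣ N * ℓ →
    ∀ A : ValuationSubring Qbar, A.LiesOverPrime p → ∀ σ ∈ A.inertiaSubgroupIn ℚ, ρ σ = 1
  frob : ∀ p : ℕ, p.Prime → ¬ p ∣ N * ℓ →
    ∀ A : ValuationSubring Qbar, A.LiesOverPrime p → ∀ σ : GQ, A.IsFrobeniusAt σ p →
      ((ρ σ : GL (Fin 2) k) : Matrix (Fin 2) (Fin 2) k).trace = φ (B.b p) ∧
      ((ρ σ : GL (Fin 2) k) : Matrix (Fin 2) (Fin 2) k).det = φ (B.c p)

attribute [instance] ResDatum.field ResDatum.charP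

/-! ### The analytic inputs -/

/-- (SPARSE), from Rankin-lite for all conjugates + Northcott (helper5, `RankinSparse5.sparse`):
outside a set of primes of arbitrarily small upper density the `a p` take finitely many values. -/
def SparseStmt (N : ℕ) (a : ℕ → ℂ) : Prop :=
  ∀ η : ℝ, 0 < η → ∃ Y : Finset ℂ, UpperDens {p : ℕ | p.Prime ∧ ¬ p ∣ N ∧ a p ∉ Y} η

/-- (CHEB), Chebotarev's density theorem, lower bound, for sets of Galois elements stable under
conjugation and inversion, with an `ε` of loss (helper2, `cheb_lower`). -/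
def ChebStmt : Prop :=
  ∀ (E : IntermediateField ℚ Qbar) [FiniteDimensional ℚ E] [IsGalois ℚ E]
    (C : Set (E ≃ₐ[ℚ] E)), (∀ g σ : E ≃ₐ[ℚ] E, σ ∈ C → g * σ * g⁻¹ ∈ C) →
    (∀ σ ∈ C, σ⁻¹ ∈ C) → ∀ m : ℕ, m ≠ 0 → ∀ ε : ℝ, 0 < ε →
    LowerDens {p : ℕ | p.Prime ∧ ¬ p ∣ m ∧ ∃ (A : ValuationSubring Qbar) (σ : GQ),
        A.LiesOverPrime p ∧ A.IsFrobeniusAt σ p ∧ AlgEquiv.restrictNormalHom E σ ∈ C}
      ((Nat.card C : ℝ) / Nat.card (E ≃ₐ[ℚ] E) - ε)

/-- (RANKIN), Rankin-lite with the sharp constant (helper5, `RankinLite5.rankin_lite`). -/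
def RankinStmt (N : ℕ) (a : ℕ → ℂ) : Prop :=
  ∃ C : ℝ, ∀ s : ℝ, 1 < s → s ≤ 2 → ∀ S : Finset ℕ, (∀ p ∈ S, p.Prime ∧ ¬ p ∣ N) →
    ∑ p ∈ S, ‖a p‖ ^ 2 * (p : ℝ) ^ (-s) ≤ Real.log (1 / (s - 1)) + C

/-! ### The output -/

/-- The conclusion of S48 for the sequences `a p = qCoeff f p`, `e p = ε p`. -/
def Conclusion (N : ℕ) (a e : ℕ → ℂ) : Prop :=
  ∃ ρ : GQ →* GL (Fin 2) ℂ, GaloisFactorsThroughFiniteLevel ρ ∧
    (Deformation.matrixRepresentation ρ).IsIrreducible ∧
    ∀ p : ℕ, p.Prime → ¬ p ∣ N →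
      ∀ A : ValuationSubring Qbar, A.LiesOverPrime p →
        (∀ σ ∈ A.inertiaSubgroupIn ℚ, ρ σ = 1) ∧
        ∀ σ : GQ, A.IsFrobeniusAt σ p →
          ((ρ σ : GL (Fin 2) ℂ) : Matrix (Fin 2) (Fin 2) ℂ).trace = a p ∧
          ((ρ σ : GL (Fin 2) ℂ) : Matrix (Fin 2) (Fin 2) ℂ).det = e p

/-- The target of block (DS): an infinite family of residual representations + (SPARSE) +
(CHEB) + (RANKIN) give the complex representation. -/
def DSAlgStmt : Prop :=
  ∀ (N : ℕ), N ≠ 0 → ∀ (a e : ℕ → ℂ) (B : ResBase N a e) (L : Set ℕ), L.Infinite →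
    (∀ ℓ ∈ L, ℓ.Prime ∧ Nonempty (ResDatum B ℓ)) →
    SparseStmt N a → ChebStmt → RankinStmt N a → Conclusion N a e

end Fermat.Agent.M48.DSInterfaces9
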