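/-
Programme M48 (target S48), leaf (P6) = Chebotarev's density theorem, final file (helper2):
**`cheb_lower : DSInterfaces9.ChebStmt`** -- Chebotarev's density theorem over `ℚ̄` (lower bound,
inversion-closed sets of Galois elements, `ε` of loss).

From `ChebNF2.cheb_nf` (totally complex Galois number fields) by
* (R) passing from `E` to `E' = E(i)` (totally complex, Galois; the preimage of `C` has the same
  proportion),
* (F) the dictionary between primes of `𝓞 ℚ` / arithmetic Frobenius elements of `Gal(E'/ℚ)` and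
  rational primes / valuation subrings of `ℚ̄` with their Frobenius elements.
-/
import Mathlib
import Fermat.Agent.ES.GAL.ChebQbar23
import Fermat.Agent.M48.ChebNF2
import Fermat.Agent.M48.DSInterfaces9

set_option autoImplicit false
set_option linter.unusedSectionVars false

open NumberField Ideal IsDedekindDomain IntermediateField
open scoped Pointwise
open Fermat.Agent.Lib.FrobeniusExists
open Fermat.Agent.CFT.SplitPrimes Fermat.Agent.CFT.NotAllSplit
open Fermat.Agent.ES.GAL.ChebAbstract23 Fermat.Agent.M48.ChebTransfer2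
open Fermat.Agent.ES.GAL.ChebQbar23 Fermat.Agent.M48.DSInterfaces9

noncomputable section

namespace Fermat.Agent.M48.ChebQbar2

attribute [local instance] isGalois_Qbar isIntegral_Qbar

/-! ### Preimages under a surjective homomorphism of finite groups -/

/-- The preimage of a set under a surjective homomorphism of finite groups has the same
proportion. -/
theorem card_preimage_mul {G' G : Type*} [Group G'] [Group G] [Finite G'] [Finite G]
    (ρ : G' →* G) (hρ : Function.Surjective ρ) (C : Set G) :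
    Nat.card (ρ ⁻¹' C) * Nat.card G = Nat.card C * Nat.card G' := by
  classical
  obtain ⟨s, hs⟩ := hρ.hasRightInverse
  -- `ρ ⁻¹' C ≃ C × ker ρ`
  let e : (C × ρ.ker) ≃ (ρ ⁻¹' C) :=
    { toFun := fun x => ⟨s x.1 * x.2, by
        show ρ (s x.1 * x.2) ∈ C
        rw [map_mul, hs, MonoidHom.mem_ker.mp x.2.2, mul_one]; exact x.1.2⟩
      invFun := fun g => (⟨ρ g, g.2⟩, ⟨(s (ρ g))⁻¹ * g, by
        rw [MonoidHom.mem_ker, map_mul, map_inv, hs, inv_mul_cancel]⟩)
      left_inv := by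
        rintro ⟨⟨c, hc⟩, ⟨k, hk⟩⟩
        have h1 : ρ (s c * k) = c := by rw [map_mul, hs, MonoidHom.mem_ker.mp hk, mul_one]
        ext
        · exact h1
        · show (s (ρ (s c * k)))⁻¹ * (s c * k) = k
          rw [h1, inv_mul_cancel_left]
      right_inv := by
        rintro ⟨g, hg⟩
        ext
        show s (ρ g) * ((s (ρ g))⁻¹ * g) = g
        rw [mul_inv_cancel_left] }
  have h1 : Nat.card (ρ ⁻¹' C) = Nat.card C * Nat.card ρ.ker := by
    rw [← Nat.card_congr e, Nat.card_prod]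
  have h2 : Nat.card G' = Nat.card G * Nat.card ρ.ker := by
    have h3 := Subgroup.card_eq_card_quotient_mul_card_subgroup ρ.ker
    rw [h3, Nat.card_congr (QuotientGroup.quotientKerEquivOfSurjective ρ hρ).toEquiv]
  rw [h1, h2]; ring

/-! ### The primes of `𝓞 ℚ` -/

/-- A nonzero prime of `𝓞 ℚ` is generated by its norm. -/
theorem asIdeal_eq_span_rat (p₀ : HeightOneSpectrum (𝓞 ℚ)) :
    p₀.asIdeal = Ideal.span {((absNorm p₀.asIdeal : ℕ) : 𝓞 ℚ)} := by
  set p := absNorm p₀.asIdeal with hp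
  have hprime : p.Prime := absNorm_prime_of_rat p₀
  have hmem : ((p : ℕ) : 𝓞 ℚ) ∈ p₀.asIdeal := Ideal.absNorm_mem p₀.asIdeal
  have hle : Ideal.span {((p : ℕ) : 𝓞 ℚ)} ≤ p₀.asIdeal := by
    rw [Ideal.span_singleton_le_iff_mem]; exact hmem
  obtain ⟨J, hJ⟩ := Ideal.dvd_iff_le.mpr hle
  have hN : absNorm (Ideal.span {((p : ℕ) : 𝓞 ℚ)}) = p := by
    rw [Ideal.absNorm_span_singleton]
    have : ((p : ℕ) : 𝓞 ℚ) = algebraMap ℤ (𝓞 ℚ) (p : ℤ) := by simp
    rw [this, Algebra.norm_algebraMap, RingOfIntegers.rank, Module.finrank_self, pow_one,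
      Int.natAbs_natCast]
  have h1 := congrArg absNorm hJ
  rw [hN, map_mul, ← hp] at h1
  have h2 : absNorm J = 1 := by
    have hp0 : 0 < p := hprime.pos
    nlinarith
  rw [Ideal.absNorm_eq_one_iff] at h2
  rw [hJ, h2, Ideal.mul_top]

theorem absNorm_injective_rat :
    Function.Injective (fun p₀ : HeightOneSpectrum (𝓞 ℚ) => absNorm p₀.asIdeal) := by
  intro p₁ p₂ h
  apply HeightOneSpectrum.ext
  rw [asIdeal_eq_span_rat p₁, asIdeal_eq_span_rat p₂]
  simp only at h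
  rw [h]

/-! ### Prime sums over `𝓞 ℚ` and over `ℕ` -/

/-- A set of primes of `𝓞 ℚ` whose norms lie in `S` has prime sum at most `PZ S`. -/
theorem wsum_le_PZ (T : Set (HeightOneSpectrum (𝓞 ℚ))) (S : Set ℕ)
    (h : ∀ p₀ ∈ T, absNorm p₀.asIdeal ∈ S) {s : ℝ} (hs : 1 < s) :
    wsum (xP ℚ s) T ≤ PZ S s := by
  unfold wsum PZ
  rw [← tsum_subtype T (xP ℚ s)]
  have hsumS : Summable (fun p : S => ((p : ℕ) : ℝ) ^ (-s)) := by
    have h1 : Summable (fun n : ℕ => (n : ℝ) ^ (-s)) := Real.summable_nat_rpow.mpr (by linarith)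
    exact h1.comp_injective Subtype.val_injective
  have hsumT : Summable (fun p₀ : T => xP ℚ s (p₀ : HeightOneSpectrum (𝓞 ℚ))) :=
    (summable_xP ℚ hs).comp_injective Subtype.val_injective
  refine Summable.tsum_le_tsum_of_inj (fun p₀ : T => (⟨absNorm p₀.1.asIdeal, h p₀.1 p₀.2⟩ : S))
    ?_ ?_ ?_ hsumT hsumS
  · intro a b hab
    apply Subtype.ext
    apply absNorm_injective_rat
    exact congrArg Subtype.val hab
  · intro c _
    exact Real.rpow_nonneg (Nat.cast_nonneg _) _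
  · intro p₀
    exact le_rfl

/-! ### (F): from an arithmetic Frobenius of a number field to a Frobenius element of `ℚ̄` -/

/-- At a prime `p₀ ∈ frobAt ℚ N m σ` with norm `p` there are a valuation subring `A` of `ℚ̄` over
`p` and a Frobenius element `φ` at `A` whose restriction to `N` is `σ`. -/
theorem exists_frobenius_of_mem_frobAt (N : IntermediateField ℚ Qbar) [NumberField N]
    [IsGalois ℚ N] (m : ℕ) (σ : N ≃ₐ[ℚ] N) {p₀ : HeightOneSpectrum (𝓞 ℚ)}
    (hp₀ : p₀ ∈ frobAt ℚ N m σ) :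
    (absNorm p₀.asIdeal).Prime ∧ ¬ absNorm p₀.asIdeal ∣ m ∧
      ∃ (A : ValuationSubring Qbar) (φ : GQ), A.LiesOverPrime (absNorm p₀.asIdeal) ∧
        A.IsFrobeniusAt φ (absNorm p₀.asIdeal) ∧ AlgEquiv.restrictNormalHom N φ = σ := by
  obtain ⟨hgood, P, hP, hPq, hσ⟩ := hp₀
  set p := absNorm p₀.asIdeal with hp
  have hpp : p.Prime := hgood.1
  refine ⟨hpp, fun h => hgood.2 (h.mul_right _), ?_⟩
  have hP0 : P ≠ ⊥ := by
    rintro rfl
    have hbot : (⊥ : Ideal (𝓞 N)).under (𝓞 ℚ) = ⊥ := by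
      rw [Ideal.under_def, Ideal.comap_bot_of_injective _ (FaithfulSMul.algebraMap_injective _ _)]
    rw [hbot] at hPq
    exact p₀.ne_bot hPq.symm
  have hPmax : P.IsMaximal := Ring.DimensionLEOne.maximalOfPrime hP0 hP
  obtain ⟨A, hA⟩ := exists_valuationSubring_over N P
  have hpP : ((p : ℕ) : 𝓞 N) ∈ P := by
    have := Fermat.Agent.ES.GAL.ChebDensity23.natCast_absNorm_under_mem (K := ℚ) P
    rwa [hPq] at this
  have hAp : A.LiesOverPrime p := by
    have h1 := (hA ((p : ℕ) : 𝓞 N)).mpr hpP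
    have h2 : incl N ((p : ℕ) : 𝓞 N) = (p : Qbar) := map_natCast _ _
    rw [h2] at h1
    exact h1
  obtain ⟨φ, hφ⟩ := Fermat.Agent.ES.FROB.FrobFacts12.exists_isFrobeniusAt_of p hpp A hAp
  refine ⟨A, φ, hAp, hφ, ?_⟩
  have hφ' : IsArithFrobAt (𝓞 ℚ) (AlgEquiv.restrictNormalHom N φ) P :=
    isArithFrobAt_restrict N hA (by rw [hPq]) hφ
  have hin : P.inertia (N ≃ₐ[ℚ] N) = ⊥ := inertia_eq_bot_of_good hgood hPq
  exact Fermat.Agent.CFT.ArtinSymbol.isArithFrobAt_unique hin hφ' hσ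

/-! ### (R): restriction between Galois groups of intermediate fields of `ℚ̄` -/

section Res

variable {E E' : IntermediateField ℚ Qbar} [Normal ℚ E] [Normal ℚ E']

theorem ker_restrict_le (h : E ≤ E') :
    (AlgEquiv.restrictNormalHom (F := ℚ) (K₁ := Qbar) E').ker ≤
      (AlgEquiv.restrictNormalHom (F := ℚ) (K₁ := Qbar) E).ker := by
  intro φ hφ
  rw [MonoidHom.mem_ker] at hφ ⊢
  ext x
  have h1 : ((AlgEquiv.restrictNormalHom E φ x : E) : Qbar) = φ (x : Qbar) :=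
    AlgEquiv.restrictNormal_commutes φ E x
  have h2 : ((AlgEquiv.restrictNormalHom E' φ ⟨(x : Qbar), h x.2⟩ : E') : Qbar) = φ (x : Qbar) :=
    AlgEquiv.restrictNormal_commutes φ E' ⟨(x : Qbar), h x.2⟩
  rw [hφ] at h2
  rw [h1, ← h2]
  rfl

/-- Restriction `Gal(E'/ℚ) → Gal(E/ℚ)` for `E ≤ E'`. -/
def resHom (h : E ≤ E') : (E' ≃ₐ[ℚ] E') →* (E ≃ₐ[ℚ] E) :=
  (AlgEquiv.restrictNormalHom (F := ℚ) (K₁ := Qbar) E').liftOfSurjective
    (AlgEquiv.restrictNormalHom_surjective Qbar)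
    ⟨AlgEquiv.restrictNormalHom (F := ℚ) (K₁ := Qbar) E, ker_restrict_le h⟩

theorem resHom_restrict (h : E ≤ E') (φ : GQ) :
    resHom h (AlgEquiv.restrictNormalHom E' φ) = AlgEquiv.restrictNormalHom E φ :=
  MonoidHom.liftOfRightInverse_comp_apply _ _ _ _ φ

theorem resHom_surjective (h : E ≤ E') : Function.Surjective (resHom h) := by
  intro σ
  obtain ⟨φ, rfl⟩ := AlgEquiv.restrictNormalHom_surjective (F := ℚ) (K₁ := E) Qbar σ
  exact ⟨AlgEquiv.restrictNormalHom E' φ, resHom_restrict h φ⟩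

end Res

/-! ### The theorem -/

/-- **Chebotarev's density theorem over `ℚ̄`** (lower bound, inversion-closed sets, `ε` of loss),
in the literal form `DSInterfaces9.ChebStmt`. -/
theorem cheb_lower : ChebStmt := by
  intro E _ _ C _ hinv m hm ε hε
  classical
  -- the field `E' = E(i)`
  obtain ⟨ζ, hζ⟩ := HasEnoughRootsOfUnity.exists_primitiveRoot Qbar 4
  have hint : IsIntegral ℚ ζ := Algebra.IsIntegral.isIntegral ζ
  have hfd1 : FiniteDimensional ℚ ℚ⟮ζ⟯ := IntermediateField.adjoin.finiteDimensional hint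
  set E' : IntermediateField ℚ Qbar := E ⊔ ℚ⟮ζ⟯ with hE'
  have hfd : FiniteDimensional ℚ E' := IntermediateField.finiteDimensional_sup E ℚ⟮ζ⟯
  have hNF : NumberField E' := ⟨⟩
  have hcyc : IsCyclotomicExtension {4} ℚ ℚ⟮ζ⟯ :=
    hζ.intermediateField_adjoin_isCyclotomicExtension ℚ
  have hgal1 : IsGalois ℚ ℚ⟮ζ⟯ := IsCyclotomicExtension.isGalois {4} ℚ ℚ⟮ζ⟯
  have hn0 : Normal ℚ E := inferInstance
  have hn1 : Normal ℚ ℚ⟮ζ⟯ := inferInstance
  have hnorm : Normal ℚ E' := @IntermediateField.normal_sup ℚ Qbar _ _ _ E ℚ⟮ζ⟯ hn0 hn1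
  have hgal : IsGalois ℚ E' := ⟨⟩
  have htc1 : IsTotallyComplex ℚ⟮ζ⟯ :=
    IsCyclotomicExtension.Rat.isTotallyComplex (n := 4) ℚ⟮ζ⟯ (by norm_num)
  have htc : IsTotallyComplex E' := by
    let _ : Algebra ℚ⟮ζ⟯ E' :=
      (IntermediateField.inclusion (le_sup_right : ℚ⟮ζ⟯ ≤ E')).toRingHom.toAlgebra
    exact isTotallyComplex_of_algebra ℚ⟮ζ⟯ E'
  have hle : E ≤ E' := le_sup_left
  set ρ : (E' ≃ₐ[ℚ] E') →* (E ≃ₐ[ℚ] E) := resHom hle with hρ
  have hρs : Function.Surjective ρ := resHom_surjective hle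
  -- the preimage of `C`
  set C' : Finset (E' ≃ₐ[ℚ] E') := (ρ ⁻¹' C).toFinset with hC'
  have hmemC' : ∀ σ', σ' ∈ C' ↔ ρ σ' ∈ C := fun σ' => by rw [hC', Set.mem_toFinset]; rfl
  have hinv' : ∀ σ' ∈ C', σ'⁻¹ ∈ C' := by
    intro σ' h
    rw [hmemC'] at h ⊢
    rw [map_inv]; exact hinv _ h
  have hcard : (C'.card : ℝ) / Nat.card (E' ≃ₐ[ℚ] E') =
      (Nat.card C : ℝ) / Nat.card (E ≃ₐ[ℚ] E) := by
    have h1 := card_preimage_mul ρ hρs C
    have h2 : C'.card = Nat.card (ρ ⁻¹' C) := by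
      rw [hC', Set.toFinset_card, Nat.card_eq_fintype_card]
    have h3 : (0 : ℝ) < Nat.card (E' ≃ₐ[ℚ] E') := by exact_mod_cast Nat.card_pos
    have h4 : (0 : ℝ) < Nat.card (E ≃ₐ[ℚ] E) := by exact_mod_cast Nat.card_pos
    rw [h2, div_eq_div_iff h3.ne' h4.ne']
    exact_mod_cast h1
  obtain ⟨B, hB⟩ := Fermat.Agent.M48.ChebNF2.cheb_nf E' m hm C' hinv' hε
  refine ⟨B, fun s hs => ?_⟩
  have h1 := hB s hs
  rw [hcard] at h1
  refine h1.trans (wsum_le_PZ _ _ ?_ hs.1)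
  intro p₀ hp₀
  simp only [Set.mem_iUnion] at hp₀
  obtain ⟨σ', hσ', hp₀⟩ := hp₀
  obtain ⟨hpp, hpm, A, φ, hA, hφ, hres⟩ := exists_frobenius_of_mem_frobAt E' m σ' hp₀
  refine ⟨hpp, hpm, A, φ, hA, hφ, ?_⟩
  have h2 := resHom_restrict hle φ
  rw [hres] at h2
  rw [← h2]
  exact (hmemC' σ').mp hσ'

end Fermat.Agent.M48.ChebQbar2
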