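/-
M48 (S48 = Deligne-Serre), block (DS), leaf (B-cheb) (helper9): Chebotarev's density theorem
(`DSInterfaces9.ChebStmt`, helper2) for a representation of finite level.

For `ρ : G_ℚ →* M` of finite level and a subset `C₀ ⊆ M` stable under conjugation by the image of
`ρ` and under inversion, the primes `p ∤ m` having a Frobenius element `σ` with `ρ σ ∈ C₀` have lower
density at least `#(C₀ ∩ im ρ) / #(im ρ) - ε`.
-/
import Mathlib
import Fermat.Agent.M48.DSInterfaces9
import Fermat.Agent.M48.DSDensity9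
import Fermat.Agent.Lib.FrobeniusExists

set_option autoImplicit false

namespace Fermat.Agent.M48.DSCheb9

open Fermat.Agent.M48.DSInterfaces9

local notation "Qbar" => AlgebraicClosure ℚ
local notation "GQ" => (AlgebraicClosure ℚ ≃ₐ[ℚ] AlgebraicClosure ℚ)

attribute [local instance] Fermat.Agent.Lib.FrobeniusExists.isGalois_Qbar

/-! ### Counting fibres of a group homomorphism -/

section Fibres

variable {A B : Type*} [Group A] [Group B]

/-- A set-theoretic section of `f` over its range. -/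
noncomputable def sec (f : A →* B) (b : f.range) : A := Classical.choose b.2

theorem f_sec (f : A →* B) (b : f.range) : f (sec f b) = b := Classical.choose_spec b.2

/-- `A ≃ range f × ker f`, the first component being `f`. -/
noncomputable def rangeKerEquiv (f : A →* B) : A ≃ f.range × f.ker where
  toFun a := (⟨f a, a, rfl⟩, ⟨(sec f ⟨f a, a, rfl⟩)⁻¹ * a, by
    rw [MonoidHom.mem_ker, map_mul, map_inv, f_sec]; exact inv_mul_cancel _⟩)
  invFun p := sec f p.1 * p.2
  left_inv a := by simp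
  right_inv p := by
    obtain ⟨b, k⟩ := p
    have hk : f (k : A) = 1 := k.2
    have hb : (⟨f (sec f b * k), sec f b * k, rfl⟩ : f.range) = b := by
      apply Subtype.ext
      simp only [map_mul, f_sec, hk, mul_one]
    refine Prod.ext hb (Subtype.ext ?_)
    simp only
    rw [hb]
    group

@[simp] theorem rangeKerEquiv_fst (f : A →* B) (a : A) :
    (((rangeKerEquiv f a).1 : f.range) : B) = f a := rfl

theorem card_eq_range_mul_ker (f : A →* B) :
    Nat.card A = Nat.card f.range * Nat.card f.ker := by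
  rw [Nat.card_congr (rangeKerEquiv f), Nat.card_prod]

theorem card_preimage (f : A →* B) (S : Set B) :
    Nat.card (f ⁻¹' S) = Nat.card ↥(S ∩ (f.range : Set B)) * Nat.card f.ker := by
  have e : (f ⁻¹' S) ≃ ↥(S ∩ (f.range : Set B)) × f.ker :=
    { toFun := fun a => (⟨f a, a.2, (a : A), rfl⟩, (rangeKerEquiv f a).2)
      invFun := fun p => ⟨(rangeKerEquiv f).symm (⟨p.1.1, p.1.2.2⟩, p.2), by
        have h := rangeKerEquiv_fst f ((rangeKerEquiv f).symm (⟨p.1.1, p.1.2.2⟩, p.2))
        rw [Equiv.apply_symm_apply] at h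
        rw [Set.mem_preimage, ← h]
        exact p.1.2.1⟩
      left_inv := fun a => by
        apply Subtype.ext
        simp only
        rw [Equiv.symm_apply_eq]
        rfl
      right_inv := fun p => by
        obtain ⟨⟨b, hbS, hbr⟩, k⟩ := p
        have h1 := (rangeKerEquiv f).apply_symm_apply ((⟨b, hbr⟩ : f.range), k)
        have h2 := rangeKerEquiv_fst f ((rangeKerEquiv f).symm (⟨b, hbr⟩, k))
        rw [h1] at h2
        refine Prod.ext (Subtype.ext ?_) ?_
        · exact h2.symm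
        · simp only
          rw [h1] }
  rw [Nat.card_congr e, Nat.card_prod]

/-- The proportion of a preimage is the proportion in the range. -/
theorem card_preimage_div (f : A →* B) [Finite A] (S : Set B) :
    (Nat.card (f ⁻¹' S) : ℝ) / Nat.card A =
      (Nat.card ↥(S ∩ (f.range : Set B)) : ℝ) / Nat.card f.range := by
  rw [card_preimage, card_eq_range_mul_ker f]
  have hk : (Nat.card f.ker : ℝ) ≠ 0 := by
    have : 0 < Nat.card f.ker := Nat.card_pos
    positivity
  push_cast
  rw [mul_div_mul_right _ _ hk]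

end Fibres


/-! ### A Galois level and the induced homomorphism -/

section Level

variable {M : Type} [Group M]

/-- A finite-level homomorphism factors through a finite GALOIS level. -/
theorem exists_galois_level (ρ : GQ →* M) (h : GaloisFactorsThroughFiniteLevel ρ) :
    ∃ E : IntermediateField ℚ Qbar, FiniteDimensional ℚ E ∧ IsGalois ℚ E ∧
      ∀ σ : GQ, (∀ x ∈ E, σ x = x) → ρ σ = 1 := by
  obtain ⟨L, hL, h1⟩ := h
  refine ⟨IntermediateField.normalClosure ℚ L Qbar, normalClosure.is_finiteDimensional ℚ L Qbar,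
    ?_, fun σ hσ => h1 σ fun x hx => hσ x (IntermediateField.le_normalClosure L hx)⟩
  have : Normal ℚ (IntermediateField.normalClosure ℚ L Qbar) := normalClosure.normal ℚ L Qbar
  exact ⟨⟩

variable (E : IntermediateField ℚ Qbar) [IsGalois ℚ E]

theorem restrict_surjective :
    Function.Surjective (AlgEquiv.restrictNormalHom (F := ℚ) (K₁ := Qbar) E) :=
  AlgEquiv.restrictNormalHom_surjective Qbar

theorem ker_restrict_le (ρ : GQ →* M) (hE : ∀ σ : GQ, (∀ x ∈ E, σ x = x) → ρ σ = 1) :
    (AlgEquiv.restrictNormalHom (F := ℚ) (K₁ := Qbar) E).ker ≤ ρ.ker := by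
  intro σ hσ
  rw [MonoidHom.mem_ker] at hσ ⊢
  apply hE
  intro x hx
  have h := AlgEquiv.restrictNormal_commutes σ E ⟨x, hx⟩
  have h' : AlgEquiv.restrictNormal σ E = 1 := hσ
  rw [h'] at h
  exact h.symm

/-- The homomorphism induced on `Gal(E/ℚ)`. -/
noncomputable def desc (ρ : GQ →* M) (hE : ∀ σ : GQ, (∀ x ∈ E, σ x = x) → ρ σ = 1) :
    (E ≃ₐ[ℚ] E) →* M :=
  (AlgEquiv.restrictNormalHom (F := ℚ) (K₁ := Qbar) E).liftOfSurjective (restrict_surjective E)
    ⟨ρ, ker_restrict_le E ρ hE⟩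

theorem desc_restrict (ρ : GQ →* M) (hE : ∀ σ : GQ, (∀ x ∈ E, σ x = x) → ρ σ = 1) (σ : GQ) :
    desc E ρ hE (AlgEquiv.restrictNormalHom E σ) = ρ σ :=
  MonoidHom.liftOfRightInverse_comp_apply _ _ _ _ σ

theorem range_desc (ρ : GQ →* M) (hE : ∀ σ : GQ, (∀ x ∈ E, σ x = x) → ρ σ = 1) :
    (desc E ρ hE).range = ρ.range := by
  ext x
  constructor
  · rintro ⟨τ, rfl⟩
    obtain ⟨σ, rfl⟩ := restrict_surjective E τ
    exact ⟨σ, (desc_restrict E ρ hE σ).symm⟩
  · rintro ⟨σ, rfl⟩
    exact ⟨AlgEquiv.restrictNormalHom E σ, desc_restrict E ρ hE σ⟩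

end Level

/-- The image of a finite-level homomorphism is finite. -/
theorem finite_range {M : Type} [Group M] (ρ : GQ →* M)
    (h : GaloisFactorsThroughFiniteLevel ρ) : Finite ρ.range := by
  obtain ⟨E, hfd, hgal, hE⟩ := exists_galois_level ρ h
  rw [← range_desc E ρ hE]
  exact Finite.of_surjective (desc E ρ hE).rangeRestrict (desc E ρ hE).rangeRestrict_surjective

/-- **Chebotarev for a representation of finite level.** -/
theorem cheb_rep (hC : ChebStmt) {M : Type} [Group M] (ρ : GQ →* M)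
    (hlev : GaloisFactorsThroughFiniteLevel ρ) (C₀ : Set M)
    (hconj : ∀ g ∈ ρ.range, ∀ x ∈ C₀, g * x * g⁻¹ ∈ C₀) (hinv : ∀ x ∈ C₀, x⁻¹ ∈ C₀)
    (m : ℕ) (hm : m ≠ 0) (ε : ℝ) (hε : 0 < ε) :
    LowerDens {p : ℕ | p.Prime ∧ ¬ p ∣ m ∧ ∃ (A : ValuationSubring Qbar) (σ : GQ),
        A.LiesOverPrime p ∧ A.IsFrobeniusAt σ p ∧ ρ σ ∈ C₀}
      ((Nat.card ↥(C₀ ∩ (ρ.range : Set M)) : ℝ) / Nat.card ρ.range - ε) := by
  obtain ⟨E, hfd, hgal, hE⟩ := exists_galois_level ρ hlev
  set r := desc E ρ hE with hr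
  have hrange : r.range = ρ.range := range_desc E ρ hE
  have key := hC E (r ⁻¹' C₀)
    (fun g σ hσ => by
      rw [Set.mem_preimage, map_mul, map_mul, map_inv]
      exact hconj _ (hrange ▸ ⟨g, rfl⟩) _ hσ)
    (fun σ hσ => by
      rw [Set.mem_preimage, map_inv]
      exact hinv _ hσ) m hm ε hε
  have hdens : (Nat.card (r ⁻¹' C₀) : ℝ) / Nat.card (E ≃ₐ[ℚ] E) =
      (Nat.card ↥(C₀ ∩ (ρ.range : Set M)) : ℝ) / Nat.card ρ.range := by
    rw [card_preimage_div r C₀, hrange]
  rw [hdens] at key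
  have hset : {p : ℕ | p.Prime ∧ ¬ p ∣ m ∧ ∃ (A : ValuationSubring Qbar) (σ : GQ),
        A.LiesOverPrime p ∧ A.IsFrobeniusAt σ p ∧ AlgEquiv.restrictNormalHom E σ ∈ r ⁻¹' C₀} =
      {p : ℕ | p.Prime ∧ ¬ p ∣ m ∧ ∃ (A : ValuationSubring Qbar) (σ : GQ),
        A.LiesOverPrime p ∧ A.IsFrobeniusAt σ p ∧ ρ σ ∈ C₀} := by
    ext p
    simp only [Set.mem_ofPred_eq, Set.mem_preimage, hr, desc_restrict]
  rw [hset] at key
  exact key

end Fermat.Agent.M48.DSCheb9
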