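/-
M48 (S48 = Deligne-Serre), block (DS), leaf (B-bookkeeping) (helper9): elementary facts on the
density vocabulary of `DSInterfaces9`.

* `summable_PZ`, `PZ_nonneg`, `PZ_mono`;
* `exists_lg_gt`: `lg s → ∞` as `s → 1⁺`;
* `le_of_lowerDens_of_upperDens`: `S ⊆ T`, lower density of `S` at least `δ`, upper density of `T`
  at most `η` ⇒ `δ ≤ η`;
* `exists_finset_sum_ge`: the prime zeta sum of a set is approximated from below by finite sums.
-/
import Mathlib
import Fermat.Agent.M48.DSInterfaces9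

set_option autoImplicit false

namespace Fermat.Agent.M48.DSDensity9

open Fermat.Agent.M48.DSInterfaces9

theorem summable_nat_rpow_neg {s : ℝ} (hs : 1 < s) : Summable fun n : ℕ => (n : ℝ) ^ (-s) := by
  have := Real.summable_nat_rpow_inv.mpr hs
  refine this.congr fun n => ?_
  rw [Real.rpow_neg (Nat.cast_nonneg n)]

theorem summable_PZ (S : Set ℕ) {s : ℝ} (hs : 1 < s) :
    Summable fun p : S => ((p : ℕ) : ℝ) ^ (-s) :=
  (summable_nat_rpow_neg hs).subtype S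

theorem PZ_nonneg (S : Set ℕ) (s : ℝ) : 0 ≤ PZ S s :=
  tsum_nonneg fun _ => Real.rpow_nonneg (Nat.cast_nonneg _) _

theorem PZ_eq_tsum_indicator (S : Set ℕ) (s : ℝ) :
    PZ S s = ∑' n : ℕ, S.indicator (fun n : ℕ => (n : ℝ) ^ (-s)) n :=
  (tsum_subtype S fun n : ℕ => (n : ℝ) ^ (-s))

theorem PZ_mono {S T : Set ℕ} (h : S ⊆ T) {s : ℝ} (hs : 1 < s) : PZ S s ≤ PZ T s := by
  rw [PZ_eq_tsum_indicator, PZ_eq_tsum_indicator]
  refine Summable.tsum_le_tsum (fun n => ?_) ?_ ?_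
  · exact Set.indicator_le_indicator_of_subset h (fun n => Real.rpow_nonneg (Nat.cast_nonneg _) _) n
  · exact (summable_nat_rpow_neg hs).indicator S
  · exact (summable_nat_rpow_neg hs).indicator T

/-- `lg s = log (1 / (s - 1))` is arbitrarily large on `(1, 2]`. -/
theorem exists_lg_gt (M : ℝ) : ∃ s ∈ Set.Ioc (1 : ℝ) 2, M < lg s := by
  refine ⟨1 + Real.exp (-(|M| + 1)), ⟨by linarith [Real.exp_pos (-(|M| + 1))], ?_⟩, ?_⟩
  · have : Real.exp (-(|M| + 1)) ≤ 1 := Real.exp_le_one_iff.mpr (by linarith [abs_nonneg M])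
    linarith
  · unfold lg
    rw [add_sub_cancel_left, one_div, ← Real.exp_neg, Real.log_exp, neg_neg]
    linarith [le_abs_self M]

theorem lg_nonneg {s : ℝ} (hs : s ∈ Set.Ioc (1 : ℝ) 2) : 0 ≤ lg s := by
  unfold lg
  apply Real.log_nonneg
  rw [le_div_iff₀ (by linarith [hs.1])]
  linarith [hs.2]

/-- If `c * lg s ≤ C` on `(1, 2]` then `c ≤ 0`. -/
theorem nonpos_of_mul_lg_le {c C : ℝ} (h : ∀ s ∈ Set.Ioc (1 : ℝ) 2, c * lg s ≤ C) : c ≤ 0 := by
  by_contra hc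
  rw [not_le] at hc
  obtain ⟨s, hs, hM⟩ := exists_lg_gt (C / c)
  have := h s hs
  rw [div_lt_iff₀ hc] at hM
  linarith

/-- Comparison of a lower and an upper density. -/
theorem le_of_lowerDens_of_upperDens {S T : Set ℕ} (h : S ⊆ T) {δ η : ℝ}
    (hS : LowerDens S δ) (hT : UpperDens T η) : δ ≤ η := by
  obtain ⟨C₁, h₁⟩ := hS
  obtain ⟨C₂, h₂⟩ := hT
  have : ∀ s ∈ Set.Ioc (1 : ℝ) 2, (δ - η) * lg s ≤ C₁ + C₂ := by
    intro s hs
    have := h₁ s hs
    have := h₂ s hs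
    have := PZ_mono h hs.1
    nlinarith
  linarith [nonpos_of_mul_lg_le this]

theorem UpperDens.mono {S T : Set ℕ} (h : S ⊆ T) {η : ℝ} (hT : UpperDens T η) : UpperDens S η := by
  obtain ⟨C, hC⟩ := hT
  exact ⟨C, fun s hs => (PZ_mono h hs.1).trans (hC s hs)⟩

/-- The prime zeta sum is approximated from below by finite partial sums. -/
theorem exists_finset_sum_ge (S : Set ℕ) {s : ℝ} (hs : 1 < s) {ε : ℝ} (hε : 0 < ε) :
    ∃ F : Finset ℕ, (↑F : Set ℕ) ⊆ S ∧ PZ S s - ε ≤ ∑ p ∈ F, (p : ℝ) ^ (-s) := by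
  classical
  have hsum := (summable_PZ S hs).hasSum
  have hlub := isLUB_hasSum (fun p : S => Real.rpow_nonneg (Nat.cast_nonneg (p : ℕ)) (-s)) hsum
  obtain ⟨c, ⟨F', rfl⟩, hc, -⟩ := hlub.exists_between (sub_lt_self _ hε)
  refine ⟨F'.map (Function.Embedding.subtype _), ?_, ?_⟩
  · intro p hp
    rw [Finset.mem_coe, Finset.mem_map] at hp
    obtain ⟨q, -, rfl⟩ := hp
    exact q.2
  · rw [Finset.sum_map]
    exact hc.le

end Fermat.Agent.M48.DSDensity9
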