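/-
M48 (S48 = Deligne-Serre), block (DS), leaf (A1) (helper9): counting in `GL₂(k)`.

* `eq_or_eq_of_commute`: two commuting `2 × 2` matrices of finite order prime to the
  characteristic with the same trace and determinant are equal or `B = tr A - A`;
* `card_le_two_of_commute`-type consequences used in Deligne-Serre Prop. 7.2.
Mathlib only.
-/
import Mathlib

set_option autoImplicit false

open Matrix

namespace Fermat.Agent.M48.DSCount9

variable {k : Type*} [Field k]

/-- Cayley-Hamilton in dimension two. -/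
theorem mul_self_eq (A : Matrix (Fin 2) (Fin 2) k) :
    A * A = A.trace • A - A.det • (1 : Matrix (Fin 2) (Fin 2) k) := by
  ext i j
  fin_cases i <;> fin_cases j <;>
    simp [Matrix.mul_apply, Fin.sum_univ_two, Matrix.trace_fin_two, Matrix.det_fin_two] <;> ring

theorem mul_self_eq_of_trace_eq_zero {N : Matrix (Fin 2) (Fin 2) k} (h : N.trace = 0) :
    N * N = -(N.det • (1 : Matrix (Fin 2) (Fin 2) k)) := by
  rw [mul_self_eq, h, zero_smul, zero_sub]

theorem sub_mul_add_sub_eq_zero {A B : Matrix (Fin 2) (Fin 2) k} (hc : Commute A B)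
    (ht : A.trace = B.trace) (hd : A.det = B.det) :
    (A - B) * (A + B - A.trace • (1 : Matrix (Fin 2) (Fin 2) k)) = 0 := by
  have hA := mul_self_eq A
  have hB := mul_self_eq B
  have hBA : B * A = A * B := hc.eq.symm
  calc (A - B) * (A + B - A.trace • (1 : Matrix (Fin 2) (Fin 2) k))
      = A * A - B * B + (A * B - B * A) - A.trace • (A - B) := by
        simp only [sub_mul, mul_sub, mul_add, Matrix.mul_smul, mul_one, smul_sub]
        abel
    _ = 0 := by
        rw [hA, hB, hBA, ← ht, ← hd]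
        simp only [smul_sub]
        abel

/-- A binomial formula for a commuting square-zero perturbation. -/
theorem add_pow_of_sq_zero {B N : Matrix (Fin 2) (Fin 2) k} (hc : Commute B N) (hN : N * N = 0)
    (n : ℕ) : (B + N) ^ (n + 1) = B ^ (n + 1) + (n + 1 : ℕ) • (B ^ n * N) := by
  induction n with
  | zero => simp
  | succ n ih =>
    rw [pow_succ, ih]
    have h1 : B ^ n * N * N = 0 := by rw [mul_assoc, hN, mul_zero]
    have h2 : B ^ n * N * B = B ^ (n + 1) * N := by
      rw [mul_assoc, ← hc.eq, ← mul_assoc, ← pow_succ]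
    rw [add_mul, mul_add, mul_add, smul_mul_assoc, smul_mul_assoc, h1, h2, smul_zero, add_zero,
      ← pow_succ, succ_nsmul (B ^ (n + 1) * N) (n + 1)]
    abel

theorem eq_of_sq_zero {A B : Matrix (Fin 2) (Fin 2) k} (hc : Commute A B) {m : ℕ}
    (hm : (m : k) ≠ 0) (hA : A ^ m = 1) (hB : B ^ m = 1) (hN : (A - B) * (A - B) = 0) :
    A = B := by
  obtain ⟨n, rfl⟩ : ∃ n, m = n + 1 := by
    cases m with
    | zero => simp at hm
    | succ n => exact ⟨n, rfl⟩
  set N := A - B with hNdef
  have hcN : Commute B N := by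
    rw [hNdef]
    exact (hc.symm.sub_right (Commute.refl B))
  have hAB : A = B + N := by rw [hNdef]; abel
  have h := add_pow_of_sq_zero hcN hN n
  rw [← hAB, hA, hB] at h
  have h0 : ((n + 1 : ℕ) : k) • (B ^ n * N) = 0 := by
    have : (n + 1 : ℕ) • (B ^ n * N) = 0 := by
      have := h
      rwa [left_eq_add] at this
    rwa [← Nat.cast_smul_eq_nsmul k] at this
  have h1 : B ^ n * N = 0 := (smul_eq_zero.mp h0).resolve_left hm
  have h2 : N = 0 := by
    have : B * (B ^ n * N) = 0 := by rw [h1, mul_zero]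
    rwa [← mul_assoc, ← pow_succ', hB, one_mul] at this
  rw [hAB, h2, add_zero]

/-- **Key counting lemma.** Two commuting matrices of order dividing `m` (`m ≠ 0` in `k`) with the
same trace and determinant: `B = A` or `B = tr A - A`. -/
theorem eq_or_eq_of_commute {A B : Matrix (Fin 2) (Fin 2) k} (hc : Commute A B) {m : ℕ}
    (hm : (m : k) ≠ 0) (hA : A ^ m = 1) (hB : B ^ m = 1)
    (ht : A.trace = B.trace) (hd : A.det = B.det) :
    B = A ∨ B = A.trace • (1 : Matrix (Fin 2) (Fin 2) k) - A := by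
  have h0 := sub_mul_add_sub_eq_zero hc ht hd
  have htr : (A - B).trace = 0 := by rw [Matrix.trace_sub, ht, sub_self]
  have hsq := mul_self_eq_of_trace_eq_zero htr
  by_cases hdet : (A - B).det = 0
  · left
    rw [hdet, zero_smul, neg_zero] at hsq
    exact (eq_of_sq_zero hc hm hA hB hsq).symm
  · right
    have hunit : IsUnit (A - B) := (Matrix.isUnit_iff_isUnit_det _).mpr (Ne.isUnit hdet)
    have := hunit.mul_right_eq_zero.mp h0
    rw [sub_eq_zero] at this
    rw [← this]
    abel


/-! ### Counting in subgroups of `GL₂(k)` -/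

/-- Trace and determinant of an element of `GL₂(k)`. -/
def td (g : GL (Fin 2) k) : k × k :=
  ((g : Matrix (Fin 2) (Fin 2) k).trace, (g : Matrix (Fin 2) (Fin 2) k).det)

theorem coe_pow_card_eq_one (G : Subgroup (GL (Fin 2) k)) {g : GL (Fin 2) k} (hg : g ∈ G) :
    (g : Matrix (Fin 2) (Fin 2) k) ^ Nat.card G = 1 := by
  have h : (⟨g, hg⟩ : G) ^ Nat.card G = 1 := pow_card_eq_one'
  have h' : g ^ Nat.card G = 1 := by
    have := congrArg (fun x : G => (x : GL (Fin 2) k)) h
    rwa [Subgroup.coe_pow, Subgroup.coe_one] at this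
  have := congrArg (fun x : GL (Fin 2) k => (x : Matrix (Fin 2) (Fin 2) k)) h'
  simpa using this

section Finsets

open Classical in
/-- The finset of elements of a finite subgroup. -/
noncomputable def fs (G : Subgroup (GL (Fin 2) k)) [Finite G] : Finset (GL (Fin 2) k) :=
  (Set.toFinite (G : Set (GL (Fin 2) k))).toFinset

@[simp] theorem mem_fs (G : Subgroup (GL (Fin 2) k)) [Finite G] {g : GL (Fin 2) k} :
    g ∈ fs G ↔ g ∈ G := by
  simp [fs]

theorem card_fs (G : Subgroup (GL (Fin 2) k)) [Finite G] : (fs G).card = Nat.card G := by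
  unfold fs
  rw [← Set.ncard_eq_toFinset_card (G : Set (GL (Fin 2) k))]
  rfl

/-- In a set of pairwise commuting elements of order dividing `m` (`m ≠ 0` in `k`), at most two
elements have a given trace and determinant. -/
theorem card_filter_td_le_two [DecidableEq (GL (Fin 2) k)] [DecidableEq k]
    (H : Finset (GL (Fin 2) k)) {m : ℕ} (hm : (m : k) ≠ 0)
    (hpow : ∀ g ∈ H, (g : Matrix (Fin 2) (Fin 2) k) ^ m = 1)
    (hcomm : ∀ g ∈ H, ∀ h ∈ H, g * h = h * g) (x : k × k) :
    (H.filter fun g => td g = x).card ≤ 2 := by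
  classical
  rcases (H.filter fun g => td g = x).eq_empty_or_nonempty with h0 | ⟨A, hA⟩
  · rw [h0]; simp
  rw [Finset.mem_filter] at hA
  have hsub : ∀ B ∈ H.filter (fun g => td g = x),
      (B : Matrix (Fin 2) (Fin 2) k) ∈ ({(A : Matrix (Fin 2) (Fin 2) k),
        (A : Matrix (Fin 2) (Fin 2) k).trace • (1 : Matrix (Fin 2) (Fin 2) k) -
          (A : Matrix (Fin 2) (Fin 2) k)} : Finset (Matrix (Fin 2) (Fin 2) k)) := by
    intro B hB
    rw [Finset.mem_filter] at hB
    have hc : Commute (A : Matrix (Fin 2) (Fin 2) k) (B : Matrix (Fin 2) (Fin 2) k) := by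
      have := hcomm A hA.1 B hB.1
      have := congrArg (fun x : GL (Fin 2) k => (x : Matrix (Fin 2) (Fin 2) k)) this
      simpa [Commute, SemiconjBy] using this
    have htd : td A = td B := hA.2.trans hB.2.symm
    have ht : (A : Matrix (Fin 2) (Fin 2) k).trace = (B : Matrix (Fin 2) (Fin 2) k).trace :=
      congrArg Prod.fst htd
    have hd : (A : Matrix (Fin 2) (Fin 2) k).det = (B : Matrix (Fin 2) (Fin 2) k).det :=
      congrArg Prod.snd htd
    rcases eq_or_eq_of_commute hc hm (hpow A hA.1) (hpow B hB.1) ht hd with h | h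
    · rw [h]; simp
    · rw [h]; simp
  refine (Finset.card_le_card_of_injOn (fun g : GL (Fin 2) k => (g : Matrix (Fin 2) (Fin 2) k))
    hsub ?_).trans Finset.card_le_two
  intro a _ b _ hab
  exact Units.ext hab

/-- Consequence: a set of pairwise commuting elements of order dividing `m` whose
(trace, determinant) lie in `P` has at most `2 * #P` elements. -/
theorem card_le_two_mul [DecidableEq (GL (Fin 2) k)] [DecidableEq k]
    (H : Finset (GL (Fin 2) k)) {m : ℕ} (hm : (m : k) ≠ 0)
    (hpow : ∀ g ∈ H, (g : Matrix (Fin 2) (Fin 2) k) ^ m = 1)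
    (hcomm : ∀ g ∈ H, ∀ h ∈ H, g * h = h * g) (P : Finset (k × k))
    (hP : ∀ g ∈ H, td g ∈ P) : H.card ≤ 2 * P.card := by
  classical
  have h1 := Finset.card_le_mul_card_image (f := td) H 2
    (fun b _ => card_filter_td_le_two H hm hpow hcomm b)
  have h2 : (H.image td).card ≤ P.card := by
    apply Finset.card_le_card
    intro x hx
    rw [Finset.mem_image] at hx
    obtain ⟨g, hg, rfl⟩ := hx
    exact hP g hg
  exact h1.trans (Nat.mul_le_mul_left 2 h2)

/-- Case (b) of Prop. 7.2: `G` abelian of order prime to the characteristic. -/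
theorem card_le_of_abelian (G : Subgroup (GL (Fin 2) k)) [Finite G]
    (hm : (Nat.card G : k) ≠ 0) (hab : ∀ g ∈ G, ∀ h ∈ G, g * h = h * g)
    (H : Finset (GL (Fin 2) k)) (hHG : ∀ h ∈ H, h ∈ G) (P : Finset (k × k))
    (hP : ∀ h ∈ H, td h ∈ P) (hcard : 3 * Nat.card G ≤ 4 * H.card) :
    Nat.card G ≤ 3 * P.card := by
  classical
  have := card_le_two_mul H hm (fun g hg => coe_pow_card_eq_one G (hHG g hg))
    (fun g hg h hh => hab g (hHG g hg) h (hHG h hh)) P hP
  omega

/-- Case (c) of Prop. 7.2: `G` has an abelian subgroup of index two, order prime to the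
characteristic. -/
theorem card_le_of_index_two (G : Subgroup (GL (Fin 2) k)) [Finite G]
    (hm : (Nat.card G : k) ≠ 0) (G' : Subgroup (GL (Fin 2) k)) (hG' : G' ≤ G)
    (hab : ∀ g ∈ G', ∀ h ∈ G', g * h = h * g) (hidx : 2 * Nat.card G' = Nat.card G)
    (H : Finset (GL (Fin 2) k)) (hHG : ∀ h ∈ H, h ∈ G) (P : Finset (k × k))
    (hP : ∀ h ∈ H, td h ∈ P) (hcard : 3 * Nat.card G ≤ 4 * H.card) :
    Nat.card G ≤ 8 * P.card := by
  classical
  have : Finite G' := Finite.of_injective (Subgroup.inclusion hG') (Subgroup.inclusion_injective hG')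
  set H' := H.filter (fun g => g ∈ G') with hH'
  have h1 : H'.card ≤ 2 * P.card :=
    card_le_two_mul H' hm
      (fun g hg => coe_pow_card_eq_one G (hHG g (Finset.mem_filter.mp hg).1))
      (fun g hg h hh => hab g (Finset.mem_filter.mp hg).2 h (Finset.mem_filter.mp hh).2) P
      (fun g hg => hP g (Finset.mem_filter.mp hg).1)
  have h2 : (H.filter (fun g => ¬ g ∈ G')).card ≤ Nat.card G - Nat.card G' := by
    have hsub : fs G' ⊆ fs G := fun g hg => (mem_fs G).mpr (hG' ((mem_fs G').mp hg))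
    rw [← card_fs G, ← card_fs G', ← Finset.card_sdiff_of_subset hsub]
    apply Finset.card_le_card
    intro g hg
    rw [Finset.mem_filter] at hg
    rw [Finset.mem_sdiff, mem_fs, mem_fs]
    exact ⟨hHG g hg.1, hg.2⟩
  have h3 : H.card = H'.card + (H.filter (fun g => ¬ g ∈ G')).card :=
    (Finset.card_filter_add_card_filter_not (s := H) (fun g => g ∈ G')).symm
  omega

/-- Case (d) of Prop. 7.2: a subgroup `Z` of scalars of index at most `60`. -/
theorem card_le_of_scalars (G : Subgroup (GL (Fin 2) k)) [Finite G]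
    (Z : Subgroup (GL (Fin 2) k)) (hZ : Z ≤ G)
    (hsc : ∀ z ∈ Z, ∃ x : k, (z : Matrix (Fin 2) (Fin 2) k) = Matrix.scalar (Fin 2) x)
    (hidx : Nat.card G ≤ 60 * Nat.card Z)
    (H : Finset (GL (Fin 2) k)) (hHG : ∀ h ∈ H, h ∈ G) (P : Finset (k × k))
    (hP : ∀ h ∈ H, td h ∈ P) (hcard : 3 * Nat.card G ≤ 4 * H.card) :
    Nat.card G ≤ 160 * P.card := by
  classical
  have : Finite Z := Finite.of_injective (Subgroup.inclusion hZ) (Subgroup.inclusion_injective hZ)
  -- for every `g`, the part of `H` in the coset `g Z` has at most `2 * #P` elements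
  have hcoset : ∀ g : GL (Fin 2) k, (H.filter fun h => h⁻¹ * g ∈ Z).card ≤ 2 * P.card := by
    intro g
    set Hg := H.filter fun h => h⁻¹ * g ∈ Z with hHg
    have hfib : ∀ b ∈ Hg.image td, (Hg.filter fun h => td h = b).card ≤ 2 := by
      intro b _
      rcases (Hg.filter fun h => td h = b).eq_empty_or_nonempty with h0 | ⟨A, hA⟩
      · rw [h0]; simp
      rw [Finset.mem_filter] at hA
      have hsub : ∀ B ∈ Hg.filter (fun h => td h = b),
          (B : Matrix (Fin 2) (Fin 2) k) ∈ ({(A : Matrix (Fin 2) (Fin 2) k),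
            -(A : Matrix (Fin 2) (Fin 2) k)} : Finset (Matrix (Fin 2) (Fin 2) k)) := by
        intro B hB
        rw [Finset.mem_filter] at hB
        have hAZ : A⁻¹ * g ∈ Z := (Finset.mem_filter.mp hA.1).2
        have hBZ : B⁻¹ * g ∈ Z := (Finset.mem_filter.mp hB.1).2
        have hz : A⁻¹ * B ∈ Z := by
          have : A⁻¹ * B = (A⁻¹ * g) * (B⁻¹ * g)⁻¹ := by group
          rw [this]
          exact Z.mul_mem hAZ (Z.inv_mem hBZ)
        obtain ⟨x, hx⟩ := hsc _ hz
        have hBA : (B : Matrix (Fin 2) (Fin 2) k) = x • (A : Matrix (Fin 2) (Fin 2) k) := by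
          have h1 : B = A * (A⁻¹ * B) := by group
          have h2 := congrArg (fun u : GL (Fin 2) k => (u : Matrix (Fin 2) (Fin 2) k)) h1
          simp only [Units.val_mul] at h2
          rw [h2]
          simp only [Units.val_mul] at hx
          rw [hx]
          simp only [Matrix.scalar_apply]
          ext i j
          simp [Matrix.mul_diagonal, mul_comm]
        have htd : td A = td B := hA.2.trans hB.2.symm
        have ht : (A : Matrix (Fin 2) (Fin 2) k).trace = (B : Matrix (Fin 2) (Fin 2) k).trace :=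
          congrArg Prod.fst htd
        have hd : (A : Matrix (Fin 2) (Fin 2) k).det = (B : Matrix (Fin 2) (Fin 2) k).det :=
          congrArg Prod.snd htd
        rw [hBA, Matrix.det_smul, Fintype.card_fin] at hd
        have hdetA : (A : Matrix (Fin 2) (Fin 2) k).det ≠ 0 := by
          have := (Matrix.isUnit_iff_isUnit_det _).mp A.isUnit
          exact this.ne_zero
        have hx2 : x ^ 2 = 1 := by
          have : (x ^ 2 - 1) * (A : Matrix (Fin 2) (Fin 2) k).det = 0 := by
            rw [sub_mul, one_mul, ← hd, sub_self]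
          rcases mul_eq_zero.mp this with h | h
          · exact sub_eq_zero.mp h
          · exact absurd h hdetA
        have hx : x = 1 ∨ x = -1 := sq_eq_one_iff.mp hx2
        rcases hx with rfl | rfl
        · rw [hBA, one_smul]; simp
        · rw [hBA, neg_one_smul]; simp
      refine (Finset.card_le_card_of_injOn
        (fun u : GL (Fin 2) k => (u : Matrix (Fin 2) (Fin 2) k)) hsub ?_).trans Finset.card_le_two
      intro a _ b _ hab
      exact Units.ext hab
    have h1 := Finset.card_le_mul_card_image (f := td) Hg 2 hfib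
    have h2 : (Hg.image td).card ≤ P.card := by
      apply Finset.card_le_card
      intro x hx
      rw [Finset.mem_image] at hx
      obtain ⟨h, hh, rfl⟩ := hx
      exact hP h (Finset.mem_filter.mp hh).1
    exact h1.trans (Nat.mul_le_mul_left 2 h2)
  -- double counting of the pairs `(h, z) ∈ H × Z` along `(h, z) ↦ h z ∈ G`
  have hmaps : Set.MapsTo (fun p : GL (Fin 2) k × GL (Fin 2) k => p.1 * p.2)
      ↑(H ×ˢ fs Z) ↑(fs G) := by
    intro p hp
    rw [Finset.mem_coe, Finset.mem_product, mem_fs] at hp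
    rw [Finset.mem_coe, mem_fs]
    exact G.mul_mem (hHG _ hp.1) (hZ hp.2)
  have hsum := Finset.card_eq_sum_card_fiberwise hmaps
  rw [Finset.card_product, card_fs] at hsum
  have hfiber : ∀ g ∈ fs G, ((H ×ˢ fs Z).filter fun p => p.1 * p.2 = g).card ≤ 2 * P.card := by
    intro g _
    refine le_trans ?_ (hcoset g)
    apply Finset.card_le_card_of_injOn (fun p => p.1)
    · intro p hp
      rw [Finset.mem_coe, Finset.mem_filter, Finset.mem_product, mem_fs] at hp
      rw [Finset.mem_coe, Finset.mem_filter]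
      refine ⟨hp.1.1, ?_⟩
      have : p.1⁻¹ * g = p.2 := by rw [← hp.2]; group
      rw [this]
      exact hp.1.2
    · intro p hp q hq hpq
      rw [Finset.mem_coe, Finset.mem_filter] at hp hq
      have h1 : p.1 = q.1 := hpq
      have h2 : p.2 = q.2 := by
        have := hp.2.trans hq.2.symm
        rw [h1] at this
        exact mul_left_cancel this
      exact Prod.ext h1 h2
  have hle : H.card * Nat.card Z ≤ Nat.card G * (2 * P.card) := by
    rw [hsum]
    calc ∑ b ∈ fs G, ((H ×ˢ fs Z).filter fun p => p.1 * p.2 = b).card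
        ≤ ∑ _b ∈ fs G, 2 * P.card := Finset.sum_le_sum hfiber
      _ = Nat.card G * (2 * P.card) := by rw [Finset.sum_const, card_fs, smul_eq_mul]
  have hZpos : 0 < Nat.card Z := Nat.card_pos
  -- `H.card ≤ 120 * P.card`
  have hH : H.card ≤ 120 * P.card := by
    by_contra hcon
    rw [not_le] at hcon
    have h1 : (120 * P.card + 1) * Nat.card Z ≤ H.card * Nat.card Z :=
      Nat.mul_le_mul_right _ hcon
    have h2 : Nat.card G * (2 * P.card) ≤ (60 * Nat.card Z) * (2 * P.card) :=
      Nat.mul_le_mul_right _ hidx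
    nlinarith
  omega

end Finsets


/-! ### The prime field inside a field of characteristic `ℓ` -/

section PrimeField

variable (ℓ : ℕ)

/-- `x` lies in the prime field of a field of characteristic `ℓ`. -/
def InFp (x : k) : Prop := x ^ ℓ = x

variable {ℓ}

theorem InFp.zero (hℓ : ℓ ≠ 0) : InFp ℓ (0 : k) := zero_pow hℓ

theorem InFp.one : InFp ℓ (1 : k) := one_pow ℓ

theorem InFp.mul {x y : k} (hx : InFp ℓ x) (hy : InFp ℓ y) : InFp ℓ (x * y) := by
  unfold InFp at *
  rw [mul_pow, hx, hy]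

theorem InFp.div {x y : k} (hx : InFp ℓ x) (hy : InFp ℓ y) : InFp ℓ (x / y) := by
  unfold InFp at *
  rw [div_pow, hx, hy]

variable [Fact ℓ.Prime] [CharP k ℓ]

theorem InFp.add {x y : k} (hx : InFp ℓ x) (hy : InFp ℓ y) : InFp ℓ (x + y) := by
  unfold InFp at *
  rw [add_pow_char x y ℓ, hx, hy]

theorem InFp.sub {x y : k} (hx : InFp ℓ x) (hy : InFp ℓ y) : InFp ℓ (x - y) := by
  unfold InFp at *
  rw [sub_pow_char (p := ℓ) x y, hx, hy]

theorem InFp.natCast (n : ℕ) : InFp ℓ ((n : ℕ) : k) := by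
  induction n with
  | zero => simpa using InFp.zero (k := k) (Fact.out : ℓ.Prime).ne_zero
  | succ n ih => rw [Nat.cast_succ]; exact ih.add InFp.one

open Polynomial in
/-- The prime field as a finset. -/
noncomputable def fpSet (k : Type*) [Field k] [DecidableEq k] (ℓ : ℕ) : Finset k :=
  ((X ^ ℓ - X : k[X]).roots).toFinset

omit [CharP k ℓ] in
open Polynomial in
theorem mem_fpSet [DecidableEq k] {x : k} : x ∈ fpSet k ℓ ↔ InFp ℓ x := by
  unfold fpSet InFp
  rw [Multiset.mem_toFinset, Polynomial.mem_roots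
    (FiniteField.X_pow_card_sub_X_ne_zero k (Fact.out : ℓ.Prime).one_lt)]
  simp [sub_eq_zero]

omit [CharP k ℓ] in
open Polynomial in
theorem card_fpSet_le [DecidableEq k] : (fpSet k ℓ).card ≤ ℓ := by
  unfold fpSet
  refine (Multiset.toFinset_card_le _).trans ((Polynomial.card_roots' _).trans ?_)
  rw [FiniteField.X_pow_card_sub_X_natDegree_eq k (Fact.out : ℓ.Prime).one_lt]

end PrimeField


/-! ### Two transvections: descent to the prime field and counting -/

section Transvections

/-- The upper transvection. -/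
def T1 : Matrix (Fin 2) (Fin 2) k := !![1, 1; 0, 1]

/-- The lower transvection with parameter `c`. -/
def T2 (c : k) : Matrix (Fin 2) (Fin 2) k := !![1, 0; c, 1]

theorem T1_pow (n : ℕ) : (T1 : Matrix (Fin 2) (Fin 2) k) ^ n = !![1, (n : k); 0, 1] := by
  induction n with
  | zero => simp [Matrix.one_fin_two]
  | succ n ih =>
    rw [pow_succ, ih, T1]
    ext i j
    fin_cases i <;> fin_cases j <;> simp [Matrix.mul_apply, Fin.sum_univ_two]
    ring

theorem T2_pow (c : k) (n : ℕ) : T2 c ^ n = !![1, 0; (n : k) * c, 1] := by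
  induction n with
  | zero => simp [Matrix.one_fin_two]
  | succ n ih =>
    rw [pow_succ, ih, T2]
    ext i j
    fin_cases i <;> fin_cases j <;> simp [Matrix.mul_apply, Fin.sum_univ_two]
    ring

theorem trace_mul_T1 (M : Matrix (Fin 2) (Fin 2) k) :
    (M * T1).trace = M 0 0 + M 1 0 + M 1 1 := by
  simp [T1, Matrix.trace_fin_two, Matrix.mul_apply, Fin.sum_univ_two]
  ring

theorem trace_mul_T2 (M : Matrix (Fin 2) (Fin 2) k) (c : k) :
    (M * T2 c).trace = M 0 0 + M 0 1 * c + M 1 1 := by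
  simp [T2, Matrix.trace_fin_two, Matrix.mul_apply, Fin.sum_univ_two]

theorem trace_mul_T1_T2 (M : Matrix (Fin 2) (Fin 2) k) (c : k) :
    (M * (T1 * T2 c)).trace = M 0 0 * (1 + c) + M 0 1 * c + M 1 0 + M 1 1 := by
  simp [T1, T2, Matrix.trace_fin_two, Matrix.mul_apply, Fin.sum_univ_two]
  ring

/-- Conjugation by `P`, as a matrix. -/
def cj (P g : GL (Fin 2) k) : Matrix (Fin 2) (Fin 2) k :=
  ((P⁻¹ * g * P : GL (Fin 2) k) : Matrix (Fin 2) (Fin 2) k)

theorem cj_mul (P g h : GL (Fin 2) k) : cj P (g * h) = cj P g * cj P h := by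
  unfold cj
  rw [← Units.val_mul]
  congr 1
  group

theorem cj_pow (P g : GL (Fin 2) k) (n : ℕ) : cj P (g ^ n) = cj P g ^ n := by
  unfold cj
  rw [← Units.val_pow_eq_pow_val]
  congr 1
  induction n with
  | zero => simp
  | succ n ih => rw [pow_succ, pow_succ, ← ih]; group

theorem trace_cj (P g : GL (Fin 2) k) :
    (cj P g).trace = (g : Matrix (Fin 2) (Fin 2) k).trace := by
  unfold cj
  rw [Units.val_mul, Units.val_mul, Matrix.trace_mul_cycle, ← Units.val_mul, mul_inv_cancel,
    Units.val_one, one_mul]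

theorem det_cj (P g : GL (Fin 2) k) :
    (cj P g).det = (g : Matrix (Fin 2) (Fin 2) k).det := by
  unfold cj
  rw [Units.val_mul, Units.val_mul, Matrix.det_mul, Matrix.det_mul, mul_comm, ← mul_assoc,
    ← Matrix.det_mul, ← Units.val_mul, mul_inv_cancel, Units.val_one, Matrix.det_one, one_mul]

theorem cj_injective (P : GL (Fin 2) k) : Function.Injective (cj P) := by
  intro g h hgh
  unfold cj at hgh
  have := Units.ext hgh
  rw [mul_assoc, mul_assoc] at this
  exact mul_right_cancel (mul_left_cancel this)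

variable {ℓ : ℕ} [Fact ℓ.Prime] [CharP k ℓ]

/-- The parameter of the second transvection lies in the prime field. -/
theorem inFp_param (G : Subgroup (GL (Fin 2) k))
    (htr : ∀ g ∈ G, InFp ℓ (g : Matrix (Fin 2) (Fin 2) k).trace)
    {u u' : GL (Fin 2) k} (hu : u ∈ G) (hu' : u' ∈ G) (P : GL (Fin 2) k) {c : k}
    (hcu : cj P u = T1) (hcu' : cj P u' = T2 c) : InFp ℓ c := by
  have h := htr (u * u') (G.mul_mem hu hu')
  rw [← trace_cj P, cj_mul, hcu, hcu'] at h
  have h2 : ((T1 : Matrix (Fin 2) (Fin 2) k) * T2 c).trace = ((2 : ℕ) : k) + c := by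
    simp [T1, T2, Matrix.trace_fin_two]
    ring
  rw [h2] at h
  have := h.sub (InFp.natCast (k := k) (ℓ := ℓ) 2)
  simpa using this

/-- **Descent.** If `G` contains two transvections in general position and all traces of `G` lie
in the prime field, then in the adapted basis all entries of all elements of `G` lie in the prime
field. -/
theorem inFp_entries (G : Subgroup (GL (Fin 2) k))
    (htr : ∀ g ∈ G, InFp ℓ (g : Matrix (Fin 2) (Fin 2) k).trace)
    {u u' : GL (Fin 2) k} (hu : u ∈ G) (hu' : u' ∈ G) (P : GL (Fin 2) k) {c : k} (hc : c ≠ 0)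
    (hcu : cj P u = T1) (hcu' : cj P u' = T2 c) {g : GL (Fin 2) k} (hg : g ∈ G) (i j : Fin 2) :
    InFp ℓ (cj P g i j) := by
  have hcF : InFp ℓ c := inFp_param G htr hu hu' P hcu hcu'
  set M := cj P g with hM
  have h0 : InFp ℓ (M 0 0 + M 1 1) := by
    have := htr g hg
    rwa [← trace_cj P, ← hM, Matrix.trace_fin_two] at this
  have h1 : InFp ℓ (M 0 0 + M 1 0 + M 1 1) := by
    have := htr (g * u) (G.mul_mem hg hu)
    rwa [← trace_cj P, cj_mul, hcu, ← hM, trace_mul_T1] at this
  have h2 : InFp ℓ (M 0 0 + M 0 1 * c + M 1 1) := by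
    have := htr (g * u') (G.mul_mem hg hu')
    rwa [← trace_cj P, cj_mul, hcu', ← hM, trace_mul_T2] at this
  have h3 : InFp ℓ (M 0 0 * (1 + c) + M 0 1 * c + M 1 0 + M 1 1) := by
    have := htr (g * (u * u')) (G.mul_mem hg (G.mul_mem hu hu'))
    rwa [← trace_cj P, cj_mul, cj_mul, hcu, hcu', ← hM, trace_mul_T1_T2] at this
  have e10 : InFp ℓ (M 1 0) := by
    have := h1.sub h0
    have h : M 0 0 + M 1 0 + M 1 1 - (M 0 0 + M 1 1) = M 1 0 := by ring
    rwa [h] at this
  have e01c : InFp ℓ (M 0 1 * c) := by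
    have := h2.sub h0
    have h : M 0 0 + M 0 1 * c + M 1 1 - (M 0 0 + M 1 1) = M 0 1 * c := by ring
    rwa [h] at this
  have e01 : InFp ℓ (M 0 1) := by
    have := e01c.div hcF
    rwa [mul_div_assoc, div_self hc, mul_one] at this
  have e00c : InFp ℓ (M 0 0 * c) := by
    have := ((h3.sub h0).sub e01c).sub e10
    have h : M 0 0 * (1 + c) + M 0 1 * c + M 1 0 + M 1 1 - (M 0 0 + M 1 1) - M 0 1 * c - M 1 0 =
        M 0 0 * c := by ring
    rwa [h] at this
  have e00 : InFp ℓ (M 0 0) := by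
    have := e00c.div hcF
    rwa [mul_div_assoc, div_self hc, mul_one] at this
  have e11 : InFp ℓ (M 1 1) := by
    have := h0.sub e00
    rwa [add_sub_cancel_left] at this
  fin_cases i <;> fin_cases j
  · exact e00
  · exact e01
  · exact e10
  · exact e11

/-- Upper bound `#G ≤ ℓ⁴` after descent. -/
theorem card_le_pow_four (G : Subgroup (GL (Fin 2) k)) [Finite G]
    (htr : ∀ g ∈ G, InFp ℓ (g : Matrix (Fin 2) (Fin 2) k).trace)
    {u u' : GL (Fin 2) k} (hu : u ∈ G) (hu' : u' ∈ G) (P : GL (Fin 2) k) {c : k} (hc : c ≠ 0)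
    (hcu : cj P u = T1) (hcu' : cj P u' = T2 c) : Nat.card G ≤ ℓ ^ 4 := by
  classical
  have hinj : Set.InjOn (fun g : GL (Fin 2) k => (cj P g 0 0, cj P g 0 1, cj P g 1 0, cj P g 1 1))
      ↑(fs G) := by
    intro g _ h _ hgh
    simp only [Prod.mk.injEq] at hgh
    apply cj_injective P
    ext i j
    fin_cases i <;> fin_cases j
    · exact hgh.1
    · exact hgh.2.1
    · exact hgh.2.2.1
    · exact hgh.2.2.2
  have hmaps : ∀ g ∈ fs G, (cj P g 0 0, cj P g 0 1, cj P g 1 0, cj P g 1 1) ∈
      fpSet k ℓ ×ˢ fpSet k ℓ ×ˢ fpSet k ℓ ×ˢ fpSet k ℓ := by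
    intro g hg
    rw [mem_fs] at hg
    simp only [Finset.mem_product, mem_fpSet]
    exact ⟨inFp_entries G htr hu hu' P hc hcu hcu' hg 0 0,
      inFp_entries G htr hu hu' P hc hcu hcu' hg 0 1,
      inFp_entries G htr hu hu' P hc hcu hcu' hg 1 0,
      inFp_entries G htr hu hu' P hc hcu hcu' hg 1 1⟩
  have h1 := Finset.card_le_card_of_injOn _ hmaps hinj
  rw [card_fs, Finset.card_product, Finset.card_product, Finset.card_product] at h1
  have hF := card_fpSet_le (k := k) (ℓ := ℓ)
  calc Nat.card G ≤ (fpSet k ℓ).card * ((fpSet k ℓ).card * ((fpSet k ℓ).card * (fpSet k ℓ).card)) := h1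
    _ ≤ ℓ * (ℓ * (ℓ * ℓ)) := by gcongr
    _ = ℓ ^ 4 := by ring

/-- Lower bound `ℓ (ℓ - 1) ℓ ≤ #G` from the products `u ^ a * u' ^ b * u ^ a'`. -/
theorem card_ge (G : Subgroup (GL (Fin 2) k)) [Finite G]
    {u u' : GL (Fin 2) k} (hu : u ∈ G) (hu' : u' ∈ G) (P : GL (Fin 2) k) {c : k} (hc : c ≠ 0)
    (hcu : cj P u = T1) (hcu' : cj P u' = T2 c) : ℓ * (ℓ - 1) * ℓ ≤ Nat.card G := by
  classical
  have hℓ : ℓ.Prime := Fact.out
  set f : ℕ × ℕ × ℕ → GL (Fin 2) k := fun x => u ^ x.1 * u' ^ x.2.1 * u ^ x.2.2 with hf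
  have hcjf : ∀ x : ℕ × ℕ × ℕ, cj P (f x) =
      !![1 + (x.1 : k) * ((x.2.1 : k) * c), (1 + (x.1 : k) * ((x.2.1 : k) * c)) * (x.2.2 : k) + x.1;
        (x.2.1 : k) * c, (x.2.1 : k) * c * (x.2.2 : k) + 1] := by
    intro x
    rw [hf]
    simp only
    rw [cj_mul, cj_mul, cj_pow, cj_pow, cj_pow, hcu, hcu', T1_pow, T2_pow, T1_pow]
    ext i j
    fin_cases i <;> fin_cases j <;> simp [Matrix.mul_apply, Fin.sum_univ_two]
  have hcast : ∀ a b : ℕ, a < ℓ → b < ℓ → (a : k) = (b : k) → a = b := fun a b ha hb h =>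
    CharP.natCast_injOn_Iio k ℓ ha hb h
  have hinj : Set.InjOn f ↑(Finset.range ℓ ×ˢ Finset.Ico 1 ℓ ×ˢ Finset.range ℓ) := by
    intro x hx y hy hxy
    rw [Finset.mem_coe, Finset.mem_product, Finset.mem_product, Finset.mem_range, Finset.mem_Ico,
      Finset.mem_range] at hx hy
    have h := congrArg (cj P) hxy
    rw [hcjf, hcjf] at h
    have h10 : (x.2.1 : k) * c = (y.2.1 : k) * c := by
      have := congrFun (congrFun h 1) 0
      simpa using this
    have hb : x.2.1 = y.2.1 := hcast _ _ hx.2.1.2 hy.2.1.2 (mul_right_cancel₀ hc h10)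
    have hbne : (y.2.1 : k) * c ≠ 0 := by
      apply mul_ne_zero _ hc
      intro h0
      have : y.2.1 = 0 := hcast _ _ hy.2.1.2 hℓ.pos (by simpa using h0)
      omega
    have h00 : 1 + (x.1 : k) * ((x.2.1 : k) * c) = 1 + (y.1 : k) * ((y.2.1 : k) * c) := by
      have := congrFun (congrFun h 0) 0
      simpa using this
    rw [h10] at h00
    have ha : x.1 = y.1 := hcast _ _ hx.1 hy.1 (mul_right_cancel₀ hbne (add_left_cancel h00))
    have h11 : (x.2.1 : k) * c * (x.2.2 : k) + 1 = (y.2.1 : k) * c * (y.2.2 : k) + 1 := by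
      have := congrFun (congrFun h 1) 1
      simpa using this
    rw [h10] at h11
    have ha' : x.2.2 = y.2.2 :=
      hcast _ _ hx.2.2 hy.2.2 (mul_left_cancel₀ hbne (add_right_cancel h11))
    exact Prod.ext ha (Prod.ext hb ha')
  have hmaps : ∀ x ∈ Finset.range ℓ ×ˢ Finset.Ico 1 ℓ ×ˢ Finset.range ℓ, f x ∈ fs G := by
    intro x _
    rw [mem_fs, hf]
    exact G.mul_mem (G.mul_mem (G.pow_mem hu _) (G.pow_mem hu' _)) (G.pow_mem hu _)
  have h1 := Finset.card_le_card_of_injOn f hmaps hinj
  rw [card_fs, Finset.card_product, Finset.card_product, Finset.card_range, Nat.card_Ico] at h1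
  calc ℓ * (ℓ - 1) * ℓ = ℓ * ((ℓ - 1) * ℓ) := by ring
    _ ≤ Nat.card G := h1

open Polynomial in
/-- After descent, at most `ℓ² + 2ℓ` elements of `G` have a given trace and determinant. -/
theorem card_filter_td_le (G : Subgroup (GL (Fin 2) k)) [Finite G] [DecidableEq k]
    [DecidableEq (GL (Fin 2) k)]
    (htr : ∀ g ∈ G, InFp ℓ (g : Matrix (Fin 2) (Fin 2) k).trace)
    {u u' : GL (Fin 2) k} (hu : u ∈ G) (hu' : u' ∈ G) (P : GL (Fin 2) k) {c : k} (hc : c ≠ 0)
    (hcu : cj P u = T1) (hcu' : cj P u' = T2 c) (x : k × k) :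
    ((fs G).filter fun g => td g = x).card ≤ ℓ ^ 2 + 2 * ℓ := by
  classical
  obtain ⟨t, d⟩ := x
  set F := fpSet k ℓ with hF
  set R : Finset k := ((X ^ 2 - C t * X + C d : k[X]).roots).toFinset with hR
  have hRcard : R.card ≤ 2 := by
    refine (Multiset.toFinset_card_le _).trans ((Polynomial.card_roots' _).trans ?_)
    have : (X ^ 2 - C t * X + C d : k[X]).natDegree ≤ 2 := by compute_degree
    exact this
  have hne : (X ^ 2 - C t * X + C d : k[X]) ≠ 0 := by
    intro h
    have := congrArg (fun p : k[X] => p.coeff 2) h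
    simp [Polynomial.coeff_X_pow] at this
  set T₁ : Finset (k × k × k) :=
    (F ×ˢ F).image (fun p => (p.1, p.2, (p.1 * (t - p.1) - d) / p.2)) with hT₁
  set T₂ : Finset (k × k × k) := (R ×ˢ F).image (fun p => (p.1, (0 : k), p.2)) with hT₂
  have hinj : Set.InjOn (fun g : GL (Fin 2) k => (cj P g 0 0, cj P g 0 1, cj P g 1 0))
      ↑((fs G).filter fun g => td g = (t, d)) := by
    intro g hg h hh hgh
    rw [Finset.mem_coe, Finset.mem_filter] at hg hh
    simp only [Prod.mk.injEq] at hgh
    have h11 : cj P g 1 1 = cj P h 1 1 := by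
      have h1 : (cj P g).trace = (cj P h).trace := by
        rw [trace_cj, trace_cj]
        exact (congrArg Prod.fst hg.2).trans (congrArg Prod.fst hh.2).symm
      rw [Matrix.trace_fin_two, Matrix.trace_fin_two, hgh.1] at h1
      exact add_left_cancel h1
    apply cj_injective P
    ext i j
    fin_cases i <;> fin_cases j
    · exact hgh.1
    · exact hgh.2.1
    · exact hgh.2.2
    · exact h11
  have hmaps : ∀ g ∈ (fs G).filter (fun g => td g = (t, d)),
      (cj P g 0 0, cj P g 0 1, cj P g 1 0) ∈ T₁ ∪ T₂ := by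
    intro g hg
    rw [Finset.mem_filter, mem_fs] at hg
    have e := fun i j => inFp_entries G htr hu hu' P hc hcu hcu' hg.1 i j
    have ht : cj P g 0 0 + cj P g 1 1 = t := by
      have := congrArg Prod.fst hg.2
      simp only [td] at this
      rwa [← trace_cj P, Matrix.trace_fin_two] at this
    have hd : cj P g 0 0 * cj P g 1 1 - cj P g 0 1 * cj P g 1 0 = d := by
      have := congrArg Prod.snd hg.2
      simp only [td] at this
      rwa [← det_cj P, Matrix.det_fin_two] at this
    have h11 : cj P g 1 1 = t - cj P g 0 0 := by rw [← ht]; ring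
    rw [h11] at hd
    rw [Finset.mem_union]
    by_cases hb : cj P g 0 1 = 0
    · right
      rw [hT₂, Finset.mem_image]
      refine ⟨(cj P g 0 0, cj P g 1 0), ?_, by simp [hb]⟩
      rw [Finset.mem_product, hR, Multiset.mem_toFinset, Polynomial.mem_roots hne, hF, mem_fpSet]
      refine ⟨?_, e 1 0⟩
      rw [hb, zero_mul, sub_zero] at hd
      simp only [Polynomial.IsRoot, Polynomial.eval_add, Polynomial.eval_sub, Polynomial.eval_pow,
        Polynomial.eval_X, Polynomial.eval_mul, Polynomial.eval_C]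
      rw [← hd]
      ring
    · left
      rw [hT₁, Finset.mem_image]
      refine ⟨(cj P g 0 0, cj P g 0 1), ?_, ?_⟩
      · rw [Finset.mem_product, hF, mem_fpSet, mem_fpSet]
        exact ⟨e 0 0, e 0 1⟩
      · simp only [Prod.mk.injEq, true_and]
        rw [← hd]
        field_simp
        ring
  have h1 := Finset.card_le_card_of_injOn _ hmaps hinj
  have hT₁c : T₁.card ≤ ℓ ^ 2 := by
    refine Finset.card_image_le.trans ?_
    rw [Finset.card_product, sq]
    exact Nat.mul_le_mul card_fpSet_le card_fpSet_le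
  have hT₂c : T₂.card ≤ 2 * ℓ := by
    refine Finset.card_image_le.trans ?_
    rw [Finset.card_product]
    exact Nat.mul_le_mul hRcard card_fpSet_le
  exact h1.trans ((Finset.card_union_le _ _).trans (Nat.add_le_add hT₁c hT₂c))

/-- Case (a') of Prop. 7.2: `G` contains two transvections in general position and all its traces
lie in the prime field. -/
theorem card_le_of_transvections (G : Subgroup (GL (Fin 2) k)) [Finite G]
    (htr : ∀ g ∈ G, InFp ℓ (g : Matrix (Fin 2) (Fin 2) k).trace)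
    {u u' : GL (Fin 2) k} (hu : u ∈ G) (hu' : u' ∈ G) (P : GL (Fin 2) k) {c : k} (hc : c ≠ 0)
    (hcu : cj P u = T1) (hcu' : cj P u' = T2 c)
    (H : Finset (GL (Fin 2) k)) (hHG : ∀ h ∈ H, h ∈ G) (P' : Finset (k × k))
    (hP : ∀ h ∈ H, td h ∈ P') (hcard : 3 * Nat.card G ≤ 4 * H.card) :
    Nat.card G ≤ (6 * P'.card) ^ 4 := by
  classical
  have hℓ : ℓ.Prime := Fact.out
  have hfib : ∀ b ∈ H.image td, (H.filter fun g => td g = b).card ≤ ℓ ^ 2 + 2 * ℓ := by
    intro b _
    refine le_trans (Finset.card_le_card ?_) (card_filter_td_le G htr hu hu' P hc hcu hcu' b)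
    intro g hg
    rw [Finset.mem_filter] at hg ⊢
    exact ⟨(mem_fs G).mpr (hHG g hg.1), hg.2⟩
  have h1 := Finset.card_le_mul_card_image (f := td) H _ hfib
  have h2 : (H.image td).card ≤ P'.card := by
    apply Finset.card_le_card
    intro x hx
    rw [Finset.mem_image] at hx
    obtain ⟨g, hg, rfl⟩ := hx
    exact hP g hg
  have hH : H.card ≤ (ℓ ^ 2 + 2 * ℓ) * P'.card := h1.trans (Nat.mul_le_mul_left _ h2)
  have hlow := card_ge (ℓ := ℓ) G hu hu' P hc hcu hcu'
  have hup := card_le_pow_four G htr hu hu' P hc hcu hcu'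
  have hn : ℓ ≤ 6 * P'.card := by
    by_contra hcon
    rw [not_le] at hcon
    obtain ⟨q, hq⟩ : ∃ q, ℓ = q + 1 := ⟨ℓ - 1, by have := hℓ.pos; omega⟩
    have hq1 : 1 ≤ q := by have := hℓ.two_le; omega
    rw [hq] at hlow hH hcon
    rw [Nat.add_sub_cancel] at hlow
    set M := P'.card
    have e1 : 3 * ((q + 1) * q * (q + 1)) ≤ 4 * (((q + 1) ^ 2 + 2 * (q + 1)) * M) := by
      calc 3 * ((q + 1) * q * (q + 1)) ≤ 3 * Nat.card G := Nat.mul_le_mul_left _ hlow
        _ ≤ 4 * H.card := hcard
        _ ≤ 4 * (((q + 1) ^ 2 + 2 * (q + 1)) * M) := Nat.mul_le_mul_left _ hH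
    have e2 : 6 * M ≤ q := by omega
    have e3 : (q + 1) * (3 * (q * (q + 1))) ≤ (q + 1) * (4 * ((q + 3) * M)) := by
      calc (q + 1) * (3 * (q * (q + 1))) = 3 * ((q + 1) * q * (q + 1)) := by ring
        _ ≤ 4 * (((q + 1) ^ 2 + 2 * (q + 1)) * M) := e1
        _ = (q + 1) * (4 * ((q + 3) * M)) := by ring
    have e4 : 3 * (q * (q + 1)) ≤ 4 * ((q + 3) * M) := Nat.le_of_mul_le_mul_left e3 (by omega)
    have e5 : 12 * ((q + 3) * M) ≤ 2 * ((q + 3) * q) := by
      have : (q + 3) * (6 * M) ≤ (q + 3) * q := Nat.mul_le_mul_left _ e2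
      nlinarith
    nlinarith
  calc Nat.card G ≤ ℓ ^ 4 := hup
    _ ≤ (6 * P'.card) ^ 4 := Nat.pow_le_pow_left hn 4

end Transvections

end Fermat.Agent.M48.DSCount9
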