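/-
M48 (S48 = Deligne-Serre), block (DS), leaf (A3) (helper9): Deligne-Serre Prop. 7.2 over an
arbitrary field of characteristic `ℓ`, from the numerical trichotomy (A2) as a hypothesis.

`Trichotomy ℓ G` is the literal conclusion of helper6's (A2); `TrichotomyStmt` the full statement.
`prop72`: if all traces of the finite group `G ≤ GL₂(k)` lie in the prime field, `H ⊆ G` has at
least `3/4` of the elements of `G` and the pairs (trace, determinant) of the elements of `H` lie in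
a set of `M` elements, then `#G ≤ (6 M)⁴ + 160 M`.
-/
import Mathlib
import Fermat.Agent.M48.DSCount9

set_option autoImplicit false

open Matrix

namespace Fermat.Agent.M48.DSProp9

open Fermat.Agent.M48.DSCount9

/-- The conclusion of the numerical trichotomy (A2) for a finite subgroup of `GL₂(k)`,
`char k = ℓ`. -/
def Trichotomy {k : Type*} [Field k] (ℓ : ℕ) (G : Subgroup (GL (Fin 2) k)) : Prop :=
  (∃ u ∈ G, ∃ u' ∈ G, ∃ (P : GL (Fin 2) k) (c : k), c ≠ 0 ∧
      ((P⁻¹ * u * P : GL (Fin 2) k) : Matrix (Fin 2) (Fin 2) k) = !![1, 1; 0, 1] ∧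
      ((P⁻¹ * u' * P : GL (Fin 2) k) : Matrix (Fin 2) (Fin 2) k) = !![1, 0; c, 1])
  ∨ (¬ ℓ ∣ Nat.card G ∧
      ((∀ g ∈ G, ∀ h ∈ G, g * h = h * g)
      ∨ (∃ G' : Subgroup (GL (Fin 2) k), G' ≤ G ∧ (∀ g ∈ G', ∀ h ∈ G', g * h = h * g) ∧
          2 * Nat.card G' = Nat.card G)
      ∨ (∃ Z : Subgroup (GL (Fin 2) k), Z ≤ G ∧
          (∀ z ∈ Z, ∃ x : k, (z : Matrix (Fin 2) (Fin 2) k) = Matrix.scalar (Fin 2) x) ∧
          Nat.card G ≤ 60 * Nat.card Z)))

/-- The numerical trichotomy (A2) (helper6): a finite subgroup of `GL₂(k)`, `char k = ℓ`, acting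
semisimply on `k²`, contains two transvections in general position, or has order prime to `ℓ` and is
abelian, or has an abelian subgroup of index two, or has a subgroup of scalars of index at most
`60`. -/
def TrichotomyStmt : Prop :=
  ∀ {k : Type} [Field k] (ℓ : ℕ) [Fact ℓ.Prime] [CharP k ℓ] (G : Subgroup (GL (Fin 2) k))
    [Finite G],
    (∀ W : Submodule k (Fin 2 → k),
      (∀ g ∈ G, ∀ v ∈ W, (g : Matrix (Fin 2) (Fin 2) k).mulVec v ∈ W) →
      ∃ W' : Submodule k (Fin 2 → k),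
        (∀ g ∈ G, ∀ v ∈ W', (g : Matrix (Fin 2) (Fin 2) k).mulVec v ∈ W') ∧ IsCompl W W') →
    Trichotomy ℓ G

/-- **Deligne-Serre, Prop. 7.2** (over any field of characteristic `ℓ`, traces in the prime
field). -/
theorem prop72 {k : Type*} [Field k] {ℓ : ℕ} [Fact ℓ.Prime] [CharP k ℓ]
    (G : Subgroup (GL (Fin 2) k)) [Finite G] (hT : Trichotomy ℓ G)
    (htr : ∀ g ∈ G, InFp ℓ (g : Matrix (Fin 2) (Fin 2) k).trace)
    (H : Finset (GL (Fin 2) k)) (hHG : ∀ h ∈ H, h ∈ G) (P : Finset (k × k))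
    (hP : ∀ h ∈ H, td h ∈ P) (hcard : 3 * Nat.card G ≤ 4 * H.card) :
    Nat.card G ≤ (6 * P.card) ^ 4 + 160 * P.card := by
  rcases hT with ⟨u, hu, u', hu', Q, c, hc, hcu, hcu'⟩ | ⟨hℓ, hcase⟩
  · have := card_le_of_transvections G htr hu hu' Q hc hcu hcu' H hHG P hP hcard
    omega
  · have hm : (Nat.card G : k) ≠ 0 := fun h => hℓ ((CharP.cast_eq_zero_iff k ℓ _).mp h)
    rcases hcase with hab | ⟨G', hG', hab, hidx⟩ | ⟨Z, hZ, hsc, hidx⟩
    · have := card_le_of_abelian G hm hab H hHG P hP hcard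
      omega
    · have := card_le_of_index_two G hm G' hG' hab hidx H hHG P hP hcard
      omega
    · have := card_le_of_scalars G Z hZ hsc hidx H hHG P hP hcard
      omega

end Fermat.Agent.M48.DSProp9
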