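/-
M48 (S48 = Deligne-Serre), block (DS), leaf (LEF) (helper9): a Lefschetz principle.

A system of polynomial equations with coefficients in the ring `ℤ̄ ⊂ ℂ` of algebraic integers which
has a solution in a field of characteristic `ℓ` (through some ring homomorphism `ℤ̄ → Ω`) for
infinitely many `ℓ` has a solution in `ℂ`.

Proof: otherwise the relative Nullstellensatz over the field of algebraic numbers gives
`1 = ∑ hᵢ fᵢ`; clearing denominators, `d = ∑ hᵢ' fᵢ` over `ℤ̄` with `0 ≠ d ∈ ℤ`; a solution in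
characteristic `ℓ` forces `ℓ ∣ d`.
-/
import Mathlib

set_option autoImplicit false

open MvPolynomial

namespace Fermat.Agent.M48.DSLef9

/-- The ring of algebraic integers in `ℂ`. -/
noncomputable abbrev Zb : Subalgebra ℤ ℂ := integralClosure ℤ ℂ

/-- The field of algebraic numbers in `ℂ`. -/
noncomputable abbrev Ab : IntermediateField ℚ ℂ := algebraicClosure ℚ ℂ

theorem mem_Ab_of_isIntegral {x : ℂ} (hx : IsIntegral ℤ x) : x ∈ Ab := by
  rw [mem_algebraicClosure_iff]
  exact hx.isAlgebraic.extendScalars (Int.cast_injective (α := ℚ))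

/-- The inclusion of the algebraic integers in the algebraic numbers. -/
noncomputable def toAb : Zb →+* Ab :=
  (algebraMap Zb ℂ).codRestrict Ab (fun x => mem_Ab_of_isIntegral x.2)

@[simp] theorem coe_toAb (x : Zb) : ((toAb x : Ab) : ℂ) = (x : ℂ) := rfl

theorem toAb_injective : Function.Injective toAb := by
  intro x y h
  apply Subtype.ext
  have := congrArg (fun z : Ab => (z : ℂ)) h
  simpa using this

/-- Every algebraic number has a nonzero integer multiple which is an algebraic integer. -/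
theorem exists_int_mul_mem (c : Ab) : ∃ y : ℤ, y ≠ 0 ∧ ∃ z : Zb, toAb z = (y : Ab) * c := by
  have hc : IsAlgebraic ℚ (c : ℂ) := (mem_algebraicClosure_iff).mp c.2
  have hc' : IsAlgebraic ℤ (c : ℂ) := (IsFractionRing.isAlgebraic_iff ℤ ℚ ℂ).mpr hc
  obtain ⟨y, hy0, hy⟩ := hc'.exists_integral_multiple
  refine ⟨y, hy0, ⟨⟨y • (c : ℂ), hy⟩, ?_⟩⟩
  apply Subtype.ext
  simp [zsmul_eq_mul]


variable {σ : Type*}

/-- Clearing the denominators of a polynomial with algebraic coefficients. -/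
theorem exists_int_mul_mem_range (p : MvPolynomial σ Ab) :
    ∃ y : ℤ, y ≠ 0 ∧ C ((y : ℤ) : Ab) * p ∈ (MvPolynomial.map (σ := σ) toAb).range := by
  induction p using MvPolynomial.induction_on with
  | C a =>
    obtain ⟨y, hy0, z, hz⟩ := exists_int_mul_mem a
    refine ⟨y, hy0, ⟨C z, ?_⟩⟩
    rw [map_C, hz, C_mul]
  | add p q hp hq =>
    obtain ⟨y, hy0, hy⟩ := hp
    obtain ⟨y', hy0', hy'⟩ := hq
    refine ⟨y * y', mul_ne_zero hy0 hy0', ?_⟩
    have h1 : C (((y * y' : ℤ) : ℤ) : Ab) * (p + q) =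
        C ((y' : ℤ) : Ab) * (C ((y : ℤ) : Ab) * p) + C ((y : ℤ) : Ab) * (C ((y' : ℤ) : Ab) * q) := by
      push_cast
      rw [C_mul]
      ring
    rw [h1]
    have hC : ∀ n : ℤ, (C ((n : ℤ) : Ab) : MvPolynomial σ Ab) ∈
        (MvPolynomial.map (σ := σ) toAb).range := fun n => ⟨C (n : Zb), by simp⟩
    exact add_mem (mul_mem (hC _) hy) (mul_mem (hC _) hy')
  | mul_X p i hp =>
    obtain ⟨y, hy0, hy⟩ := hp
    refine ⟨y, hy0, ?_⟩
    rw [← mul_assoc]
    exact mul_mem hy ⟨X i, by simp⟩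

/-- Clearing the denominators of a finite family of polynomials with algebraic coefficients. -/
theorem exists_int_mul_mem_range_family {n : ℕ} (h : Fin n → MvPolynomial σ Ab) :
    ∃ y : ℤ, y ≠ 0 ∧ ∀ i, C ((y : ℤ) : Ab) * h i ∈ (MvPolynomial.map (σ := σ) toAb).range := by
  choose y hy0 hy using fun i => exists_int_mul_mem_range (h i)
  refine ⟨∏ i, y i, Finset.prod_ne_zero_iff.mpr fun i _ => hy0 i, fun i => ?_⟩
  obtain ⟨q, hq⟩ : y i ∣ ∏ i, y i := Finset.dvd_prod_of_mem y (Finset.mem_univ i)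
  rw [hq]
  have h1 : C ((((y i * q : ℤ)) : ℤ) : Ab) * h i = C ((q : ℤ) : Ab) * (C ((y i : ℤ) : Ab) * h i) := by
    push_cast
    rw [C_mul]
    ring
  rw [h1]
  exact mul_mem ⟨C (q : Zb), by simp⟩ (hy i)

/-- **Lefschetz principle.** A system `F` of polynomial equations over the algebraic integers
which is solvable in characteristic `ℓ` for infinitely many `ℓ` is solvable in `ℂ`. -/
theorem exists_complex_solution [Finite σ] (F : Set (MvPolynomial σ Zb))
    (hF : {ℓ : ℕ | ∃ (Ω : Type) (_ : Field Ω) (_ : CharP Ω ℓ) (ψ : Zb →+* Ω) (x : σ → Ω),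
      ∀ f ∈ F, MvPolynomial.eval₂ ψ x f = 0}.Infinite) :
    ∃ x : σ → ℂ, ∀ f ∈ F, MvPolynomial.aeval x f = 0 := by
  classical
  set I : Ideal (MvPolynomial σ Ab) := Ideal.span (MvPolynomial.map toAb '' F) with hI
  by_cases hne : I = ⊤
  · exfalso
    -- `1 = ∑ hᵢ fᵢ`
    have h1 : (1 : MvPolynomial σ Ab) ∈ I := by rw [hne]; trivial
    rw [hI, Ideal.span, Submodule.mem_span_set'] at h1
    obtain ⟨n, h, g, hsum⟩ := h1
    choose f hfF hfg using fun i => (g i).2
    obtain ⟨y, hy0, hy⟩ := exists_int_mul_mem_range_family h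
    choose h' hh' using hy
    -- the identity over `ℤ̄`
    have hid : ∑ i, h' i * f i = C ((y : ℤ) : Zb) := by
      apply MvPolynomial.map_injective toAb toAb_injective
      rw [map_sum, map_C, map_intCast]
      have : ∀ i, MvPolynomial.map toAb (h' i * f i) = C ((y : ℤ) : Ab) * (h i • (g i : MvPolynomial σ Ab)) := by
        intro i
        rw [map_mul, hh' i, hfg i, smul_eq_mul, mul_assoc]
      rw [Finset.sum_congr rfl fun i _ => this i, ← Finset.mul_sum, hsum, mul_one]
    -- evaluate in characteristic `ℓ > |y|`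
    obtain ⟨ℓ, ⟨Ω, _, _, ψ, x, hx⟩, hℓ⟩ := hF.exists_gt y.natAbs
    have hev := congrArg (MvPolynomial.eval₂ ψ x) hid
    rw [MvPolynomial.eval₂_sum, eval₂_C, map_intCast] at hev
    have hz : ∑ i, MvPolynomial.eval₂ ψ x (h' i * f i) = 0 :=
      Finset.sum_eq_zero fun i _ => by rw [eval₂_mul, hx _ (hfF i), mul_zero]
    rw [hz] at hev
    have hdvd : (ℓ : ℤ) ∣ y := (CharP.intCast_eq_zero_iff Ω ℓ y).mp hev.symm
    have := Int.natAbs_dvd_natAbs.mpr hdvd
    rw [Int.natAbs_natCast] at this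
    exact absurd (Nat.le_of_dvd (Int.natAbs_pos.mpr hy0) this) (not_le.mpr hℓ)
  · obtain ⟨m, hm, hIm⟩ := Ideal.exists_le_maximal I hne
    obtain ⟨x, hx⟩ := MvPolynomial.eq_vanishingIdeal_singleton_of_isMaximal (k := Ab) ℂ hm
    refine ⟨x, fun f hf => ?_⟩
    have hmem : MvPolynomial.map toAb f ∈ m := hIm (Ideal.subset_span ⟨f, hf, rfl⟩)
    rw [hx, mem_vanishingIdeal_singleton_iff] at hmem
    rw [MvPolynomial.aeval_def] at hmem ⊢
    rw [MvPolynomial.eval₂_map] at hmem
    exact hmem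

end Fermat.Agent.M48.DSLef9
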