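/-
M48 (S48 = Deligne-Serre), block (DS), leaf (C-red) (helper9): reduction of algebraic integers.

* `toZb B : B.R →+* ℤ̄` and `exists_psi`: the reduction `φ : R → k` of a residual datum extends
  to `ψ : ℤ̄ →+* k̄` (helper8's `HeckeLift8.exists_residue_map`);
* `finite_char_of_ne_zero`: a nonzero algebraic integer is killed by ring homomorphisms into fields
  of only finitely many characteristics; `exists_bound_injOn`;
* `trace_pow_eq`, `det_pow_eq`: trace and determinant of the powers of a `2 × 2` matrix with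
  `tr = x + y`, `det = x y`;
* `exists_roots`: the roots `α, β ∈ ℤ̄` of `X² - a X + e`.
-/
import Mathlib
import Fermat.Agent.M48.DSInterfaces9
import Fermat.Agent.M48.DSLef9
import Fermat.Agent.M48.HeckeLift8

set_option autoImplicit false

open Matrix

namespace Fermat.Agent.M48.DSRed9

open Fermat.Agent.M48.DSInterfaces9 Fermat.Agent.M48.DSLef9

/-! ### Reduction maps on `ℤ̄` -/

section Psi

variable {N : ℕ} {a e : ℕ → ℂ}

/-- The coefficient ring of a `ResBase` inside the algebraic integers. -/
noncomputable def toZb (B : ResBase N a e) : B.R →+* Zb :=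
  B.ι.codRestrict Zb B.int

@[simp] theorem coe_toZb (B : ResBase N a e) (x : B.R) : ((toZb B x : Zb) : ℂ) = B.ι x := rfl

theorem toZb_injective (B : ResBase N a e) : Function.Injective (toZb B) := by
  intro x y h
  apply B.ι_inj
  have := congrArg (fun z : Zb => (z : ℂ)) h
  simpa using this

/-- The reduction `φ` of a residual datum extends to the algebraic integers. -/
theorem exists_psi (B : ResBase N a e) {ℓ : ℕ} (D : ResDatum B ℓ) :
    ∃ ψ : Zb →+* AlgebraicClosure D.k,
      ∀ x : B.R, ψ (toZb B x) = algebraMap D.k (AlgebraicClosure D.k) (D.φ x) := by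
  refine Fermat.Agent.M48.HeckeLift8.exists_residue_map (toZb B) D.φ ?_
  intro x hx
  rw [RingHom.mem_ker] at hx ⊢
  have : x = 0 := toZb_injective B (by rw [hx, map_zero])
  rw [this, map_zero]

end Psi

/-! ### A nonzero algebraic integer dies in finitely many characteristics -/

/-- A nonzero algebraic integer divides a nonzero rational integer in `ℤ̄`. -/
theorem exists_mul_eq_int {z : Zb} (hz : z ≠ 0) : ∃ y : ℤ, y ≠ 0 ∧ ∃ w : Zb, w * z = (y : Zb) := by
  have hz' : toAb z ≠ 0 := fun h => hz (toAb_injective (by rw [h, map_zero]))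
  obtain ⟨y, hy0, w, hw⟩ := exists_int_mul_mem (toAb z)⁻¹
  refine ⟨y, hy0, w, toAb_injective ?_⟩
  rw [map_mul, hw, mul_assoc, inv_mul_cancel₀ hz', mul_one, map_intCast]

theorem finite_char_of_ne_zero {z : Zb} (hz : z ≠ 0) :
    {ℓ : ℕ | ∃ (Ω : Type) (_ : Field Ω) (_ : CharP Ω ℓ) (ψ : Zb →+* Ω), ψ z = 0}.Finite := by
  obtain ⟨y, hy0, w, hw⟩ := exists_mul_eq_int hz
  refine (Set.finite_Iic y.natAbs).subset ?_
  rintro ℓ ⟨Ω, _, _, ψ, hψ⟩
  have h2 := congrArg ψ hw
  rw [map_mul, hψ, mul_zero, map_intCast] at h2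
  have hdvd : (ℓ : ℤ) ∣ y := (CharP.intCast_eq_zero_iff Ω ℓ _).mp h2.symm
  have := Int.natAbs_dvd_natAbs.mpr hdvd
  rw [Int.natAbs_natCast] at this
  exact Nat.le_of_dvd (Int.natAbs_pos.mpr hy0) this

/-- Reduction is injective on a given finite set of algebraic integers in all large
characteristics. -/
theorem exists_bound_injOn (T : Finset Zb) :
    ∃ n : ℕ, ∀ ℓ : ℕ, n < ℓ → ∀ (Ω : Type) [Field Ω] [CharP Ω ℓ] (ψ : Zb →+* Ω),
      Set.InjOn ψ (T : Set Zb) := by
  classical
  have hfin : (⋃ p ∈ ((T ×ˢ T).filter fun p => p.1 ≠ p.2 : Finset (Zb × Zb)),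
      {ℓ : ℕ | ∃ (Ω : Type) (_ : Field Ω) (_ : CharP Ω ℓ) (ψ : Zb →+* Ω),
        ψ (p.1 - p.2) = 0}).Finite := by
    apply Set.Finite.biUnion (Finset.finite_toSet _)
    intro p hp
    rw [Finset.mem_coe, Finset.mem_filter] at hp
    exact finite_char_of_ne_zero (sub_ne_zero.mpr hp.2)
  obtain ⟨n, hn⟩ := hfin.bddAbove
  refine ⟨n, fun ℓ hℓ Ω _ _ ψ x hx y hy hxy => ?_⟩
  by_contra hne
  have : ℓ ≤ n := by
    apply hn
    rw [Set.mem_iUnion₂]
    refine ⟨(x, y), ?_, Ω, inferInstance, inferInstance, ψ, ?_⟩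
    · rw [Finset.mem_filter, Finset.mem_product]
      exact ⟨⟨hx, hy⟩, hne⟩
    · rw [map_sub, hxy, sub_self]
  omega


/-! ### Traces of powers -/

section TracePow

variable {R : Type*} [CommRing R]

theorem mul_self_eq' (A : Matrix (Fin 2) (Fin 2) R) :
    A * A = A.trace • A - A.det • (1 : Matrix (Fin 2) (Fin 2) R) := by
  ext i j
  fin_cases i <;> fin_cases j <;>
    simp [Matrix.mul_apply, Fin.sum_univ_two, Matrix.trace_fin_two, Matrix.det_fin_two] <;> ring

theorem pow_add_two (A : Matrix (Fin 2) (Fin 2) R) (j : ℕ) :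
    A ^ (j + 2) = A.trace • A ^ (j + 1) - A.det • A ^ j := by
  rw [pow_add, pow_two, mul_self_eq', mul_sub, Matrix.mul_smul, Matrix.mul_smul, mul_one,
    ← pow_succ]

/-- If `tr A = x + y` and `det A = x y` then `tr (A ^ j) = x ^ j + y ^ j`. -/
theorem trace_pow_eq (A : Matrix (Fin 2) (Fin 2) R) (x y : R) (ht : A.trace = x + y)
    (hd : A.det = x * y) (j : ℕ) : (A ^ j).trace = x ^ j + y ^ j := by
  induction j using Nat.strong_induction_on with
  | _ j ih =>
    match j with
    | 0 => simp; norm_num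
    | 1 => simpa using ht
    | j + 2 =>
      rw [pow_add_two, Matrix.trace_sub, Matrix.trace_smul, Matrix.trace_smul,
        ih (j + 1) (by omega), ih j (by omega), ht, hd]
      simp only [smul_eq_mul]
      ring

theorem det_pow_eq (A : Matrix (Fin 2) (Fin 2) R) (x y : R) (hd : A.det = x * y) (j : ℕ) :
    (A ^ j).det = (x * y) ^ j := by
  rw [Matrix.det_pow, hd]

/-- A property of ring elements stable under subtraction and multiplication which holds for the
trace and the determinant of `A`, for `2`, holds for the traces of all powers of `A`. -/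
theorem trace_pow_mem (S : Subring R) (A : Matrix (Fin 2) (Fin 2) R) (ht : A.trace ∈ S)
    (hd : A.det ∈ S) (j : ℕ) : (A ^ j).trace ∈ S := by
  induction j using Nat.strong_induction_on with
  | _ j ih =>
    match j with
    | 0 =>
      have : ((1 : Matrix (Fin 2) (Fin 2) R)).trace = ((2 : ℕ) : R) := by
        simp
      rw [pow_zero, this]
      exact natCast_mem S 2
    | 1 => simpa using ht
    | j + 2 =>
      rw [pow_add_two, Matrix.trace_sub, Matrix.trace_smul, Matrix.trace_smul]
      exact S.sub_mem (S.mul_mem ht (ih (j + 1) (by omega))) (S.mul_mem hd (ih j (by omega)))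

end TracePow

/-! ### The roots of `X² - a X + e` in `ℤ̄` -/

/-- For algebraic integers `s`, `p` there are algebraic integers `α`, `β` with `α + β = s` and
`α β = p`. -/
theorem exists_roots (s p : Zb) : ∃ α β : Zb, α + β = s ∧ α * β = p := by
  -- a root of `X² - s X + p` in `ℂ`
  set P : Polynomial ℂ := Polynomial.X ^ 2 - Polynomial.C (s : ℂ) * Polynomial.X +
    Polynomial.C (p : ℂ) with hP
  have hdeg : P.degree ≠ 0 := by
    have : P.degree = 2 := by rw [hP]; compute_degree!
    rw [this]; norm_num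
  obtain ⟨α, hα⟩ := IsAlgClosed.exists_root P hdeg
  have hα' : α ^ 2 - (s : ℂ) * α + (p : ℂ) = 0 := by
    simpa [hP, Polynomial.IsRoot] using hα
  -- `α` is integral
  have hint : IsIntegral ℤ α := by
    have h1 : IsIntegral Zb α := by
      refine ⟨Polynomial.X ^ 2 - Polynomial.C s * Polynomial.X + Polynomial.C p, ?_, ?_⟩
      · have hd : (Polynomial.X ^ 2 - Polynomial.C s * Polynomial.X + Polynomial.C p :
            Polynomial Zb) = Polynomial.X ^ 2 - (Polynomial.C s * Polynomial.X - Polynomial.C p) := by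
          ring
        rw [hd]
        apply Polynomial.monic_X_pow_sub
        compute_degree!
      · simp only [Polynomial.eval₂_add, Polynomial.eval₂_sub, Polynomial.eval₂_pow,
          Polynomial.eval₂_X, Polynomial.eval₂_mul, Polynomial.eval₂_C]
        exact hα'
    exact isIntegral_trans α h1
  refine ⟨⟨α, hint⟩, s - ⟨α, hint⟩, by ring, ?_⟩
  apply Subtype.ext
  push_cast
  show α * ((s : ℂ) - α) = (p : ℂ)
  linear_combination -hα'

end Fermat.Agent.M48.DSRed9
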