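/-
Programme M48 (target S48), block (DS-ALG), leaf (A2) — helper6.  **The abstract Klein count.**

A finite group `G` acts on a finite set `X`; `Z ≤ G` acts trivially and every element outside `Z`
has exactly two fixed points (as for a finite subgroup of `GL₂(k)` of order prime to the
characteristic acting on the eigenlines, `Z` = the scalars).  Then

* some point is fixed by all of `G`, or
* some point has a stabiliser of index `2`, or
* `#G ≤ 60 · #Z`.

(Orbit formula `∑ (1 - 1/eᵢ) = 2 - 2/n`, `n = #G / #Z`, in the integral form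
`∑_ω (n - n/e_ω) = 2 n - 2` over the orbits; no identification of the exceptional groups.)
Mathlib only.
-/
import Mathlib

set_option autoImplicit false

namespace Fermat.Agent.M48.Klein6

/-! ### Arithmetic -/

/-- The case `(2, 3, e)`. -/
theorem aux_two_three {b c n : ℕ} (hb : n = b * 3) (hc : c ∣ n) (h : 2 * c = b + 4) (hb3 : 3 ≤ b) :
    n ≤ 60 := by
  obtain ⟨ec, hec⟩ := hc
  -- `c * ec = 3 b = 6 c - 12`
  have h1 : c * ec + 12 = 6 * c := by
    rw [← hec, hb]; omega
  have hec5 : ec ≤ 5 := by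
    by_contra hcon
    have h6 : 6 ≤ ec := by omega
    have : c * 6 ≤ c * ec := Nat.mul_le_mul_left c h6
    omega
  interval_cases ec <;> omega

/-- The case `(2, e, e')`. -/
theorem aux_two {a b c n : ℕ} (ha : n = a * 2) (hb : b ∣ n) (hc : c ∣ n)
    (hsum : a + b + c = n + 2) (hb3 : 3 ≤ b) (hc3 : 3 ≤ c) (hbn : b < n) (hcn : c < n) :
    n ≤ 60 := by
  obtain ⟨eb, heb⟩ := id hb
  obtain ⟨ec, hec⟩ := id hc
  have heb2 : 2 ≤ eb := by
    by_contra hcon
    have : eb = 0 ∨ eb = 1 := by omega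
    rcases this with rfl | rfl
    · omega
    · omega
  have hec2 : 2 ≤ ec := by
    by_contra hcon
    have : ec = 0 ∨ ec = 1 := by omega
    rcases this with rfl | rfl
    · omega
    · omega
  -- `2 b + 2 c = n + 4`
  have h2 : 2 * b + 2 * c = n + 4 := by omega
  by_cases h4 : 4 ≤ eb ∧ 4 ≤ ec
  · exfalso
    have hb4 : b * 4 ≤ b * eb := Nat.mul_le_mul_left b h4.1
    have hc4 : c * 4 ≤ c * ec := Nat.mul_le_mul_left c h4.2
    omega
  · have : eb = 2 ∨ eb = 3 ∨ ec = 2 ∨ ec = 3 := by omega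
    rcases this with rfl | rfl | rfl | rfl
    · exfalso; omega
    · exact aux_two_three heb hc (by omega) hb3
    · exfalso; omega
    · exact aux_two_three hec hb (by omega) hc3

/-- Three orbit sizes `a, b, c ≥ 3`, proper divisors of `n`, with `a + b + c = n + 2`: `n ≤ 60`. -/
theorem aux_three {a b c n : ℕ} (ha : a ∣ n) (hb : b ∣ n) (hc : c ∣ n)
    (hsum : a + b + c = n + 2) (ha3 : 3 ≤ a) (hb3 : 3 ≤ b) (hc3 : 3 ≤ c)
    (han : a < n) (hbn : b < n) (hcn : c < n) : n ≤ 60 := by
  obtain ⟨ea, hea⟩ := id ha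
  obtain ⟨eb, heb⟩ := id hb
  obtain ⟨ec, hec⟩ := id hc
  have key : ∀ {x e : ℕ}, n = x * e → x < n → 3 ≤ x → 2 ≤ e := by
    intro x e hx hxn hx3
    by_contra hcon
    have : e = 0 ∨ e = 1 := by omega
    rcases this with rfl | rfl <;> omega
  have hea2 := key hea han ha3
  have heb2 := key heb hbn hb3
  have hec2 := key hec hcn hc3
  by_cases h3 : 3 ≤ ea ∧ 3 ≤ eb ∧ 3 ≤ ec
  · exfalso
    have h1 : a * 3 ≤ a * ea := Nat.mul_le_mul_left a h3.1
    have h2 : b * 3 ≤ b * eb := Nat.mul_le_mul_left b h3.2.1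
    have h3' : c * 3 ≤ c * ec := Nat.mul_le_mul_left c h3.2.2
    omega
  · have : ea = 2 ∨ eb = 2 ∨ ec = 2 := by omega
    rcases this with rfl | rfl | rfl
    · exact aux_two hea hb hc hsum hb3 hc3 hbn hcn
    · exact aux_two heb ha hc (by omega) ha3 hc3 han hcn
    · exact aux_two hec ha hb (by omega) ha3 hb3 han hbn

/-- **The arithmetic of the orbit formula.**  Proper divisors `s i` of `n ≥ 2` with
`∑ (n - s i) = 2 n - 2`: some `s i` is `1` or `2`, or `n ≤ 60`. -/
theorem klein_arith {ι : Type*} [Fintype ι] (n : ℕ) (hn : 2 ≤ n) (s : ι → ℕ)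
    (hs : ∀ i, s i ∣ n) (hlt : ∀ i, s i < n) (hsum : ∑ i, (n - s i) = 2 * n - 2) :
    (∃ i, s i = 1) ∨ (∃ i, s i = 2) ∨ n ≤ 60 := by
  classical
  have hpos : ∀ i, 1 ≤ s i := fun i => Nat.pos_of_dvd_of_pos (hs i) (by omega)
  have hhalf : ∀ i, 2 * s i ≤ n := by
    intro i
    obtain ⟨e, he⟩ := hs i
    have h1 := hlt i
    have : 2 ≤ e := by
      by_contra hcon
      have : e = 0 ∨ e = 1 := by omega
      rcases this with rfl | rfl <;> omega
    calc 2 * s i = s i * 2 := by ring
      _ ≤ s i * e := Nat.mul_le_mul_left _ this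
      _ = n := he.symm
  set r := Fintype.card ι with hr
  -- `r n ≤ 2 ∑ (n - s i) = 4 n - 4`
  have h1 : r * n ≤ 2 * ∑ i, (n - s i) := by
    rw [Finset.mul_sum]
    calc r * n = ∑ _i : ι, n := by simp [hr]
      _ ≤ ∑ i, 2 * (n - s i) := Finset.sum_le_sum fun i _ => by have := hhalf i; omega
  have h2 : ∑ i, (n - s i) ≤ r * (n - 1) := by
    calc ∑ i, (n - s i) ≤ ∑ _i : ι, (n - 1) := Finset.sum_le_sum fun i _ => by
          have := hpos i; omega
      _ = r * (n - 1) := by simp [hr]
  have hr3 : r ≤ 3 := by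
    by_contra hcon
    have : 4 * n ≤ r * n := Nat.mul_le_mul_right n (by omega)
    omega
  have hr2 : 2 ≤ r := by
    by_contra hcon
    have : r * (n - 1) ≤ 1 * (n - 1) := Nat.mul_le_mul_right _ (by omega)
    omega
  have hr23 : r = 2 ∨ r = 3 := by omega
  rcases hr23 with h | h
  · -- two orbits
    let e : ι ≃ Fin 2 := Fintype.equivFinOfCardEq (hr ▸ h)
    have hsum' : ∑ j : Fin 2, (n - s (e.symm j)) = 2 * n - 2 := by
      rw [← hsum]
      exact Equiv.sum_comp e.symm fun i => n - s i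
    rw [Fin.sum_univ_two] at hsum'
    left
    refine ⟨e.symm 0, ?_⟩
    have a1 := hpos (e.symm 0); have a2 := hlt (e.symm 0)
    have b1 := hpos (e.symm 1); have b2 := hlt (e.symm 1)
    omega
  · -- three orbits
    let e : ι ≃ Fin 3 := Fintype.equivFinOfCardEq (hr ▸ h)
    have hsum' : ∑ j : Fin 3, (n - s (e.symm j)) = 2 * n - 2 := by
      rw [← hsum]
      exact Equiv.sum_comp e.symm fun i => n - s i
    rw [Fin.sum_univ_three] at hsum'
    have a1 := hpos (e.symm 0); have a2 := hlt (e.symm 0)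
    have b1 := hpos (e.symm 1); have b2 := hlt (e.symm 1)
    have c1 := hpos (e.symm 2); have c2 := hlt (e.symm 2)
    by_cases hsmall : s (e.symm 0) ≤ 2 ∨ s (e.symm 1) ≤ 2 ∨ s (e.symm 2) ≤ 2
    · rcases hsmall with h' | h' | h'
      · have : s (e.symm 0) = 1 ∨ s (e.symm 0) = 2 := by omega
        rcases this with h'' | h''
        · exact Or.inl ⟨_, h''⟩
        · exact Or.inr (Or.inl ⟨_, h''⟩)
      · have : s (e.symm 1) = 1 ∨ s (e.symm 1) = 2 := by omega
        rcases this with h'' | h''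
        · exact Or.inl ⟨_, h''⟩
        · exact Or.inr (Or.inl ⟨_, h''⟩)
      · have : s (e.symm 2) = 1 ∨ s (e.symm 2) = 2 := by omega
        rcases this with h'' | h''
        · exact Or.inl ⟨_, h''⟩
        · exact Or.inr (Or.inl ⟨_, h''⟩)
    · right; right
      simp only [not_or, not_le] at hsmall
      exact aux_three (hs (e.symm 0)) (hs (e.symm 1)) (hs (e.symm 2)) (by omega) (by omega)
        (by omega) (by omega) a2 b2 c2

/-! ### The count -/

open MulAction

/-- **Klein's count.**  `G` finite acting on a finite set `X`, `Z ≤ G` acting trivially, every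
`g ∉ Z` with exactly two fixed points, `Z ≠ G`.  Then some point is fixed by `G`, or some
stabiliser has index `2`, or `#G ≤ 60 · #Z`. -/
theorem klein {G X : Type*} [Group G] [Finite G] [MulAction G X] [Finite X] (Z : Subgroup G)
    (hZ : ∀ g ∈ Z, ∀ x : X, g • x = x)
    (h2 : ∀ g : G, g ∉ Z → Nat.card (fixedBy X g) = 2) (hne : Z ≠ ⊤) :
    (∃ x : X, stabilizer G x = ⊤) ∨ (∃ x : X, (stabilizer G x).index = 2) ∨
      Nat.card G ≤ 60 * Nat.card Z := by
  classical
  let _ : Fintype G := Fintype.ofFinite G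
  let _ : Fintype X := Fintype.ofFinite X
  let _ : Fintype (Quotient (orbitRel G X)) := Fintype.ofFinite _
  set Ω := Quotient (orbitRel G X) with hΩ
  set N := Nat.card G with hN
  set z := Nat.card Z with hz
  have hzpos : 0 < z := Nat.card_pos
  have hNpos : 0 < N := Nat.card_pos
  have hzN : z ∣ N := Subgroup.card_subgroup_dvd_card Z
  obtain ⟨n, hn⟩ := hzN
  -- `n ≥ 2`
  have hn2 : 2 ≤ n := by
    by_contra hcon
    have h01 : n = 0 ∨ n = 1 := by omega
    rcases h01 with rfl | rfl
    · omega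
    · exact hne (Subgroup.eq_top_of_card_eq Z (by rw [← hz, ← hN, hn, mul_one]))
  -- stabilisers contain `Z`
  have hZle : ∀ x : X, Z ≤ stabilizer G x := fun x g hg => hZ g hg x
  -- orbit sizes
  let s : Ω → ℕ := fun ω => (stabilizer G ω.out).index
  have hs_mul : ∀ ω : Ω, s ω * Nat.card (stabilizer G ω.out) = N :=
    fun ω => Subgroup.index_mul_card _
  have hs_dvd : ∀ ω : Ω, s ω ∣ n := by
    intro ω
    obtain ⟨e, he⟩ := Subgroup.card_dvd_of_le (hZle ω.out)
    have h1 := hs_mul ω
    rw [he, ← hz, hn] at h1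
    -- `s * (z * e) = z * n`
    refine ⟨e, ?_⟩
    have : z * (s ω * e) = z * n := by rw [← h1]; ring
    exact (Nat.eq_of_mul_eq_mul_left hzpos this).symm
  have hs_le : ∀ ω : Ω, s ω ≤ n := fun ω => Nat.le_of_dvd (by omega) (hs_dvd ω)
  -- the class formula `#X = ∑ s ω`
  have hX : Nat.card X = ∑ ω : Ω, s ω := by
    rw [Nat.card_congr (selfEquivSigmaOrbits G X), Nat.card_sigma]
    refine Finset.sum_congr rfl fun ω _ => ?_
    rw [Nat.card_coe_set_eq]
    exact (index_stabilizer G ω.out).symm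
  -- Burnside
  have hB : ∑ g : G, Nat.card (fixedBy X g) = Nat.card Ω * N := by
    have := sum_card_fixedBy_eq_card_orbits_mul_card_group G X
    simp only [Nat.card_eq_fintype_card, hN]
    convert this using 2
  have hB' : ∑ g : G, Nat.card (fixedBy X g) = z * Nat.card X + 2 * (N - z) := by
    have hfix : ∀ g : G, Nat.card (fixedBy X g) = if g ∈ Z then Nat.card X else 2 := by
      intro g
      split_ifs with hg
      · have : fixedBy X g = Set.univ := Set.eq_univ_of_forall fun x => hZ g hg x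
        rw [this, Nat.card_coe_set_eq, Set.ncard_univ]
      · exact h2 g hg
    simp_rw [hfix]
    rw [Finset.sum_ite, Finset.sum_const, Finset.sum_const, smul_eq_mul, smul_eq_mul]
    have hc1 : (Finset.univ.filter fun g : G => g ∈ Z).card = z := by
      rw [hz, Nat.card_eq_fintype_card, Fintype.card_subtype]
    have hc2 : (Finset.univ.filter fun g : G => g ∉ Z).card = N - z := by
      have := Finset.card_filter_add_card_filter_not (s := (Finset.univ : Finset G))
        (fun g : G => g ∈ Z)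
      rw [hc1, Finset.card_univ, ← Nat.card_eq_fintype_card, ← hN] at this
      omega
    rw [hc1, hc2]
    ring
  -- hence `∑ (n - s ω) = 2 n - 2`
  have hcardΩ : Nat.card Ω = Fintype.card Ω := Nat.card_eq_fintype_card
  have hmain : ∑ ω : Ω, s ω + 2 * (n - 1) = Fintype.card Ω * n := by
    have h1 : z * (∑ ω : Ω, s ω + 2 * (n - 1)) = z * (Fintype.card Ω * n) := by
      have e1 : 2 * (N - z) = z * (2 * (n - 1)) := by
        obtain ⟨m, hm⟩ : ∃ m, n = m + 1 := ⟨n - 1, by omega⟩
        rw [hn, hm, Nat.add_sub_cancel, Nat.mul_succ, Nat.add_sub_cancel]; ring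
      calc z * (∑ ω : Ω, s ω + 2 * (n - 1)) = z * Nat.card X + 2 * (N - z) := by
            rw [hX, e1]; ring
        _ = Nat.card Ω * N := by rw [← hB', hB]
        _ = z * (Fintype.card Ω * n) := by rw [hcardΩ, hn]; ring
    exact Nat.eq_of_mul_eq_mul_left hzpos h1
  have hsum : ∑ ω : Ω, (n - s ω) = 2 * n - 2 := by
    have h1 : ∑ ω : Ω, (n - s ω) + ∑ ω : Ω, s ω = Fintype.card Ω * n := by
      rw [← Finset.sum_add_distrib]
      calc ∑ ω : Ω, (n - s ω + s ω) = ∑ _ω : Ω, n :=
            Finset.sum_congr rfl fun ω _ => Nat.sub_add_cancel (hs_le ω)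
        _ = Fintype.card Ω * n := by simp
    omega
  -- restrict to the non-regular orbits
  let ι := {ω : Ω // s ω < n}
  have hsumι : ∑ i : ι, (n - s i.1) = 2 * n - 2 := by
    rw [← hsum, ← Finset.sum_subtype (Finset.univ.filter fun ω : Ω => s ω < n) (by simp)
      (fun ω => n - s ω)]
    refine Finset.sum_subset (Finset.filter_subset _ _) fun ω _ hω => ?_
    have : ¬ s ω < n := by simpa using hω
    omega
  rcases klein_arith n hn2 (fun i : ι => s i.1) (fun i => hs_dvd i.1) (fun i => i.2) hsumι with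
    ⟨i, hi⟩ | ⟨i, hi⟩ | h60
  · exact Or.inl ⟨i.1.out, Subgroup.index_eq_one.mp hi⟩
  · exact Or.inr (Or.inl ⟨i.1.out, hi⟩)
  · right; right
    rw [hn, mul_comm z n]
    exact Nat.mul_le_mul_right z h60

end Fermat.Agent.M48.Klein6
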