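/-
Programme M48 (target S48), block (DS-ALG), leaf (A2) — helper6.  **Eigenlines of a finite subgroup
of `GL₂(k)` of order prime to the characteristic.**

`k` an algebraically closed field, `G ≤ GL₂(k)` finite with `(#G : k) ≠ 0`.

* `eq_scalar_of_sq_zero` : `(l + N)^n = 1`, `N² = 0`, `(n : k) ≠ 0` ⇒ `N = 0`;
* `card_fixedBy_eq_two` : a non-scalar `g` of finite order prime to the characteristic has exactly
  two fixed points on `ℙ¹(k)`;
* `commute_of_fixed` : two elements of `G` fixing a common point of `ℙ¹(k)` commute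
  (their commutator is unipotent of order prime to the characteristic);
* `trichotomy_algClosed` : `G` is abelian, or has an abelian subgroup of index `2`, or
  `#G ≤ 60 · #(G ∩ scalars)`  (Klein's count `Klein6.klein` on the set of eigenlines).
Mathlib + `Klein6` only.
-/
import Mathlib
import Fermat.Agent.M48.Klein6

set_option autoImplicit false

open scoped LinearAlgebra.Projectivization MatrixGroups
open Matrix

namespace Fermat.Agent.M48.EigenLine6

variable {k : Type*} [Field k]

/-! ### `2 × 2` matrices -/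

/-- Cayley–Hamilton in dimension two. -/
theorem cayley2 (A : Matrix (Fin 2) (Fin 2) k) :
    A * A - A.trace • A + A.det • (1 : Matrix (Fin 2) (Fin 2) k) = 0 := by
  ext i j
  fin_cases i <;> fin_cases j <;>
    simp [Matrix.mul_apply, Fin.sum_univ_two, Matrix.trace_fin_two, Matrix.det_fin_two] <;> ring

/-- `(A - l)(A - m) = 0` when `l + m = tr A`, `l m = det A`. -/
theorem factor2 (A : Matrix (Fin 2) (Fin 2) k) {l m : k} (h1 : l + m = A.trace)
    (h2 : l * m = A.det) :
    (A - l • (1 : Matrix (Fin 2) (Fin 2) k)) * (A - m • (1 : Matrix (Fin 2) (Fin 2) k)) = 0 := by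
  rw [Matrix.trace_fin_two] at h1
  rw [Matrix.det_fin_two] at h2
  ext i j
  fin_cases i <;> fin_cases j <;> simp [Matrix.mul_apply, Fin.sum_univ_two]
  · linear_combination (-(A 0 0)) * h1 + h2
  · linear_combination (-(A 0 1)) * h1
  · linear_combination (-(A 1 0)) * h1
  · linear_combination (-(A 1 1)) * h1 + h2

/-- Over an algebraically closed field the characteristic polynomial of a `2 × 2` matrix has two
roots `l`, `m` with `l + m = tr`, `l m = det`. -/
theorem exists_roots [IsAlgClosed k] (A : Matrix (Fin 2) (Fin 2) k) :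
    ∃ l m : k, l + m = A.trace ∧ l * m = A.det := by
  classical
  let p : Polynomial k := Polynomial.X ^ 2 - Polynomial.C A.trace * Polynomial.X + Polynomial.C A.det
  have hdeg : p.degree ≠ 0 := by
    have : p.degree = 2 := by
      have h1 : (Polynomial.C A.trace * Polynomial.X : Polynomial k).degree ≤ 1 :=
        (Polynomial.degree_C_mul_X_le _)
      have h2 : (Polynomial.X ^ 2 - Polynomial.C A.trace * Polynomial.X : Polynomial k).degree = 2 := by
        rw [Polynomial.degree_sub_eq_left_of_degree_lt] <;> rw [Polynomial.degree_X_pow]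
        · rfl
        · exact lt_of_le_of_lt h1 (by norm_num)
      show (Polynomial.X ^ 2 - Polynomial.C A.trace * Polynomial.X + Polynomial.C A.det).degree = 2
      rw [Polynomial.degree_add_eq_left_of_degree_lt, h2]
      rw [h2]
      exact lt_of_le_of_lt Polynomial.degree_C_le (by norm_num)
    rw [this]
    norm_num
  obtain ⟨l, hl⟩ := IsAlgClosed.exists_root p hdeg
  have hl' : l ^ 2 - A.trace * l + A.det = 0 := by
    simpa [p, Polynomial.IsRoot.def] using hl
  refine ⟨l, A.trace - l, by ring, ?_⟩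
  linear_combination (-1 : k) * hl'

/-- `(l + N)^n = l^n + n l^(n-1) N` when `N² = 0`. -/
theorem add_pow_of_sq_zero (l : k) {N : Matrix (Fin 2) (Fin 2) k} (hN : N * N = 0) (n : ℕ) :
    (l • (1 : Matrix (Fin 2) (Fin 2) k) + N) ^ n =
      (l ^ n) • (1 : Matrix (Fin 2) (Fin 2) k) + ((n : k) * l ^ (n - 1)) • N := by
  induction n with
  | zero => simp
  | succ n ih =>
    rw [pow_succ, ih]
    have e : l * ((n : k) * l ^ (n - 1)) = (n : k) * l ^ n := by
      cases n with
      | zero => simp
      | succ m => simp [pow_succ]; ring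
    simp only [add_mul, mul_add, smul_mul_assoc, mul_smul_comm, one_mul, mul_one, hN, smul_zero,
      add_zero]
    rw [smul_add, smul_smul, smul_smul, e, add_assoc, ← add_smul, Nat.add_sub_cancel]
    congr 2
    · ring
    · push_cast; ring

/-- **Unipotent of order prime to the characteristic is trivial**: `N² = 0`, `(l + N)^n = 1`,
`(n : k) ≠ 0` ⇒ `N = 0`. -/
theorem eq_zero_of_sq_zero (l : k) {N : Matrix (Fin 2) (Fin 2) k} (hN : N * N = 0) {n : ℕ}
    (hn : (n : k) ≠ 0) (h : (l • (1 : Matrix (Fin 2) (Fin 2) k) + N) ^ n = 1) : N = 0 := by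
  rw [add_pow_of_sq_zero l hN] at h
  by_contra hN0
  -- multiply by `N`
  have h1 : (l ^ n) • N = N := by
    have := congrArg (fun X => X * N) h
    simpa [add_mul, smul_mul_assoc, hN] using this
  have hl : l ^ n = 1 := by
    have : (l ^ n - 1) • N = 0 := by rw [sub_smul, h1, one_smul, sub_self]
    rcases smul_eq_zero.mp this with h0 | h0
    · exact sub_eq_zero.mp h0
    · exact absurd h0 hN0
  rw [hl, one_smul, add_eq_left] at h
  rcases smul_eq_zero.mp h with h0 | h0
  · have hl0 : l ≠ 0 := by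
      rintro rfl
      have hn0 : n ≠ 0 := by rintro rfl; simp at hn
      rw [zero_pow hn0] at hl
      exact zero_ne_one hl
    exact (mul_ne_zero hn (pow_ne_zero _ hl0)) h0
  · exact hN0 h0

/-! ### Eigenvectors -/

/-- Two eigenvectors of a non-scalar `2 × 2` matrix for the same eigenvalue are proportional. -/
theorem exists_smul_eq_of_eig {A : Matrix (Fin 2) (Fin 2) k} {a : k}
    (hA : A ≠ a • (1 : Matrix (Fin 2) (Fin 2) k)) {v v' : Fin 2 → k} (hv : A *ᵥ v = a • v)
    (hv' : A *ᵥ v' = a • v') (hv'0 : v' ≠ 0) : ∃ c : k, c • v' = v := by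
  by_contra hcon
  push Not at hcon
  apply hA
  have hli : LinearIndependent k ![v, v'] := by
    rw [linearIndependent_fin2]
    exact ⟨by simpa using hv'0, fun c => by simpa using hcon c⟩
  have hspan : Submodule.span k (Set.range ![v, v']) = ⊤ :=
    hli.span_eq_top_of_card_eq_finrank' (by simp)
  have hlin : Matrix.toLin' A = Matrix.toLin' (a • (1 : Matrix (Fin 2) (Fin 2) k)) := by
    refine LinearMap.ext_on hspan ?_
    rintro _ ⟨i, rfl⟩
    fin_cases i
    · simpa [Matrix.toLin'_apply, Matrix.smul_mulVec] using hv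
    · simpa [Matrix.toLin'_apply, Matrix.smul_mulVec] using hv'
  exact Matrix.toLin'.injective hlin

/-- A nonzero `2 × 2` matrix has a nonzero column. -/
theorem exists_mulVec_single_ne_zero {B : Matrix (Fin 2) (Fin 2) k} (hB : B ≠ 0) :
    ∃ j : Fin 2, B *ᵥ Pi.single j 1 ≠ 0 := by
  by_contra hcon
  push Not at hcon
  apply hB
  ext i j
  have := congrFun (hcon j) i
  rwa [Matrix.mulVec_single_one] at this

/-- A point `[v]` of `ℙ¹` is fixed by `g` iff `v` is an eigenvector. -/
theorem smul_mk_eq_iff (g : GL (Fin 2) k) (v : Fin 2 → k) (hv : v ≠ 0) :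
    g • Projectivization.mk k v hv = Projectivization.mk k v hv ↔
      ∃ a : k, (g : Matrix (Fin 2) (Fin 2) k) *ᵥ v = a • v := by
  rw [Projectivization.smul_mk, Projectivization.mk_eq_mk_iff]
  constructor
  · rintro ⟨a, ha⟩
    exact ⟨(a : k), ha.symm⟩
  · rintro ⟨a, ha⟩
    have ha0 : a ≠ 0 := by
      rintro rfl
      rw [zero_smul] at ha
      have h1 : g⁻¹ • (g • v) = v := inv_smul_smul g v
      have h2 : g • v = 0 := ha
      rw [h2, smul_zero] at h1
      exact hv h1.symm
    exact ⟨Units.mk0 a ha0, ha.symm⟩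

/-- **A non-scalar element of finite order prime to the characteristic has exactly two fixed
points on `ℙ¹(k)`**, `k` algebraically closed. -/
theorem card_fixedBy_eq_two [IsAlgClosed k] (g : GL (Fin 2) k)
    (hg : g ∉ Subgroup.center (GL (Fin 2) k)) {n : ℕ} (hn : (n : k) ≠ 0) (hgn : g ^ n = 1) :
    Nat.card (MulAction.fixedBy (ℙ k (Fin 2 → k)) g) = 2 := by
  classical
  set A : Matrix (Fin 2) (Fin 2) k := (g : Matrix (Fin 2) (Fin 2) k) with hA
  have hsc : ∀ a : k, A ≠ a • (1 : Matrix (Fin 2) (Fin 2) k) := by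
    intro a ha
    apply hg
    rw [Matrix.GeneralLinearGroup.mem_center_iff_val_mem_range_scalar]
    refine ⟨a, ?_⟩
    rw [← hA, ha]
    ext i j
    simp [Matrix.scalar_apply, Matrix.diagonal_apply, Matrix.one_apply]
  have hAn : A ^ n = 1 := by
    have := congrArg (fun u : GL (Fin 2) k => (u : Matrix (Fin 2) (Fin 2) k)) hgn
    simpa using this
  obtain ⟨l, m, h1, h2⟩ := exists_roots A
  have hF := factor2 A h1 h2
  have hF' := factor2 A (l := m) (m := l) (by rw [add_comm]; exact h1) (by rw [mul_comm]; exact h2)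
  have hlm : l ≠ m := by
    rintro rfl
    have hN := eq_zero_of_sq_zero l hF hn (by simpa using hAn)
    exact hsc l (sub_eq_zero.mp hN)
  -- the two eigenvectors
  obtain ⟨j₁, hj₁⟩ := exists_mulVec_single_ne_zero (sub_ne_zero.mpr (hsc m))
  obtain ⟨j₂, hj₂⟩ := exists_mulVec_single_ne_zero (sub_ne_zero.mpr (hsc l))
  set v₁ : Fin 2 → k := (A - m • (1 : Matrix (Fin 2) (Fin 2) k)) *ᵥ Pi.single j₁ 1 with hv₁
  set v₂ : Fin 2 → k := (A - l • (1 : Matrix (Fin 2) (Fin 2) k)) *ᵥ Pi.single j₂ 1 with hv₂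
  have e₁ : A *ᵥ v₁ = l • v₁ := by
    have : (A - l • (1 : Matrix (Fin 2) (Fin 2) k)) *ᵥ v₁ = 0 := by
      rw [hv₁, Matrix.mulVec_mulVec, hF, Matrix.zero_mulVec]
    rw [Matrix.sub_mulVec, Matrix.smul_mulVec, Matrix.one_mulVec, sub_eq_zero] at this
    exact this
  have e₂ : A *ᵥ v₂ = m • v₂ := by
    have : (A - m • (1 : Matrix (Fin 2) (Fin 2) k)) *ᵥ v₂ = 0 := by
      rw [hv₂, Matrix.mulVec_mulVec, hF', Matrix.zero_mulVec]
    rw [Matrix.sub_mulVec, Matrix.smul_mulVec, Matrix.one_mulVec, sub_eq_zero] at this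
    exact this
  set x₁ : ℙ k (Fin 2 → k) := Projectivization.mk k v₁ hj₁ with hx₁
  set x₂ : ℙ k (Fin 2 → k) := Projectivization.mk k v₂ hj₂ with hx₂
  have hx₁₂ : x₁ ≠ x₂ := by
    intro h
    rw [hx₁, hx₂, Projectivization.mk_eq_mk_iff] at h
    obtain ⟨a, ha⟩ := h
    have : l • v₁ = m • v₁ := by
      rw [← e₁, ← ha, Units.smul_def, Matrix.mulVec_smul, e₂, smul_comm]
    have : (l - m) • v₁ = 0 := by rw [sub_smul, this, sub_self]
    rcases smul_eq_zero.mp this with h0 | h0
    · exact hlm (sub_eq_zero.mp h0)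
    · exact hj₁ h0
  have hfix : MulAction.fixedBy (ℙ k (Fin 2 → k)) g = {x₁, x₂} := by
    ext x
    simp only [MulAction.mem_fixedBy, Set.mem_insert_iff, Set.mem_singleton_iff]
    constructor
    · induction x using Projectivization.ind with
      | h v hv =>
        intro hx
        obtain ⟨a, ha⟩ := (smul_mk_eq_iff g v hv).mp hx
        -- `a = l` or `a = m`
        have h0 : ((a - l) * (a - m)) • v = 0 := by
          have : ((A - l • (1 : Matrix (Fin 2) (Fin 2) k)) *
              (A - m • (1 : Matrix (Fin 2) (Fin 2) k))) *ᵥ v = 0 := by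
            rw [hF, Matrix.zero_mulVec]
          rw [← Matrix.mulVec_mulVec] at this
          have e : (A - m • (1 : Matrix (Fin 2) (Fin 2) k)) *ᵥ v = (a - m) • v := by
            rw [Matrix.sub_mulVec, Matrix.smul_mulVec, Matrix.one_mulVec, sub_smul]
            rw [show A *ᵥ v = a • v from ha]
          rw [e, Matrix.mulVec_smul, Matrix.sub_mulVec, Matrix.smul_mulVec, Matrix.one_mulVec,
            show A *ᵥ v = a • v from ha, ← sub_smul, smul_smul, mul_comm] at this
          exact this
        rcases smul_eq_zero.mp h0 with h0 | h0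
        · rcases mul_eq_zero.mp h0 with h0 | h0
          · left
            have hal : a = l := sub_eq_zero.mp h0
            obtain ⟨c, hc⟩ := exists_smul_eq_of_eig (hsc l) (hal ▸ ha) e₁ hj₁
            have hc0 : c ≠ 0 := by
              rintro rfl
              rw [zero_smul] at hc
              exact hv hc.symm
            rw [hx₁, Projectivization.mk_eq_mk_iff]
            exact ⟨Units.mk0 c hc0, hc⟩
          · right
            have hal : a = m := sub_eq_zero.mp h0
            obtain ⟨c, hc⟩ := exists_smul_eq_of_eig (hsc m) (hal ▸ ha) e₂ hj₂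
            have hc0 : c ≠ 0 := by
              rintro rfl
              rw [zero_smul] at hc
              exact hv hc.symm
            rw [hx₂, Projectivization.mk_eq_mk_iff]
            exact ⟨Units.mk0 c hc0, hc⟩
        · exact absurd h0 hv
    · rintro (rfl | rfl)
      · exact (smul_mk_eq_iff g v₁ hj₁).mpr ⟨l, e₁⟩
      · exact (smul_mk_eq_iff g v₂ hj₂).mpr ⟨m, e₂⟩
  rw [hfix, Nat.card_coe_set_eq, Set.ncard_pair hx₁₂]

/-! ### Point stabilisers are abelian -/

/-- An eigenvector of `g` is an eigenvector of `g⁻¹`. -/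
theorem inv_smul_eq_of_smul_eq {g : GL (Fin 2) k} {v : Fin 2 → k} {a : k} (ha : a ≠ 0)
    (h : g • v = a • v) : g⁻¹ • v = a⁻¹ • v := by
  have h1 : g⁻¹ • (g • v) = v := inv_smul_smul g v
  rw [h, smul_comm] at h1
  rw [← h1, smul_smul, inv_mul_cancel₀ ha, one_smul, h1]

/-- **Two elements fixing a common point of `ℙ¹` commute**, provided their commutator has finite
order prime to the characteristic. -/
theorem commute_of_fixed (g h : GL (Fin 2) k) (x : ℙ k (Fin 2 → k)) (hgx : g • x = x)
    (hhx : h • x = x) {n : ℕ} (hn : (n : k) ≠ 0) (hc : (g * h * g⁻¹ * h⁻¹) ^ n = 1) :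
    g * h = h * g := by
  induction x using Projectivization.ind with
  | h v hv =>
    rw [Projectivization.smul_mk, Projectivization.mk_eq_mk_iff] at hgx hhx
    obtain ⟨a, ha⟩ := hgx
    obtain ⟨b, hb⟩ := hhx
    have ha' : g • v = (a : k) • v := ha.symm
    have hb' : h • v = (b : k) • v := hb.symm
    have hai := inv_smul_eq_of_smul_eq a.ne_zero ha'
    have hbi := inv_smul_eq_of_smul_eq b.ne_zero hb'
    set c : GL (Fin 2) k := g * h * g⁻¹ * h⁻¹ with hcdef
    set C : Matrix (Fin 2) (Fin 2) k := (c : Matrix (Fin 2) (Fin 2) k) with hC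
    -- `c v = v`
    have hcv : c • v = v := by
      have s1 : g⁻¹ • h⁻¹ • v = ((b : k)⁻¹ * (a : k)⁻¹) • v := by
        rw [hbi, smul_comm g⁻¹ ((b : k)⁻¹) v, hai, smul_smul]
      have s2 : h • g⁻¹ • h⁻¹ • v = ((b : k)⁻¹ * (a : k)⁻¹ * (b : k)) • v := by
        rw [s1, smul_comm h ((b : k)⁻¹ * (a : k)⁻¹) v, hb', smul_smul]
      have s3 : g • h • g⁻¹ • h⁻¹ • v = ((b : k)⁻¹ * (a : k)⁻¹ * (b : k) * (a : k)) • v := by
        rw [s2, smul_comm g ((b : k)⁻¹ * (a : k)⁻¹ * (b : k)) v, ha', smul_smul]
      have e : (b : k)⁻¹ * (a : k)⁻¹ * (b : k) * (a : k) = 1 := by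
        have h1 : (a : k) ≠ 0 := a.ne_zero
        have h2 : (b : k) ≠ 0 := b.ne_zero
        field_simp
      rw [hcdef, mul_smul, mul_smul, mul_smul, s3, e, one_smul]
    have hCv : C *ᵥ v = v := hcv
    -- `det C = 1`
    have hdet : C.det = 1 := by
      have h1 : Matrix.GeneralLinearGroup.det c = 1 := by
        rw [hcdef, map_mul, map_mul, map_mul, map_inv, map_inv]
        rw [mul_comm (Matrix.GeneralLinearGroup.det g) _, mul_assoc, mul_assoc]
        simp
      have := congrArg (fun u : kˣ => (u : k)) h1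
      simpa using this
    -- `tr C = 2`
    have hdet0 : (C - 1).det = 0 := by
      rw [← Matrix.exists_mulVec_eq_zero_iff]
      exact ⟨v, hv, by rw [Matrix.sub_mulVec, hCv, Matrix.one_mulVec, sub_self]⟩
    have htr : C.trace = 2 := by
      rw [Matrix.det_fin_two] at hdet0 hdet
      rw [Matrix.trace_fin_two]
      simp only [Matrix.sub_apply, Matrix.one_apply_eq, Matrix.one_apply_ne, ne_eq, Fin.isValue,
        zero_ne_one, one_ne_zero, not_false_eq_true, sub_zero] at hdet0
      linear_combination hdet - hdet0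
    have hF := factor2 C (l := 1) (m := 1) (by rw [htr]; norm_num) (by rw [hdet]; norm_num)
    have hCn : C ^ n = 1 := by
      have := congrArg (fun u : GL (Fin 2) k => (u : Matrix (Fin 2) (Fin 2) k)) hc
      simpa using this
    have hN := eq_zero_of_sq_zero (1 : k) hF hn (by simpa using hCn)
    have hC1 : C = 1 := by
      rw [one_smul] at hN
      exact sub_eq_zero.mp hN
    have hc1 : c = 1 := Units.ext hC1
    rw [hcdef, mul_inv_eq_one, mul_inv_eq_iff_eq_mul] at hc1
    exact hc1

/-! ### The trichotomy over an algebraically closed field -/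

/-- Scalars fix every point of `ℙ¹`. -/
theorem smul_eq_of_mem_center {g : GL (Fin 2) k} (hg : g ∈ Subgroup.center (GL (Fin 2) k))
    (x : ℙ k (Fin 2 → k)) : g • x = x := by
  induction x using Projectivization.ind with
  | h v hv =>
    rw [smul_mk_eq_iff]
    obtain ⟨a, ha⟩ := Matrix.GeneralLinearGroup.mem_center_iff_val_mem_range_scalar.mp hg
    refine ⟨a, ?_⟩
    rw [← ha]
    ext i
    simp [Matrix.scalar_apply, Matrix.mulVec_diagonal]

/-- The set of eigenlines of the non-scalar elements of `G`, as a `G`-set. -/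
def eigenLines (G : Subgroup (GL (Fin 2) k)) : SubMulAction ↥G (ℙ k (Fin 2 → k)) where
  carrier := {x | ∃ g : ↥G, (g : GL (Fin 2) k) ∉ Subgroup.center (GL (Fin 2) k) ∧ g • x = x}
  smul_mem' := by
    rintro c x ⟨g, hg, hgx⟩
    refine ⟨c * g * c⁻¹, ?_, ?_⟩
    · intro hcon
      apply hg
      have := (Subgroup.center (GL (Fin 2) k)).normal_of_characteristic.conj_mem _ hcon
        ((c : GL (Fin 2) k)⁻¹)
      simpa [mul_assoc] using this
    · rw [mul_smul, mul_smul, inv_smul_smul, hgx]

theorem mem_eigenLines {G : Subgroup (GL (Fin 2) k)} {x : ℙ k (Fin 2 → k)} :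
    x ∈ eigenLines G ↔
      ∃ g : ↥G, (g : GL (Fin 2) k) ∉ Subgroup.center (GL (Fin 2) k) ∧ g • x = x := Iff.rfl

/-- **Klein's trichotomy** for a finite subgroup of `GL₂(k)` of order prime to the characteristic,
`k` algebraically closed: abelian, or an abelian subgroup of index two, or at most `60` modulo
scalars. -/
theorem trichotomy_algClosed [IsAlgClosed k] (G : Subgroup (GL (Fin 2) k)) [Finite G]
    (hchar : (Nat.card G : k) ≠ 0) :
    (∀ g ∈ G, ∀ h ∈ G, g * h = h * g) ∨
      (∃ G' : Subgroup (GL (Fin 2) k), G' ≤ G ∧ (∀ g ∈ G', ∀ h ∈ G', g * h = h * g) ∧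
        2 * Nat.card G' = Nat.card G) ∨
      Nat.card G ≤ 60 * Nat.card ↥(G ⊓ Subgroup.center (GL (Fin 2) k)) := by
  classical
  set Zc := Subgroup.center (GL (Fin 2) k) with hZc
  -- every element of `G` has order dividing `#G`
  have hpow : ∀ u ∈ G, u ^ Nat.card G = 1 := by
    intro u hu
    have := pow_card_eq_one' (G := ↥G) (x := ⟨u, hu⟩)
    exact congrArg Subtype.val this
  have hcomm : ∀ (x : ℙ k (Fin 2 → k)), ∀ g ∈ G, ∀ h ∈ G, g • x = x → h • x = x →
      g * h = h * g := by
    intro x g hg h hh hgx hhx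
    refine commute_of_fixed g h x hgx hhx hchar (hpow _ ?_)
    exact G.mul_mem (G.mul_mem (G.mul_mem hg hh) (G.inv_mem hg)) (G.inv_mem hh)
  by_cases hall : ∀ g ∈ G, g ∈ Zc
  · left
    intro g hg h _
    exact (Subgroup.mem_center_iff.mp (hall g hg) h).symm
  push Not at hall
  obtain ⟨g₀, hg₀G, hg₀⟩ := hall
  -- the `G`-set of eigenlines is finite
  have hfin : Finite ↥(eigenLines G) := by
    have hsub : (eigenLines G).carrier ⊆
        ⋃ g : {g : ↥G // (g : GL (Fin 2) k) ∉ Zc},
          MulAction.fixedBy (ℙ k (Fin 2 → k)) ((g : ↥G) : GL (Fin 2) k) := by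
      rintro x ⟨g, hg, hgx⟩
      exact Set.mem_iUnion.mpr ⟨⟨g, hg⟩, hgx⟩
    have hU : (⋃ g : {g : ↥G // (g : GL (Fin 2) k) ∉ Zc},
          MulAction.fixedBy (ℙ k (Fin 2 → k)) ((g : ↥G) : GL (Fin 2) k)).Finite := by
      refine Set.finite_iUnion fun g => ?_
      have h2 := card_fixedBy_eq_two ((g : ↥G) : GL (Fin 2) k) g.2 hchar (hpow _ (g : ↥G).2)
      exact Set.finite_coe_iff.mp (Nat.finite_of_card_ne_zero (by rw [h2]; norm_num))
    exact Set.finite_coe_iff.mpr (hU.subset hsub)
  -- the subgroup of scalars of `G`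
  set Z : Subgroup ↥G := Zc.subgroupOf G with hZ
  have hZfix : ∀ g ∈ Z, ∀ x : ↥(eigenLines G), g • x = x := by
    intro g hg x
    apply Subtype.ext
    show (g : GL (Fin 2) k) • (x : ℙ k (Fin 2 → k)) = x
    exact smul_eq_of_mem_center (Subgroup.mem_subgroupOf.mp hg) _
  have h2 : ∀ g : ↥G, g ∉ Z → Nat.card (MulAction.fixedBy ↥(eigenLines G) g) = 2 := by
    intro g hg
    have hg' : (g : GL (Fin 2) k) ∉ Zc := fun h => hg (Subgroup.mem_subgroupOf.mpr h)
    refine Eq.trans (Nat.card_congr ?_) (card_fixedBy_eq_two (g : GL (Fin 2) k) hg' hchar (hpow _ g.2))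
    refine
      { toFun := fun x => ⟨(x.1 : ℙ k (Fin 2 → k)), ?_⟩
        invFun := fun x => ⟨⟨x.1, ⟨g, hg', x.2⟩⟩, ?_⟩
        left_inv := fun x => rfl
        right_inv := fun x => rfl }
    · have := x.2
      rw [MulAction.mem_fixedBy] at this ⊢
      exact congrArg Subtype.val this
    · rw [MulAction.mem_fixedBy]
      apply Subtype.ext
      exact x.2
  have hne : Z ≠ ⊤ := by
    intro h
    have : (⟨g₀, hg₀G⟩ : ↥G) ∈ Z := by rw [h]; exact Subgroup.mem_top _
    exact hg₀ (Subgroup.mem_subgroupOf.mp this)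
  rcases Klein6.klein Z hZfix h2 hne with ⟨x, hx⟩ | ⟨x, hx⟩ | h60
  · -- a common eigenline
    left
    intro g hg h hh
    have hgx : (⟨g, hg⟩ : ↥G) ∈ MulAction.stabilizer ↥G x := by rw [hx]; exact Subgroup.mem_top _
    have hhx : (⟨h, hh⟩ : ↥G) ∈ MulAction.stabilizer ↥G x := by rw [hx]; exact Subgroup.mem_top _
    rw [MulAction.mem_stabilizer_iff] at hgx hhx
    exact hcomm (x : ℙ k (Fin 2 → k)) g hg h hh (congrArg Subtype.val hgx)
      (congrArg Subtype.val hhx)
  · -- a stabiliser of index two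
    right; left
    set S := MulAction.stabilizer ↥G x with hS
    refine ⟨S.map G.subtype, Subgroup.map_subtype_le S, ?_, ?_⟩
    · rintro _ ⟨g, hg, rfl⟩ _ ⟨h, hh, rfl⟩
      rw [SetLike.mem_coe, hS, MulAction.mem_stabilizer_iff] at hg hh
      exact hcomm (x : ℙ k (Fin 2 → k)) g g.2 h h.2 (congrArg Subtype.val hg)
        (congrArg Subtype.val hh)
    · have h1 := Subgroup.index_mul_card S
      rw [hx] at h1
      rw [Subgroup.card_map_of_injective G.subtype_injective]
      exact h1
  · right; right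
    refine h60.trans (le_of_eq ?_)
    congr 1
    rw [hZ, ← Subgroup.inf_subgroupOf_left Zc G]
    exact Nat.card_congr (Subgroup.subgroupOfEquivOfLe inf_le_left).toEquiv

end Fermat.Agent.M48.EigenLine6
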