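/-
Programme M48 (target S48), block (DS-ALG), leaf (A2) — helper6.  **Semisimple subgroups of
`GL₂(𝔽_ℓ)` of order divisible by `ℓ` contain `SL₂(𝔽_ℓ)`.**

* `mem_of_det_eq_one` : a subgroup of `GL₂(ZMod ℓ)` containing `[[1, α], [0, 1]]` and
  `[[1, 0], [β, 1]]` with `α, β ≠ 0` contains every element of determinant `1`
  (the prime field is generated additively by `α`; explicit `2 × 2` factorisation);
* `sl_le_of_dvd_card` : `G ≤ GL₂(ZMod ℓ)` with `ℓ ∣ #G` such that every `G`-stable subspace has a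
  `G`-stable complement contains every element of determinant `1`
  (Cauchy ⇒ an element `u` of order `ℓ`, `(u - 1)² = 0`; its line is not `G`-stable; a conjugate
  gives a second transvection with a different line).
Mathlib + `EigenLine6` (two small `2 × 2` lemmas) only.
-/
import Mathlib
import Fermat.Agent.M48.EigenLine6

set_option autoImplicit false

open scoped MatrixGroups
open Matrix

namespace Fermat.Agent.M48.Transvec6

variable {F : Type*} [Field F]

/-! ### Elementary matrices in `GL₂` -/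

/-- `[[1, x], [0, 1]]`. -/
def upper (x : F) : GL (Fin 2) F :=
  Matrix.GeneralLinearGroup.mkOfDetNeZero !![1, x; 0, 1] (by simp [Matrix.det_fin_two])

/-- `[[1, 0], [y, 1]]`. -/
def lower (y : F) : GL (Fin 2) F :=
  Matrix.GeneralLinearGroup.mkOfDetNeZero !![1, 0; y, 1] (by simp [Matrix.det_fin_two])

@[simp] theorem coe_upper (x : F) : (upper x : Matrix (Fin 2) (Fin 2) F) = !![1, x; 0, 1] := rfl

@[simp] theorem coe_lower (y : F) : (lower y : Matrix (Fin 2) (Fin 2) F) = !![1, 0; y, 1] := rfl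

theorem upper_mul (x y : F) : upper x * upper y = upper (x + y) := by
  apply Units.ext
  rw [Units.val_mul, coe_upper, coe_upper, coe_upper]
  ext i j
  fin_cases i <;> fin_cases j <;> simp [Matrix.mul_apply, Fin.sum_univ_two, add_comm]

theorem lower_mul (x y : F) : lower x * lower y = lower (x + y) := by
  apply Units.ext
  rw [Units.val_mul, coe_lower, coe_lower, coe_lower]
  ext i j
  fin_cases i <;> fin_cases j <;> simp [Matrix.mul_apply, Fin.sum_univ_two]

theorem upper_zero : upper (0 : F) = 1 := by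
  apply Units.ext
  rw [coe_upper]
  ext i j
  fin_cases i <;> fin_cases j <;> simp

theorem lower_zero : lower (0 : F) = 1 := by
  apply Units.ext
  rw [coe_lower]
  ext i j
  fin_cases i <;> fin_cases j <;> simp

theorem upper_pow (x : F) (n : ℕ) : upper x ^ n = upper (n * x) := by
  induction n with
  | zero => simp [upper_zero]
  | succ n ih => rw [pow_succ, ih, upper_mul]; congr 1; push_cast; ring

theorem lower_pow (x : F) (n : ℕ) : lower x ^ n = lower (n * x) := by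
  induction n with
  | zero => simp [lower_zero]
  | succ n ih => rw [pow_succ, ih, lower_mul]; congr 1; push_cast; ring

/-- The factorisation of a matrix of determinant one with nonzero lower left entry. -/
theorem eq_upper_lower_upper (g : GL (Fin 2) F) (hdet : (g : Matrix (Fin 2) (Fin 2) F).det = 1)
    (hc : (g : Matrix (Fin 2) (Fin 2) F) 1 0 ≠ 0) :
    g = upper (((g : Matrix (Fin 2) (Fin 2) F) 0 0 - 1) / (g : Matrix (Fin 2) (Fin 2) F) 1 0) *
      lower ((g : Matrix (Fin 2) (Fin 2) F) 1 0) *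
      upper (((g : Matrix (Fin 2) (Fin 2) F) 1 1 - 1) / (g : Matrix (Fin 2) (Fin 2) F) 1 0) := by
  apply Units.ext
  rw [Units.val_mul, Units.val_mul, coe_upper, coe_lower, coe_upper]
  rw [Matrix.det_fin_two] at hdet
  set A := (g : Matrix (Fin 2) (Fin 2) F) with hA
  ext i j
  fin_cases i <;> fin_cases j <;> simp [Matrix.mul_apply, Fin.sum_univ_two]
  · field_simp
    ring
  · field_simp
    linear_combination (-1 : F) * hdet
  · field_simp
    ring

/-! ### Generation of `SL₂` of the prime field -/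

section Prime

variable {ℓ : ℕ} [Fact ℓ.Prime]

theorem det_upper (x : F) : (upper x : Matrix (Fin 2) (Fin 2) F).det = 1 := by
  simp [Matrix.det_fin_two]

theorem det_lower (x : F) : (lower x : Matrix (Fin 2) (Fin 2) F).det = 1 := by
  simp [Matrix.det_fin_two]

/-- **Two opposite transvections generate `SL₂` of the prime field.** -/
theorem mem_of_det_eq_one (H : Subgroup (GL (Fin 2) (ZMod ℓ))) {α β : ZMod ℓ} (hα : α ≠ 0)
    (hβ : β ≠ 0) (hu : upper α ∈ H) (hl : lower β ∈ H) (g : GL (Fin 2) (ZMod ℓ))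
    (hdet : (g : Matrix (Fin 2) (Fin 2) (ZMod ℓ)).det = 1) : g ∈ H := by
  have hup : ∀ x : ZMod ℓ, upper x ∈ H := by
    intro x
    have : upper x = upper α ^ (x / α).val := by
      rw [upper_pow, ZMod.natCast_zmod_val, div_mul_cancel₀ x hα]
    rw [this]
    exact H.pow_mem hu _
  have hlo : ∀ x : ZMod ℓ, lower x ∈ H := by
    intro x
    have : lower x = lower β ^ (x / β).val := by
      rw [lower_pow, ZMod.natCast_zmod_val, div_mul_cancel₀ x hβ]
    rw [this]
    exact H.pow_mem hl _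
  have key : ∀ g : GL (Fin 2) (ZMod ℓ), (g : Matrix (Fin 2) (Fin 2) (ZMod ℓ)).det = 1 →
      (g : Matrix (Fin 2) (Fin 2) (ZMod ℓ)) 1 0 ≠ 0 → g ∈ H := by
    intro g hdet hc
    rw [eq_upper_lower_upper g hdet hc]
    exact H.mul_mem (H.mul_mem (hup _) (hlo _)) (hup _)
  by_cases hc : (g : Matrix (Fin 2) (Fin 2) (ZMod ℓ)) 1 0 = 0
  · -- multiply by `lower 1`
    have h00 : (g : Matrix (Fin 2) (Fin 2) (ZMod ℓ)) 0 0 ≠ 0 := by
      intro h0
      rw [Matrix.det_fin_two, h0, hc] at hdet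
      simp at hdet
    have hg' : lower 1 * g ∈ H := by
      refine key _ ?_ ?_
      · rw [Units.val_mul, Matrix.det_mul, det_lower, one_mul, hdet]
      · rw [Units.val_mul, coe_lower]
        simpa [Matrix.mul_apply, Fin.sum_univ_two, hc] using h00
    have : g = lower (-1) * (lower 1 * g) := by
      rw [← mul_assoc, lower_mul]
      simp [lower_zero]
    rw [this]
    exact H.mul_mem (hlo _) hg'
  · exact key g hdet hc

/-- A nilpotent `2 × 2` matrix over a field has square zero. -/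
theorem sq_zero_of_pow_eq_zero {N : Matrix (Fin 2) (Fin 2) F} {n : ℕ} (hN : N ^ n = 0) :
    N * N = 0 := by
  have hdet : N.det = 0 := by
    have : N.det ^ n = 0 := by rw [← Matrix.det_pow, hN, Matrix.det_zero]
    exact pow_eq_zero_iff'.mp this |>.1
  have hCH := EigenLine6.cayley2 N
  rw [hdet, zero_smul, add_zero, sub_eq_zero] at hCH
  -- `N^(m+1) = t^m N`
  have hpow : ∀ m : ℕ, N ^ (m + 1) = N.trace ^ m • N := by
    intro m
    induction m with
    | zero => simp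
    | succ m ih =>
      rw [pow_succ, ih, smul_mul_assoc, hCH, smul_smul, pow_succ]
  rcases n with _ | n
  · rw [pow_zero] at hN
    rw [← mul_one (N * N), hN, mul_zero]
  · rw [hpow] at hN
    rw [hCH]
    rcases smul_eq_zero.mp hN with h0 | h0
    · rw [pow_eq_zero_iff'] at h0
      rw [h0.1, zero_smul]
    · rw [h0, smul_zero]

/-- For `N ≠ 0` with `N² = 0` and `N w = 0`, a vector `w₂` not proportional to `w` is mapped to a
nonzero multiple of `w`. -/
theorem exists_smul_eq_mulVec {N : Matrix (Fin 2) (Fin 2) F} (hN0 : N ≠ 0) (hN : N * N = 0)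
    {w w₂ : Fin 2 → F} (hw : w ≠ 0) (hNw : N *ᵥ w = 0) (hw₂ : ∀ c : F, c • w ≠ w₂) :
    ∃ α : F, α ≠ 0 ∧ N *ᵥ w₂ = α • w := by
  have hA : N ≠ (0 : F) • (1 : Matrix (Fin 2) (Fin 2) F) := by rwa [zero_smul]
  have hNw' : N *ᵥ w = (0 : F) • w := by rw [hNw, zero_smul]
  have h1 : N *ᵥ (N *ᵥ w₂) = (0 : F) • (N *ᵥ w₂) := by
    rw [Matrix.mulVec_mulVec, hN, Matrix.zero_mulVec, zero_smul]
  obtain ⟨α, hα⟩ := EigenLine6.exists_smul_eq_of_eig hA h1 hNw' hw
  refine ⟨α, ?_, hα.symm⟩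
  rintro rfl
  rw [zero_smul] at hα
  have h2 : N *ᵥ w₂ = (0 : F) • w₂ := by rw [← hα, zero_smul]
  obtain ⟨c, hc⟩ := EigenLine6.exists_smul_eq_of_eig hA h2 hNw' hw
  exact hw₂ c hc

/-- The line of a transvection of a semisimple group `G` is moved by some element of `G`. -/
theorem exists_not_smul_eq (G : Subgroup (GL (Fin 2) F))
    (hss : ∀ W : Submodule F (Fin 2 → F),
      (∀ g ∈ G, ∀ v ∈ W, (g : Matrix (Fin 2) (Fin 2) F) *ᵥ v ∈ W) →
      ∃ W' : Submodule F (Fin 2 → F),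
        (∀ g ∈ G, ∀ v ∈ W', (g : Matrix (Fin 2) (Fin 2) F) *ᵥ v ∈ W') ∧ IsCompl W W')
    {u : GL (Fin 2) F} (hu : u ∈ G) {N : Matrix (Fin 2) (Fin 2) F}
    (huN : (u : Matrix (Fin 2) (Fin 2) F) = 1 + N) (hN0 : N ≠ 0) (hN : N * N = 0)
    {w : Fin 2 → F} (hw : w ≠ 0) (hNw : N *ᵥ w = 0) :
    ∃ g ∈ G, ∀ c : F, c • w ≠ (g : Matrix (Fin 2) (Fin 2) F) *ᵥ w := by
  by_contra hcon
  push Not at hcon
  apply hN0
  have hA : N ≠ (0 : F) • (1 : Matrix (Fin 2) (Fin 2) F) := by rwa [zero_smul]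
  have hNw' : N *ᵥ w = (0 : F) • w := by rw [hNw, zero_smul]
  -- the line `L = F w` is stable
  have hL : ∀ g ∈ G, ∀ v ∈ Submodule.span F {w}, (g : Matrix (Fin 2) (Fin 2) F) *ᵥ v ∈
      Submodule.span F {w} := by
    intro g hg v hv
    obtain ⟨a, rfl⟩ := Submodule.mem_span_singleton.mp hv
    obtain ⟨c, hc⟩ := hcon g hg
    rw [Matrix.mulVec_smul, ← hc, smul_smul]
    exact Submodule.mem_span_singleton.mpr ⟨_, rfl⟩
  obtain ⟨W', hW', hcompl⟩ := hss _ hL
  -- `N` kills `W'`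
  have hNW' : ∀ v ∈ W', N *ᵥ v = 0 := by
    intro v hv
    have hy : N *ᵥ v ∈ W' := by
      have h1 := hW' u hu v hv
      rw [huN, Matrix.add_mulVec, Matrix.one_mulVec] at h1
      have := W'.sub_mem h1 hv
      rwa [add_sub_cancel_left] at this
    by_contra hy0
    have h1 : N *ᵥ (N *ᵥ v) = (0 : F) • (N *ᵥ v) := by
      rw [Matrix.mulVec_mulVec, hN, Matrix.zero_mulVec, zero_smul]
    obtain ⟨c, hc⟩ := EigenLine6.exists_smul_eq_of_eig hA h1 hNw' hw
    have hyL : N *ᵥ v ∈ Submodule.span F {w} := Submodule.mem_span_singleton.mpr ⟨c, hc⟩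
    have : N *ᵥ v ∈ Submodule.span F {w} ⊓ W' := ⟨hyL, hy⟩
    rw [hcompl.inf_eq_bot, Submodule.mem_bot] at this
    exact hy0 this
  -- hence `N = 0`
  by_contra hN0'
  obtain ⟨j, hj⟩ := EigenLine6.exists_mulVec_single_ne_zero hN0'
  apply hj
  have htop : (Pi.single j 1 : Fin 2 → F) ∈ Submodule.span F {w} ⊔ W' := by
    rw [hcompl.sup_eq_top]; exact Submodule.mem_top
  obtain ⟨a, ha, b, hb, hab⟩ := Submodule.mem_sup.mp htop
  obtain ⟨c, rfl⟩ := Submodule.mem_span_singleton.mp ha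
  rw [← hab, Matrix.mulVec_add, Matrix.mulVec_smul, hNw, smul_zero, hNW' b hb, add_zero]

/-- The matrix with columns `w`, `w₂`. -/
def colMat (w w₂ : Fin 2 → F) : Matrix (Fin 2) (Fin 2) F := !![w 0, w₂ 0; w 1, w₂ 1]

theorem colMat_mulVec (w w₂ v : Fin 2 → F) : colMat w w₂ *ᵥ v = v 0 • w + v 1 • w₂ := by
  ext i
  fin_cases i <;> simp [colMat, Matrix.mulVec, dotProduct, Fin.sum_univ_two] <;> ring

theorem det_colMat_ne_zero {w w₂ : Fin 2 → F} (hw : w ≠ 0) (hw₂ : ∀ c : F, c • w ≠ w₂) :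
    (colMat w w₂).det ≠ 0 := by
  intro h0
  obtain ⟨v, hv, hPv⟩ := Matrix.exists_mulVec_eq_zero_iff.mpr h0
  rw [colMat_mulVec] at hPv
  by_cases h1 : v 1 = 0
  · rw [h1, zero_smul, add_zero] at hPv
    rcases smul_eq_zero.mp hPv with h | h
    · apply hv
      ext i
      fin_cases i
      · exact h
      · exact h1
    · exact hw h
  · apply hw₂ (-(v 0) / v 1)
    have : v 1 • w₂ = -(v 0 • w) := eq_neg_of_add_eq_zero_right hPv
    have h2 : w₂ = (v 1)⁻¹ • (v 1 • w₂) := by rw [smul_smul, inv_mul_cancel₀ h1, one_smul]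
    rw [h2, this, smul_neg, smul_smul, ← neg_smul]
    congr 1
    field_simp

/-- `M * colMat w w₂ = colMat (M w) (M w₂)`. -/
theorem mul_colMat (M : Matrix (Fin 2) (Fin 2) F) (w w₂ : Fin 2 → F) :
    M * colMat w w₂ = colMat (M *ᵥ w) (M *ᵥ w₂) := by
  ext i j
  fin_cases i <;> fin_cases j <;>
    simp [colMat, Matrix.mul_apply, Matrix.mulVec, dotProduct, Fin.sum_univ_two]

theorem colMat_mul_upper (w w₂ : Fin 2 → F) (α : F) :
    colMat w w₂ * !![1, α; 0, 1] = colMat w (w₂ + α • w) := by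
  ext i j
  fin_cases i <;> fin_cases j <;>
    simp [colMat, Matrix.mul_apply, Fin.sum_univ_two, mul_comm, add_comm]

theorem colMat_mul_lower (w w₂ : Fin 2 → F) (β : F) :
    colMat w w₂ * !![1, 0; β, 1] = colMat (w + β • w₂) w₂ := by
  ext i j
  fin_cases i <;> fin_cases j <;>
    simp [colMat, Matrix.mul_apply, Fin.sum_univ_two, mul_comm]

/-- **Two opposite transvections in a semisimple group of order divisible by the characteristic.**
`F` a field of characteristic `ℓ`, `G ≤ GL₂(F)` finite with `ℓ ∣ #G`, every `G`-stable subspace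
having a `G`-stable complement: in a suitable basis `G` contains `[[1, 1], [0, 1]]` and
`[[1, 0], [c, 1]]`, `c ≠ 0`. -/
theorem exists_upper_lower [CharP F ℓ] (G : Subgroup (GL (Fin 2) F)) [Finite G]
    (hss : ∀ W : Submodule F (Fin 2 → F),
      (∀ g ∈ G, ∀ v ∈ W, (g : Matrix (Fin 2) (Fin 2) F) *ᵥ v ∈ W) →
      ∃ W' : Submodule F (Fin 2 → F),
        (∀ g ∈ G, ∀ v ∈ W', (g : Matrix (Fin 2) (Fin 2) F) *ᵥ v ∈ W') ∧ IsCompl W W')
    (hdvd : ℓ ∣ Nat.card G) :
    ∃ u ∈ G, ∃ u' ∈ G, ∃ (P : GL (Fin 2) F) (c : F), c ≠ 0 ∧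
      P⁻¹ * u * P = upper 1 ∧ P⁻¹ * u' * P = lower c := by
  classical
  -- an element of order `ℓ`
  obtain ⟨u', hu'⟩ := exists_prime_orderOf_dvd_card' ℓ hdvd
  set u : GL (Fin 2) F := (u' : GL (Fin 2) F) with hu
  have huG : u ∈ G := u'.2
  have hpow : u ^ ℓ = 1 := by
    have := pow_orderOf_eq_one u'
    rw [hu'] at this
    exact congrArg Subtype.val this
  have hu1 : u ≠ 1 := by
    intro h
    have : u' = 1 := Subtype.ext h
    rw [this, orderOf_one] at hu'
    exact (Fact.out : ℓ.Prime).one_lt.ne hu'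
  set U : Matrix (Fin 2) (Fin 2) F := (u : Matrix (Fin 2) (Fin 2) F) with hU
  set N : Matrix (Fin 2) (Fin 2) F := U - 1 with hNdef
  have hUN : U = 1 + N := by rw [hNdef]; abel
  have hN0 : N ≠ 0 := by
    intro h
    apply hu1
    apply Units.ext
    rw [← hU, hUN, h, add_zero]
    rfl
  have hNN : N * N = 0 := by
    apply sq_zero_of_pow_eq_zero (n := ℓ)
    rw [hNdef, sub_pow_char_of_commute ℓ (Commute.one_right U), one_pow, sub_eq_zero]
    have := congrArg (fun x : GL (Fin 2) F => (x : Matrix (Fin 2) (Fin 2) F)) hpow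
    simpa using this
  -- the fixed vector
  obtain ⟨j, hj⟩ := EigenLine6.exists_mulVec_single_ne_zero hN0
  set w : Fin 2 → F := N *ᵥ Pi.single j 1 with hw
  have hNw : N *ᵥ w = 0 := by rw [hw, Matrix.mulVec_mulVec, hNN, Matrix.zero_mulVec]
  -- an element of `G` moving the line
  obtain ⟨g, hgG, hg⟩ := exists_not_smul_eq G hss huG hUN hN0 hNN hj hNw
  set w₂ : Fin 2 → F := (g : Matrix (Fin 2) (Fin 2) F) *ᵥ w with hw₂
  have hw₂0 : w₂ ≠ 0 := by
    intro h
    exact hg 0 (by rw [zero_smul, h])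
  have hw₂' : ∀ c : F, c • w₂ ≠ w := by
    intro c hc
    have hc0 : c ≠ 0 := by
      rintro rfl
      rw [zero_smul] at hc
      exact hj hc.symm
    apply hg c⁻¹
    rw [← hc, smul_smul, inv_mul_cancel₀ hc0, one_smul]
  -- the conjugate transvection
  have hgi : ((g⁻¹ : GL (Fin 2) F) : Matrix (Fin 2) (Fin 2) F) *
      (g : Matrix (Fin 2) (Fin 2) F) = 1 := by
    rw [← Units.val_mul, inv_mul_cancel]; rfl
  have hig : (g : Matrix (Fin 2) (Fin 2) F) *
      ((g⁻¹ : GL (Fin 2) F) : Matrix (Fin 2) (Fin 2) F) = 1 := by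
    rw [← Units.val_mul, mul_inv_cancel]; rfl
  set N' : Matrix (Fin 2) (Fin 2) F := (g : Matrix (Fin 2) (Fin 2) F) * N *
    ((g⁻¹ : GL (Fin 2) F) : Matrix (Fin 2) (Fin 2) F) with hN'
  have hN'N' : N' * N' = 0 := by
    rw [hN']
    calc _ = (g : Matrix (Fin 2) (Fin 2) F) * N *
          (((g⁻¹ : GL (Fin 2) F) : Matrix (Fin 2) (Fin 2) F) *
            (g : Matrix (Fin 2) (Fin 2) F)) * N *
          ((g⁻¹ : GL (Fin 2) F) : Matrix (Fin 2) (Fin 2) F) := by
          simp only [mul_assoc]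
      _ = 0 := by rw [hgi, mul_one, mul_assoc _ N N, hNN, mul_zero, zero_mul]
  have hN'0 : N' ≠ 0 := by
    intro h
    apply hN0
    have : N = ((g⁻¹ : GL (Fin 2) F) : Matrix (Fin 2) (Fin 2) F) * N' *
        (g : Matrix (Fin 2) (Fin 2) F) := by
      rw [hN']
      calc N = 1 * N * 1 := by rw [one_mul, mul_one]
        _ = _ := by rw [← hgi]; simp only [mul_assoc]
    rw [this, h, mul_zero, zero_mul]
  have hN'w₂ : N' *ᵥ w₂ = 0 := by
    rw [hN', hw₂, Matrix.mulVec_mulVec, mul_assoc, mul_assoc, hgi, mul_one,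
      ← Matrix.mulVec_mulVec, hNw, Matrix.mulVec_zero]
  obtain ⟨α, hα0, hα⟩ := exists_smul_eq_mulVec hN0 hNN hj hNw hg
  obtain ⟨β, hβ0, hβ⟩ := exists_smul_eq_mulVec hN'0 hN'N' hw₂0 hN'w₂ hw₂'
  -- the change of basis `(α w, w₂)`
  have hαw : α • w ≠ 0 := smul_ne_zero hα0 hj
  have hαw' : ∀ c : F, c • (α • w) ≠ w₂ := fun c => by rw [smul_smul]; exact hg _
  set p : GL (Fin 2) F :=
    Matrix.GeneralLinearGroup.mkOfDetNeZero (colMat (α • w) w₂) (det_colMat_ne_zero hαw hαw')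
    with hp
  have hpval : (p : Matrix (Fin 2) (Fin 2) F) = colMat (α • w) w₂ := rfl
  -- `u p = p · upper 1`
  have e1 : u * p = p * upper 1 := by
    apply Units.ext
    rw [Units.val_mul u p, Units.val_mul p (upper 1), hpval, coe_upper, ← hU, hUN, mul_colMat,
      colMat_mul_upper, Matrix.add_mulVec, Matrix.add_mulVec, Matrix.one_mulVec, Matrix.one_mulVec,
      Matrix.mulVec_smul, hNw, smul_zero, add_zero, hα, one_smul]
  -- `(g u g⁻¹) p = p · lower (α β)`
  have e2 : (g * u * g⁻¹) * p = p * lower (α * β) := by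
    apply Units.ext
    have hval : ((g * u * g⁻¹ : GL (Fin 2) F) : Matrix (Fin 2) (Fin 2) F) = 1 + N' := by
      rw [Units.val_mul, Units.val_mul, ← hU, hUN, hN', mul_add, add_mul, mul_one, hig]
    rw [Units.val_mul (g * u * g⁻¹) p, Units.val_mul p (lower (α * β)), hpval, coe_lower, hval,
      mul_colMat, colMat_mul_lower, Matrix.add_mulVec, Matrix.add_mulVec, Matrix.one_mulVec,
      Matrix.one_mulVec, hN'w₂, add_zero, Matrix.mulVec_smul, hβ, smul_smul]
  refine ⟨u, huG, g * u * g⁻¹, G.mul_mem (G.mul_mem hgG huG) (G.inv_mem hgG), p, α * β,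
    mul_ne_zero hα0 hβ0, ?_, ?_⟩
  · rw [mul_assoc, e1, inv_mul_cancel_left]
  · rw [mul_assoc, e2, inv_mul_cancel_left]

/-- **A semisimple subgroup of `GL₂(𝔽_ℓ)` of order divisible by `ℓ` contains `SL₂(𝔽_ℓ)`.** -/
theorem sl_le_of_dvd_card (G : Subgroup (GL (Fin 2) (ZMod ℓ)))
    (hss : ∀ W : Submodule (ZMod ℓ) (Fin 2 → ZMod ℓ),
      (∀ g ∈ G, ∀ v ∈ W, (g : Matrix (Fin 2) (Fin 2) (ZMod ℓ)) *ᵥ v ∈ W) →
      ∃ W' : Submodule (ZMod ℓ) (Fin 2 → ZMod ℓ),
        (∀ g ∈ G, ∀ v ∈ W', (g : Matrix (Fin 2) (Fin 2) (ZMod ℓ)) *ᵥ v ∈ W') ∧ IsCompl W W')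
    (hdvd : ℓ ∣ Nat.card G) (s : GL (Fin 2) (ZMod ℓ))
    (hs : (s : Matrix (Fin 2) (Fin 2) (ZMod ℓ)).det = 1) : s ∈ G := by
  obtain ⟨u, huG, u', hu'G, p, c, hc, e1, e2⟩ := exists_upper_lower G hss hdvd
  -- conjugate `G` by `p`
  let H : Subgroup (GL (Fin 2) (ZMod ℓ)) := G.comap (MulAut.conj p).toMonoidHom
  have hmemH : ∀ h : GL (Fin 2) (ZMod ℓ), h ∈ H ↔ p * h * p⁻¹ ∈ G := fun h => Iff.rfl
  have hup : upper 1 ∈ H := by
    rw [hmemH, ← e1]
    have : p * (p⁻¹ * u * p) * p⁻¹ = u := by group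
    rwa [this]
  have hlo : lower c ∈ H := by
    rw [hmemH, ← e2]
    have : p * (p⁻¹ * u' * p) * p⁻¹ = u' := by group
    rwa [this]
  have hs' : p⁻¹ * s * p ∈ H := by
    refine mem_of_det_eq_one H one_ne_zero hc hup hlo _ ?_
    rw [Units.val_mul, Units.val_mul, Matrix.det_mul, Matrix.det_mul, hs, mul_one, ← Matrix.det_mul,
      ← Units.val_mul, inv_mul_cancel]
    simp
  rw [hmemH] at hs'
  have : p * (p⁻¹ * s * p) * p⁻¹ = s := by group
  rwa [this] at hs'

end Prime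

end Fermat.Agent.M48.Transvec6
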