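/-
Programme M48 (target S48), block (DS-ALG), leaf (A2) — helper6.  **The numerical trichotomy for
semisimple finite subgroups of `GL₂(k)`, `k` a field of characteristic `ℓ`** (Serre, *Propriétés
galoisiennes*, Prop. 15–16, in the numerical form used by Deligne–Serre §7), in the literal shape
asked for by (DS) (helper9, board 1324 (6)).

`G ≤ GL₂(k)` finite such that every `G`-stable subspace of `k²` has a `G`-stable complement.  Then

* (a') in a suitable basis `G` contains `[[1, 1], [0, 1]]` and `[[1, 0], [c, 1]]`, `c ≠ 0`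
  (the case `ℓ ∣ #G`: `Transvec6.exists_upper_lower`), or
* `ℓ ∤ #G` and
  (b) `G` is abelian, or
  (c) `G` has an abelian subgroup of index `2`, or
  (d) `#G ≤ 60 · #Z` for a subgroup `Z ≤ G` of scalar matrices
  (`EigenLine6.trichotomy_algClosed` over `AlgebraicClosure k`).

For the prime field, (a') gives `SL₂(𝔽_ℓ) ≤ G`: `trichotomy_zmod`.
-/
import Mathlib
import Fermat.Agent.M48.EigenLine6
import Fermat.Agent.M48.Transvec6

set_option autoImplicit false

open scoped MatrixGroups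
open Matrix

namespace Fermat.Agent.M48.Trichotomy6

section General

variable {k : Type*} [Field k]

/-- The base change `GL₂(k) → GL₂(k̄)`. -/
noncomputable def bc (k : Type*) [Field k] :
    GL (Fin 2) k →* GL (Fin 2) (AlgebraicClosure k) :=
  Matrix.GeneralLinearGroup.map (algebraMap k (AlgebraicClosure k))

theorem bc_apply (g : GL (Fin 2) k) (i j : Fin 2) :
    (bc k g : Matrix (Fin 2) (Fin 2) (AlgebraicClosure k)) i j =
      algebraMap k (AlgebraicClosure k) ((g : Matrix (Fin 2) (Fin 2) k) i j) :=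
  Matrix.GeneralLinearGroup.map_apply _ i j g

theorem bc_injective : Function.Injective (bc k) := by
  intro g h hgh
  apply Units.ext
  ext i j
  have := congrArg (fun x : GL (Fin 2) (AlgebraicClosure k) =>
    (x : Matrix (Fin 2) (Fin 2) (AlgebraicClosure k)) i j) hgh
  simp only [bc_apply] at this
  exact (algebraMap k (AlgebraicClosure k)).injective this

/-- An element whose base change is scalar is scalar. -/
theorem mem_center_of_bc_mem_center {g : GL (Fin 2) k}
    (h : bc k g ∈ Subgroup.center (GL (Fin 2) (AlgebraicClosure k))) :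
    g ∈ Subgroup.center (GL (Fin 2) k) := by
  rw [Matrix.GeneralLinearGroup.mem_center_iff_val_mem_range_scalar] at h ⊢
  obtain ⟨a, ha⟩ := h
  have hinj := (algebraMap k (AlgebraicClosure k)).injective
  have e : ∀ i j, algebraMap k (AlgebraicClosure k)
      ((g : Matrix (Fin 2) (Fin 2) k) i j) = if i = j then a else 0 := by
    intro i j
    rw [← bc_apply, ← ha]
    simp [Matrix.scalar_apply, Matrix.diagonal_apply]
  refine ⟨(g : Matrix (Fin 2) (Fin 2) k) 0 0, ?_⟩
  ext i j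
  apply hinj
  rw [e i j]
  by_cases hij : i = j
  · subst hij
    simp only [Matrix.scalar_apply, Matrix.diagonal_apply_eq, if_true]
    rw [e 0 0]; simp
  · simp [Matrix.scalar_apply, hij]

/-- The prime-to-`ℓ` part of the trichotomy: a finite subgroup of `GL₂(k)` of order prime to the
characteristic is abelian, or has an abelian subgroup of index two, or has at most `60` elements
modulo scalars. -/
theorem trichotomy_of_not_dvd (ℓ : ℕ) [Fact ℓ.Prime] [CharP k ℓ] (G : Subgroup (GL (Fin 2) k))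
    [Finite G] (hdvd : ¬ ℓ ∣ Nat.card G) :
    (∀ g ∈ G, ∀ h ∈ G, g * h = h * g) ∨
      (∃ G' : Subgroup (GL (Fin 2) k), G' ≤ G ∧ (∀ g ∈ G', ∀ h ∈ G', g * h = h * g) ∧
        2 * Nat.card G' = Nat.card G) ∨
      (∃ Z : Subgroup (GL (Fin 2) k), Z ≤ G ∧
        (∀ z ∈ Z, ∃ x : k, (z : Matrix (Fin 2) (Fin 2) k) = Matrix.scalar (Fin 2) x) ∧
        Nat.card G ≤ 60 * Nat.card Z) := by
  classical
  set Kb := AlgebraicClosure k with hKb
  have : CharP Kb ℓ := charP_of_injective_algebraMap (algebraMap k Kb).injective ℓ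
  set G' : Subgroup (GL (Fin 2) Kb) := G.map (bc k) with hG'
  have hcard : Nat.card G' = Nat.card G := Subgroup.card_map_of_injective bc_injective
  have : Finite G' := Nat.finite_of_card_ne_zero (by rw [hcard]; exact Nat.card_pos.ne')
  have hchar : (Nat.card G' : Kb) ≠ 0 := by
    rw [hcard, Ne, CharP.cast_eq_zero_iff Kb ℓ]
    exact hdvd
  rcases EigenLine6.trichotomy_algClosed G' hchar with hab | ⟨G'', hle, hab, h2⟩ | h60
  · left
    intro g hg h hh
    apply bc_injective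
    rw [map_mul, map_mul]
    exact hab _ (Subgroup.mem_map_of_mem _ hg) _ (Subgroup.mem_map_of_mem _ hh)
  · right; left
    refine ⟨G''.comap (bc k), ?_, ?_, ?_⟩
    · intro x hx
      obtain ⟨y, hy, hyx⟩ := hle (Subgroup.mem_comap.mp hx)
      rwa [← bc_injective hyx]
    · intro g hg h hh
      apply bc_injective
      rw [map_mul, map_mul]
      exact hab _ hg _ hh
    · have hrange : G'' ≤ (bc k).range := fun x hx => by
        obtain ⟨y, _, hyx⟩ := hle hx
        exact ⟨y, hyx⟩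
      have : Nat.card (G''.comap (bc k)) = Nat.card G'' := by
        rw [← Subgroup.card_map_of_injective (K := G''.comap (bc k)) bc_injective,
          Subgroup.map_comap_eq_self hrange]
      rw [this, h2, hcard]
  · right; right
    refine ⟨G ⊓ Subgroup.center (GL (Fin 2) k), inf_le_left, ?_, ?_⟩
    · intro z hz
      obtain ⟨x, hx⟩ := Matrix.GeneralLinearGroup.mem_center_iff_val_mem_range_scalar.mp hz.2
      exact ⟨x, hx.symm⟩
    rw [hcard] at h60
    refine h60.trans (Nat.mul_le_mul_left 60 ?_)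
    have hle : G' ⊓ Subgroup.center (GL (Fin 2) Kb) ≤
        (G ⊓ Subgroup.center (GL (Fin 2) k)).map (bc k) := by
      rintro x ⟨hx1, hx2⟩
      obtain ⟨y, hy, rfl⟩ := hx1
      exact ⟨y, ⟨hy, mem_center_of_bc_mem_center hx2⟩, rfl⟩
    have hfin0 : Finite ↥(G ⊓ Subgroup.center (GL (Fin 2) k)) :=
      Finite.of_injective (Subgroup.inclusion (inf_le_left : G ⊓ Subgroup.center (GL (Fin 2) k) ≤ G))
        (Subgroup.inclusion_injective _)
    have hfin : Finite ↥((G ⊓ Subgroup.center (GL (Fin 2) k)).map (bc k)) :=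
      Nat.finite_of_card_ne_zero (by
        rw [Subgroup.card_map_of_injective bc_injective]; exact Nat.card_pos.ne')
    calc Nat.card ↥(G' ⊓ Subgroup.center (GL (Fin 2) Kb))
        ≤ Nat.card ↥((G ⊓ Subgroup.center (GL (Fin 2) k)).map (bc k)) :=
          Subgroup.card_le_of_le hle
      _ = Nat.card ↥(G ⊓ Subgroup.center (GL (Fin 2) k)) :=
          Subgroup.card_map_of_injective bc_injective

/-- **The numerical trichotomy**, in the literal shape consumed by (DS). -/
theorem trichotomy (ℓ : ℕ) [Fact ℓ.Prime] [CharP k ℓ] (G : Subgroup (GL (Fin 2) k)) [Finite G]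
    (hss : ∀ W : Submodule k (Fin 2 → k),
      (∀ g ∈ G, ∀ v ∈ W, (g : Matrix (Fin 2) (Fin 2) k).mulVec v ∈ W) →
      ∃ W' : Submodule k (Fin 2 → k),
        (∀ g ∈ G, ∀ v ∈ W', (g : Matrix (Fin 2) (Fin 2) k).mulVec v ∈ W') ∧ IsCompl W W') :
    (∃ u ∈ G, ∃ u' ∈ G, ∃ (P : GL (Fin 2) k) (c : k), c ≠ 0 ∧
        ((P⁻¹ * u * P : GL (Fin 2) k) : Matrix (Fin 2) (Fin 2) k) = !![1, 1; 0, 1] ∧
        ((P⁻¹ * u' * P : GL (Fin 2) k) : Matrix (Fin 2) (Fin 2) k) = !![1, 0; c, 1]) ∨
      (¬ ℓ ∣ Nat.card G ∧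
        ((∀ g ∈ G, ∀ h ∈ G, g * h = h * g) ∨
          (∃ G' : Subgroup (GL (Fin 2) k), G' ≤ G ∧ (∀ g ∈ G', ∀ h ∈ G', g * h = h * g) ∧
            2 * Nat.card G' = Nat.card G) ∨
          (∃ Z : Subgroup (GL (Fin 2) k), Z ≤ G ∧
            (∀ z ∈ Z, ∃ x : k, (z : Matrix (Fin 2) (Fin 2) k) = Matrix.scalar (Fin 2) x) ∧
            Nat.card G ≤ 60 * Nat.card Z))) := by
  by_cases hdvd : ℓ ∣ Nat.card G
  · left
    obtain ⟨u, hu, u', hu', P, c, hc, e1, e2⟩ := Transvec6.exists_upper_lower G hss hdvd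
    exact ⟨u, hu, u', hu', P, c, hc, by rw [e1]; rfl, by rw [e2]; rfl⟩
  · exact Or.inr ⟨hdvd, trichotomy_of_not_dvd ℓ G hdvd⟩

end General

/-- **The trichotomy over the prime field**: a semisimple subgroup of `GL₂(𝔽_ℓ)` contains
`SL₂(𝔽_ℓ)`, or has order prime to `ℓ` and is abelian / has an abelian subgroup of index two / has
at most `60` elements modulo scalars. -/
theorem trichotomy_zmod {ℓ : ℕ} [Fact ℓ.Prime] (G : Subgroup (GL (Fin 2) (ZMod ℓ)))
    (hss : ∀ W : Submodule (ZMod ℓ) (Fin 2 → ZMod ℓ),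
      (∀ g ∈ G, ∀ v ∈ W, (g : Matrix (Fin 2) (Fin 2) (ZMod ℓ)).mulVec v ∈ W) →
      ∃ W' : Submodule (ZMod ℓ) (Fin 2 → ZMod ℓ),
        (∀ g ∈ G, ∀ v ∈ W', (g : Matrix (Fin 2) (Fin 2) (ZMod ℓ)).mulVec v ∈ W') ∧ IsCompl W W') :
    (∀ s : GL (Fin 2) (ZMod ℓ), (s : Matrix (Fin 2) (Fin 2) (ZMod ℓ)).det = 1 → s ∈ G) ∨
      (¬ ℓ ∣ Nat.card G ∧
        ((∀ g ∈ G, ∀ h ∈ G, g * h = h * g) ∨
          (∃ G' : Subgroup (GL (Fin 2) (ZMod ℓ)), G' ≤ G ∧ (∀ g ∈ G', ∀ h ∈ G', g * h = h * g) ∧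
            2 * Nat.card G' = Nat.card G) ∨
          (∃ Z : Subgroup (GL (Fin 2) (ZMod ℓ)), Z ≤ G ∧
            (∀ z ∈ Z, ∃ x : ZMod ℓ,
              (z : Matrix (Fin 2) (Fin 2) (ZMod ℓ)) = Matrix.scalar (Fin 2) x) ∧
            Nat.card G ≤ 60 * Nat.card Z))) := by
  by_cases hdvd : ℓ ∣ Nat.card G
  · exact Or.inl fun s hs => Transvec6.sl_le_of_dvd_card G hss hdvd s hs
  · exact Or.inr ⟨hdvd, trichotomy_of_not_dvd ℓ G hdvd⟩

end Fermat.Agent.M48.Trichotomy6
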