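/-
M48 (S48 = Deligne-Serre), block (DS), leaf (B) (helper9): the images of the residual
representations are bounded independently of `ℓ` (Deligne-Serre §8, first step).

`exists_bound`: from (SPARSE) and (CHEB) there is `A` with `#(im ρ) ≤ A` for every residual datum
`D : ResDatum B ℓ`, `ℓ` prime.

Ingredients: `DSCheb9.cheb_rep` for the set of elements whose (trace, determinant) and that of
the inverse avoid the finitely many values coming from `Y`; `DSProp9.prop72` with helper6's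
`Trichotomy6.trichotomy`; all traces of the image lie in the prime field by the generator form of
Chebotarev's theorem (`ChebQbar23.exists_frobenius_pow_eq_on`).
-/
import Mathlib
import Fermat.Agent.M48.DSInterfaces9
import Fermat.Agent.M48.DSDensity9
import Fermat.Agent.M48.DSCheb9
import Fermat.Agent.M48.DSProp9
import Fermat.Agent.M48.DSRed9
import Fermat.Agent.M48.Trichotomy6
import Fermat.Agent.ES.GAL.ChebQbar23

set_option autoImplicit false

open Matrix

namespace Fermat.Agent.M48.DSBound9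

open Fermat.Agent.M48.DSInterfaces9 Fermat.Agent.M48.DSDensity9 Fermat.Agent.M48.DSCount9
  Fermat.Agent.M48.DSProp9

local notation "Qbar" => AlgebraicClosure ℚ
local notation "GQ" => (AlgebraicClosure ℚ ≃ₐ[ℚ] AlgebraicClosure ℚ)

/-! ### Every element of the image is a power of a Frobenius element -/

theorem exists_frobenius_pow {M : Type} [Group M] (ρ : GQ →* M)
    (hlev : GaloisFactorsThroughFiniteLevel ρ) (σ : GQ) (T : Finset ℕ) :
    ∃ (p : ℕ) (A : ValuationSubring Qbar) (φ : GQ) (j : ℕ), p.Prime ∧ p ∉ T ∧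
      A.LiesOverPrime p ∧ A.IsFrobeniusAt φ p ∧ ρ σ = ρ φ ^ j := by
  obtain ⟨L, hfd, h1⟩ := hlev
  obtain ⟨p, A, φ, j, hp, hpT, hAp, hφ, hx⟩ :=
    Fermat.Agent.ES.GAL.ChebQbar23.exists_frobenius_pow_eq_on L σ T
  refine ⟨p, A, φ, j, hp, hpT, hAp, hφ, ?_⟩
  have h2 : ρ (σ⁻¹ * φ ^ j) = 1 := by
    apply h1
    intro x hxL
    rw [AlgEquiv.mul_apply, hx x hxL]
    exact σ.symm_apply_apply x
  rw [map_mul, map_inv, map_pow] at h2
  exact (inv_mul_eq_one.mp h2)

/-! ### The prime field as a subring -/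

section Fp

variable {k : Type*} [Field k] (ℓ : ℕ) [Fact ℓ.Prime] [CharP k ℓ]

/-- The prime field `{x | x ^ ℓ = x}` as a subring. -/
def fpSubring (k : Type*) [Field k] (ℓ : ℕ) [Fact ℓ.Prime] [CharP k ℓ] : Subring k where
  carrier := {x | InFp ℓ x}
  mul_mem' := fun hx hy => InFp.mul hx hy
  one_mem' := InFp.one
  add_mem' := fun hx hy => InFp.add hx hy
  zero_mem' := InFp.zero (Fact.out : ℓ.Prime).ne_zero
  neg_mem' := fun {x} hx => by
    have := (InFp.zero (k := k) (Fact.out : ℓ.Prime).ne_zero).sub hx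
    simpa using this

theorem mem_fpSubring {x : k} : x ∈ fpSubring k ℓ ↔ InFp ℓ x := Iff.rfl

end Fp

/-! ### Trace and determinant of conjugates and inverses -/

section TD

variable {k : Type*} [Field k]

theorem td_conj (h g : GL (Fin 2) k) : td (h * g * h⁻¹) = td g := by
  have h1 := trace_cj h⁻¹ g
  have h2 := det_cj h⁻¹ g
  unfold cj at h1 h2
  rw [inv_inv] at h1 h2
  exact Prod.ext h1 h2

/-- `(t, d) ↦ (t / d, 1 / d)`: the effect of inversion on (trace, determinant). -/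
def invTD (p : k × k) : k × k := (p.1 / p.2, 1 / p.2)

theorem td_inv (g : GL (Fin 2) k) : td g⁻¹ = invTD (td g) := by
  unfold td invTD
  have hd : (g : Matrix (Fin 2) (Fin 2) k).det ≠ 0 :=
    ((Matrix.isUnit_iff_isUnit_det _).mp g.isUnit).ne_zero
  have htr : (g : Matrix (Fin 2) (Fin 2) k).adjugate.trace =
      (g : Matrix (Fin 2) (Fin 2) k).trace := by
    rw [Matrix.adjugate_fin_two, Matrix.trace_fin_two, Matrix.trace_fin_two]
    simp [add_comm]
  rw [Matrix.coe_units_inv, Matrix.inv_def, Matrix.trace_smul, htr,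
    Matrix.det_smul, Matrix.det_adjugate, Fintype.card_fin, Ring.inverse_eq_inv']
  refine Prod.ext ?_ ?_
  · simp only [smul_eq_mul]
    field_simp
  · simp only
    field_simp
    norm_num

end TD


/-! ### The residual image -/

section Datum

variable {N : ℕ} {a e : ℕ → ℂ} {B : ResBase N a e} {ℓ : ℕ}

/-- All traces of the residual image lie in the prime field. -/
theorem inFp_trace (hN : N ≠ 0) [Fact ℓ.Prime] (D : ResDatum B ℓ) (σ : GQ) :
    InFp ℓ ((D.ρ σ : GL (Fin 2) D.k) : Matrix (Fin 2) (Fin 2) D.k).trace := by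
  have hℓ : ℓ.Prime := Fact.out
  obtain ⟨p, A, φ, j, hp, hpT, hAp, hφ, hσ⟩ :=
    exists_frobenius_pow D.ρ D.level σ (N * ℓ).primeFactors
  have hpN : ¬ p ∣ N * ℓ := fun h =>
    hpT (Nat.mem_primeFactors.mpr ⟨hp, h, mul_ne_zero hN hℓ.ne_zero⟩)
  obtain ⟨ht, hd⟩ := D.frob p hp hpN A hAp φ hφ
  rw [hσ, Units.val_pow_eq_pow_val, ← mem_fpSubring]
  apply Fermat.Agent.M48.DSRed9.trace_pow_mem
  · rw [ht, mem_fpSubring]; exact D.φ_prime _
  · rw [hd, mem_fpSubring]; exact D.φ_prime _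

/-- Semisimplicity of the residual image as a subgroup of `GL₂(k)`. -/
theorem hss_range (D : ResDatum B ℓ) (W : Submodule D.k (Fin 2 → D.k))
    (hW : ∀ g ∈ D.ρ.range, ∀ v ∈ W, (g : Matrix (Fin 2) (Fin 2) D.k).mulVec v ∈ W) :
    ∃ W' : Submodule D.k (Fin 2 → D.k),
      (∀ g ∈ D.ρ.range, ∀ v ∈ W', (g : Matrix (Fin 2) (Fin 2) D.k).mulVec v ∈ W') ∧
        IsCompl W W' := by
  obtain ⟨W', hW', hc⟩ := D.ss W (fun σ v hv => hW _ ⟨σ, rfl⟩ v hv)
  refine ⟨W', ?_, hc⟩
  rintro g ⟨σ, rfl⟩ v hv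
  exact hW' σ v hv

/-- The bound of Prop. 7.2 for `M` values of (trace, determinant). -/
def bound (M : ℕ) : ℕ := (6 * M) ^ 4 + 160 * M

theorem bound_mono {M M' : ℕ} (h : M ≤ M') : bound M ≤ bound M' := by
  unfold bound
  have : (6 * M) ^ 4 ≤ (6 * M') ^ 4 := Nat.pow_le_pow_left (Nat.mul_le_mul_left 6 h) 4
  omega

open Classical in
/-- **The residual images are bounded.** If outside a set of primes of upper density `≤ 1/4` the
`a p` lie in the finite set `Y`, then `#(im ρ) ≤ bound (2 #Y #E)`, `E` the set of values of `e`. -/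
theorem card_range_le (hN : N ≠ 0) (hC : ChebStmt) (Y : Finset ℂ)
    (hY : UpperDens {p : ℕ | p.Prime ∧ ¬ p ∣ N ∧ a p ∉ Y} (1 / 4)) (hℓ : ℓ.Prime)
    (D : ResDatum B ℓ) :
    Nat.card D.ρ.range ≤ bound (2 * (Y.card * B.e_fin.toFinset.card)) := by
  have : Fact ℓ.Prime := ⟨hℓ⟩
  have : Finite D.ρ.range := DSCheb9.finite_range D.ρ D.level
  set G := D.ρ.range with hG
  set E := B.e_fin.toFinset with hE
  -- the finitely many admissible values of (trace, determinant)
  set Y' : Finset B.R := Y.preimage B.ι B.ι_inj.injOn with hY'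
  set E' : Finset B.R := E.preimage B.ι B.ι_inj.injOn with hE'
  set P₁ : Finset (D.k × D.k) := (Y' ×ˢ E').image (fun p => (D.φ p.1, D.φ p.2)) with hP₁
  set P : Finset (D.k × D.k) := P₁ ∪ P₁.image invTD with hP
  have hY'card : Y'.card ≤ Y.card := by
    rw [hY', ← Finset.card_image_of_injOn (f := B.ι) (s := Y.preimage B.ι B.ι_inj.injOn)
      B.ι_inj.injOn]
    exact Finset.card_le_card (by
      intro x hx
      rw [Finset.mem_image] at hx
      obtain ⟨y, hy, rfl⟩ := hx
      exact Finset.mem_preimage.mp hy)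
  have hE'card : E'.card ≤ E.card := by
    rw [hE', ← Finset.card_image_of_injOn (f := B.ι) (s := E.preimage B.ι B.ι_inj.injOn)
      B.ι_inj.injOn]
    exact Finset.card_le_card (by
      intro x hx
      rw [Finset.mem_image] at hx
      obtain ⟨y, hy, rfl⟩ := hx
      exact Finset.mem_preimage.mp hy)
  have hPcard : P.card ≤ 2 * (Y.card * E.card) := by
    have h1 : P₁.card ≤ Y.card * E.card := by
      refine Finset.card_image_le.trans ?_
      rw [Finset.card_product]
      exact Nat.mul_le_mul hY'card hE'card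
    have h2 : (P₁.image invTD).card ≤ P₁.card := Finset.card_image_le
    have := Finset.card_union_le P₁ (P₁.image invTD)
    rw [hP]
    omega
  -- the bad set
  set C₀ : Set (GL (Fin 2) D.k) := {g | td g ∉ P₁ ∧ td g⁻¹ ∉ P₁} with hC₀
  have hconj : ∀ g ∈ D.ρ.range, ∀ x ∈ C₀, g * x * g⁻¹ ∈ C₀ := by
    intro g _ x hx
    rw [hC₀, Set.mem_ofPred_eq] at hx ⊢
    have : (g * x * g⁻¹)⁻¹ = g * x⁻¹ * g⁻¹ := by group
    rw [this, td_conj, td_conj]
    exact hx
  have hinv : ∀ x ∈ C₀, x⁻¹ ∈ C₀ := by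
    intro x hx
    rw [hC₀, Set.mem_ofPred_eq] at hx ⊢
    rw [inv_inv]
    exact ⟨hx.2, hx.1⟩
  have hm : N * ℓ ≠ 0 := mul_ne_zero hN hℓ.ne_zero
  -- the primes with Frobenius in the bad set have `a p ∉ Y`
  have hsub : {p : ℕ | p.Prime ∧ ¬ p ∣ N * ℓ ∧ ∃ (A : ValuationSubring Qbar) (σ : GQ),
        A.LiesOverPrime p ∧ A.IsFrobeniusAt σ p ∧ D.ρ σ ∈ C₀} ⊆
      {p : ℕ | p.Prime ∧ ¬ p ∣ N ∧ a p ∉ Y} := by
    rintro p ⟨hp, hpN, A, σ, hA, hσ, hbad⟩
    have hpN' : ¬ p ∣ N := fun h => hpN (Dvd.dvd.mul_right h ℓ)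
    refine ⟨hp, hpN', fun haY => ?_⟩
    obtain ⟨ht, hd⟩ := D.frob p hp hpN A hA σ hσ
    apply hbad.1
    rw [hP₁, Finset.mem_image]
    refine ⟨(B.b p, B.c p), ?_, ?_⟩
    · rw [Finset.mem_product, hY', hE', Finset.mem_preimage, Finset.mem_preimage, B.hb p hp hpN',
        B.hc p hp hpN', hE, Set.Finite.mem_toFinset]
      exact ⟨haY, p, hp, hpN', rfl⟩
    · simp only [td, ht, hd]
  -- the density comparison
  have hdens : (Nat.card ↥(C₀ ∩ (D.ρ.range : Set (GL (Fin 2) D.k))) : ℝ) / Nat.card D.ρ.range ≤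
      1 / 4 := by
    apply le_of_forall_pos_le_add
    intro ε hε
    have h1 := DSCheb9.cheb_rep hC D.ρ D.level C₀ hconj hinv (N * ℓ) hm ε hε
    have := le_of_lowerDens_of_upperDens hsub h1 hY
    linarith
  -- the good part `H` of the image
  set Hbad := (fs G).filter (fun g => g ∈ C₀) with hHbad
  set H := (fs G).filter (fun g => ¬ g ∈ C₀) with hH
  have hbadcard : Nat.card ↥(C₀ ∩ (D.ρ.range : Set (GL (Fin 2) D.k))) = Hbad.card := by
    have hset : C₀ ∩ (D.ρ.range : Set (GL (Fin 2) D.k)) = (↑Hbad : Set (GL (Fin 2) D.k)) := by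
      ext g
      rw [hHbad, Finset.coe_filter, Set.mem_inter_iff]
      constructor
      · rintro ⟨h1, h2⟩
        exact ⟨(mem_fs G).mpr h2, h1⟩
      · rintro ⟨h1, h2⟩
        exact ⟨h2, (mem_fs G).mp h1⟩
    rw [hset, Nat.card_coe_set_eq, Set.ncard_coe_finset]
  have hsplit : Hbad.card + H.card = Nat.card G := by
    rw [← card_fs G]
    exact Finset.card_filter_add_card_filter_not (s := fs G) (fun g => g ∈ C₀)
  have hGpos : 0 < Nat.card G := Nat.card_pos
  have h4 : 4 * Hbad.card ≤ Nat.card G := by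
    rw [hbadcard, div_le_iff₀ (by exact_mod_cast hGpos)] at hdens
    have : (4 : ℝ) * Hbad.card ≤ Nat.card G := by linarith
    exact_mod_cast this
  have hcard : 3 * Nat.card G ≤ 4 * H.card := by omega
  have hHG : ∀ h ∈ H, h ∈ G := fun h hh => (mem_fs G).mp (Finset.mem_filter.mp hh).1
  have hHP : ∀ h ∈ H, td h ∈ P := by
    intro h hh
    have hnot : ¬ h ∈ C₀ := (Finset.mem_filter.mp hh).2
    rw [hC₀, Set.mem_ofPred_eq, not_and_or, not_not, not_not] at hnot
    rw [hP, Finset.mem_union]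
    rcases hnot with h1 | h1
    · exact Or.inl h1
    · right
      rw [Finset.mem_image]
      refine ⟨td h⁻¹, h1, ?_⟩
      rw [← td_inv, inv_inv]
  have htri : Trichotomy ℓ G :=
    Fermat.Agent.M48.Trichotomy6.trichotomy ℓ G (hss_range D)
  have htr : ∀ g ∈ G, InFp ℓ (g : Matrix (Fin 2) (Fin 2) D.k).trace := by
    rintro g ⟨σ, rfl⟩
    exact inFp_trace hN D σ
  exact (prop72 G htri htr H hHG P hHP hcard).trans (bound_mono hPcard)

/-- **Deligne-Serre §8, first step**: the residual images are bounded independently of `ℓ`. -/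
theorem exists_bound (B : ResBase N a e) (hN : N ≠ 0) (hS : SparseStmt N a) (hC : ChebStmt) :
    ∃ A : ℕ, ∀ ℓ : ℕ, ℓ.Prime → ∀ D : ResDatum B ℓ, Nat.card D.ρ.range ≤ A := by
  obtain ⟨Y, hY⟩ := hS (1 / 4) (by norm_num)
  exact ⟨bound (2 * (Y.card * B.e_fin.toFinset.card)),
    fun ℓ hℓ D => card_range_le hN hC Y hY hℓ D⟩

end Datum

end Fermat.Agent.M48.DSBound9
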