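/-
M48 (S48 = Deligne-Serre), block (DS), leaf (E) (helper9): irreducibility.

A representation `ρ : G_ℚ →* GL₂(ℂ)` of finite level with `tr ρ(Frob_p) = a p` for `p ∤ N` is
irreducible as soon as `∑_p ‖a p‖² p^{-s} ≤ log (1/(s-1)) + O(1)` (`RankinStmt`), given Chebotarev's
density theorem (`ChebStmt`): a stable line would give `tr ρ = χ₁ + χ₂` with characters of finite
order, and then `∑_p ‖a p‖² p^{-s} ≥ (2 - ε) log (1/(s-1)) - O(1)`.
-/
import Mathlib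
import Fermat.Agent.M48.DSInterfaces9
import Fermat.Agent.M48.DSDensity9
import Fermat.Agent.M48.DSCheb9
import Fermat.Agent.M48.DSRed9

set_option autoImplicit false

open Matrix

namespace Fermat.Agent.M48.DSIrred9

open Fermat.Agent.M48.DSInterfaces9 Fermat.Agent.M48.DSDensity9

local notation "Qbar" => AlgebraicClosure ℚ
local notation "GQ" => (AlgebraicClosure ℚ ≃ₐ[ℚ] AlgebraicClosure ℚ)

/-! ### No stable line ⇒ irreducible -/

theorem isIrreducible_of_no_line {Γ : Type} [Group Γ] (ρ : Γ →* GL (Fin 2) ℂ)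
    (h : ¬ ∃ v : Fin 2 → ℂ, v ≠ 0 ∧
      ∀ σ : Γ, ∃ c : ℂ, ((ρ σ : GL (Fin 2) ℂ) : Matrix (Fin 2) (Fin 2) ℂ).mulVec v = c • v) :
    (Deformation.matrixRepresentation ρ).IsIrreducible := by
  have hnt : Nontrivial (Subrepresentation (Deformation.matrixRepresentation ρ)) := by
    refine ⟨⊥, ⊤, fun hbt => ?_⟩
    have h1 := congrArg Subrepresentation.toSubmodule hbt
    have h2 : (⊥ : Submodule ℂ (Fin 2 → ℂ)) = ⊤ := h1
    exact bot_ne_top h2
  refine { exists_pair_ne := hnt.exists_pair_ne, eq_bot_or_eq_top := fun W => ?_ }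
  by_contra hW
  rw [not_or] at hW
  obtain ⟨hWb, hWt⟩ := hW
  have hb : W.toSubmodule ≠ ⊥ := fun hh =>
    hWb (Subrepresentation.toSubmodule_injective hh)
  have ht : W.toSubmodule ≠ ⊤ := fun hh =>
    hWt (Subrepresentation.toSubmodule_injective hh)
  -- `W` is a line
  have hrank : Module.finrank ℂ W.toSubmodule = 1 := by
    have h2 : Module.finrank ℂ W.toSubmodule < 2 := by
      have := Submodule.finrank_lt ht
      simpa using this
    have h0 : 0 < Module.finrank ℂ W.toSubmodule := by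
      rw [Module.finrank_pos_iff_exists_ne_zero]
      obtain ⟨x, hx, hx0⟩ := (Submodule.ne_bot_iff _).mp hb
      exact ⟨⟨x, hx⟩, fun hh => hx0 (congrArg Subtype.val hh)⟩
    omega
  obtain ⟨v, hv0, hspan⟩ := finrank_eq_one_iff'.mp hrank
  apply h
  refine ⟨(v : Fin 2 → ℂ), fun hh => hv0 (Subtype.ext hh), fun σ => ?_⟩
  have hmem : (Deformation.matrixRepresentation ρ σ) (v : Fin 2 → ℂ) ∈ W.toSubmodule :=
    W.apply_mem_toSubmodule σ v.2
  obtain ⟨c, hc⟩ := hspan ⟨_, hmem⟩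
  refine ⟨c, ?_⟩
  have := congrArg Subtype.val hc
  simp only [Submodule.coe_smul] at this
  rw [this, Deformation.matrixRepresentation_apply]
  rfl


/-! ### A stable line gives two characters -/

theorem smul_left_cancel_vec {v : Fin 2 → ℂ} (hv : v ≠ 0) {x y : ℂ} (h : x • v = y • v) :
    x = y := by
  have : (x - y) • v = 0 := by rw [sub_smul, h, sub_self]
  rcases smul_eq_zero.mp this with h1 | h1
  · exact sub_eq_zero.mp h1
  · exact absurd h1 hv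

/-- A stable line gives characters `χ₁, χ₂ : Γ →* ℂˣ` with `tr ρ = χ₁ + χ₂`, trivial on the kernel
of `ρ`. -/
theorem exists_characters {Γ : Type} [Group Γ] (ρ : Γ →* GL (Fin 2) ℂ) (v : Fin 2 → ℂ)
    (hv : v ≠ 0)
    (hstab : ∀ σ : Γ, ∃ c : ℂ,
      ((ρ σ : GL (Fin 2) ℂ) : Matrix (Fin 2) (Fin 2) ℂ).mulVec v = c • v) :
    ∃ χ₁ χ₂ : Γ →* ℂˣ,
      (∀ σ, ((ρ σ : GL (Fin 2) ℂ) : Matrix (Fin 2) (Fin 2) ℂ).trace =
        (χ₁ σ : ℂ) + (χ₂ σ : ℂ)) ∧
      ∀ σ, ρ σ = 1 → χ₁ σ = 1 ∧ χ₂ σ = 1 := by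
  choose c hc using hstab
  have hc1 : c 1 = 1 := by
    have := hc 1
    rw [map_one, Units.val_one, Matrix.one_mulVec] at this
    exact (smul_left_cancel_vec hv (by rw [one_smul]; exact this)).symm
  have hcmul : ∀ σ τ, c (σ * τ) = c σ * c τ := by
    intro σ τ
    have h1 := hc (σ * τ)
    rw [map_mul, Units.val_mul, ← Matrix.mulVec_mulVec, hc τ, Matrix.mulVec_smul, hc σ,
      smul_smul] at h1
    rw [mul_comm]
    exact (smul_left_cancel_vec hv h1).symm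
  let f : Γ →* ℂ := { toFun := c, map_one' := hc1, map_mul' := hcmul }
  set χ₁ : Γ →* ℂˣ := f.toHomUnits with hχ₁
  have hχ₁c : ∀ σ, (χ₁ σ : ℂ) = c σ := fun σ => rfl
  set χ₂ : Γ →* ℂˣ := (Matrix.GeneralLinearGroup.det.comp ρ) / χ₁ with hχ₂
  have hχ₂c : ∀ σ, (χ₂ σ : ℂ) =
      ((ρ σ : GL (Fin 2) ℂ) : Matrix (Fin 2) (Fin 2) ℂ).det / c σ := by
    intro σ
    rw [hχ₂, MonoidHom.div_apply, Units.val_div_eq_div_val, hχ₁c]
    rfl
  have hcne : ∀ σ, c σ ≠ 0 := fun σ => by rw [← hχ₁c]; exact (χ₁ σ).ne_zero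
  refine ⟨χ₁, χ₂, fun σ => ?_, fun σ hσ => ?_⟩
  · -- Cayley-Hamilton applied to `v`
    set M := ((ρ σ : GL (Fin 2) ℂ) : Matrix (Fin 2) (Fin 2) ℂ) with hM
    have hCH := Fermat.Agent.M48.DSRed9.mul_self_eq' M
    have h1 : (M * M).mulVec v = (c σ * c σ) • v := by
      rw [← Matrix.mulVec_mulVec, hc σ, Matrix.mulVec_smul, hc σ, smul_smul]
    rw [hCH, Matrix.sub_mulVec, Matrix.smul_mulVec, Matrix.smul_mulVec, hc σ,
      Matrix.one_mulVec, smul_smul] at h1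
    have h2 : (M.trace * c σ - M.det) • v = (c σ * c σ) • v := by
      rw [sub_smul]; exact h1
    have h3 := smul_left_cancel_vec hv h2
    rw [hχ₁c, hχ₂c, ← hM]
    have hne := hcne σ
    field_simp
    linear_combination h3
  · have h1 : c σ = 1 := by
      have := hc σ
      rw [hσ, Units.val_one, Matrix.one_mulVec] at this
      exact (smul_left_cancel_vec hv (by rw [one_smul]; exact this)).symm
    constructor
    · apply Units.ext
      rw [hχ₁c, h1]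
      rfl
    · apply Units.ext
      rw [hχ₂c, h1, hσ, Units.val_one, Matrix.det_one]
      simp


/-! ### The character sum -/

/-- The weight `‖x + y‖²` on pairs of units. -/
noncomputable def wt (m : ℂˣ × ℂˣ) : ℝ := ‖(m.1 : ℂ) + (m.2 : ℂ)‖ ^ 2

theorem wt_nonneg (m : ℂˣ × ℂˣ) : 0 ≤ wt m := sq_nonneg _

theorem norm_eq_one_of_mem {H : Subgroup (ℂˣ × ℂˣ)} [Finite H] {m : ℂˣ × ℂˣ} (hm : m ∈ H) :
    ‖(m.1 : ℂ)‖ = 1 ∧ ‖(m.2 : ℂ)‖ = 1 := by
  have h1 : (⟨m, hm⟩ : H) ^ Nat.card H = 1 := pow_card_eq_one'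
  have h2 : m ^ Nat.card H = 1 := by
    have := congrArg (fun x : H => (x : ℂˣ × ℂˣ)) h1
    rwa [Subgroup.coe_pow, Subgroup.coe_one] at this
  have hn : Nat.card H ≠ 0 := Nat.card_pos.ne'
  constructor
  · apply Complex.norm_eq_one_of_pow_eq_one _ hn
    have := congrArg (fun x : ℂˣ × ℂˣ => ((x.1 : ℂˣ) : ℂ)) h2
    simpa using this
  · apply Complex.norm_eq_one_of_pow_eq_one _ hn
    have := congrArg (fun x : ℂˣ × ℂˣ => ((x.2 : ℂˣ) : ℂ)) h2
    simpa using this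

theorem wt_eq {H : Subgroup (ℂˣ × ℂˣ)} [Finite H] {m : ℂˣ × ℂˣ} (hm : m ∈ H) :
    wt m = 2 + 2 * (((m.1 * m.2⁻¹ : ℂˣ) : ℂ)).re := by
  obtain ⟨h1, h2⟩ := norm_eq_one_of_mem hm
  unfold wt
  rw [← Complex.normSq_eq_norm_sq, Complex.normSq_add, Complex.normSq_eq_norm_sq,
    Complex.normSq_eq_norm_sq, h1, h2]
  have hinv : ((m.2⁻¹ : ℂˣ) : ℂ) = (starRingEnd ℂ) (m.2 : ℂ) := by
    rw [Units.val_inv_eq_inv_val, Complex.inv_def, Complex.normSq_eq_norm_sq, h2]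
    simp
  rw [Units.val_mul, hinv]
  ring

theorem wt_inv {H : Subgroup (ℂˣ × ℂˣ)} [Finite H] {m : ℂˣ × ℂˣ} (hm : m ∈ H) :
    wt m⁻¹ = wt m := by
  rw [wt_eq (H.inv_mem hm), wt_eq hm]
  obtain ⟨h1, h2⟩ := norm_eq_one_of_mem hm
  have e1 : (((m⁻¹).1 * (m⁻¹).2⁻¹ : ℂˣ) : ℂ) = (starRingEnd ℂ) ((m.1 * m.2⁻¹ : ℂˣ) : ℂ) := by
    have hinv1 : ((m.1⁻¹ : ℂˣ) : ℂ) = (starRingEnd ℂ) (m.1 : ℂ) := by
      rw [Units.val_inv_eq_inv_val, Complex.inv_def, Complex.normSq_eq_norm_sq, h1]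
      simp
    have hinv2 : ((m.2⁻¹ : ℂˣ) : ℂ) = (starRingEnd ℂ) (m.2 : ℂ) := by
      rw [Units.val_inv_eq_inv_val, Complex.inv_def, Complex.normSq_eq_norm_sq, h2]
      simp
    simp only [Prod.fst_inv, Prod.snd_inv, inv_inv, Units.val_mul, map_mul, hinv1, hinv2,
      Complex.conj_conj]
  rw [e1, Complex.conj_re]

open Classical in
/-- `∑_{m ∈ H} ‖m.1 + m.2‖² ≥ 2 #H` for a finite subgroup `H ≤ ℂˣ × ℂˣ`. -/
theorem two_mul_card_le_sum (H : Subgroup (ℂˣ × ℂˣ)) [Fintype H] :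
    2 * (Fintype.card H : ℝ) ≤ ∑ m : H, wt (m : ℂˣ × ℂˣ) := by
  have : Finite H := Finite.of_fintype H
  let f : H →* ℂ :=
    { toFun := fun m => (((m : ℂˣ × ℂˣ).1 * (m : ℂˣ × ℂˣ).2⁻¹ : ℂˣ) : ℂ)
      map_one' := by simp
      map_mul' := fun x y => by
        simp only [Subgroup.coe_mul, Prod.fst_mul, Prod.snd_mul, mul_inv, Units.val_mul]
        ring }
  have hsum := sum_hom_units f
  have hre : 0 ≤ (∑ m : H, f m).re := by
    rw [hsum]
    split_ifs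
    · simp
    · simp
  have h1 : ∑ m : H, wt (m : ℂˣ × ℂˣ) = ∑ m : H, (2 + 2 * (f m).re) :=
    Finset.sum_congr rfl fun m _ => wt_eq m.2
  rw [h1, Finset.sum_add_distrib, Finset.sum_const, Finset.card_univ, ← Finset.mul_sum,
    ← Complex.re_sum, nsmul_eq_mul]
  nlinarith


/-! ### The density argument -/

open Classical in
/-- **(E)**: irreducibility from (RANKIN) and (CHEB). -/
theorem isIrreducible (hC : ChebStmt) {N : ℕ} (hN : N ≠ 0) {a : ℕ → ℂ} (hR : RankinStmt N a)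
    (ρ : GQ →* GL (Fin 2) ℂ) (hlev : GaloisFactorsThroughFiniteLevel ρ)
    (hfrob : ∀ p : ℕ, p.Prime → ¬ p ∣ N → ∀ A : ValuationSubring Qbar, A.LiesOverPrime p →
      ∀ σ : GQ, A.IsFrobeniusAt σ p →
        ((ρ σ : GL (Fin 2) ℂ) : Matrix (Fin 2) (Fin 2) ℂ).trace = a p) :
    (Deformation.matrixRepresentation ρ).IsIrreducible := by
  apply isIrreducible_of_no_line
  rintro ⟨v, hv, hstab⟩
  obtain ⟨χ₁, χ₂, htr, hker⟩ := exists_characters ρ v hv hstab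
  set ψ : GQ →* ℂˣ × ℂˣ := χ₁.prod χ₂ with hψ
  have hlevψ : GaloisFactorsThroughFiniteLevel ψ := by
    obtain ⟨L₀, hL₀, h1⟩ := hlev
    refine ⟨L₀, hL₀, fun σ hσ => ?_⟩
    obtain ⟨e1, e2⟩ := hker σ (h1 σ hσ)
    rw [hψ, MonoidHom.prod_apply, e1, e2]
    rfl
  have hfinH : Finite ψ.range := DSCheb9.finite_range ψ hlevψ
  have : Fintype ψ.range := Fintype.ofFinite _
  set H := ψ.range with hH
  -- the finitely many values of the weight
  set W : Finset ℝ := Finset.univ.image (fun m : H => wt (m : ℂˣ × ℂˣ)) with hW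
  have hWnonneg : ∀ w ∈ W, 0 ≤ w := by
    intro w hw
    rw [hW, Finset.mem_image] at hw
    obtain ⟨m, -, rfl⟩ := hw
    exact wt_nonneg _
  set Cw : ℝ → Set (ℂˣ × ℂˣ) := fun w => {m | m ∈ H ∧ wt m = w} with hCw
  set P : ℝ → Set ℕ := fun w => {p : ℕ | p.Prime ∧ ¬ p ∣ N ∧ ∃ (A : ValuationSubring Qbar)
    (σ : GQ), A.LiesOverPrime p ∧ A.IsFrobeniusAt σ p ∧ ψ σ ∈ Cw w} with hP
  set δ : ℝ → ℝ := fun w => (Nat.card ↥(Cw w ∩ (ψ.range : Set (ℂˣ × ℂˣ))) : ℝ) /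
    Nat.card ψ.range with hδ
  have hcheb : ∀ w : ℝ, ∀ ε : ℝ, 0 < ε → LowerDens (P w) (δ w - ε) := by
    intro w ε hε
    refine DSCheb9.cheb_rep hC ψ hlevψ (Cw w) ?_ ?_ N hN ε hε
    · intro g _ x hx
      rw [mul_comm g x, mul_inv_cancel_right]
      exact hx
    · intro x hx
      exact ⟨H.inv_mem hx.1, by rw [wt_inv hx.1]; exact hx.2⟩
  -- `‖a p‖² = w` on `P w`
  have hPw : ∀ w : ℝ, ∀ p ∈ P w, ‖a p‖ ^ 2 = w := by
    rintro w p ⟨hp, hpN, A, σ, hA, hσ, -, hwt⟩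
    rw [← hfrob p hp hpN A hA σ hσ, htr σ, ← hwt]
    rfl
  have hPprime : ∀ w : ℝ, ∀ p ∈ P w, p.Prime ∧ ¬ p ∣ N := fun w p hp => ⟨hp.1, hp.2.1⟩
  -- `∑ w δ_w ≥ 2`
  have hcardpos : (0 : ℝ) < Nat.card ψ.range := by exact_mod_cast Nat.card_pos
  have hδcard : ∀ w : ℝ, δ w =
      ((Finset.univ.filter fun m : H => wt (m : ℂˣ × ℂˣ) = w).card : ℝ) / Fintype.card H := by
    intro w
    have h1 : Nat.card ↥(Cw w ∩ (ψ.range : Set (ℂˣ × ℂˣ))) =
        (Finset.univ.filter fun m : H => wt (m : ℂˣ × ℂˣ) = w).card := by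
      have e : ↥(Cw w ∩ (ψ.range : Set (ℂˣ × ℂˣ))) ≃ {m : H // wt (m : ℂˣ × ℂˣ) = w} :=
        { toFun := fun x => ⟨⟨x.1, x.2.2⟩, x.2.1.2⟩
          invFun := fun y => ⟨y.1.1, ⟨⟨y.1.2, y.2⟩, y.1.2⟩⟩
          left_inv := fun x => rfl
          right_inv := fun y => rfl }
      rw [Nat.card_congr e, Nat.card_eq_fintype_card, Fintype.card_subtype]
    simp only [hδ]
    rw [h1, Nat.card_eq_fintype_card]
  have hHpos : (0 : ℝ) < Fintype.card H := by
    have : 0 < Fintype.card H := Fintype.card_pos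
    exact_mod_cast this
  have hsumW : 2 ≤ ∑ w ∈ W, w * δ w := by
    have h1 : ∑ w ∈ W, w * δ w = (∑ m : H, wt (m : ℂˣ × ℂˣ)) / Fintype.card H := by
      rw [Finset.sum_comp (fun x : ℝ => x) (fun m : H => wt (m : ℂˣ × ℂˣ)), Finset.sum_div]
      refine Finset.sum_congr rfl fun w _ => ?_
      rw [hδcard w, nsmul_eq_mul]
      ring
    rw [h1, le_div_iff₀ hHpos]
    exact two_mul_card_le_sum H
  -- the constants
  obtain ⟨CR, hCR⟩ := hR
  set SW : ℝ := ∑ w ∈ W, w with hSW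
  have hSWnonneg : 0 ≤ SW := Finset.sum_nonneg hWnonneg
  set ε : ℝ := 1 / (2 * (SW + 1)) with hε
  have hεpos : 0 < ε := by positivity
  have hεS : ε * SW ≤ 1 / 2 := by
    rw [hε, div_mul_eq_mul_div, one_mul, div_le_div_iff₀ (by positivity) (by norm_num)]
    nlinarith
  have hlow : ∀ w ∈ W, ∃ C : ℝ, ∀ s ∈ Set.Ioc (1 : ℝ) 2, (δ w - ε) * lg s - C ≤ PZ (P w) s :=
    fun w _ => hcheb w ε hεpos
  choose! Cl hCl using hlow
  set K : ℝ := ∑ w ∈ W, w * (Cl w + 1) with hK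
  have hmain : ∀ s ∈ Set.Ioc (1 : ℝ) 2, (1 / 2 : ℝ) * lg s ≤ CR + K := by
    intro s hs
    have hlg : 0 ≤ lg s := lg_nonneg hs
    -- finite parts of the sets `P w`
    have hF : ∀ w ∈ W, ∃ F : Finset ℕ, (↑F : Set ℕ) ⊆ P w ∧
        PZ (P w) s - 1 ≤ ∑ p ∈ F, (p : ℝ) ^ (-s) :=
      fun w _ => exists_finset_sum_ge (P w) hs.1 one_pos
    choose! F hFsub hFsum using hF
    have hdisj : (↑W : Set ℝ).PairwiseDisjoint F := by
      intro w hw w' hw' hne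
      rw [Function.onFun, Finset.disjoint_left]
      intro p hp hp'
      exact hne ((hPw w p (hFsub w hw hp)).symm.trans (hPw w' p (hFsub w' hw' hp')))
    have hrank := hCR s hs.1 hs.2 (W.biUnion F) (by
      intro p hp
      rw [Finset.mem_biUnion] at hp
      obtain ⟨w, hw, hpw⟩ := hp
      exact hPprime w p (hFsub w hw hpw))
    rw [Finset.sum_biUnion hdisj] at hrank
    have h2 : ∑ w ∈ W, w * ((δ w - ε) * lg s - Cl w - 1) ≤
        ∑ w ∈ W, ∑ p ∈ F w, ‖a p‖ ^ 2 * (p : ℝ) ^ (-s) := by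
      refine Finset.sum_le_sum fun w hw => ?_
      have e1 : ∑ p ∈ F w, ‖a p‖ ^ 2 * (p : ℝ) ^ (-s) = w * ∑ p ∈ F w, (p : ℝ) ^ (-s) := by
        rw [Finset.mul_sum]
        exact Finset.sum_congr rfl fun p hp => by rw [hPw w p (hFsub w hw hp)]
      rw [e1]
      apply mul_le_mul_of_nonneg_left _ (hWnonneg w hw)
      have := hCl w hw s hs
      have := hFsum w hw
      linarith
    have h3 : ∑ w ∈ W, w * ((δ w - ε) * lg s - Cl w - 1) =
        (∑ w ∈ W, w * δ w) * lg s - ε * SW * lg s - K := by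
      rw [hK, hSW, Finset.sum_mul, Finset.mul_sum, Finset.sum_mul, ← Finset.sum_sub_distrib,
        ← Finset.sum_sub_distrib]
      exact Finset.sum_congr rfl fun w _ => by ring
    have h4 : 2 * lg s ≤ (∑ w ∈ W, w * δ w) * lg s := mul_le_mul_of_nonneg_right hsumW hlg
    have h5 : ε * SW * lg s ≤ 1 / 2 * lg s := mul_le_mul_of_nonneg_right hεS hlg
    have h6 : Real.log (1 / (s - 1)) = lg s := rfl
    rw [h6] at hrank
    linarith
  have := nonpos_of_mul_lg_le hmain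
  norm_num at this

end Fermat.Agent.M48.DSIrred9
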