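/-
M48 (S48 = Deligne-Serre), block (DS), leaf (D1') (helper9): Lefschetz principle for
two-dimensional representations of a finite group.

`exists_complex_rep`: let `G` be a finite group and `t d : G → ℤ̄`. If for infinitely many `ℓ` there
are a field `Ω` of characteristic `ℓ`, a ring homomorphism `ψ : ℤ̄ → Ω` and a representation
`r : G →* GL₂(Ω)` with `tr r(g) = ψ (t g)`, `det r(g) = ψ (d g)`, then there is
`θ : G →* GL₂(ℂ)` with `tr θ(g) = t g`, `det θ(g) = d g`.
(This replaces the lifting of residual representations to characteristic zero.)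
-/
import Mathlib
import Fermat.Agent.M48.DSLef9

set_option autoImplicit false

open Matrix MvPolynomial

namespace Fermat.Agent.M48.DSLefRep9

open Fermat.Agent.M48.DSLef9

variable {G : Type} [Group G]

/-- The unknowns: the entries of the matrices `M_g`. -/
abbrev Idx (G : Type) : Type := G × Fin 2 × Fin 2

/-- The equations of the representation variety with prescribed traces and determinants. -/
inductive Eqn (G : Type) : Type
  | one : Fin 2 → Fin 2 → Eqn G
  | mul : G → G → Fin 2 → Fin 2 → Eqn G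
  | tr : G → Eqn G
  | det : G → Eqn G

/-- The polynomial attached to an equation. -/
noncomputable def poly (t d : G → Zb) : Eqn G → MvPolynomial (Idx G) Zb
  | Eqn.one i j => X ((1 : G), i, j) - C (if i = j then 1 else 0)
  | Eqn.mul g h i j => X (g, i, 0) * X (h, 0, j) + X (g, i, 1) * X (h, 1, j) - X (g * h, i, j)
  | Eqn.tr g => X (g, 0, 0) + X (g, 1, 1) - C (t g)
  | Eqn.det g => X (g, 0, 0) * X (g, 1, 1) - X (g, 0, 1) * X (g, 1, 0) - C (d g)

/-- A representation over `Ω` with the prescribed traces and determinants solves the system. -/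
theorem eval_poly_eq_zero (t d : G → Zb) {Ω : Type} [Field Ω] (ψ : Zb →+* Ω)
    (r : G →* GL (Fin 2) Ω)
    (ht : ∀ g, ((r g : GL (Fin 2) Ω) : Matrix (Fin 2) (Fin 2) Ω).trace = ψ (t g))
    (hd : ∀ g, ((r g : GL (Fin 2) Ω) : Matrix (Fin 2) (Fin 2) Ω).det = ψ (d g))
    (q : Eqn G) :
    MvPolynomial.eval₂ ψ
      (fun x : Idx G => ((r x.1 : GL (Fin 2) Ω) : Matrix (Fin 2) (Fin 2) Ω) x.2.1 x.2.2)
      (poly t d q) = 0 := by
  cases q with
  | one i j =>
    simp only [poly, eval₂_sub, eval₂_X, eval₂_C, map_one, Units.val_one]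
    by_cases hij : i = j
    · subst hij
      simp
    · simp [hij, Matrix.one_apply_ne hij]
  | mul g h i j =>
    simp only [poly, eval₂_sub, eval₂_add, eval₂_mul, eval₂_X, map_mul, Units.val_mul,
      Matrix.mul_apply, Fin.sum_univ_two]
    ring
  | tr g =>
    simp only [poly, eval₂_sub, eval₂_add, eval₂_X, eval₂_C]
    rw [← ht g, Matrix.trace_fin_two]
    ring
  | det g =>
    simp only [poly, eval₂_sub, eval₂_mul, eval₂_X, eval₂_C]
    rw [← hd g, Matrix.det_fin_two]
    ring

/-- **Lefschetz principle for representations.** -/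
theorem exists_complex_rep [Finite G] (t d : G → Zb)
    (hinf : {ℓ : ℕ | ∃ (Ω : Type) (_ : Field Ω) (_ : CharP Ω ℓ) (ψ : Zb →+* Ω)
      (r : G →* GL (Fin 2) Ω),
      (∀ g, ((r g : GL (Fin 2) Ω) : Matrix (Fin 2) (Fin 2) Ω).trace = ψ (t g)) ∧
      (∀ g, ((r g : GL (Fin 2) Ω) : Matrix (Fin 2) (Fin 2) Ω).det = ψ (d g))}.Infinite) :
    ∃ θ : G →* GL (Fin 2) ℂ,
      (∀ g, ((θ g : GL (Fin 2) ℂ) : Matrix (Fin 2) (Fin 2) ℂ).trace = (t g : ℂ)) ∧
      (∀ g, ((θ g : GL (Fin 2) ℂ) : Matrix (Fin 2) (Fin 2) ℂ).det = (d g : ℂ)) := by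
  have hsol : ∃ x : Idx G → ℂ, ∀ f ∈ Set.range (poly t d), MvPolynomial.aeval x f = 0 := by
    apply exists_complex_solution
    refine hinf.mono ?_
    rintro ℓ ⟨Ω, hF, hchar, ψ, r, ht, hd⟩
    refine ⟨Ω, hF, hchar, ψ,
      fun x : Idx G => ((r x.1 : GL (Fin 2) Ω) : Matrix (Fin 2) (Fin 2) Ω) x.2.1 x.2.2, ?_⟩
    rintro f ⟨q, rfl⟩
    exact eval_poly_eq_zero t d ψ r ht hd q
  obtain ⟨x, hx⟩ := hsol
  -- the matrices
  set Mg : G → Matrix (Fin 2) (Fin 2) ℂ := fun g => Matrix.of fun i j => x (g, i, j) with hMg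
  have hone : Mg 1 = 1 := by
    ext i j
    have := hx _ ⟨Eqn.one i j, rfl⟩
    simp only [poly, map_sub, aeval_X, aeval_C] at this
    rw [sub_eq_zero] at this
    simp only [hMg, Matrix.of_apply, this, Matrix.one_apply]
    split_ifs <;> simp
  have hmul : ∀ g h, Mg (g * h) = Mg g * Mg h := by
    intro g h
    ext i j
    have := hx _ ⟨Eqn.mul g h i j, rfl⟩
    simp only [poly, map_sub, map_add, map_mul, aeval_X] at this
    rw [sub_eq_zero] at this
    simp only [hMg, Matrix.of_apply, Matrix.mul_apply, Fin.sum_univ_two]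
    exact this.symm
  have htr : ∀ g, (Mg g).trace = (t g : ℂ) := by
    intro g
    have := hx _ ⟨Eqn.tr g, rfl⟩
    simp only [poly, map_sub, map_add, aeval_X, aeval_C] at this
    rw [sub_eq_zero] at this
    rw [Matrix.trace_fin_two]
    exact this
  have hdet : ∀ g, (Mg g).det = (d g : ℂ) := by
    intro g
    have := hx _ ⟨Eqn.det g, rfl⟩
    simp only [poly, map_sub, map_mul, aeval_X, aeval_C] at this
    rw [sub_eq_zero] at this
    rw [Matrix.det_fin_two]
    exact this
  let f : G →* Matrix (Fin 2) (Fin 2) ℂ :=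
    { toFun := Mg, map_one' := hone, map_mul' := hmul }
  refine ⟨f.toHomUnits, fun g => ?_, fun g => ?_⟩
  · exact htr g
  · exact hdet g

end Fermat.Agent.M48.DSLefRep9
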