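/-
M48 (S48 = Deligne-Serre), block (DS), leaves (C) + (D) (helper9): construction of the complex
representation from a bounded family of residual representations.

Inputs: `B : ResBase N a e`, an infinite set `L` of primes with a residual datum for each `ℓ ∈ L`,
and a bound `A` for the orders of all residual images (`DSBound9.exists_bound`).

* `root_pow_eq_one`: the roots `α, β` of `X² - a_p X + e_p` are `A!`-th roots of unity;
* `ker_transfer`: for `ℓ, ℓ' ∈ L` large the kernels of `ρ_ℓ` and `ρ_ℓ'` coincide;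
* `exists_rho`: a representation `ρ : G_ℚ →* GL₂(ℂ)` of finite level, unramified outside `N`, with
  `tr ρ(Frob_p) = a p`, `det ρ(Frob_p) = e p` for all `p ∤ N`
  (`DSLefRep9.exists_complex_rep` applied to the common quotient).
-/
import Mathlib
import Fermat.Agent.M48.DSInterfaces9
import Fermat.Agent.M48.DSCount9
import Fermat.Agent.M48.DSCheb9
import Fermat.Agent.M48.DSRed9
import Fermat.Agent.M48.DSLefRep9
import Fermat.Agent.M48.DSBound9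
import Fermat.Agent.Lib.FrobeniusExists

set_option autoImplicit false

open Matrix

namespace Fermat.Agent.M48.DSRep9

open Fermat.Agent.M48.DSInterfaces9 Fermat.Agent.M48.DSLef9 Fermat.Agent.M48.DSRed9
  Fermat.Agent.M48.DSCount9

local notation "Qbar" => AlgebraicClosure ℚ
local notation "GQ" => (AlgebraicClosure ℚ ≃ₐ[ℚ] AlgebraicClosure ℚ)

/-! ### Elementary lemmas -/

/-- `u + v = 2`, `u v = 1` in a field force `u = v = 1`. -/
theorem eq_one_of_add_mul {Ω : Type*} [Field Ω] {u v : Ω} (h1 : u + v = 2) (h2 : u * v = 1) :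
    u = 1 ∧ v = 1 := by
  have hu : (u - 1) ^ 2 = 0 := by
    have : v = 2 - u := by rw [← h1]; ring
    rw [this] at h2
    linear_combination -h2
  have hu1 : u = 1 := by
    have := pow_eq_zero_iff (two_ne_zero) |>.mp hu
    exact sub_eq_zero.mp this
  refine ⟨hu1, ?_⟩
  rw [hu1] at h1
  linear_combination h1

/-- An element of `GL₂(k)` of order prime to the characteristic with trace `2` and determinant
`1` is the identity. -/
theorem eq_one_of_trace_det {k : Type*} [Field k] (g : GL (Fin 2) k) {m : ℕ} (hm : (m : k) ≠ 0)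
    (hg : g ^ m = 1) (ht : (g : Matrix (Fin 2) (Fin 2) k).trace = 2)
    (hd : (g : Matrix (Fin 2) (Fin 2) k).det = 1) : g = 1 := by
  have hg' : (g : Matrix (Fin 2) (Fin 2) k) ^ m = 1 := by
    have := congrArg (fun x : GL (Fin 2) k => (x : Matrix (Fin 2) (Fin 2) k)) hg
    simpa using this
  have h1 : (1 : Matrix (Fin 2) (Fin 2) k).trace = (g : Matrix (Fin 2) (Fin 2) k).trace := by
    rw [ht]; simp
  have h2 : (1 : Matrix (Fin 2) (Fin 2) k).det = (g : Matrix (Fin 2) (Fin 2) k).det := by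
    rw [hd, Matrix.det_one]
  have := eq_or_eq_of_commute (Commute.one_left (g : Matrix (Fin 2) (Fin 2) k)) hm (one_pow m) hg'
    h1 h2
  apply Units.ext
  rcases this with h | h
  · exact h
  · rw [h]
    have : (1 : Matrix (Fin 2) (Fin 2) k).trace = 2 := by simp
    rw [this]
    ext i j
    fin_cases i <;> fin_cases j <;> simp <;> norm_num

/-- The product of two homomorphisms of finite level has finite level. -/
theorem level_prod {M₁ M₂ : Type} [Group M₁] [Group M₂] (ρ₁ : GQ →* M₁) (ρ₂ : GQ →* M₂)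
    (h₁ : GaloisFactorsThroughFiniteLevel ρ₁) (h₂ : GaloisFactorsThroughFiniteLevel ρ₂) :
    GaloisFactorsThroughFiniteLevel (ρ₁.prod ρ₂) := by
  obtain ⟨L₁, hL₁, hρ₁⟩ := h₁
  obtain ⟨L₂, hL₂, hρ₂⟩ := h₂
  refine ⟨L₁ ⊔ L₂, IntermediateField.finiteDimensional_sup L₁ L₂, fun σ hσ => ?_⟩
  rw [MonoidHom.prod_apply]
  refine Prod.ext (hρ₁ σ fun x hx => hσ x ?_) (hρ₂ σ fun x hx => hσ x ?_)
  · exact (le_sup_left : L₁ ≤ L₁ ⊔ L₂) hx
  · exact (le_sup_right : L₂ ≤ L₁ ⊔ L₂) hx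


/-! ### Residual data with a reduction map on `ℤ̄` -/

section Red

variable {N : ℕ} {a e : ℕ → ℂ}

/-- A residual datum together with an extension `ψ : ℤ̄ → k̄` of its reduction map. -/
structure Red (B : ResBase N a e) (ℓ : ℕ) : Type 1 where
  D : ResDatum B ℓ
  ψ : Zb →+* AlgebraicClosure D.k
  hψ : ∀ x : B.R, ψ (toZb B x) = algebraMap D.k (AlgebraicClosure D.k) (D.φ x)

theorem nonempty_red {B : ResBase N a e} {ℓ : ℕ} (D : ResDatum B ℓ) : Nonempty (Red B ℓ) := by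
  obtain ⟨ψ, hψ⟩ := exists_psi B D
  exact ⟨⟨D, ψ, hψ⟩⟩

variable {B : ResBase N a e} {ℓ : ℕ}

/-- The residual representation with coefficients extended to the algebraic closure. -/
noncomputable def Red.ρΩ (X : Red B ℓ) : GQ →* GL (Fin 2) (AlgebraicClosure X.D.k) :=
  (Matrix.GeneralLinearGroup.map (algebraMap X.D.k (AlgebraicClosure X.D.k))).comp X.D.ρ

theorem Red.coe_ρΩ (X : Red B ℓ) (σ : GQ) :
    ((X.ρΩ σ : GL (Fin 2) (AlgebraicClosure X.D.k)) :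
      Matrix (Fin 2) (Fin 2) (AlgebraicClosure X.D.k)) =
      (algebraMap X.D.k (AlgebraicClosure X.D.k)).mapMatrix
        ((X.D.ρ σ : GL (Fin 2) X.D.k) : Matrix (Fin 2) (Fin 2) X.D.k) := rfl

theorem Red.trace_ρΩ (X : Red B ℓ) (σ : GQ) :
    ((X.ρΩ σ : GL (Fin 2) (AlgebraicClosure X.D.k)) :
      Matrix (Fin 2) (Fin 2) (AlgebraicClosure X.D.k)).trace =
      algebraMap X.D.k (AlgebraicClosure X.D.k)
        ((X.D.ρ σ : GL (Fin 2) X.D.k) : Matrix (Fin 2) (Fin 2) X.D.k).trace := by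
  rw [Red.coe_ρΩ, Matrix.trace_fin_two, Matrix.trace_fin_two, map_add]
  rfl

theorem Red.det_ρΩ (X : Red B ℓ) (σ : GQ) :
    ((X.ρΩ σ : GL (Fin 2) (AlgebraicClosure X.D.k)) :
      Matrix (Fin 2) (Fin 2) (AlgebraicClosure X.D.k)).det =
      algebraMap X.D.k (AlgebraicClosure X.D.k)
        ((X.D.ρ σ : GL (Fin 2) X.D.k) : Matrix (Fin 2) (Fin 2) X.D.k).det := by
  rw [Red.coe_ρΩ, RingHom.map_det]

theorem Red.ρΩ_eq_one_iff (X : Red B ℓ) (σ : GQ) : X.ρΩ σ = 1 ↔ X.D.ρ σ = 1 := by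
  constructor
  · intro h
    apply Units.ext
    ext i j
    have h1 := congrArg (fun g : GL (Fin 2) (AlgebraicClosure X.D.k) =>
      (g : Matrix (Fin 2) (Fin 2) (AlgebraicClosure X.D.k)) i j) h
    simp only [Red.coe_ρΩ, RingHom.mapMatrix_apply, Matrix.map_apply, Units.val_one] at h1
    apply (algebraMap X.D.k (AlgebraicClosure X.D.k)).injective
    rw [h1, Units.val_one]
    by_cases hij : i = j
    · subst hij; simp
    · simp [Matrix.one_apply_ne hij]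
  · intro h
    unfold Red.ρΩ
    rw [MonoidHom.comp_apply, h, map_one]

/-- Traces and determinants of the powers of a Frobenius element, in terms of the roots
`α, β ∈ ℤ̄` of `X² - a_p X + e_p`. -/
theorem Red.frob_pow (X : Red B ℓ) {p : ℕ} (hp : p.Prime) (hpN : ¬ p ∣ N * ℓ)
    {A : ValuationSubring Qbar} (hA : A.LiesOverPrime p) {φ : GQ} (hφ : A.IsFrobeniusAt φ p)
    {α β : Zb} (hs : α + β = toZb B (B.b p)) (hm : α * β = toZb B (B.c p)) (j : ℕ) :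
    ((X.ρΩ φ ^ j : GL (Fin 2) (AlgebraicClosure X.D.k)) :
        Matrix (Fin 2) (Fin 2) (AlgebraicClosure X.D.k)).trace = X.ψ (α ^ j + β ^ j) ∧
    ((X.ρΩ φ ^ j : GL (Fin 2) (AlgebraicClosure X.D.k)) :
        Matrix (Fin 2) (Fin 2) (AlgebraicClosure X.D.k)).det = X.ψ ((α * β) ^ j) := by
  obtain ⟨ht, hd⟩ := X.D.frob p hp hpN A hA φ hφ
  have ht' : ((X.ρΩ φ : GL (Fin 2) (AlgebraicClosure X.D.k)) :
      Matrix (Fin 2) (Fin 2) (AlgebraicClosure X.D.k)).trace = X.ψ α + X.ψ β := by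
    rw [Red.trace_ρΩ, ht, ← X.hψ, ← hs, map_add]
  have hd' : ((X.ρΩ φ : GL (Fin 2) (AlgebraicClosure X.D.k)) :
      Matrix (Fin 2) (Fin 2) (AlgebraicClosure X.D.k)).det = X.ψ α * X.ψ β := by
    rw [Red.det_ρΩ, hd, ← X.hψ, ← hm, map_mul]
  rw [Units.val_pow_eq_pow_val]
  refine ⟨?_, ?_⟩
  · rw [trace_pow_eq _ _ _ ht' hd', map_add, map_pow, map_pow]
  · rw [det_pow_eq _ _ _ hd', map_pow, map_mul]

/-- `p ∤ N`, `p ≠ ℓ` primes: `p ∤ N ℓ`. -/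
theorem not_dvd_mul {p : ℕ} (hp : p.Prime) (hℓ : ℓ.Prime) (hpN : ¬ p ∣ N) (hpℓ : p ≠ ℓ) :
    ¬ p ∣ N * ℓ := by
  intro h
  rcases (Nat.Prime.dvd_mul hp).mp h with h | h
  · exact hpN h
  · exact hpℓ ((Nat.prime_dvd_prime_iff_eq hp hℓ).mp h)

/-- The image of a Frobenius element at `p` under the reduction of the root `α` of
`X² - a_p X + e_p` is an `n`-th root of unity as soon as `n` kills the residual image. -/
theorem Red.psi_root_pow (X : Red B ℓ) {p : ℕ} (hp : p.Prime) (hpN : ¬ p ∣ N * ℓ)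
    {α β : Zb} (hs : α + β = toZb B (B.b p)) (hm : α * β = toZb B (B.c p)) {n : ℕ}
    (hn : ∀ g ∈ X.D.ρ.range, g ^ n = 1) : X.ψ (α ^ n) = 1 ∧ X.ψ (β ^ n) = 1 := by
  obtain ⟨A, φ, hA, hφ⟩ := Fermat.Agent.Lib.exists_isFrobeniusAt p hp
  obtain ⟨h1, h2⟩ := X.frob_pow hp hpN hA hφ hs hm n
  have hone : X.ρΩ φ ^ n = 1 := by
    rw [← map_pow, Red.ρΩ_eq_one_iff, map_pow]
    exact hn _ ⟨φ, rfl⟩
  rw [hone, Units.val_one] at h1 h2
  have e1 : X.ψ (α ^ n) + X.ψ (β ^ n) = 2 := by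
    rw [← map_add, ← h1]; simp
  have e2 : X.ψ (α ^ n) * X.ψ (β ^ n) = 1 := by
    rw [← map_mul, ← mul_pow, ← h2, Matrix.det_one]
  exact eq_one_of_add_mul e1 e2

/-- **(C)**: the roots of `X² - a_p X + e_p`, `p ∤ N`, are roots of unity of order dividing `A!`
when all residual images have order at most `A`. -/
theorem root_pow_eq_one (L : Set ℕ) (hL : L.Infinite) (hLp : ∀ ℓ ∈ L, ℓ.Prime)
    (X : ∀ ℓ ∈ L, Red B ℓ) (A : ℕ) (hA : ∀ ℓ (h : ℓ ∈ L), Nat.card (X ℓ h).D.ρ.range ≤ A)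
    {p : ℕ} (hp : p.Prime) (hpN : ¬ p ∣ N) {α β : Zb} (hs : α + β = toZb B (B.b p))
    (hm : α * β = toZb B (B.c p)) : α ^ A.factorial = 1 ∧ β ^ A.factorial = 1 := by
  have key : ∀ ℓ (h : ℓ ∈ L), ℓ ≠ p →
      (X ℓ h).ψ (α ^ A.factorial) = 1 ∧ (X ℓ h).ψ (β ^ A.factorial) = 1 := by
    intro ℓ h hne
    have hfin : Finite (X ℓ h).D.ρ.range := DSCheb9.finite_range _ (X ℓ h).D.level
    apply (X ℓ h).psi_root_pow hp (not_dvd_mul hp (hLp ℓ h) hpN (Ne.symm hne)) hs hm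
    intro g hg
    have h1 : (⟨g, hg⟩ : (X ℓ h).D.ρ.range) ^ Nat.card (X ℓ h).D.ρ.range = 1 := pow_card_eq_one'
    have h2 : g ^ Nat.card (X ℓ h).D.ρ.range = 1 := by
      have := congrArg (fun x : (X ℓ h).D.ρ.range => (x : GL (Fin 2) (X ℓ h).D.k)) h1
      rwa [Subgroup.coe_pow, Subgroup.coe_one] at this
    obtain ⟨c, hc⟩ := Nat.dvd_factorial Nat.card_pos (hA ℓ h)
    rw [hc, pow_mul, h2, one_pow]
  have hinf : (L \ {p}).Infinite := hL.sdiff (Set.finite_singleton p)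
  constructor
  · by_contra hne
    have hz : α ^ A.factorial - 1 ≠ 0 := sub_ne_zero.mpr hne
    apply hinf
    refine (finite_char_of_ne_zero hz).subset ?_
    rintro ℓ ⟨hℓ, hℓp⟩
    have hprime : Fact ℓ.Prime := ⟨hLp ℓ hℓ⟩
    refine ⟨AlgebraicClosure (X ℓ hℓ).D.k, inferInstance, inferInstance, (X ℓ hℓ).ψ, ?_⟩
    rw [map_sub, (key ℓ hℓ hℓp).1, map_one, sub_self]
  · by_contra hne
    have hz : β ^ A.factorial - 1 ≠ 0 := sub_ne_zero.mpr hne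
    apply hinf
    refine (finite_char_of_ne_zero hz).subset ?_
    rintro ℓ ⟨hℓ, hℓp⟩
    have hprime : Fact ℓ.Prime := ⟨hLp ℓ hℓ⟩
    refine ⟨AlgebraicClosure (X ℓ hℓ).D.k, inferInstance, inferInstance, (X ℓ hℓ).ψ, ?_⟩
    rw [map_sub, (key ℓ hℓ hℓp).2, map_one, sub_self]

/-- **Transfer of kernels.** If the roots of all `X² - a_p X + e_p` are `n`-th roots of unity,
`ψ` is injective on the `n`-th roots of unity and the image of `ρ'` has order prime to `ℓ'`, then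
`ker ρ ≤ ker ρ'`. -/
theorem ker_transfer (hN : N ≠ 0) {ℓ' : ℕ} (hℓ : ℓ.Prime) (hℓ' : ℓ'.Prime) (X : Red B ℓ)
    (X' : Red B ℓ') (n : ℕ)
    (hroots : ∀ p : ℕ, p.Prime → ¬ p ∣ N → ∀ α β : Zb, α + β = toZb B (B.b p) →
      α * β = toZb B (B.c p) → α ^ n = 1 ∧ β ^ n = 1)
    (hinj : ∀ z : Zb, z ^ n = 1 → X.ψ z = 1 → z = 1)
    (hcard' : Nat.card X'.D.ρ.range < ℓ') (σ : GQ) (hσ : X.D.ρ σ = 1) : X'.D.ρ σ = 1 := by
  have hfin' : Finite X'.D.ρ.range := DSCheb9.finite_range _ X'.D.level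
  have hFact' : Fact ℓ'.Prime := ⟨hℓ'⟩
  -- a common Frobenius power
  obtain ⟨p, A, φ, j, hp, hpT, hA, hφ, hpow⟩ :=
    DSBound9.exists_frobenius_pow (X.D.ρ.prod X'.D.ρ) (level_prod _ _ X.D.level X'.D.level) σ
      (N * ℓ * ℓ').primeFactors
  have hne : N * ℓ * ℓ' ≠ 0 := mul_ne_zero (mul_ne_zero hN hℓ.ne_zero) hℓ'.ne_zero
  have hpNll : ¬ p ∣ N * ℓ * ℓ' := fun h => hpT (Nat.mem_primeFactors.mpr ⟨hp, h, hne⟩)
  have hpN : ¬ p ∣ N := fun h => hpNll (Dvd.dvd.mul_right (Dvd.dvd.mul_right h ℓ) ℓ')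
  have hpNl : ¬ p ∣ N * ℓ := fun h => hpNll (Dvd.dvd.mul_right h ℓ')
  have hpNl' : ¬ p ∣ N * ℓ' := fun h => hpNll (by
    have : N * ℓ * ℓ' = N * ℓ' * ℓ := by ring
    rw [this]; exact Dvd.dvd.mul_right h ℓ)
  rw [MonoidHom.prod_apply, MonoidHom.prod_apply, Prod.pow_mk, Prod.mk.injEq] at hpow
  obtain ⟨hpow1, hpow2⟩ := hpow
  -- the roots
  obtain ⟨α, β, hs, hm⟩ := exists_roots (toZb B (B.b p)) (toZb B (B.c p))
  obtain ⟨hαn, hβn⟩ := hroots p hp hpN α β hs hm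
  -- `α ^ j = β ^ j = 1`
  have hone : X.ρΩ φ ^ j = 1 := by
    rw [← map_pow, Red.ρΩ_eq_one_iff, map_pow, ← hpow1, hσ]
  obtain ⟨h1, h2⟩ := X.frob_pow hp hpNl hA hφ hs hm j
  rw [hone, Units.val_one] at h1 h2
  have e1 : X.ψ (α ^ j) + X.ψ (β ^ j) = 2 := by
    rw [← map_add, ← h1]; simp
  have e2 : X.ψ (α ^ j) * X.ψ (β ^ j) = 1 := by
    rw [← map_mul, ← mul_pow, ← h2, Matrix.det_one]
  obtain ⟨f1, f2⟩ := eq_one_of_add_mul e1 e2
  have hαj : α ^ j = 1 := hinj _ (by rw [← pow_mul, mul_comm, pow_mul, hαn, one_pow]) f1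
  have hβj : β ^ j = 1 := hinj _ (by rw [← pow_mul, mul_comm, pow_mul, hβn, one_pow]) f2
  -- trace and determinant of `ρ' φ ^ j`
  obtain ⟨h1', h2'⟩ := X'.frob_pow hp hpNl' hA hφ hs hm j
  rw [hαj, hβj, map_add, map_one] at h1'
  rw [mul_pow, hαj, hβj, mul_one, map_one] at h2'
  rw [← map_pow, Red.trace_ρΩ] at h1'
  rw [← map_pow, Red.det_ρΩ] at h2'
  have ht : ((X'.D.ρ (φ ^ j) : GL (Fin 2) X'.D.k) : Matrix (Fin 2) (Fin 2) X'.D.k).trace = 2 := by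
    apply (algebraMap X'.D.k (AlgebraicClosure X'.D.k)).injective
    rw [h1', map_ofNat]
    norm_num
  have hd : ((X'.D.ρ (φ ^ j) : GL (Fin 2) X'.D.k) : Matrix (Fin 2) (Fin 2) X'.D.k).det = 1 := by
    apply (algebraMap X'.D.k (AlgebraicClosure X'.D.k)).injective
    rw [h2', map_one]
  -- order prime to `ℓ'`
  set m := Nat.card X'.D.ρ.range with hm'
  have hmpos : 0 < m := Nat.card_pos
  have hmk : ((m : ℕ) : X'.D.k) ≠ 0 := by
    intro h0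
    have := (CharP.cast_eq_zero_iff X'.D.k ℓ' m).mp h0
    exact absurd (Nat.le_of_dvd hmpos this) (not_le.mpr hcard')
  have hgm : X'.D.ρ (φ ^ j) ^ m = 1 := by
    have h1 : (⟨X'.D.ρ (φ ^ j), ⟨φ ^ j, rfl⟩⟩ : X'.D.ρ.range) ^ m = 1 := pow_card_eq_one'
    have := congrArg (fun x : X'.D.ρ.range => (x : GL (Fin 2) X'.D.k)) h1
    rwa [Subgroup.coe_pow, Subgroup.coe_one] at this
  have := eq_one_of_trace_det _ hmk hgm ht hd
  rw [hpow2, ← map_pow]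
  exact this

/-- Descent of a homomorphism along a surjection. -/
theorem exists_desc {G₀ M : Type} [Group G₀] [Group M] (π : GQ →* G₀)
    (hπ : Function.Surjective π) (f : GQ →* M) (hker : π.ker ≤ f.ker) :
    ∃ r : G₀ →* M, ∀ σ, r (π σ) = f σ :=
  ⟨π.liftOfSurjective hπ ⟨f, hker⟩, fun σ => MonoidHom.liftOfRightInverse_comp_apply _ _ _ _ σ⟩

/-- **(D)**: the complex representation. -/
theorem exists_rho (B : ResBase N a e) (hN : N ≠ 0) (L : Set ℕ) (hL : L.Infinite)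
    (hX : ∀ ℓ ∈ L, ℓ.Prime ∧ Nonempty (ResDatum B ℓ)) (A : ℕ)
    (hA : ∀ ℓ : ℕ, ℓ.Prime → ∀ D : ResDatum B ℓ, Nat.card D.ρ.range ≤ A) :
    ∃ ρ : GQ →* GL (Fin 2) ℂ, GaloisFactorsThroughFiniteLevel ρ ∧
      ∀ p : ℕ, p.Prime → ¬ p ∣ N →
        ∀ A' : ValuationSubring Qbar, A'.LiesOverPrime p →
          (∀ σ ∈ A'.inertiaSubgroupIn ℚ, ρ σ = 1) ∧
          ∀ σ : GQ, A'.IsFrobeniusAt σ p →
            ((ρ σ : GL (Fin 2) ℂ) : Matrix (Fin 2) (Fin 2) ℂ).trace = a p ∧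
            ((ρ σ : GL (Fin 2) ℂ) : Matrix (Fin 2) (Fin 2) ℂ).det = e p := by
  classical
  have hLp : ∀ ℓ ∈ L, ℓ.Prime := fun ℓ h => (hX ℓ h).1
  have hXne : ∀ ℓ (h : ℓ ∈ L), Nonempty (Red B ℓ) := fun ℓ h => by
    obtain ⟨D⟩ := (hX ℓ h).2
    exact nonempty_red D
  let X : ∀ ℓ (h : ℓ ∈ L), Red B ℓ := fun ℓ h => Classical.choice (hXne ℓ h)
  have hAX : ∀ ℓ (h : ℓ ∈ L), Nat.card (X ℓ h).D.ρ.range ≤ A := fun ℓ h => hA ℓ (hLp ℓ h) _
  set n := A.factorial with hn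
  have hnpos : 0 < n := Nat.factorial_pos A
  have hroots : ∀ p : ℕ, p.Prime → ¬ p ∣ N → ∀ α β : Zb, α + β = toZb B (B.b p) →
      α * β = toZb B (B.c p) → α ^ n = 1 ∧ β ^ n = 1 := fun p hp hpN α β hs hm =>
    root_pow_eq_one L hL hLp X A hAX hp hpN hs hm
  -- injectivity on the roots of unity
  obtain ⟨n₀, hn₀⟩ := exists_bound_injOn (Polynomial.nthRootsFinset n (1 : Zb))
  have hinj : ∀ ℓ (h : ℓ ∈ L), n₀ < ℓ → ∀ z : Zb, z ^ n = 1 → (X ℓ h).ψ z = 1 → z = 1 := by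
    intro ℓ h hℓ z hz hψz
    have hF : Fact ℓ.Prime := ⟨hLp ℓ h⟩
    apply hn₀ ℓ hℓ (AlgebraicClosure (X ℓ h).D.k) (X ℓ h).ψ
    · rw [Finset.mem_coe, Polynomial.mem_nthRootsFinset hnpos]; exact hz
    · rw [Finset.mem_coe, Polynomial.mem_nthRootsFinset hnpos]; exact one_pow n
    · rw [hψz, map_one]
  -- the large primes of `L`
  set L' : Set ℕ := L \ Set.Iic (max A n₀) with hL'
  have hL'inf : L'.Infinite := hL.sdiff (Set.finite_Iic _)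
  have hL'L : ∀ ℓ ∈ L', ℓ ∈ L := fun ℓ h => h.1
  have hL'A : ∀ ℓ ∈ L', A < ℓ := fun ℓ h => by
    have := h.2
    rw [Set.mem_Iic, not_le] at this
    exact lt_of_le_of_lt (le_max_left _ _) this
  have hL'n : ∀ ℓ ∈ L', n₀ < ℓ := fun ℓ h => by
    have := h.2
    rw [Set.mem_Iic, not_le] at this
    exact lt_of_le_of_lt (le_max_right _ _) this
  have hker : ∀ ℓ (h : ℓ ∈ L') ℓ' (h' : ℓ' ∈ L') (σ : GQ),
      (X ℓ (hL'L ℓ h)).D.ρ σ = 1 → (X ℓ' (hL'L ℓ' h')).D.ρ σ = 1 := by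
    intro ℓ h ℓ' h' σ hσ
    exact ker_transfer hN (hLp ℓ (hL'L ℓ h)) (hLp ℓ' (hL'L ℓ' h')) _ _ n hroots
      (hinj ℓ (hL'L ℓ h) (hL'n ℓ h)) (lt_of_le_of_lt (hAX ℓ' (hL'L ℓ' h')) (hL'A ℓ' h')) σ hσ
  -- the base prime and the finite group
  obtain ⟨ℓ₀, hℓ₀⟩ := hL'inf.nonempty
  set X₀ := X ℓ₀ (hL'L ℓ₀ hℓ₀) with hX₀
  have hfin₀ : Finite X₀.D.ρ.range := DSCheb9.finite_range _ X₀.D.level
  set π : GQ →* X₀.D.ρ.range := X₀.D.ρ.rangeRestrict with hπdef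
  have hπ : Function.Surjective π := X₀.D.ρ.rangeRestrict_surjective
  have hπ1 : ∀ σ, π σ = 1 ↔ X₀.D.ρ σ = 1 := by
    intro σ
    constructor
    · intro h
      have := congrArg (fun x : X₀.D.ρ.range => (x : GL (Fin 2) X₀.D.k)) h
      exact this
    · intro h
      exact Subtype.ext h
  -- class functions
  have hchoice : ∀ g : X₀.D.ρ.range, ∃ (p : ℕ) (φ : GQ) (j : ℕ) (A' : ValuationSubring Qbar),
      p.Prime ∧ ¬ p ∣ N * ℓ₀ ∧ A'.LiesOverPrime p ∧ A'.IsFrobeniusAt φ p ∧ g = π φ ^ j := by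
    intro g
    obtain ⟨σ, rfl⟩ := hπ g
    obtain ⟨p, A', φ, j, hp, hpT, hA', hφ, hpow⟩ :=
      DSBound9.exists_frobenius_pow X₀.D.ρ X₀.D.level σ (N * ℓ₀).primeFactors
    refine ⟨p, φ, j, A', hp, fun h => hpT (Nat.mem_primeFactors.mpr ⟨hp, h,
      mul_ne_zero hN (hLp ℓ₀ (hL'L ℓ₀ hℓ₀)).ne_zero⟩), hA', hφ, ?_⟩
    apply Subtype.ext
    rw [Subgroup.coe_pow]
    exact hpow
  choose pg φg jg Ag hpg hpgN hAg hφg hgpow using hchoice
  have hpgN' : ∀ g, ¬ pg g ∣ N := fun g h => hpgN g (Dvd.dvd.mul_right h ℓ₀)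
  have hrts : ∀ g : X₀.D.ρ.range, ∃ α β : Zb, α + β = toZb B (B.b (pg g)) ∧
      α * β = toZb B (B.c (pg g)) := fun g => exists_roots _ _
  choose αg βg hαβs hαβm using hrts
  set t : X₀.D.ρ.range → Zb := fun g => αg g ^ jg g + βg g ^ jg g with ht
  set d : X₀.D.ρ.range → Zb := fun g => (αg g * βg g) ^ jg g with hd
  -- the primes of `L'` different from all `pg g`
  set L'' : Set ℕ := L' \ Set.range pg with hL''
  have hL''inf : L''.Infinite := hL'inf.sdiff (Set.finite_range pg)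
  have hL''L' : ∀ ℓ ∈ L'', ℓ ∈ L' := fun ℓ h => h.1
  have hL''ne : ∀ ℓ ∈ L'', ∀ g, pg g ≠ ℓ := fun ℓ h g hg => h.2 ⟨g, hg⟩
  have key : ∀ ℓ (h : ℓ ∈ L'') (σ : GQ),
      (((X ℓ (hL'L ℓ (hL''L' ℓ h))).ρΩ σ : GL (Fin 2) _) : Matrix (Fin 2) (Fin 2) _).trace =
        (X ℓ (hL'L ℓ (hL''L' ℓ h))).ψ (t (π σ)) ∧
      (((X ℓ (hL'L ℓ (hL''L' ℓ h))).ρΩ σ : GL (Fin 2) _) : Matrix (Fin 2) (Fin 2) _).det =
        (X ℓ (hL'L ℓ (hL''L' ℓ h))).ψ (d (π σ)) := by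
    intro ℓ h σ
    set g := π σ with hg
    have h1 : π (σ⁻¹ * φg g ^ jg g) = 1 := by
      rw [map_mul, map_inv, map_pow, ← hgpow g, hg, inv_mul_cancel]
    have h2 : (X ℓ (hL'L ℓ (hL''L' ℓ h))).D.ρ (σ⁻¹ * φg g ^ jg g) = 1 :=
      hker ℓ₀ hℓ₀ ℓ (hL''L' ℓ h) _ ((hπ1 _).mp h1)
    have h3 : (X ℓ (hL'L ℓ (hL''L' ℓ h))).ρΩ σ =
        (X ℓ (hL'L ℓ (hL''L' ℓ h))).ρΩ (φg g) ^ jg g := by
      have := ((X ℓ (hL'L ℓ (hL''L' ℓ h))).ρΩ_eq_one_iff _).mpr h2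
      rw [map_mul, map_inv, map_pow] at this
      exact inv_mul_eq_one.mp this
    rw [h3]
    exact (X ℓ (hL'L ℓ (hL''L' ℓ h))).frob_pow (hpg g)
      (not_dvd_mul (hpg g) (hLp ℓ (hL'L ℓ (hL''L' ℓ h))) (hpgN' g) (hL''ne ℓ h g)) (hAg g) (hφg g)
      (hαβs g) (hαβm g) (jg g)
  -- the Lefschetz principle
  have hinf : {ℓ : ℕ | ∃ (Ω : Type) (_ : Field Ω) (_ : CharP Ω ℓ) (ψ : Zb →+* Ω)
      (r : X₀.D.ρ.range →* GL (Fin 2) Ω),
      (∀ g, ((r g : GL (Fin 2) Ω) : Matrix (Fin 2) (Fin 2) Ω).trace = ψ (t g)) ∧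
      (∀ g, ((r g : GL (Fin 2) Ω) : Matrix (Fin 2) (Fin 2) Ω).det = ψ (d g))}.Infinite := by
    refine hL''inf.mono ?_
    intro ℓ h
    have hF : Fact ℓ.Prime := ⟨hLp ℓ (hL'L ℓ (hL''L' ℓ h))⟩
    obtain ⟨r, hr⟩ := exists_desc π hπ (X ℓ (hL'L ℓ (hL''L' ℓ h))).ρΩ (by
      intro σ hσ
      rw [MonoidHom.mem_ker] at hσ ⊢
      rw [Red.ρΩ_eq_one_iff]
      exact hker ℓ₀ hℓ₀ ℓ (hL''L' ℓ h) σ ((hπ1 σ).mp hσ))
    refine ⟨AlgebraicClosure (X ℓ (hL'L ℓ (hL''L' ℓ h))).D.k, inferInstance, inferInstance,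
      (X ℓ (hL'L ℓ (hL''L' ℓ h))).ψ, r, fun g => ?_, fun g => ?_⟩
    · obtain ⟨σ, rfl⟩ := hπ g
      rw [hr]
      exact (key ℓ h σ).1
    · obtain ⟨σ, rfl⟩ := hπ g
      rw [hr]
      exact (key ℓ h σ).2
  obtain ⟨θ, hθt, hθd⟩ := DSLefRep9.exists_complex_rep t d hinf
  refine ⟨θ.comp π, ?_, ?_⟩
  · -- finite level
    obtain ⟨L₀, hL₀, h1⟩ := X₀.D.level
    refine ⟨L₀, hL₀, fun σ hσ => ?_⟩
    rw [MonoidHom.comp_apply, (hπ1 σ).mpr (h1 σ hσ), map_one]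
  · intro p hp hpN A' hA'
    -- an auxiliary prime of `L''` different from `p`
    have hinfp : (L'' \ {p}).Infinite := hL''inf.sdiff (Set.finite_singleton p)
    refine ⟨fun σ hσ => ?_, fun σ hσ => ?_⟩
    · obtain ⟨ℓ₁, hℓ₁, hℓ₁p⟩ := hinfp.nonempty
      have hℓ₁L := hL'L ℓ₁ (hL''L' ℓ₁ hℓ₁)
      have h1 : (X ℓ₁ hℓ₁L).D.ρ σ = 1 :=
        (X ℓ₁ hℓ₁L).D.unram p hp (not_dvd_mul hp (hLp ℓ₁ hℓ₁L) hpN (fun h => hℓ₁p h.symm)) A' hA' σ hσ
      have h2 : X₀.D.ρ σ = 1 := hker ℓ₁ (hL''L' ℓ₁ hℓ₁) ℓ₀ hℓ₀ σ h1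
      rw [MonoidHom.comp_apply, (hπ1 σ).mpr h2, map_one]
    · -- traces and determinants at Frobenius elements
      have hψeq : ∀ ℓ (h : ℓ ∈ L'' \ {p}),
          (X ℓ (hL'L ℓ (hL''L' ℓ h.1))).ψ (t (π σ)) =
            (X ℓ (hL'L ℓ (hL''L' ℓ h.1))).ψ (toZb B (B.b p)) ∧
          (X ℓ (hL'L ℓ (hL''L' ℓ h.1))).ψ (d (π σ)) =
            (X ℓ (hL'L ℓ (hL''L' ℓ h.1))).ψ (toZb B (B.c p)) := by
        intro ℓ h
        have hℓL := hL'L ℓ (hL''L' ℓ h.1)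
        obtain ⟨k1, k2⟩ := key ℓ h.1 σ
        obtain ⟨f1, f2⟩ := (X ℓ hℓL).D.frob p hp
          (not_dvd_mul hp (hLp ℓ hℓL) hpN (fun hh => h.2 hh.symm)) A' hA' σ hσ
        rw [Red.trace_ρΩ, f1, ← (X ℓ hℓL).hψ] at k1
        rw [Red.det_ρΩ, f2, ← (X ℓ hℓL).hψ] at k2
        exact ⟨k1.symm, k2.symm⟩
      have ht_eq : t (π σ) = toZb B (B.b p) := by
        by_contra hne
        apply hinfp
        refine (finite_char_of_ne_zero (sub_ne_zero.mpr hne)).subset ?_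
        intro ℓ h
        have hF : Fact ℓ.Prime := ⟨hLp ℓ (hL'L ℓ (hL''L' ℓ h.1))⟩
        refine ⟨AlgebraicClosure (X ℓ (hL'L ℓ (hL''L' ℓ h.1))).D.k, inferInstance, inferInstance,
          (X ℓ (hL'L ℓ (hL''L' ℓ h.1))).ψ, ?_⟩
        rw [map_sub, (hψeq ℓ h).1, sub_self]
      have hd_eq : d (π σ) = toZb B (B.c p) := by
        by_contra hne
        apply hinfp
        refine (finite_char_of_ne_zero (sub_ne_zero.mpr hne)).subset ?_
        intro ℓ h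
        have hF : Fact ℓ.Prime := ⟨hLp ℓ (hL'L ℓ (hL''L' ℓ h.1))⟩
        refine ⟨AlgebraicClosure (X ℓ (hL'L ℓ (hL''L' ℓ h.1))).D.k, inferInstance, inferInstance,
          (X ℓ (hL'L ℓ (hL''L' ℓ h.1))).ψ, ?_⟩
        rw [map_sub, (hψeq ℓ h).2, sub_self]
      rw [MonoidHom.comp_apply, hθt, hθd, ht_eq, hd_eq, coe_toZb, coe_toZb, B.hb p hp hpN,
        B.hc p hp hpN]
      exact ⟨rfl, rfl⟩

end Red

end Fermat.Agent.M48.DSRep9
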