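/-
M48 (S48 = Deligne-Serre), block (DS) (helper9): THE TARGET `DSInterfaces9.DSAlgStmt` PROVED.

From an infinite family of semisimple residual representations `ρ_ℓ : G_ℚ → GL₂(k_ℓ)`
(`ResDatum B ℓ`, `ℓ ∈ L`) with Frobenius traces and determinants the reductions of `a p`, `e p`, and
the three inputs (SPARSE), (CHEB), (RANKIN), there is an irreducible `ρ : G_ℚ →* GL₂(ℂ)` of finite
level, unramified outside `N`, with `tr ρ(Frob_p) = a p`, `det ρ(Frob_p) = e p` for `p ∤ N`.

Route (Deligne-Serre §7-§8, with the lifting to characteristic zero replaced by a Lefschetz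
principle):
* `DSBound9.exists_bound`     (B)  the residual images are bounded [(SPARSE) + (CHEB) + Prop. 7.2,
                                   helper6's trichotomy];
* `DSRep9.exists_rho`         (C)+(D)  roots of unity, common kernel, `DSLefRep9.exists_complex_rep`;
* `DSIrred9.isIrreducible`    (E)  irreducibility [(RANKIN) + (CHEB)].
-/
import Mathlib
import Fermat.Agent.M48.DSInterfaces9
import Fermat.Agent.M48.DSBound9
import Fermat.Agent.M48.DSRep9
import Fermat.Agent.M48.DSIrred9

set_option autoImplicit false

namespace Fermat.Agent.M48.DSMain9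

open Fermat.Agent.M48.DSInterfaces9

/-- **Block (DS) of S48**: the Deligne-Serre argument against an abstract residual family. -/
theorem dsAlg : DSAlgStmt := by
  intro N hN a e B L hL hX hS hC hR
  obtain ⟨A, hA⟩ := DSBound9.exists_bound B hN hS hC
  obtain ⟨ρ, hlev, hρ⟩ := DSRep9.exists_rho B hN L hL hX A hA
  exact ⟨ρ, hlev,
    DSIrred9.isIrreducible hC hN hR ρ hlev
      (fun p hp hpN A' hA' σ hσ => ((hρ p hp hpN A' hA').2 σ hσ).1),
    hρ⟩

end Fermat.Agent.M48.DSMain9
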