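/-
Programme M48, pillar (P1), chapter [GAL1] — helper9.  **`gal1Stmt : P1Jac8.GAL1Stmt`,
UNCONDITIONAL**: `Gal1Of9.gal1Stmt_of` with the curve fact `IsGen ℚbar j` for `FK ℚbar M 1`
discharged by helper2's `G10Degree2.isGen_jK` (the two elements `j` have the same `q`-expansion
`coeffEmb ℚbar jq = jqModC ℚbar`).
-/
import Mathlib
import Fermat.Agent.M48.Gal1Of9
import Fermat.Agent.M48.G10Degree2

set_option autoImplicit false

noncomputable section

open AlgebraicCurve ModularCurve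

namespace Fermat.Agent.M48.Gal1Stmt9

open Fermat.Agent.M48.J1Defs8 Fermat.Agent.M48.P1Jac8

/-- `ℚbar`. -/
local notation "Qb" => AlgebraicClosure ℚ

/-- the two formal `j`'s coincide. -/
theorem jK_eq (K : Type*) [Field K] [Algebra ℚ K] (M L : ℕ) [NeZero M] [NeZero L] :
    Gal1Of9.jK K M L = G10Degree2.jK M L K :=
  Subtype.ext (G10Degree2.coeffEmb_jq K)

/-- **[GAL1] for every level `2 ≤ M`.** -/
theorem gal1 (M : ℕ) [NeZero M] (hM : 2 ≤ M) : GAL1 M :=
  Gal1Of9.gal1_of M (by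
    rw [jK_eq Qb M 1]
    exact G10Degree2.isGen_jK M 1 hM Qb)

/-- **[GAL1]**, literal target, unconditional. -/
theorem gal1Stmt : GAL1Stmt := fun M _ hM => gal1 M hM

end Fermat.Agent.M48.Gal1Stmt9
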