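/-
Programme M48 (target S48), pillar (P1), chapter [DICT] for `Γ₁` (helper4), file G8b:
the two consumer forms of EXACTNESS for an abstract analytic model `A : AnModel Γ N F₀`:

* `ratio_mem`: the ratio of two holomorphic functions on `ℍ` of the same weight `k ∈ ℤ` for `Γ`, all
  of whose slashes have poles of finite order at `i∞`, lies in `Θ(F)` (modular forms, cusp forms,
  `dj/dz`, ...);
* `root_mem`: a `Γ`-invariant meromorphic `n`-th root of an element of `Θ(F)` lies in `Θ(F)`.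

Ports of `ES/KUM/RatioAlg15.ratio_mem_fracA`, `RatioMem15.ratio_mem`, `RatioMem15.root_mem`.
-/
import Fermat.Agent.M48.AnRatio4

set_option autoImplicit false
set_option linter.unusedSectionVars false
set_option linter.style.haveILetI false

open UpperHalfPlane ModularForm CongruenceSubgroup Polynomial IntermediateField ModularCurve
open scoped MatrixGroups Manifold

noncomputable section

namespace Fermat.Agent.M48.AnRatioMem4

open Fermat.Agent.X0 Fermat.Agent.X0.SurjPoint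
open Fermat.Agent.ES.KUM.RatioAlg15 (Bdd bdd_const bdd_zero bdd_one
  isBoundedAtImInfty_discriminant_pow algebraMap_ne_zero divDisc divDisc_apply)
open Fermat.Agent.ES.KUM.RatioMem15 (exists_const_of_pow_eq_one)
open Fermat.Agent.ES.KUM (slMer slMer_algebraMap ordMer ordMer_algebraMap ordMer_pow)
open Fermat.Agent.M48.DictIface4 Fermat.Agent.M48.AnReal4 Fermat.Agent.M48.AnDegree4
open Fermat.Agent.M48.AnRatio4

local notation "Δ" => ModularForm.discriminant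

/-! ### slashes of products -/

/-- the pole order condition at the cusp `γ ∞`, for weight `k`. -/
def CuspBdd (k : ℤ) (P : ℍ → ℂ) : Prop :=
  ∀ γ : SL(2, ℤ), ∃ m : ℕ, IsBoundedAtImInfty (fun z => (P ∣[k] γ) z * Δ z ^ m)

theorem cuspBdd_of_bounded {k : ℤ} {P : ℍ → ℂ}
    (h : ∀ γ : SL(2, ℤ), IsBoundedAtImInfty (P ∣[k] γ)) : CuspBdd k P := fun γ =>
  ⟨0, by simpa using h γ⟩

theorem slash_mul_pow (k : ℤ) (P Q : ℍ → ℂ) (r : ℕ) (γ : SL(2, ℤ)) :
    (fun z => P z * Q z ^ r) ∣[k + r * k] γ = fun z => (P ∣[k] γ) z * (Q ∣[k] γ) z ^ r := by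
  funext z
  rw [SL_slash_apply, SL_slash_apply, SL_slash_apply]
  have hd : denom γ z ≠ 0 := denom_ne_zero γ z
  rw [mul_pow, ← zpow_natCast (denom γ z ^ (-k)) r, ← zpow_mul, neg_add, zpow_add₀ hd]
  rw [show -((r : ℤ) * k) = -k * (r : ℤ) by ring]
  ring

theorem slash_mul_disc_pow (k : ℤ) (P : ℍ → ℂ) (n : ℕ) (γ : SL(2, ℤ)) :
    (fun z => P z * Δ z ^ n) ∣[k + 12 * n] γ = fun z => (P ∣[k] γ) z * Δ z ^ n := by
  funext z
  rw [SL_slash_apply, SL_slash_apply, lof_discriminant_smul]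
  have hd : denom γ z ≠ 0 := denom_ne_zero γ z
  rw [mul_pow, ← zpow_natCast (denom γ z ^ (12 : ℤ)) n, ← zpow_mul, neg_add, zpow_add₀ hd,
    zpow_neg (denom γ z) (12 * (n : ℤ))]
  field_simp

section Alg

variable {Γ : Subgroup SL(2, ℤ)} [Finite (Q Γ)]

/-- A holomorphic function of weight `12 n` for `Γ`, all of whose slashes have a pole of finite
order at `i∞`, divided by `Δ^n`, lies in `𝒜`. -/
theorem divDisc_mem_algA' (F : ℍ → ℂ) (hF : MDifferentiable 𝓘(ℂ) 𝓘(ℂ) F) (n : ℕ)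
    (hinv : ∀ γ ∈ Γ, F ∣[(12 * n : ℤ)] γ = F) (hbdd : CuspBdd (12 * n) F) :
    divDisc F hF n ∈ algA Γ := by
  have key : ∀ (γ : SL(2, ℤ)) (z : ℍ),
      F (γ • z) / Δ (γ • z) ^ n = (F ∣[(12 * n : ℤ)] γ) z / Δ z ^ n := by
    intro γ z
    have hd : denom γ z ≠ 0 := denom_ne_zero γ z
    have hΔ : Δ z ≠ 0 := discriminant_ne_zero z
    rw [SL_slash_apply, lof_discriminant_smul, mul_pow, ← zpow_natCast (denom γ z ^ (12 : ℤ)) n,
      ← zpow_mul, zpow_neg]
    field_simp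
  have hinv' : ∀ γ ∈ Γ, compSL (divDisc F hF n).1 γ = (divDisc F hF n).1 := by
    intro γ hγ
    funext z
    show F (γ • z) / Δ (γ • z) ^ n = F z / Δ z ^ n
    rw [key, hinv γ hγ]
  refine ⟨hinv', exists_uniform_bdd hinv' fun γ => ?_⟩
  obtain ⟨m, hm⟩ := hbdd γ
  refine ⟨n + m, ?_⟩
  have e : (fun z => compSL (divDisc F hF n).1 γ z * Δ z ^ (n + m)) =
      fun z => (F ∣[(12 * n : ℤ)] γ) z * Δ z ^ m := by
    funext z
    show F (γ • z) / Δ (γ • z) ^ n * Δ z ^ (n + m) = _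
    rw [key, pow_add]
    have := pow_ne_zero n (discriminant_ne_zero z)
    field_simp
  unfold Bdd
  rw [e]
  exact hm

/-- the ratio of two holomorphic functions of the same weight `w ∈ ℕ` lies in `Frac 𝒜`. -/
theorem ratio_mem_fracA_nat (w : ℕ) (P R : HolH) (hR0 : R ≠ 0)
    (hPinv : ∀ γ ∈ Γ, P.1 ∣[(w : ℤ)] γ = P.1) (hRinv : ∀ γ ∈ Γ, R.1 ∣[(w : ℤ)] γ = R.1)
    (hPbd : CuspBdd w P.1) (hRbd : CuspBdd w R.1) :
    algebraMap HolH MerH P / algebraMap HolH MerH R ∈ fracA Γ := by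
  set Fa : HolH := P * R ^ 11 with hFa
  set Fb : HolH := R * R ^ 11 with hFb
  have hw : ((w : ℤ) + (11 : ℕ) * (w : ℤ)) = 12 * (w : ℤ) := by push_cast; ring
  have hFa1 : Fa.1 = fun z => P.1 z * R.1 z ^ 11 := rfl
  have hFb1 : Fb.1 = fun z => R.1 z * R.1 z ^ 11 := rfl
  have hslash : ∀ (S : HolH) (γ : SL(2, ℤ)), (fun z => S.1 z * R.1 z ^ 11) ∣[(12 * w : ℤ)] γ =
      fun z => (S.1 ∣[(w : ℤ)] γ) z * (R.1 ∣[(w : ℤ)] γ) z ^ 11 := by
    intro S γ
    rw [← hw]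
    exact slash_mul_pow (w : ℤ) S.1 R.1 11 γ
  have hmem : ∀ S : HolH, (∀ γ ∈ Γ, S.1 ∣[(w : ℤ)] γ = S.1) → CuspBdd w S.1 →
      divDisc (S * R ^ 11).1 (S * R ^ 11).2 w ∈ algA Γ := by
    intro S hSinv hSbd
    apply divDisc_mem_algA'
    · intro γ hγ
      show (fun z => S.1 z * R.1 z ^ 11) ∣[(12 * w : ℤ)] γ = _
      rw [hslash, hSinv γ hγ, hRinv γ hγ]
      rfl
    · intro γ
      obtain ⟨m₁, h₁⟩ := hSbd γ
      obtain ⟨m₂, h₂⟩ := hRbd γ
      refine ⟨m₁ + 11 * m₂, ?_⟩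
      have h2pow : IsBoundedAtImInfty (fun z => ((R.1 ∣[(w : ℤ)] γ) z * Δ z ^ m₂) ^ 11) := by
        have : ∀ r : ℕ, IsBoundedAtImInfty (fun z => ((R.1 ∣[(w : ℤ)] γ) z * Δ z ^ m₂) ^ r) := by
          intro r
          induction r with
          | zero =>
            have e0 : (fun z : ℍ => ((R.1 ∣[(w : ℤ)] γ) z * Δ z ^ m₂) ^ 0) =
                Function.const ℍ (1 : ℂ) := by
              funext z; simp
            rw [e0]
            exact Filter.const_boundedAtFilter atImInfty (1 : ℂ)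
          | succ r ih =>
            have := Filter.BoundedAtFilter.mul ih h₂
            have e : (fun z => ((R.1 ∣[(w : ℤ)] γ) z * Δ z ^ m₂) ^ (r + 1)) =
                (fun z => ((R.1 ∣[(w : ℤ)] γ) z * Δ z ^ m₂) ^ r) *
                  fun z => (R.1 ∣[(w : ℤ)] γ) z * Δ z ^ m₂ := by
              funext z; simp [pow_succ]
            rw [e]; exact this
        exact this 11
      have := Filter.BoundedAtFilter.mul h₁ h2pow
      have e : (fun z => ((S * R ^ 11).1 ∣[(12 * w : ℤ)] γ) z * Δ z ^ (m₁ + 11 * m₂)) =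
          (fun z => (S.1 ∣[(w : ℤ)] γ) z * Δ z ^ m₁) *
            fun z => ((R.1 ∣[(w : ℤ)] γ) z * Δ z ^ m₂) ^ 11 := by
        have h3 : (S * R ^ 11).1 = fun z => S.1 z * R.1 z ^ 11 := rfl
        rw [h3, hslash]
        funext z
        simp only [Pi.mul_apply]
        rw [pow_add, mul_pow, ← pow_mul, mul_comm m₂ 11]
        ring
      rw [e]
      exact this
  have ha := hmem P hPinv hPbd
  have hb := hmem R hRinv hRbd
  obtain ⟨z₀, hz₀⟩ : ∃ z, R.1 z ≠ 0 := by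
    by_contra h
    exact hR0 (Subtype.ext (funext fun z => not_not.mp fun hz => h ⟨z, hz⟩))
  have hb0 : divDisc (R * R ^ 11).1 (R * R ^ 11).2 w ≠ 0 := by
    intro h
    have h1 := congrArg (fun f : HolH => f.1 z₀) h
    simp only [divDisc_apply] at h1
    have h2 : (0 : HolH).1 z₀ = 0 := rfl
    have h3 : (R * R ^ 11).1 z₀ = R.1 z₀ * R.1 z₀ ^ 11 := rfl
    rw [h2, h3, div_eq_zero_iff] at h1
    rcases h1 with h1 | h1
    · rcases mul_eq_zero.mp h1 with h1 | h1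
      · exact hz₀ h1
      · exact hz₀ (pow_eq_zero_iff (by norm_num) |>.mp h1)
    · exact pow_ne_zero w (discriminant_ne_zero z₀) h1
  refine ⟨_, _, ha, hb, hb0, ?_⟩
  rw [div_eq_div_iff (algebraMap_ne_zero hR0) (algebraMap_ne_zero hb0), ← map_mul, ← map_mul]
  congr 1
  apply Subtype.ext
  funext z
  show P.1 z * ((R.1 z * R.1 z ^ 11) / Δ z ^ w) = (P.1 z * R.1 z ^ 11) / Δ z ^ w * R.1 z
  ring

/-- `P · Δ^n` as an element of `HolH`. -/
def mulDiscH (P : HolH) (n : ℕ) : HolH :=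
  ⟨fun z => P.1 z * Δ z ^ n,
    P.2.mul (lof_mdifferentiable_pow lof_mdifferentiable_discriminant n)⟩

theorem mulDiscH_ne_zero {P : HolH} (hP : P ≠ 0) (n : ℕ) : mulDiscH P n ≠ 0 := by
  obtain ⟨z₀, hz₀⟩ : ∃ z, P.1 z ≠ 0 := by
    by_contra h
    exact hP (Subtype.ext (funext fun z => not_not.mp fun hz => h ⟨z, hz⟩))
  intro h
  have h1 : (mulDiscH P n).1 z₀ = (0 : HolH).1 z₀ := by rw [h]
  have h2 : (0 : HolH).1 z₀ = 0 := rfl
  have h3 : (mulDiscH P n).1 z₀ = P.1 z₀ * Δ z₀ ^ n := rfl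
  rw [h2, h3, mul_eq_zero] at h1
  rcases h1 with h1 | h1
  · exact hz₀ h1
  · exact pow_ne_zero n (discriminant_ne_zero z₀) h1

/-- **the ratio of two holomorphic functions of the same weight `k ∈ ℤ` for `Γ`, with poles of
finite order at all cusps, lies in `Frac 𝒜`.** -/
theorem ratio_mem_fracA (k : ℤ) (P R : HolH) (hR0 : R ≠ 0)
    (hPinv : ∀ γ ∈ Γ, P.1 ∣[k] γ = P.1) (hRinv : ∀ γ ∈ Γ, R.1 ∣[k] γ = R.1)
    (hPbd : CuspBdd k P.1) (hRbd : CuspBdd k R.1) :
    algebraMap HolH MerH P / algebraMap HolH MerH R ∈ fracA Γ := by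
  -- raise the weight by `12 n` to make it a natural number
  set n : ℕ := (-k).toNat with hn
  obtain ⟨w, hw⟩ : ∃ w : ℕ, k + 12 * (n : ℤ) = w := by
    have : 0 ≤ k + 12 * (n : ℤ) := by
      have := Int.self_le_toNat (-k)
      omega
    exact ⟨(k + 12 * (n : ℤ)).toNat, (Int.toNat_of_nonneg this).symm⟩
  have hslash : ∀ (S : HolH) (γ : SL(2, ℤ)), (mulDiscH S n).1 ∣[(w : ℤ)] γ =
      fun z => (S.1 ∣[k] γ) z * Δ z ^ n := by
    intro S γ
    rw [← hw]
    exact slash_mul_disc_pow k S.1 n γ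
  have hinv : ∀ S : HolH, (∀ γ ∈ Γ, S.1 ∣[k] γ = S.1) →
      ∀ γ ∈ Γ, (mulDiscH S n).1 ∣[(w : ℤ)] γ = (mulDiscH S n).1 := by
    intro S hS γ hγ
    rw [hslash, hS γ hγ]
    rfl
  have hbd : ∀ S : HolH, CuspBdd k S.1 → CuspBdd w (mulDiscH S n).1 := by
    intro S hS γ
    obtain ⟨m, hm⟩ := hS γ
    refine ⟨m, ?_⟩
    rw [hslash]
    have := Filter.BoundedAtFilter.mul hm (isBoundedAtImInfty_discriminant_pow n)
    have e : (fun z => (fun z => (S.1 ∣[k] γ) z * Δ z ^ n) z * Δ z ^ m) =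
        (fun z => (S.1 ∣[k] γ) z * Δ z ^ m) * fun z => Δ z ^ n := by
      funext z
      simp only [Pi.mul_apply]
      ring
    rw [e]
    exact this
  have h := ratio_mem_fracA_nat (Γ := Γ) w (mulDiscH P n) (mulDiscH R n) (mulDiscH_ne_zero hR0 n)
    (hinv P hPinv) (hinv R hRinv) (hbd P hPbd) (hbd R hRbd)
  have hΔ : (⟨fun z => Δ z ^ n, lof_mdifferentiable_pow lof_mdifferentiable_discriminant n⟩ : HolH)
      ≠ 0 := by
    intro h0
    have h1 := congrArg (fun f : HolH => f.1 UpperHalfPlane.I) h0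
    exact pow_ne_zero n (discriminant_ne_zero _) h1
  have e : algebraMap HolH MerH (mulDiscH P n) / algebraMap HolH MerH (mulDiscH R n) =
      algebraMap HolH MerH P / algebraMap HolH MerH R := by
    have hP : mulDiscH P n = P *
        ⟨fun z => Δ z ^ n, lof_mdifferentiable_pow lof_mdifferentiable_discriminant n⟩ := rfl
    have hR : mulDiscH R n = R *
        ⟨fun z => Δ z ^ n, lof_mdifferentiable_pow lof_mdifferentiable_discriminant n⟩ := rfl
    rw [hP, hR, map_mul, map_mul, mul_div_mul_right _ _ (algebraMap_ne_zero hΔ)]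
  rwa [e] at h

end Alg

/-! ### the two exports -/

section Model

variable {Γ : Subgroup SL(2, ℤ)} {N : ℕ} {F₀ : IntermediateField ℚ (LaurentSeries ℚ)}
  (A : AnModel Γ N F₀) [NeZero N]

/-- **`ratio_mem`**: the ratio of two holomorphic functions on `ℍ` of the same weight `k` for `Γ`,
with poles of finite order at all cusps, lies in `Θ(F)`. -/
theorem ratio_mem (k : ℤ) (P R : HolH) (hR0 : R ≠ 0)
    (hPinv : ∀ γ ∈ Γ, P.1 ∣[k] γ = P.1) (hRinv : ∀ γ ∈ Γ, R.1 ∣[k] γ = R.1)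
    (hPbd : CuspBdd k P.1) (hRbd : CuspBdd k R.1) :
    ∃ f : A.F, realMer A f * algebraMap HolH MerH R = algebraMap HolH MerH P := by
  haveI := finite_quotient A
  obtain ⟨f, hf⟩ := exists_realMer_eq_of_mem_fracA A
    (ratio_mem_fracA (Γ := Γ) k P R hR0 hPinv hRinv hPbd hRbd)
  exact ⟨f, by rw [hf]; exact div_mul_cancel₀ _ (algebraMap_ne_zero hR0)⟩

/-- **`root_mem`**: a `Γ`-invariant meromorphic `n`-th root of an element of `Θ(F)` lies in
`Θ(F)`. -/
theorem root_mem (n : ℕ) (hn : n ≠ 0) (h : MerH)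
    (hinv : ∀ γ ∈ Γ, slMer γ h = h) (f : A.F) (hf : h ^ n = realMer A f) :
    ∃ f' : A.F, realMer A f' = h := by
  rcases eq_or_ne h 0 with rfl | h0
  · exact ⟨0, map_zero _⟩
  obtain ⟨r, s, hs, rfl⟩ := exists_div_ne_zero A f
  have hs' : A.Θ s ≠ 0 := fun h => hs (Θ_injective A (h.trans (map_zero _).symm))
  have hsM : algebraMap HolH MerH (A.Θ s) ≠ 0 := algebraMap_ne_zero hs'
  set g : HolH := A.Θ (r * s ^ (n - 1)) with hg
  set h₁ : MerH := h * algebraMap HolH MerH (A.Θ s) with hh₁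
  have h₁0 : h₁ ≠ 0 := mul_ne_zero h0 hsM
  have hpow : h₁ ^ n = algebraMap HolH MerH g := by
    rw [hh₁, mul_pow, hf, map_div₀, realMer_coe, realMer_coe, hg, map_mul, map_pow, map_mul,
      map_pow]
    have e : algebraMap HolH MerH (A.Θ s) ^ n =
        algebraMap HolH MerH (A.Θ s) ^ (n - 1) * algebraMap HolH MerH (A.Θ s) := by
      rw [← pow_succ, Nat.sub_add_cancel (Nat.one_le_iff_ne_zero.mpr hn)]
    rw [e]
    field_simp
  have hg0 : g ≠ 0 := by
    intro hg0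
    rw [hg0, map_zero] at hpow
    exact h₁0 (pow_eq_zero_iff hn |>.mp hpow)
  obtain ⟨h₀, hh₀⟩ := Fermat.Agent.ES.KUM.RootsH14.exists_root_HolH_of_dvd n hn g hg0 (fun z => by
    have h1 := ordMer_algebraMap z hg0
    rw [← hpow, ordMer_pow z h₁0] at h1
    have h2 : (0 : ℤ) ≤ ordMer z h₁ := by
      have : (0 : ℤ) ≤ (n : ℤ) * ordMer z h₁ := by rw [h1]; exact Int.natCast_nonneg _
      exact nonneg_of_mul_nonneg_right this (by exact_mod_cast Nat.pos_of_ne_zero hn)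
    obtain ⟨m, hm⟩ := Int.eq_ofNat_of_zero_le h2
    refine ⟨m, ?_⟩
    rw [hm] at h1
    exact_mod_cast h1.symm)
  have hh₀0 : algebraMap HolH MerH h₀ ≠ 0 := by
    intro h
    have : algebraMap HolH MerH g = 0 := by rw [← hh₀, map_pow, h, zero_pow hn]
    exact algebraMap_ne_zero hg0 this
  obtain ⟨ζ, hζ, hζh⟩ := Fermat.Agent.ES.KUM.RootsMer14.exists_pow_eq_one_of_pow_eq (n := n)
    (x := h₁) (y := algebraMap HolH MerH h₀) hh₀0 (by rw [hpow, ← hh₀, map_pow])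
  obtain ⟨c, hc, rfl⟩ := exists_const_of_pow_eq_one hn hζ
  set h₂ : HolH := algebraMap ℂ HolH c * h₀ with hh₂
  have hh₁₂ : h₁ = algebraMap HolH MerH h₂ := by rw [hζh, hh₂, map_mul]
  have hh₂pow : h₂ ^ n = g := by
    rw [hh₂, mul_pow, ← map_pow, hc, map_one, one_mul, hh₀]
  have hinv₂ : ∀ γ ∈ Γ, compSL h₂.1 γ = h₂.1 := by
    intro γ hγ
    have h1 : slMer γ h₁ = h₁ := by
      rw [hh₁, map_mul, hinv γ hγ, slMer_algebraMap, compSLHom_Θ_of_mem A s γ (le_pm Γ hγ)]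
    rw [hh₁₂, slMer_algebraMap] at h1
    have h2 := IsFractionRing.injective HolH MerH h1
    exact congrArg Subtype.val h2
  have hmem₂ : h₂ ∈ algA Γ :=
    mem_algA_of_pow_mem (Nat.pos_of_ne_zero hn) hinv₂ (hh₂pow ▸ Θ_mem_algA A _)
  have hmem : h ∈ fracA Γ := by
    have h1 : h = h₁ / algebraMap HolH MerH (A.Θ s) := by
      rw [hh₁, mul_div_cancel_right₀ _ hsM]
    rw [h1, hh₁₂]
    exact ⟨h₂, A.Θ s, hmem₂, Θ_mem_algA A s, hs', rfl⟩
  exact exists_realMer_eq_of_mem_fracA A hmem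

end Model

end Fermat.Agent.M48.AnRatioMem4
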