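/-
Programme M48 (target S48), pillar (P1), chapter [DICT] for `Γ₁` (helper4), file G7a:
**exactness at the points** for an abstract analytic model `A : AnModel Γ N F₀`.

* `ptIdx_ptI`, `ptIdx_ptRho` : exact index at the elliptic base points (counting sandwich);
* `ptIdx_dvd_ordMer` : a meromorphic function invariant under the stabiliser of `z₁` in `±Γ` has order
  divisible by `ptIdx A 1 z₁` at `z₁`;
* `ptPlace_eq_iff` : `ptPlace A 1 z = ptPlace A 1 z' ↔ ∃ γ ∈ Γ, γ • z = z'`;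
* `mult_pow_ptIdx`, `exists_generator`, `card_stabilizer_pm`, `card_stabilizer` :
  `#Stab_Γ(z) = negOneCount Γ * ptIdx A 1 z`.

Ports of `ES/KUM/CExact5`, `ES/KUM/EllMult14.mult_pow_ptIdx`, `M17/Dict4`, `M17/StabCount4` with
`Γ₀(N) → pm Γ`.
-/
import Fermat.Agent.M48.AnSurj4
import Fermat.Agent.M17.StabCount4

set_option autoImplicit false
set_option linter.unusedSectionVars false
set_option linter.style.haveILetI false

open UpperHalfPlane AlgebraicCurve MulAction Subgroup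
open scoped Topology Manifold MatrixGroups
open CongruenceSubgroup

noncomputable section

namespace Fermat.Agent.M48.AnExactPt4

open Fermat.Agent.X0 Fermat.Agent.X0.SurjPoint Fermat.Agent.X0.OrdVal Fermat.Agent.ES.KUM
open Fermat.Agent.X0.JOrderMain Fermat.Agent.X0.JOrderFinal ModularCurve
open Fermat.Agent.ES.KUM.EllMult14 Fermat.Agent.ES.KUM.EllStab14
open Fermat.Agent.M48.DictIface4 Fermat.Agent.M48.AnReal4 Fermat.Agent.M48.AnPoint4
open Fermat.Agent.M48.AnDegree4 Fermat.Agent.M48.AnSurj4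

variable {Γ : Subgroup SL(2, ℤ)} {N : ℕ} {F₀ : IntermediateField ℚ (LaurentSeries ℚ)}
  (A : AnModel Γ N F₀) [NeZero N]

/-! ### point places on cosets -/

omit [NeZero N] in
theorem exists_mul_of_mk_eq {g g' : SL(2, ℤ)}
    (h : (QuotientGroup.mk g : SL(2, ℤ) ⧸ pm Γ) = QuotientGroup.mk g') :
    ∃ γ ∈ pm Γ, g' = g * γ := by
  refine ⟨g⁻¹ * g', QuotientGroup.eq.mp h, ?_⟩
  group

omit [NeZero N] in
theorem ptPlace_of_mk_eq {g g' : SL(2, ℤ)}
    (h : (QuotientGroup.mk g : SL(2, ℤ) ⧸ pm Γ) = QuotientGroup.mk g') (z₀ : ℍ) :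
    ptPlace A g' z₀ = ptPlace A g z₀ := by
  obtain ⟨γ, hγ, rfl⟩ := exists_mul_of_mk_eq h
  exact ptPlace_mul_of_mem A g γ hγ z₀

omit [NeZero N] in
theorem ptIdx_of_mk_eq {g g' : SL(2, ℤ)}
    (h : (QuotientGroup.mk g : SL(2, ℤ) ⧸ pm Γ) = QuotientGroup.mk g') (z₀ : ℍ) :
    ptIdx A g' z₀ = ptIdx A g z₀ := by
  obtain ⟨γ, hγ, rfl⟩ := exists_mul_of_mk_eq h
  exact ptIdx_mul_of_mem A g γ hγ z₀

theorem neg_one_mem_pm (Γ : Subgroup SL(2, ℤ)) : (-1 : SL(2, ℤ)) ∈ pm Γ :=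
  Or.inr (by rw [neg_neg]; exact Γ.one_mem)

theorem neg_mem_pm_iff {Γ : Subgroup SL(2, ℤ)} (γ : SL(2, ℤ)) : -γ ∈ pm Γ ↔ γ ∈ pm Γ := by
  rw [mem_pm, mem_pm, neg_neg, or_comm]

theorem neg_one_smul_quot (x : SL(2, ℤ) ⧸ pm Γ) : (-1 : SL(2, ℤ)) • x = x := by
  induction x using QuotientGroup.induction_on with
  | H g =>
    rw [MulAction.Quotient.smul_mk, QuotientGroup.eq, smul_eq_mul]
    have : (-1 * g)⁻¹ * g = -1 := by
      rw [neg_mul, one_mul, inv_neg, neg_mul, inv_mul_cancel]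
    rw [this]
    exact neg_one_mem_pm Γ

omit [NeZero N] in
/-- `ptPlace (ε g) z* = ptPlace g z*` when `ε` fixes `z*`. -/
theorem ptPlace_mul_left_of_fixed (ε g : SL(2, ℤ)) (z₀ : ℍ) (hε : ε • z₀ = z₀) :
    ptPlace A (ε * g) z₀ = ptPlace A g z₀ := by
  conv_lhs => rw [← hε]
  exact ptPlace_smul A ε g z₀

omit [NeZero N] in
theorem ptIdx_mul_left_of_fixed (ε g : SL(2, ℤ)) (z₀ : ℍ) (hε : ε • z₀ = z₀) :
    ptIdx A (ε * g) z₀ = ptIdx A g z₀ := by
  conv_lhs => rw [← hε]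
  exact ptIdx_smul A ε g z₀

omit [NeZero N] in
/-- There is a function of order `1` at every place. -/
theorem exists_ord_eq_one (v : Place ℂ A.F) : ∃ f : A.F, f ≠ 0 ∧ v.ord f = 1 := by
  obtain ⟨π, hπ⟩ := IsDiscreteValuationRing.exists_irreducible v.toValuationSubring
  refine ⟨(π : A.F), ?_, v.ord_coe_irreducible hπ⟩
  intro h
  exact hπ.ne_zero (Subtype.ext h)

/-! ### divisibility of the index by the order of a stabilising elliptic element -/

omit [NeZero N] in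
/-- If all holomorphic functions `embR A g u` have order divisible by `e` at `z₀`, then
`e ∣ ptIdx A g z₀`. -/
theorem dvd_ptIdx_of_forall (g : SL(2, ℤ)) (z₀ : ℍ) (e : ℕ)
    (h : ∀ u : A.R, u ≠ 0 → e ∣ (ordH ((embR A g u : HolH) : ℍ → ℂ) z₀).toNat) :
    e ∣ ptIdx A g z₀ := by
  obtain ⟨f, hf, hf1⟩ := exists_ord_eq_one A (ptPlace A g z₀)
  obtain ⟨u, s, hs, rfl⟩ := exists_div_ne_zero A f
  have hu : u ≠ 0 := by
    rintro rfl
    apply hf
    simp
  have h1 := ordMer_emb A g z₀ hf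
  rw [hf1, mul_one, emb_div, ordMer_div_algebraMap z₀ (embR_ne_zero A g hu)
    (embR_ne_zero A g hs)] at h1
  obtain ⟨a, ha⟩ := h u hu
  obtain ⟨b, hb⟩ := h s hs
  rw [ha, hb] at h1
  have : (e : ℤ) ∣ (ptIdx A g z₀ : ℤ) := by
    rw [← h1]
    push_cast
    exact ⟨a - b, by ring⟩
  exact_mod_cast this

omit [NeZero N] in
/-- `embR A g u` is invariant under `ε` when `g⁻¹ ε g ∈ ±Γ`. -/
theorem compSL_embR_of_conj_mem (g ε : SL(2, ℤ)) (h : g⁻¹ * ε * g ∈ pm Γ) (u : A.R) :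
    compSL ((embR A g u : HolH) : ℍ → ℂ) ε = ((embR A g u : HolH) : ℍ → ℂ) := by
  rw [coe_embR]
  have h1 := Θ_invariant A u (g⁻¹ * ε * g) h
  have h2 : compSL (compSL ((A.Θ u : HolH) : ℍ → ℂ) g⁻¹) ε
      = compSL (compSL ((A.Θ u : HolH) : ℍ → ℂ) (g⁻¹ * ε * g)) g⁻¹ := by
    rw [← compSL_mul, ← compSL_mul]
    congr 1
    group
  rw [h2, h1]

omit [NeZero N] in
theorem ptIdx_eq_two_of_fixed_S (g : SL(2, ℤ)) (h : g⁻¹ * ModularGroup.S * g ∈ pm Γ) :
    ptIdx A g ptI = 2 := by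
  have h1 : 2 ∣ ptIdx A g ptI := by
    apply dvd_ptIdx_of_forall
    intro u hu
    have hinv := compSL_embR_of_conj_mem A g ModularGroup.S h u
    have hinv' : compSL ((embR A g u : HolH) : ℍ → ℂ)
        ((1 : SL(2, ℤ)) * ModularGroup.S * (1 : SL(2, ℤ))⁻¹)
        = ((embR A g u : HolH) : ℍ → ℂ) := by
      rw [one_mul, inv_one, mul_one]
      exact hinv
    have hne := ordH_ne_top (embR A g u).2
      (fun h0 => embR_ne_zero A g hu (Subtype.ext h0)) ((1 : SL(2, ℤ)) • ptI)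
    have := two_dvd_of_invariant_S (embR A g u).2 1 hinv' (ENat.natCast_toNat hne).symm
    rwa [one_smul] at this
  have h2 := ptIdx_dvd_ellOrder A g ptI
  rw [ellOrder_ptI] at h2
  exact Nat.dvd_antisymm h2 h1

omit [NeZero N] in
theorem ptIdx_eq_three_of_fixed_ST (g : SL(2, ℤ))
    (h : g⁻¹ * (ModularGroup.S * ModularGroup.T) * g ∈ pm Γ) :
    ptIdx A g ptRho = 3 := by
  have h1 : 3 ∣ ptIdx A g ptRho := by
    apply dvd_ptIdx_of_forall
    intro u hu
    have hinv := compSL_embR_of_conj_mem A g (ModularGroup.S * ModularGroup.T) h u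
    have hinv' : compSL ((embR A g u : HolH) : ℍ → ℂ)
        ((1 : SL(2, ℤ)) * (ModularGroup.S * ModularGroup.T) * (1 : SL(2, ℤ))⁻¹)
        = ((embR A g u : HolH) : ℍ → ℂ) := by
      rw [one_mul, inv_one, mul_one]
      exact hinv
    have hne := ordH_ne_top (embR A g u).2
      (fun h0 => embR_ne_zero A g hu (Subtype.ext h0)) ((1 : SL(2, ℤ)) • ptRho)
    have := three_dvd_of_invariant_ST (embR A g u).2 1 hinv' (ENat.natCast_toNat hne).symm
    rwa [one_smul] at this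
  have h2 := ptIdx_dvd_ellOrder A g ptRho
  rw [ellOrder_ptRho] at h2
  exact Nat.dvd_antisymm h2 h1

/-! ### the sandwich at an elliptic base point -/

open Classical in
/-- **Exact index at an elliptic base point** (abstract form). -/
theorem ptIdx_eq_one_or_fixed (zs : ℍ) (ε : SL(2, ℤ)) (e₀ : ℕ)
    (he₀ : e₀ = 2 ∨ e₀ = 3) (hfix : ε • zs = zs) (hpow : ε ^ e₀ = -1) (hell : ellOrder zs = e₀)
    (hfixidx : ∀ g : SL(2, ℤ), g⁻¹ * ε * g ∈ pm Γ → ptIdx A g zs = e₀)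
    (g : SL(2, ℤ)) : ptIdx A g zs = 1 ∨ g⁻¹ * ε * g ∈ pm Γ := by
  by_cases hg : g⁻¹ * ε * g ∈ pm Γ
  · exact Or.inr hg
  left
  haveI := finite_quotient A
  letI : Fintype (SL(2, ℤ) ⧸ pm Γ) := Fintype.ofFinite _
  set c : ℂ := jFun zs with hc
  set X := SL(2, ℤ) ⧸ pm Γ
  let P : X → Place ℂ A.F := fun x => ptPlace A x.out zs
  let idx : X → ℕ := fun x => ptIdx A x.out zs
  let d : Place ℂ A.F → ℕ := fun v => (v.ord (A.jF - algebraMap ℂ A.F c)).toNat
  have hPmk : ∀ g' : SL(2, ℤ), P (QuotientGroup.mk g') = ptPlace A g' zs := fun g' =>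
    ptPlace_of_mk_eq A (QuotientGroup.out_eq' _).symm zs
  have hidxmk : ∀ g' : SL(2, ℤ), idx (QuotientGroup.mk g') = ptIdx A g' zs := fun g' =>
    ptIdx_of_mk_eq A (QuotientGroup.out_eq' _).symm zs
  have hPε : ∀ x : X, P (ε • x) = P x := by
    intro x
    induction x using QuotientGroup.induction_on with
    | H g' =>
      rw [MulAction.Quotient.smul_mk, hPmk, hPmk]
      exact ptPlace_mul_left_of_fixed A ε g' zs hfix
  have hidx : ∀ x : X, idx x * d (P x) = e₀ := by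
    intro x
    have h1 := ptIdx_mul_ord_jF_sub A x.out zs
    have h2 := ord_jF_sub_pos A x.out zs
    rw [hell] at h1
    have h3 : ((d (P x) : ℕ) : ℤ) = (ptPlace A x.out zs).ord
        (A.jF - algebraMap ℂ A.F (jFun zs)) := Int.toNat_of_nonneg h2.le
    have : ((idx x * d (P x) : ℕ) : ℤ) = (e₀ : ℤ) := by
      push_cast
      rw [h3]
      exact h1
    exact_mod_cast this
  have hsum : ∑ v ∈ Finset.univ.image P, d v = Fintype.card X := by
    have h1 := FF.sum_ord_fibre (isGen_jF A) c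
    rw [finrank_eq A, Nat.card_eq_fintype_card] at h1
    have hset : {v : Place ℂ A.F | 0 < v.ord (A.jF - algebraMap ℂ A.F c)}
        = ↑(Finset.univ.image P) := by
      ext v
      simp only [Set.mem_ofPred_eq, Finset.coe_image, Finset.coe_univ, Set.image_univ,
        Set.mem_range]
      constructor
      · intro hv
        obtain ⟨g', rfl⟩ := exists_ptPlace_eq A zs v hv
        exact ⟨QuotientGroup.mk g', hPmk g'⟩
      · rintro ⟨x, rfl⟩
        exact ord_jF_sub_pos A x.out zs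
    have h2 : ∑ᶠ (v : Place ℂ A.F) (_ : 0 < v.ord (A.jF - algebraMap ℂ A.F c)),
        v.ord (A.jF - algebraMap ℂ A.F c)
        = ∑ v ∈ Finset.univ.image P, v.ord (A.jF - algebraMap ℂ A.F c) := by
      have : ∑ᶠ (v : Place ℂ A.F) (_ : 0 < v.ord (A.jF - algebraMap ℂ A.F c)),
          v.ord (A.jF - algebraMap ℂ A.F c)
          = ∑ᶠ (v : Place ℂ A.F) (_ : v ∈ (↑(Finset.univ.image P) : Set (Place ℂ A.F))),
            v.ord (A.jF - algebraMap ℂ A.F c) := by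
        refine finsum_congr fun v => ?_
        have : (0 < v.ord (A.jF - algebraMap ℂ A.F c))
            = (v ∈ (↑(Finset.univ.image P) : Set (Place ℂ A.F))) := by
          rw [← hset]
          rfl
        rw [this]
      rw [this, finsum_mem_coe_finset]
    rw [h2] at h1
    have h3 : ∑ v ∈ Finset.univ.image P, v.ord (A.jF - algebraMap ℂ A.F c)
        = ∑ v ∈ Finset.univ.image P, ((d v : ℕ) : ℤ) := by
      refine Finset.sum_congr rfl fun v hv => ?_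
      have hv' : v ∈ (↑(Finset.univ.image P) : Set (Place ℂ A.F)) := hv
      rw [← hset] at hv'
      exact (Int.toNat_of_nonneg (le_of_lt hv')).symm
    rw [h3] at h1
    exact_mod_cast h1
  have hmain := sandwich_idx (fun x : X => ε • x) (MulAction.injective ε) e₀ he₀
    (fun x => by
      rw [smul_iterate, hpow]
      exact neg_one_smul_quot x)
    P hPε d idx hidx
    (fun x hx => by
      induction x using QuotientGroup.induction_on with
      | H g' =>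
        rw [hidxmk]
        apply hfixidx
        rw [MulAction.Quotient.smul_mk, QuotientGroup.eq, smul_eq_mul] at hx
        have : g'⁻¹ * ε * g' = ((ε * g')⁻¹ * g')⁻¹ := by group
        rw [this]
        exact inv_mem hx)
    hsum (QuotientGroup.mk g) (fun hx => by
      apply hg
      rw [MulAction.Quotient.smul_mk, QuotientGroup.eq, smul_eq_mul] at hx
      have : g⁻¹ * ε * g = ((ε * g)⁻¹ * g)⁻¹ := by group
      rw [this]
      exact inv_mem hx)
  rw [← hidxmk]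
  exact hmain

/-- Exact index over the orbit of `i`. -/
theorem ptIdx_ptI (g : SL(2, ℤ)) :
    ptIdx A g ptI = 1 ∨ g⁻¹ * ModularGroup.S * g ∈ pm Γ :=
  ptIdx_eq_one_or_fixed A ptI ModularGroup.S 2 (Or.inl rfl) ho_S_smul_ptI S_sq_eq
    ellOrder_ptI (fun g h => ptIdx_eq_two_of_fixed_S A g h) g

/-- Exact index over the orbit of `ρ`. -/
theorem ptIdx_ptRho (g : SL(2, ℤ)) :
    ptIdx A g ptRho = 1 ∨ g⁻¹ * (ModularGroup.S * ModularGroup.T) * g ∈ pm Γ :=
  ptIdx_eq_one_or_fixed A ptRho (ModularGroup.S * ModularGroup.T) 3 (Or.inr rfl)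
    ho_ST_smul_ptRho ST_cube_eq ellOrder_ptRho (fun g h => ptIdx_eq_three_of_fixed_ST A g h) g

/-! ### The consumer form -/

omit [NeZero N] in
/-- Auxiliary: the case of a point `z₁ = τ • zs` in the orbit of an elliptic base point. -/
theorem ptIdx_dvd_ordMer_aux (zs : ℍ) (ε : SL(2, ℤ)) (e₀ : ℕ) (hfix : ε • zs = zs)
    (hell : ellOrder zs = e₀)
    (hex : ∀ g : SL(2, ℤ), ptIdx A g zs = 1 ∨ g⁻¹ * ε * g ∈ pm Γ)
    (hsym : ∀ h' : MerH, h' ≠ 0 → slMer ε h' = h' → (e₀ : ℤ) ∣ ordMer zs h')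
    (τ : SL(2, ℤ)) (h : MerH) (hh : h ≠ 0)
    (hinv : ∀ γ ∈ pm Γ, γ • (τ • zs) = τ • zs → slMer γ h = h) :
    (ptIdx A 1 (τ • zs) : ℤ) ∣ ordMer (τ • zs) h := by
  have h1 : ptIdx A 1 (τ • zs) = ptIdx A τ⁻¹ zs := by
    have := ptIdx_smul A τ τ⁻¹ zs
    rwa [mul_inv_cancel] at this
  rw [h1]
  rcases hex τ⁻¹ with h2 | h2
  · rw [h2]
    exact one_dvd _
  · rw [inv_inv] at h2
    have hγfix : (τ * ε * τ⁻¹) • (τ • zs) = τ • zs := by
      rw [← mul_smul, inv_mul_cancel_right, mul_smul, hfix]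
    have hγ := hinv _ h2 hγfix
    have hh' : slMer τ h ≠ 0 := slMer_ne_zero τ hh
    have hε : slMer ε (slMer τ h) = slMer τ h := by
      rw [← slMer_mul]
      have : τ * ε = (τ * ε * τ⁻¹) * τ := by group
      rw [this, slMer_mul, hγ]
    have h3 := hsym (slMer τ h) hh' hε
    rw [ordMer_slMer] at h3
    have h4 : (ptIdx A τ⁻¹ zs : ℤ) ∣ (e₀ : ℤ) := by
      have := ptIdx_dvd_ellOrder A τ⁻¹ zs
      rw [hell] at this
      exact_mod_cast this
    exact h4.trans h3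

/-- **Exact index, consumer form.** A nonzero meromorphic function on `ℍ` which is invariant under
the stabiliser of `z₁` in `±Γ` has order divisible by `ptIdx A 1 z₁` at `z₁`. -/
theorem ptIdx_dvd_ordMer (z₁ : ℍ) (h : MerH) (hh : h ≠ 0)
    (hinv : ∀ γ ∈ pm Γ, γ • z₁ = z₁ → slMer γ h = h) :
    (ptIdx A 1 z₁ : ℤ) ∣ ordMer z₁ h := by
  by_cases h3 : ∃ τ : SL(2, ℤ), τ • ptRho = z₁
  · obtain ⟨τ, rfl⟩ := h3
    exact ptIdx_dvd_ordMer_aux A ptRho (ModularGroup.S * ModularGroup.T) 3 ho_ST_smul_ptRho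
      ellOrder_ptRho (ptIdx_ptRho A) three_dvd_ordMer_ptRho τ h hh hinv
  by_cases h2 : ∃ τ : SL(2, ℤ), τ • ptI = z₁
  · obtain ⟨τ, rfl⟩ := h2
    exact ptIdx_dvd_ordMer_aux A ptI ModularGroup.S 2 ho_S_smul_ptI
      ellOrder_ptI (ptIdx_ptI A) two_dvd_ordMer_ptI τ h hh hinv
  have h1 : ellOrder z₁ = 1 := by
    unfold ellOrder
    rw [if_neg h3, if_neg h2]
  have := ptIdx_dvd_ellOrder A 1 z₁
  rw [h1, Nat.dvd_one] at this
  rw [this]
  exact one_dvd _

/-! ### a point place determines the `j`-value -/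

omit [NeZero N] in
theorem jFun_eq_of_ptPlace_eq {g g' : SL(2, ℤ)} {z z' : ℍ}
    (h : ptPlace A g z = ptPlace A g' z') : jFun z = jFun z' := by
  by_contra hne
  set v := ptPlace A g z with hv
  have h1 : 0 < v.ord (A.jF - algebraMap ℂ A.F (jFun z)) := ord_jF_sub_pos A g z
  have h2 : 0 < v.ord (A.jF - algebraMap ℂ A.F (jFun z')) := by
    rw [h]; exact ord_jF_sub_pos A g' z'
  have e : algebraMap ℂ A.F (jFun z' - jFun z) =
      (A.jF - algebraMap ℂ A.F (jFun z)) - (A.jF - algebraMap ℂ A.F (jFun z')) := by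
    rw [map_sub]; ring
  have h3 : v.ord (algebraMap ℂ A.F (jFun z' - jFun z)) = 0 := FF.ord_algebraMap v _
  have hne0 : (A.jF - algebraMap ℂ A.F (jFun z)) - (A.jF - algebraMap ℂ A.F (jFun z')) ≠ 0 := by
    rw [← e]
    intro h0
    have := (algebraMap ℂ A.F).injective (h0.trans (map_zero _).symm)
    exact hne (sub_eq_zero.mp this).symm
  have h4 := FF.ord_sub_ge v hne0
  rw [← e, h3] at h4
  have := lt_min h1 h2
  omega

/-! ### injectivity of the point places on `SL(2, ℤ) ⧸ ±Γ` modulo the stabiliser -/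

/-- the point places over `j = j(zs)`, indexed by the cosets. -/
def plC (zs : ℍ) (x : SL(2, ℤ) ⧸ pm Γ) : Place ℂ A.F := ptPlace A x.out zs

omit [NeZero N] in
theorem plC_mk (zs : ℍ) (g : SL(2, ℤ)) : plC A zs (QuotientGroup.mk g) = ptPlace A g zs :=
  ptPlace_of_mk_eq A (QuotientGroup.out_eq' _).symm zs

omit [NeZero N] in
theorem ptPlace_zpow_mul_of_fixed (ε g : SL(2, ℤ)) (zs : ℍ) (hε : ε • zs = zs) (k : ℤ) :
    ptPlace A (ε ^ k * g) zs = ptPlace A g zs := by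
  have hk : ε ^ k • zs = zs := by
    have : ε ∈ MulAction.stabilizer (SL(2, ℤ)) zs := hε
    exact (MulAction.stabilizer (SL(2, ℤ)) zs).zpow_mem this k
  exact ptPlace_mul_left_of_fixed A (ε ^ k) g zs hk

/-- **Abstract counting form of the injectivity.** -/
theorem mem_orbit_of_ptPlace_eq (zs : ℍ) (ε : SL(2, ℤ)) (hfix : ε • zs = zs)
    (hle : ∀ x : SL(2, ℤ) ⧸ pm Γ,
      (plC A zs x).ord (A.jF - algebraMap ℂ A.F (jFun zs)) ≤
        (Nat.card (orbit (zpowers ε) x) : ℤ))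
    {g g' : SL(2, ℤ)} (h : ptPlace A g zs = ptPlace A g' zs) :
    (QuotientGroup.mk g' : SL(2, ℤ) ⧸ pm Γ) ∈
      orbit (zpowers ε) (QuotientGroup.mk g : SL(2, ℤ) ⧸ pm Γ) := by
  classical
  haveI := finite_quotient A
  set c : ℂ := jFun zs with hc
  set f : A.F := A.jF - algebraMap ℂ A.F c with hf
  have hfin : {v : Place ℂ A.F | 0 < v.ord f}.Finite := FF.finite_fibre (isGen_jF A) c
  have hsum : ∑ᶠ (v : Place ℂ A.F) (_ : 0 < v.ord f), v.ord f
      = (Nat.card (SL(2, ℤ) ⧸ pm Γ) : ℤ) := by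
    have := FF.sum_ord_fibre (isGen_jF A) c
    rw [finrank_eq A] at this
    exact this
  have hinv : ∀ (σ : zpowers ε) (a : SL(2, ℤ) ⧸ pm Γ), plC A zs (σ • a) = plC A zs a := by
    rintro ⟨σ, hσ⟩ a
    obtain ⟨k, rfl⟩ := mem_zpowers_iff.mp hσ
    induction a using QuotientGroup.induction_on with
    | H g₀ =>
      show plC A zs ((ε ^ k) • (QuotientGroup.mk g₀ : SL(2, ℤ) ⧸ pm Γ)) = _
      rw [MulAction.Quotient.smul_mk, plC_mk, plC_mk, smul_eq_mul]
      exact ptPlace_zpow_mul_of_fixed A ε g₀ zs hfix k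
  have hsurj : ∀ v : Place ℂ A.F, 0 < v.ord f → ∃ a, plC A zs a = v := by
    intro v hv
    obtain ⟨g₀, rfl⟩ := exists_ptPlace_eq A zs v hv
    exact ⟨QuotientGroup.mk g₀, plC_mk A zs g₀⟩
  have hpos : ∀ a, 0 < (plC A zs a).ord f := fun a => ord_jF_sub_pos A a.out zs
  obtain ⟨hcard, -⟩ := PlaceCount.pc_zero_count (K := ℂ) f (Nat.card (SL(2, ℤ) ⧸ pm Γ)) hfin hsum
    (X := SL(2, ℤ) ⧸ pm Γ) (G := zpowers ε) rfl (plC A zs) hpos hsurj hinv hle
  let V := {v : Place ℂ A.F // 0 < v.ord f}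
  have : Finite V := hfin.to_subtype
  let pbar : orbitRel.Quotient (zpowers ε) (SL(2, ℤ) ⧸ pm Γ) → V :=
    Quotient.lift (fun a => (⟨plC A zs a, hpos a⟩ : V)) (by
      intro a b hab
      change a ∈ orbit (zpowers ε) b at hab
      obtain ⟨σ, rfl⟩ := hab
      exact Subtype.ext (hinv σ b))
  have hpsurj : Function.Surjective pbar := by
    rintro ⟨v, hv⟩
    obtain ⟨a, rfl⟩ := hsurj v hv
    exact ⟨Quotient.mk'' a, rfl⟩
  have hbij : Function.Bijective pbar :=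
    hpsurj.bijective_of_nat_card_le (le_of_eq hcard.symm)
  have heq : pbar (Quotient.mk'' (QuotientGroup.mk g')) = pbar (Quotient.mk'' (QuotientGroup.mk g)) := by
    apply Subtype.ext
    show plC A zs (QuotientGroup.mk g') = plC A zs (QuotientGroup.mk g)
    rw [plC_mk, plC_mk, h]
  have := hbij.1 heq
  exact Quotient.exact' this

omit [NeZero N] in
/-- unpacking the orbit. -/
theorem exists_zpow_mul_of_mem_orbit (ε : SL(2, ℤ)) {g g' : SL(2, ℤ)}
    (h : (QuotientGroup.mk g' : SL(2, ℤ) ⧸ pm Γ) ∈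
      orbit (zpowers ε) (QuotientGroup.mk g : SL(2, ℤ) ⧸ pm Γ)) :
    ∃ k : ℤ, ∃ γ ∈ pm Γ, g' = ε ^ k * g * γ := by
  obtain ⟨⟨σ, hσ⟩, hσg⟩ := h
  obtain ⟨k, rfl⟩ := mem_zpowers_iff.mp hσ
  have h1 : (QuotientGroup.mk (ε ^ k * g) : SL(2, ℤ) ⧸ pm Γ) = QuotientGroup.mk g' := hσg
  obtain ⟨γ, hγ, e⟩ := exists_mul_of_mk_eq h1
  exact ⟨k, γ, hγ, e⟩

/-! ### the bounds `hle` -/

include A in
theorem one_le_card_orbit (ε : SL(2, ℤ)) (x : SL(2, ℤ) ⧸ pm Γ) :
    1 ≤ Nat.card (orbit (zpowers ε) x) := by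
  haveI := finite_quotient A
  have : Nonempty (orbit (zpowers ε) x) := ⟨⟨x, mem_orbit_self x⟩⟩
  have : Finite (orbit (zpowers ε) x) := Subtype.finite
  exact Nat.card_pos

/-- generic base point. -/
theorem hle_generic (zs : ℍ) (hell : ellOrder zs = 1) (ε : SL(2, ℤ))
    (x : SL(2, ℤ) ⧸ pm Γ) :
    (plC A zs x).ord (A.jF - algebraMap ℂ A.F (jFun zs)) ≤
      (Nat.card (orbit (zpowers ε) x) : ℤ) := by
  have h1 := ptIdx_mul_ord_jF_sub A x.out zs
  have h2 := ord_jF_sub_pos A x.out zs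
  have h3 : (1 : ℤ) ≤ ptIdx A x.out zs := by exact_mod_cast ptIdx_pos A x.out zs
  rw [hell] at h1
  have h4 : (plC A zs x).ord (A.jF - algebraMap ℂ A.F (jFun zs)) ≤ 1 := by
    show (ptPlace A x.out zs).ord _ ≤ 1
    push_cast at h1
    nlinarith
  have h5 : (1 : ℤ) ≤ (Nat.card (orbit (zpowers ε) x) : ℤ) := by
    exact_mod_cast one_le_card_orbit A ε x
  linarith

/-- elliptic base point. -/
theorem hle_elliptic (zs : ℍ) (ε : SL(2, ℤ)) (p : ℕ) (hp : p.Prime)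
    (hpow : ∀ x : SL(2, ℤ) ⧸ pm Γ, ε ^ p • x = x) (hell : ellOrder zs = p)
    (hfixidx : ∀ g : SL(2, ℤ), g⁻¹ * ε * g ∈ pm Γ → ptIdx A g zs = p)
    (x : SL(2, ℤ) ⧸ pm Γ) :
    (plC A zs x).ord (A.jF - algebraMap ℂ A.F (jFun zs)) ≤
      (Nat.card (orbit (zpowers ε) x) : ℤ) := by
  have h1 := ptIdx_mul_ord_jF_sub A x.out zs
  have h2 := ord_jF_sub_pos A x.out zs
  have h3 : (1 : ℤ) ≤ ptIdx A x.out zs := by exact_mod_cast ptIdx_pos A x.out zs
  rw [hell] at h1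
  by_cases hx : ε • x = x
  · have hmem : x.out⁻¹ * ε * x.out ∈ pm Γ := by
      have hx' : ε • (QuotientGroup.mk x.out : SL(2, ℤ) ⧸ pm Γ) = QuotientGroup.mk x.out := by
        rw [QuotientGroup.out_eq']; exact hx
      rw [MulAction.Quotient.smul_mk, QuotientGroup.eq, smul_eq_mul] at hx'
      have : x.out⁻¹ * ε * x.out = ((ε * x.out)⁻¹ * x.out)⁻¹ := by group
      rw [this]
      exact inv_mem hx'
    have h4 := hfixidx x.out hmem
    rw [h4] at h1
    have hp0 : (0 : ℤ) < p := by exact_mod_cast hp.pos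
    have h5 : (plC A zs x).ord (A.jF - algebraMap ℂ A.F (jFun zs)) = 1 := by
      show (ptPlace A x.out zs).ord _ = 1
      have := mul_left_cancel₀ hp0.ne' (h1.trans (mul_one (p : ℤ)).symm)
      exact this
    rw [h5]
    exact_mod_cast one_le_card_orbit A ε x
  · have h4 : Nat.card (orbit (zpowers ε) x) = p :=
      OrbitCount.card_orbit_zpowers_of_prime hp (hpow x) hx
    rw [h4]
    show (ptPlace A x.out zs).ord _ ≤ (p : ℤ)
    nlinarith

/-! ### injectivity modulo `±Γ` -/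

/-- the transport step. -/
theorem exists_of_mem_orbit (zs : ℍ) (ε : SL(2, ℤ)) (hfix : ε • zs = zs)
    (hle : ∀ x : SL(2, ℤ) ⧸ pm Γ,
      (plC A zs x).ord (A.jF - algebraMap ℂ A.F (jFun zs)) ≤
        (Nat.card (orbit (zpowers ε) x) : ℤ))
    (τ σ : SL(2, ℤ)) (h : ptPlace A 1 (τ • zs) = ptPlace A 1 (σ • τ • zs)) :
    ∃ γ ∈ pm Γ, γ • (τ • zs) = σ • τ • zs := by
  have e1 : ptPlace A 1 (τ • zs) = ptPlace A τ⁻¹ zs := by
    rw [ptPlace_eq_one A τ⁻¹ zs, inv_inv]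
  have e2 : ptPlace A 1 (σ • τ • zs) = ptPlace A (σ * τ)⁻¹ zs := by
    rw [ptPlace_eq_one A (σ * τ)⁻¹ zs, inv_inv, mul_smul]
  rw [e1, e2] at h
  obtain ⟨k, γ, hγ, e⟩ := exists_zpow_mul_of_mem_orbit ε
    (mem_orbit_of_ptPlace_eq A zs ε hfix hle h)
  have hk : ε ^ (-k) • zs = zs := by
    have : ε ∈ MulAction.stabilizer (SL(2, ℤ)) zs := hfix
    exact (MulAction.stabilizer (SL(2, ℤ)) zs).zpow_mem this (-k)
  refine ⟨γ⁻¹, inv_mem hγ, ?_⟩
  have e3 : σ * τ = γ⁻¹ * τ * ε ^ (-k) := by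
    have : (σ * τ)⁻¹⁻¹ = (ε ^ k * τ⁻¹ * γ)⁻¹ := by rw [e]
    rw [inv_inv] at this
    rw [this, zpow_neg]
    group
  calc γ⁻¹ • (τ • zs) = γ⁻¹ • (τ • (ε ^ (-k) • zs)) := by rw [hk]
    _ = (γ⁻¹ * τ * ε ^ (-k)) • zs := by rw [mul_smul, mul_smul]
    _ = (σ * τ) • zs := by rw [e3]
    _ = σ • τ • zs := mul_smul _ _ _

theorem S_sq_smul_quot (x : SL(2, ℤ) ⧸ pm Γ) : ModularGroup.S ^ 2 • x = x := by
  rw [S_sq_eq]
  exact neg_one_smul_quot x

theorem ST_cube_smul_quot (x : SL(2, ℤ) ⧸ pm Γ) :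
    (ModularGroup.S * ModularGroup.T) ^ 3 • x = x := by
  rw [ST_cube_eq]
  exact neg_one_smul_quot x

/-- **Injectivity of the point places modulo `±Γ`.** -/
theorem exists_mem_pm_smul_eq_of_ptPlace_eq {z z' : ℍ}
    (h : ptPlace A 1 z = ptPlace A 1 z') : ∃ γ ∈ pm Γ, γ • z = z' := by
  obtain ⟨σ, rfl⟩ := Fermat.Agent.X0.exists_SL2_smul_eq_of_jFun_eq (jFun_eq_of_ptPlace_eq A h)
  by_cases h3 : ∃ τ : SL(2, ℤ), τ • ptRho = z
  · obtain ⟨τ, rfl⟩ := h3
    exact exists_of_mem_orbit A ptRho (ModularGroup.S * ModularGroup.T) ho_ST_smul_ptRho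
      (hle_elliptic A ptRho _ 3 Nat.prime_three ST_cube_smul_quot ellOrder_ptRho
        (fun g hg => ptIdx_eq_three_of_fixed_ST A g hg)) τ σ h
  by_cases h2 : ∃ τ : SL(2, ℤ), τ • ptI = z
  · obtain ⟨τ, rfl⟩ := h2
    exact exists_of_mem_orbit A ptI ModularGroup.S ho_S_smul_ptI
      (hle_elliptic A ptI _ 2 Nat.prime_two S_sq_smul_quot ellOrder_ptI
        (fun g hg => ptIdx_eq_two_of_fixed_S A g hg)) τ σ h
  have h1 : ellOrder z = 1 := by
    unfold ellOrder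
    rw [if_neg h3, if_neg h2]
  have := exists_of_mem_orbit A z 1 (one_smul _ z) (hle_generic A z h1 1) 1 σ
    (by rw [one_smul]; exact h)
  rw [one_smul] at this
  exact this

/-- the converse. -/
theorem ptPlace_smul_of_mem {γ : SL(2, ℤ)} (hγ : γ ∈ pm Γ) (z : ℍ) :
    ptPlace A 1 (γ • z) = ptPlace A 1 z := by
  have h1 := ptPlace_eq_one A γ⁻¹ z
  rw [inv_inv] at h1
  rw [← h1]
  have h2 := ptPlace_mul_of_mem A 1 γ⁻¹ (inv_mem hγ) z
  rw [one_mul] at h2
  exact h2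

theorem ptPlace_eq_iff_pm (z z' : ℍ) :
    ptPlace A 1 z = ptPlace A 1 z' ↔ ∃ γ ∈ pm Γ, γ • z = z' :=
  ⟨exists_mem_pm_smul_eq_of_ptPlace_eq A, by
    rintro ⟨γ, hγ, rfl⟩
    exact (ptPlace_smul_of_mem A hγ z).symm⟩

/-- **The point places are the points of `Γ \ ℍ`.** -/
theorem ptPlace_eq_iff (z z' : ℍ) :
    ptPlace A 1 z = ptPlace A 1 z' ↔ ∃ γ ∈ Γ, γ • z = z' := by
  rw [ptPlace_eq_iff_pm]
  constructor
  · rintro ⟨γ, hγ | hγ, rfl⟩
    · exact ⟨γ, hγ, rfl⟩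
    · exact ⟨-γ, hγ, ModularGroup.SL_neg_smul γ z⟩
  · rintro ⟨γ, hγ, rfl⟩
    exact ⟨γ, le_pm Γ hγ, rfl⟩

/-! ### the stabilisers -/

omit [NeZero N] in
/-- For `γ ∈ ±Γ` fixing `z₀`, the multiplier is a `ptIdx`-th root of unity. -/
theorem mult_pow_ptIdx (γ : SL(2, ℤ)) (hγ : γ ∈ pm Γ) (z₀ : ℍ)
    (hfix : γ • z₀ = z₀) : mult γ z₀ ^ ptIdx A 1 z₀ = 1 := by
  obtain ⟨π, hπ⟩ := Fermat.Agent.X0.FF.ffp_exists_irreducible (ptPlace A 1 z₀)
  have hord : (ptPlace A 1 z₀).ord (π : A.F) = 1 := (ptPlace A 1 z₀).ord_coe_irreducible hπ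
  have hπ0 : (π : A.F) ≠ 0 := by
    intro h0
    rw [h0, Place.ord_zero] at hord
    exact zero_ne_one hord
  have hφ : realMer A (π : A.F) ≠ 0 := AnReal4.emb_ne_zero A 1 hπ0
  have hinv : slMer γ (realMer A (π : A.F)) =
      algebraMap HolH MerH (algebraMap ℂ HolH 1) * realMer A (π : A.F) := by
    rw [slMer_realMer_of_mem A γ hγ, map_one, map_one, one_mul]
  have h1 := eq_mult_zpow_ordMer hφ γ z₀ hfix hinv
  rw [ordMer_realMer A z₀ hπ0, hord, mul_one, zpow_natCast] at h1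
  exact h1.symm

open Fermat.Agent.M17.StabCount4 in
/-- the stabiliser of `z₀` in `±Γ` contains an element whose multiplier is a primitive
`ptIdx`-th root of unity. -/
theorem exists_generator (z₀ : ℍ) : ∃ ε : SL(2, ℤ), ε ∈ pm Γ ∧ ε • z₀ = z₀ ∧
    IsPrimitiveRoot (mult ε z₀) (ptIdx A 1 z₀) := by
  by_cases h3 : ∃ τ : SL(2, ℤ), τ • ptRho = z₀
  · obtain ⟨τ, rfl⟩ := h3
    have hidx : ptIdx A 1 (τ • ptRho) = ptIdx A τ⁻¹ ptRho := by
      rw [ptIdx_eq_one A τ⁻¹ ptRho, inv_inv]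
    rcases ptIdx_ptRho A τ⁻¹ with h1 | hmem
    · refine ⟨1, one_mem _, one_smul _ _, ?_⟩
      rw [hidx, h1, mult_one]
      exact IsPrimitiveRoot.one
    · have hmem' : τ * (ModularGroup.S * ModularGroup.T) * τ⁻¹ ∈ pm Γ := by
        rwa [inv_inv] at hmem
      refine ⟨τ * (ModularGroup.S * ModularGroup.T) * τ⁻¹, hmem', ?_, ?_⟩
      · rw [mul_smul, mul_smul, inv_smul_smul, ho_ST_smul_ptRho]
      · rw [hidx, ptIdx_eq_three_of_fixed_ST A τ⁻¹ hmem, mult_conj τ _ ho_ST_smul_ptRho]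
        exact isPrimitiveRoot_mult_ST
  by_cases h2 : ∃ τ : SL(2, ℤ), τ • ptI = z₀
  · obtain ⟨τ, rfl⟩ := h2
    have hidx : ptIdx A 1 (τ • ptI) = ptIdx A τ⁻¹ ptI := by
      rw [ptIdx_eq_one A τ⁻¹ ptI, inv_inv]
    rcases ptIdx_ptI A τ⁻¹ with h1 | hmem
    · refine ⟨1, one_mem _, one_smul _ _, ?_⟩
      rw [hidx, h1, mult_one]
      exact IsPrimitiveRoot.one
    · have hmem' : τ * ModularGroup.S * τ⁻¹ ∈ pm Γ := by
        rwa [inv_inv] at hmem
      refine ⟨τ * ModularGroup.S * τ⁻¹, hmem', ?_, ?_⟩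
      · rw [mul_smul, mul_smul, inv_smul_smul, ho_S_smul_ptI]
      · rw [hidx, ptIdx_eq_two_of_fixed_S A τ⁻¹ hmem, mult_conj τ _ ho_S_smul_ptI]
        exact isPrimitiveRoot_mult_S
  · have h1 : ellOrder z₀ = 1 := by
      unfold ellOrder
      rw [if_neg h3, if_neg h2]
    have hidx : ptIdx A 1 z₀ = 1 := by
      have := ptIdx_dvd_ellOrder A 1 z₀
      rw [h1] at this
      exact Nat.dvd_one.mp this
    refine ⟨1, one_mem _, one_smul _ _, ?_⟩
    rw [hidx, mult_one]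
    exact IsPrimitiveRoot.one

open Fermat.Agent.M17.StabCount4 in
theorem sgn_mem_pm (b : Bool) : sgn b ∈ pm Γ := by
  unfold sgn
  split_ifs
  · exact neg_one_mem_pm Γ
  · exact one_mem _

open Fermat.Agent.M17.StabCount4 in
/-- **the stabiliser of `z₀` in `±Γ` has `2 · ptIdx A 1 z₀` elements.** -/
theorem card_stabilizer_pm (z₀ : ℍ) :
    Nat.card {γ : SL(2, ℤ) // γ ∈ pm Γ ∧ γ • z₀ = z₀} = 2 * ptIdx A 1 z₀ := by
  obtain ⟨ε, hε, hfix, hprim⟩ := exists_generator A z₀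
  set e := ptIdx A 1 z₀ with he
  haveI : NeZero e := ⟨(ptIdx_pos A 1 z₀).ne'⟩
  have hfixpow : ∀ k : ℕ, (ε ^ k) • z₀ = z₀ := by
    intro k
    induction k with
    | zero => simp
    | succ k ih => rw [pow_succ, mul_smul, hfix, ih]
  let f : Fin e × Bool → {γ : SL(2, ℤ) // γ ∈ pm Γ ∧ γ • z₀ = z₀} := fun kb =>
    ⟨sgn kb.2 * ε ^ (kb.1 : ℕ), mul_mem (sgn_mem_pm kb.2) (pow_mem hε _), by
      rw [mul_smul, hfixpow, sgn_smul]⟩
  have hfval : ∀ kb, ((f kb : {γ : SL(2, ℤ) // γ ∈ pm Γ ∧ γ • z₀ = z₀}) : SL(2, ℤ))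
      = sgn kb.2 * ε ^ (kb.1 : ℕ) := fun _ => rfl
  have hinj : Function.Injective f := by
    rintro ⟨k, b⟩ ⟨k', b'⟩ h
    have h1 : sgn b * ε ^ (k : ℕ) = sgn b' * ε ^ (k' : ℕ) := by
      have := congrArg (fun t : {γ : SL(2, ℤ) // γ ∈ pm Γ ∧ γ • z₀ = z₀} => (t : SL(2, ℤ))) h
      simpa only [hfval] using this
    have h2 : mult ε z₀ ^ (k : ℕ) = mult ε z₀ ^ (k' : ℕ) := by
      have := congrArg (fun t => mult t z₀) h1
      simp only [mult_sgn_mul, mult_pow_of_fixed hfix] at this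
      exact this
    have hk : (k : ℕ) = (k' : ℕ) := hprim.pow_inj k.2 k'.2 h2
    have hk' : k = k' := Fin.ext hk
    subst hk'
    have hb : sgn b = sgn b' := mul_right_cancel h1
    rw [sgn_injective hb]
  have hsurj : Function.Surjective f := by
    rintro ⟨γ, hγ, hγfix⟩
    have hpow : mult γ z₀ ^ e = 1 := mult_pow_ptIdx A γ hγ z₀ hγfix
    obtain ⟨k, hk, hζ⟩ := hprim.eq_pow_of_pow_eq_one hpow
    have hfixinv : (ε ^ k)⁻¹ • z₀ = z₀ := by
      rw [inv_smul_eq_iff, hfixpow]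
    have hone : mult (γ * (ε ^ k)⁻¹) z₀ = 1 := by
      rw [mult_mul_of_fixed hfixinv, mult_inv_of_fixed (hfixpow k), mult_pow_of_fixed hfix, hζ]
      exact mul_inv_cancel₀ (mult_ne_zero γ z₀)
    have hfixprod : (γ * (ε ^ k)⁻¹) • z₀ = z₀ := by
      rw [mul_smul, hfixinv, hγfix]
    rcases (mult_eq_one_iff hfixprod).1 hone with h | h
    · refine ⟨(⟨k, hk⟩, false), ?_⟩
      apply Subtype.ext
      rw [hfval]
      show sgn false * ε ^ k = γ
      have : γ = ε ^ k := by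
        have := congrArg (· * ε ^ k) h
        simpa using this
      rw [this]
      simp [sgn]
    · refine ⟨(⟨k, hk⟩, true), ?_⟩
      apply Subtype.ext
      rw [hfval]
      show sgn true * ε ^ k = γ
      have : γ = -1 * ε ^ k := by
        have := congrArg (· * ε ^ k) h
        simpa using this
      rw [this]
      simp [sgn]
  rw [← Nat.card_congr (Equiv.ofBijective f ⟨hinj, hsurj⟩), Nat.card_prod, Nat.card_fin,
    Nat.card_eq_fintype_card, Fintype.card_bool, mul_comm]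

open Fermat.Agent.M17.StabCount4 in
/-- **the stabiliser of `z₀` in `Γ` has `negOneCount Γ · ptIdx A 1 z₀` elements.** -/
theorem card_stabilizer (z₀ : ℍ) :
    Nat.card {γ : SL(2, ℤ) // γ ∈ Γ ∧ γ • z₀ = z₀} = negOneCount Γ * ptIdx A 1 z₀ := by
  classical
  unfold negOneCount
  by_cases hneg : (-1 : SL(2, ℤ)) ∈ Γ
  · rw [if_pos hneg, ← card_stabilizer_pm A z₀]
    have hiff : ∀ γ : SL(2, ℤ), γ ∈ pm Γ ↔ γ ∈ Γ := by
      intro γ
      constructor
      · rintro (h | h)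
        · exact h
        · have := Γ.mul_mem hneg h
          rwa [neg_one_mul, neg_neg] at this
      · exact fun h => le_pm Γ h
    exact Nat.card_congr (Equiv.subtypeEquivRight fun γ => by rw [hiff])
  · rw [if_neg hneg, one_mul]
    have h2 := card_stabilizer_pm A z₀
    let f : {γ : SL(2, ℤ) // γ ∈ Γ ∧ γ • z₀ = z₀} × Bool →
        {γ : SL(2, ℤ) // γ ∈ pm Γ ∧ γ • z₀ = z₀} := fun p =>
      ⟨sgn p.2 * (p.1 : SL(2, ℤ)), mul_mem (sgn_mem_pm p.2) (le_pm Γ p.1.2.1), by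
        rw [mul_smul, p.1.2.2, sgn_smul]⟩
    have hinj : Function.Injective f := by
      rintro ⟨⟨γ, hγ, hγz⟩, b⟩ ⟨⟨γ', hγ', hγz'⟩, b'⟩ h
      have h1 : sgn b * γ = sgn b' * γ' := congrArg Subtype.val h
      have hb : b = b' := by
        by_contra hbb
        apply hneg
        cases b <;> cases b' <;> simp only [sgn, if_true, if_false, Bool.false_eq_true,
          one_mul, neg_one_mul, not_true_eq_false, reduceCtorEq] at h1 hbb
        · have : (-1 : SL(2, ℤ)) = γ * γ'⁻¹ := by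
            rw [h1, neg_mul, mul_inv_cancel]
          rw [this]
          exact Γ.mul_mem hγ (Γ.inv_mem hγ')
        · have : (-1 : SL(2, ℤ)) = γ' * γ⁻¹ := by
            rw [← h1, neg_mul, mul_inv_cancel]
          rw [this]
          exact Γ.mul_mem hγ' (Γ.inv_mem hγ)
      subst hb
      have : γ = γ' := mul_left_cancel h1
      subst this
      rfl
    have hsurj : Function.Surjective f := by
      rintro ⟨δ, hδ | hδ, hδz⟩
      · exact ⟨(⟨δ, hδ, hδz⟩, false), Subtype.ext (by simp [f, sgn])⟩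
      · refine ⟨(⟨-δ, hδ, by rw [ModularGroup.SL_neg_smul]; exact hδz⟩, true),
          Subtype.ext (by simp [f, sgn])⟩
    have h3 := Nat.card_congr (Equiv.ofBijective f ⟨hinj, hsurj⟩)
    rw [Nat.card_prod, h2, Nat.card_eq_fintype_card (α := Bool), Fintype.card_bool,
      mul_comm] at h3
    exact Nat.eq_of_mul_eq_mul_left two_pos h3

end Fermat.Agent.M48.AnExactPt4
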