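/-
M48 (P1), [KUM1] (KS1), file K1 (helper1): **the concrete Kummer map over `ℂ` for an analytic model**
`A : AnModel Γ h F₀` (helper4's `DictIface4`), generic in `Γ`.  Port of `ES/KUM/KumInst18` +
`MultTrivial18.invClosedC` from `(Γ₀(N), FC N, realMer N)` to `(Γ, A.F, realMer A)`:

* `settingA A : Setting ℂ A.F MerH ↥Γ` (`Θ := realMer A`, `act γ := slMer γ`);
* `hasRootsA` (ROOT), `constOnlyA` (CONST), `invClosedA` (INV, = `AnRatioMem4.root_mem`);
* `kummerA A n : ↥(Pic0.torsion ℂ A.F n) →+ Additive (↥Γ →* ℂˣ)`, `kumCharOfA`, `isKum_kummerA`,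
  `kummerA_eigen`, `kummerA_pow_eq_one`, `kummerA_eq_of_isKum`, `kummerA_injective`;
* `KumCharG Γ n` : characters of exponent `n` trivial on the elements of trace `|tr| ≤ 2`;
* `MultTrivialA A n`, `HasEigenfunctionsA A n` : the two remaining analytic inputs (MULT), (SURJ) in literal form;
  `kummerA_mem_kumChar`, `kummerA_surjective_of`, `kummerEquivA`;
* `finite_torsionA` (for `Γ` finitely generated).

Imported by no statement.
-/
import Mathlib
import Fermat.Agent.ES.KUM.KummerAbstract17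
import Fermat.Agent.ES.KUM.RootsMer14
import Fermat.Agent.RR.LHypGen
import Fermat.Agent.M48.AnPoint4
import Fermat.Agent.M48.AnDegree4
import Fermat.Agent.M48.AnRatioMem4

set_option autoImplicit false
set_option linter.unusedSectionVars false

open UpperHalfPlane ModularCurve AlgebraicCurve
open scoped MatrixGroups

noncomputable section

namespace Fermat.Agent.M48.KumSetting1

open Fermat.Agent.X0 Fermat.Agent.X0.SurjPoint Fermat.Agent.ES.KUM
  Fermat.Agent.ES.KUM.KummerAbstract17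
open Fermat.Agent.M48.DictIface4 Fermat.Agent.M48.AnReal4 Fermat.Agent.M48.AnPoint4

variable {Γ : Subgroup SL(2, ℤ)} {N : ℕ} {F₀ : IntermediateField ℚ (LaurentSeries ℚ)}
  (A : AnModel Γ N F₀)

/-- the constants of `MerH`. -/
def constMer : ℂ →+* MerH := (algebraMap HolH MerH).comp (algebraMap ℂ HolH)

@[simp] theorem constMer_apply (c : ℂ) :
    constMer c = algebraMap HolH MerH (algebraMap ℂ HolH c) := rfl

/-- **The Kummer setting over `ℂ` of an analytic model.** -/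
def settingA : Setting ℂ A.F MerH ↥Γ where
  ι := constMer
  Θ := realMer A
  Θ_algebraMap c := realMer_algebraMap A c
  act γ := slMer (γ : SL(2, ℤ))
  act_ι γ c := slMer_const (γ : SL(2, ℤ)) c
  act_Θ γ f := slMer_realMer_of_mem A (γ : SL(2, ℤ)) (le_pm Γ γ.2) f
  act_mul_eigen := Setting.act_mul_eigen_of_right constMer
    (fun γ : ↥Γ => slMer (γ : SL(2, ℤ)))
    (fun γ c => slMer_const (γ : SL(2, ℤ)) c)
    (fun γ δ h => by
      change slMer ((γ : SL(2, ℤ)) * (δ : SL(2, ℤ))) h = _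
      exact slMer_mul _ _ h)

@[simp] theorem settingA_ι (c : ℂ) :
    (settingA A).ι c = algebraMap HolH MerH (algebraMap ℂ HolH c) := rfl

@[simp] theorem settingA_Θ (f : A.F) : (settingA A).Θ f = realMer A f := rfl

@[simp] theorem settingA_act (γ : ↥Γ) (h : MerH) :
    (settingA A).act γ h = slMer (γ : SL(2, ℤ)) h := rfl

theorem realMer_ne_zero {f : A.F} (hf : f ≠ 0) : realMer A f ≠ 0 :=
  fun h => hf ((realMer A).injective (by rw [h, map_zero]))

/-- **(ROOT)**: an element of `F` all of whose orders are divisible by `n` has an `n`-th root in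
`MerH`. -/
theorem hasRootsA (n : ℕ) (hn : n ≠ 0) : (settingA A).HasRoots n := by
  intro f hf hdiv
  have hne : realMer A f ≠ 0 := realMer_ne_zero A hf
  obtain ⟨a, b, ha, hb, hab⟩ := exists_div_ne_zero_frac (S := HolH) (realMer A f) hne
  have hz : ∀ z : ℍ, ∃ m : ℤ,
      ((ordH (a : ℍ → ℂ) z).toNat : ℤ) - ((ordH (b : ℍ → ℂ) z).toNat : ℤ) = n * m := by
    intro z
    obtain ⟨m, hm⟩ := hdiv (ptPlace A 1 z)
    refine ⟨ptIdx A 1 z * m, ?_⟩
    rw [← ordMer_div_algebraMap z ha hb, ← hab, ordMer_realMer A z hf, hm]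
    ring
  obtain ⟨x, -, hx⟩ := RootsMer14.exists_root_MerH n hn a b ha hb hz
  exact ⟨x, by rw [hx, settingA_Θ, hab]⟩

variable [NeZero N]

/-- **(CONST)**: functions of `F` without poles are constant. -/
theorem constOnlyA : ConstOnly ℂ A.F := fun _ hf =>
  Fermat.Agent.RR.LSpace.eq_algebraMap_of_forall_ord_nonneg
    (Fermat.Agent.RR.LHypGen.lHyp_of_isGen (AnDegree4.isGen_jF A)) hf

/-- **(INV)**: `Γ`-invariant `n`-th roots of elements of `Θ(F)` lie in `Θ(F)`. -/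
theorem invClosedA (n : ℕ) (hn : n ≠ 0) : (settingA A).InvClosed n := by
  intro h hinv ⟨f, hf⟩
  exact AnRatioMem4.root_mem A n hn h (fun γ hγ => hinv ⟨γ, hγ⟩) f hf

/-- **The Kummer map over `ℂ`**: `Pic0(F)[n] → Hom(Γ, ℂˣ)`. -/
def kummerA (n : ℕ) [NeZero n] : ↥(Pic0.torsion ℂ A.F n) →+ Additive (↥Γ →* ℂˣ) :=
  kummer (settingA A) n (hasRootsA A n (NeZero.ne n)) (constOnlyA A)

/-- the character `κ x`. -/
def kumCharOfA (n : ℕ) [NeZero n] (x : ↥(Pic0.torsion ℂ A.F n)) : ↥Γ →* ℂˣ :=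
  Additive.toMul (kummerA A n x)

theorem isKum_kummerA (n : ℕ) [NeZero n] (x : ↥(Pic0.torsion ℂ A.F n)) :
    IsKum (settingA A) n (x : Pic0 ℂ A.F) (kumCharOfA A n x) :=
  isKum_kummer (settingA A) n _ _ x

/-- **Characterisation**: for ANY datum `x = [D]`, `n • D = div f`, `h ^ n = Θ f`, one has
`h ∘ γ = κ x γ · h`. -/
theorem kummerA_eigen (n : ℕ) [NeZero n] (x : ↥(Pic0.torsion ℂ A.F n))
    {D : Divisor.degZero (K := ℂ) (F := A.F)} {f : A.F} {h : MerH}
    (hd : IsDatum (settingA A) n (x : Pic0 ℂ A.F) D f h) (γ : ↥Γ) :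
    slMer (γ : SL(2, ℤ)) h =
      algebraMap HolH MerH (algebraMap ℂ HolH ((kumCharOfA A n x γ : ℂˣ) : ℂ)) * h :=
  kummer_eigen (settingA A) n _ _ x hd γ

/-- every torsion class has a datum. -/
theorem exists_datum (n : ℕ) [NeZero n] (x : ↥(Pic0.torsion ℂ A.F n)) :
    ∃ (D : Divisor.degZero (K := ℂ) (F := A.F)) (f : A.F) (h : MerH),
      IsDatum (settingA A) n (x : Pic0 ℂ A.F) D f h ∧
      ∀ γ : ↥Γ, slMer (γ : SL(2, ℤ)) h =
        algebraMap HolH MerH (algebraMap ℂ HolH ((kumCharOfA A n x γ : ℂˣ) : ℂ)) * h :=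
  isKum_kummerA A n x

theorem kummerA_pow_eq_one (n : ℕ) [NeZero n] (x : ↥(Pic0.torsion ℂ A.F n)) (γ : ↥Γ) :
    kumCharOfA A n x γ ^ n = 1 :=
  kummer_pow_eq_one (settingA A) n _ _ x γ

theorem kummerA_eq_of_isKum (n : ℕ) [NeZero n] (x : ↥(Pic0.torsion ℂ A.F n))
    {χ : ↥Γ →* ℂˣ} (hχ : IsKum (settingA A) n (x : Pic0 ℂ A.F) χ) : kumCharOfA A n x = χ := by
  have h := kummer_eq_of_isKum (settingA A) n (hasRootsA A n (NeZero.ne n)) (constOnlyA A) x hχ
  change Additive.toMul (kummerA A n x) = χ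
  change kummerA A n x = Additive.ofMul χ at h
  rw [h]
  rfl

/-- injectivity of the Kummer map. -/
theorem kummerA_injective (n : ℕ) [NeZero n] : Function.Injective (kummerA A n) :=
  kummer_injective (settingA A) n _ _ (invClosedA A n (NeZero.ne n))

/-- finiteness of `Pic0(F)[n]` for finitely generated `Γ`. -/
theorem finite_torsionA (n : ℕ) [NeZero n] (hfg : Group.FG ↥Γ) :
    Finite ↥(Pic0.torsion ℂ A.F n) :=
  finite_torsion (settingA A) n (hasRootsA A n (NeZero.ne n)) (constOnlyA A)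
    (invClosedA A n (NeZero.ne n)) hfg

/-! ### The target group -/

/-- **The target of the Kummer map**: characters of `Γ` of exponent `n` which are trivial on the
elements of trace `|tr| ≤ 2` (parabolic, elliptic, `±1`, and `-`parabolic). -/
def KumCharG (Γ : Subgroup SL(2, ℤ)) (n : ℕ) : Subgroup (↥Γ →* ℂˣ) where
  carrier := {χ | (∀ γ, χ γ ^ n = 1) ∧
    ∀ γ : ↥Γ, |((γ : SL(2, ℤ)) : Matrix (Fin 2) (Fin 2) ℤ).trace| ≤ 2 → χ γ = 1}
  mul_mem' := by
    rintro χ ψ ⟨h1, h2⟩ ⟨h1', h2'⟩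
    refine ⟨fun γ => ?_, fun γ hγ => ?_⟩
    · rw [MonoidHom.mul_apply, mul_pow, h1, h1', one_mul]
    · rw [MonoidHom.mul_apply, h2 γ hγ, h2' γ hγ, one_mul]
  one_mem' := ⟨fun γ => by simp, fun γ _ => rfl⟩
  inv_mem' := by
    rintro χ ⟨h1, h2⟩
    refine ⟨fun γ => ?_, fun γ hγ => ?_⟩
    · rw [MonoidHom.inv_apply, inv_pow, h1, inv_one]
    · rw [MonoidHom.inv_apply, h2 γ hγ, inv_one]

theorem mem_kumCharG_iff {Γ : Subgroup SL(2, ℤ)} {n : ℕ} {χ : ↥Γ →* ℂˣ} :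
    χ ∈ KumCharG Γ n ↔ (∀ γ, χ γ ^ n = 1) ∧
      ∀ γ : ↥Γ, |((γ : SL(2, ℤ)) : Matrix (Fin 2) (Fin 2) ℤ).trace| ≤ 2 → χ γ = 1 := Iff.rfl

/-- (MULT) the multiplier hypothesis: for every datum, the eigen-constant of an element of trace
`|tr| ≤ 2` is `1`. -/
def MultTrivialA (n : ℕ) : Prop :=
  ∀ (f : A.F) (h : MerH), f ≠ 0 → h ≠ 0 → h ^ n = realMer A f →
    (∀ v : Place ℂ A.F, (n : ℤ) ∣ v.ord f) →
    ∀ (γ : ↥Γ) (c : ℂ),
      |((γ : SL(2, ℤ)) : Matrix (Fin 2) (Fin 2) ℤ).trace| ≤ 2 →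
      slMer (γ : SL(2, ℤ)) h = algebraMap HolH MerH (algebraMap ℂ HolH c) * h → c = 1

/-- `κ x ∈ KumCharG Γ n`, given the multiplier statements. -/
theorem kummerA_mem_kumChar (n : ℕ) [NeZero n] (hmult : MultTrivialA A n)
    (x : ↥(Pic0.torsion ℂ A.F n)) : kumCharOfA A n x ∈ KumCharG Γ n := by
  refine ⟨kummerA_pow_eq_one A n x, fun γ hγ => ?_⟩
  obtain ⟨D, f, h, hd, he⟩ := exists_datum A n x
  have hh : h ≠ 0 := hd.ne_zero (NeZero.ne n)
  have hdiv : ∀ v : Place ℂ A.F, (n : ℤ) ∣ v.ord f := fun v => ⟨_, (hd.2.2.1 v).symm⟩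
  have h1 := hmult f h hd.2.1 hh hd.2.2.2 hdiv γ _ hγ (he γ)
  exact Units.ext h1

/-- (SURJ) in the literal shape of the image criterion `exists_kummer_eq`: every `χ ∈ KumCharG` has an
eigenfunction `h` with `h ^ n = Θ f`, `n ∣ ord_v f` for all places. -/
def HasEigenfunctionsA (n : ℕ) : Prop :=
  ∀ χ ∈ KumCharG Γ n, ∃ (h : MerH) (f : A.F), h ≠ 0 ∧ h ^ n = realMer A f ∧
    (∀ v : Place ℂ A.F, (n : ℤ) ∣ v.ord f) ∧
    ∀ γ : ↥Γ, slMer (γ : SL(2, ℤ)) h =
      algebraMap HolH MerH (algebraMap ℂ HolH ((χ γ : ℂˣ) : ℂ)) * h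

theorem hasPrincipalDivisorsA : HasPrincipalDivisors ℂ A.F :=
  Fermat.Agent.X0.FFGenus.hasPrincipalDivisors (AnDegree4.isGen_jF A)

theorem kummerA_surjective_of (n : ℕ) [NeZero n] (hE : HasEigenfunctionsA A n)
    (χ : ↥Γ →* ℂˣ) (hχ : χ ∈ KumCharG Γ n) :
    ∃ x : ↥(Pic0.torsion ℂ A.F n), kummerA A n x = Additive.ofMul χ := by
  obtain ⟨h, f, hh, hf, hdiv, he⟩ := hE χ hχ
  have := hasPrincipalDivisorsA A
  exact exists_kummer_eq (settingA A) n (hasRootsA A n (NeZero.ne n)) (constOnlyA A) χ hh he hf hdiv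

/-- **The Kummer isomorphism over `ℂ`** from the two analytic inputs (MULT), (SURJ). -/
def kummerEquivA (n : ℕ) [NeZero n] (hmult : MultTrivialA A n) (hE : HasEigenfunctionsA A n) :
    ↥(Pic0.torsion ℂ A.F n) ≃+ Additive ↥(KumCharG Γ n) :=
  kummerEquiv (settingA A) n (hasRootsA A n (NeZero.ne n)) (constOnlyA A)
    (invClosedA A n (NeZero.ne n)) (KumCharG Γ n)
    (kummerA_mem_kumChar A n hmult) (kummerA_surjective_of A n hE)

theorem kummerEquivA_apply (n : ℕ) [NeZero n] (hmult : MultTrivialA A n)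
    (hE : HasEigenfunctionsA A n) (x : ↥(Pic0.torsion ℂ A.F n)) :
    ((Additive.toMul (kummerEquivA A n hmult hE x) : ↥(KumCharG Γ n)) : ↥Γ →* ℂˣ) =
      kumCharOfA A n x := rfl

end Fermat.Agent.M48.KumSetting1
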