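/-
M48 (P1), [KUM1] (KS1), file K2 (helper1): **(MULT) — Kummer characters are trivial on the elements of trace
`|tr| ≤ 2`**, for an analytic model `A : AnModel Γ N F₀`.  Port of `ES/KUM/EllMult14` (last part),
`CCuspPar16`, `MultTrivial18` to helper4's dictionary (`AnExactPt4.mult_pow_ptIdx`,
`AnExactCusp4.card_orbit_mul_order_cuspEmb`, `conj_T_zpow_mem_iff_width`), with helper3's multiplier formula
at `i∞` (`ParMult3.parMult`, generic).

* `eq_one_of_fixed`, `eq_one_of_trace_sq_lt` : elliptic half (`γ ∈ ±Γ`);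
* `mul_dvd_mul_order_cuspEmb`, `exp_parabolic_eq_one`, `eq_one_of_conj_T_zpow` : parabolic half;
* **`multTrivialA A n hn : KumSetting1.MultTrivialA A n`**; `kumCharOfA_mem_kumChar`.

Imported by no statement.
-/
import Mathlib
import Fermat.Agent.ES.KUM.EllMult14
import Fermat.Agent.ES.KUM.TraceClass17
import Fermat.Agent.ES.KUM.ParMult3
import Fermat.Agent.M48.KumSetting1
import Fermat.Agent.M48.AnExactPt4
import Fermat.Agent.M48.AnExactCusp4

set_option autoImplicit false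
set_option linter.unusedSectionVars false

open UpperHalfPlane ModularCurve AlgebraicCurve HahnSeries
open scoped MatrixGroups
open MulAction Subgroup

noncomputable section

namespace Fermat.Agent.M48.KumMult1

open Fermat.Agent.X0 Fermat.Agent.X0.SurjPoint Fermat.Agent.ES.KUM
  Fermat.Agent.ES.KUM.KummerAbstract17 Fermat.Agent.ES.KUM.EllMult14
open Fermat.Agent.M48.DictIface4 Fermat.Agent.M48.AnReal4 Fermat.Agent.M48.AnPoint4
  Fermat.Agent.M48.AnCuspExp4 Fermat.Agent.M48.AnCuspPlace4 Fermat.Agent.M48.AnExactCusp4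
  Fermat.Agent.M48.KumSetting1

variable {Γ : Subgroup SL(2, ℤ)} {N : ℕ} {F₀ : IntermediateField ℚ (LaurentSeries ℚ)}
  (A : AnModel Γ N F₀) [NeZero N]

/-! ### `-1` acts trivially -/

theorem compSLHom_neg (γ : SL(2, ℤ)) (a : HolH) : compSLHom (-γ) a = compSLHom γ a := by
  apply Subtype.ext
  funext z
  show (a : ℍ → ℂ) ((-γ) • z) = (a : ℍ → ℂ) (γ • z)
  rw [ModularGroup.SL_neg_smul]

theorem slMer_neg (γ : SL(2, ℤ)) (h : MerH) : slMer (-γ) h = slMer γ h := by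
  obtain ⟨a, b, -, rfl⟩ := exists_div_MerH h
  rw [slMer_div, slMer_div, compSLHom_neg, compSLHom_neg]

/-! ### The elliptic half -/

/-- **Kummer characters are trivial on elliptic elements** (local form). -/
theorem eq_one_of_fixed {n : ℕ} (hn : n ≠ 0) (γ : SL(2, ℤ)) (hγ : γ ∈ pm Γ)
    (z₀ : ℍ) (hfix : γ • z₀ = z₀) {f : A.F} (hf : f ≠ 0) {h : MerH} (hh : h ^ n = realMer A f)
    {d : ℤ} (hd : (ptPlace A 1 z₀).ord f = n * d) {c : ℂ}
    (hc : slMer γ h = algebraMap HolH MerH (algebraMap ℂ HolH c) * h) : c = 1 := by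
  have hh0 : h ≠ 0 := by
    rintro rfl
    rw [zero_pow hn] at hh
    exact realMer_ne_zero A hf hh.symm
  have h1 : (n : ℤ) * ordMer z₀ h = n * (ptIdx A 1 z₀ * d) := by
    rw [← ordMer_pow z₀ hh0 n, hh, ordMer_realMer A z₀ hf, hd]
    ring
  have hnZ : (n : ℤ) ≠ 0 := by exact_mod_cast hn
  have h2 : ordMer z₀ h = ptIdx A 1 z₀ * d := mul_left_cancel₀ hnZ h1
  rw [eq_mult_zpow_ordMer hh0 γ z₀ hfix hc, h2, zpow_mul, zpow_natCast,
    AnExactPt4.mult_pow_ptIdx A γ hγ z₀ hfix, one_zpow]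

/-- **Kummer characters are trivial on elliptic elements.** -/
theorem eq_one_of_trace_sq_lt {n : ℕ} (hn : n ≠ 0) (γ : SL(2, ℤ))
    (hγ : γ ∈ pm Γ) (htr : ((γ 0 0 : ℤ) + γ 1 1) ^ 2 < 4)
    {f : A.F} (hf : f ≠ 0) {h : MerH} (hh : h ^ n = realMer A f)
    (hdiv : ∀ z₀ : ℍ, ∃ d : ℤ, (ptPlace A 1 z₀).ord f = n * d) {c : ℂ}
    (hc : slMer γ h = algebraMap HolH MerH (algebraMap ℂ HolH c) * h) : c = 1 := by
  obtain ⟨z₀, hfix⟩ := exists_fixed_of_trace_sq_lt γ htr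
  obtain ⟨d, hd⟩ := hdiv z₀
  exact eq_one_of_fixed A hn γ hγ z₀ hfix hf hh hd hc

/-! ### The parabolic half -/

/-- order of a quotient of Laurent series. -/
theorem order_div' {x y : LaurentSeries ℂ} (hx : x ≠ 0) (hy : y ≠ 0) :
    (x / y).order = x.order - y.order := by
  have h1 : (x / y) * y = x := div_mul_cancel₀ x hy
  have h2 := HahnSeries.order_mul (div_ne_zero hx hy) hy
  rw [h1] at h2
  omega

/-- **Integrality of the parabolic exponent.**  If `σ T^m σ⁻¹ ∈ ±Γ` and all orders of `f` are divisible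
by `n`, then `n * N` divides `m * ord_{q_N} (f ∘ σ)`. -/
theorem mul_dvd_mul_order_cuspEmb (σ : SL(2, ℤ)) (m : ℤ)
    (hσ : σ * ModularGroup.T ^ m * σ⁻¹ ∈ pm Γ) {f : A.F} (hf : f ≠ 0) (n : ℤ)
    (hn : ∀ v : Place ℂ A.F, n ∣ v.ord f) :
    n * (N : ℤ) ∣ m * (cuspEmb A σ f).order := by
  have hw : (width Γ σ⁻¹ : ℤ) ∣ m := by
    rw [← conj_T_zpow_mem_iff_width, inv_inv]
    exact hσ
  obtain ⟨t, ht⟩ := hw
  obtain ⟨s, hs⟩ := hn (cuspPlace A σ⁻¹)
  have h1 := card_orbit_mul_order_cuspEmb A σ⁻¹ hf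
  rw [inv_inv] at h1
  refine ⟨t * s, ?_⟩
  calc m * (cuspEmb A σ f).order
      = t * ((width Γ σ⁻¹ : ℤ) * (cuspEmb A σ f).order) := by
        rw [ht]; ring
    _ = t * ((N : ℤ) * (cuspPlace A σ⁻¹).ord f) := by rw [← h1]; rfl
    _ = n * (N : ℤ) * (t * s) := by rw [hs]; ring

/-- The multiplier `exp (2πi · m · k / (n · N))` is `1`. -/
theorem exp_parabolic_eq_one (σ : SL(2, ℤ)) (m : ℤ)
    (hσ : σ * ModularGroup.T ^ m * σ⁻¹ ∈ pm Γ) {f : A.F} (hf : f ≠ 0) {n : ℕ} (hn0 : n ≠ 0)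
    (hn : ∀ v : Place ℂ A.F, (n : ℤ) ∣ v.ord f) :
    Complex.exp (2 * Real.pi * Complex.I * m * (cuspEmb A σ f).order / (n * N)) = 1 := by
  obtain ⟨t, ht⟩ := mul_dvd_mul_order_cuspEmb A σ m hσ hf (n : ℤ) hn
  rw [Complex.exp_eq_one_iff]
  refine ⟨t, ?_⟩
  have hN : (N : ℂ) ≠ 0 := by exact_mod_cast NeZero.ne N
  have hn' : (n : ℂ) ≠ 0 := by exact_mod_cast hn0
  have h2 : ((m : ℂ) * ((cuspEmb A σ f).order : ℂ)) = (n : ℂ) * (N : ℂ) * (t : ℂ) := by
    have := congrArg (fun z : ℤ => (z : ℂ)) ht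
    push_cast at this
    exact this
  rw [div_eq_iff (mul_ne_zero hn' hN)]
  linear_combination (2 * (Real.pi : ℂ) * Complex.I) * h2

/-- **Parabolic half**: if `σ T^m σ⁻¹ ∈ ±Γ` acts on an `n`-th root `h` of `Θ f` (`n ∣ ord_v f`
for all `v`) by the constant `c`, then `c = 1`. -/
theorem eq_one_of_conj_T_zpow {n : ℕ} (hn : n ≠ 0) (σ : SL(2, ℤ)) (m : ℤ)
    (hσ : σ * ModularGroup.T ^ m * σ⁻¹ ∈ pm Γ)
    {f : A.F} (hf : f ≠ 0) {h : MerH} (hh0 : h ≠ 0) (hh : h ^ n = realMer A f)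
    (hdiv : ∀ v : Place ℂ A.F, (n : ℤ) ∣ v.ord f) {c : ℂ}
    (hc : slMer (σ * ModularGroup.T ^ m * σ⁻¹) h =
      algebraMap HolH MerH (algebraMap ℂ HolH c) * h) : c = 1 := by
  -- `φ := h ∘ σ`
  set φ : MerH := slMer σ h with hφ
  have hφ0 : φ ≠ 0 := fun h0 => hh0 ((slMer σ).injective (by rw [← hφ, h0, map_zero]))
  -- the multiplier of `φ` under `T^m`
  have hcφ : slMer (ModularGroup.T ^ m) φ =
      algebraMap HolH MerH (algebraMap ℂ HolH c) * φ := by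
    have h1 : slMer (σ * ModularGroup.T ^ m) h = slMer (σ * ModularGroup.T ^ m * σ⁻¹ * σ) h := by
      rw [inv_mul_cancel_right]
    rw [hφ, ← slMer_mul, h1, slMer_mul, hc, map_mul, slMer_const]
  -- `φ ^ n = a / b` with expansion data
  obtain ⟨u, s, hs, rfl⟩ := exists_div_ne_zero A f
  have hu : u ≠ 0 := by
    rintro rfl
    apply hf
    simp
  have hφn : φ ^ n = algebraMap HolH MerH (compSLHom σ (A.Θ u)) /
      algebraMap HolH MerH (compSLHom σ (A.Θ s)) := by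
    rw [hφ, ← map_pow, hh, map_div₀, AnReal4.realMer_coe, AnReal4.realMer_coe, slMer_div]
  have hs' : A.Θ s ≠ 0 := fun h0 => hs (Θ_injective A (h0.trans (map_zero _).symm))
  have hb : compSLHom σ (A.Θ s) ≠ 0 := compSLHom_ne_zero σ hs'
  obtain ⟨mu, Pu, hPu, hTu⟩ := cuspEmb_spec A σ u
  obtain ⟨ms, Ps, hPs, hTs⟩ := cuspEmb_spec A σ s
  have hc1 := ParMult3.parMult N n hn φ hφ0 _ _ hb hφn hPu hPs m c hcφ
  -- the order of the expansion
  have hus : ((u : A.F)) ≠ 0 := fun h0 => hu (Subtype.ext h0)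
  have hss : ((s : A.F)) ≠ 0 := fun h0 => hs (Subtype.ext h0)
  have hord : (cuspEmb A σ ((u : A.F) / (s : A.F))).order =
      (laurentOf mu Pu).order - (laurentOf ms Ps).order := by
    rw [map_div₀, order_div' (cuspEmb_ne_zero A σ hus) (cuspEmb_ne_zero A σ hss), hTu, hTs]
  rw [← hord] at hc1
  rw [hc1]
  exact exp_parabolic_eq_one A σ m hσ hf hn hdiv

/-- **(MULT)**: Kummer multipliers of the elements of trace `|tr| ≤ 2` are trivial. -/
theorem multTrivialA (n : ℕ) (hn : n ≠ 0) : MultTrivialA A n := by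
  intro f h hf hh0 hh hdiv γ c htr hc
  rcases lt_or_eq_of_le htr with h1 | h1
  · -- elliptic
    have htr' : (((γ : SL(2, ℤ)) 0 0 : ℤ) + (γ : SL(2, ℤ)) 1 1) ^ 2 < 4 := by
      have h2 : ((γ : SL(2, ℤ)) : Matrix (Fin 2) (Fin 2) ℤ).trace =
          ((γ : SL(2, ℤ)) 0 0 : ℤ) + (γ : SL(2, ℤ)) 1 1 := Matrix.trace_fin_two _
      rw [h2] at h1
      have := abs_lt.mp h1
      nlinarith
    exact eq_one_of_trace_sq_lt A hn (γ : SL(2, ℤ)) (le_pm Γ γ.2) htr' hf hh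
      (fun z₀ => by
        obtain ⟨d, hd⟩ := hdiv (ptPlace A 1 z₀)
        exact ⟨d, hd⟩) hc
  · -- parabolic or `±1`
    have h2 : ((γ : SL(2, ℤ)) : Matrix (Fin 2) (Fin 2) ℤ).trace ^ 2 = 4 := by
      rw [← sq_abs, h1]; norm_num
    obtain ⟨δ, m, hδ | hδ⟩ := TraceClass17.exists_conj_T_zpow (γ : SL(2, ℤ)) h2
    · have hmem : δ * ModularGroup.T ^ m * δ⁻¹ ∈ pm Γ := hδ ▸ le_pm Γ γ.2
      rw [hδ] at hc
      exact eq_one_of_conj_T_zpow A hn δ m hmem hf hh0 hh hdiv hc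
    · have hmem : δ * ModularGroup.T ^ m * δ⁻¹ ∈ pm Γ := by
        refine Or.inr ?_
        rw [← hδ]
        exact γ.2
      rw [hδ, slMer_neg] at hc
      exact eq_one_of_conj_T_zpow A hn δ m hmem hf hh0 hh hdiv hc

/-- the Kummer character of a torsion class lies in `KumCharG Γ n`, unconditionally. -/
theorem kumCharOfA_mem_kumChar (n : ℕ) [NeZero n] (x : ↥(Pic0.torsion ℂ A.F n)) :
    kumCharOfA A n x ∈ KumCharG Γ n :=
  kummerA_mem_kumChar A n (multTrivialA A n (NeZero.ne n)) x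

end Fermat.Agent.M48.KumMult1
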