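/-
M48 (P1), [KUM1] (KS1), file K3 (helper1): **(SURJ), places half** for an analytic model `A : AnModel Γ N F₀`:
an eigenfunction `h ∈ MerH` of a character `χ ∈ KumCharG Γ n` with `h ^ n = Θ f` has `n ∣ ord_v f` at every
place `v` of `F`.  Port of `ES/KUM/DivAllPlaces25`, `CuspDiv16`, `ParAsm16` to helper4's dictionary
(`AnExactPt4.ptIdx_dvd_ordMer`, `AnSurj4.place_cases`, `AnExactCusp4` widths) and helper3's `ParMult3.parMult`.

* `slMer_eq_self_of_kumChar` : an eigenfunction of `χ ∈ KumCharG Γ n` is invariant under the elements of `±Γ`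
  of trace `|tr| ≤ 2`;
* `dvd_ord_ptPlace` (point half), `dvd_ord_cuspPlace_of_width` (cusp half), `dvd_ord_of_eigen`;
* **`hasEigenfunctionsA_of`** : `HasEigenfunctionsA A n` from the existence of eigenfunctions with
  `h ^ n ∈ Θ(F)` (to be provided by the twisted Eisenstein series, file K4).

Imported by no statement.
-/
import Mathlib
import Fermat.Agent.ES.KUM.EllStab14
import Fermat.Agent.M48.KumMult1
import Fermat.Agent.M48.AnSurj4

set_option autoImplicit false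
set_option linter.unusedSectionVars false

open UpperHalfPlane ModularCurve AlgebraicCurve HahnSeries
open scoped MatrixGroups
open MulAction Subgroup

noncomputable section

namespace Fermat.Agent.M48.KumPlaces1

open Fermat.Agent.X0 Fermat.Agent.X0.SurjPoint Fermat.Agent.ES.KUM
  Fermat.Agent.ES.KUM.KummerAbstract17
open Fermat.Agent.M48.DictIface4 Fermat.Agent.M48.AnReal4 Fermat.Agent.M48.AnPoint4
  Fermat.Agent.M48.AnCuspExp4 Fermat.Agent.M48.AnCuspPlace4 Fermat.Agent.M48.AnExactCusp4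
  Fermat.Agent.M48.KumSetting1 Fermat.Agent.M48.KumMult1

variable {Γ : Subgroup SL(2, ℤ)} {N : ℕ} {F₀ : IntermediateField ℚ (LaurentSeries ℚ)}
  (A : AnModel Γ N F₀) [NeZero N]

theorem pow_eq_zero_aux {n : ℕ} {h : MerH} (hpow : h ^ n = 0) : h = 0 := by
  rcases Nat.eq_zero_or_pos n with rfl | hn
  · rw [pow_zero] at hpow
    exact absurd hpow one_ne_zero
  · exact (pow_eq_zero_iff hn.ne').mp hpow

theorem ne_zero_of_pow_eq {n : ℕ} {h : MerH} {f : A.F} (hh : h ≠ 0)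
    (hpow : h ^ n = realMer A f) : f ≠ 0 := by
  rintro rfl
  rw [map_zero] at hpow
  exact hh (pow_eq_zero_aux hpow)

theorem trace_neg (γ : SL(2, ℤ)) :
    ((-γ : SL(2, ℤ)) : Matrix (Fin 2) (Fin 2) ℤ).trace =
      -((γ : SL(2, ℤ)) : Matrix (Fin 2) (Fin 2) ℤ).trace := by
  rw [Matrix.SpecialLinearGroup.coe_neg, Matrix.trace_neg]

/-! ### Eigenfunctions of characters in `KumCharG` -/

/-- An eigenfunction of `χ ∈ KumCharG Γ n` is invariant under the elements of `±Γ` of trace `|tr| ≤ 2`. -/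
theorem slMer_eq_self_of_kumChar {n : ℕ} {χ : ↥Γ →* ℂˣ} (hχ : χ ∈ KumCharG Γ n) {h : MerH}
    (he : ∀ γ : ↥Γ, slMer (γ : SL(2, ℤ)) h =
      algebraMap HolH MerH (algebraMap ℂ HolH ((χ γ : ℂˣ) : ℂ)) * h)
    (γ : SL(2, ℤ)) (hγ : γ ∈ pm Γ)
    (htr : |((γ : SL(2, ℤ)) : Matrix (Fin 2) (Fin 2) ℤ).trace| ≤ 2) : slMer γ h = h := by
  rcases hγ with hγ | hγ
  · have h1 := he ⟨γ, hγ⟩
    have h2 : χ ⟨γ, hγ⟩ = 1 := (mem_kumCharG_iff.mp hχ).2 ⟨γ, hγ⟩ htr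
    rw [h2, Units.val_one, map_one, map_one, one_mul] at h1
    exact h1
  · have h1 := he ⟨-γ, hγ⟩
    have htr' : |((⟨-γ, hγ⟩ : ↥Γ) : SL(2, ℤ)).1.trace| ≤ 2 := by
      show |((-γ : SL(2, ℤ)) : Matrix (Fin 2) (Fin 2) ℤ).trace| ≤ 2
      rw [trace_neg, abs_neg]
      exact htr
    have h2 : χ ⟨-γ, hγ⟩ = 1 := (mem_kumCharG_iff.mp hχ).2 ⟨-γ, hγ⟩ htr'
    rw [h2, Units.val_one, map_one, map_one, one_mul] at h1
    rw [← slMer_neg]
    exact h1

/-! ### Point places -/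

/-- **Point half.**  If `h ^ n = Θ f` and `h` is invariant under the stabiliser of `z` in `±Γ`,
then `n ∣ ord_P f` at the point place `P = ptPlace A 1 z`. -/
theorem dvd_ord_ptPlace {n : ℕ} {h : MerH} {f : A.F} (hh : h ≠ 0)
    (hpow : h ^ n = realMer A f) (z : ℍ)
    (hinv : ∀ γ ∈ pm Γ, γ • z = z → slMer γ h = h) :
    (n : ℤ) ∣ (ptPlace A 1 z).ord f := by
  have hf : f ≠ 0 := ne_zero_of_pow_eq A hh hpow
  obtain ⟨d, hd⟩ := AnExactPt4.ptIdx_dvd_ordMer A z h hh hinv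
  have h1 : ordMer z (h ^ n) = n * ordMer z h := ordMer_pow z hh n
  rw [hpow, ordMer_realMer A z hf, hd] at h1
  have hpos : (0 : ℤ) < ptIdx A 1 z := by exact_mod_cast ptIdx_pos A 1 z
  refine ⟨d, ?_⟩
  have h2 : (ptIdx A 1 z : ℤ) * (ptPlace A 1 z).ord f = (ptIdx A 1 z : ℤ) * (n * d) := by
    rw [h1]
    ring
  exact mul_left_cancel₀ hpos.ne' h2

/-! ### Cusp places -/

/-- The invariant case of the multiplier formula, in divisibility form: if `φ ∘ T^m = φ` then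
`n N ∣ m k`. -/
theorem parDvd (n : ℕ) (hn : n ≠ 0) (φ : MerH) (hφ : φ ≠ 0) (a b : HolH) (hb : b ≠ 0)
    (hφn : φ ^ n = algebraMap HolH MerH a / algebraMap HolH MerH b)
    {mₐ m_b : ℕ} {Pₐ P_b : PowerSeries ℂ}
    (ha : IsQExp N ((a : HolH) : ℍ → ℂ) mₐ Pₐ) (hbq : IsQExp N ((b : HolH) : ℍ → ℂ) m_b P_b)
    (m : ℤ) (hm : slMer (ModularGroup.T ^ m) φ = φ) :
    (n : ℤ) * (N : ℤ) ∣ m * ((laurentOf mₐ Pₐ).order - (laurentOf m_b P_b).order) := by
  have h1 : slMer (ModularGroup.T ^ m) φ = algebraMap HolH MerH (algebraMap ℂ HolH 1) * φ := by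
    rw [map_one, map_one, one_mul]
    exact hm
  have h2 := ParMult3.parMult N n hn φ hφ a b hb hφn ha hbq m 1 h1
  have h3 := h2.symm
  rw [Complex.exp_eq_one_iff] at h3
  obtain ⟨t, ht⟩ := h3
  refine ⟨t, ?_⟩
  have hN : (N : ℂ) ≠ 0 := by exact_mod_cast NeZero.ne N
  have hn' : (n : ℂ) ≠ 0 := by exact_mod_cast hn
  have hpi : (2 * (Real.pi : ℂ) * Complex.I) ≠ 0 := Complex.two_pi_I_ne_zero
  rw [div_eq_iff (mul_ne_zero hn' hN)] at ht
  have h4 : ((m : ℂ) * (((laurentOf mₐ Pₐ).order - (laurentOf m_b P_b).order : ℤ) : ℂ)) =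
      (n : ℂ) * (N : ℂ) * (t : ℂ) := by
    apply mul_left_cancel₀ hpi
    linear_combination ht
  exact_mod_cast h4

/-- `g⁻¹ T^w g ∈ ±Γ` for `w` the width of `g (±Γ)`. -/
theorem conj_T_pow_width_mem (g : SL(2, ℤ)) :
    g⁻¹ * ModularGroup.T ^ ((width Γ g : ℕ) : ℤ) * g ∈ pm Γ := by
  rw [conj_T_zpow_mem_iff_width]

/-- Conjugates of powers of `T` have trace `2`. -/
theorem trace_conj_T_zpow (g : SL(2, ℤ)) (m : ℤ) :
    ((g⁻¹ * ModularGroup.T ^ m * g : SL(2, ℤ)) : Matrix (Fin 2) (Fin 2) ℤ).trace = 2 := by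
  rw [Matrix.SpecialLinearGroup.coe_mul, Matrix.SpecialLinearGroup.coe_mul, Matrix.trace_mul_cycle,
    ← Matrix.SpecialLinearGroup.coe_mul, mul_inv_cancel, Matrix.SpecialLinearGroup.coe_one, one_mul,
    ModularGroup.coe_T_zpow]
  simp [Matrix.trace_fin_two]

/-- **(LOC-CUSP ←), core form.**  If `h ^ n = realMer A f` and `h` is invariant under the width element
`g⁻¹ T^w g` of the cusp `g⁻¹ ∞`, then `n ∣ ord_v f` at `v = cuspPlace A g`. -/
theorem dvd_ord_cuspPlace_of_width {n : ℕ} (hn : n ≠ 0) {f : A.F} (hf : f ≠ 0)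
    (h : MerH) (hh : h ^ n = realMer A f) (g : SL(2, ℤ))
    (hinv : slMer (g⁻¹ * ModularGroup.T ^ ((width Γ g : ℕ) : ℤ) * g) h = h) :
    (n : ℤ) ∣ (cuspPlace A g).ord f := by
  set w := width Γ g with hw
  obtain ⟨u, s, hs, rfl⟩ := exists_div_ne_zero A f
  obtain ⟨mu, Pu, hPu, hTu⟩ := cuspEmb_spec A g⁻¹ u
  obtain ⟨ms, Ps, hPs, hTs⟩ := cuspEmb_spec A g⁻¹ s
  -- `φ := h ∘ g⁻¹`
  have hφn : (slMer g⁻¹ h) ^ n = algebraMap HolH MerH (compSLHom g⁻¹ (A.Θ u)) /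
      algebraMap HolH MerH (compSLHom g⁻¹ (A.Θ s)) := by
    rw [← map_pow, hh, map_div₀, AnReal4.realMer_coe, AnReal4.realMer_coe, slMer_div]
  have hs' : A.Θ s ≠ 0 := fun h0 => hs (Θ_injective A (h0.trans (map_zero _).symm))
  have hb : compSLHom g⁻¹ (A.Θ s) ≠ 0 := compSLHom_ne_zero g⁻¹ hs'
  have hφ : slMer g⁻¹ h ≠ 0 := by
    intro h0
    have h1 : slMer g⁻¹ (realMer A ((u : A.F) / (s : A.F))) = 0 := by
      rw [← hh, map_pow, h0, zero_pow hn]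
    have h2 : realMer A ((u : A.F) / (s : A.F)) = 0 :=
      (slMer g⁻¹).injective (by rw [h1, map_zero])
    exact hf ((realMer A).injective (by rw [h2, map_zero]))
  -- `T^w`-invariance
  have hT : slMer (ModularGroup.T ^ (w : ℤ)) (slMer g⁻¹ h) = slMer g⁻¹ h := by
    rw [← slMer_mul]
    have h1 : g⁻¹ * ModularGroup.T ^ (w : ℤ) = g⁻¹ * ModularGroup.T ^ (w : ℤ) * g * g⁻¹ := by
      rw [mul_inv_cancel_right]
    rw [h1, slMer_mul, hinv]
  have hdvd := parDvd (N := N) n hn (slMer g⁻¹ h) hφ _ _ hb hφn hPu hPs (w : ℤ) hT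
  -- the order of the cusp expansion
  have hs0 : (s : A.F) ≠ 0 := fun h0 => hs (Subtype.ext h0)
  have hu0 : (u : A.F) ≠ 0 := fun h0 => hf (by rw [h0, zero_div])
  have hord : (cuspEmb A g⁻¹ ((u : A.F) / (s : A.F))).order =
      (laurentOf mu Pu).order - (laurentOf ms Ps).order := by
    rw [map_div₀, order_div' (cuspEmb_ne_zero A g⁻¹ hu0) (cuspEmb_ne_zero A g⁻¹ hs0), hTu, hTs]
  rw [← hord] at hdvd
  have hkey := card_orbit_mul_order_cuspEmb A g hf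
  have hkey' : (w : ℤ) * (cuspEmb A g⁻¹ ((u : A.F) / (s : A.F))).order =
      N * (cuspPlace A g).ord ((u : A.F) / (s : A.F)) := hkey
  rw [hkey'] at hdvd
  -- `n N ∣ N ord_v f`
  have hN : (N : ℤ) ≠ 0 := by exact_mod_cast NeZero.ne N
  rw [mul_comm (n : ℤ) (N : ℤ)] at hdvd
  exact (mul_dvd_mul_iff_left hN).mp hdvd

/-- **(LOC-CUSP ←).**  If `h ^ n = realMer A f` (`f ≠ 0`) and `h` is invariant under the elements of
`±Γ` of trace `2`, then `n ∣ ord_v f` at every cusp place `v = cuspPlace A g`. -/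
theorem dvd_ord_cuspPlace {n : ℕ} (hn : n ≠ 0) {f : A.F} (hf : f ≠ 0)
    (h : MerH) (hh : h ^ n = realMer A f)
    (hinv : ∀ γ ∈ pm Γ, ((γ : SL(2, ℤ)) : Matrix (Fin 2) (Fin 2) ℤ).trace = 2 → slMer γ h = h)
    (g : SL(2, ℤ)) : (n : ℤ) ∣ (cuspPlace A g).ord f :=
  dvd_ord_cuspPlace_of_width A hn hf h hh g
    (hinv _ (conj_T_pow_width_mem g) (trace_conj_T_zpow g _))

/-! ### All places -/

/-- **(E5, places half)**: for an eigenfunction `h` of `χ ∈ KumCharG Γ n` with `h ^ n = Θ f`, every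
order of `f` is divisible by `n`. -/
theorem dvd_ord_of_eigen {n : ℕ} (hn : n ≠ 0)
    {χ : ↥Γ →* ℂˣ} (hχ : χ ∈ KumCharG Γ n) {h : MerH} {f : A.F} (hh : h ≠ 0)
    (hpow : h ^ n = realMer A f)
    (he : ∀ γ : ↥Γ, slMer (γ : SL(2, ℤ)) h =
      algebraMap HolH MerH (algebraMap ℂ HolH ((χ γ : ℂˣ) : ℂ)) * h)
    (v : Place ℂ A.F) : (n : ℤ) ∣ v.ord f := by
  rcases AnSurj4.place_cases A v with ⟨z, rfl⟩ | ⟨g, rfl⟩
  · exact dvd_ord_ptPlace A hh hpow z fun γ hγ hz =>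
      slMer_eq_self_of_kumChar hχ he γ hγ (EllStab14.abs_trace_le_two_of_fixed hz)
  · exact dvd_ord_cuspPlace A hn (ne_zero_of_pow_eq A hh hpow) h hpow
      (fun γ hγ htr => slMer_eq_self_of_kumChar hχ he γ hγ (by rw [htr]; norm_num)) g

/-- **(SURJ) from eigenfunctions**: `HasEigenfunctionsA A n`, given for every `χ ∈ KumCharG Γ n` an
eigenfunction `h` with `h ^ n ∈ Θ(F)`. -/
theorem hasEigenfunctionsA_of {n : ℕ} (hn : n ≠ 0)
    (H : ∀ χ ∈ KumCharG Γ n, ∃ (h : MerH) (f : A.F), h ≠ 0 ∧ h ^ n = realMer A f ∧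
      ∀ γ : ↥Γ, slMer (γ : SL(2, ℤ)) h =
        algebraMap HolH MerH (algebraMap ℂ HolH ((χ γ : ℂˣ) : ℂ)) * h) :
    HasEigenfunctionsA A n := by
  intro χ hχ
  obtain ⟨h, f, hh, hpow, he⟩ := H χ hχ
  exact ⟨h, f, hh, hpow, fun v => dvd_ord_of_eigen A hn hχ hh hpow he v, he⟩

end Fermat.Agent.M48.KumPlaces1
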