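/-
M48 (P1), [KUM1] (KS1), file K4 (helper1): **(SURJ), existence half**: the `χ`-twisted Eisenstein series for an
ARBITRARY subgroup `Γ ≤ SL(2, ℤ)` and a character `χ : Γ →* ℂˣ` of modulus one, trivial on the stabiliser of
`∞` in `Γ`, and the resulting eigenfunctions `h_χ = E_χ / E_1` for an analytic model `A : AnModel Γ N F₀`.
Port of `ES/KUM/EisChi6`, `EisSurj10` (which were written for `Γ₀(N)`); differences: `T` and `-1` need not lie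
in `Γ`, so the non-vanishing of `E_χ` is read off from the limit along the strip `|Re z| ≤ 1`
(`limVal = 1` or `2`), without periodicity.

* `aChiG χ`, `EchiG χ k := wEis (aChiG χ) k`, `EchiG_mdifferentiable`, `EchiG_slash`, `EchiG_bounded`,
  `EchiG_ne_zero`;
* `hChiG`, `hChiG_ne_zero`, `slMer_hChiG`, `exists_realMer_eq_hChiG_pow` (via helper4's `ratio_mem`);
* `exists_eigenfunctionA`, and the export **`hasEigenfunctionsA A hn : HasEigenfunctionsA A n`** (SURJ).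

Imported by no statement.
-/
import Mathlib
import Fermat.Agent.ES.KUM.EisChi6
import Fermat.Agent.M48.KumPlaces1
import Fermat.Agent.M48.AnRatioMem4

set_option autoImplicit false
set_option linter.unusedSectionVars false

open UpperHalfPlane EisensteinSeries Matrix ModularForm CongruenceSubgroup Filter Complex
  ModularCurve AlgebraicCurve
open scoped MatrixGroups Manifold Topology

noncomputable section

namespace Fermat.Agent.M48.KumEis1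

open Fermat.Agent.ES.KUM.EisW6
open Fermat.Agent.ES.KUM.EisChi6 (botRow botRow_mul botRow_one lowerLeft_mul_inv_of_botRow_eq
  botRow_eq_of_zero pow_slash_SL2 isBoundedAtImInfty_pow)
open Fermat.Agent.X0 Fermat.Agent.X0.SurjPoint Fermat.Agent.ES.KUM
open Fermat.Agent.M48.DictIface4 Fermat.Agent.M48.AnReal4 Fermat.Agent.M48.KumSetting1
  Fermat.Agent.M48.KumPlaces1

variable {Γ : Subgroup SL(2, ℤ)} (χ : ↥Γ →* ℂˣ) (k : ℤ)

/-! ### the coefficient function -/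

/-- the coefficient function of the `χ`-twisted Eisenstein series of `Γ`. -/
def aChiG (v : Fin 2 → ℤ) : ℂ := by
  classical
  exact if h : ∃ γ : ↥Γ, botRow (γ : SL(2, ℤ)) = v then
    (((χ h.choose)⁻¹ : ℂˣ) : ℂ) else 0

variable {χ}

/-- `χ` is trivial on the stabiliser of `∞` in `Γ` (upper triangular elements). -/
def TrivAtInftyG (χ : ↥Γ →* ℂˣ) : Prop :=
  ∀ γ : ↥Γ, (γ : SL(2, ℤ)) 1 0 = 0 → χ γ = 1

lemma aChiG_botRow (hχ : TrivAtInftyG χ) (γ : ↥Γ) :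
    aChiG χ (botRow (γ : SL(2, ℤ))) = (((χ γ)⁻¹ : ℂˣ) : ℂ) := by
  classical
  have hex : ∃ γ' : ↥Γ, botRow (γ' : SL(2, ℤ)) = botRow (γ : SL(2, ℤ)) := ⟨γ, rfl⟩
  unfold aChiG
  rw [dif_pos hex]
  have h := hex.choose_spec
  have h0 : ((hex.choose * γ⁻¹ : ↥Γ) : SL(2, ℤ)) 1 0 = 0 := by
    have := lowerLeft_mul_inv_of_botRow_eq h
    simpa using this
  have h1 := hχ _ h0
  rw [map_mul, map_inv, mul_inv_eq_one] at h1
  rw [h1]

lemma aChiG_of_not (v : Fin 2 → ℤ) (h : ¬ ∃ γ : ↥Γ, botRow (γ : SL(2, ℤ)) = v) :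
    aChiG χ v = 0 := by
  classical
  unfold aChiG
  rw [dif_neg h]

lemma aChiG_equivariant (hχ : TrivAtInftyG χ) (γ : ↥Γ) (v : Fin 2 → ℤ) :
    aChiG χ (v ᵥ* (((γ : SL(2, ℤ))⁻¹ : SL(2, ℤ)) : Matrix (Fin 2) (Fin 2) ℤ))
      = ((χ γ : ℂˣ) : ℂ) * aChiG χ v := by
  by_cases hv : ∃ γ' : ↥Γ, botRow (γ' : SL(2, ℤ)) = v
  · obtain ⟨γ', rfl⟩ := hv
    have : botRow (γ' : SL(2, ℤ)) ᵥ* (((γ : SL(2, ℤ))⁻¹ : SL(2, ℤ)) : Matrix (Fin 2) (Fin 2) ℤ)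
        = botRow ((γ' * γ⁻¹ : ↥Γ) : SL(2, ℤ)) := by
      rw [Subgroup.coe_mul, botRow_mul, Subgroup.coe_inv]
    rw [this, aChiG_botRow hχ, aChiG_botRow hχ, map_mul, map_inv, _root_.mul_inv_rev, inv_inv]
    push_cast
    ring
  · rw [aChiG_of_not v hv, mul_zero]
    apply aChiG_of_not
    rintro ⟨γ', hγ'⟩
    apply hv
    refine ⟨γ' * γ, ?_⟩
    rw [Subgroup.coe_mul, botRow_mul, hγ']
    exact vecMul_inv_cancel' (γ : SL(2, ℤ)) v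

lemma norm_aChiG_le (hu : ∀ γ, ‖((χ γ : ℂˣ) : ℂ)‖ = 1) (v : Fin 2 → ℤ) : ‖aChiG χ v‖ ≤ 1 := by
  classical
  unfold aChiG
  split_ifs with h
  · rw [Units.val_inv_eq_inv_val, norm_inv, hu, inv_one]
  · simp

lemma norm_eq_one_of_powG {n : ℕ} (hn0 : n ≠ 0) (hn : ∀ γ, χ γ ^ n = 1) (γ : ↥Γ) :
    ‖((χ γ : ℂˣ) : ℂ)‖ = 1 := by
  have h1 : ((χ γ : ℂˣ) : ℂ) ^ n = 1 := by
    have := congrArg (fun u : ℂˣ => (u : ℂ)) (hn γ)
    simpa using this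
  exact Complex.norm_eq_one_of_pow_eq_one h1 hn0

/-- on the vectors `(0, d)` the coefficient is `0` or `1`. -/
lemma aChiG_of_zero (hχ : TrivAtInftyG χ) (v : Fin 2 → ℤ) (hv : v 0 = 0) :
    aChiG χ v = 0 ∨ aChiG χ v = 1 := by
  by_cases h : ∃ γ : ↥Γ, botRow (γ : SL(2, ℤ)) = v
  · obtain ⟨γ, rfl⟩ := h
    right
    rw [aChiG_botRow hχ, hχ γ hv, inv_one, Units.val_one]
  · left
    exact aChiG_of_not v h

lemma aChiG_zero_one (hχ : TrivAtInftyG χ) : aChiG χ ![0, 1] = 1 := by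
  have h := aChiG_botRow hχ (1 : ↥Γ)
  rw [map_one, inv_one, Units.val_one, Subgroup.coe_one, botRow_one] at h
  exact h

variable (χ)

/-- the `χ`-twisted Eisenstein series of weight `k` of `Γ`. -/
def EchiG : ℍ → ℂ := wEis (aChiG χ) k

variable {χ} {k}

theorem EchiG_mdifferentiable (hu : ∀ γ, ‖((χ γ : ℂˣ) : ℂ)‖ = 1) (hk : 3 ≤ k) :
    MDiff (EchiG χ k) :=
  wEis_mdifferentiable (norm_aChiG_le hu) hk

/-- (E2) `E_χ|_k γ = χ(γ)·E_χ` for `γ ∈ Γ`. -/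
theorem EchiG_slash (hχ : TrivAtInftyG χ) (γ : ↥Γ) :
    EchiG χ k ∣[k] (γ : SL(2, ℤ)) = ((χ γ : ℂˣ) : ℂ) • EchiG χ k :=
  wEis_slash_of_equivariant _ k _ _ (aChiG_equivariant hχ γ)

/-- (E4) all `SL(2,ℤ)`-translates are bounded at `i∞`. -/
theorem EchiG_bounded (hu : ∀ γ, ‖((χ γ : ℂˣ) : ℂ)‖ = 1) (hk : 3 ≤ k) (B : SL(2, ℤ)) :
    IsBoundedAtImInfty (EchiG χ k ∣[k] B) :=
  isBoundedAtImInfty_wEis_slash (norm_aChiG_le hu) hk B

/-! ### the limit along the strip and non-vanishing -/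

theorem limVal_aChiG (hχ : TrivAtInftyG χ) (hk : Even k) :
    limVal (aChiG χ) k = 1 ∨ limVal (aChiG χ) k = 2 := by
  classical
  unfold limVal
  have hne : (![0, 1] : Fin 2 → ℤ) ≠ ![0, -1] := by
    intro h
    have := congrFun h 1
    simp at this
  rw [tsum_eq_sum (s := {![0, 1], ![0, -1]})]
  · rw [Finset.sum_pair hne]
    simp only [Matrix.cons_val_zero, if_true, Matrix.cons_val_one, aChiG_zero_one hχ, one_mul]
    have h1 : ((1 : ℤ) : ℂ) ^ (-k) = 1 := by simp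
    have h2 : (((-1 : ℤ)) : ℂ) ^ (-k) = 1 := by
      have : Even (-k) := hk.neg
      push_cast
      exact this.neg_one_zpow
    rw [h1, h2, mul_one]
    rcases aChiG_of_zero hχ ![0, -1] rfl with h | h
    · left; rw [h, add_zero]
    · right; rw [h]; norm_num
  · intro v hv
    split_ifs with h0
    · have : aChiG χ v = 0 := by
        apply aChiG_of_not
        rintro ⟨γ, hγ⟩
        apply hv
        have := botRow_eq_of_zero (γ : SL(2, ℤ)) (by rw [hγ]; exact h0)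
        rw [hγ] at this
        simpa using this
      rw [this, zero_mul]
    · rfl

lemma neBot_strip : (atImInfty ⊓ 𝓟 (verticalStrip 1 2)).NeBot := by
  rw [Filter.inf_principal_neBot_iff]
  intro U hU
  rw [atImInfty_mem] at hU
  obtain ⟨B, hB⟩ := hU
  have hpos : (0 : ℝ) < max B 2 := lt_of_lt_of_le two_pos (le_max_right _ _)
  refine ⟨⟨⟨0, max B 2⟩, hpos⟩, hB _ (le_max_left _ _), ?_⟩
  refine ⟨?_, le_max_right _ _⟩
  show |(0 : ℝ)| ≤ 1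
  simp

theorem EchiG_ne_zero (hχ : TrivAtInftyG χ) (hu : ∀ γ, ‖((χ γ : ℂˣ) : ℂ)‖ = 1) (hk : 3 ≤ k)
    (hk2 : Even k) : EchiG χ k ≠ 0 := by
  intro h
  have h1 : Tendsto (EchiG χ k) (atImInfty ⊓ 𝓟 (verticalStrip 1 2)) (𝓝 (limVal (aChiG χ) k)) :=
    tendsto_wEis_strip (norm_aChiG_le hu) hk
  rw [h] at h1
  have h2 : Tendsto (0 : ℍ → ℂ) (atImInfty ⊓ 𝓟 (verticalStrip 1 2)) (𝓝 0) := tendsto_const_nhds
  have := neBot_strip
  have h3 := tendsto_nhds_unique h1 h2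
  rcases limVal_aChiG hχ hk2 with h4 | h4 <;> rw [h4] at h3 <;> norm_num at h3

/-! ### convenience forms -/

lemma trivAtInftyG_one : TrivAtInftyG (1 : ↥Γ →* ℂˣ) := fun _ _ => rfl

lemma trivAtInftyG_of_trace
    (h : ∀ γ : ↥Γ, |((γ : SL(2, ℤ)) : Matrix (Fin 2) (Fin 2) ℤ).trace| ≤ 2 → χ γ = 1) :
    TrivAtInftyG χ := by
  intro γ hγ
  apply h
  have hdet := Matrix.SpecialLinearGroup.det_coe (γ : SL(2, ℤ))
  rw [Matrix.det_fin_two] at hdet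
  have h10 : ((γ : SL(2, ℤ)) : Matrix (Fin 2) (Fin 2) ℤ) 1 0 = 0 := hγ
  rw [h10, mul_zero, sub_zero] at hdet
  rw [Matrix.trace_fin_two]
  rcases Int.eq_one_or_neg_one_of_mul_eq_one' hdet with ⟨h1, h2⟩ | ⟨h1, h2⟩
  · rw [h1, h2]; norm_num
  · rw [h1, h2]; norm_num

/-- pointwise form of (E2). -/
theorem EchiG_smul (hχ : TrivAtInftyG χ) (γ : ↥Γ) (z : ℍ) :
    EchiG χ k ((γ : SL(2, ℤ)) • z)
      = ((χ γ : ℂˣ) : ℂ) * denom ((γ : SL(2, ℤ))) z ^ k * EchiG χ k z := by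
  have h := congrFun (EchiG_slash (k := k) hχ γ) z
  rw [SL_slash_apply, Pi.smul_apply, smul_eq_mul] at h
  have hd : denom ((γ : SL(2, ℤ))) z ^ k ≠ 0 := zpow_ne_zero _ (denom_ne_zero _ z)
  rw [_root_.zpow_neg, mul_inv_eq_iff_eq_mul₀ hd] at h
  rw [h]; ring

/-- the `n`-th power is invariant of weight `n k` when `χ ^ n = 1`. -/
theorem EchiG_pow_slash (hχ : TrivAtInftyG χ) (n : ℕ) (hn : ∀ γ, χ γ ^ n = 1) (γ : SL(2, ℤ))
    (hγ : γ ∈ Γ) : (EchiG χ k ^ n) ∣[(n : ℤ) * k] γ = EchiG χ k ^ n := by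
  rw [pow_slash_SL2]
  have := EchiG_slash (k := k) hχ ⟨γ, hγ⟩
  simp only at this
  rw [this, smul_pow, ← Units.val_pow_eq_pow_val, hn, Units.val_one, one_smul]

theorem EchiG_pow_bounded (hu : ∀ γ, ‖((χ γ : ℂˣ) : ℂ)‖ = 1) (hk : 3 ≤ k) (n : ℕ)
    (B : SL(2, ℤ)) : IsBoundedAtImInfty ((EchiG χ k ^ n) ∣[(n : ℤ) * k] B) := by
  rw [pow_slash_SL2]
  exact isBoundedAtImInfty_pow (EchiG_bounded hu hk B) n

/-! ### The Eisenstein series as elements of `HolH` -/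

variable (Γ)

/-- `E_χ` (weight `k ≥ 3`, `|χ| = 1`) as a holomorphic function on `ℍ`. -/
def EchiHolG (χ : ↥Γ →* ℂˣ) (k : ℤ) (hu : ∀ γ, ‖((χ γ : ℂˣ) : ℂ)‖ = 1) (hk : 3 ≤ k) : HolH :=
  ⟨EchiG χ k, EchiG_mdifferentiable hu hk⟩

@[simp] theorem coe_EchiHolG (χ : ↥Γ →* ℂˣ) (k : ℤ) (hu : ∀ γ, ‖((χ γ : ℂˣ) : ℂ)‖ = 1)
    (hk : 3 ≤ k) : ((EchiHolG Γ χ k hu hk : HolH) : ℍ → ℂ) = EchiG χ k := rfl

theorem EchiHolG_ne_zero {χ : ↥Γ →* ℂˣ} {k : ℤ} (hχ : TrivAtInftyG χ)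
    (hu : ∀ γ, ‖((χ γ : ℂˣ) : ℂ)‖ = 1) (hk : 3 ≤ k) (hk2 : Even k) : EchiHolG Γ χ k hu hk ≠ 0 := by
  intro h
  exact EchiG_ne_zero hχ hu hk hk2 (congrArg Subtype.val h)

theorem norm_one_charG (γ : ↥Γ) :
    ‖(((1 : ↥Γ →* ℂˣ) γ : ℂˣ) : ℂ)‖ = 1 := by
  simp

/-- The transformation law of `E_χ` in `HolH`, in cross-multiplied form (no weight factor):
`E_χ(γ z) E_1(z) = χ(γ) E_χ(z) E_1(γ z)`. -/
theorem compSLHom_EchiHolG_mul {χ : ↥Γ →* ℂˣ} {k : ℤ} (hχ : TrivAtInftyG χ)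
    (hu : ∀ γ, ‖((χ γ : ℂˣ) : ℂ)‖ = 1) (hk : 3 ≤ k) (γ : ↥Γ) :
    compSLHom (γ : SL(2, ℤ)) (EchiHolG Γ χ k hu hk) * EchiHolG Γ 1 k (norm_one_charG Γ) hk =
      algebraMap ℂ HolH ((χ γ : ℂˣ) : ℂ) * EchiHolG Γ χ k hu hk *
        compSLHom (γ : SL(2, ℤ)) (EchiHolG Γ 1 k (norm_one_charG Γ) hk) := by
  apply Subtype.ext
  funext z
  show EchiG χ k ((γ : SL(2, ℤ)) • z) * EchiG (1 : ↥Γ →* ℂˣ) k z =
    ((χ γ : ℂˣ) : ℂ) * EchiG χ k z * EchiG (1 : ↥Γ →* ℂˣ) k ((γ : SL(2, ℤ)) • z)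
  rw [EchiG_smul hχ, EchiG_smul trivAtInftyG_one]
  simp only [MonoidHom.one_apply, Units.val_one, one_mul]
  ring

/-! ### The eigenfunction `h_χ = E_χ / E_1` -/

/-- `h_χ := E_χ / E_1` as a meromorphic function on `ℍ`. -/
def hChiG (χ : ↥Γ →* ℂˣ) (k : ℤ) (hu : ∀ γ, ‖((χ γ : ℂˣ) : ℂ)‖ = 1) (hk : 3 ≤ k) : MerH :=
  algebraMap HolH MerH (EchiHolG Γ χ k hu hk) /
    algebraMap HolH MerH (EchiHolG Γ 1 k (norm_one_charG Γ) hk)

theorem algebraMap_HolH_ne_zero' {a : HolH} (ha : a ≠ 0) : algebraMap HolH MerH a ≠ 0 := fun h =>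
  ha (IsFractionRing.injective HolH MerH (h.trans (map_zero _).symm))

theorem hChiG_ne_zero {χ : ↥Γ →* ℂˣ} {k : ℤ} (hχ : TrivAtInftyG χ)
    (hu : ∀ γ, ‖((χ γ : ℂˣ) : ℂ)‖ = 1) (hk : 3 ≤ k) (hk2 : Even k) : hChiG Γ χ k hu hk ≠ 0 :=
  div_ne_zero (algebraMap_HolH_ne_zero' (EchiHolG_ne_zero Γ hχ hu hk hk2))
    (algebraMap_HolH_ne_zero' (EchiHolG_ne_zero Γ trivAtInftyG_one (norm_one_charG Γ) hk hk2))

/-- **The eigen-law**: `h_χ ∘ γ = χ(γ) h_χ` for `γ ∈ Γ`. -/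
theorem slMer_hChiG {χ : ↥Γ →* ℂˣ} {k : ℤ} (hχ : TrivAtInftyG χ)
    (hu : ∀ γ, ‖((χ γ : ℂˣ) : ℂ)‖ = 1) (hk : 3 ≤ k) (hk2 : Even k) (γ : ↥Γ) :
    slMer (γ : SL(2, ℤ)) (hChiG Γ χ k hu hk) =
      algebraMap HolH MerH (algebraMap ℂ HolH ((χ γ : ℂˣ) : ℂ)) * hChiG Γ χ k hu hk := by
  have hb : EchiHolG Γ 1 k (norm_one_charG Γ) hk ≠ 0 :=
    EchiHolG_ne_zero Γ trivAtInftyG_one (norm_one_charG Γ) hk hk2
  have hb' : algebraMap HolH MerH (EchiHolG Γ 1 k (norm_one_charG Γ) hk) ≠ 0 :=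
    algebraMap_HolH_ne_zero' hb
  have hcb : algebraMap HolH MerH
      (compSLHom (γ : SL(2, ℤ)) (EchiHolG Γ 1 k (norm_one_charG Γ) hk)) ≠ 0 :=
    algebraMap_HolH_ne_zero' fun h =>
      hb (compSLHom_injective (γ : SL(2, ℤ)) (h.trans (map_zero _).symm))
  have key := congrArg (algebraMap HolH MerH) (compSLHom_EchiHolG_mul Γ hχ hu hk γ)
  simp only [map_mul] at key
  unfold hChiG
  rw [slMer_div, div_eq_iff hcb, mul_div_assoc', div_mul_eq_mul_div, eq_div_iff hb']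
  rw [key]

/-! ### `h_χ ^ n ∈ Θ(F)` -/

variable {Γ}
variable {N : ℕ} {F₀ : IntermediateField ℚ (LaurentSeries ℚ)} (A : AnModel Γ N F₀) [NeZero N]

/-- `h_χ ^ n = Θ f` for some `f ∈ F` (`ratio_mem` for `E_χ ^ n / E_1 ^ n`). -/
theorem exists_realMer_eq_hChiG_pow {χ : ↥Γ →* ℂˣ} {k : ℤ} (hχ : TrivAtInftyG χ) (hk : 3 ≤ k)
    (hk2 : Even k) (n : ℕ) (hn0 : n ≠ 0) (hn : ∀ γ, χ γ ^ n = 1) :
    ∃ f : A.F, hChiG Γ χ k (norm_eq_one_of_powG hn0 hn) hk ^ n = realMer A f := by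
  have hu := norm_eq_one_of_powG hn0 hn
  have h1n : ∀ γ : ↥Γ, (1 : ↥Γ →* ℂˣ) γ ^ n = 1 := fun γ => by simp
  have hR0 : EchiHolG Γ 1 k (norm_one_charG Γ) hk ^ n ≠ 0 :=
    pow_ne_zero n (EchiHolG_ne_zero Γ trivAtInftyG_one (norm_one_charG Γ) hk hk2)
  obtain ⟨f, hf⟩ := AnRatioMem4.ratio_mem A ((n : ℤ) * k) (EchiHolG Γ χ k hu hk ^ n)
    (EchiHolG Γ 1 k (norm_one_charG Γ) hk ^ n) hR0
    (fun γ hγ => EchiG_pow_slash hχ n hn γ hγ)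
    (fun γ hγ => EchiG_pow_slash trivAtInftyG_one n h1n γ hγ)
    (AnRatioMem4.cuspBdd_of_bounded fun B => EchiG_pow_bounded hu hk n B)
    (AnRatioMem4.cuspBdd_of_bounded fun B => EchiG_pow_bounded (norm_one_charG Γ) hk n B)
  refine ⟨f, ?_⟩
  rw [map_pow, map_pow] at hf
  have hb' : algebraMap HolH MerH (EchiHolG Γ 1 k (norm_one_charG Γ) hk) ^ n ≠ 0 :=
    pow_ne_zero n (algebraMap_HolH_ne_zero'
      (EchiHolG_ne_zero Γ trivAtInftyG_one (norm_one_charG Γ) hk hk2))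
  unfold hChiG
  rw [div_pow, div_eq_iff hb', hf]

/-! ### The export -/

/-- **(E5), eigenfunction part.**  Every `χ ∈ KumCharG Γ n` has a nonzero eigenfunction `h ∈ MerH`
whose `n`-th power lies in `Θ(F)`.  (Literally the hypothesis `H` of
`KumPlaces1.hasEigenfunctionsA_of`.) -/
theorem exists_eigenfunctionA {n : ℕ} (hn0 : n ≠ 0) :
    ∀ χ ∈ KumCharG Γ n, ∃ (h : MerH) (f : A.F), h ≠ 0 ∧ h ^ n = realMer A f ∧
      ∀ γ : ↥Γ, slMer (γ : SL(2, ℤ)) h =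
        algebraMap HolH MerH (algebraMap ℂ HolH ((χ γ : ℂˣ) : ℂ)) * h := by
  intro χ hχK
  obtain ⟨hn, htr⟩ := mem_kumCharG_iff.mp hχK
  have hχ : TrivAtInftyG χ := trivAtInftyG_of_trace htr
  have hk : (3 : ℤ) ≤ 4 := by norm_num
  have hk2 : Even (4 : ℤ) := ⟨2, by norm_num⟩
  obtain ⟨f, hf⟩ := exists_realMer_eq_hChiG_pow A hχ hk hk2 n hn0 hn
  exact ⟨hChiG Γ χ 4 (norm_eq_one_of_powG hn0 hn) hk, f,
    hChiG_ne_zero Γ hχ (norm_eq_one_of_powG hn0 hn) hk hk2, hf,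
    fun γ => slMer_hChiG Γ hχ (norm_eq_one_of_powG hn0 hn) hk hk2 γ⟩

/-- **(SURJ)**: `HasEigenfunctionsA A n` for every analytic model and every `n ≠ 0`. -/
theorem hasEigenfunctionsA {n : ℕ} (hn0 : n ≠ 0) : HasEigenfunctionsA A n :=
  hasEigenfunctionsA_of A hn0 (exists_eigenfunctionA A hn0)

end Fermat.Agent.M48.KumEis1
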