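/-
M48 (P1), [KUM1] (KS1), back end, file 2 (helper3): **the Kummer system of `Pic⁰(ℚbar · F₀)`** for an
analytic model `A : AnModel Γ N F₀` with `Γ` finitely generated, given a transcendental generator `x` of
`ℚbar · F₀ / ℚbar` and the one remaining analytic input (SURJ) `KumSetting1.HasEigenfunctionsA A (p ^ k)`.
Twin of `ES/J/KummerSystemJ24` + `ES/HEQ/KummerHeckeQ19.isKummerMap_kumQ`:

* `kappa A hfg hx p k : Pic⁰(ℚbar · F₀)[p^k] →+ X Γ`, `κ_k := kummerA A (p^k) ∘ torsionEquivG`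
  (helper1's Kummer map over `ℂ` after the descent `DescentG3`);
* `kappa_injective` ((INV) = `KumSetting1.invClosedA`), `range_kappa` ((MULT) = `KumMult1.multTrivialA`,
  (SURJ) hypothesis), `kappa_compat` (`IsKum.nsmul`);
* **`kummerSystemA A hfg hx p hE : KummerSystem p Γ (Pic0 ℚbar (ℚbar · F₀))`**;
* **`isKummerMapG_kappa`** : `κ_k` satisfies the characterisation `KummerCoset3.IsKummerMapG` relative to the
  realisation `anG A = realMer A ∘ bcG` (the hypothesis `hK` of `HeckeCompat3.heckeCompat1_of`).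

Imported by no statement.
-/
import Fermat.Agent.M48.DescentG3
import Fermat.Agent.M48.KumMult1
import Fermat.Agent.M48.KummerCoset3
import Fermat.Agent.ES.J.TateChar11

set_option autoImplicit false
set_option linter.unusedSectionVars false
set_option linter.style.longLine false
set_option linter.style.haveILetI false

open AlgebraicCurve ModularCurve CongruenceSubgroup UpperHalfPlane
open scoped MatrixGroups

noncomputable section

namespace Fermat.Agent.M48.KummerSystem3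

open Fermat.Agent.X0 Fermat.Agent.X0.SurjPoint Fermat.Agent.ES.KUM
  Fermat.Agent.ES.KUM.KummerAbstract17
open Fermat.Agent.M48.DictIface4 Fermat.Agent.M48.AnReal4 Fermat.Agent.M48.KumSetting1
  Fermat.Agent.M48.KumMult1 Fermat.Agent.M48.DescentG3 Fermat.Agent.M48.KummerCoset3
open Fermat.Agent.ES.J.TateModule13 Fermat.Agent.ES.J.TateChar11
open Fermat.Agent.J.DESC.ExtPic22
open Fermat.Agent.ES.HEQ.KummerHeckeMain19

attribute [local instance] instAlgebraQbarComplex instTowerQbarComplex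

/-- `ℚ̄`. -/
local notation "Qb" => AlgebraicClosure ℚ

variable {Γ : Subgroup SL(2, ℤ)} {N : ℕ} {F₀ : IntermediateField ℚ (LaurentSeries ℚ)}
  (A : AnModel Γ N F₀) [NeZero N] (hfg : Group.FG ↥Γ) {x : FQ F₀} (hx : FF.IsGen Qb x)

/-- the generator `j` of `A.F / ℂ`. -/
theorem hX : FF.IsGen ℂ A.jF := AnDegree4.isGen_jF A

/-- **the realisation of `ℚbar · F₀` in `MerH`** through the model `A`. -/
def anG : FQ F₀ →+* MerH := (realMer A).comp (bcG F₀)

theorem anG_apply (f : FQ F₀) : anG A f = realMer A (bcG F₀ f) := rfl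

include hfg in
theorem finiteA (n : ℕ) [NeZero n] : Finite ↥(Pic0.torsion ℂ A.F n) :=
  finite_torsionA A n hfg

/-- base change of a torsion class, as a torsion class over `ℂ` (no finiteness needed). -/
def extTors (n : ℕ) (y : ↥(Pic0.torsion Qb (FQ F₀) n)) : ↥(Pic0.torsion ℂ A.F n) :=
  ⟨extPic0G hx (hX A) y, extPic0G_mem_torsion hx (hX A) y.2⟩

theorem torsionEquivG_eq_extTors (n : ℕ) [Finite ↥(Pic0.torsion ℂ A.F n)]
    (y : ↥(Pic0.torsion Qb (FQ F₀) n)) : torsionEquivG hx (hX A) n y = extTors A hx n y := rfl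

/-! ### The Kummer maps over `ℚbar` -/

section Level

variable (n : ℕ) [NeZero n]

/-- **The Kummer map on `Pic⁰(ℚbar · F₀)[n]`**, additively. -/
def kumQAdd : ↥(Pic0.torsion Qb (FQ F₀) n) →+ Additive (↥Γ →* ℂˣ) :=
  haveI := finiteA A hfg n
  (kummerA A n).comp (torsionEquivG hx (hX A) n).toAddMonoidHom

theorem kumQAdd_apply (y : ↥(Pic0.torsion Qb (FQ F₀) n)) :
    kumQAdd A hfg hx n y = kummerA A n (extTors A hx n y) := rfl

theorem toMul_kumQAdd (y : ↥(Pic0.torsion Qb (FQ F₀) n)) :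
    Additive.toMul (kumQAdd A hfg hx n y) = kumCharOfA A n (extTors A hx n y) := rfl

theorem kumQAdd_injective : Function.Injective (kumQAdd A hfg hx n) := by
  haveI := finiteA A hfg n
  exact (kummerA_injective A n).comp (torsionEquivG hx (hX A) n).injective

/-- transport of a Kummer datum over `ℚbar` to a Kummer datum over `ℂ`. -/
theorem isDatum_of_bar (y : ↥(Pic0.torsion Qb (FQ F₀) n))
    (D : Divisor.degZero (K := Qb) (F := FQ F₀)) (f : FQ F₀)
    (hD : Pic0.mk D = (y : Pic0 Qb (FQ F₀))) (hf : f ≠ 0)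
    (hDf : ∀ v : Place Qb (FQ F₀), ((n : ℤ) • (D : Divisor Qb (FQ F₀))) v = v.ord f)
    (h : MerH) (hh : h ^ n = anG A f) :
    IsDatum (settingA A) n ((extTors A hx n y : ↥(Pic0.torsion ℂ A.F n)) : Pic0 ℂ A.F)
      (extDegZero (isConstExt_bcG F₀) hx (hX A) D) (bcG F₀ f) h := by
  refine ⟨?_, bcG_ne_zero F₀ hf, ?_, ?_⟩
  · show Pic0.mk _ = extPic0G hx (hX A) (y : Pic0 Qb (FQ F₀))
    rw [← hD, extPic0G_mk]
  · intro v
    rw [coe_extDegZeroG]
    refine extDivG_datum hx (hX A) (n : ℤ) hf (fun w => ?_) v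
    rw [← hDf w, Finsupp.smul_apply, smul_eq_mul]
  · rw [settingA_Θ]
    exact hh

/-- **the adapter**: the Kummer map (helper1's `kummerA` after the descent) satisfies the
characterisation `KummerCoset3.IsKummerMapG` relative to the realisation `anG A`. -/
theorem isKummerMapG_kumQ :
    IsKummerMapG (K := Qb) (F := FQ F₀) Γ (anG A) n
      (fun y => Additive.toMul (kumQAdd A hfg hx n y)) := by
  intro y D f hD hf hDf
  refine ⟨?_, ?_⟩
  · -- existence of roots
    have hdiv : ∀ v : Place ℂ A.F, (n : ℤ) ∣ v.ord (bcG F₀ f) := by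
      intro v
      refine ⟨extDivG (hX A) (D : Divisor Qb (FQ F₀)) v, ?_⟩
      refine (extDivG_datum hx (hX A) (n : ℤ) hf (fun w => ?_) v).symm
      rw [← hDf w, Finsupp.smul_apply, smul_eq_mul]
    obtain ⟨h, hh⟩ := hasRootsA A n (NeZero.ne n) (bcG F₀ f) (bcG_ne_zero F₀ hf) hdiv
    rw [settingA_Θ] at hh
    refine ⟨h, ?_, hh⟩
    rintro rfl
    rw [zero_pow (NeZero.ne n)] at hh
    exact hf ((anG A).injective (by rw [anG_apply, ← hh, map_zero]))
  · intro h _ hh γ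
    exact kummerA_eigen A n (extTors A hx n y) (isDatum_of_bar A hx n y D f hD hf hDf h hh) γ

end Level

/-! ### The Kummer system -/

variable (p : ℕ) [hp : Fact p.Prime]

/-- **The level-`k` Kummer map** `Pic⁰(ℚbar · F₀)[p^k] → Hom(Γ, ℂˣ)`. -/
def kappa (k : ℕ) : ↥(tors (Pic0 Qb (FQ F₀)) (p ^ k)) →+ X Γ :=
  kumQAdd A hfg hx (p ^ k)

theorem kappa_apply (k : ℕ) (y : ↥(tors (Pic0 Qb (FQ F₀)) (p ^ k))) :
    kappa A hfg hx p k y = kummerA A (p ^ k) (extTors A hx (p ^ k) y) := rfl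

theorem toMul_kappa (k : ℕ) (y : ↥(tors (Pic0 Qb (FQ F₀)) (p ^ k))) :
    Additive.toMul (kappa A hfg hx p k y) = kumCharOfA A (p ^ k) (extTors A hx (p ^ k) y) := rfl

theorem kappa_injective (k : ℕ) : Function.Injective (kappa A hfg hx p k) :=
  kumQAdd_injective A hfg hx (p ^ k)

theorem mem_kumCharG_iff_Xpar (k : ℕ) (χ : X Γ) :
    Additive.toMul χ ∈ KumCharG Γ (p ^ k) ↔ χ ∈ Xpar Γ ∧ p ^ k • χ = 0 := by
  rw [mem_kumCharG_iff, mem_Xpar_iff, and_comm]
  refine and_congr Iff.rfl ?_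
  constructor
  · intro h
    apply Additive.toMul.injective
    refine MonoidHom.ext fun γ => ?_
    exact h γ
  · intro h γ
    have := congrArg (fun ψ : X Γ => (Additive.toMul ψ) γ) h
    exact this

theorem range_kappa (hE : ∀ k : ℕ, HasEigenfunctionsA A (p ^ k)) (k : ℕ) (χ : X Γ) :
    χ ∈ Set.range (kappa A hfg hx p k) ↔ χ ∈ Xpar Γ ∧ p ^ k • χ = 0 := by
  haveI := finiteA A hfg (p ^ k)
  rw [← mem_kumCharG_iff_Xpar]
  constructor
  · rintro ⟨y, rfl⟩
    rw [toMul_kappa]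
    exact kumCharOfA_mem_kumChar A (p ^ k) _
  · intro hχ
    obtain ⟨z, hz⟩ := kummerA_surjective_of A (p ^ k) (hE k) (Additive.toMul χ) hχ
    refine ⟨(torsionEquivG hx (hX A) (p ^ k)).symm z, ?_⟩
    show kummerA A (p ^ k)
      (torsionEquivG hx (hX A) (p ^ k) ((torsionEquivG hx (hX A) (p ^ k)).symm z)) = χ
    rw [AddEquiv.apply_symm_apply, hz]
    rfl

theorem kappa_compat (k : ℕ) (y : ↥(tors (Pic0 Qb (FQ F₀)) (p ^ (k + 1))))
    (hy : p • (y : Pic0 Qb (FQ F₀)) ∈ tors (Pic0 Qb (FQ F₀)) (p ^ k)) :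
    kappa A hfg hx p k ⟨p • (y : Pic0 Qb (FQ F₀)), hy⟩ = p • kappa A hfg hx p (k + 1) y := by
  set z : ↥(Pic0.torsion ℂ A.F (p ^ (k + 1))) := extTors A hx (p ^ (k + 1)) y with hz
  set χ := kumCharOfA A (p ^ (k + 1)) z with hχ
  have h1 : IsKum (settingA A) (p ^ (k + 1)) (z : Pic0 ℂ A.F) χ := isKum_kummerA A _ z
  have h2 : IsKum (settingA A) (p ^ k * p) (z : Pic0 ℂ A.F) χ := by
    rw [← pow_succ]
    exact h1
  have h3 : IsKum (settingA A) (p ^ k) (p • (z : Pic0 ℂ A.F)) (χ ^ p) := h2.nsmul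
  set w : ↥(Pic0.torsion ℂ A.F (p ^ k)) :=
    extTors A hx (p ^ k) ⟨p • (y : Pic0 Qb (FQ F₀)), hy⟩ with hw
  have hwz : (w : Pic0 ℂ A.F) = p • (z : Pic0 ℂ A.F) := by
    show extPic0G hx (hX A) (p • (y : Pic0 Qb (FQ F₀))) =
      p • extPic0G hx (hX A) (y : Pic0 Qb (FQ F₀))
    rw [map_nsmul]
  rw [← hwz] at h3
  have h4 := kummerA_eq_of_isKum A (p ^ k) w h3
  apply Additive.toMul.injective
  show kumCharOfA A (p ^ k) w = χ ^ p
  exact h4

/-- **The Kummer system of `Pic⁰(ℚbar · F₀)`** (helper11's contract `TateChar11.KummerSystem`), from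
(SURJ). -/
def kummerSystemA (hE : ∀ k : ℕ, HasEigenfunctionsA A (p ^ k)) :
    KummerSystem p Γ (Pic0 Qb (FQ F₀)) where
  κ := kappa A hfg hx p
  inj := kappa_injective A hfg hx p
  range_eq := range_kappa A hfg hx p hE
  compat := kappa_compat A hfg hx p

theorem kummerSystemA_κ (hE : ∀ k : ℕ, HasEigenfunctionsA A (p ^ k)) (k : ℕ) :
    (kummerSystemA A hfg hx p hE).κ k = kappa A hfg hx p k := rfl

/-- **the hypothesis `hK` of `HeckeCompat3.heckeCompat1_of`** for `kummerSystemA`. -/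
theorem isKummerMapG_kappa (hE : ∀ k : ℕ, HasEigenfunctionsA A (p ^ k)) (k : ℕ) :
    IsKummerMapG (K := Qb) (F := FQ F₀) Γ (anG A) (p ^ k)
      (fun y => Additive.toMul ((kummerSystemA A hfg hx p hE).κ k y)) :=
  isKummerMapG_kumQ A hfg hx (p ^ k)

end Fermat.Agent.M48.KummerSystem3
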