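/-
M48 (P1), **[KUM1] CONDITIONAL TOP** (helper3): `P1Jac8.KUM1Stmt` from the three inputs still owed by other
seats:

* (SURJ) [helper1] `hSurj : ∀ M hM n, n ≠ 0 → KumSetting1.HasEigenfunctionsA (model1 M hM) n`
  (every character in `KumCharG (Gamma1 M) n` has an eigenfunction with `n`-th power in the function field);
* (GEN) [helper2, `G10Degree2`] `hGen : ∀ M, 2 ≤ M → X0.FF.IsGen ℚbar (jQ M)`;
* (ES.HECKE twin) [helper2, `Hecke1Deg2`] `hHecke : Hecke1Inputs ℚbar M ℓ ∧ finrankAlong ℚbar (beta1 ℚbar M ℓ) = ℓ + 1`.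

Everything else is landed: helper1's Kummer map over `ℂ` with (ROOT), (CONST), (INV), (MULT)
(`KumSetting1`, `KumMult1`), the descent (`DescentG3`), the Kummer system and the adapter (`KummerSystem3`),
(HC1) (`HeckeCompat3.heckeCompat1_of`), the diamond automorphisms (`DiamondAut5`), helper4's model.

* `copyModel` : an analytic model for `Γ` is one for any `Γ' = Γ` (propositionally) and any admissible level;
  `model1 M hM : AnModel (Gamma1 M) M (fieldG10 M 1)` = helper4's `G10Model4.model M 1 hM` with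
  `Γ₁(M) ∩ Γ₀(M · 1)` rewritten as `Γ₁(M)`; its realisation is `HeckeCompat3.anQ M 1 hM` (`anG_model1`);
* **`kum1_of hSurj hGen hHecke : P1Jac8.KUM1Stmt`**;
* **`kum1_of_hecke hHecke : P1Jac8.KUM1Stmt`** : (SURJ) and (GEN) discharged by helper1's
  `KumEis1.hasEigenfunctionsA` and helper2's `G10Degree2.isGen_jK`; only the ES.HECKE twin remains.

Imported by no statement.
-/
import Fermat.Agent.M48.KummerSystem3
import Fermat.Agent.M48.HeckeCompat3
import Fermat.Agent.M48.DiamondAut5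
import Fermat.Agent.M48.KumEis1
import Fermat.Agent.M48.G10Degree2

set_option autoImplicit false
set_option linter.unusedSectionVars false
set_option linter.style.longLine false
set_option linter.style.haveILetI false

open AlgebraicCurve ModularCurve CongruenceSubgroup UpperHalfPlane
open scoped MatrixGroups

noncomputable section

namespace Fermat.Agent.M48.Kum1Of3

open Fermat.Agent.X0 Fermat.Agent.X0.SurjPoint Fermat.Agent.ES.KUM
open Fermat.Agent.M48.DictIface4 Fermat.Agent.M48.AnReal4 Fermat.Agent.M48.KumSetting1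
  Fermat.Agent.M48.DescentG3 Fermat.Agent.M48.KummerCoset3 Fermat.Agent.M48.KummerSystem3
  Fermat.Agent.M48.J1Defs8 Fermat.Agent.M48.G10Model4 Fermat.Agent.M48.HeckeCompat3
  Fermat.Agent.M48.P1Jac8
open Fermat.Agent.ES.J.TateChar11

attribute [local instance] instAlgebraQbarComplex instTowerQbarComplex

/-- `ℚ̄`. -/
local notation "Qb" => AlgebraicClosure ℚ

/-! ### Changing the group and the level of a model -/

section Copy

variable {Γ Γ' : Subgroup SL(2, ℤ)} {h h' : ℕ} {F₀ : IntermediateField ℚ (LaurentSeries ℚ)}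

/-- an analytic model for `Γ` of level `h` is an analytic model for `Γ' = Γ` of any level `h' > 0` with
`Γ(h') ≤ Γ'`; same ring, same realisation. -/
def copyModel (A : AnModel Γ h F₀) (hΓ : Γ' = Γ) (hpos : 0 < h')
    (hlevel : CongruenceSubgroup.Gamma h' ≤ Γ') : AnModel Γ' h' F₀ where
  R := A.R
  frac := A.frac
  Θ := A.Θ
  qexp := A.qexp
  jR := A.jR
  coe_jR := A.coe_jR
  inv := fun u γ hγ => A.inv u γ (hΓ ▸ hγ)
  sep := fun γ hγ => by
    have := A.sep γ hγ
    rwa [← hΓ] at this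
  hpos := hpos
  level := hlevel
  cusp := A.cusp

theorem realMer_copyModel (A : AnModel Γ h F₀) (hΓ : Γ' = Γ) (hpos : 0 < h')
    (hlevel : CongruenceSubgroup.Gamma h' ≤ Γ') :
    realMer (copyModel A hΓ hpos hlevel) = realMer A := rfl

end Copy

/-! ### The model of `Γ₁(M)` -/

section Model1

variable (M : ℕ) [NeZero M] (hM : 2 ≤ M)

theorem gamma10_one : Gamma1 M = Gamma10 M (M * 1) := by
  rw [Gamma10, mul_one]
  exact (inf_eq_left.mpr (Gamma1_in_Gamma0 M)).symm

/-- **the analytic model of `Γ₁(M)`** (helper4's model of `Γ₁(M) ∩ Γ₀(M · 1)`). -/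
def model1 : AnModel (Gamma1 M) M (fieldG10 M 1) :=
  copyModel (model M 1 hM) (gamma10_one M) (Nat.pos_of_ne_zero (NeZero.ne M))
    (by
      have h := (model M 1 hM).level
      rw [← gamma10_one, mul_one] at h
      exact h)

theorem realMer_model1 : realMer (model1 M hM) = realMer (model M 1 hM) := rfl

/-- the realisation of `FK ℚbar M 1` through `model1` is `HeckeCompat3.anQ`. -/
theorem anG_model1 : anG (model1 M hM) = anQ M 1 hM := rfl

theorem fg_Gamma1 : Group.FG ↥(Gamma1 M) :=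
  (Group.fg_iff_subgroup_fg _).mpr (ParTensor3.fg (Gamma1 M))

end Model1

/-! ### [KUM1] -/

/-- **[KUM1], conditional top**: the Kummer system of `J₁(M)` with its Hecke compatibility, from (SURJ),
the generator `j` of `FK ℚbar M 1` and the function field inputs of the Hecke correspondences. -/
theorem kum1_of
    (hSurj : ∀ (M : ℕ) [NeZero M] (hM : 2 ≤ M) (n : ℕ), n ≠ 0 →
      HasEigenfunctionsA (model1 M hM) n)
    (hGen : ∀ (M : ℕ) [NeZero M], 2 ≤ M → FF.IsGen Qb (jQ M))
    (hHecke : ∀ (M : ℕ) [NeZero M], 2 ≤ M → ∀ (ℓ : ℕ) [NeZero ℓ], ℓ.Prime → ¬ ℓ ∣ M →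
      Hecke1Inputs Qb M ℓ ∧ finrankAlong Qb (beta1 Qb M ℓ) = ℓ + 1) :
    KUM1Stmt := by
  intro p hp M _ hM
  have hE : ∀ k : ℕ, HasEigenfunctionsA (model1 M hM) (p ^ k) :=
    fun k => hSurj M hM (p ^ k) (pow_ne_zero k hp.out.ne_zero)
  refine ⟨kummerSystemA (model1 M hM) (fg_Gamma1 M) (hGen M hM) p hE, ?_⟩
  refine heckeCompat1_of hM _ ?_ (hHecke M hM)
    (fun d => DiamondAut5.exists_isDiamondAut_Qbar g10ModelStmt hM d)
  intro k
  exact isKummerMapG_kappa (model1 M hM) (fg_Gamma1 M) (hGen M hM) p hE k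

/-- **[KUM1] from the ES.HECKE twin alone**: (SURJ) = helper1's `KumEis1.hasEigenfunctionsA`, the generator
= helper2's `G10Degree2.isGen_jK`. -/
theorem kum1_of_hecke
    (hHecke : ∀ (M : ℕ) [NeZero M], 2 ≤ M → ∀ (ℓ : ℕ) [NeZero ℓ], ℓ.Prime → ¬ ℓ ∣ M →
      Hecke1Inputs Qb M ℓ ∧ finrankAlong Qb (beta1 Qb M ℓ) = ℓ + 1) :
    KUM1Stmt := by
  intro p hp M _ hM
  have hE : ∀ k : ℕ, HasEigenfunctionsA (model1 M hM) (p ^ k) :=
    fun k => KumEis1.hasEigenfunctionsA (model1 M hM) (pow_ne_zero k hp.out.ne_zero)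
  have hx : FF.IsGen Qb (G10Degree2.jK M 1 Qb) := G10Degree2.isGen_jK M 1 hM Qb
  refine ⟨kummerSystemA (model1 M hM) (fg_Gamma1 M) hx p hE, ?_⟩
  refine heckeCompat1_of hM _ ?_ (hHecke M hM)
    (fun d => DiamondAut5.exists_isDiamondAut_Qbar g10ModelStmt hM d)
  intro k
  exact isKummerMapG_kappa (model1 M hM) (fg_Gamma1 M) hx p hE k

end Fermat.Agent.M48.Kum1Of3
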