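/-
Programme M48, pillar (P1), chapter [KUM1] — helper3.  **`KUM1Stmt` is a theorem**: helper3's
`Kum1Of3.kum1_of_hecke` applied to helper2's ES.HECKE twin `Hecke1Deg2.hecke_twin`.
-/
import Mathlib
import Fermat.Agent.M48.Kum1Of3
import Fermat.Agent.M48.Hecke1Deg2

set_option autoImplicit false

namespace Fermat.Agent.M48.Kum1Stmt3

/-- **[KUM1]**: the Kummer-theoretic half of (P1), unconditionally. -/
theorem kum1Stmt : Fermat.Agent.M48.P1Jac8.KUM1Stmt :=
  Fermat.Agent.M48.Kum1Of3.kum1_of_hecke Fermat.Agent.M48.Hecke1Deg2.hecke_twin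

end Fermat.Agent.M48.Kum1Stmt3
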