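/-
M48 (lead), leaf (R2a), generic part: **the fixed field of `Aut(ℂ)` is `ℚ`, and descent of
finite-dimensional spaces of coefficient sequences.**

* `exists_ringEquiv_of_mvPolynomial`: for a transcendence basis `B` of an algebraically closed field
  `Ω` over `A`, every ring automorphism of `A[B]` extends to `Ω`;
* `exists_ringEquiv_extending`: every ring automorphism of a field `A` mapping to the algebraically
  closed field `Ω` extends to `Ω`;
* `exists_ringEquiv_ne_of_transcendental`: a transcendental element is moved by an automorphism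
  over `A` (`x ↦ x + 1`);
* `mem_range_of_fixed`, `complex_mem_range_of_fixed`: an element of `Ω ⊇ k` (characteristic zero)
  fixed by all automorphisms over `k` lies in `k`; the fixed field of `Aut(ℂ)` is `ℚ`;
* `span_rational_eq_top`: a finite-dimensional complex vector space `S` with a linear coefficient
  map `q : S → (ℕ → ℂ)` whose image is stable under the coefficientwise action of `Aut(ℂ)` is spanned
  by the elements with rational coefficients (RREF descent `S23.Descent.exists_rational_basis`).

Mathlib + `Fermat.Agent.S23.Descent` (itself Mathlib only).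
-/
import Mathlib
import Fermat.Agent.S23.Descent

set_option autoImplicit false
set_option linter.style.haveILetI false

noncomputable section

open MvPolynomial

namespace Fermat.Agent.M48.AutC0

/-- core: an automorphism of the polynomial ring on a transcendence basis extends to the
algebraically closed field. -/
theorem exists_ringEquiv_of_mvPolynomial {A Ω : Type*} [Field A] [Field Ω] [Algebra A Ω]
    [IsAlgClosed Ω] {B : Set Ω} (hB : IsTranscendenceBasis A ((↑) : B → Ω))
    (τ : MvPolynomial B A ≃+* MvPolynomial B A) :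
    ∃ σ : Ω ≃+* Ω, ∀ p : MvPolynomial B A,
      σ (aeval ((↑) : B → Ω) p) = aeval ((↑) : B → Ω) (τ p) := by
  haveI : IsAlgClosure (Algebra.adjoin A (Set.range ((↑) : B → Ω))) Ω :=
    IsAlgClosed.isAlgClosure_of_transcendence_basis _ hB
  let φ : MvPolynomial B A ≃ₐ[A] Algebra.adjoin A (Set.range ((↑) : B → Ω)) := hB.1.aevalEquiv
  let e : Algebra.adjoin A (Set.range ((↑) : B → Ω)) ≃+*
      Algebra.adjoin A (Set.range ((↑) : B → Ω)) :=
    φ.symm.toRingEquiv.trans (τ.trans φ.toRingEquiv)
  refine ⟨IsAlgClosure.equivOfEquiv Ω Ω e, fun p => ?_⟩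
  have h1 : ∀ q : MvPolynomial B A, aeval ((↑) : B → Ω) q =
      algebraMap (Algebra.adjoin A (Set.range ((↑) : B → Ω))) Ω (φ q) := fun q =>
    (hB.1.algebraMap_aevalEquiv q).symm
  rw [h1, IsAlgClosure.equivOfEquiv_algebraMap, h1]
  congr 1
  show φ (τ (φ.symm (φ p))) = φ (τ p)
  rw [AlgEquiv.symm_apply_apply]

/-- **Extension of automorphisms**: every ring automorphism of a subfield (more generally of a
field `A` mapping to `Ω`) of an algebraically closed field extends to the whole field. -/
theorem exists_ringEquiv_extending {A Ω : Type*} [Field A] [Field Ω] [Algebra A Ω]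
    [IsAlgClosed Ω] (ρ : A ≃+* A) :
    ∃ σ : Ω ≃+* Ω, ∀ a : A, σ (algebraMap A Ω a) = algebraMap A Ω (ρ a) := by
  obtain ⟨B, hB⟩ := exists_isTranscendenceBasis A Ω
  obtain ⟨σ, hσ⟩ := exists_ringEquiv_of_mvPolynomial hB (MvPolynomial.mapEquiv B ρ)
  refine ⟨σ, fun a => ?_⟩
  have := hσ (C a)
  simpa using this

/-- a transcendental element is moved by some automorphism. -/
theorem exists_ringEquiv_ne_of_transcendental {A Ω : Type*} [Field A] [Field Ω] [Algebra A Ω]
    [IsAlgClosed Ω] (x : Ω) (hx : Transcendental A x) :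
    ∃ σ : Ω ≃+* Ω, (∀ a : A, σ (algebraMap A Ω a) = algebraMap A Ω a) ∧ σ x ≠ x := by
  classical
  have hind : AlgebraicIndepOn A id ({x} : Set Ω) := by
    have : AlgebraicIndependent A (fun i : ({x} : Set Ω) => id (i : Ω)) := by
      rw [algebraicIndependent_singleton_iff (⟨x, rfl⟩ : ({x} : Set Ω))]
      exact hx
    exact this
  obtain ⟨B, hxB, hB⟩ := exists_isTranscendenceBasis_superset hind
  let x' : B := ⟨x, hxB rfl⟩
  let f : B → MvPolynomial B A := fun b => if b = x' then X b + 1 else X b
  let g : B → MvPolynomial B A := fun b => if b = x' then X b - 1 else X b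
  have hfg : (aeval f).comp (aeval g) = AlgHom.id A (MvPolynomial B A) := by
    apply MvPolynomial.algHom_ext
    intro b
    by_cases hb : b = x'
    · simp [f, g, hb]
    · simp [f, g, hb]
  have hgf : (aeval g).comp (aeval f) = AlgHom.id A (MvPolynomial B A) := by
    apply MvPolynomial.algHom_ext
    intro b
    by_cases hb : b = x'
    · simp [f, g, hb]
    · simp [f, g, hb]
  let τ : MvPolynomial B A ≃ₐ[A] MvPolynomial B A := AlgEquiv.ofAlgHom (aeval f) (aeval g) hfg hgf
  obtain ⟨σ, hσ⟩ := exists_ringEquiv_of_mvPolynomial hB τ.toRingEquiv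
  refine ⟨σ, fun a => ?_, ?_⟩
  · have := hσ (C a)
    have h3 : τ.toRingEquiv (C a) = C a := τ.commutes a
    rw [h3] at this
    simpa using this
  have h1 := hσ (X x')
  have h2 : τ.toRingEquiv (X x') = X x' + 1 := by
    show aeval f (X x') = _
    simp [f]
  rw [h2] at h1
  simp only [aeval_X, map_add, map_one] at h1
  rw [show ((x' : B) : Ω) = x from rfl] at h1
  rw [h1]
  intro h
  have : (1 : Ω) = 0 := by linear_combination h
  exact one_ne_zero this

/-- **The fixed field of the automorphism group of an algebraically closed field of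
characteristic zero over a subfield `k` is `k`.** -/
theorem mem_range_of_fixed {k Ω : Type*} [Field k] [CharZero k] [Field Ω] [Algebra k Ω]
    [IsAlgClosed Ω] (x : Ω)
    (h : ∀ σ : Ω ≃+* Ω, (∀ a : k, σ (algebraMap k Ω a) = algebraMap k Ω a) → σ x = x) :
    x ∈ (algebraMap k Ω).range := by
  by_cases hx : IsAlgebraic k x
  · let A : IntermediateField k Ω := algebraicClosure k Ω
    have hxA : x ∈ A := mem_algebraicClosure_iff.mpr hx
    have hfix : (⟨x, hxA⟩ : A) ∈ Set.range (algebraMap k A) := by
      rw [InfiniteGalois.mem_range_algebraMap_iff_fixed]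
      intro f
      obtain ⟨σ, hσ⟩ := exists_ringEquiv_extending (Ω := Ω) (f : A ≃+* A)
      have hk : ∀ a : k, σ (algebraMap k Ω a) = algebraMap k Ω a := by
        intro a
        have h1 : algebraMap k Ω a = algebraMap A Ω (algebraMap k A a) :=
          IsScalarTower.algebraMap_apply k A Ω a
        rw [h1, hσ]
        congr 1
        exact f.commutes a
      have h2 := h σ hk
      have h3 := hσ ⟨x, hxA⟩
      apply Subtype.ext
      have h4 : algebraMap A Ω ⟨x, hxA⟩ = x := rfl
      rw [h4, h2] at h3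
      exact h3.symm
    obtain ⟨c, hc⟩ := hfix
    exact ⟨c, by rw [IsScalarTower.algebraMap_apply k A Ω, hc]; rfl⟩
  · exfalso
    obtain ⟨σ, hk, hne⟩ := exists_ringEquiv_ne_of_transcendental (A := k) x hx
    exact hne (h σ hk)

/-- **The fixed field of `Aut(ℂ)` is `ℚ`.** -/
theorem complex_mem_range_of_fixed (x : ℂ) (h : ∀ σ : ℂ ≃+* ℂ, σ x = x) :
    x ∈ (algebraMap ℚ ℂ).range :=
  mem_range_of_fixed x fun σ _ => h σ


/-- **Descent along `Aut(ℂ)`.** -/
theorem span_rational_eq_top {S : Type*} [AddCommGroup S] [Module ℂ S] [FiniteDimensional ℂ S]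
    (q : S →ₗ[ℂ] (ℕ → ℂ))
    (hstab : ∀ (σ : ℂ ≃+* ℂ) (g : S), ∃ g' : S, ∀ n, q g' n = σ (q g n)) :
    Submodule.span ℂ {g : S | ∀ n, ∃ r : ℚ, q g n = r} = ⊤ := by
  classical
  set V : Submodule ℂ (ℕ → ℂ) := LinearMap.range q with hV
  haveI : FiniteDimensional ℂ V := inferInstance
  have hfix : ∀ x : ℂ, (∀ σ : RingAut ℂ, σ • x = x) → x ∈ (algebraMap ℚ ℂ).range :=
    fun x hx => complex_mem_range_of_fixed x fun σ => hx σ
  have hst : ∀ σ : RingAut ℂ, ∀ v ∈ V, (fun n => σ • v n) ∈ V := by
    rintro σ _ ⟨g, rfl⟩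
    obtain ⟨g', hg'⟩ := hstab σ g
    exact ⟨g', funext fun n => hg' n⟩
  obtain ⟨κ, _, e, heV, -, hspan, -⟩ :=
    Fermat.Agent.S23.Descent.exists_rational_basis (K := ℚ) (L := ℂ) (G := RingAut ℂ) hfix V hst
  choose gk hgk using heV
  rw [eq_top_iff]
  intro g _
  -- `q g` is a combination of the rational basis
  have hg : q g ∈ Submodule.span ℂ
      (Set.range fun k => (fun n => algebraMap ℚ ℂ (e k n) : ℕ → ℂ)) := by
    rw [hspan]
    exact ⟨g, rfl⟩
  obtain ⟨c, hc⟩ := (Submodule.mem_span_range_iff_exists_fun ℂ).mp hg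
  have hmem : ∀ k, gk k ∈ Submodule.span ℂ {g : S | ∀ n, ∃ r : ℚ, q g n = r} :=
    fun k => Submodule.subset_span fun n => ⟨e k n, by rw [hgk k]; rfl⟩
  have hker : g - ∑ k, c k • gk k ∈ Submodule.span ℂ {g : S | ∀ n, ∃ r : ℚ, q g n = r} := by
    refine Submodule.subset_span fun n => ⟨0, ?_⟩
    have : q (g - ∑ k, c k • gk k) = 0 := by
      rw [map_sub, map_sum, ← hc, sub_eq_zero]
      refine Finset.sum_congr rfl fun k _ => ?_
      rw [map_smul, hgk k]
    rw [this]
    simp
  have : g = (g - ∑ k, c k • gk k) + ∑ k, c k • gk k := by abel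
  rw [this]
  exact Submodule.add_mem _ hker
    (Submodule.sum_mem _ fun k _ => Submodule.smul_mem _ _ (hmem k))

end Fermat.Agent.M48.AutC0
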