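/-
Programme M48 (target S48), pillar (P1), chapter [DICT] for `Γ₁` (helper4), file G9:
**assembly**: every analytic model `A : AnModel Γ h F₀` has a dictionary `Dict A`
(`DictIface4.DictStmt`).  All fields are theorems of the generic chain
`AnReal4, AnPoint4, AnCuspExp4, AnCuspPlace4, AnDegree4, AnSurj4, AnExactPt4, AnExactCusp4, AnRatio4`.
-/
import Fermat.Agent.M48.AnExactPt4
import Fermat.Agent.M48.AnExactCusp4
import Fermat.Agent.M48.AnRatioMem4

set_option autoImplicit false
set_option linter.unusedSectionVars false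
set_option linter.style.haveILetI false

open UpperHalfPlane ModularCurve AlgebraicCurve
open scoped MatrixGroups

noncomputable section

namespace Fermat.Agent.M48.AnDict4

open Fermat.Agent.X0 Fermat.Agent.X0.SurjPoint
open Fermat.Agent.M48.DictIface4

variable {Γ : Subgroup SL(2, ℤ)} {h : ℕ} {F₀ : IntermediateField ℚ (LaurentSeries ℚ)}

/-- **The dictionary of an analytic model.** -/
def dict (A : AnModel Γ h F₀) : Dict A := by
  haveI : NeZero h := AnCuspExp4.neZero_h A
  exact
  { emb := AnReal4.emb A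
    emb_coe := AnReal4.emb_coe' A
    emb_algebraMap := AnReal4.emb_algebraMap A
    emb_mul_of_mem := AnReal4.emb_mul_of_mem' A
    emb_eq_slMer := AnReal4.emb_eq_slMer A
    mem_range_emb := AnRatio4.mem_range_emb A
    finrank_eq := AnDegree4.finrank_eq A
    ptPlace := AnPoint4.ptPlace A
    ptIdx := AnPoint4.ptIdx A
    ptIdx_pos := AnPoint4.ptIdx_pos A
    ordMer_emb := fun g z _ hf => AnPoint4.ordMer_emb A g z hf
    ptPlace_mul_of_mem := fun g γ hγ z => AnPoint4.ptPlace_mul_of_mem A g γ hγ z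
    ptPlace_smul := AnPoint4.ptPlace_smul A
    ptIdx_mul_of_mem := fun g γ hγ z => AnPoint4.ptIdx_mul_of_mem A g γ hγ z
    ptIdx_smul := AnPoint4.ptIdx_smul A
    ptPlace_eq_iff := AnExactPt4.ptPlace_eq_iff A
    card_stabilizer := AnExactPt4.card_stabilizer A
    ord_jF_sub_pos := AnPoint4.ord_jF_sub_pos A
    ptIdx_mul_ord_jF_sub := AnPoint4.ptIdx_mul_ord_jF_sub A
    exists_ptPlace_eq := AnSurj4.exists_ptPlace_eq A
    cuspEmb := fun γ => AnCuspExp4.cuspEmb A γ
    cuspEmb_spec := fun γ u => AnCuspExp4.cuspEmb_spec A γ u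
    cuspPlace := AnCuspPlace4.cuspPlace A
    cuspIdx := AnCuspPlace4.cuspIdx A
    cuspIdx_pos := AnCuspPlace4.cuspIdx_pos A
    order_cuspEmb := fun g _ hf => AnCuspPlace4.order_cuspEmb A g hf
    cuspPlace_mul_of_mem := AnCuspPlace4.cuspPlace_mul_right A
    cuspPlace_T_zpow_mul := AnCuspPlace4.cuspPlace_T_zpow_mul A
    cuspIdx_mul_of_mem := AnCuspPlace4.cuspIdx_mul_right A
    cuspIdx_T_zpow_mul := AnCuspPlace4.cuspIdx_T_zpow_mul A
    cuspPlace_eq_iff := AnExactCusp4.cuspPlace_eq_iff A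
    conj_T_zpow_mem_iff := AnExactCusp4.conj_T_zpow_mem_iff A
    cuspIdx_dvd := AnExactCusp4.cuspIdx_dvd A
    ord_jF_neg := AnCuspPlace4.cuspPlace_ord_jF_neg A
    cuspIdx_mul_ord_jF := AnCuspPlace4.cuspIdx_mul_ord_jF A
    exists_cuspPlace_eq := AnSurj4.exists_cuspPlace_eq A
    ptPlace_ne_cuspPlace := AnSurj4.ptPlace_ne_cuspPlace A }

/-- **[DICT], generic half.** -/
theorem dictStmt : DictStmt := fun _ _ _ A => ⟨dict A⟩

end Fermat.Agent.M48.AnDict4
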