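/-
Programme M48 (target S48), leaf (R2a) "rational span of `S₂(Γ₁(M))`" (helper4), file 1:
**regular differentials `f dj` of the function field of an analytic model, and their stability
under `Aut(ℂ)`**.

For `A : AnModel Γ h F₀` and `f ∈ A.F = ℂ · F₀ ⊂ ℂ((q))`, `Reg A f` says that the differential
`f dj` has no pole at any place `v` of `A.F / ℂ`, in the elementary form
`ord_v f + ord_v (j - c) ≥ 1` (`v` over `j = c`) resp. `ord_v f + ord_v j ≥ 1` (`v` a pole of `j`)
(no Kähler differentials).  An automorphism `σ` of `ℂ` acts on `A.F` coefficientwise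
(`ModularCurve.arithmeticGalois`), fixes `j`, permutes the places, hence preserves `Reg`.
-/
import Fermat.Agent.M48.AnDict4
import Fermat.Agent.ES.KUM.CReal5
import Fermat.Prelude.Def_ModularCurve_ArithmeticGalois

set_option autoImplicit false
set_option linter.unusedSectionVars false

open UpperHalfPlane ModularCurve AlgebraicCurve
open scoped MatrixGroups

noncomputable section

namespace Fermat.Agent.M48.R2aReg4

open Fermat.Agent.X0 Fermat.Agent.ES.KUM Fermat.Agent.M48.DictIface4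

variable {Γ : Subgroup SL(2, ℤ)} {h : ℕ} {F₀ : IntermediateField ℚ (LaurentSeries ℚ)}
  (A : AnModel Γ h F₀)

/-- `f dj` is regular at the place `v`. -/
def RegAt (v : Place ℂ A.F) (f : A.F) : Prop :=
  (v.ord A.jF < 0 → 1 ≤ v.ord f + v.ord A.jF) ∧
    ∀ c : ℂ, 0 < v.ord (A.jF - algebraMap ℂ A.F c) →
      1 ≤ v.ord f + v.ord (A.jF - algebraMap ℂ A.F c)

/-- `f dj` is regular everywhere (`f ≠ 0`; the zero differential is handled separately). -/
def Reg (f : A.F) : Prop := ∀ v : Place ℂ A.F, RegAt A v f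

/-- an automorphism of `ℂ` as a `ℚ`-algebra automorphism. -/
def toRatAlgEquiv (σ : ℂ ≃+* ℂ) : ℂ ≃ₐ[ℚ] ℂ :=
  AlgEquiv.ofRingEquiv (f := σ) (fun r => by
    rw [eq_ratCast (algebraMap ℚ ℂ) r]
    exact map_ratCast σ r)

@[simp] theorem toRatAlgEquiv_apply (σ : ℂ ≃+* ℂ) (x : ℂ) : toRatAlgEquiv σ x = σ x := rfl

/-- the coefficientwise action of `σ ∈ Aut(ℂ)` on `A.F`. -/
def gal (σ : ℂ ≃+* ℂ) : SemilinearAut ℂ A.F := arithmeticGalois F₀ (toRatAlgEquiv σ)

theorem coe_gal_smul (σ : ℂ ≃+* ℂ) (f : A.F) :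
    ((gal A σ • f : A.F) : LaurentSeries ℂ) =
      coeffMap (σ : ℂ →+* ℂ) ((f : A.F) : LaurentSeries ℂ) := rfl

theorem gal_smul_algebraMap (σ : ℂ ≃+* ℂ) (c : ℂ) :
    gal A σ • algebraMap ℂ A.F c = algebraMap ℂ A.F (σ c) :=
  SemilinearAut.smul_algebraMap (gal A σ) c

/-- `σ` fixes `j`. -/
theorem gal_smul_jF (σ : ℂ ≃+* ℂ) : gal A σ • A.jF = A.jF := by
  apply Subtype.ext
  rw [coe_gal_smul]
  show coeffMap (σ : ℂ →+* ℂ) (((A.jR : A.R) : A.F) : LaurentSeries ℂ) =
    (((A.jR : A.R) : A.F) : LaurentSeries ℂ)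
  rw [A.coe_jR, ← coeffEmbC_jq]
  exact coeffMap_coeffEmb (toRatAlgEquiv σ) jq

theorem gal_smul_jF_sub (σ : ℂ ≃+* ℂ) (c : ℂ) :
    gal A σ • (A.jF - algebraMap ℂ A.F c) = A.jF - algebraMap ℂ A.F (σ c) := by
  rw [smul_sub, gal_smul_jF, gal_smul_algebraMap]

/-- **`Aut(ℂ)` preserves regular differentials.** -/
theorem reg_gal_smul (σ : ℂ ≃+* ℂ) {f : A.F} (hf : Reg A f) : Reg A (gal A σ • f) := by
  intro w
  set τ := gal A σ with hτ
  set v : Place ℂ A.F := τ⁻¹ • w with hv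
  have hw : τ • v = w := by rw [hv, smul_inv_smul]
  have h1 : ∀ x : A.F, w.ord (τ • x) = v.ord x := by
    intro x
    rw [← hw]
    exact SemilinearAut.ord_smul τ v x
  obtain ⟨hp, hc⟩ := hf v
  refine ⟨?_, ?_⟩
  · intro hj
    have e : w.ord A.jF = v.ord A.jF := by
      have := h1 A.jF
      rwa [hτ, gal_smul_jF] at this
    rw [e] at hj ⊢
    rw [h1]
    exact hp hj
  · intro c hc'
    have e : w.ord (A.jF - algebraMap ℂ A.F c) =
        v.ord (A.jF - algebraMap ℂ A.F (σ.symm c)) := by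
      have := h1 (A.jF - algebraMap ℂ A.F (σ.symm c))
      rwa [hτ, gal_smul_jF_sub, RingEquiv.apply_symm_apply] at this
    rw [e] at hc' ⊢
    rw [h1]
    exact hc _ hc'

end Fermat.Agent.M48.R2aReg4
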