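/-
Programme M48 (target S48), leaf (R2a) (helper4), file 2: **LOW** for an analytic model:
a regular differential `f dj` of `A.F` gives a cusp form of weight two on `Γ` with `q`-expansion
`f · θ(j)` (`θ = q d/dq`).

Port of `S20/LowHolo` + `S20/CuspZero` (assembly) from the `X₀(N)`-interfaces
(`RealizeData`, `CuspData`, Kähler differentials) to `AnModel` + the theorems of the generic
dictionary (`AnPoint4`, `AnCuspExp4`, `AnCuspPlace4`), with the elementary regularity `R2aReg4.Reg`.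
-/
import Fermat.Agent.M48.R2aReg4
import Fermat.Agent.S20.CuspZeroDJ
import Fermat.Agent.S20.LowDivide

set_option autoImplicit false
set_option linter.unusedSectionVars false
set_option linter.style.haveILetI false

open UpperHalfPlane ModularCurve AlgebraicCurve ModularForm
open scoped MatrixGroups Manifold

noncomputable section

namespace Fermat.Agent.M48.R2aLow4

open Fermat.Agent.X0 Fermat.Agent.X0.Analytic Fermat.Agent.X0.SurjPoint Fermat.Agent.ES.KUM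
open Fermat.Agent.X0.JOrderMain
open Fermat.Agent.M48.DictIface4 Fermat.Agent.M48.AnReal4 Fermat.Agent.M48.AnPoint4
open Fermat.Agent.M48.AnCuspExp4 Fermat.Agent.M48.AnCuspPlace4 Fermat.Agent.M48.R2aReg4
open Fermat.Agent.S20.LowDJ Fermat.Agent.S20.CuspZero Fermat.Agent.S20.CuspZeroDJ

/-! ### `θ(j)` over `ℂ` -/

/-- the formal `θ(j) = q dj/dq ∈ ℂ((q))`. -/
def thetaC : LaurentSeries ℂ := toC thetaJ

theorem hasQExp_DJ' : HasQExp thetaC DJ := hasQExp_DJ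

theorem coeff_thetaC_of_lt (n : ℤ) (hn : n < -1) : thetaC.coeff n = 0 := by
  rw [thetaC, toC_coeff, coeff_thetaJ_of_lt n hn, map_zero]

theorem thetaC_ne_zero : thetaC ≠ 0 := fun h0 =>
  thetaJ_ne_zero (toC_injective (by rw [← thetaC, h0, map_zero]))

/-! ### generic: weight two from a defining equation, packaging a cusp form -/

/-- Weight two for one `γ` from the defining equation `H * a = b * J`. -/
theorem slash_eq_of_mul_eq_one {H a b J : ℍ → ℂ} (hH : H ∈ HolH) (ha : a ∈ HolH)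
    (ha0 : a ≠ 0) (hmul : ∀ z, H z * a z = b z * J z)
    (hJ : ∀ (γ : SL(2, ℤ)) (z : ℍ), J (γ • z) = denom γ z ^ 2 * J z)
    (γ : SL(2, ℤ)) (hainv : compSL a γ = a) (hbinv : compSL b γ = b) : H ∣[(2 : ℤ)] γ = H := by
  have hH' : H ∣[(2 : ℤ)] γ ∈ HolH := by
    have : MDifferentiable 𝓘(ℂ) 𝓘(ℂ) (H ∣[(2 : ℤ)] (γ : GL (Fin 2) ℝ)) :=
      MDifferentiable.slash hH 2 _
    exact this
  have hzero : (H ∣[(2 : ℤ)] γ - H) * a = 0 := by
    funext z
    have h1 := slash_mul_eq hmul hJ γ z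
    rw [hainv, hbinv] at h1
    simp only [Pi.mul_apply, Pi.sub_apply, Pi.zero_apply]
    rw [sub_mul, h1, hmul z, sub_self]
  rcases mul_eq_zero_HolH (HolH.sub_mem hH' hH) ha hzero with h | h
  · exact sub_eq_zero.mp h
  · exact absurd h ha0

/-- A holomorphic function of weight 2 for `Γ` (of finite index) which vanishes at all cusps, as a
cusp form. -/
def cuspFormOfHol (Γ : Subgroup SL(2, ℤ)) [Γ.FiniteIndex] (f : ℍ → ℂ) (hf : f ∈ HolH)
    (hinv : ∀ γ ∈ Γ, f ∣[(2 : ℤ)] γ = f)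
    (hzero : ∀ γ : SL(2, ℤ), IsZeroAtImInfty (f ∣[(2 : ℤ)] γ)) :
    CuspForm (Γ : Subgroup (GL (Fin 2) ℝ)) 2 where
  toFun := f
  slash_action_eq' A hA := by
    obtain ⟨γ, hγ, rfl⟩ := hA
    exact hinv γ hγ
  holo' := hf
  zero_at_cusps' {c} hc := by
    rw [Subgroup.IsArithmetic.isCusp_iff_isCusp_SL2Z] at hc
    rw [OnePoint.isZeroAt_iff_forall_SL2Z hc]
    intro γ _
    exact hzero γ

@[simp] theorem coe_cuspFormOfHol (Γ : Subgroup SL(2, ℤ)) [Γ.FiniteIndex] (f : ℍ → ℂ)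
    (hf : f ∈ HolH) (hinv : ∀ γ ∈ Γ, f ∣[(2 : ℤ)] γ = f)
    (hzero : ∀ γ : SL(2, ℤ), IsZeroAtImInfty (f ∣[(2 : ℤ)] γ)) :
    (cuspFormOfHol Γ f hf hinv hzero : ℍ → ℂ) = f := rfl

theorem one_mem_strictPeriods {Γ : Subgroup SL(2, ℤ)} (hT : ModularGroup.T ∈ Γ) :
    (1 : ℝ) ∈ (Γ : Subgroup (GL (Fin 2) ℝ)).strictPeriods := by
  rw [Subgroup.strictPeriods_eq_zmultiples_one_of_T_mem hT]
  exact AddSubgroup.mem_zmultiples (1 : ℝ)

/-! ### the model -/

variable {Γ : Subgroup SL(2, ℤ)} {N : ℕ} {F₀ : IntermediateField ℚ (LaurentSeries ℚ)}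
  (A : AnModel Γ N F₀) [NeZero N]

include A in
theorem finiteIndex : Γ.FiniteIndex :=
  Subgroup.finiteIndex_of_le (H := CongruenceSubgroup.Gamma N) A.level

theorem coe_ne_zero {u : A.R} (hu : u ≠ 0) : (u : A.F) ≠ 0 :=
  fun h => hu (Subtype.ext h)

theorem Θ_ne_zero {u : A.R} (hu : u ≠ 0) : ((A.Θ u : HolH) : ℍ → ℂ) ≠ 0 := by
  intro h0
  apply hu
  apply Θ_injective A
  rw [map_zero]
  exact Subtype.ext h0

/-- analytic order of `Θ u` in terms of the point place. -/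
theorem ordH_Θ (z₀ : ℍ) {u : A.R} (hu : u ≠ 0) :
    ((ordH ((A.Θ u : HolH) : ℍ → ℂ) z₀).toNat : ℤ) =
      ptIdx A 1 z₀ * (ptPlace A 1 z₀).ord (u : A.F) := by
  have hΘ : A.Θ u ≠ 0 := fun h0 => Θ_ne_zero A hu (by rw [h0]; rfl)
  rw [← AnPoint4.ordMer_realMer A z₀ (coe_ne_zero A hu), AnReal4.realMer_coe,
    ordMer_algebraMap z₀ hΘ]

/-! ### holomorphy on `ℍ` -/

/-- The order inequality at every point. -/
theorem ordH_le_of_reg (r s : A.R) (hs : s ≠ 0) (hreg : Reg A ((r : A.F) / (s : A.F))) (z₀ : ℍ) :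
    ordH ((A.Θ s : HolH) : ℍ → ℂ) z₀ ≤ ordH (((A.Θ r : HolH) : ℍ → ℂ) * DJ) z₀ := by
  rcases eq_or_ne r 0 with rfl | hr
  · rw [map_zero]
    have : ((0 : HolH) : ℍ → ℂ) * DJ = 0 := by
      funext z
      simp
    rw [this, ordH_zero]
    exact le_top
  set v := ptPlace A 1 z₀ with hv
  set m := ptIdx A 1 z₀ with hm
  have hmpos : 0 < m := ptIdx_pos A 1 z₀
  have he := ptIdx_mul_ord_jF_sub A 1 z₀
  have hepos := ord_jF_sub_pos A 1 z₀
  rw [← hv, ← hm] at he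
  rw [← hv] at hepos
  set ev := v.ord (A.jF - algebraMap ℂ A.F (jFun z₀)) with hev
  have hrF := coe_ne_zero A hr
  have hsF := coe_ne_zero A hs
  have h1 := (hreg v).2 (jFun z₀) hepos
  rw [← hev] at h1
  have h2 : v.ord ((r : A.F) / (s : A.F)) = v.ord (r : A.F) - v.ord (s : A.F) := by
    rw [div_eq_mul_inv, v.ord_mul hrF (inv_ne_zero hsF), v.ord_inv]
    ring
  rw [h2] at h1
  have ha := ordH_Θ A z₀ hr
  have hb := ordH_Θ A z₀ hs
  rw [← hv, ← hm] at ha hb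
  have hmZ : (1 : ℤ) ≤ m := by exact_mod_cast hmpos
  have key : ((ordH ((A.Θ s : HolH) : ℍ → ℂ) z₀).toNat : ℤ) + 1 ≤
      (ordH ((A.Θ r : HolH) : ℍ → ℂ) z₀).toNat + ellOrder z₀ := by
    rw [ha, hb, ← he]
    nlinarith
  rw [ordH_mul (A.Θ r).2 DJ_mem_HolH]
  have hJ' := ordH_DJ_add_one z₀
  have hJne : ordH DJ z₀ ≠ ⊤ := by
    intro h
    rw [h] at hJ'
    simp at hJ'
  have hner : ordH ((A.Θ r : HolH) : ℍ → ℂ) z₀ ≠ ⊤ := ordH_ne_top (A.Θ r).2 (Θ_ne_zero A hr) z₀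
  have hnes : ordH ((A.Θ s : HolH) : ℍ → ℂ) z₀ ≠ ⊤ := ordH_ne_top (A.Θ s).2 (Θ_ne_zero A hs) z₀
  obtain ⟨a, ha'⟩ : ∃ a : ℕ, ordH ((A.Θ r : HolH) : ℍ → ℂ) z₀ = a :=
    ⟨_, (ENat.natCast_toNat hner).symm⟩
  obtain ⟨b, hb'⟩ : ∃ b : ℕ, ordH ((A.Θ s : HolH) : ℍ → ℂ) z₀ = b :=
    ⟨_, (ENat.natCast_toNat hnes).symm⟩
  obtain ⟨k, hk'⟩ : ∃ k : ℕ, ordH DJ z₀ = k := ⟨_, (ENat.natCast_toNat hJne).symm⟩
  rw [ha', hb'] at key
  rw [hk'] at hJ'
  rw [ha', hb', hk']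
  simp only [ENat.toNat_natCast] at key
  have hJ'' : k + 1 = ellOrder z₀ := by exact_mod_cast hJ'
  have key' : b + 1 ≤ a + ellOrder z₀ := by exact_mod_cast key
  have : b ≤ a + k := by omega
  exact_mod_cast this

/-- the holomorphic function `H = (Θ r / Θ s) * DJ` on `ℍ`. -/
theorem exists_holo_of_reg (r s : A.R) (hs : s ≠ 0) (hreg : Reg A ((r : A.F) / (s : A.F))) :
    ∃ Hf : ℍ → ℂ, Hf ∈ HolH ∧
      ∀ z, Hf z * ((A.Θ s : HolH) : ℍ → ℂ) z = ((A.Θ r : HolH) : ℍ → ℂ) z * DJ z := by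
  obtain ⟨Hf, hHf, hmul⟩ := Fermat.Agent.S20.LowDivide.exists_div_HolH
    (HolH.mul_mem (A.Θ r).2 DJ_mem_HolH) (A.Θ s).2 (Θ_ne_zero A hs)
    (ordH_le_of_reg A r s hs hreg)
  exact ⟨Hf, hHf, fun z => congrFun hmul z⟩

/-! ### the cusps -/

/-- regularity at the cusp places bounds the order of the cusp expansions from below. -/
theorem order_cuspEmb_ge_of_reg {f : A.F} (hf : f ≠ 0) (hreg : Reg A f) (γ : SL(2, ℤ)) :
    (N : ℤ) + 1 ≤ (cuspEmb A γ f).order := by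
  have h1 := order_cuspEmb A γ⁻¹ hf
  rw [inv_inv] at h1
  have h2 := cuspIdx_mul_ord_jF A γ⁻¹
  have h3 := (hreg (cuspPlace A γ⁻¹)).1 (cuspPlace_ord_jF_neg A γ⁻¹)
  have h4 : (1 : ℤ) ≤ cuspIdx A γ⁻¹ := by exact_mod_cast cuspIdx_pos A γ⁻¹
  rw [h1]
  nlinarith

theorem intgQN_cuspEmb (γ : SL(2, ℤ)) (u : A.R) :
    IntgQN N (compSL ((A.Θ u : HolH) : ℍ → ℂ) γ) (cuspEmb A γ (u : A.F)) := by
  obtain ⟨m, P, hP, hT⟩ := cuspEmb_spec A γ u
  rw [hT]
  exact intg_qn_of_isQExp N hP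

/-! ### LOW -/

/-- **LOW**: a regular differential `f dj`, `f = r / s`, gives a cusp form of weight two on `Γ`
whose `q`-coefficients are those of `f · θ(j)`. -/
theorem exists_cuspForm_of_reg_div (hT : ModularGroup.T ∈ Γ) (r s : A.R) (hs : s ≠ 0)
    (hreg : Reg A ((r : A.F) / (s : A.F))) :
    haveI := finiteIndex A
    ∃ g : CuspForm (Γ : Subgroup (GL (Fin 2) ℝ)) 2, ∀ n : ℕ,
      ModularFormClass.qCoeff g n =
        (((((r : A.F) / (s : A.F) : A.F)) : LaurentSeries ℂ) * thetaC).coeff n := by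
  haveI := finiteIndex A
  obtain ⟨H, hH, hmul⟩ := exists_holo_of_reg A r s hs hreg
  have hs' : (s : A.F) ≠ 0 := coe_ne_zero A hs
  have hΘs0 := Θ_ne_zero A hs
  -- weight two
  have hinv : ∀ γ ∈ Γ, H ∣[(2 : ℤ)] γ = H := fun γ hγ =>
    slash_eq_of_mul_eq_one hH (A.Θ s).2 hΘs0 hmul DJ_smul γ (A.inv s γ hγ) (A.inv r γ hγ)
  -- vanishing at the cusps
  have hY : ∀ n : ℤ, n < -(N : ℤ) → (qExpand ℂ N thetaC).coeff n = 0 :=
    coeff_qExpand_eq_zero_of_lt N thetaC coeff_thetaC_of_lt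
  have hzero : ∀ γ : SL(2, ℤ), IsZeroAtImInfty (H ∣[(2 : ℤ)] γ) := by
    intro γ
    rcases eq_or_ne r 0 with rfl | hr
    · -- `H = 0`
      have hH0 : H = 0 := by
        have h0 : H * ((A.Θ s : HolH) : ℍ → ℂ) = 0 := by
          funext z
          have := hmul z
          rw [map_zero] at this
          simpa using this
        rcases mul_eq_zero_HolH hH (A.Θ s).2 h0 with h | h
        · exact h
        · exact absurd h hΘs0
      rw [hH0, SlashAction.zero_slash]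
      exact Filter.zero_zeroAtFilter _
    have hf : (r : A.F) / (s : A.F) ≠ 0 := div_ne_zero (coe_ne_zero A hr) hs'
    have hsplit : cuspEmb A γ (r : A.F) =
        cuspEmb A γ ((r : A.F) / (s : A.F)) * cuspEmb A γ (s : A.F) := by
      rw [← map_mul, div_mul_cancel₀ _ hs']
    refine isZeroAtImInfty_of_qn_mul N (g₁ := compSL ((A.Θ s : HolH) : ℍ → ℂ) γ)
      (g₂ := compSL ((A.Θ r : HolH) : ℍ → ℂ) γ * DJ)
      (T₁ := cuspEmb A γ (s : A.F)) (T₂ := cuspEmb A γ (r : A.F) * qExpand ℂ N thetaC)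
      (E := cuspEmb A γ ((r : A.F) / (s : A.F)) * qExpand ℂ N thetaC)
      (intgQN_cuspEmb A γ s) (intg_qn_mul N (intgQN_cuspEmb A γ r) (hasQExp_DJ'.qExpand N)) ?_
      (fun z => slash_mul_eq hmul DJ_smul γ z) ?_ ?_
    · exact cuspEmb_ne_zero A γ hs'
    · rw [hsplit]
      ring
    · intro n hn
      refine coeff_mul_eq_zero_of_lt _ _ ((N : ℤ) + 1) (-(N : ℤ)) ?_ hY n (by omega)
      intro m hm
      exact HahnSeries.coeff_eq_zero_of_lt_order
        (lt_of_lt_of_le hm (order_cuspEmb_ge_of_reg A hf hreg γ))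
  refine ⟨cuspFormOfHol Γ H hH hinv hzero, fun n => ?_⟩
  -- the `q`-coefficients
  have hfper : Function.Periodic (H ∘ ofComplex) 1 :=
    SlashInvariantFormClass.periodic_comp_ofComplex (cuspFormOfHol Γ H hH hinv hzero)
      (one_mem_strictPeriods hT)
  have hfbdd : IsBoundedAtImInfty H := by
    have := (hzero 1).boundedAtFilter
    rwa [SlashAction.slash_one] at this
  have hT₁ : (((s : A.R) : A.F) : LaurentSeries ℂ) ≠ 0 := by
    intro h0
    exact hs' (Subtype.ext h0)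
  have hq := qCoeff_of_mul_eq hfper hH hfbdd (A.qexp s) ((A.qexp r).mul hasQExp_DJ') hT₁ hmul n
  rw [coe_cuspFormOfHol, hq]
  congr 1
  have hcoe : ((((r : A.F) / (s : A.F) : A.F)) : LaurentSeries ℂ)
      = (((r : A.R) : A.F) : LaurentSeries ℂ) / (((s : A.R) : A.F) : LaurentSeries ℂ) := rfl
  rw [hcoe]
  ring

/-- **LOW**, for arbitrary `f`. -/
theorem exists_cuspForm_of_reg (hT : ModularGroup.T ∈ Γ) (f : A.F) (hreg : Reg A f) :
    haveI := finiteIndex A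
    ∃ g : CuspForm (Γ : Subgroup (GL (Fin 2) ℝ)) 2, ∀ n : ℕ,
      ModularFormClass.qCoeff g n = (((f : A.F) : LaurentSeries ℂ) * thetaC).coeff n := by
  obtain ⟨r, s, hs, rfl⟩ := exists_div_ne_zero A f
  exact exists_cuspForm_of_reg_div A hT r s hs hreg

end Fermat.Agent.M48.R2aLow4
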