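/-
Programme M48 (target S48), leaf (R2a) (helper4), file 3: **UP** for an analytic model:
every cusp form `g` of weight two on `Γ` is `f · DJ` with `f ∈ A.F` (exactness, `ratio_mem`), the
differential `f dj` is regular at every place of `A.F`, and the `q`-expansion of `g` is `f · θ(j)`.
-/
import Fermat.Agent.M48.R2aLow4

set_option autoImplicit false
set_option linter.unusedSectionVars false
set_option linter.style.haveILetI false

open UpperHalfPlane ModularCurve AlgebraicCurve ModularForm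
open scoped MatrixGroups Manifold

noncomputable section

namespace Fermat.Agent.M48.R2aUp4

open Fermat.Agent.X0 Fermat.Agent.X0.Analytic Fermat.Agent.X0.SurjPoint Fermat.Agent.ES.KUM
open Fermat.Agent.X0.JOrderMain
open Fermat.Agent.M48.DictIface4 Fermat.Agent.M48.AnReal4 Fermat.Agent.M48.AnPoint4
open Fermat.Agent.M48.AnCuspExp4 Fermat.Agent.M48.AnCuspPlace4 Fermat.Agent.M48.R2aReg4
open Fermat.Agent.M48.R2aLow4
open Fermat.Agent.S20.LowDJ Fermat.Agent.S20.CuspZero Fermat.Agent.S20.CuspZeroDJ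

local notation "Δ" => ModularForm.discriminant

/-! ### generalities -/

/-- The order of `f(q^r)`. -/
theorem order_qExpand_eq {R : Type*} [CommRing R] (r : ℕ) [NeZero r] (f : LaurentSeries R) :
    (qExpand R r f).order = (r : ℤ) * f.order := by
  by_cases hf : f = 0
  · rw [hf, map_zero, HahnSeries.order_zero, mul_zero]
  have hr : (0 : ℤ) < r := by exact_mod_cast Nat.pos_of_ne_zero (NeZero.ne r)
  have h1 : (qExpand R r f).coeff ((r : ℤ) * f.order) ≠ 0 := by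
    rw [qExpand_coeff_mul]
    exact HahnSeries.coeff_order_eq_zero.not.mpr hf
  have hne : qExpand R r f ≠ 0 := fun h => h1 (by rw [h]; rfl)
  apply le_antisymm
  · exact HahnSeries.order_le_of_coeff_ne_zero h1
  · rw [HahnSeries.le_order_iff_forall hne]
    intro k hk
    by_cases hd : (r : ℤ) ∣ k
    · obtain ⟨m, rfl⟩ := hd
      rw [qExpand_coeff_mul]
      apply HahnSeries.coeff_eq_zero_of_lt_order
      exact lt_of_mul_lt_mul_left hk hr.le
    · exact qExpand_coeff_of_not_dvd r _ hd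

theorem coeff_thetaC_neg_one : thetaC.coeff (-1) = -1 := by
  rw [thetaC, toC_coeff, thetaJ, lor_laurentOf_coeff, if_pos (by norm_num)]
  have : ((-1 : ℤ) + ((1 : ℕ) : ℤ)).toNat = 0 := by norm_num
  rw [this, coeff_zero_thetaNumK]
  simp

theorem order_thetaC : thetaC.order = -1 := by
  apply le_antisymm
  · exact HahnSeries.order_le_of_coeff_ne_zero (by rw [coeff_thetaC_neg_one]; norm_num)
  · rw [HahnSeries.le_order_iff_forall thetaC_ne_zero]
    intro k hk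
    exact coeff_thetaC_of_lt k hk

/-- `DJ` has weight two. -/
theorem DJ_slash (γ : SL(2, ℤ)) : DJ ∣[(2 : ℤ)] γ = DJ := by
  funext z
  have hd : denom γ z ≠ 0 := denom_ne_zero γ z
  rw [SL_slash_apply, DJ_smul, zpow_neg]
  have : denom γ z ^ (2 : ℤ) = denom γ z ^ 2 := by norm_cast
  rw [this]
  field_simp

theorem isBoundedAtImInfty_DJ_mul : IsBoundedAtImInfty (fun z => DJ z * Δ z ^ 1) := by
  have e : (fun z => DJ z * Δ z ^ 1) = fun z : ℍ => -(E₄ z ^ 2 * E₆ z) := by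
    funext z
    unfold DJ
    have hΔ : Δ z ≠ 0 := ModularForm.discriminant_ne_zero z
    field_simp
  rw [e]
  have h4 : IsBoundedAtImInfty (E₄ : ℍ → ℂ) := ModularFormClass.bdd_at_infty E₄
  have h6 : IsBoundedAtImInfty (E₆ : ℍ → ℂ) := ModularFormClass.bdd_at_infty E₆
  have h := ((h4.mul h4).mul h6).neg
  have e2 : (fun z : ℍ => -(E₄ z ^ 2 * E₆ z)) = -((⇑E₄ * ⇑E₄) * ⇑E₆) := by
    funext z
    simp only [Pi.neg_apply, Pi.mul_apply]
    ring
  rw [e2]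
  exact h

theorem cuspBdd_DJ : AnRatioMem4.CuspBdd 2 DJ := fun γ =>
  ⟨1, by rw [DJ_slash]; exact isBoundedAtImInfty_DJ_mul⟩

/-! ### the model -/

variable {Γ : Subgroup SL(2, ℤ)} {N : ℕ} {F₀ : IntermediateField ℚ (LaurentSeries ℚ)}
  (A : AnModel Γ N F₀) [NeZero N]

section

variable [Γ.FiniteIndex] (g : CuspForm (Γ : Subgroup (GL (Fin 2) ℝ)) 2)

theorem cuspForm_slash {γ : SL(2, ℤ)} (hγ : γ ∈ Γ) : (⇑g) ∣[(2 : ℤ)] γ = ⇑g :=
  SlashInvariantForm.slash_action_eq' g.toSlashInvariantForm _ (Subgroup.mem_map_of_mem _ hγ)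

theorem cuspForm_mem_HolH : (⇑g : ℍ → ℂ) ∈ HolH := g.holo'

theorem cuspForm_zero_slash (γ : SL(2, ℤ)) : IsZeroAtImInfty ((⇑g) ∣[(2 : ℤ)] γ) :=
  CuspFormClass.zero_at_infty_slash g γ

include A in
/-- `g ∣ γ` is `N`-periodic. -/
theorem cuspForm_slash_vadd (γ : SL(2, ℤ)) (z : ℍ) :
    ((⇑g) ∣[(2 : ℤ)] γ) (((N : ℕ) : ℝ) +ᵥ z) = ((⇑g) ∣[(2 : ℤ)] γ) z := by
  have h1 : (((N : ℕ) : ℝ) +ᵥ z) = (ModularGroup.T ^ (N : ℤ)) • z := by
    rw [UpperHalfPlane.modular_T_zpow_smul]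
    simp
  have hδ := conj_T_pow_mem A γ
  have h2 : ((⇑g) ∣[(2 : ℤ)] γ) ∣[(2 : ℤ)] (ModularGroup.T ^ (N : ℤ)) = (⇑g) ∣[(2 : ℤ)] γ := by
    rw [← SlashAction.slash_mul]
    have e : γ * ModularGroup.T ^ (N : ℤ) = (γ * ModularGroup.T ^ (N : ℤ) * γ⁻¹) * γ := by
      rw [inv_mul_cancel_right]
    rw [e, SlashAction.slash_mul, cuspForm_slash g hδ]
  have h3 := congrFun h2 z
  rw [SL_slash_apply] at h3
  have hden : denom (ModularGroup.T ^ (N : ℤ) : SL(2, ℤ)) z = 1 := by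
    rw [ModularGroup.denom_apply]
    have e10 : (ModularGroup.T ^ (N : ℤ) : SL(2, ℤ)) 1 0 = 0 := by
      rw [ModularGroup.coe_T_zpow]; simp
    have e11 : (ModularGroup.T ^ (N : ℤ) : SL(2, ℤ)) 1 1 = 1 := by
      rw [ModularGroup.coe_T_zpow]; simp
    rw [e10, e11]
    simp
  rw [hden, one_zpow, mul_one] at h3
  rw [h1]
  exact h3

end

/-- **UP**: a cusp form `g` of weight two on `Γ` is `(Θ r / Θ s) · DJ`. -/
theorem exists_div_of_cuspForm [Γ.FiniteIndex] (g : CuspForm (Γ : Subgroup (GL (Fin 2) ℝ)) 2) :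
    ∃ r s : A.R, s ≠ 0 ∧
      ∀ z, g z * ((A.Θ s : HolH) : ℍ → ℂ) z = ((A.Θ r : HolH) : ℍ → ℂ) z * DJ z := by
  set P : HolH := ⟨⇑g, cuspForm_mem_HolH g⟩ with hP
  set R : HolH := ⟨DJ, DJ_mem_HolH⟩ with hR
  have hR0 : R ≠ 0 := fun h0 => DJ_ne_zero (congrArg Subtype.val h0)
  obtain ⟨f, hf⟩ := AnRatioMem4.ratio_mem A 2 P R hR0
    (fun γ hγ => cuspForm_slash g hγ) (fun γ _ => DJ_slash γ)
    (AnRatioMem4.cuspBdd_of_bounded fun γ => (cuspForm_zero_slash g γ).boundedAtFilter)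
    cuspBdd_DJ
  obtain ⟨r, s, hs, rfl⟩ := exists_div_ne_zero A f
  refine ⟨r, s, hs, ?_⟩
  have hsM : algebraMap HolH MerH (A.Θ s) ≠ 0 := by
    intro h0
    have : A.Θ s = 0 := IsFractionRing.injective HolH MerH (by rw [h0, map_zero])
    exact hs (Θ_injective A (by rw [this, map_zero]))
  rw [map_div₀, AnReal4.realMer_coe, AnReal4.realMer_coe] at hf
  have h1 : algebraMap HolH MerH (A.Θ r * R) = algebraMap HolH MerH (P * A.Θ s) := by
    rw [map_mul, map_mul, ← hf]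
    field_simp
  have h2 : A.Θ r * R = P * A.Θ s := IsFractionRing.injective HolH MerH h1
  intro z
  have h3 := congrArg (fun x : HolH => (x : ℍ → ℂ) z) h2
  exact h3.symm

/-- the order inequality at a point, from holomorphy of `g`. -/
theorem regAt_ptPlace_of_mul_eq {G : ℍ → ℂ} (hG : G ∈ HolH) (r s : A.R) (hr : r ≠ 0) (hs : s ≠ 0)
    (hmul : ∀ z, G z * ((A.Θ s : HolH) : ℍ → ℂ) z = ((A.Θ r : HolH) : ℍ → ℂ) z * DJ z) (z₀ : ℍ) :
    1 ≤ (ptPlace A 1 z₀).ord ((r : A.F) / (s : A.F)) +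
      (ptPlace A 1 z₀).ord (A.jF - algebraMap ℂ A.F (jFun z₀)) := by
  set v := ptPlace A 1 z₀ with hv
  set m := ptIdx A 1 z₀ with hm
  have hmpos : 0 < m := ptIdx_pos A 1 z₀
  have he := ptIdx_mul_ord_jF_sub A 1 z₀
  rw [← hv, ← hm] at he
  set ev := v.ord (A.jF - algebraMap ℂ A.F (jFun z₀)) with hev
  have hrF := coe_ne_zero A hr
  have hsF := coe_ne_zero A hs
  have h2 : v.ord ((r : A.F) / (s : A.F)) = v.ord (r : A.F) - v.ord (s : A.F) := by
    rw [div_eq_mul_inv, v.ord_mul hrF (inv_ne_zero hsF), v.ord_inv]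
    ring
  rw [h2]
  have ha := ordH_Θ A z₀ hr
  have hb := ordH_Θ A z₀ hs
  rw [← hv, ← hm] at ha hb
  -- orders of the two sides of `hmul`
  have hfun : G * ((A.Θ s : HolH) : ℍ → ℂ) = ((A.Θ r : HolH) : ℍ → ℂ) * DJ := funext hmul
  have hord : ordH (G * ((A.Θ s : HolH) : ℍ → ℂ)) z₀ =
      ordH (((A.Θ r : HolH) : ℍ → ℂ) * DJ) z₀ := by rw [hfun]
  rw [ordH_mul hG (A.Θ s).2, ordH_mul (A.Θ r).2 DJ_mem_HolH] at hord
  have hJ' := ordH_DJ_add_one z₀
  have hJne : ordH DJ z₀ ≠ ⊤ := by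
    intro h
    rw [h] at hJ'
    simp at hJ'
  have hner : ordH ((A.Θ r : HolH) : ℍ → ℂ) z₀ ≠ ⊤ := ordH_ne_top (A.Θ r).2 (Θ_ne_zero A hr) z₀
  have hnes : ordH ((A.Θ s : HolH) : ℍ → ℂ) z₀ ≠ ⊤ := ordH_ne_top (A.Θ s).2 (Θ_ne_zero A hs) z₀
  have hG0 : G ≠ 0 := by
    intro h0
    have h1 : ((A.Θ r : HolH) : ℍ → ℂ) * DJ = 0 := by rw [← hfun, h0, zero_mul]
    rcases mul_eq_zero_HolH (A.Θ r).2 DJ_mem_HolH h1 with h | h
    · exact Θ_ne_zero A hr h
    · exact DJ_ne_zero h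
  have hneG : ordH G z₀ ≠ ⊤ := ordH_ne_top hG hG0 z₀
  obtain ⟨a, ha'⟩ : ∃ a : ℕ, ordH ((A.Θ r : HolH) : ℍ → ℂ) z₀ = a :=
    ⟨_, (ENat.natCast_toNat hner).symm⟩
  obtain ⟨b, hb'⟩ : ∃ b : ℕ, ordH ((A.Θ s : HolH) : ℍ → ℂ) z₀ = b :=
    ⟨_, (ENat.natCast_toNat hnes).symm⟩
  obtain ⟨k, hk'⟩ : ∃ k : ℕ, ordH DJ z₀ = k := ⟨_, (ENat.natCast_toNat hJne).symm⟩
  obtain ⟨c, hc'⟩ : ∃ c : ℕ, ordH G z₀ = c := ⟨_, (ENat.natCast_toNat hneG).symm⟩
  rw [ha', hb', hk', hc'] at hord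
  rw [ha'] at ha
  rw [hb'] at hb
  rw [hk'] at hJ'
  simp only [ENat.toNat_natCast] at ha hb
  have hJ'' : k + 1 = ellOrder z₀ := by exact_mod_cast hJ'
  have hord' : c + b = a + k := by exact_mod_cast hord
  have hmZ : (1 : ℤ) ≤ m := by exact_mod_cast hmpos
  have key : (m : ℤ) * (v.ord (r : A.F) - v.ord (s : A.F) + ev) ≥ 1 := by
    have e1 : (m : ℤ) * (v.ord (r : A.F) - v.ord (s : A.F) + ev) =
        (a : ℤ) - b + ellOrder z₀ := by
      rw [mul_add, mul_sub, ← ha, ← hb, he]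
    rw [e1]
    have : (c : ℤ) + b = a + k := by exact_mod_cast hord'
    have h5 : (k : ℤ) + 1 = ellOrder z₀ := by exact_mod_cast hJ''
    have hc0 : (0 : ℤ) ≤ c := Int.natCast_nonneg c
    linarith
  by_contra hcon
  have hle : v.ord (r : A.F) - v.ord (s : A.F) + ev ≤ 0 := by omega
  have : (m : ℤ) * (v.ord (r : A.F) - v.ord (s : A.F) + ev) ≤ 0 :=
    mul_nonpos_of_nonneg_of_nonpos (by omega) hle
  omega

/-- the cusp expansions of `f = r / s` from vanishing of `g` at the cusps. -/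
theorem order_cuspEmb_ge_of_mul_eq [Γ.FiniteIndex]
    (g : CuspForm (Γ : Subgroup (GL (Fin 2) ℝ)) 2) (r s : A.R) (hr : r ≠ 0) (hs : s ≠ 0)
    (hmul : ∀ z, g z * ((A.Θ s : HolH) : ℍ → ℂ) z = ((A.Θ r : HolH) : ℍ → ℂ) z * DJ z)
    (γ : SL(2, ℤ)) : (N : ℤ) + 1 ≤ (cuspEmb A γ ((r : A.F) / (s : A.F))).order := by
  have hNpos : 0 < N := Nat.pos_of_ne_zero (NeZero.ne N)
  set G : ℍ → ℂ := (⇑g) ∣[(2 : ℤ)] γ with hG
  have hGhol : G ∈ HolH := by
    have : MDifferentiable 𝓘(ℂ) 𝓘(ℂ) ((⇑g) ∣[(2 : ℤ)] (γ : GL (Fin 2) ℝ)) :=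
      MDifferentiable.slash (cuspForm_mem_HolH g) 2 _
    exact this
  have hGzero : IsZeroAtImInfty G := cuspForm_zero_slash g γ
  have hQ := isQExp_of_periodic_bounded hNpos hGhol (cuspForm_slash_vadd A g γ)
    hGzero.boundedAtFilter
  set Pg := UpperHalfPlane.qExpansion (N : ℝ) G with hPg
  have hPg0 : PowerSeries.coeff 0 Pg = 0 := by
    have hN' : (0 : ℝ) < (N : ℝ) := by exact_mod_cast hNpos
    rw [hPg, UpperHalfPlane.qExpansion_coeff]
    simp only [Nat.factorial_zero, Nat.cast_one, inv_one, one_mul, iteratedDeriv_zero]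
    exact hGzero.cuspFunction_apply_zero hN'
  -- the identity of `q_N`-expansions
  have hs' : (s : A.F) ≠ 0 := coe_ne_zero A hs
  have hr' : (r : A.F) ≠ 0 := coe_ne_zero A hr
  have h1 : IntgQN N (G * compSL ((A.Θ s : HolH) : ℍ → ℂ) γ)
      (laurentOf 0 Pg * cuspEmb A γ (s : A.F)) :=
    intg_qn_mul N (intg_qn_of_isQExp N hQ) (intgQN_cuspEmb A γ s)
  have h2 : IntgQN N (compSL ((A.Θ r : HolH) : ℍ → ℂ) γ * DJ)
      (cuspEmb A γ (r : A.F) * qExpand ℂ N thetaC) :=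
    intg_qn_mul N (intgQN_cuspEmb A γ r) (hasQExp_DJ'.qExpand N)
  have hfun : G * compSL ((A.Θ s : HolH) : ℍ → ℂ) γ =
      compSL ((A.Θ r : HolH) : ℍ → ℂ) γ * DJ :=
    funext fun z => slash_mul_eq hmul DJ_smul γ z
  rw [hfun] at h1
  have hser : laurentOf 0 Pg * cuspEmb A γ (s : A.F) =
      cuspEmb A γ (r : A.F) * qExpand ℂ N thetaC := HasQExp.unique_left h1 h2
  have hsE : cuspEmb A γ (s : A.F) ≠ 0 := cuspEmb_ne_zero A γ hs'
  have hrE : cuspEmb A γ (r : A.F) ≠ 0 := cuspEmb_ne_zero A γ hr'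
  have hθ : qExpand ℂ N thetaC ≠ 0 := by
    intro h0
    have := order_qExpand_eq (R := ℂ) N thetaC
    rw [h0, HahnSeries.order_zero, order_thetaC] at this
    have hN : (0 : ℤ) < N := by exact_mod_cast hNpos
    omega
  have hL : laurentOf 0 Pg ≠ 0 := by
    intro h0
    rw [h0, zero_mul] at hser
    exact mul_ne_zero hrE hθ hser.symm
  have hdiv : cuspEmb A γ ((r : A.F) / (s : A.F)) * qExpand ℂ N thetaC = laurentOf 0 Pg := by
    rw [map_div₀, div_mul_eq_mul_div, ← hser, mul_div_assoc, div_self hsE, mul_one]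
  have hfE : cuspEmb A γ ((r : A.F) / (s : A.F)) ≠ 0 :=
    cuspEmb_ne_zero A γ (div_ne_zero hr' hs')
  have hord := congrArg HahnSeries.order hdiv
  rw [HahnSeries.order_mul hfE hθ, order_qExpand_eq, order_thetaC] at hord
  have hLord : (1 : ℤ) ≤ (laurentOf 0 Pg).order := by
    rw [HahnSeries.le_order_iff_forall hL]
    intro k hk
    rw [lor_laurentOf_coeff]
    split_ifs with h0
    · have hk0 : k = 0 := by
        push_cast at h0
        omega
      rw [hk0]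
      simpa using hPg0
    · rfl
  linarith

/-- **UP**: regularity. -/
theorem reg_of_mul_eq [Γ.FiniteIndex]
    (g : CuspForm (Γ : Subgroup (GL (Fin 2) ℝ)) 2) (r s : A.R) (hr : r ≠ 0) (hs : s ≠ 0)
    (hmul : ∀ z, g z * ((A.Θ s : HolH) : ℍ → ℂ) z = ((A.Θ r : HolH) : ℍ → ℂ) z * DJ z) :
    Reg A ((r : A.F) / (s : A.F)) := by
  have hf : (r : A.F) / (s : A.F) ≠ 0 := div_ne_zero (coe_ne_zero A hr) (coe_ne_zero A hs)
  intro v
  refine ⟨?_, ?_⟩
  · intro hj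
    obtain ⟨g₀, rfl⟩ := AnSurj4.exists_cuspPlace_eq A v hj
    have h1 := order_cuspEmb A g₀ hf
    have h2 := cuspIdx_mul_ord_jF A g₀
    have h3 := order_cuspEmb_ge_of_mul_eq A g r s hr hs hmul g₀⁻¹
    have h4 : (0 : ℤ) ≤ cuspIdx A g₀ := Int.natCast_nonneg _
    by_contra hcon
    have hle : (cuspPlace A g₀).ord ((r : A.F) / (s : A.F)) + (cuspPlace A g₀).ord A.jF ≤ 0 := by
      omega
    have := mul_nonpos_of_nonneg_of_nonpos h4 hle
    rw [mul_add, h2, ← h1] at this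
    omega
  · intro c hc
    obtain ⟨z, rfl⟩ := jFun_surjective c
    obtain ⟨g₀, rfl⟩ := AnSurj4.exists_ptPlace_eq A z v hc
    have e : ptPlace A g₀ z = ptPlace A 1 (g₀⁻¹ • z) := by
      have := ptPlace_smul A g₀⁻¹ g₀ z
      rw [inv_mul_cancel] at this
      exact this.symm
    have ej : jFun (g₀⁻¹ • z) = jFun z := jFun_smul g₀⁻¹ z
    rw [e, ← ej]
    exact regAt_ptPlace_of_mul_eq A (cuspForm_mem_HolH g) r s hr hs hmul (g₀⁻¹ • z)

/-- **UP**, summary: every nonzero cusp form `g` of weight two on `Γ` (`T ∈ Γ`) has the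
`q`-expansion `f · θ(j)` with `f dj` regular. -/
theorem exists_reg_of_cuspForm (hT : ModularGroup.T ∈ Γ) [Γ.FiniteIndex]
    (g : CuspForm (Γ : Subgroup (GL (Fin 2) ℝ)) 2) (hg : (⇑g : ℍ → ℂ) ≠ 0) :
    ∃ f : A.F, Reg A f ∧ ∀ n : ℕ,
      ModularFormClass.qCoeff g n = (((f : A.F) : LaurentSeries ℂ) * thetaC).coeff n := by
  obtain ⟨r, s, hs, hmul⟩ := exists_div_of_cuspForm A g
  have hr : r ≠ 0 := by
    rintro rfl
    apply hg
    have h0 : (⇑g : ℍ → ℂ) * ((A.Θ s : HolH) : ℍ → ℂ) = 0 := by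
      funext z
      have := hmul z
      rw [map_zero] at this
      simpa using this
    rcases mul_eq_zero_HolH (cuspForm_mem_HolH g) (A.Θ s).2 h0 with h | h
    · exact h
    · exact absurd h (Θ_ne_zero A hs)
  refine ⟨(r : A.F) / (s : A.F), reg_of_mul_eq A g r s hr hs hmul, fun n => ?_⟩
  have hfper : Function.Periodic ((⇑g : ℍ → ℂ) ∘ ofComplex) 1 :=
    SlashInvariantFormClass.periodic_comp_ofComplex g (one_mem_strictPeriods hT)
  have hfbdd : IsBoundedAtImInfty (⇑g : ℍ → ℂ) := by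
    have := (cuspForm_zero_slash g 1).boundedAtFilter
    rwa [SlashAction.slash_one] at this
  have hs' : (s : A.F) ≠ 0 := coe_ne_zero A hs
  have hT₁ : (((s : A.R) : A.F) : LaurentSeries ℂ) ≠ 0 := by
    intro h0
    exact hs' (Subtype.ext h0)
  have hq := qCoeff_of_mul_eq hfper (cuspForm_mem_HolH g) hfbdd (A.qexp s)
    ((A.qexp r).mul hasQExp_DJ') hT₁ hmul n
  rw [hq]
  congr 1
  have hcoe : ((((r : A.F) / (s : A.F) : A.F)) : LaurentSeries ℂ)
      = (((r : A.R) : A.F) : LaurentSeries ℂ) / (((s : A.R) : A.F) : LaurentSeries ℂ) := rfl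
  rw [hcoe]
  ring

end Fermat.Agent.M48.R2aUp4
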