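/-
M48 (helper3): **the coset-sum operator of `U_q` on `Γ₁(M)`**, `q ∣ M` prime.

For `γ ∈ SL(2, ℤ)` with `q ∣ γ₁₀` the level one permutation `DoubleCoset27.perm γ` of
`ℙ¹(𝔽_q) = Option (ZMod q)` fixes `∞ = none`, so it restricts to the finite indices; for `γ ∈ Γ₁(M)`
the level one cocycle `coc γ (some j)` lies in `Γ₁(M)` again (entries mod `M`).

* `perm_none_of_dvd`, `permU`, `some_permU`;
* `coc_some_mem_Gamma1`;
* `uCoset1 (hqM : q ∣ M) : CosetOp (Gamma1 M)` (`I = ZMod q`, `g j = [[1, j], [0, q]]`);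
* `uCoset1_slashSum : (uCoset1 hqM).slashSum f = heckeU 2 q f`, `coe_U1_eq_slashSum` (helper1's `U1`).
-/
import Mathlib
import Fermat.Agent.ES.HEQ.DoubleCoset27
import Fermat.Agent.M48.ESInv3
import Fermat.Agent.M48.HeckeOne1

set_option autoImplicit false

noncomputable section

namespace Fermat.Agent.M48.G1RepsU3

open UpperHalfPlane CongruenceSubgroup ModularForm
open scoped MatrixGroups ModularForm
open Matrix.SpecialLinearGroup
open Fermat.Agent.M48.ESInv3 Fermat.Agent.M48.Diamond1 Fermat.Agent.M48.HeckeOne1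
open Fermat.Agent.ES.HEQ

variable {M : ℕ} {q : ℕ} [hq : Fact q.Prime]

/-- for `q ∣ γ₁₀` the level one permutation fixes `∞`. -/
theorem perm_none_of_dvd {γ : SL(2, ℤ)} (hc : (q : ℤ) ∣ γ 1 0) :
    DoubleCoset27.perm (p := q) γ none = none := by
  obtain ⟨e, he⟩ := hc
  have hdet : γ 0 0 * γ 1 1 - γ 0 1 * γ 1 0 = 1 := HeckeInv1.det_eq γ
  refine (DoubleCoset27.eq_of_beta_mul (p := q) (γ := γ) (i := none) (k := none)
    (g := ⟨!![γ 0 0, q * γ 0 1; e, γ 1 1], by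
      rw [Matrix.det_fin_two_of]
      rw [he] at hdet
      linear_combination hdet⟩) ?_).1
  ext a b
  fin_cases a <;> fin_cases b <;>
    simp [DoubleCoset27.beta, Matrix.mul_apply, Fin.sum_univ_two, he, mul_comm]

theorem perm_some_ne_none {γ : SL(2, ℤ)} (hc : (q : ℤ) ∣ γ 1 0) (j : ZMod q) :
    DoubleCoset27.perm γ (some j) ≠ none := by
  intro h
  have h2 : DoubleCoset27.permEquiv γ (some j) = DoubleCoset27.permEquiv γ none := by
    rw [DoubleCoset27.permEquiv_apply, DoubleCoset27.permEquiv_apply, h, perm_none_of_dvd hc]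
  exact Option.some_ne_none j ((DoubleCoset27.permEquiv γ).injective h2)

/-- the permutation of the finite indices. -/
def permU (γ : SL(2, ℤ)) : Equiv.Perm (ZMod q) := Equiv.removeNone (DoubleCoset27.permEquiv γ)

theorem some_permU {γ : SL(2, ℤ)} (hc : (q : ℤ) ∣ γ 1 0) (j : ZMod q) :
    some (permU γ j) = DoubleCoset27.perm γ (some j) := by
  have hex : ∃ x', DoubleCoset27.permEquiv γ (some j) = some x' :=
    Option.ne_none_iff_exists'.mp (perm_some_ne_none hc j)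
  exact Equiv.removeNone_some _ hex

omit hq in
theorem dvd_of_mem_Gamma1 (hqM : q ∣ M) {γ : SL(2, ℤ)} (hγ : γ ∈ Gamma1 M) : (q : ℤ) ∣ γ 1 0 := by
  have h10 : ((γ 1 0 : ℤ) : ZMod M) = 0 := (HeckeInv1.entries_of_mem_Gamma1 hγ).2.2
  exact (Int.natCast_dvd_natCast.mpr hqM).trans ((ZMod.intCast_zmod_eq_zero_iff_dvd _ _).mp h10)

/-- for `γ ∈ Γ₁(M)`, a finite index going to a finite index: the level one cocycle is in `Γ₁(M)`. -/
theorem coc_some_mem_Gamma1 {γ : SL(2, ℤ)} (hγ : γ ∈ Gamma1 M) {j j' : ZMod q}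
    (h : DoubleCoset27.perm γ (some j) = some j') :
    DoubleCoset27.coc γ (some j) ∈ Gamma1 M := by
  obtain ⟨h00, h11, h10⟩ := HeckeInv1.entries_of_mem_Gamma1 hγ
  have hb := DoubleCoset27.beta_mul γ (some j)
  rw [h] at hb
  set c := DoubleCoset27.coc γ (some j) with hcdef
  have e00 := congrFun (congrFun hb 0) 0
  have e10 := congrFun (congrFun hb 1) 0
  have e11 := congrFun (congrFun hb 1) 1
  simp [DoubleCoset27.beta, Matrix.mul_apply, Fin.sum_univ_two, -ZMod.natCast_val] at e00 e10 e11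
  have hq0 : (q : ℤ) ≠ 0 := by exact_mod_cast hq.out.ne_zero
  -- `c₁₁ = γ₁₁ - γ₁₀ j'`
  have hc11 : (c : Matrix (Fin 2) (Fin 2) ℤ) 1 1 = γ 1 1 - γ 1 0 * (j'.val : ℤ) := by
    have : (q : ℤ) * (c : Matrix (Fin 2) (Fin 2) ℤ) 1 1 = q * (γ 1 1 - γ 1 0 * (j'.val : ℤ)) := by
      rw [← e10] at e11
      linear_combination -e11
    exact mul_left_cancel₀ hq0 this
  apply HeckeInv1.mem_Gamma1_of_entries
  · show (((c : Matrix (Fin 2) (Fin 2) ℤ) 0 0 : ℤ) : ZMod M) = 1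
    rw [← e00]
    push_cast
    rw [h00, h10, mul_zero, add_zero]
  · show (((c : Matrix (Fin 2) (Fin 2) ℤ) 1 1 : ℤ) : ZMod M) = 1
    rw [hc11]
    push_cast
    rw [h11, h10, zero_mul, sub_zero]
  · show (((c : Matrix (Fin 2) (Fin 2) ℤ) 1 0 : ℤ) : ZMod M) = 0
    rw [← e10]
    push_cast
    rw [h10, mul_zero]

/-- **The coset-sum operator of `U_q` on `Γ₁(M)`**, `q ∣ M`. -/
def uCoset1 (hqM : q ∣ M) : CosetOp (Gamma1 M) where
  I := ZMod q
  fintype := inferInstance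
  g j := heckeMatrix q j.val
  det_pos j := det_heckeMatrix_pos q j.val
  perm γ := permU (γ : SL(2, ℤ))
  coc γ j := ⟨DoubleCoset27.coc (γ : SL(2, ℤ)) (some j),
    coc_some_mem_Gamma1 γ.2 (some_permU (dvd_of_mem_Gamma1 hqM γ.2) j).symm⟩
  rel γ j := by
    have h := DoubleCoset27.glBeta_mul (p := q) (γ : SL(2, ℤ)) (some j)
    rw [← some_permU (dvd_of_mem_Gamma1 hqM γ.2) j] at h
    exact h
  perm_mul γ δ j := by
    apply Option.some_injective
    rw [some_permU (dvd_of_mem_Gamma1 hqM (γ * δ).2), some_permU (dvd_of_mem_Gamma1 hqM δ.2),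
      some_permU (dvd_of_mem_Gamma1 hqM γ.2), Subgroup.coe_mul, DoubleCoset27.perm_mul]
  coc_mul γ δ j := by
    apply Subtype.ext
    show DoubleCoset27.coc ((γ * δ : Gamma1 M) : SL(2, ℤ)) (some j)
      = DoubleCoset27.coc (γ : SL(2, ℤ)) (some j)
        * DoubleCoset27.coc (δ : SL(2, ℤ)) (some (permU (γ : SL(2, ℤ)) j))
    rw [some_permU (dvd_of_mem_Gamma1 hqM γ.2), Subgroup.coe_mul, DoubleCoset27.coc_mul]

theorem uCoset1_slashSum (hqM : q ∣ M) (f : ℍ → ℂ) :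
    (uCoset1 hqM).slashSum f = heckeU 2 q f := by
  have : NeZero q := ⟨hq.out.ne_zero⟩
  rw [HeckeInv1.heckeU_eq_sum_zmod]
  rfl

omit hq in
/-- helper1's `U_q` (`q ∣ M`) is the coset-sum operator `uCoset1`. -/
theorem coe_U1_eq_slashSum [NeZero M] {q : ℕ} (hq' : q.Prime) (hqM : q ∣ M)
    (f : CuspForm (Gamma1 M) 2) :
    haveI : Fact q.Prime := ⟨hq'⟩
    (⇑(U1 2 hq' hqM f) : ℍ → ℂ) = (uCoset1 hqM).slashSum ⇑f := by
  have : Fact q.Prime := ⟨hq'⟩
  rw [uCoset1_slashSum, coe_U1]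

end Fermat.Agent.M48.G1RepsU3
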