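/-
M48 (helper3): **(R2b) bounded denominators for `S₂(Γ₁(M))`** (lead's leaf of (W1-RAT); `Γ₁` twin of
`S23/BoundedDenom`), and finiteness of the FULL Hecke algebra.

* `genF M` : index set of ALL generators `T_r` (`r ∤ M`), `U_q` (`q ∣ M`), `⟨d⟩`; `TopF`, `cosetF`,
  `coe_TopF`; `fullHecke M := Algebra.adjoin ℤ (Set.range (TopF M))`;
* **`finite_fullHecke : Module.Finite ℤ (fullHecke M)`** (periods + (F1) of FAITH-lite; no commutativity
  is needed);
* `exists_hecke_qCoeff` : for every `n ≥ 1` there is `T ∈ fullHecke M` with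
  `qCoeff (T g) 1 = qCoeff g n` for all `g` (strong induction on `n`, smallest prime factor);
* **`r2b : ∀ g : CuspForm (Gamma1 M) 2, ∃ Λ : Submodule ℤ ℂ, Λ.FG ∧ ∀ n, qCoeff ⇑g n ∈ Λ`**
  (`Λ = {a₁(T g) : T ∈ fullHecke M}`).
-/
import Mathlib
import Fermat.Agent.M48.G1Fin3
import Fermat.Agent.M48.G1RepsU3

set_option autoImplicit false

noncomputable section

namespace Fermat.Agent.M48.BoundedDenom3

open UpperHalfPlane CongruenceSubgroup ModularForm ModularFormClass TensorProduct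
open scoped MatrixGroups ModularForm
open Matrix.SpecialLinearGroup
open Fermat.Agent.M48.ESInv3 Fermat.Agent.M48.Diamond1 Fermat.Agent.M48.HeckeOne1
open Fermat.Agent.M48.G1Reps3 Fermat.Agent.M48.G1RepsU3 Fermat.Agent.M48.CosetOp3

variable {M : ℕ} [NeZero M]

/-- the index set of all the generators of the full Hecke algebra. -/
abbrev genF (M : ℕ) : Type :=
  {r : ℕ // r.Prime ∧ ¬ r ∣ M} ⊕ ({q : ℕ // q.Prime ∧ q ∣ M} ⊕ (ZMod M)ˣ)

/-- the generators of the full Hecke algebra of weight two. -/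
def TopF (M : ℕ) [NeZero M] : genF M → Module.End ℂ (CuspForm (Gamma1 M) 2)
  | Sum.inl r => T1 2 r.2.1 r.2.2
  | Sum.inr (Sum.inl q) => U1 2 q.2.1 q.2.2
  | Sum.inr (Sum.inr d) => diamondC d

/-- their coset-sum operators. -/
def cosetF (M : ℕ) [NeZero M] : genF M → CosetOp (Gamma1 M)
  | Sum.inl r =>
    haveI : Fact r.1.Prime := ⟨r.2.1⟩
    heckeCoset1 r.2.2 (sigma (unitOfPrime r.2.1 r.2.2)) (Gamma0Map_sigma_unitOfPrime r.2.1 r.2.2)
  | Sum.inr (Sum.inl q) =>
    haveI : Fact q.1.Prime := ⟨q.2.1⟩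
    uCoset1 q.2.2
  | Sum.inr (Sum.inr d) => diaCoset1 (sigma d)

theorem coe_TopF (i : genF M) (f : CuspForm (Gamma1 M) 2) :
    (⇑(TopF M i f) : ℍ → ℂ) = (cosetF M i).slashSum ⇑f := by
  rcases i with r | q | d
  · exact coe_T1_eq_slashSum r.2.1 r.2.2 f
  · exact coe_U1_eq_slashSum q.2.1 q.2.2 f
  · exact coe_diamondC_eq_slashSum d f

/-- **the full Hecke algebra** of `S₂(Γ₁(M))`: generated by all `T_r`, `U_q`, `⟨d⟩`. -/
def fullHecke (M : ℕ) [NeZero M] : Subalgebra ℤ (Module.End ℂ (CuspForm (Gamma1 M) 2)) :=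
  Algebra.adjoin ℤ (Set.range (TopF M))

theorem T1_mem {r : ℕ} (hr : r.Prime) (hrM : ¬ r ∣ M) : T1 2 hr hrM ∈ fullHecke M :=
  Algebra.subset_adjoin ⟨Sum.inl ⟨r, hr, hrM⟩, rfl⟩

theorem U1_mem {q : ℕ} (hq : q.Prime) (hqM : q ∣ M) : U1 2 hq hqM ∈ fullHecke M :=
  Algebra.subset_adjoin ⟨Sum.inr (Sum.inl ⟨q, hq, hqM⟩), rfl⟩

theorem diamondC_mem (d : (ZMod M)ˣ) : diamondC d ∈ fullHecke M :=
  Algebra.subset_adjoin ⟨Sum.inr (Sum.inr d), rfl⟩

/-- **the full Hecke algebra is a finitely generated `ℤ`-module.** -/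
theorem finite_fullHecke : Module.Finite ℤ (fullHecke M) :=
  FaithLite3.finite_adjoin (P := ParTensor3.periodTensor (Gamma1 M)) (T := TopF M)
    (t := fun i => parOp (cosetF M i) ℤ ℤ) (ParTensor3.periodTensor_injective (Gamma1 M))
    (fun i f => ParTensor3.periodTensor_equivariant (cosetF M i) f (TopF M i f) (coe_TopF i f))

/-! ### `a_n(g) = a_1(T_n g)` -/

theorem qCoeff_intCast_smul (m : ℤ) (g : CuspForm (Gamma1 M) 2) (n : ℕ) :
    qCoeff ⇑(m • g) n = (m : ℂ) * qCoeff ⇑g n := by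
  rw [← qCoeffC_smul]
  congr 2
  exact (Int.cast_smul_eq_zsmul ℂ m g).symm

/-- for every `n ≥ 1` there is `T_n` in the full Hecke algebra with `a_1(T_n g) = a_n(g)`. -/
theorem exists_hecke_qCoeff (n : ℕ) (hn : 1 ≤ n) :
    ∃ T ∈ fullHecke M, ∀ g : CuspForm (Gamma1 M) 2, qCoeff ⇑(T g) 1 = qCoeff ⇑g n := by
  induction n using Nat.strong_induction_on with
  | _ n ih =>
    rcases Nat.lt_or_ge 1 n with h1 | h1
    · -- `n = m * p`, `p` the smallest prime factor
      have hp : (n.minFac).Prime := Nat.minFac_prime (by omega)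
      set p := n.minFac with hpdef
      obtain ⟨m, hm⟩ : p ∣ n := Nat.minFac_dvd n
      have hm' : n = m * p := by rw [hm, mul_comm]
      have hm1 : 1 ≤ m := by
        rcases Nat.eq_zero_or_pos m with h0 | h0
        · rw [h0, mul_zero] at hm; omega
        · exact h0
      have hmn : m < n := by
        rw [hm']
        exact lt_mul_of_one_lt_right hm1 hp.one_lt
      obtain ⟨Tm, hTm, hTm'⟩ := ih m hmn hm1
      by_cases hpM : p ∣ M
      · refine ⟨Tm * U1 2 hp hpM, (fullHecke M).mul_mem hTm (U1_mem hp hpM), fun g => ?_⟩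
        rw [Module.End.mul_apply, hTm', qCoeff_U1, hm']
      · by_cases hpm : p ∣ m
        · have hmp1 : 1 ≤ m / p := Nat.div_pos (Nat.le_of_dvd hm1 hpm) hp.pos
          have hmpn : m / p < n := lt_of_le_of_lt (Nat.div_le_self m p) hmn
          obtain ⟨Tq, hTq, hTq'⟩ := ih (m / p) hmpn hmp1
          refine ⟨Tm * T1 2 hp hpM - (p : ℤ) • (Tq * diamondC (unitOfPrime hp hpM)),
            (fullHecke M).sub_mem ((fullHecke M).mul_mem hTm (T1_mem hp hpM))
              ((fullHecke M).zsmul_mem ((fullHecke M).mul_mem hTq (diamondC_mem _)) _),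
            fun g => ?_⟩
          rw [LinearMap.sub_apply, qCoeffC_sub, Module.End.mul_apply, hTm', qCoeff_T1, if_pos hpm,
            LinearMap.smul_apply, qCoeff_intCast_smul, Module.End.mul_apply, hTq', hm']
          norm_num
        · refine ⟨Tm * T1 2 hp hpM, (fullHecke M).mul_mem hTm (T1_mem hp hpM), fun g => ?_⟩
          rw [Module.End.mul_apply, hTm', qCoeff_T1, if_neg hpm, add_zero, hm']
    · have : n = 1 := le_antisymm h1 hn
      subst this
      exact ⟨1, (fullHecke M).one_mem, fun g => rfl⟩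

/-! ### (R2b) -/

/-- `T ↦ a_1(T g)` as a `ℤ`-linear map on the full Hecke algebra. -/
def coeffOne (g : CuspForm (Gamma1 M) 2) : fullHecke M →ₗ[ℤ] ℂ where
  toFun T := qCoeff ⇑((T : Module.End ℂ (CuspForm (Gamma1 M) 2)) g) 1
  map_add' T T' := by
    rw [Subalgebra.coe_add, LinearMap.add_apply, qCoeffC_add]
  map_smul' m T := by
    rw [Subalgebra.coe_smul, LinearMap.smul_apply, qCoeff_intCast_smul]
    simp

/-- **(R2b)**: the `q`-coefficients of a cusp form of weight two on `Γ₁(M)` lie in a finitely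
generated `ℤ`-submodule of `ℂ`. -/
theorem r2b (g : CuspForm (Gamma1 M) 2) :
    ∃ Λ : Submodule ℤ ℂ, Λ.FG ∧ ∀ n : ℕ, qCoeff ⇑g n ∈ Λ := by
  have hfin : Module.Finite ℤ (fullHecke M) := finite_fullHecke
  refine ⟨LinearMap.range (coeffOne g), ?_, fun n => ?_⟩
  · rw [LinearMap.range_eq_map]
    exact Submodule.FG.map _ Module.Finite.fg_top
  · rcases Nat.eq_zero_or_pos n with rfl | hn
    · rw [qCoeffC_zero_index]
      exact Submodule.zero_mem _
    · obtain ⟨T, hT, hT'⟩ := exists_hecke_qCoeff (M := M) n hn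
      exact ⟨⟨T, hT⟩, hT' g⟩

end Fermat.Agent.M48.BoundedDenom3
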