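/-
M48 (helper5), block (W1-RAT), step (a) of the square trick: the multiplier `E = θ²`.

`θ(τ) = ∑_{n ∈ ℤ} q^{n²} = Θ(2τ)` with Mathlib's `Θ = jacobiTheta`.  This file constructs
`thetaSq : ModularForm (Gamma1 4) 1`, `thetaSq τ = jacobiTheta (2τ) ^ 2`, and computes its
`q`-expansion: `qExpansion 1 thetaSq = (thetaSeries ^ 2).map (Int.castRingHom ℂ)` with
`thetaSeries : ℤ⟦X⟧ = 1 + 2X + 2X⁴ + 2X⁹ + …` (so the `q`-expansion is fixed by every automorphism
of `ℂ` and is invertible in `ℤ⟦X⟧`).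

* `gamma1_four_le`: a subgroup of `SL(2, ℤ)` containing `T` and `L4 = [[1,0],[4,1]]` contains `Γ₁(4)`
  (Euclid on the bottom row);
* `Q_add_two`, `Q_neg_inv`, `Q_div`: laws of `Q = Θ²` from Mathlib's `jacobiTheta_two_add`,
  `jacobiTheta_S_smul`; `thetaFun_slash : γ ∈ Γ₁(4) → thetaFun ∣[1] γ = thetaFun`;
* `isBoundedAtImInfty_of_growth` (general): `f : ℍ → ℂ` holomorphic, `h`-periodic, with
  `‖f τ‖ ≤ C (Im τ)²` for `Im τ ≥ A`, `|Re τ| ≤ h` ⇒ bounded at `i∞` (removable singularity at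
  `q = 0` since `q F(q) → 0`);
* `norm_jacobiTheta_le : ‖Θ z‖ ≤ 1 + 1 / Im z`, `norm_thetaFun_slash_le`: quadratic growth of every
  `SL(2, ℤ)`-translate of `θ²` on the strip, hence boundedness at all cusps;
* `qExpansion_coeff_of_hasSum` (general): uniqueness of `q`-expansion coefficients for plain
  functions `ℍ → ℂ`;
* `thetaSq`, `qExpansion_thetaSq`, `constantCoeff_thetaSeries_sq`, `thetaSq_ne_zero`,
  `exists_weightOne_multiplier` (summary in the shape consumed by (W1-RAT)).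
Mathlib only.
-/
import Mathlib

set_option autoImplicit false

namespace Fermat.Agent.M48.ThetaSq5

open Matrix Matrix.SpecialLinearGroup CongruenceSubgroup ModularGroup
open scoped MatrixGroups

/-! ### `Γ₁(4)` is generated by `T` and `L4 = [[1,0],[4,1]]` -/

/-- The matrix `[[1, 0], [4, 1]]`. -/
def L4 : SL(2, ℤ) := ⟨!![1, 0; 4, 1], by norm_num [Matrix.det_fin_two_of]⟩

theorem coe_L4 : (L4 : Matrix (Fin 2) (Fin 2) ℤ) = !![1, 0; 4, 1] := rfl

theorem coe_L4_inv : ((L4⁻¹ : SL(2, ℤ)) : Matrix (Fin 2) (Fin 2) ℤ) = !![1, 0; -4, 1] := by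
  simp [coe_inv, coe_L4, adjugate_fin_two]

theorem coe_L4_zpow (n : ℤ) :
    ((L4 ^ n : SL(2, ℤ)) : Matrix (Fin 2) (Fin 2) ℤ) = !![1, 0; 4 * n, 1] := by
  induction n with
  | zero =>
    ext i j
    fin_cases i <;> fin_cases j <;> simp
  | succ n h =>
    simp_rw [_root_.zpow_add, zpow_one, coe_mul, h, coe_L4, Matrix.mul_fin_two]
    congrm !![?_, ?_; ?_, ?_] <;> ring
  | pred n h =>
    simp_rw [_root_.zpow_sub, zpow_one, coe_mul, h, coe_L4_inv, Matrix.mul_fin_two]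
    congrm !![?_, ?_; ?_, ?_] <;> ring

/-- Balanced division: for `m ≠ 0` there is `k` with `2 |x + k m| ≤ |m|`. -/
theorem exists_small_add_mul (x m : ℤ) (hm : m ≠ 0) : ∃ k : ℤ, 2 * |x + k * m| ≤ |m| := by
  have h1 := Int.bmod_add_bdiv x m.natAbs
  have h2 : 0 < m.natAbs := Int.natAbs_pos.mpr hm
  have h3 := Int.bmod_lt (x := x) h2
  have h4 := Int.le_bmod (x := x) h2
  have h5 : ((m.natAbs : ℕ) : ℤ) = |m| := Int.natCast_natAbs m
  rw [h5] at h1 h3 h4
  rcases le_or_gt 0 m with hpos | hneg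
  · refine ⟨-(Int.bdiv x m.natAbs), ?_⟩
    rw [abs_of_nonneg hpos] at h1 h3 h4 ⊢
    have : x + -(Int.bdiv x m.natAbs) * m = Int.bmod x m.natAbs := by linarith
    rw [this]
    rcases abs_cases (Int.bmod x m.natAbs) with ⟨h, _⟩ | ⟨h, _⟩ <;> rw [h] <;> omega
  · refine ⟨Int.bdiv x m.natAbs, ?_⟩
    rw [abs_of_neg hneg] at h1 h3 h4 ⊢
    have : x + (Int.bdiv x m.natAbs) * m = Int.bmod x m.natAbs := by linarith
    rw [this]
    rcases abs_cases (Int.bmod x m.natAbs) with ⟨h, _⟩ | ⟨h, _⟩ <;> rw [h] <;> omega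

theorem mul_T_zpow_apply (γ : SL(2, ℤ)) (k : ℤ) :
    (γ * T ^ k) 0 0 = γ 0 0 ∧ (γ * T ^ k) 0 1 = γ 0 0 * k + γ 0 1 ∧
    (γ * T ^ k) 1 0 = γ 1 0 ∧ (γ * T ^ k) 1 1 = γ 1 0 * k + γ 1 1 := by
  simp [coe_mul, coe_T_zpow, Matrix.mul_apply, Fin.sum_univ_two]

theorem mul_L4_zpow_apply (γ : SL(2, ℤ)) (m : ℤ) :
    (γ * L4 ^ m) 0 0 = γ 0 0 + γ 0 1 * (4 * m) ∧ (γ * L4 ^ m) 0 1 = γ 0 1 ∧
    (γ * L4 ^ m) 1 0 = γ 1 0 + γ 1 1 * (4 * m) ∧ (γ * L4 ^ m) 1 1 = γ 1 1 := by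
  simp [coe_mul, coe_L4_zpow, Matrix.mul_apply, Fin.sum_univ_two]

theorem T_mem_Gamma1 (N : ℕ) : T ∈ Gamma1 N := by
  simp [Gamma1_mem, coe_T]

theorem L4_mem_Gamma1 : L4 ∈ Gamma1 4 := by
  rw [Gamma1_mem]
  simp only [coe_L4]
  refine ⟨by simp, by simp, ?_⟩
  simp only [Matrix.of_apply, Matrix.cons_val', Matrix.cons_val_zero, Matrix.cons_val_one]
  decide

theorem mem_Gamma1_four_iff (γ : SL(2, ℤ)) :
    γ ∈ Gamma1 4 ↔ (4 : ℤ) ∣ γ 0 0 - 1 ∧ (4 : ℤ) ∣ γ 1 1 - 1 ∧ (4 : ℤ) ∣ γ 1 0 := by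
  rw [Gamma1_mem]
  have h1 : ∀ a : ℤ, ((a : ZMod 4) = 1 ↔ (4 : ℤ) ∣ a - 1) := by
    intro a
    have := ZMod.intCast_eq_intCast_iff_dvd_sub 1 a 4
    rw [eq_comm] at this
    simpa using this
  rw [h1, h1, ZMod.intCast_zmod_eq_zero_iff_dvd]
  rfl

/-- **`Γ₁(4) = ⟨T, L4⟩`** (in the form used below): a subgroup of `SL(2, ℤ)` containing `T` and
`L4` contains `Γ₁(4)`.  Euclid on the bottom row: `c ≡ 0 (4)` and `d` odd exclude `|c| = 2|d|`. -/
theorem gamma1_four_le (H : Subgroup SL(2, ℤ)) (hT : T ∈ H) (hL : L4 ∈ H) : Gamma1 4 ≤ H := by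
  have key : ∀ n : ℕ, ∀ γ : SL(2, ℤ), γ ∈ Gamma1 4 → (γ 1 0).natAbs = n → γ ∈ H := by
    intro n
    induction n using Nat.strong_induction_on with
    | _ n ih =>
      intro γ hγ hn
      have hdet : γ 0 0 * γ 1 1 - γ 0 1 * γ 1 0 = 1 := by
        have := γ.det_coe
        rwa [Matrix.det_fin_two] at this
      have hγ' := (mem_Gamma1_four_iff γ).mp hγ
      obtain ⟨ha, hd, hc⟩ := hγ'
      by_cases hc0 : γ 1 0 = 0
      · -- `γ = T ^ (γ 0 1)`
        rw [hc0, mul_zero, sub_zero] at hdet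
        have ha1 : γ 0 0 = 1 := by
          rcases Int.eq_one_or_neg_one_of_mul_eq_one hdet with h | h
          · exact h
          · rw [h] at ha; omega
        have hd1 : γ 1 1 = 1 := by rw [ha1, one_mul] at hdet; exact hdet
        have : γ = T ^ (γ 0 1) := by
          ext i j
          rw [coe_T_zpow]
          fin_cases i <;> fin_cases j <;> simp [ha1, hd1, hc0]
        rw [this]
        exact H.zpow_mem hT _
      · obtain ⟨k, hk⟩ := exists_small_add_mul (γ 1 1) (γ 1 0) hc0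
        obtain ⟨c', hc'⟩ := hc
        obtain ⟨d₀, hd₀⟩ := hd
        obtain ⟨t, ht⟩ : ∃ t : ℤ, γ 1 1 + k * γ 1 0 = 4 * t + 1 :=
          ⟨d₀ + k * c', by rw [hc']; linear_combination hd₀⟩
        have hd'0 : γ 1 1 + k * γ 1 0 ≠ 0 := by
          rw [ht]; omega
        obtain ⟨m, hm⟩ := exists_small_add_mul (γ 1 0) (4 * (γ 1 1 + k * γ 1 0))
          (mul_ne_zero (by norm_num) hd'0)
        have hmem : γ * T ^ k * L4 ^ m ∈ Gamma1 4 :=
          (Gamma1 4).mul_mem ((Gamma1 4).mul_mem hγ ((Gamma1 4).zpow_mem (T_mem_Gamma1 4) _))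
            ((Gamma1 4).zpow_mem L4_mem_Gamma1 _)
        have hentry : (γ * T ^ k * L4 ^ m) 1 0 = γ 1 0 + m * (4 * (γ 1 1 + k * γ 1 0)) := by
          rw [(mul_L4_zpow_apply _ m).2.2.1, (mul_T_zpow_apply γ k).2.2.1,
            (mul_T_zpow_apply γ k).2.2.2]
          ring
        have hlt : ((γ * T ^ k * L4 ^ m) 1 0).natAbs < n := by
          rw [hentry, ← hn]
          rw [ht] at hk hm ⊢
          generalize γ 1 0 + m * (4 * (4 * t + 1)) = c'' at hm ⊢
          rw [hc'] at hk ⊢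
          simp only [Int.abs_eq_natAbs] at hk hm
          omega
        have := ih _ hlt _ hmem rfl
        have h3 : γ = (γ * T ^ k * L4 ^ m) * (L4 ^ m)⁻¹ * (T ^ k)⁻¹ := by group
        rw [h3]
        exact H.mul_mem (H.mul_mem this (H.inv_mem (H.zpow_mem hL _))) (H.inv_mem (H.zpow_mem hT _))
  intro γ hγ
  exact key _ γ hγ rfl


open Complex

/-! ### The square of Jacobi's theta function -/

/-- `Θ(z)²` with `Θ = jacobiTheta`, `Θ(z) = ∑_{n ∈ ℤ} exp(π i n² z)`. -/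
noncomputable def Q (z : ℂ) : ℂ := jacobiTheta z ^ 2

theorem Q_add_two (z : ℂ) : Q (z + 2) = Q z := by
  rw [Q, add_comm, jacobiTheta_two_add]; rfl

theorem Q_sub_two (z : ℂ) : Q (z - 2) = Q z := by
  rw [← Q_add_two (z - 2), sub_add_cancel]

theorem Q_neg_inv {z : ℂ} (hz : 0 < z.im) : Q (-z⁻¹) = -I * z * Q z := by
  have h := jacobiTheta_S_smul ⟨z, hz⟩
  rw [UpperHalfPlane.modular_S_smul] at h
  simp only [inv_neg] at h
  have h2 : ((-I * z) ^ (1 / 2 : ℂ)) ^ 2 = -I * z := by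
    rw [one_div]
    exact Complex.cpow_nat_inv_pow (-I * z) (n := 2) (by norm_num)
  rw [Q, h, mul_pow, h2, Q]

/-- The transformation law of `Θ²` under `[[1, 0], [2, 1]]`. -/
theorem Q_div {w : ℂ} (hw : 0 < w.im) : Q (w / (2 * w + 1)) = (2 * w + 1) * Q w := by
  have hw0 : w ≠ 0 := by
    rintro rfl
    simp at hw
  have h1 : 0 < (-w⁻¹).im := by
    rw [neg_im, inv_im, neg_div, neg_neg]
    exact div_pos hw (normSq_pos.mpr hw0)
  have h2 : 0 < (-w⁻¹ - 2).im := by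
    simpa using h1
  have hd : 2 * w + 1 ≠ 0 := by
    intro h
    have := congrArg Complex.im h
    simp at this
    exact hw.ne' this
  have h4 : (-w⁻¹ - 2) * w = -(2 * w + 1) := by
    field_simp
    ring
  have h5 : -w⁻¹ - 2 = -((2 * w + 1) / w) := by
    rw [← neg_div, eq_div_iff hw0, h4]
  have h3 : -(-w⁻¹ - 2)⁻¹ = w / (2 * w + 1) := by
    rw [h5, inv_neg, neg_neg, inv_div]
  rw [← h3, Q_neg_inv h2, Q_sub_two, Q_neg_inv hw]
  have hI : I * I = -1 := I_mul_I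
  calc -I * (-w⁻¹ - 2) * (-I * w * Q w) = (I * I) * ((-w⁻¹ - 2) * w) * Q w := by ring
    _ = (-1) * (-(2 * w + 1)) * Q w := by rw [hI, h4]
    _ = (2 * w + 1) * Q w := by ring


/-! ### Slash invariance under `Γ₁(4)` -/

open UpperHalfPlane hiding I
open ModularForm
open scoped Manifold

/-- `θ(τ)² = Θ(2τ)²`, `θ(τ) = ∑_{n ∈ ℤ} q^{n²}`, as a function on `ℍ`. -/
noncomputable def thetaFun (τ : ℍ) : ℂ := Q (2 * (τ : ℂ))

/-- The stabiliser of a function under the weight `k` slash action of `SL(2, ℤ)`. -/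
def slashStab (f : ℍ → ℂ) (k : ℤ) : Subgroup SL(2, ℤ) where
  carrier := {γ | f ∣[k] γ = f}
  mul_mem' := by
    intro a b ha hb
    change f ∣[k] (a * b) = f
    change f ∣[k] a = f at ha
    change f ∣[k] b = f at hb
    rw [SlashAction.slash_mul, ha, hb]
  one_mem' := SlashAction.slash_one k f
  inv_mem' := by
    intro a ha
    change f ∣[k] a⁻¹ = f
    change f ∣[k] a = f at ha
    have := SlashAction.slash_mul k a a⁻¹ f
    rw [mul_inv_cancel, SlashAction.slash_one, ha] at this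
    exact this.symm

theorem mem_slashStab {f : ℍ → ℂ} {k : ℤ} {γ : SL(2, ℤ)} : γ ∈ slashStab f k ↔ f ∣[k] γ = f :=
  Iff.rfl

theorem thetaFun_slash_T : thetaFun ∣[(1 : ℤ)] T = thetaFun := by
  funext τ
  rw [SL_slash_apply, UpperHalfPlane.modular_T_smul]
  have h1 : denom (T : SL(2, ℤ)) τ = 1 := by
    simp [ModularGroup.denom_apply, coe_T]
  rw [h1]
  rw [_root_.one_zpow, mul_one]
  simp only [thetaFun, UpperHalfPlane.coe_vadd, ofReal_one]
  rw [← Q_add_two (2 * (τ : ℂ))]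
  congr 1
  ring

theorem thetaFun_slash_L4 : thetaFun ∣[(1 : ℤ)] L4 = thetaFun := by
  funext τ
  rw [SL_slash_apply]
  have h1 : denom (L4 : SL(2, ℤ)) τ = 4 * (τ : ℂ) + 1 := by
    simp [ModularGroup.denom_apply, coe_L4]
  have h0 : ((L4 • τ : ℍ) : ℂ) = (τ : ℂ) / (4 * (τ : ℂ) + 1) := by
    rw [UpperHalfPlane.coe_specialLinearGroup_apply]
    simp [coe_L4]
  rw [h1]
  simp only [thetaFun, h0]
  have hτ : 0 < (2 * (τ : ℂ)).im := by
    simp [τ.im_pos]
  have h := Q_div hτ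
  have h2 : 2 * ((τ : ℂ) / (4 * τ + 1)) = 2 * (τ : ℂ) / (2 * (2 * (τ : ℂ)) + 1) := by
    rw [mul_div_assoc]
    congr 2
    ring
  have hd : 4 * (τ : ℂ) + 1 ≠ 0 := by
    intro h
    have := congrArg Complex.im h
    simp at this
    exact τ.im_pos.ne' this
  rw [h2, h]
  have : 2 * (2 * (τ : ℂ)) + 1 = 4 * τ + 1 := by ring
  rw [this, _root_.zpow_neg, zpow_one]
  field_simp

theorem thetaFun_slash {γ : SL(2, ℤ)} (hγ : γ ∈ Gamma1 4) : thetaFun ∣[(1 : ℤ)] γ = thetaFun :=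
  gamma1_four_le (slashStab thetaFun 1) thetaFun_slash_T thetaFun_slash_L4 hγ


/-! ### Moderate growth implies boundedness at `i∞` -/

open Filter Topology Asymptotics Function
open scoped Real

/-- `x (log x)² → 0` as `x → 0⁺`. -/
theorem tendsto_mul_log_sq : Tendsto (fun x : ℝ => x * Real.log x ^ 2) (𝓝[>] 0) (𝓝 0) := by
  have h := (tendsto_log_mul_rpow_nhdsGT_zero (r := 1 / 2) (by norm_num)).pow 2
  rw [zero_pow two_ne_zero] at h
  refine h.congr' ?_
  filter_upwards [self_mem_nhdsWithin] with x hx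
  have hx' : (0 : ℝ) ≤ x := le_of_lt hx
  rw [mul_pow, ← Real.sqrt_eq_rpow, Real.sq_sqrt hx', mul_comm]

theorem re_invQParam (h : ℝ) (q : ℂ) :
    (Function.Periodic.invQParam h q).re = h / (2 * π) * Complex.arg q := by
  have key : Function.Periodic.invQParam h q =
      ((h / (2 * π) : ℝ) : ℂ) * (-(Complex.I * Complex.log q)) := by
    rw [Function.Periodic.invQParam]
    push_cast
    have hI : Complex.I ≠ 0 := Complex.I_ne_zero
    have hπ : (π : ℂ) ≠ 0 := by exact_mod_cast Real.pi_ne_zero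
    field_simp
    rw [Complex.I_sq]
    ring
  rw [key, Complex.re_ofReal_mul, Complex.neg_re, Complex.I_mul_re, neg_neg, Complex.log_im]

/-- **Moderate growth ⇒ bounded at `i∞`.**  A holomorphic periodic function on `ℍ` with
`‖f τ‖ ≤ C (Im τ)²` for `Im τ ≥ A` is bounded at `i∞`: in the variable `q` the singularity at `0`
is removable because `q F(q) → 0`. -/
theorem isBoundedAtImInfty_of_growth {f : ℍ → ℂ} (hf : MDiff f) {h : ℝ} (hh : 0 < h)
    (hper : Function.Periodic (f ∘ ofComplex) h) {C A : ℝ}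
    (hgr : ∀ τ : ℍ, A ≤ τ.im → |τ.re| ≤ h → ‖f τ‖ ≤ C * τ.im ^ 2) : IsBoundedAtImInfty f := by
  set g : ℂ → ℂ := f ∘ ofComplex with hg
  set F : ℂ → ℂ := Function.Periodic.cuspFunction h g with hF
  have hhol : ∀ᶠ z in comap Complex.im atTop, DifferentiableAt ℂ g z :=
    eventually_of_mem (preimage_mem_comap (Ioi_mem_atTop 0))
      (fun z hz ↦ UpperHalfPlane.mdifferentiableAt_iff.mp (hf ⟨z, hz⟩))
  have hd : ∀ᶠ q in 𝓝[≠] 0, DifferentiableAt ℂ F q :=
    Function.Periodic.eventually_differentiableAt_cuspFunction_nhds_ne_zero hh hper hhol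
  set C' : ℝ := C * (h / (2 * π)) ^ 2 with hC'
  -- growth in the variable `q`
  have hgrq : ∀ᶠ q in 𝓝[≠] (0 : ℂ), ‖F q‖ ≤ C' * Real.log ‖q‖ ^ 2 := by
    have h1 : ∀ᶠ q in 𝓝[≠] (0 : ℂ), max A 1 ≤ (Function.Periodic.invQParam h q).im :=
      (tendsto_comap_iff.mp (Function.Periodic.invQParam_tendsto hh)).eventually
        (eventually_ge_atTop _)
    filter_upwards [h1, self_mem_nhdsWithin] with q hq hq0
    have hpos : 0 < (Function.Periodic.invQParam h q).im :=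
      lt_of_lt_of_le (by positivity) ((le_max_right A 1).trans hq)
    have hFq : F q = f ⟨Function.Periodic.invQParam h q, hpos⟩ := by
      rw [hF, Function.Periodic.cuspFunction_eq_of_nonzero _ _ hq0, hg, Function.comp_apply,
        ofComplex_apply_of_im_pos hpos]
    rw [hFq]
    have h3 : A ≤ (⟨Function.Periodic.invQParam h q, hpos⟩ : ℍ).im := (le_max_left A 1).trans hq
    have h4 : |(⟨Function.Periodic.invQParam h q, hpos⟩ : ℍ).re| ≤ h := by
      change |(Function.Periodic.invQParam h q).re| ≤ h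
      rw [re_invQParam, abs_mul, abs_of_pos (by positivity : 0 < h / (2 * π))]
      have := Complex.abs_arg_le_pi q
      calc h / (2 * π) * |Complex.arg q| ≤ h / (2 * π) * π :=
            mul_le_mul_of_nonneg_left this (by positivity)
        _ = h / 2 := by field_simp
        _ ≤ h := by linarith
    refine (hgr _ h3 h4).trans (le_of_eq ?_)
    change C * (Function.Periodic.invQParam h q).im ^ 2 = _
    rw [Function.Periodic.im_invQParam, hC']
    ring
  -- little-o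
  have ho : (fun q => F q - F 0) =o[𝓝[≠] 0] fun q => (q - 0)⁻¹ := by
    rw [isLittleO_iff]
    intro c hc
    have ht : Tendsto (fun q : ℂ => ‖q‖ * Real.log ‖q‖ ^ 2 * C' + ‖q‖ * ‖F 0‖) (𝓝[≠] 0) (𝓝 0) := by
      have h1 : Tendsto (fun q : ℂ => ‖q‖) (𝓝[≠] 0) (𝓝[>] 0) := tendsto_norm_nhdsNE_zero
      have h2 := (tendsto_mul_log_sq.comp h1).mul_const C'
      have h3 := (h1.mono_right nhdsWithin_le_nhds).mul_const ‖F 0‖
      simpa using h2.add h3
    have ht' := ht.eventually (eventually_lt_nhds hc)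
    filter_upwards [ht', hgrq, self_mem_nhdsWithin] with q h1 h2 hq0
    have hq0' : q ≠ 0 := hq0
    have hqpos : 0 < ‖q‖ := norm_pos_iff.mpr hq0'
    rw [sub_zero, norm_inv, ← div_eq_mul_inv, le_div_iff₀ hqpos]
    have h3 : ‖F q - F 0‖ ≤ ‖F q‖ + ‖F 0‖ := norm_sub_le _ _
    nlinarith [norm_nonneg (F q - F 0), norm_nonneg (F 0)]
  -- removable singularity
  obtain ⟨S, hS, hSo, h0S⟩ := eventually_nhds_iff.mp (eventually_nhdsWithin_iff.mp hd)
  have hSn : S ∈ 𝓝 (0 : ℂ) := hSo.mem_nhds h0S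
  have hdS : DifferentiableOn ℂ F (S \ {0}) :=
    fun q hq => (hS q hq.1 hq.2).differentiableWithinAt
  have hext := differentiableOn_update_limUnder_of_isLittleO hSn hdS ho
  set F' : ℂ → ℂ := update F 0 (limUnder (𝓝[≠] 0) F) with hF'
  have hcont : ContinuousAt F' 0 := (hext.differentiableAt hSn).continuousAt
  have hbd : ∀ᶠ q in 𝓝 (0 : ℂ), ‖F' q‖ < ‖F' 0‖ + 1 :=
    hcont.norm.eventually_lt tendsto_const_nhds (by simp)
  have hbd' := (qParam_tendsto_atImInfty hh).eventually hbd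
  refine IsBigO.of_bound (‖F' 0‖ + 1) ?_
  filter_upwards [hbd'] with τ hτ
  have h1 : F' (Function.Periodic.qParam h τ) = f τ := by
    rw [hF', update_of_ne (Function.Periodic.qParam_ne_zero _)]
    have := Function.Periodic.eq_cuspFunction hh.ne' hper (τ : ℂ)
    simpa [hg] using this
  rw [h1] at hτ
  simpa using hτ.le

/-- `|Θ(z)| ≤ 1 + 1 / Im z`. -/
theorem norm_jacobiTheta_le {z : ℂ} (hz : 0 < z.im) : ‖jacobiTheta z‖ ≤ 1 + 1 / z.im := by
  have h1 := norm_jacobiTheta_sub_one_le hz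
  set y := z.im with hy
  set t := Real.exp (-π * y) with ht
  have htpos : 0 < t := Real.exp_pos _
  have hπy : 0 < π * y := mul_pos Real.pi_pos hz
  have h2 : t * (1 + π * y) ≤ 1 := by
    have h3 := Real.add_one_le_exp (π * y)
    have h4 : t * Real.exp (π * y) = 1 := by
      rw [ht, ← Real.exp_add]; simp
    nlinarith
  have ht1 : t < 1 := by nlinarith
  have h1t : 0 < 1 - t := by linarith
  have h5 : 2 / (1 - t) * t ≤ 1 / y := by
    rw [div_mul_eq_mul_div, div_le_div_iff₀ h1t hz]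
    nlinarith [Real.pi_gt_three]
  have h6 : ‖jacobiTheta z‖ ≤ ‖jacobiTheta z - 1‖ + ‖(1 : ℂ)‖ := by
    have := norm_add_le (jacobiTheta z - 1) 1
    simpa using this
  rw [norm_one] at h6
  linarith


/-! ### Growth of the translates of `θ²` -/

theorem norm_Q_le {z : ℂ} (hz : 0 < z.im) : ‖Q z‖ ≤ (1 + 1 / z.im) ^ 2 := by
  rw [Q, norm_pow]
  exact pow_le_pow_left₀ (norm_nonneg _) (norm_jacobiTheta_le hz) 2

theorem one_le_normSq_denom (γ : SL(2, ℤ)) (τ : ℍ) (hτ : 1 ≤ τ.im) :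
    1 ≤ Complex.normSq (denom γ τ) := by
  have hdet : γ 0 0 * γ 1 1 - γ 0 1 * γ 1 0 = 1 := by
    have := γ.det_coe
    rwa [Matrix.det_fin_two] at this
  have hN : Complex.normSq (denom γ τ) =
      ((γ 1 0 : ℝ) * τ.re + (γ 1 1 : ℝ)) ^ 2 + ((γ 1 0 : ℝ) * τ.im) ^ 2 := by
    rw [ModularGroup.denom_apply, Complex.normSq_apply]
    simp
    ring
  rw [hN]
  by_cases hc : γ 1 0 = 0
  · rw [hc, mul_zero, sub_zero] at hdet
    have hd : (γ 1 1) ^ 2 = 1 := by
      rcases Int.eq_one_or_neg_one_of_mul_eq_one' hdet with ⟨-, h⟩ | ⟨-, h⟩ <;> rw [h] <;> norm_num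
    have hd' : ((γ 1 1 : ℤ) : ℝ) ^ 2 = 1 := by exact_mod_cast hd
    simp [hc, hd']
  · have h1 : (1 : ℝ) ≤ ((γ 1 0 : ℤ) : ℝ) ^ 2 := by
      have : (1 : ℤ) ≤ (γ 1 0) ^ 2 := by
        have := Int.one_le_abs hc
        nlinarith [sq_abs (γ 1 0)]
      exact_mod_cast this
    have h2 : (1 : ℝ) ≤ τ.im ^ 2 := by nlinarith
    nlinarith [sq_nonneg ((γ 1 0 : ℝ) * τ.re + (γ 1 1 : ℝ)), mul_pow ((γ 1 0 : ℤ) : ℝ) τ.im 2]

theorem normSq_denom_le (γ : SL(2, ℤ)) (τ : ℍ) (hτ : 1 ≤ τ.im) (hx : |τ.re| ≤ 4) :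
    Complex.normSq (denom γ τ) ≤
      ((4 * |(γ 1 0 : ℝ)| + |(γ 1 1 : ℝ)|) ^ 2 + (γ 1 0 : ℝ) ^ 2) * τ.im ^ 2 := by
  have hN : Complex.normSq (denom γ τ) =
      ((γ 1 0 : ℝ) * τ.re + (γ 1 1 : ℝ)) ^ 2 + ((γ 1 0 : ℝ) * τ.im) ^ 2 := by
    rw [ModularGroup.denom_apply, Complex.normSq_apply]
    simp
    ring
  rw [hN]
  have h1 : |(γ 1 0 : ℝ) * τ.re + (γ 1 1 : ℝ)| ≤ 4 * |(γ 1 0 : ℝ)| + |(γ 1 1 : ℝ)| := by
    refine (abs_add_le _ _).trans ?_
    rw [abs_mul]
    nlinarith [abs_nonneg (γ 1 0 : ℝ), abs_nonneg τ.re]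
  have h2 : ((γ 1 0 : ℝ) * τ.re + (γ 1 1 : ℝ)) ^ 2 ≤ (4 * |(γ 1 0 : ℝ)| + |(γ 1 1 : ℝ)|) ^ 2 := by
    rw [← sq_abs ((γ 1 0 : ℝ) * τ.re + (γ 1 1 : ℝ))]
    exact pow_le_pow_left₀ (abs_nonneg _) h1 2
  have h3 : (1 : ℝ) ≤ τ.im ^ 2 := by nlinarith
  nlinarith [sq_nonneg (4 * |(γ 1 0 : ℝ)| + |(γ 1 1 : ℝ)|)]

/-- Quadratic growth of every `SL(2, ℤ)`-translate of `θ²` on the strip `|Re τ| ≤ 4`. -/
theorem norm_thetaFun_slash_le (γ : SL(2, ℤ)) :
    ∃ C : ℝ, ∀ τ : ℍ, 1 ≤ τ.im → |τ.re| ≤ 4 →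
      ‖(thetaFun ∣[(1 : ℤ)] γ) τ‖ ≤ C * τ.im ^ 2 := by
  set K : ℝ := (4 * |(γ 1 0 : ℝ)| + |(γ 1 1 : ℝ)|) ^ 2 + (γ 1 0 : ℝ) ^ 2 with hK
  have hK0 : 0 ≤ K := by positivity
  refine ⟨(1 + K) ^ 2, fun τ hτ hx => ?_⟩
  have hy : 0 < τ.im := τ.im_pos
  set N := Complex.normSq (denom γ τ) with hN
  have hN1 : 1 ≤ N := one_le_normSq_denom γ τ hτ
  have hNK : N ≤ K * τ.im ^ 2 := normSq_denom_le γ τ hτ hx
  have him : (2 * ((γ • τ : ℍ) : ℂ)).im = 2 * τ.im / N := by
    rw [Complex.mul_im]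
    simp only [Complex.re_ofNat, Complex.im_ofNat, zero_mul, add_zero]
    rw [UpperHalfPlane.coe_im, ModularGroup.im_smul_eq_div_normSq, mul_div_assoc]
  have himpos : 0 < (2 * ((γ • τ : ℍ) : ℂ)).im := by
    rw [him]; positivity
  have h1 : ‖thetaFun (γ • τ)‖ ≤ (1 + N / (2 * τ.im)) ^ 2 := by
    have := norm_Q_le himpos
    rw [him, one_div_div] at this
    exact this
  have h2 : ‖(denom γ τ) ^ (-(1 : ℤ))‖ ≤ 1 := by
    rw [_root_.zpow_neg, zpow_one, norm_inv]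
    have h3 : 1 ≤ ‖denom γ τ‖ := by
      have h4 : ‖denom γ τ‖ ^ 2 = N := Complex.sq_norm _
      by_contra hcon
      push Not at hcon
      have : ‖denom γ τ‖ ^ 2 < 1 := by nlinarith [norm_nonneg (denom γ τ)]
      linarith
    exact inv_le_one_of_one_le₀ h3
  rw [SL_slash_apply, norm_mul]
  have h5 : N / (2 * τ.im) ≤ K * τ.im / 2 := by
    rw [div_le_iff₀ (by positivity)]
    nlinarith
  have h6 : (1 + N / (2 * τ.im)) ^ 2 ≤ (1 + K) ^ 2 * τ.im ^ 2 := by
    rw [← mul_pow]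
    refine pow_le_pow_left₀ (by positivity) ?_ 2
    nlinarith
  calc ‖thetaFun (γ • τ)‖ * ‖denom γ τ ^ (-(1 : ℤ))‖ ≤ (1 + N / (2 * τ.im)) ^ 2 * 1 :=
        mul_le_mul h1 h2 (norm_nonneg _) (by positivity)
    _ ≤ (1 + K) ^ 2 * τ.im ^ 2 := by rw [mul_one]; exact h6


/-! ### `θ²` as a modular form of weight one on `Γ₁(4)` -/

theorem thetaFun_mdiff : MDiff thetaFun := by
  rw [UpperHalfPlane.mdifferentiable_iff]
  intro z hz
  have hz' : 0 < z.im := hz
  have h2 : 0 < (2 * z).im := by simpa using hz'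
  have h1 : DifferentiableAt ℂ (fun w : ℂ => Q (2 * w)) z := by
    have hQ : DifferentiableAt ℂ Q (2 * z) := (differentiableAt_jacobiTheta h2).pow 2
    exact hQ.comp z (differentiableAt_id.const_mul 2)
  refine (h1.differentiableWithinAt).congr (fun w hw => ?_) ?_
  · have hw' : 0 < w.im := hw
    simp [thetaFun, ofComplex_apply_of_im_pos hw']
  · simp [thetaFun, ofComplex_apply_of_im_pos hz']

theorem Gamma_four_le_Gamma1 : CongruenceSubgroup.Gamma 4 ≤ Gamma1 4 := by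
  intro γ hγ
  rw [Gamma_mem] at hγ
  rw [Gamma1_mem]
  exact ⟨hγ.1, hγ.2.2.2, hγ.2.2.1⟩

theorem thetaFun_slash_periodic (γ : SL(2, ℤ)) :
    Function.Periodic ((thetaFun ∣[(1 : ℤ)] γ) ∘ ofComplex) (4 : ℝ) := by
  set f := thetaFun ∣[(1 : ℤ)] γ with hf
  have hT4 : (T ^ (4 : ℤ)) ∈ CongruenceSubgroup.Gamma 4 := ModularGroup_T_pow_mem_Gamma 4 4 dvd_rfl
  have hconj : γ * T ^ (4 : ℤ) * γ⁻¹ ∈ Gamma1 4 :=
    Gamma_four_le_Gamma1 ((Gamma_normal 4).conj_mem _ hT4 γ)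
  have hinv : f ∣[(1 : ℤ)] (T ^ (4 : ℤ)) = f := by
    rw [hf, ← SlashAction.slash_mul]
    have : γ * T ^ (4 : ℤ) = (γ * T ^ (4 : ℤ) * γ⁻¹) * γ := by group
    rw [this, SlashAction.slash_mul, thetaFun_slash hconj]
  have hshift : ∀ τ : ℍ, f ((4 : ℝ) +ᵥ τ) = f τ := by
    intro τ
    have h1 := congrFun hinv τ
    rw [SL_slash_apply, UpperHalfPlane.modular_T_zpow_smul] at h1
    have h2 : denom ((T ^ (4 : ℤ) : SL(2, ℤ))) τ = 1 := by
      rw [ModularGroup.denom_apply, coe_T_zpow]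
      simp
    rw [h2, _root_.one_zpow, mul_one] at h1
    simpa using h1
  intro w
  by_cases! hw : 0 < w.im
  · have hw4 : 0 < (w + (4 : ℝ)).im := by simp [hw]
    simp only [Function.comp_apply, ofComplex_apply_of_im_pos hw4, ofComplex_apply_of_im_pos hw]
    rw [← hshift ⟨w, hw⟩]
    congr 1
    ext
    simp [add_comm]
  · have hw4 : (w + ((4 : ℝ) : ℂ)).im ≤ 0 := by simpa using hw
    rw [Function.comp_apply, Function.comp_apply, ofComplex_apply_of_im_nonpos hw4,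
      ofComplex_apply_of_im_nonpos hw]

theorem isBoundedAtImInfty_thetaFun_slash (γ : SL(2, ℤ)) :
    IsBoundedAtImInfty (thetaFun ∣[(1 : ℤ)] γ) := by
  obtain ⟨C, hC⟩ := norm_thetaFun_slash_le γ
  have hmd : MDiff (thetaFun ∣[(1 : ℤ)] γ) := thetaFun_mdiff.slash 1 _
  exact isBoundedAtImInfty_of_growth hmd (by norm_num : (0 : ℝ) < 4) (thetaFun_slash_periodic γ)
    (C := C) (A := 1) hC

/-- **`θ² ∈ M₁(Γ₁(4))`**, `θ(τ) = ∑_{n ∈ ℤ} q^{n²}`. -/
noncomputable def thetaSq : ModularForm (Gamma1 4) 1 where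
  toFun := thetaFun
  slash_action_eq' := by
    intro γ hγ
    obtain ⟨γ', hγ', rfl⟩ := Subgroup.mem_map.mp hγ
    exact thetaFun_slash hγ'
  holo' := thetaFun_mdiff
  bdd_at_cusps' {c} hc := by
    rw [Subgroup.IsArithmetic.isCusp_iff_isCusp_SL2Z] at hc
    rw [OnePoint.isBoundedAt_iff_forall_SL2Z hc]
    exact fun γ _ => isBoundedAtImInfty_thetaFun_slash γ

theorem thetaSq_apply (τ : ℍ) : thetaSq τ = jacobiTheta (2 * (τ : ℂ)) ^ 2 := rfl

/-! ### The `q`-expansion of `θ²` -/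

/-- `θ(τ) = Θ(2τ) = ∑_{n ∈ ℤ} q^{n²}` as a function on `ℍ`. -/
noncomputable def thetaOne (τ : ℍ) : ℂ := jacobiTheta (2 * (τ : ℂ))

/-- The formal theta series `∑_{n ∈ ℤ} q^{n²} = 1 + 2q + 2q⁴ + 2q⁹ + …` over `ℤ`. -/
noncomputable def thetaSeries : PowerSeries ℤ :=
  PowerSeries.mk fun m => if m = 0 then 1 else if IsSquare m then 2 else 0

theorem constantCoeff_thetaSeries : PowerSeries.constantCoeff thetaSeries = 1 := by
  rw [← PowerSeries.coeff_zero_eq_constantCoeff_apply, thetaSeries, PowerSeries.coeff_mk]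
  simp

theorem thetaFun_eq_mul : thetaFun = thetaOne * thetaOne := by
  funext τ
  simp [thetaFun, thetaOne, Q, sq]

theorem hasSum_thetaOne (τ : ℍ) :
    HasSum (fun m : ℕ => ((thetaSeries.coeff m : ℤ) : ℂ) • Function.Periodic.qParam 1 τ ^ m)
      (thetaOne τ) := by
  have hτ : 0 < (2 * (τ : ℂ)).im := by simp [τ.im_pos]
  have h1 := hasSum_nat_jacobiTheta hτ
  set q := Function.Periodic.qParam 1 (τ : ℂ) with hq
  -- the terms are `q ^ ((n+1)^2)`
  have hterm : ∀ n : ℕ, cexp (π * Complex.I * ((n : ℂ) + 1) ^ 2 * (2 * (τ : ℂ))) = q ^ ((n + 1) ^ 2) := by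
    intro n
    rw [hq, Function.Periodic.qParam, ← Complex.exp_nat_mul]
    congr 1
    push_cast
    ring
  simp_rw [hterm] at h1
  -- reindex along `n ↦ (n+1)^2`
  set g : ℕ → ℕ := fun n => (n + 1) ^ 2 with hg
  have hginj : Function.Injective g := by
    intro a b hab
    simp only [hg] at hab
    have := Nat.pow_left_injective (n := 2) (by norm_num) hab
    omega
  set f : ℕ → ℂ := fun m => if IsSquare m ∧ m ≠ 0 then q ^ m else 0 with hf
  have hf0 : ∀ x ∉ Set.range g, f x = 0 := by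
    intro x hx
    simp only [hf]
    rw [if_neg]
    rintro ⟨⟨r, hr⟩, hx0⟩
    apply hx
    have hr0 : r ≠ 0 := by
      rintro rfl
      exact hx0 (by simpa using hr)
    refine ⟨r - 1, ?_⟩
    simp only [hg]
    rw [Nat.sub_add_cancel (Nat.one_le_iff_ne_zero.mpr hr0), hr, sq]
  have hfg : f ∘ g = fun n : ℕ => q ^ ((n + 1) ^ 2) := by
    funext n
    simp only [Function.comp_apply, hf, hg]
    rw [if_pos]
    exact ⟨⟨n + 1, by ring⟩, by positivity⟩
  have h2 : HasSum f ((jacobiTheta (2 * (τ : ℂ)) - 1) / 2) := by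
    rw [← hginj.hasSum_iff hf0, hfg]
    exact h1
  have h3 : HasSum (fun m => 2 * f m) (jacobiTheta (2 * (τ : ℂ)) - 1) := by
    have := h2.mul_left 2
    rwa [mul_div_cancel₀ _ (two_ne_zero)] at this
  have h4 : HasSum (fun m : ℕ => if m = 0 then (1 : ℂ) else 0) 1 := hasSum_ite_eq 0 1
  have h5 := h4.add h3
  rw [add_sub_cancel] at h5
  refine (h5.congr_fun ?_)
  intro m
  rw [thetaSeries, PowerSeries.coeff_mk, smul_eq_mul]
  by_cases hm : m = 0
  · subst hm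
    simp [hf]
  · by_cases hs : IsSquare m
    · simp [hf, hm, hs]
    · simp [hf, hm, hs]

theorem thetaOne_mdiff : MDiff thetaOne := by
  rw [UpperHalfPlane.mdifferentiable_iff]
  intro z hz
  have hz' : 0 < z.im := hz
  have h2 : 0 < (2 * z).im := by simpa using hz'
  have h1 : DifferentiableAt ℂ (fun w : ℂ => jacobiTheta (2 * w)) z :=
    (differentiableAt_jacobiTheta h2).comp z (differentiableAt_id.const_mul 2)
  refine (h1.differentiableWithinAt).congr (fun w hw => ?_) ?_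
  · have hw' : 0 < w.im := hw
    simp [thetaOne, ofComplex_apply_of_im_pos hw']
  · simp [thetaOne, ofComplex_apply_of_im_pos hz']

theorem thetaOne_periodic : Function.Periodic (thetaOne ∘ ofComplex) (1 : ℝ) := by
  intro w
  by_cases! hw : 0 < w.im
  · have hw1 : 0 < (w + ((1 : ℝ) : ℂ)).im := by simp [hw]
    simp only [Function.comp_apply, ofComplex_apply_of_im_pos hw1, ofComplex_apply_of_im_pos hw,
      thetaOne, UpperHalfPlane.coe_mk]
    rw [← jacobiTheta_two_add (2 * w)]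
    congr 1
    push_cast
    ring
  · have hw1 : (w + ((1 : ℝ) : ℂ)).im ≤ 0 := by simpa using hw
    rw [Function.comp_apply, Function.comp_apply, ofComplex_apply_of_im_nonpos hw1,
      ofComplex_apply_of_im_nonpos hw]

theorem analyticAt_cuspFunction_thetaOne : AnalyticAt ℂ (cuspFunction 1 thetaOne) 0 :=
  analyticAt_cuspFunction_zero one_pos thetaOne_periodic thetaOne_mdiff
    (isBoundedAtImInfty_of_hasSum_qExpansion one_pos hasSum_thetaOne)

/-- Uniqueness of `q`-expansion coefficients, for plain functions on `ℍ`. -/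
theorem qExpansion_coeff_of_hasSum {f : ℍ → ℂ} {c : ℕ → ℂ} {h : ℝ} (hh : 0 < h)
    (hfan : AnalyticAt ℂ (cuspFunction h f) 0)
    (hf : ∀ τ : ℍ, HasSum (fun m : ℕ => c m • Function.Periodic.qParam h τ ^ m) (f τ)) (m : ℕ) :
    (qExpansion h f).coeff m = c m := by
  have h1 := (hasFPowerSeriesOnBall_cuspFunction hh hfan hf).hasFPowerSeriesAt
  have h2 := hfan.hasFPowerSeriesAt
  have h3 := h1.eq_formalMultilinearSeries h2
  have h4 := congr_arg (FormalMultilinearSeries.coeff · m) h3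
  simp only [FormalMultilinearSeries.coeff_ofScalars] at h4
  rw [qExpansion_coeff, h4, div_eq_inv_mul]

theorem qExpansion_thetaOne :
    qExpansion 1 thetaOne = thetaSeries.map (Int.castRingHom ℂ) := by
  ext m
  rw [PowerSeries.coeff_map, qExpansion_coeff_of_hasSum one_pos analyticAt_cuspFunction_thetaOne
    hasSum_thetaOne m, eq_intCast]

/-- **The `q`-expansion of `θ²`** is the square of the formal theta series, which has coefficients
in `ℤ` and constant term `1`. -/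
theorem qExpansion_thetaSq :
    qExpansion 1 thetaSq = (thetaSeries ^ 2).map (Int.castRingHom ℂ) := by
  have h1 : (thetaSq : ℍ → ℂ) = thetaOne * thetaOne := thetaFun_eq_mul
  rw [h1, qExpansion_mul analyticAt_cuspFunction_thetaOne analyticAt_cuspFunction_thetaOne,
    qExpansion_thetaOne, map_pow, sq]

theorem constantCoeff_thetaSeries_sq : PowerSeries.constantCoeff (thetaSeries ^ 2) = 1 := by
  rw [map_pow, constantCoeff_thetaSeries, one_pow]

theorem thetaSq_ne_zero : (thetaSq : ℍ → ℂ) ≠ 0 := by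
  intro h
  have h1 : qExpansion 1 (thetaSq : ℍ → ℂ) = 0 := by rw [h]; exact qExpansion_zero 1
  rw [qExpansion_thetaSq] at h1
  have h2 := congrArg (PowerSeries.coeff 0) h1
  rw [PowerSeries.coeff_map, PowerSeries.coeff_zero_eq_constantCoeff_apply,
    constantCoeff_thetaSeries_sq] at h2
  simp at h2

/-- Summary in the shape consumed by (W1-RAT): a nonzero weight one modular form on `Γ₁(4)` whose
`q`-expansion is (the image of) an integral power series with constant term `1`. -/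
theorem exists_weightOne_multiplier :
    ∃ (E : ModularForm (Gamma1 4) 1) (P : PowerSeries ℤ), (E : ℍ → ℂ) ≠ 0 ∧
      qExpansion 1 E = P.map (Int.castRingHom ℂ) ∧ PowerSeries.constantCoeff P = 1 :=
  ⟨thetaSq, thetaSeries ^ 2, thetaSq_ne_zero, qExpansion_thetaSq, constantCoeff_thetaSeries_sq⟩

end Fermat.Agent.M48.ThetaSq5
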