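/-
M48 (helper5), block (P2) Rankin-lite: the density consequences.

* `summable_subtype_and_tsum_le`: a bound on all finite partial sums inside a set gives summability
  and the same bound for the `tsum` over the subtype;
* `markov`: `∑_{p ∈ S, c < ‖b p‖²} p^{-s} ≤ (1/c) ∑_{p ∈ S} ‖b p‖² p^{-s}`;
* `sparse`: **(SPARSE)** of Deligne–Serre: if the `a_p` (`p ∤ N`) are integers of a number field
  `K ↪ ℂ` and Rankin-lite holds for every conjugate, then for every `η > 0` there is a finite set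
  `Y ⊆ ℂ` such that `{p : p ∤ N, a_p ∉ Y}` has upper Dirichlet density `≤ η`, in the explicit form
  `∑' p : {p | ...}, p^{-s} ≤ η log (1/(s-1)) + C` for `1 < s ≤ 2`.
Mathlib only.
-/
import Mathlib

set_option autoImplicit false

namespace Fermat.Agent.M48.RankinSparse5

open Finset

/-- Bounded finite partial sums inside `P` give summability on the subtype and the bound for the
`tsum`. -/
theorem summable_subtype_and_tsum_le {f : ℕ → ℝ} (hf : ∀ n, 0 ≤ f n) (P : Set ℕ) {B : ℝ}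
    (h : ∀ S : Finset ℕ, (∀ p ∈ S, p ∈ P) → ∑ p ∈ S, f p ≤ B) :
    Summable (fun p : P => f p) ∧ ∑' p : P, f p ≤ B := by
  have key : ∀ u : Finset P, ∑ x ∈ u, f x ≤ B := by
    intro u
    have := h (u.map (Function.Embedding.subtype _)) (by
      intro p hp
      rw [mem_map] at hp
      obtain ⟨x, _, rfl⟩ := hp
      exact x.2)
    rwa [sum_map] at this
  exact ⟨summable_of_sum_le (fun x => hf x) key, Real.tsum_le_of_sum_le (fun x => hf x) key⟩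

/-- `log (1/(s-1)) ≥ 0` on `(1, 2]`. -/
theorem lg_nonneg {s : ℝ} (h1 : 1 < s) (h2 : s ≤ 2) : 0 ≤ Real.log (1 / (s - 1)) := by
  apply Real.log_nonneg
  rw [le_div_iff₀ (by linarith)]
  linarith

/-- Markov's inequality for the prime sums. -/
theorem markov {b : ℕ → ℝ} (hb : ∀ n, 0 ≤ b n) {c : ℝ} (hc : 0 < c) (s : ℝ) (S : Finset ℕ)
    [DecidablePred fun p => c < b p] :
    ∑ p ∈ S.filter (fun p => c < b p), (p : ℝ) ^ (-s) ≤
      (1 / c) * ∑ p ∈ S, b p * (p : ℝ) ^ (-s) := by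
  rw [mul_sum]
  calc ∑ p ∈ S.filter (fun p => c < b p), (p : ℝ) ^ (-s)
      ≤ ∑ p ∈ S.filter (fun p => c < b p), 1 / c * (b p * (p : ℝ) ^ (-s)) := by
        refine sum_le_sum fun p hp => ?_
        rw [mem_filter] at hp
        have h0 : 0 ≤ (p : ℝ) ^ (-s) := Real.rpow_nonneg (Nat.cast_nonneg p) _
        have h1 : 1 ≤ 1 / c * b p := by
          rw [one_div, ← div_eq_inv_mul, le_div_iff₀ hc]
          linarith [hp.2]
        calc (p : ℝ) ^ (-s) = 1 * (p : ℝ) ^ (-s) := (one_mul _).symm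
          _ ≤ (1 / c * b p) * (p : ℝ) ^ (-s) := mul_le_mul_of_nonneg_right h1 h0
          _ = _ := by ring
    _ ≤ ∑ p ∈ S, 1 / c * (b p * (p : ℝ) ^ (-s)) := by
        apply sum_le_sum_of_subset_of_nonneg (filter_subset _ _)
        intro p _ _
        have h0 : 0 ≤ (p : ℝ) ^ (-s) := Real.rpow_nonneg (Nat.cast_nonneg p) _
        have := hb p
        positivity

variable {K : Type*} [Field K] [NumberField K]

/-- **(SPARSE)**. -/
theorem sparse (ι : K →+* ℂ) {N : ℕ} (a : ℕ → ℂ) (b : ℕ → K)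
    (hb : ∀ p : ℕ, p.Prime → ¬ p ∣ N → IsIntegral ℤ (b p) ∧ ι (b p) = a p)
    (hR : ∀ σ : K →+* ℂ, ∃ C : ℝ, ∀ s : ℝ, 1 < s → s ≤ 2 → ∀ S : Finset ℕ,
      (∀ p ∈ S, p.Prime ∧ ¬ p ∣ N) →
        ∑ p ∈ S, ‖σ (b p)‖ ^ 2 * (p : ℝ) ^ (-s) ≤ Real.log (1 / (s - 1)) + C)
    {η : ℝ} (hη : 0 < η) :
    ∃ Y : Finset ℂ, ∃ C : ℝ, ∀ s : ℝ, 1 < s → s ≤ 2 →
      Summable (fun p : {p : ℕ | p.Prime ∧ ¬ p ∣ N ∧ a p ∉ Y} => ((p : ℕ) : ℝ) ^ (-s)) ∧
      ∑' p : {p : ℕ | p.Prime ∧ ¬ p ∣ N ∧ a p ∉ Y}, ((p : ℕ) : ℝ) ^ (-s) ≤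
        η * Real.log (1 / (s - 1)) + C := by
  classical
  set d : ℕ := Fintype.card (K →+* ℂ) with hd
  set c : ℝ := ((d : ℝ) + 1) / η with hc
  have hcpos : 0 < c := by positivity
  -- the finite set of integers with small conjugates
  have hfin := NumberField.Embeddings.finite_of_norm_le K ℂ (Real.sqrt c)
  set Y : Finset ℂ := hfin.toFinset.image ι with hY
  choose Cσ hCσ using hR
  refine ⟨Y, (1 / c) * ∑ σ : K →+* ℂ, Cσ σ, fun s hs1 hs2 => ?_⟩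
  have hlg := lg_nonneg hs1 hs2
  apply summable_subtype_and_tsum_le (fun n => Real.rpow_nonneg (Nat.cast_nonneg n) _)
  intro S hS
  -- every `p ∈ S` has a large conjugate
  have hbig : ∀ p ∈ S, ∃ σ : K →+* ℂ, c < ‖σ (b p)‖ ^ 2 := by
    intro p hp
    obtain ⟨hpp, hpN, hpY⟩ := hS p hp
    obtain ⟨hint, hιb⟩ := hb p hpp hpN
    by_contra hcon
    push Not at hcon
    apply hpY
    rw [hY, mem_image]
    refine ⟨b p, ?_, hιb⟩
    rw [Set.Finite.mem_toFinset]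
    refine ⟨hint, fun φ => ?_⟩
    have := hcon φ
    calc ‖φ (b p)‖ = Real.sqrt (‖φ (b p)‖ ^ 2) := (Real.sqrt_sq (norm_nonneg _)).symm
      _ ≤ Real.sqrt c := Real.sqrt_le_sqrt this
  have hSprime : ∀ p ∈ S, p.Prime ∧ ¬ p ∣ N := fun p hp => ⟨(hS p hp).1, (hS p hp).2.1⟩
  -- cover `S` by the Markov sets
  have hcover : ∑ p ∈ S, (p : ℝ) ^ (-s) ≤
      ∑ σ : K →+* ℂ, ∑ p ∈ S.filter (fun p => c < ‖σ (b p)‖ ^ 2), (p : ℝ) ^ (-s) := by
    have h1 : ∀ p ∈ S, (p : ℝ) ^ (-s) ≤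
        ∑ σ : K →+* ℂ, if c < ‖σ (b p)‖ ^ 2 then (p : ℝ) ^ (-s) else 0 := by
      intro p hp
      obtain ⟨σ, hσ⟩ := hbig p hp
      have h0 : 0 ≤ (p : ℝ) ^ (-s) := Real.rpow_nonneg (Nat.cast_nonneg p) _
      have := single_le_sum (f := fun τ : K →+* ℂ => if c < ‖τ (b p)‖ ^ 2 then (p : ℝ) ^ (-s) else 0)
        (fun τ _ => by split_ifs <;> [exact h0; exact le_rfl]) (mem_univ σ)
      simpa [hσ] using this
    calc ∑ p ∈ S, (p : ℝ) ^ (-s)
        ≤ ∑ p ∈ S, ∑ σ : K →+* ℂ, if c < ‖σ (b p)‖ ^ 2 then (p : ℝ) ^ (-s) else 0 :=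
          sum_le_sum h1
      _ = ∑ σ : K →+* ℂ, ∑ p ∈ S, if c < ‖σ (b p)‖ ^ 2 then (p : ℝ) ^ (-s) else 0 := sum_comm
      _ = _ := by
          refine sum_congr rfl fun σ _ => ?_
          rw [sum_filter]
  have hσ : ∀ σ : K →+* ℂ, ∑ p ∈ S.filter (fun p => c < ‖σ (b p)‖ ^ 2), (p : ℝ) ^ (-s) ≤
      (1 / c) * (Real.log (1 / (s - 1)) + Cσ σ) := by
    intro σ
    refine le_trans (markov (b := fun p => ‖σ (b p)‖ ^ 2) (fun n => by positivity) hcpos s S) ?_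
    exact mul_le_mul_of_nonneg_left (hCσ σ s hs1 hs2 S hSprime) (by positivity)
  calc ∑ p ∈ S, (p : ℝ) ^ (-s)
      ≤ ∑ σ : K →+* ℂ, (1 / c) * (Real.log (1 / (s - 1)) + Cσ σ) :=
        le_trans hcover (sum_le_sum fun σ _ => hσ σ)
    _ = (d : ℝ) / c * Real.log (1 / (s - 1)) + (1 / c) * ∑ σ : K →+* ℂ, Cσ σ := by
        rw [← mul_sum, sum_add_distrib, sum_const, card_univ, nsmul_eq_mul]
        ring
    _ ≤ η * Real.log (1 / (s - 1)) + (1 / c) * ∑ σ : K →+* ℂ, Cσ σ := by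
        have hdc : (d : ℝ) / c ≤ η := by
          rw [hc, div_div_eq_mul_div, div_le_iff₀ (by positivity)]
          nlinarith
        have := mul_le_mul_of_nonneg_right hdc hlg
        linarith

end Fermat.Agent.M48.RankinSparse5
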