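/-
M48 (helper5), block (W1-RAT), the QUOTIENT LEMMA of the square trick.

For `σ ∈ Aut(ℂ)` and `f` of weight one, put `g := (f·E)^σ`, `G := (f²)^σ` (weight two, where
rationality of the space is known) with ONE multiplier `E` of weight one with rational
`q`-expansion (e.g. `E = θ²`).  Then `g² = G·E²`, and this file shows that `g / E` is a weight one
CUSP form, with no hypothesis on the zeros of `E`:

* `differentiableOn_quot`, `quot_mul`, `quot_sq`: analytic core on a connected open `U ⊆ ℂ`: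
  `g² = G·E²`, `E ≢ 0` ⇒ `quot g E` (`g/E` off the zeros of `E`, the limit at the zeros) is
  holomorphic on `U` with `quot·E = g`, `quot² = G` (the quotient is bounded near a zero of `E`
  because its square is `G`; Riemann's removable singularity theorem);
* `dense_ne_zero`: the nonvanishing locus of a nonzero holomorphic function on `ℍ` is dense;
* `isZeroAtImInfty_of_sq`: `f² → 0` at `i∞` ⇒ `f → 0` at `i∞`;
* `exists_cuspForm_mul_eq'` (`[Γ.HasDetPlusMinusOne]`): `∃ h : CuspForm Γ 1, h·E = g ∧ h² = G`;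
* `exists_cuspForm_mul_eq` (`[Γ.IsArithmetic]`, the literal interface form);
* `exists_cuspForm_qExpansion_mul_eq`: moreover `qExpansion p h * qExpansion p E = qExpansion p g`.
Mathlib only.
-/
import Mathlib

set_option autoImplicit false

namespace Fermat.Agent.M48.QuotForm5

open Complex Filter Topology Function

/-- Zeros of a nonzero holomorphic function on a preconnected open set are isolated. -/
theorem eventually_ne_zero_of_differentiableOn {U : Set ℂ} (hU : IsOpen U)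
    (hUc : IsPreconnected U) {E : ℂ → ℂ} (hE : DifferentiableOn ℂ E U)
    (hE0 : ∃ z ∈ U, E z ≠ 0) {z₀ : ℂ} (hz₀ : z₀ ∈ U) :
    ∀ᶠ w in 𝓝[≠] z₀, E w ≠ 0 := by
  have hEa : AnalyticOnNhd ℂ E U := hE.analyticOnNhd hU
  rcases (hEa z₀ hz₀).eventually_eq_zero_or_eventually_ne_zero with h | h
  · exfalso
    obtain ⟨z, hz, hz0⟩ := hE0
    exact hz0 (hEa.eqOn_zero_of_preconnected_of_eventuallyEq_zero hUc hz₀ h hz)
  · exact h

open Classical in
/-- The candidate quotient: `g / E` off the zeros of `E`, the limit of `g / E` at the zeros. -/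
noncomputable def quot (g E : ℂ → ℂ) (z : ℂ) : ℂ :=
  if E z = 0 then limUnder (𝓝[≠] z) (fun w => g w / E w) else g z / E z

theorem quot_of_ne {g E : ℂ → ℂ} {z : ℂ} (h : E z ≠ 0) : quot g E z = g z / E z := by
  simp [quot, h]

theorem quot_of_eq {g E : ℂ → ℂ} {z : ℂ} (h : E z = 0) :
    quot g E z = limUnder (𝓝[≠] z) (fun w => g w / E w) := by
  simp [quot, h]

/-- **Square-root quotient, analytic core.**  If `g² = G·E²` on a connected open set with `E ≢ 0`,
then `g / E` extends to a holomorphic function `h` with `h·E = g` and `h² = G`: at a zero of `E`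
the quotient is bounded (its square is `G`), so Riemann's removable singularity theorem applies. -/
theorem differentiableOn_quot {U : Set ℂ} (hU : IsOpen U) (hUc : IsPreconnected U)
    {E g G : ℂ → ℂ} (hE : DifferentiableOn ℂ E U) (hg : DifferentiableOn ℂ g U)
    (hG : DifferentiableOn ℂ G U) (hE0 : ∃ z ∈ U, E z ≠ 0)
    (hsq : ∀ z ∈ U, g z ^ 2 = G z * E z ^ 2) :
    DifferentiableOn ℂ (quot g E) U := by
  intro z₀ hz₀
  apply DifferentiableAt.differentiableWithinAt
  have hUn : U ∈ 𝓝 z₀ := hU.mem_nhds hz₀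
  by_cases hz : E z₀ = 0
  · -- removable singularity
    have hne := eventually_ne_zero_of_differentiableOn hU hUc hE hE0 hz₀
    rw [eventually_nhdsWithin_iff] at hne
    have hGb : ∀ᶠ w in 𝓝 z₀, ‖G w‖ < ‖G z₀‖ + 1 :=
      ((hG.continuousOn.continuousAt hUn).norm).eventually_lt tendsto_const_nhds (by simp)
    obtain ⟨s, hs, hsO, hzs⟩ := eventually_nhds_iff.mp ((hne.and hGb).and hUn)
    have hsn : s ∈ 𝓝 z₀ := hsO.mem_nhds hzs
    set q : ℂ → ℂ := fun w => g w / E w with hq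
    have hqd : DifferentiableOn ℂ q (s \ {z₀}) := by
      intro w hw
      have hwU : w ∈ U := (hs w hw.1).2
      have hw0 : E w ≠ 0 := (hs w hw.1).1.1 hw.2
      exact ((hg.differentiableAt (hU.mem_nhds hwU)).div (hE.differentiableAt (hU.mem_nhds hwU))
        hw0).differentiableWithinAt
    have hqb : BddAbove (norm ∘ q '' (s \ {z₀})) := by
      refine ⟨‖G z₀‖ + 1 + 1, ?_⟩
      rintro _ ⟨w, hw, rfl⟩
      have hwU : w ∈ U := (hs w hw.1).2
      have hw0 : E w ≠ 0 := (hs w hw.1).1.1 hw.2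
      have hGw : ‖G w‖ < ‖G z₀‖ + 1 := (hs w hw.1).1.2
      have h2 : q w ^ 2 = G w := by
        simp only [hq, div_pow, hsq w hwU]
        field_simp
      have h3 : ‖q w‖ ^ 2 = ‖G w‖ := by rw [← norm_pow, h2]
      simp only [comp_apply]
      nlinarith [norm_nonneg (q w), norm_nonneg (G w)]
    have hd := differentiableOn_update_limUnder_of_bddAbove hsn hqd hqb
    have heq : quot g E =ᶠ[𝓝 z₀] update q z₀ (limUnder (𝓝[≠] z₀) q) := by
      filter_upwards [hsn] with w hw
      by_cases hwz : w = z₀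
      · subst hwz
        rw [update_self, quot_of_eq hz]
      · rw [update_of_ne hwz, quot_of_ne ((hs w hw).1.1 hwz)]
    exact (hd.differentiableAt hsn).congr_of_eventuallyEq heq
  · have hEc : ContinuousAt E z₀ := hE.continuousOn.continuousAt hUn
    have hne : ∀ᶠ w in 𝓝 z₀, E w ≠ 0 := hEc.eventually_ne hz
    have heq : quot g E =ᶠ[𝓝 z₀] fun w => g w / E w := by
      filter_upwards [hne] with w hw
      exact quot_of_ne hw
    exact ((hg.differentiableAt hUn).div (hE.differentiableAt hUn) hz).congr_of_eventuallyEq heq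

theorem quot_mul {U : Set ℂ} {E g G : ℂ → ℂ} (hsq : ∀ z ∈ U, g z ^ 2 = G z * E z ^ 2)
    {z : ℂ} (hz : z ∈ U) : quot g E z * E z = g z := by
  by_cases h : E z = 0
  · have : g z ^ 2 = 0 := by rw [hsq z hz, h]; simp
    rw [h, mul_zero, eq_comm]
    exact pow_eq_zero_iff (two_ne_zero) |>.mp this
  · rw [quot_of_ne h, div_mul_cancel₀ _ h]

theorem quot_sq {U : Set ℂ} (hU : IsOpen U) (hUc : IsPreconnected U)
    {E g G : ℂ → ℂ} (hE : DifferentiableOn ℂ E U) (hg : DifferentiableOn ℂ g U)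
    (hG : DifferentiableOn ℂ G U) (hE0 : ∃ z ∈ U, E z ≠ 0)
    (hsq : ∀ z ∈ U, g z ^ 2 = G z * E z ^ 2) {z : ℂ} (hz : z ∈ U) :
    quot g E z ^ 2 = G z := by
  have hUn : U ∈ 𝓝 z := hU.mem_nhds hz
  have hne := eventually_ne_zero_of_differentiableOn hU hUc hE hE0 hz
  have hd := differentiableOn_quot hU hUc hE hg hG hE0 hsq
  have h1 : Tendsto (fun w => quot g E w ^ 2) (𝓝[≠] z) (𝓝 (quot g E z ^ 2)) :=
    (((hd.differentiableAt hUn).continuousAt.pow 2).tendsto).mono_left nhdsWithin_le_nhds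
  have h2 : Tendsto G (𝓝[≠] z) (𝓝 (G z)) :=
    ((hG.differentiableAt hUn).continuousAt.tendsto).mono_left nhdsWithin_le_nhds
  refine tendsto_nhds_unique_of_eventuallyEq h1 h2 ?_
  filter_upwards [hne, mem_nhdsWithin_of_mem_nhds hUn] with w hw hwU
  have := quot_mul hsq hwU
  have h3 : (quot g E w * E w) ^ 2 = G w * E w ^ 2 := by rw [this, hsq w hwU]
  rw [mul_pow] at h3
  exact mul_right_cancel₀ (pow_ne_zero 2 hw) h3

/-! ### Modular forms -/

open UpperHalfPlane hiding I
open ModularForm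
open scoped Manifold MatrixGroups

/-- The non-vanishing locus of a nonzero holomorphic function on `ℍ` is dense. -/
theorem dense_ne_zero {E : ℍ → ℂ} (hE : MDiff E) (hE0 : E ≠ 0) : Dense {τ : ℍ | E τ ≠ 0} := by
  have hEd : DifferentiableOn ℂ (E ∘ ofComplex) upperHalfPlaneSet :=
    UpperHalfPlane.mdifferentiable_iff.mp hE
  have hE0' : ∃ z ∈ upperHalfPlaneSet, (E ∘ ofComplex) z ≠ 0 := by
    by_contra hcon
    push Not at hcon
    apply hE0
    funext τ
    have := hcon τ τ.im_pos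
    simpa using this
  intro τ
  rw [mem_closure_iff_frequently]
  have h1 := eventually_ne_zero_of_differentiableOn isOpen_upperHalfPlaneSet
    (convex_halfSpace_im_gt 0).isPreconnected hEd hE0' τ.im_pos
  have h2 : ∃ᶠ w in 𝓝 (τ : ℂ), (E ∘ ofComplex) w ≠ 0 :=
    h1.frequently.filter_mono nhdsWithin_le_nhds
  rw [← UpperHalfPlane.isOpenEmbedding_coe.map_nhds_eq, frequently_map] at h2
  simpa using h2

/-- If `f² → 0` at `i∞` then `f → 0` at `i∞`. -/
theorem isZeroAtImInfty_of_sq {f : ℍ → ℂ} (hf : IsZeroAtImInfty (fun τ => f τ ^ 2)) :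
    IsZeroAtImInfty f := by
  rw [IsZeroAtImInfty, ZeroAtFilter, tendsto_zero_iff_norm_tendsto_zero] at hf ⊢
  have h1 := hf.sqrt
  simpa [norm_pow, Real.sqrt_sq (norm_nonneg _)] using h1

/-- **Square-root quotient of modular forms.**  Let `E` be a nonzero weight one modular form and
`g`, `G` weight two cusp forms on `Γ` with `g² = G·E²`.  Then `g / E` is a weight one *cusp* form:
it is holomorphic because its square `G` is (removable singularities at the zeros of `E`),
it is slash invariant as a quotient, and it vanishes at every cusp because its square does.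
Nothing is assumed on the zeros of `E`. -/
theorem exists_cuspForm_mul_eq' {Γ : Subgroup (GL (Fin 2) ℝ)} [Γ.HasDetPlusMinusOne]
    (E : ModularForm Γ 1) (hE : (E : ℍ → ℂ) ≠ 0) (g G : CuspForm Γ 2)
    (hsq : ∀ τ, g τ ^ 2 = G τ * E τ ^ 2) :
    ∃ h : CuspForm Γ 1, (∀ τ, h τ * E τ = g τ) ∧ ∀ τ, h τ ^ 2 = G τ := by
  have hUo := isOpen_upperHalfPlaneSet
  have hUc : IsPreconnected upperHalfPlaneSet := (convex_halfSpace_im_gt 0).isPreconnected
  have hEd : DifferentiableOn ℂ (E ∘ ofComplex) upperHalfPlaneSet :=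
    UpperHalfPlane.mdifferentiable_iff.mp E.holo'
  have hgd : DifferentiableOn ℂ (g ∘ ofComplex) upperHalfPlaneSet :=
    UpperHalfPlane.mdifferentiable_iff.mp g.holo'
  have hGd : DifferentiableOn ℂ (G ∘ ofComplex) upperHalfPlaneSet :=
    UpperHalfPlane.mdifferentiable_iff.mp G.holo'
  have hE0 : ∃ z ∈ upperHalfPlaneSet, (E ∘ ofComplex) z ≠ 0 := by
    by_contra hcon
    push Not at hcon
    apply hE
    funext τ
    have := hcon τ τ.im_pos
    simpa using this
  have hsqC : ∀ z ∈ upperHalfPlaneSet,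
      (g ∘ ofComplex) z ^ 2 = (G ∘ ofComplex) z * (E ∘ ofComplex) z ^ 2 := fun z _ => hsq _
  set h : ℍ → ℂ := fun τ => quot (g ∘ ofComplex) (E ∘ ofComplex) (τ : ℂ) with hh
  have hmul : ∀ τ, h τ * E τ = g τ := fun τ => by
    have := quot_mul hsqC τ.im_pos
    simpa [hh] using this
  have hsq' : ∀ τ, h τ ^ 2 = G τ := fun τ => by
    have := quot_sq hUo hUc hEd hgd hGd hE0 hsqC τ.im_pos
    simpa [hh] using this
  have hholo : MDiff h := by
    rw [UpperHalfPlane.mdifferentiable_iff]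
    refine (differentiableOn_quot hUo hUc hEd hgd hGd hE0 hsqC).congr fun z hz => ?_
    simp [hh, ofComplex_apply_of_im_pos hz]
  have hinv : ∀ γ ∈ Γ, h ∣[(1 : ℤ)] γ = h := by
    intro γ hγ
    have h1 : (h * ⇑E) ∣[(1 : ℤ) + 1] γ = |(γ.det : ℝ)| • (h ∣[(1 : ℤ)] γ * ⇑E ∣[(1 : ℤ)] γ) :=
      mul_slash 1 1 γ h E
    have h2 : h * ⇑E = ⇑g := funext hmul
    have h3 : (⇑g) ∣[(1 : ℤ) + 1] γ = ⇑g := g.slash_action_eq' γ hγ
    have h4 : (⇑E) ∣[(1 : ℤ)] γ = ⇑E := E.slash_action_eq' γ hγ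
    rw [h2, h3, h4, Subgroup.HasDetPlusMinusOne.abs_det hγ, one_smul] at h1
    refine Continuous.ext_on (dense_ne_zero E.holo' hE) (hholo.slash 1 γ).continuous
      hholo.continuous fun τ hτ => ?_
    have h5 := congrFun h1 τ
    simp only [Pi.mul_apply] at h5
    exact mul_right_cancel₀ hτ (h5.symm.trans (hmul τ).symm)
  have hzero : ∀ {c : OnePoint ℝ}, IsCusp c Γ → c.IsZeroAt h 1 := by
    intro c hc γ hγ
    have h1 : (h * h) ∣[(1 : ℤ) + 1] γ = |(γ.det : ℝ)| • (h ∣[(1 : ℤ)] γ * h ∣[(1 : ℤ)] γ) :=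
      mul_slash 1 1 γ h h
    have h2 : h * h = ⇑G := funext fun τ => by rw [Pi.mul_apply, ← sq, hsq']
    have h3 : IsZeroAtImInfty ((⇑G) ∣[(1 : ℤ) + 1] γ) := G.zero_at_cusps' hc γ hγ
    rw [h2] at h1
    apply isZeroAtImInfty_of_sq
    have hdet : |(γ.det : ℝ)| ≠ 0 := abs_ne_zero.mpr (Matrix.GeneralLinearGroup.det_ne_zero γ)
    have h4 : (fun τ => (h ∣[(1 : ℤ)] γ) τ ^ 2) = |(γ.det : ℝ)|⁻¹ • ((⇑G) ∣[(1 : ℤ) + 1] γ) := by
      rw [h1, smul_smul, inv_mul_cancel₀ hdet, one_smul]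
      funext τ
      simp [sq]
    rw [h4]
    exact h3.smul _
  exact ⟨{ toFun := h, slash_action_eq' := hinv, holo' := hholo, zero_at_cusps' := hzero },
    hmul, hsq'⟩

/-- The literal interface form of `exists_cuspForm_mul_eq'`. -/
theorem exists_cuspForm_mul_eq {Γ : Subgroup (GL (Fin 2) ℝ)} [Γ.IsArithmetic]
    (E : ModularForm Γ 1) (hE : (E : ℍ → ℂ) ≠ 0) (g G : CuspForm Γ 2)
    (hsq : ∀ τ, g τ ^ 2 = G τ * E τ ^ 2) :
    ∃ h : CuspForm Γ 1, ∀ τ, h τ * E τ = g τ := by
  obtain ⟨h, hh, -⟩ := exists_cuspForm_mul_eq' E hE g G hsq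
  exact ⟨h, hh⟩

/-- `q`-expansion form: the quotient has `q`-expansion `qExp g / qExp E`. -/
theorem exists_cuspForm_qExpansion_mul_eq {Γ : Subgroup (GL (Fin 2) ℝ)} [Γ.HasDetPlusMinusOne]
    (E : ModularForm Γ 1) (hE : (E : ℍ → ℂ) ≠ 0) (g G : CuspForm Γ 2)
    (hsq : ∀ τ, g τ ^ 2 = G τ * E τ ^ 2) {p : ℝ} (hp : 0 < p) (hpΓ : p ∈ Γ.strictPeriods) :
    ∃ h : CuspForm Γ 1, (∀ τ, h τ * E τ = g τ) ∧
      qExpansion p h * qExpansion p E = qExpansion p g := by
  obtain ⟨h, hh, -⟩ := exists_cuspForm_mul_eq' E hE g G hsq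
  refine ⟨h, hh, ?_⟩
  rw [← ModularForm.qExpansion_mul_coe hp hpΓ h E]
  congr 1
  exact funext hh

end Fermat.Agent.M48.QuotForm5
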