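/-
M48 (lead), leaf (W1-RAT): **generic form-level tools** for a subgroup `Γ` of `GL(2, ℝ)` with
strict period `1`.

* `qExpLin` : the `q`-expansion (in `q = e^{2πiτ}`) as a `ℂ`-linear map `CuspForm Γ k → ℂ⟦X⟧`;
* `toMF` : a cusp form as a modular form; `restrictMF`, `restrictCF` : restriction to a subgroup;
* `coe_eq_of_qExpansion_eq` : two products of forms with the same `q`-expansion are equal
  (function level, through the Prelude's `UpperHalfPlane.eq_of_forall_qCoeff_eq`);
* `mulCF`, `sqCF` : the weight two cusp forms `f·E` and `f²` attached to a weight one cusp form `f`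
  and a weight one modular form `E`, with their `q`-expansions.
Mathlib + Prelude only.
-/
import Mathlib
import Fermat.Prelude.Def_FLTPrelim_Modularity
import Fermat.Prelude.Thm_UpperHalfPlane_eq_of_forall_qCoeff_eq

set_option autoImplicit false
set_option linter.style.haveILetI false

open UpperHalfPlane ModularForm ModularFormClass
open scoped MatrixGroups ModularForm Manifold

noncomputable section

namespace Fermat.Agent.M48.W1Forms0

variable {Γ : Subgroup (GL (Fin 2) ℝ)} {k : ℤ}

/-- the three analytic properties of a form on a group with strict period `1`. -/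
structure Nice0 (F : ℍ → ℂ) : Prop where
  per : Function.Periodic (F ∘ ofComplex) 1
  hol : MDiff F
  bdd : IsBoundedAtImInfty F

theorem Nice0.analyticAt {F : ℍ → ℂ} (hF : Nice0 F) : AnalyticAt ℂ (cuspFunction 1 F) 0 :=
  analyticAt_cuspFunction_zero one_pos hF.per hF.hol hF.bdd

theorem Nice0.mul {F G : ℍ → ℂ} (hF : Nice0 F) (hG : Nice0 G) : Nice0 (F * G) where
  per := fun z => by
    have h1 := hF.per z
    have h2 := hG.per z
    simp only [Function.comp_apply, Pi.mul_apply] at h1 h2 ⊢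
    rw [h1, h2]
  hol := hF.hol.mul hG.hol
  bdd := hF.bdd.mul hG.bdd

theorem Nice0.qExpansion_mul {F G : ℍ → ℂ} (hF : Nice0 F) (hG : Nice0 G) :
    qExpansion 1 (F * G) = qExpansion 1 F * qExpansion 1 G :=
  UpperHalfPlane.qExpansion_mul hF.analyticAt hG.analyticAt

/-- equal `q`-expansions give equal functions. -/
theorem Nice0.ext {F G : ℍ → ℂ} (hF : Nice0 F) (hG : Nice0 G)
    (h : qExpansion 1 F = qExpansion 1 G) : F = G :=
  UpperHalfPlane.eq_of_forall_qCoeff_eq hF.per hF.hol hF.bdd hG.per hG.hol hG.bdd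
    fun n => by unfold ModularFormClass.qCoeff; rw [h]

theorem nice0_of_form (h1 : (1 : ℝ) ∈ Γ.strictPeriods) {F : Type*} [FunLike F ℍ ℂ]
    [ModularFormClass F Γ k] (f : F) : Nice0 (f : ℍ → ℂ) where
  per := SlashInvariantFormClass.periodic_comp_ofComplex f h1
  hol := ModularFormClass.holo f
  bdd := by
    haveI : Fact (IsCusp OnePoint.infty Γ) := ⟨Γ.isCusp_of_mem_strictPeriods one_pos h1⟩
    exact ModularFormClass.bdd_at_infty f

/-- the `q`-expansion as a linear map on cusp forms. -/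
def qExpLin [Γ.HasDetOne] (h1 : (1 : ℝ) ∈ Γ.strictPeriods) (k : ℤ) : CuspForm Γ k →ₗ[ℂ] PowerSeries ℂ where
  toFun f := qExpansion 1 f
  map_add' f g := ModularForm.qExpansion_add one_pos h1 f g
  map_smul' c f := ModularForm.qExpansion_smul one_pos h1 c f

@[simp] theorem qExpLin_apply [Γ.HasDetOne] (h1 : (1 : ℝ) ∈ Γ.strictPeriods) (f : CuspForm Γ k) :
    qExpLin h1 k f = qExpansion 1 f := rfl

/-- a cusp form as a modular form. -/
def toMF (f : CuspForm Γ k) : ModularForm Γ k where
  toSlashInvariantForm := f.toSlashInvariantForm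
  holo' := f.holo'
  bdd_at_cusps' := fun hc γ hγ => (f.zero_at_cusps' hc γ hγ).boundedAtFilter

@[simp] theorem coe_toMF (f : CuspForm Γ k) : (toMF f : ℍ → ℂ) = f := rfl

/-- restriction of a modular form to a subgroup. -/
def restrictMF {Γ' : Subgroup (GL (Fin 2) ℝ)} (h : Γ' ≤ Γ) (f : ModularForm Γ k) :
    ModularForm Γ' k where
  toFun := f
  slash_action_eq' := fun γ hγ => f.slash_action_eq' γ (h hγ)
  holo' := f.holo'
  bdd_at_cusps' := fun hc => f.bdd_at_cusps' (hc.mono h)

@[simp] theorem coe_restrictMF {Γ' : Subgroup (GL (Fin 2) ℝ)} (h : Γ' ≤ Γ) (f : ModularForm Γ k) :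
    (restrictMF h f : ℍ → ℂ) = f := rfl

/-- restriction of a cusp form to a subgroup. -/
def restrictCF {Γ' : Subgroup (GL (Fin 2) ℝ)} (h : Γ' ≤ Γ) (f : CuspForm Γ k) :
    CuspForm Γ' k where
  toFun := f
  slash_action_eq' := fun γ hγ => f.slash_action_eq' γ (h hγ)
  holo' := f.holo'
  zero_at_cusps' := fun hc => f.zero_at_cusps' (hc.mono h)

@[simp] theorem coe_restrictCF {Γ' : Subgroup (GL (Fin 2) ℝ)} (h : Γ' ≤ Γ) (f : CuspForm Γ k) :
    (restrictCF h f : ℍ → ℂ) = f := rfl

section Products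

variable [Γ.HasDetPlusMinusOne]

/-- `f · E` as a weight two cusp form. -/
def mulCF (f : CuspForm Γ 1) (E : ModularForm Γ 1) : CuspForm Γ 2 :=
  CuspForm.mcast (by norm_num : (1 : ℤ) + 1 = 2) (f.mulModularForm E)

theorem coe_mulCF (f : CuspForm Γ 1) (E : ModularForm Γ 1) :
    (mulCF f E : ℍ → ℂ) = (f : ℍ → ℂ) * (E : ℍ → ℂ) := rfl

theorem qExpansion_mulCF (h1 : (1 : ℝ) ∈ Γ.strictPeriods) (f : CuspForm Γ 1)
    (E : ModularForm Γ 1) :
    qExpansion 1 (mulCF f E) = qExpansion 1 f * qExpansion 1 E := by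
  rw [coe_mulCF]
  exact (nice0_of_form h1 f).qExpansion_mul (nice0_of_form h1 E)

/-- `f²` as a weight two cusp form. -/
def sqCF (f : CuspForm Γ 1) : CuspForm Γ 2 := mulCF f (toMF f)

theorem coe_sqCF (f : CuspForm Γ 1) : (sqCF f : ℍ → ℂ) = (f : ℍ → ℂ) * (f : ℍ → ℂ) := rfl

theorem qExpansion_sqCF (h1 : (1 : ℝ) ∈ Γ.strictPeriods) (f : CuspForm Γ 1) :
    qExpansion 1 (sqCF f) = qExpansion 1 f * qExpansion 1 f := by
  rw [coe_sqCF]
  exact (nice0_of_form h1 f).qExpansion_mul (nice0_of_form h1 f)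

end Products

end Fermat.Agent.M48.W1Forms0
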