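/-
M48 (lead), leaf (W1-RAT): **Zariski specialisation**.

* `exists_algHom_of_finiteType`: a nontrivial algebra of finite type over a field `K` admits a
  `K`-algebra homomorphism to every algebraically closed field over `K` (Zariski's lemma +
  `IsAlgClosed.lift`);
* `exists_ringHom_extending`: the same in `RingHom` form, for a ring homomorphism `σ : K →+* Ω`
  (no `Algebra K Ω` instance needed).

These replace field automorphisms of `ℂ` in the construction of the Galois conjugates of a
weight one form: a (possibly non-injective) specialisation of the finitely generated coefficient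
ring is enough.  Mathlib only.
-/
import Mathlib

set_option autoImplicit false

namespace Fermat.Agent.M48.W1Spec0

/-- **Zariski specialisation.** -/
theorem exists_algHom_of_finiteType (K A Ω : Type*) [Field K] [CommRing A] [Algebra K A]
    [Algebra.FiniteType K A] [Nontrivial A] [Field Ω] [Algebra K Ω] [IsAlgClosed Ω] :
    Nonempty (A →ₐ[K] Ω) := by
  obtain ⟨m, hm⟩ := Ideal.exists_maximal A
  letI := Ideal.Quotient.field m
  haveI : Module.Finite K (A ⧸ m) := finite_of_finite_type_of_isJacobsonRing K (A ⧸ m)
  haveI : Algebra.IsAlgebraic K (A ⧸ m) := Algebra.IsAlgebraic.of_finite K (A ⧸ m)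
  exact ⟨(IsAlgClosed.lift : (A ⧸ m) →ₐ[K] Ω).comp (Ideal.Quotient.mkₐ K m)⟩

/-- Ring homomorphism form: every `σ : K →+* Ω` extends to a nontrivial `K`-algebra of finite
type. -/
theorem exists_ringHom_extending {K A Ω : Type*} [Field K] [CommRing A] [Algebra K A]
    [Algebra.FiniteType K A] [Nontrivial A] [Field Ω] [IsAlgClosed Ω] (σ : K →+* Ω) :
    ∃ s : A →+* Ω, ∀ k : K, s (algebraMap K A k) = σ k := by
  letI : Algebra K Ω := σ.toAlgebra
  obtain ⟨s⟩ := exists_algHom_of_finiteType K A Ω
  exact ⟨s.toRingHom, fun k => s.commutes k⟩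

end Fermat.Agent.M48.W1Spec0
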