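/-
M48 (lead), leaf (W1-RAT), outputs (O1) and (O3) at a generic level `Γ` (subgroup of `GL(2, ℝ)` with
determinant one and strict period `1`) carrying an INTEGRAL weight one multiplier `E`
(`q`-expansion in `1 + qℤ⟦q⟧`) and the weight two integral structure `R2Int Γ`
(`S₂(Γ)` is spanned over `ℂ` by forms with integral `q`-expansion).

* `exists_fg` **(O1)**: all `q`-coefficients of a weight one cusp form `f` on `Γ` lie in a finitely
  generated `ℤ`-submodule of `ℂ`  [`f = (f·E)/E`, `1/E ∈ ℤ⟦q⟧`].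
* `exists_conj` **(O3)**: for a field `K` with `Algebra K ℂ` and any ring homomorphism `σ : K →+* ℂ`
  there are a `K`-subalgebra `A ⊆ ℂ` containing all `q`-coefficients of `f`, a ring homomorphism
  `s : A →+* ℂ` extending `σ`, and a weight one cusp form `fσ` on `Γ` whose `q`-coefficients are the
  images under `s` of those of `f`.  [`A` is generated by the coordinates of `f·E` and `f²` in
  integral weight two forms; `s` is a Zariski specialisation (`W1Spec0`, no automorphisms of `ℂ`);
  `fσ = (f·E)^s / E` is a cusp form because its square is `(f²)^s` (helper5's `QuotForm5`).]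
-/
import Mathlib
import Fermat.Agent.M48.W1Forms0
import Fermat.Agent.M48.W1Spec0
import Fermat.Agent.M48.QuotForm5

set_option autoImplicit false
set_option linter.style.haveILetI false
set_option linter.unusedSectionVars false

open UpperHalfPlane ModularForm ModularFormClass
open scoped MatrixGroups ModularForm Manifold

noncomputable section

namespace Fermat.Agent.M48.W1Conj0

open Fermat.Agent.M48.W1Forms0 Fermat.Agent.M48.W1Spec0 PowerSeries

/-! ### power series algebra -/

theorem map_intCast_comp {A B : Type*} [CommRing A] [CommRing B] (t : A →+* B)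
    (w : PowerSeries ℤ) :
    (w.map (Int.castRingHom A)).map t = w.map (Int.castRingHom B) := by
  ext n
  simp only [PowerSeries.coeff_map, eq_intCast, map_intCast]

/-- The formal core of the square trick. -/
theorem ps_core {A : Type*} [CommRing A] (val s : A →+* ℂ) (hval : Function.Injective val)
    (u : PowerSeries ℤ) (hu : PowerSeries.constantCoeff u = 1)
    (F : PowerSeries ℂ) (P₁ P₂ : PowerSeries A)
    (h₁ : P₁.map val = F * u.map (Int.castRingHom ℂ)) (h₂ : P₂.map val = F * F) :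
    ∃ FA : PowerSeries A, FA.map val = F ∧
      P₁.map s = FA.map s * u.map (Int.castRingHom ℂ) ∧ P₂.map s = FA.map s * FA.map s := by
  have hU : IsUnit u := PowerSeries.isUnit_iff_constantCoeff.mpr (by rw [hu]; exact isUnit_one)
  obtain ⟨w, hw⟩ := hU.exists_right_inv
  have hw' : w * u = 1 := by rw [mul_comm]; exact hw
  set FA : PowerSeries A := P₁ * w.map (Int.castRingHom A) with hFA
  have hFAval : FA.map val = F := by
    rw [hFA, map_mul, h₁, map_intCast_comp, mul_assoc, ← map_mul, hw, map_one, mul_one]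
  have hP₁ : P₁ = FA * u.map (Int.castRingHom A) := by
    rw [hFA, mul_assoc, ← map_mul, hw', map_one, mul_one]
  have hP₂ : P₂ = FA * FA := by
    apply PowerSeries.map_injective val hval
    rw [h₂, map_mul, hFAval]
  refine ⟨FA, hFAval, ?_, ?_⟩
  · conv_lhs => rw [hP₁]
    rw [map_mul, map_intCast_comp]
  · conv_lhs => rw [hP₂]
    rw [map_mul]

/-! ### the weight two input -/

variable {Γ : Subgroup (GL (Fin 2) ℝ)} [Γ.HasDetOne]

/-- cusp forms with integral `q`-expansion. -/
def IntForm (Γ : Subgroup (GL (Fin 2) ℝ)) (k : ℤ) : Set (CuspForm Γ k) :=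
  {g | ∀ n : ℕ, ∃ m : ℤ, (qExpansion 1 g).coeff n = (m : ℂ)}

/-- **(R2)**: `S_k(Γ)` is spanned by forms with integral `q`-expansion (for `Γ = Γ₁(M)`, `k = 2`
this is the `Γ₁` twin of the Prelude's `CuspForm.HasIntegralStructure`). -/
def R2Int (Γ : Subgroup (GL (Fin 2) ℝ)) [Γ.HasDetOne] : Prop :=
  Submodule.span ℂ (IntForm Γ 2) = ⊤

/-- integral power series of an integral form. -/
theorem exists_intSeries {k : ℤ} {g : CuspForm Γ k} (hg : g ∈ IntForm Γ k) :
    ∃ β : PowerSeries ℤ, qExpansion 1 g = β.map (Int.castRingHom ℂ) := by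
  choose m hm using hg
  refine ⟨PowerSeries.mk m, ?_⟩
  ext n
  rw [hm n, PowerSeries.coeff_map, PowerSeries.coeff_mk]
  rfl

/-- every weight two cusp form is a finite combination of integral forms. -/
theorem exists_decomp (hR2 : R2Int Γ) (g : CuspForm Γ 2) :
    ∃ (n : ℕ) (c : Fin n → ℂ) (b : Fin n → CuspForm Γ 2) (β : Fin n → PowerSeries ℤ),
      (∀ i, qExpansion 1 (b i) = (β i).map (Int.castRingHom ℂ)) ∧ g = ∑ i, c i • b i := by
  have hg : g ∈ Submodule.span ℂ (IntForm Γ 2) := by
    rw [hR2]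
    exact Submodule.mem_top
  obtain ⟨n, c, b, hsum⟩ := Submodule.mem_span_set'.mp hg
  choose β hβ using fun i => exists_intSeries (b i).2
  exact ⟨n, c, fun i => (b i : CuspForm Γ 2), β, hβ, hsum.symm⟩

/-- the `q`-expansion of a finite combination. -/
theorem qExpansion_sum (h1 : (1 : ℝ) ∈ Γ.strictPeriods) {n : ℕ} (c : Fin n → ℂ)
    (b : Fin n → CuspForm Γ 2) (β : Fin n → PowerSeries ℤ)
    (hβ : ∀ i, qExpansion 1 (b i) = (β i).map (Int.castRingHom ℂ)) :
    qExpansion 1 (∑ i, c i • b i : CuspForm Γ 2) =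
      ∑ i, c i • (β i).map (Int.castRingHom ℂ) := by
  have := map_sum (qExpLin h1 2) (fun i => c i • b i) Finset.univ
  simp only [qExpLin_apply, map_smul] at this
  rw [this]
  exact Finset.sum_congr rfl fun i _ => by rw [hβ i]

/-- the same combination with coefficients in a ring `A`, mapped to `ℂ`. -/
theorem map_sum_smul {A : Type*} [CommRing A] (t : A →+* ℂ) {n : ℕ} (c : Fin n → A)
    (β : Fin n → PowerSeries ℤ) :
    (∑ i, PowerSeries.C (c i) * (β i).map (Int.castRingHom A)).map t =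
      ∑ i, t (c i) • (β i).map (Int.castRingHom ℂ) := by
  rw [map_sum]
  refine Finset.sum_congr rfl fun i _ => ?_
  rw [map_mul, map_intCast_comp, PowerSeries.map_C, ← PowerSeries.smul_eq_C_mul]

/-! ### (O1) and (O3) -/

/-- the multiplier is not the zero function. -/
theorem coe_ne_zero_of_qExpansion (E : ModularForm Γ 1) (u : PowerSeries ℤ)
    (hu : PowerSeries.constantCoeff u = 1)
    (hE : qExpansion 1 E = u.map (Int.castRingHom ℂ)) : (E : ℍ → ℂ) ≠ 0 := by
  intro h0
  rw [h0, qExpansion_zero] at hE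
  have := congrArg PowerSeries.constantCoeff hE
  rw [map_zero, ← PowerSeries.coeff_zero_eq_constantCoeff_apply, PowerSeries.coeff_map,
    PowerSeries.coeff_zero_eq_constantCoeff_apply, hu] at this
  simp at this

theorem map_u_ne_zero (u : PowerSeries ℤ) (hu : PowerSeries.constantCoeff u = 1) :
    u.map (Int.castRingHom ℂ) ≠ 0 := by
  intro h0
  have := congrArg PowerSeries.constantCoeff h0
  rw [map_zero, ← PowerSeries.coeff_zero_eq_constantCoeff_apply, PowerSeries.coeff_map,
    PowerSeries.coeff_zero_eq_constantCoeff_apply, hu] at this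
  simp at this

/-- **(O1)**: the `q`-coefficients of a weight one cusp form lie in a finitely generated
`ℤ`-module. -/
theorem exists_fg (h1 : (1 : ℝ) ∈ Γ.strictPeriods) (E : ModularForm Γ 1) (u : PowerSeries ℤ)
    (hu : PowerSeries.constantCoeff u = 1)
    (hE : qExpansion 1 E = u.map (Int.castRingHom ℂ)) (hR2 : R2Int Γ) (f : CuspForm Γ 1) :
    ∃ Λ : Submodule ℤ ℂ, Λ.FG ∧ ∀ n, (qExpansion 1 f).coeff n ∈ Λ := by
  obtain ⟨n₁, c, b, β, hβ, hg₁⟩ := exists_decomp hR2 (mulCF f E)
  have hU : IsUnit u := PowerSeries.isUnit_iff_constantCoeff.mpr (by rw [hu]; exact isUnit_one)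
  obtain ⟨w, hw⟩ := hU.exists_right_inv
  refine ⟨Submodule.span ℤ (Set.range c), Submodule.fg_span (Set.finite_range c), fun n => ?_⟩
  have hG : qExpansion 1 f * u.map (Int.castRingHom ℂ) =
      ∑ i, c i • (β i).map (Int.castRingHom ℂ) := by
    rw [← hE, ← qExpansion_mulCF h1, hg₁, qExpansion_sum h1 c b β hβ]
  have hF : qExpansion 1 f =
      (∑ i, c i • (β i).map (Int.castRingHom ℂ)) * w.map (Int.castRingHom ℂ) := by
    rw [← hG, mul_assoc, ← map_mul, hw, map_one, mul_one]
  rw [hF, PowerSeries.coeff_mul]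
  refine Submodule.sum_mem _ fun x _ => ?_
  rw [PowerSeries.coeff_map, eq_intCast, map_sum]
  have hx : ∑ i, (PowerSeries.coeff x.1) (c i • (β i).map (Int.castRingHom ℂ)) ∈
      Submodule.span ℤ (Set.range c) := by
    refine Submodule.sum_mem _ fun i _ => ?_
    rw [PowerSeries.coeff_smul, PowerSeries.coeff_map, eq_intCast, smul_eq_mul, mul_comm,
      ← zsmul_eq_mul]
    exact Submodule.smul_mem _ _ (Submodule.subset_span ⟨i, rfl⟩)
  rw [mul_comm, ← zsmul_eq_mul]
  exact Submodule.smul_mem _ _ hx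

/-- **(O3)**: conjugation of a weight one cusp form along a specialisation of its coefficient
ring extending a given `σ : K →+* ℂ`. -/
theorem exists_conj (h1 : (1 : ℝ) ∈ Γ.strictPeriods) (E : ModularForm Γ 1) (u : PowerSeries ℤ)
    (hu : PowerSeries.constantCoeff u = 1)
    (hE : qExpansion 1 E = u.map (Int.castRingHom ℂ)) (hR2 : R2Int Γ) (f : CuspForm Γ 1)
    {K : Type*} [Field K] [Algebra K ℂ] (σ : K →+* ℂ) :
    ∃ (A : Subalgebra K ℂ) (s : A →+* ℂ), (∀ k : K, s (algebraMap K A k) = σ k) ∧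
      ∃ hmem : ∀ n, (qExpansion 1 f).coeff n ∈ A,
        ∃ fσ : CuspForm Γ 1, ∀ n, (qExpansion 1 fσ).coeff n = s ⟨_, hmem n⟩ := by
  obtain ⟨n₁, c, b, β, hβ, hg₁⟩ := exists_decomp hR2 (mulCF f E)
  obtain ⟨n₂, d, b', β', hβ', hg₂⟩ := exists_decomp hR2 (sqCF f)
  set S : Set ℂ := Set.range c ∪ Set.range d with hS
  have hSfin : S.Finite := (Set.finite_range c).union (Set.finite_range d)
  set A : Subalgebra K ℂ := Algebra.adjoin K S with hA
  haveI : Algebra.FiniteType K A := Algebra.FiniteType.adjoin_of_finite hSfin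
  obtain ⟨s, hs⟩ := exists_ringHom_extending (A := A) σ
  let cA : Fin n₁ → A := fun i => ⟨c i, Algebra.subset_adjoin (Or.inl ⟨i, rfl⟩)⟩
  let dA : Fin n₂ → A := fun j => ⟨d j, Algebra.subset_adjoin (Or.inr ⟨j, rfl⟩)⟩
  let val : A →+* ℂ := A.val.toRingHom
  have hval : Function.Injective val := Subtype.val_injective
  set P₁ : PowerSeries A := ∑ i, PowerSeries.C (cA i) * (β i).map (Int.castRingHom A) with hP₁
  set P₂ : PowerSeries A := ∑ j, PowerSeries.C (dA j) * (β' j).map (Int.castRingHom A) with hP₂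
  have h₁ : P₁.map val = qExpansion 1 f * u.map (Int.castRingHom ℂ) := by
    rw [hP₁, map_sum_smul val cA β, ← hE, ← qExpansion_mulCF h1, hg₁,
      qExpansion_sum h1 c b β hβ]
    rfl
  have h₂ : P₂.map val = qExpansion 1 f * qExpansion 1 f := by
    rw [hP₂, map_sum_smul val dA β', ← qExpansion_sqCF h1, hg₂, qExpansion_sum h1 d b' β' hβ']
    rfl
  obtain ⟨FA, hFA, hs₁, hs₂⟩ := ps_core val s hval u hu (qExpansion 1 f) P₁ P₂ h₁ h₂
  -- the conjugated weight two forms
  set g₁s : CuspForm Γ 2 := ∑ i, s (cA i) • b i with hg₁s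
  set g₂s : CuspForm Γ 2 := ∑ j, s (dA j) • b' j with hg₂s
  have hq₁ : qExpansion 1 g₁s = FA.map s * u.map (Int.castRingHom ℂ) := by
    rw [hg₁s, qExpansion_sum h1 _ b β hβ, ← map_sum_smul s cA β, ← hP₁, hs₁]
  have hq₂ : qExpansion 1 g₂s = FA.map s * FA.map s := by
    rw [hg₂s, qExpansion_sum h1 _ b' β' hβ', ← map_sum_smul s dA β', ← hP₂, hs₂]
  -- the square relation as functions
  have hN₁ := nice0_of_form h1 g₁s
  have hN₂ := nice0_of_form h1 g₂s
  have hNE := nice0_of_form h1 E
  have hfun : (g₁s : ℍ → ℂ) * (g₁s : ℍ → ℂ) =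
      (g₂s : ℍ → ℂ) * ((E : ℍ → ℂ) * (E : ℍ → ℂ)) := by
    apply (hN₁.mul hN₁).ext (hN₂.mul (hNE.mul hNE))
    rw [hN₁.qExpansion_mul hN₁, hN₂.qExpansion_mul (hNE.mul hNE), hNE.qExpansion_mul hNE,
      hq₁, hq₂, hE]
    ring
  have hsq : ∀ τ, g₁s τ ^ 2 = g₂s τ * E τ ^ 2 := fun τ => by
    have := congrFun hfun τ
    simp only [Pi.mul_apply] at this
    rw [sq, sq, this]
  obtain ⟨h, -, hq⟩ := QuotForm5.exists_cuspForm_qExpansion_mul_eq E
    (coe_ne_zero_of_qExpansion E u hu hE) g₁s g₂s hsq one_pos h1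
  have hqh : qExpansion 1 h = FA.map s := by
    rw [hq₁, hE] at hq
    exact mul_right_cancel₀ (map_u_ne_zero u hu) hq
  have hcoeff : ∀ n, (qExpansion 1 f).coeff n = val (PowerSeries.coeff n FA) := fun n => by
    rw [← hFA, PowerSeries.coeff_map]
  refine ⟨A, s, hs, fun n => ?_, h, fun n => ?_⟩
  · rw [hcoeff n]
    exact (PowerSeries.coeff n FA).2
  · rw [hqh, PowerSeries.coeff_map]
    congr 1
    apply Subtype.ext
    exact (hcoeff n).symm

end Fermat.Agent.M48.W1Conj0
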