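/-
M48 (lead), leaf (W1-RAT), output (O2): **integrality and the number field from finite generation**.

Input: a sequence `a : ℕ → ℂ` with the formal Hecke relations `HeckeRel N a e` away from `N`
(helper5's `RankinEuler5.HeckeRel`: `a 1 = 1`, `a (p n) + e p [p ∣ n] a (n / p) = a p * a n`), all of
whose terms lie in a finitely generated `ℤ`-submodule `Λ` of `ℂ`, and a `ℤ`-subalgebra `Z` of `ℂ`,
finite over `ℤ`, containing the character values `e p`.

Output: the ring `Z[a_p : p ∤ N]` is a finite `ℤ`-module (`heckeRing_fg`), hence every `a_p`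
(`p ∤ N`) is an algebraic integer (`isIntegral_of_heckeRel`) and the field generated over `ℚ` is a
number field (`exists_numberField`).

No multiplicativity is needed: the `ℤ`-span `M'` of the products `z * a n` (`z ∈ Z`) contains `1`,
is stable under `Z` and - by the Hecke relation itself - under multiplication by every `a_p`;
so the stabiliser of `M'` is a subalgebra containing the generators, and `R = R·1 ⊆ M' ⊆ Z·Λ`.
-/
import Mathlib
import Fermat.Agent.M48.RankinEuler5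

set_option autoImplicit false
set_option linter.style.haveILetI false

namespace Fermat.Agent.M48.W1FG0

open Fermat.Agent.M48.RankinEuler5

variable {N : ℕ} {a e : ℕ → ℂ}

/-- The `ℤ`-span of the products `z * a n`, `z ∈ Z`. -/
def prodSpan (Z : Subalgebra ℤ ℂ) (a : ℕ → ℂ) : Submodule ℤ ℂ :=
  Submodule.span ℤ {x | ∃ z ∈ Z, ∃ n : ℕ, x = z * a n}

theorem mul_mem_prodSpan (Z : Subalgebra ℤ ℂ) (a : ℕ → ℂ) {z : ℂ} (hz : z ∈ Z) (n : ℕ) :
    z * a n ∈ prodSpan Z a :=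
  Submodule.subset_span ⟨z, hz, n, rfl⟩

/-- The stabiliser of `prodSpan Z a` under multiplication, as a `ℤ`-subalgebra of `ℂ`. -/
def stab (Z : Subalgebra ℤ ℂ) (a : ℕ → ℂ) : Subalgebra ℤ ℂ where
  carrier := {x | ∀ y ∈ prodSpan Z a, x * y ∈ prodSpan Z a}
  mul_mem' := fun {x x'} hx hx' y hy => by
    rw [mul_assoc]
    exact hx _ (hx' y hy)
  one_mem' := fun y hy => by rwa [one_mul]
  add_mem' := fun {x x'} hx hx' y hy => by
    rw [add_mul]
    exact Submodule.add_mem _ (hx y hy) (hx' y hy)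
  zero_mem' := fun y _ => by
    rw [zero_mul]
    exact Submodule.zero_mem _
  algebraMap_mem' := fun m y hy => by
    have : (algebraMap ℤ ℂ m) * y = m • y := by
      rw [Algebra.smul_def]
    rw [this]
    exact Submodule.smul_mem _ _ hy

theorem mem_stab_iff (Z : Subalgebra ℤ ℂ) (a : ℕ → ℂ) (x : ℂ) :
    x ∈ stab Z a ↔ ∀ y ∈ prodSpan Z a, x * y ∈ prodSpan Z a := Iff.rfl

/-- membership in the stabiliser can be checked on the generators. -/
theorem mem_stab_of_gen (Z : Subalgebra ℤ ℂ) (a : ℕ → ℂ) (x : ℂ)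
    (h : ∀ z ∈ Z, ∀ n : ℕ, x * (z * a n) ∈ prodSpan Z a) : x ∈ stab Z a := by
  intro y hy
  induction hy using Submodule.span_induction with
  | mem y hy =>
    obtain ⟨z, hz, n, rfl⟩ := hy
    exact h z hz n
  | zero =>
    rw [mul_zero]
    exact Submodule.zero_mem _
  | add y y' _ _ hy hy' =>
    rw [mul_add]
    exact Submodule.add_mem _ hy hy'
  | smul m y _ hy =>
    rw [mul_smul_comm]
    exact Submodule.smul_mem _ _ hy

theorem le_stab (Z : Subalgebra ℤ ℂ) (a : ℕ → ℂ) : Z ≤ stab Z a := by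
  intro x hx
  refine mem_stab_of_gen Z a x fun z hz n => ?_
  rw [← mul_assoc]
  exact mul_mem_prodSpan Z a (Z.mul_mem hx hz) n

theorem coeff_mem_stab (h : HeckeRel N a e) (Z : Subalgebra ℤ ℂ)
    (he : ∀ p : ℕ, p.Prime → ¬ p ∣ N → e p ∈ Z) {p : ℕ} (hp : p.Prime) (hpN : ¬ p ∣ N) :
    a p ∈ stab Z a := by
  refine mem_stab_of_gen Z a (a p) fun z hz n => ?_
  have hrel := h.rel p hp hpN n
  have h1 : a p * (z * a n) =
      z * a (p * n) + (z * e p) * (if p ∣ n then a (n / p) else 0) := by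
    rw [mul_left_comm, ← hrel]
    ring
  rw [h1]
  refine Submodule.add_mem _ (mul_mem_prodSpan Z a hz _) ?_
  split_ifs
  · exact mul_mem_prodSpan Z a (Z.mul_mem hz (he p hp hpN)) _
  · rw [mul_zero]
    exact Submodule.zero_mem _

/-- The Hecke ring `Z[a_p : p ∤ N]`. -/
def heckeRing (N : ℕ) (Z : Subalgebra ℤ ℂ) (a : ℕ → ℂ) : Subalgebra ℤ ℂ :=
  Algebra.adjoin ℤ ((Z : Set ℂ) ∪ {x | ∃ p : ℕ, p.Prime ∧ ¬ p ∣ N ∧ x = a p})

theorem le_heckeRing (N : ℕ) (Z : Subalgebra ℤ ℂ) (a : ℕ → ℂ) : Z ≤ heckeRing N Z a :=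
  fun _ hx => Algebra.subset_adjoin (Or.inl hx)

theorem coeff_mem_heckeRing (Z : Subalgebra ℤ ℂ) (a : ℕ → ℂ) {p : ℕ} (hp : p.Prime)
    (hpN : ¬ p ∣ N) : a p ∈ heckeRing N Z a :=
  Algebra.subset_adjoin (Or.inr ⟨p, hp, hpN, rfl⟩)

theorem heckeRing_le_stab (h : HeckeRel N a e) (Z : Subalgebra ℤ ℂ)
    (he : ∀ p : ℕ, p.Prime → ¬ p ∣ N → e p ∈ Z) : heckeRing N Z a ≤ stab Z a := by
  refine Algebra.adjoin_le ?_
  rintro x (hx | ⟨p, hp, hpN, rfl⟩)
  · exact le_stab Z a hx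
  · exact coeff_mem_stab h Z he hp hpN

theorem heckeRing_le_prodSpan (h : HeckeRel N a e) (Z : Subalgebra ℤ ℂ)
    (he : ∀ p : ℕ, p.Prime → ¬ p ∣ N → e p ∈ Z) :
    Subalgebra.toSubmodule (heckeRing N Z a) ≤ prodSpan Z a := by
  intro x hx
  have h1 : x ∈ stab Z a := heckeRing_le_stab h Z he hx
  have h2 : (1 : ℂ) ∈ prodSpan Z a := by
    have := mul_mem_prodSpan Z a Z.one_mem 1
    rwa [h.one, mul_one] at this
  have := h1 1 h2
  rwa [mul_one] at this

theorem prodSpan_le_mul (Z : Subalgebra ℤ ℂ) {Λ : Submodule ℤ ℂ} (hΛ : ∀ n, a n ∈ Λ) :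
    prodSpan Z a ≤ Subalgebra.toSubmodule Z * Λ := by
  refine Submodule.span_le.mpr ?_
  rintro x ⟨z, hz, n, rfl⟩
  exact Submodule.mul_mem_mul hz (hΛ n)

/-- **(O2), finiteness**: the Hecke ring is a finite `ℤ`-module. -/
theorem heckeRing_fg (h : HeckeRel N a e) (Z : Subalgebra ℤ ℂ)
    (hZ : (Subalgebra.toSubmodule Z).FG)
    (he : ∀ p : ℕ, p.Prime → ¬ p ∣ N → e p ∈ Z) {Λ : Submodule ℤ ℂ} (hΛfg : Λ.FG)
    (hΛ : ∀ n, a n ∈ Λ) : (Subalgebra.toSubmodule (heckeRing N Z a)).FG :=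
  Submodule.FG.of_le (hZ.mul hΛfg)
    ((heckeRing_le_prodSpan h Z he).trans (prodSpan_le_mul Z hΛ))

/-- **(O2), integrality** of every element of the Hecke ring, in particular of `a_p`, `p ∤ N`. -/
theorem isIntegral_of_mem_heckeRing (h : HeckeRel N a e) (Z : Subalgebra ℤ ℂ)
    (hZ : (Subalgebra.toSubmodule Z).FG)
    (he : ∀ p : ℕ, p.Prime → ¬ p ∣ N → e p ∈ Z) {Λ : Submodule ℤ ℂ} (hΛfg : Λ.FG)
    (hΛ : ∀ n, a n ∈ Λ) {x : ℂ} (hx : x ∈ heckeRing N Z a) : IsIntegral ℤ x :=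
  IsIntegral.of_mem_of_fg _ (heckeRing_fg h Z hZ he hΛfg hΛ) x hx

/-- **(O2), the number field**: a finite extension `K` of `ℚ` inside `ℂ` containing the Hecke
ring. -/
theorem exists_numberField (h : HeckeRel N a e) (Z : Subalgebra ℤ ℂ)
    (hZ : (Subalgebra.toSubmodule Z).FG)
    (he : ∀ p : ℕ, p.Prime → ¬ p ∣ N → e p ∈ Z) {Λ : Submodule ℤ ℂ} (hΛfg : Λ.FG)
    (hΛ : ∀ n, a n ∈ Λ) :
    ∃ K : IntermediateField ℚ ℂ, FiniteDimensional ℚ K ∧
      ∀ x ∈ heckeRing N Z a, x ∈ K ∧ IsIntegral ℤ x := by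
  obtain ⟨T, hT⟩ := heckeRing_fg h Z hZ he hΛfg hΛ
  have hTR : ∀ x ∈ T, x ∈ heckeRing N Z a := by
    intro x hx
    have : x ∈ Submodule.span ℤ (T : Set ℂ) := Submodule.subset_span hx
    rw [hT] at this
    exact this
  have hint : ∀ x ∈ (T : Set ℂ), IsIntegral ℚ x := fun x hx =>
    (isIntegral_of_mem_heckeRing h Z hZ he hΛfg hΛ (hTR x hx)).tower_top
  have hspan : ∀ y ∈ Submodule.span ℤ (T : Set ℂ),
      y ∈ IntermediateField.adjoin ℚ (T : Set ℂ) := by
    intro y hy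
    induction hy using Submodule.span_induction with
    | mem y hy => exact IntermediateField.subset_adjoin ℚ _ hy
    | zero => exact zero_mem _
    | add y y' _ _ hy hy' => exact add_mem hy hy'
    | smul m y _ hy =>
      rw [zsmul_eq_mul]
      exact mul_mem (intCast_mem _ m) hy
  refine ⟨IntermediateField.adjoin ℚ (T : Set ℂ),
    IntermediateField.finiteDimensional_adjoin hint, fun x hx => ⟨?_, ?_⟩⟩
  · apply hspan
    rw [hT]
    exact hx
  · exact isIntegral_of_mem_heckeRing h Z hZ he hΛfg hΛ hx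

end Fermat.Agent.M48.W1FG0
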