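/-
M48 (lead), leaf **(W1-RAT)**: assembly at level `Γ₁(4N)`.

Inputs (dry): `Mult4` = an integral weight one multiplier of level `4` (`θ²`, helper5's `ThetaSq5`),
and `R2Int (Γ₁(4N))` = the weight two integral structure at level `4N` (leaf (R2), the `Γ₁` twin of
S23).

Output `w1rat`, for the `f` of S48 (literal binders `hf₁`, `hT`):
* (O1) all `a_n(f)` lie in a finitely generated `ℤ`-submodule of `ℂ`;
* (O2) a number field `K ⊆ ℂ` containing the values of `ε` and the `a_p` (`p ∤ N`), which are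
  algebraic integers;
* (O3) for every `σ : K →+* ℂ` a weight one cusp form `fσ` on `Γ₁(4N)` whose coefficient sequence
  `a'` satisfies helper5's `HeckeRel N a' (σ ∘ ε)` (for ALL primes `p ∤ N`) and `a' p = σ (a_p)`.
Consumer `rankin_conj`: the Rankin-lite bound for every conjugate, in the shape of the hypothesis
`hR` of helper5's `RankinSparse5.sparse`.
-/
import Mathlib
import Fermat.Agent.M48.W1Conj0
import Fermat.Agent.M48.W1FG0
import Fermat.Agent.M48.RankinLite5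
import Fermat.Agent.M48.RankinSparse5

set_option autoImplicit false
set_option linter.style.haveILetI false
set_option linter.unusedSectionVars false

open UpperHalfPlane ModularForm ModularFormClass CongruenceSubgroup
open scoped MatrixGroups ModularForm Manifold Real

noncomputable section

namespace Fermat.Agent.M48.W1Rat0

open Fermat.Agent.M48.W1Forms0 Fermat.Agent.M48.W1Conj0 Fermat.Agent.M48.W1FG0
  Fermat.Agent.M48.RankinEuler5 Fermat.Agent.M48.RankinLite5 Fermat.Agent.M48.RankinBessel5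

/-- An integral weight one multiplier of level `4` with constant term `1` (in the application:
`θ² = (∑ q^{n²})²`). -/
structure Mult4 where
  E : ModularForm (Gamma1 4) 1
  u : PowerSeries ℤ
  hu : PowerSeries.constantCoeff u = 1
  hE : qExpansion 1 E = u.map (Int.castRingHom ℂ)

/-- `Γ₁(M) ≤ Γ₁(N)` for `N ∣ M`. -/
theorem Gamma1_le_of_dvd {N M : ℕ} (h : N ∣ M) : Gamma1 M ≤ Gamma1 N := by
  intro A hA
  rw [Gamma1_mem] at hA ⊢
  obtain ⟨h00, h11, h10⟩ := hA
  have key : ∀ x : ℤ, ((x : ZMod M) = 1 → (x : ZMod N) = 1) ∧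
      ((x : ZMod M) = 0 → (x : ZMod N) = 0) := by
    intro x
    constructor
    · intro hx
      have := congrArg (ZMod.castHom h (ZMod N)) hx
      rwa [map_intCast, map_one] at this
    · intro hx
      have := congrArg (ZMod.castHom h (ZMod N)) hx
      rwa [map_intCast, map_zero] at this
  exact ⟨(key _).1 h00, (key _).1 h11, (key _).2 h10⟩

/-- the same for the images in `GL(2, ℝ)`. -/
theorem mapGL_Gamma1_le_of_dvd {N M : ℕ} (h : N ∣ M) :
    ((Gamma1 M : Subgroup SL(2, ℤ)) : Subgroup (GL (Fin 2) ℝ)) ≤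
      ((Gamma1 N : Subgroup SL(2, ℤ)) : Subgroup (GL (Fin 2) ℝ)) :=
  Subgroup.map_mono (Gamma1_le_of_dvd h)

/-- values of a Dirichlet character are integral. -/
theorem isIntegral_char {N : ℕ} [NeZero N] (ε : DirichletCharacter ℂ N) (d : ZMod N) :
    IsIntegral ℤ (ε d) := by
  by_cases hd : IsUnit d
  · have hpow : (ε d) ^ (Fintype.card (ZMod N)ˣ) = 1 := by
      obtain ⟨v, rfl⟩ := hd
      rw [← map_pow, ← Units.val_pow_eq_pow_val, pow_card_eq_one, Units.val_one, map_one]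
    exact IsIntegral.of_pow Fintype.card_pos (hpow ▸ isIntegral_one)
  · rw [MulChar.map_nonunit ε hd]
    exact isIntegral_zero

/-- the `ℤ`-algebra generated by the character values is a finite `ℤ`-module. -/
theorem charRing_fg {N : ℕ} [NeZero N] (ε : DirichletCharacter ℂ N) :
    (Subalgebra.toSubmodule (Algebra.adjoin ℤ (Set.range ε))).FG :=
  fg_adjoin_of_finite (Set.finite_range ε) fun x hx => by
    obtain ⟨d, rfl⟩ := hx
    exact isIntegral_char ε d

/-- images of character values under a ring homomorphism have norm one at primes not dividing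
the level. -/
theorem norm_map_char_eq_one {N : ℕ} [NeZero N] (ε : DirichletCharacter ℂ N)
    {K : IntermediateField ℚ ℂ} (σ : K →+* ℂ) (hε : ∀ d : ZMod N, ε d ∈ K) {p : ℕ}
    (hp : p.Prime) (hpN : ¬ p ∣ N) : ‖σ ⟨ε (p : ZMod N), hε _⟩‖ = 1 := by
  have hc : Nat.Coprime p N := (Nat.Prime.coprime_iff_not_dvd hp).mpr hpN
  have hu : IsUnit (p : ZMod N) := (ZMod.isUnit_iff_coprime p N).mpr hc
  have hpow : (ε (p : ZMod N)) ^ (Fintype.card (ZMod N)ˣ) = 1 := by
    obtain ⟨v, hv⟩ := hu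
    rw [← hv, ← map_pow, ← Units.val_pow_eq_pow_val, pow_card_eq_one, Units.val_one, map_one]
  have hpowK : (⟨ε (p : ZMod N), hε _⟩ : K) ^ (Fintype.card (ZMod N)ˣ) = 1 := by
    apply Subtype.ext
    simpa using hpow
  have hσ : (σ ⟨ε (p : ZMod N), hε _⟩) ^ (Fintype.card (ZMod N)ˣ) = 1 := by
    rw [← map_pow, hpowK, map_one]
  exact Complex.norm_eq_one_of_pow_eq_one hσ Fintype.card_ne_zero

variable (N : ℕ) [NeZero N]

/-- **(W1-RAT)**. -/
theorem w1rat (ε : DirichletCharacter ℂ N) (f : CuspForm (Gamma1 N) 1)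
    (hf₁ : ModularFormClass.qCoeff f 1 = 1)
    (hT : ∀ p : ℕ, p.Prime → ¬ p ∣ N → ∀ n : ℕ,
        ModularFormClass.qCoeff f (p * n) +
            ε (p : ZMod N) * (if p ∣ n then ModularFormClass.qCoeff f (n / p) else 0) =
          ModularFormClass.qCoeff f p * ModularFormClass.qCoeff f n)
    (M4 : Mult4)
    (hR2 : R2Int ((Gamma1 (N * 4) : Subgroup SL(2, ℤ)) : Subgroup (GL (Fin 2) ℝ))) :
    (∃ Λ : Submodule ℤ ℂ, Λ.FG ∧ ∀ n, ModularFormClass.qCoeff f n ∈ Λ) ∧
    ∃ K : IntermediateField ℚ ℂ, FiniteDimensional ℚ K ∧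
      ∃ (hε : ∀ d : ZMod N, ε d ∈ K)
        (ha : ∀ p : ℕ, p.Prime → ¬ p ∣ N → ModularFormClass.qCoeff f p ∈ K),
        (∀ p : ℕ, p.Prime → ¬ p ∣ N → IsIntegral ℤ (ModularFormClass.qCoeff f p)) ∧
        ∀ σ : K →+* ℂ, ∃ (a' : ℕ → ℂ) (fσ : CuspForm (Gamma1 (N * 4)) 1),
          (∀ n, ModularFormClass.qCoeff fσ n = a' n) ∧
          HeckeRel N a' (fun p => σ ⟨ε (p : ZMod N), hε _⟩) ∧
          ∀ (p : ℕ) (hp : p.Prime) (hpN : ¬ p ∣ N),
            a' p = σ ⟨ModularFormClass.qCoeff f p, ha p hp hpN⟩ := by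
  -- the common level
  have hle₁ := mapGL_Gamma1_le_of_dvd (Dvd.intro 4 rfl : N ∣ N * 4)
  have hle₂ := mapGL_Gamma1_le_of_dvd (Dvd.intro_left N rfl : 4 ∣ N * 4)
  have h1 := one_mem_strictPeriods_Gamma1 (N * 4)
  set f' : CuspForm (Gamma1 (N * 4)) 1 := restrictCF hle₁ f with hf'
  set E : ModularForm (Gamma1 (N * 4)) 1 := restrictMF hle₂ M4.E with hEdef
  have hE : qExpansion 1 E = M4.u.map (Int.castRingHom ℂ) := M4.hE
  have hcoe : ∀ n, (qExpansion 1 f').coeff n = ModularFormClass.qCoeff f n := fun n => rfl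
  -- (O1)
  obtain ⟨Λ, hΛfg, hΛ⟩ := exists_fg h1 E M4.u M4.hu hE hR2 f'
  have hΛ' : ∀ n, ModularFormClass.qCoeff f n ∈ Λ := fun n => by
    rw [← hcoe n]
    exact hΛ n
  refine ⟨⟨Λ, hΛfg, hΛ'⟩, ?_⟩
  -- (O2)
  have hrel : HeckeRel N (fun n => ModularFormClass.qCoeff f n) (fun p => ε (p : ZMod N)) :=
    heckeRel_of ε f hf₁ hT
  set Z : Subalgebra ℤ ℂ := Algebra.adjoin ℤ (Set.range ε) with hZ
  have hZfg := charRing_fg ε
  have heZ : ∀ p : ℕ, p.Prime → ¬ p ∣ N → ε (p : ZMod N) ∈ Z := fun p _ _ =>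
    Algebra.subset_adjoin ⟨_, rfl⟩
  obtain ⟨K, hKfin, hK⟩ := exists_numberField hrel Z hZfg heZ hΛfg hΛ'
  have hε : ∀ d : ZMod N, ε d ∈ K := fun d =>
    (hK _ (le_heckeRing N Z _ (Algebra.subset_adjoin ⟨d, rfl⟩))).1
  have ha : ∀ p : ℕ, p.Prime → ¬ p ∣ N → ModularFormClass.qCoeff f p ∈ K := fun p hp hpN =>
    (hK _ (coeff_mem_heckeRing (N := N) Z (fun n => ModularFormClass.qCoeff f n) hp hpN)).1
  refine ⟨K, hKfin, hε, ha, fun p hp hpN =>
    (hK _ (coeff_mem_heckeRing (N := N) Z (fun n => ModularFormClass.qCoeff f n) hp hpN)).2, ?_⟩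
  -- (O3)
  intro σ
  obtain ⟨A, s, hs, hmem, fσ, hfσ⟩ := exists_conj h1 E M4.u M4.hu hE hR2 f' (K := K) σ
  have hmem' : ∀ n, ModularFormClass.qCoeff f n ∈ A := fun n => by
    rw [← hcoe n]
    exact hmem n
  set a' : ℕ → ℂ := fun n => s ⟨ModularFormClass.qCoeff f n, hmem' n⟩ with ha'
  have hKA : ∀ (x : ℂ) (hx : x ∈ K) (hxA : x ∈ A), s ⟨x, hxA⟩ = σ ⟨x, hx⟩ := by
    intro x hx hxA
    rw [← hs ⟨x, hx⟩]
    congr 1
  refine ⟨a', fσ, fun n => hfσ n, ⟨?_, ?_⟩, fun p hp hpN => hKA _ (ha p hp hpN) _⟩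
  · -- a' 1 = 1
    have : (⟨ModularFormClass.qCoeff f 1, hmem' 1⟩ : A) = 1 := Subtype.ext hf₁
    rw [ha']
    simp only
    rw [this, map_one]
  · intro p hp hpN n
    have hεA : ε (p : ZMod N) ∈ A := by
      have := (algebraMap K A ⟨ε (p : ZMod N), hε _⟩).2
      exact this
    have hσε : σ ⟨ε (p : ZMod N), hε _⟩ = s ⟨ε (p : ZMod N), hεA⟩ := (hKA _ (hε _) hεA).symm
    have hA : (⟨ModularFormClass.qCoeff f (p * n), hmem' _⟩ : A) +
        ⟨ε (p : ZMod N), hεA⟩ *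
          (if p ∣ n then ⟨ModularFormClass.qCoeff f (n / p), hmem' _⟩ else 0) =
        ⟨ModularFormClass.qCoeff f p, hmem' _⟩ * ⟨ModularFormClass.qCoeff f n, hmem' _⟩ := by
      apply Subtype.ext
      have := hT p hp hpN n
      split_ifs with hpn
      · rw [if_pos hpn] at this
        simpa using this
      · rw [if_neg hpn] at this
        simpa using this
    have := congrArg s hA
    rw [map_add, map_mul, map_mul] at this
    rw [hσε]
    simp only [ha']
    split_ifs with hpn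
    · rw [if_pos hpn] at this
      exact this
    · rw [if_neg hpn, map_zero] at this
      exact this

/-- **Rankin-lite for every conjugate** (hypothesis `hR` of helper5's `RankinSparse5.sparse`), and
hence **(SPARSE)** for the `f` of S48, from (W1-RAT). -/
theorem sparse_of_w1rat (ε : DirichletCharacter ℂ N) (f : CuspForm (Gamma1 N) 1)
    (hf₁ : ModularFormClass.qCoeff f 1 = 1)
    (hT : ∀ p : ℕ, p.Prime → ¬ p ∣ N → ∀ n : ℕ,
        ModularFormClass.qCoeff f (p * n) +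
            ε (p : ZMod N) * (if p ∣ n then ModularFormClass.qCoeff f (n / p) else 0) =
          ModularFormClass.qCoeff f p * ModularFormClass.qCoeff f n)
    (M4 : Mult4)
    (hR2 : R2Int ((Gamma1 (N * 4) : Subgroup SL(2, ℤ)) : Subgroup (GL (Fin 2) ℝ)))
    {c : ℝ} (hc : 0 < c) :
    ∃ Y : Finset ℂ, ∃ C : ℝ, ∀ s : ℝ, 1 < s → s ≤ 2 →
      Summable (fun p : {p : ℕ | p.Prime ∧ ¬ p ∣ N ∧ ModularFormClass.qCoeff f p ∉ Y} =>
        ((p : ℕ) : ℝ) ^ (-s)) ∧
      ∑' p : {p : ℕ | p.Prime ∧ ¬ p ∣ N ∧ ModularFormClass.qCoeff f p ∉ Y},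
        ((p : ℕ) : ℝ) ^ (-s) ≤ c * Real.log (1 / (s - 1)) + C := by
  classical
  obtain ⟨-, K, hKfin, hε, ha, hint, hconj⟩ := w1rat N ε f hf₁ hT M4 hR2
  haveI : NumberField K := { to_charZero := inferInstance, to_finiteDimensional := hKfin }
  set b : ℕ → K := fun p =>
    if h : p.Prime ∧ ¬ p ∣ N then ⟨ModularFormClass.qCoeff f p, ha p h.1 h.2⟩ else 0 with hb
  have hbp : ∀ p (hp : p.Prime) (hpN : ¬ p ∣ N),
      b p = ⟨ModularFormClass.qCoeff f p, ha p hp hpN⟩ := fun p hp hpN => by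
    simp only [hb]
    rw [dif_pos ⟨hp, hpN⟩]
  refine RankinSparse5.sparse (K := K) (algebraMap K ℂ)
    (fun p => ModularFormClass.qCoeff f p) b (fun p hp hpN => ⟨?_, ?_⟩) (fun σ => ?_) hc
  · rw [hbp p hp hpN]
    have h1 : IsIntegral ℤ (algebraMap K ℂ ⟨ModularFormClass.qCoeff f p, ha p hp hpN⟩) :=
      hint p hp hpN
    exact (isIntegral_algebraMap_iff (algebraMap K ℂ).injective).mp h1
  · rw [hbp p hp hpN]
    rfl
  · obtain ⟨a', fσ, hq, hrel, hap⟩ := hconj σ
    obtain ⟨C₀, hC₀, hB⟩ := summable_and_tsum_le (k := 1)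
      (Γ := Subgroup.map (Matrix.SpecialLinearGroup.mapGL ℝ) (Gamma1 (N * 4))) fσ
      (one_mem_strictPeriods_Gamma1 (N * 4))
    have hB' : ∀ t : ℝ, 0 < t →
        Summable (fun n : ℕ => ‖a' n‖ ^ 2 * Real.exp (-4 * π * n * t)) ∧
        ∑' n : ℕ, ‖a' n‖ ^ 2 * Real.exp (-4 * π * n * t) ≤ C₀ / t := by
      intro t ht
      have := hB t ht
      have hco : ∀ n, coeffQ fσ n = a' n := fun n => hq n
      simpa [hco] using this
    obtain ⟨C, hC⟩ := rankin_lite_of_bessel hrel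
      (fun p hp hpN => norm_map_char_eq_one ε σ hε hp hpN) hC₀ hB'
    refine ⟨C, fun s hs1 hs2 S hS => ?_⟩
    have := hC s hs1 hs2 S hS
    refine le_trans (le_of_eq ?_) this
    refine Finset.sum_congr rfl fun p hp => ?_
    obtain ⟨hpp, hpN⟩ := hS p hp
    rw [hbp p hpp hpN, hap p hpp hpN]

end Fermat.Agent.M48.W1Rat0
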