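/-
M48 (lead), leaf (W1-RAT): **adapters for the weight two input (R2)** and the final form of
(W1-RAT) with helper5's `ThetaSq5` and helper3's `BoundedDenom3.r2b` plugged in.

* `R2Rat Γ` = **(R2a)**: `S₂(Γ)` is spanned over `ℂ` by forms with RATIONAL `q`-expansion;
* `r2Int_of_rat` : (R2a) + bounded denominators (R2b) ⇒ `W1Conj0.R2Int Γ`;
* `mult4` : helper5's `θ²` as a `W1Rat0.Mult4`;
* `w1rat_of_r2a`, `sparse_of_r2a` : (W1-RAT) and (SPARSE) for the `f` of S48 from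
  `R2Rat (Γ₁(4N))` ALONE (the only open input: leaf (R2a), the rational half of the `Γ₁` twin of S23).
-/
import Mathlib
import Fermat.Agent.M48.W1Rat0
import Fermat.Agent.M48.ThetaSq5
import Fermat.Agent.M48.BoundedDenom3

set_option autoImplicit false
set_option linter.style.haveILetI false
set_option linter.unusedSectionVars false

open UpperHalfPlane ModularForm ModularFormClass CongruenceSubgroup
open scoped MatrixGroups ModularForm Manifold Real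

noncomputable section

namespace Fermat.Agent.M48.W1R2a0

open Fermat.Agent.M48.W1Forms0 Fermat.Agent.M48.W1Conj0 Fermat.Agent.M48.W1Rat0
  Fermat.Agent.M48.RankinEuler5

/-- A finitely generated group of rational numbers has a common denominator. -/
theorem exists_common_denom (M : Submodule ℤ ℂ) (hM : M.FG)
    (hrat : ∀ x ∈ M, ∃ r : ℚ, x = (r : ℂ)) :
    ∃ D : ℕ, 0 < D ∧ ∀ x ∈ M, ∃ m : ℤ, (D : ℂ) * x = (m : ℂ) := by
  classical
  obtain ⟨s, hs⟩ := hM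
  have hsM : ∀ x ∈ s, x ∈ M := fun x hx => hs ▸ Submodule.subset_span hx
  choose! r hr using hrat
  refine ⟨∏ x ∈ s, (r x).den, Finset.prod_pos fun x _ => (r x).den_pos, fun x hx => ?_⟩
  rw [← hs] at hx
  induction hx using Submodule.span_induction with
  | mem y hy =>
    obtain ⟨c, hc⟩ : (r y).den ∣ ∏ x ∈ s, (r x).den := Finset.dvd_prod_of_mem _ hy
    refine ⟨c * (r y).num, ?_⟩
    have h1 : y = (r y : ℂ) := hr y (hsM y hy)
    have h2 : ((r y).den : ℂ) * (r y : ℂ) = ((r y).num : ℂ) := by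
      have := Rat.den_mul_eq_num (r y)
      exact_mod_cast this
    rw [hc]
    push_cast
    calc ((r y).den : ℂ) * (c : ℂ) * y = (c : ℂ) * (((r y).den : ℂ) * (r y : ℂ)) := by
          rw [← h1]; ring
      _ = (c : ℂ) * ((r y).num : ℂ) := by rw [h2]
  | zero => exact ⟨0, by simp⟩
  | add y z _ _ hy hz =>
    obtain ⟨a, ha⟩ := hy
    obtain ⟨b, hb⟩ := hz
    exact ⟨a + b, by rw [mul_add, ha, hb]; push_cast; ring⟩
  | smul c y _ hy =>
    obtain ⟨a, ha⟩ := hy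
    refine ⟨c * a, ?_⟩
    rw [zsmul_eq_mul, mul_left_comm, ha]
    push_cast
    ring

variable {Γ : Subgroup (GL (Fin 2) ℝ)} [Γ.HasDetOne]

/-- cusp forms with rational `q`-expansion. -/
def RatForm (Γ : Subgroup (GL (Fin 2) ℝ)) (k : ℤ) : Set (CuspForm Γ k) :=
  {g | ∀ n : ℕ, ∃ r : ℚ, (qExpansion 1 g).coeff n = (r : ℂ)}

/-- **(R2a)**: `S₂(Γ)` is spanned by forms with rational `q`-expansion. -/
def R2Rat (Γ : Subgroup (GL (Fin 2) ℝ)) [Γ.HasDetOne] : Prop :=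
  Submodule.span ℂ (RatForm Γ 2) = ⊤

/-- (R2a) + (R2b) ⇒ the integral structure. -/
theorem r2Int_of_rat (h1 : (1 : ℝ) ∈ Γ.strictPeriods) (hrat : R2Rat Γ)
    (hfg : ∀ g : CuspForm Γ 2, ∃ Λ : Submodule ℤ ℂ, Λ.FG ∧
      ∀ n : ℕ, (qExpansion 1 g).coeff n ∈ Λ) : R2Int Γ := by
  rw [R2Int, eq_top_iff, ← hrat, Submodule.span_le]
  intro g hg
  obtain ⟨Λ, hΛfg, hΛ⟩ := hfg g
  set M : Submodule ℤ ℂ := Submodule.span ℤ (Set.range fun n => (qExpansion 1 g).coeff n)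
    with hM
  have hMle : M ≤ Λ := Submodule.span_le.mpr (by rintro _ ⟨n, rfl⟩; exact hΛ n)
  have hMfg : M.FG := Submodule.FG.of_le hΛfg hMle
  have hMrat : ∀ x ∈ M, ∃ r : ℚ, x = (r : ℂ) := by
    intro x hx
    induction hx using Submodule.span_induction with
    | mem y hy =>
      obtain ⟨n, rfl⟩ := hy
      exact hg n
    | zero => exact ⟨0, by simp⟩
    | add y z _ _ hy hz =>
      obtain ⟨a, rfl⟩ := hy
      obtain ⟨b, rfl⟩ := hz
      exact ⟨a + b, by push_cast; ring⟩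
    | smul c y _ hy =>
      obtain ⟨a, rfl⟩ := hy
      exact ⟨c * a, by rw [zsmul_eq_mul]; push_cast; ring⟩
  obtain ⟨D, hD, hDM⟩ := exists_common_denom M hMfg hMrat
  have hDg : ((D : ℂ) • g) ∈ IntForm Γ 2 := by
    intro n
    obtain ⟨m, hm⟩ := hDM _ (Submodule.subset_span ⟨n, rfl⟩)
    refine ⟨m, ?_⟩
    have := ModularForm.qExpansion_smul one_pos h1 (D : ℂ) g
    rw [show (⇑((D : ℂ) • g) : ℍ → ℂ) = (D : ℂ) • (g : ℍ → ℂ) from rfl, this,
      PowerSeries.coeff_smul, smul_eq_mul]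
    exact hm
  have hD0 : (D : ℂ) ≠ 0 := Nat.cast_ne_zero.mpr hD.ne'
  have hgeq : g = (D : ℂ)⁻¹ • ((D : ℂ) • g) := by
    rw [smul_smul, inv_mul_cancel₀ hD0, one_smul]
  rw [SetLike.mem_coe, hgeq]
  exact Submodule.smul_mem _ _ (Submodule.subset_span hDg)

/-- helper5's `θ²` as the level four multiplier. -/
def mult4 : Mult4 where
  E := ThetaSq5.thetaSq
  u := ThetaSq5.thetaSeries ^ 2
  hu := ThetaSq5.constantCoeff_thetaSeries_sq
  hE := ThetaSq5.qExpansion_thetaSq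

variable (N : ℕ) [NeZero N]

/-- the weight two integral structure at level `4N` from its rational half (R2a). -/
theorem r2Int_of_r2a
    (hR2a : R2Rat ((Gamma1 (N * 4) : Subgroup SL(2, ℤ)) : Subgroup (GL (Fin 2) ℝ))) :
    R2Int ((Gamma1 (N * 4) : Subgroup SL(2, ℤ)) : Subgroup (GL (Fin 2) ℝ)) :=
  r2Int_of_rat (RankinLite5.one_mem_strictPeriods_Gamma1 (N * 4)) hR2a
    fun g => BoundedDenom3.r2b g

/-- **(W1-RAT) from (R2a) alone.** -/
theorem w1rat_of_r2a (ε : DirichletCharacter ℂ N) (f : CuspForm (Gamma1 N) 1)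
    (hf₁ : ModularFormClass.qCoeff f 1 = 1)
    (hT : ∀ p : ℕ, p.Prime → ¬ p ∣ N → ∀ n : ℕ,
        ModularFormClass.qCoeff f (p * n) +
            ε (p : ZMod N) * (if p ∣ n then ModularFormClass.qCoeff f (n / p) else 0) =
          ModularFormClass.qCoeff f p * ModularFormClass.qCoeff f n)
    (hR2a : R2Rat ((Gamma1 (N * 4) : Subgroup SL(2, ℤ)) : Subgroup (GL (Fin 2) ℝ))) :
    (∃ Λ : Submodule ℤ ℂ, Λ.FG ∧ ∀ n, ModularFormClass.qCoeff f n ∈ Λ) ∧
    ∃ K : IntermediateField ℚ ℂ, FiniteDimensional ℚ K ∧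
      ∃ (hε : ∀ d : ZMod N, ε d ∈ K)
        (ha : ∀ p : ℕ, p.Prime → ¬ p ∣ N → ModularFormClass.qCoeff f p ∈ K),
        (∀ p : ℕ, p.Prime → ¬ p ∣ N → IsIntegral ℤ (ModularFormClass.qCoeff f p)) ∧
        ∀ σ : K →+* ℂ, ∃ (a' : ℕ → ℂ) (fσ : CuspForm (Gamma1 (N * 4)) 1),
          (∀ n, ModularFormClass.qCoeff fσ n = a' n) ∧
          HeckeRel N a' (fun p => σ ⟨ε (p : ZMod N), hε _⟩) ∧
          ∀ (p : ℕ) (hp : p.Prime) (hpN : ¬ p ∣ N),
            a' p = σ ⟨ModularFormClass.qCoeff f p, ha p hp hpN⟩ :=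
  w1rat N ε f hf₁ hT mult4 (r2Int_of_r2a N hR2a)

/-- **(SPARSE) from (R2a) alone.** -/
theorem sparse_of_r2a (ε : DirichletCharacter ℂ N) (f : CuspForm (Gamma1 N) 1)
    (hf₁ : ModularFormClass.qCoeff f 1 = 1)
    (hT : ∀ p : ℕ, p.Prime → ¬ p ∣ N → ∀ n : ℕ,
        ModularFormClass.qCoeff f (p * n) +
            ε (p : ZMod N) * (if p ∣ n then ModularFormClass.qCoeff f (n / p) else 0) =
          ModularFormClass.qCoeff f p * ModularFormClass.qCoeff f n)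
    (hR2a : R2Rat ((Gamma1 (N * 4) : Subgroup SL(2, ℤ)) : Subgroup (GL (Fin 2) ℝ)))
    {c : ℝ} (hc : 0 < c) :
    ∃ Y : Finset ℂ, ∃ C : ℝ, ∀ s : ℝ, 1 < s → s ≤ 2 →
      Summable (fun p : {p : ℕ | p.Prime ∧ ¬ p ∣ N ∧ ModularFormClass.qCoeff f p ∉ Y} =>
        ((p : ℕ) : ℝ) ^ (-s)) ∧
      ∑' p : {p : ℕ | p.Prime ∧ ¬ p ∣ N ∧ ModularFormClass.qCoeff f p ∉ Y},
        ((p : ℕ) : ℝ) ^ (-s) ≤ c * Real.log (1 / (s - 1)) + C :=
  sparse_of_w1rat N ε f hf₁ hT mult4 (r2Int_of_r2a N hR2a) hc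

end Fermat.Agent.M48.W1R2a0
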