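/-
Programme M48 (target S48), leaf (R2a) (helper4), file 4: **assembly**.

* `exists_conj_cuspForm` : for an analytic model `A` of `Γ ∋ T`, every `σ ∈ Aut(ℂ)` and every
  `g ∈ S₂(Γ)` there is `g' ∈ S₂(Γ)` with `aₙ(g') = σ(aₙ(g))` (UP, `Aut(ℂ)`-stability of regular
  differentials, LOW);
* `r2Rat_Gamma1` : `S₂(Γ₁(M))` (`2 ≤ M`) is spanned by forms with rational `q`-expansion
  (lead's `AutC0.span_rational_eq_top` + helper3's `ParTensor3.finiteDimensional_cuspForm` + the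
  model `G10Model4.model M 1`);
* `r2a` : the literal of `Top0.R2aStmt`.
-/
import Fermat.Agent.M48.R2aUp4
import Fermat.Agent.M48.G10Model4
import Fermat.Agent.M48.AutC0
import Fermat.Agent.M48.W1R2a0
import Fermat.Agent.M48.ParTensor3

set_option autoImplicit false
set_option linter.unusedSectionVars false
set_option linter.style.haveILetI false

open UpperHalfPlane ModularCurve AlgebraicCurve ModularForm
open scoped MatrixGroups Manifold

noncomputable section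

namespace Fermat.Agent.M48.R2aMain4

open Fermat.Agent.X0 Fermat.Agent.X0.Analytic Fermat.Agent.ES.KUM
open Fermat.Agent.M48.DictIface4 Fermat.Agent.M48.R2aReg4 Fermat.Agent.M48.R2aLow4
open Fermat.Agent.M48.R2aUp4
open Fermat.Agent.S20.LowDJ

/-! ### `θ(j)` has rational coefficients -/

theorem coeff_thetaNumK_rat (n : ℕ) :
    ∃ r : ℚ, PowerSeries.coeff n thetaNumK = algebraMap ℚ Kbar r := by
  refine ⟨((n : ℚ) - 1) * PowerSeries.coeff n ModularCurve.jNumQ, ?_⟩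
  unfold thetaNumK
  rw [PowerSeries.coeff_mk, jNumK, PowerSeries.coeff_map]
  simp only [map_mul, map_sub, map_natCast, map_one]

theorem coeff_thetaC_rat (k : ℤ) : ∃ r : ℚ, thetaC.coeff k = (r : ℂ) := by
  rw [thetaC, toC_coeff, thetaJ, lor_laurentOf_coeff]
  split_ifs with h0
  · obtain ⟨r, hr⟩ := coeff_thetaNumK_rat (k + ((1 : ℕ) : ℤ)).toNat
    exact ⟨r, by rw [hr]; exact iotaK_algebraMap_rat r⟩
  · exact ⟨0, by simp⟩

theorem coeffMap_thetaC (σ : ℂ ≃+* ℂ) : coeffMap (σ : ℂ →+* ℂ) thetaC = thetaC := by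
  ext k
  rw [coeffMap_coeff]
  obtain ⟨r, hr⟩ := coeff_thetaC_rat k
  rw [hr]
  exact map_ratCast σ r

/-! ### `Aut(ℂ)`-stability of `S₂(Γ)` -/

variable {Γ : Subgroup SL(2, ℤ)} {N : ℕ} {F₀ : IntermediateField ℚ (LaurentSeries ℚ)}

/-- **`Aut(ℂ)` acts on `S₂(Γ)` through the `q`-expansion coefficients.** -/
theorem exists_conj_cuspForm (A : AnModel Γ N F₀) (hT : ModularGroup.T ∈ Γ) [Γ.FiniteIndex]
    (σ : ℂ ≃+* ℂ) (g : CuspForm (Γ : Subgroup (GL (Fin 2) ℝ)) 2) :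
    ∃ g' : CuspForm (Γ : Subgroup (GL (Fin 2) ℝ)) 2, ∀ n : ℕ,
      ModularFormClass.qCoeff g' n = σ (ModularFormClass.qCoeff g n) := by
  haveI : NeZero N := ⟨A.hpos.ne'⟩
  by_cases hg : (⇑g : ℍ → ℂ) = 0
  · refine ⟨0, fun n => ?_⟩
    have h0 : ModularFormClass.qCoeff (0 : ℍ → ℂ) n = 0 := by
      unfold ModularFormClass.qCoeff
      rw [UpperHalfPlane.qExpansion_zero]
      simp
    rw [hg, CuspForm.coe_zero, h0, map_zero]
  · obtain ⟨f, hreg, hq⟩ := exists_reg_of_cuspForm A hT g hg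
    obtain ⟨g', hq'⟩ := exists_cuspForm_of_reg A hT (gal A σ • f) (reg_gal_smul A σ hreg)
    refine ⟨g', fun n => ?_⟩
    rw [hq' n, hq n, coe_gal_smul]
    have e : coeffMap (σ : ℂ →+* ℂ) ((f : A.F) : LaurentSeries ℂ) * thetaC =
        coeffMap (σ : ℂ →+* ℂ) (((f : A.F) : LaurentSeries ℂ) * thetaC) := by
      rw [map_mul, coeffMap_thetaC]
    rw [e, coeffMap_coeff]
    rfl

/-! ### `Γ₁(M)` -/

theorem gamma10_eq (M : ℕ) : Gamma10 M (M * 1) = CongruenceSubgroup.Gamma1 M := by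
  unfold Gamma10
  rw [mul_one]
  exact inf_eq_left.mpr (CongruenceSubgroup.Gamma1_in_Gamma0 M)

theorem T_mem_Gamma1 (M : ℕ) : ModularGroup.T ∈ CongruenceSubgroup.Gamma1 M := by
  rw [CongruenceSubgroup.Gamma1_mem]
  simp [ModularGroup.T]

/-- an analytic model for `Γ₁(M)`, `2 ≤ M`. -/
theorem nonempty_model_Gamma1 (M : ℕ) [NeZero M] (hM : 2 ≤ M) :
    Nonempty (AnModel (CongruenceSubgroup.Gamma1 M) (M * 1) (fieldG10 M 1)) := by
  rw [← gamma10_eq M]
  exact ⟨G10Model4.model M 1 hM⟩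

/-- the coefficients of the `q`-expansion as a linear map. -/
def qSeq (M : ℕ) :
    CuspForm ((CongruenceSubgroup.Gamma1 M : Subgroup SL(2, ℤ)) : Subgroup (GL (Fin 2) ℝ)) 2
      →ₗ[ℂ] (ℕ → ℂ) where
  toFun g n := PowerSeries.coeff n
    (W1Forms0.qExpLin (one_mem_strictPeriods (T_mem_Gamma1 M)) 2 g)
  map_add' f g := by
    funext n
    rw [map_add, map_add]
    rfl
  map_smul' c f := by
    funext n
    rw [map_smul, RingHom.id_apply, Pi.smul_apply, smul_eq_mul]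
    simp

theorem qSeq_apply (M : ℕ)
    (g : CuspForm ((CongruenceSubgroup.Gamma1 M : Subgroup SL(2, ℤ)) : Subgroup (GL (Fin 2) ℝ)) 2)
    (n : ℕ) : qSeq M g n = ModularFormClass.qCoeff g n := rfl

/-- **(R2a) for `Γ₁(M)`, `2 ≤ M`.** -/
theorem r2Rat_Gamma1 (M : ℕ) [NeZero M] (hM : 2 ≤ M) :
    W1R2a0.R2Rat
      ((CongruenceSubgroup.Gamma1 M : Subgroup SL(2, ℤ)) : Subgroup (GL (Fin 2) ℝ)) := by
  obtain ⟨A⟩ := nonempty_model_Gamma1 M hM
  haveI : FiniteDimensional ℂ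
      (CuspForm ((CongruenceSubgroup.Gamma1 M : Subgroup SL(2, ℤ)) : Subgroup (GL (Fin 2) ℝ)) 2) :=
    ParTensor3.finiteDimensional_cuspForm (CongruenceSubgroup.Gamma1 M)
  have h := AutC0.span_rational_eq_top (qSeq M) (fun σ g => by
    obtain ⟨g', hg'⟩ := exists_conj_cuspForm A (T_mem_Gamma1 M) σ g
    exact ⟨g', fun n => by rw [qSeq_apply, qSeq_apply, hg' n]⟩)
  exact h

/-- **Leaf (R2a)**, the literal of `Top0.R2aStmt`. -/
theorem r2a (N : ℕ) [NeZero N] :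
    W1R2a0.R2Rat
      ((CongruenceSubgroup.Gamma1 (N * 4) : Subgroup SL(2, ℤ)) : Subgroup (GL (Fin 2) ℝ)) := by
  have hN : 0 < N := Nat.pos_of_ne_zero (NeZero.ne N)
  exact r2Rat_Gamma1 (N * 4) (by omega)

end Fermat.Agent.M48.R2aMain4
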