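/-
Programme M48, pillar (P1) — helper8.  **Ruling R6: the level-restricted targets.**

The reduction chapter [RED1] is carried out only at levels `M` carrying a Hauptmodul base, i.e.
`4 ∣ M` or `9 ∣ M` (no auxiliary level); S48 at a general level `N` is glued at the top from the
levels `4N` and `9N` (lead's [GLUE49]).  This file states the restricted targets

* `SP1Stmt49`   : `SP1 M hℓ hℓM A` for `2 ≤ M`, `4 ∣ M ∨ 9 ∣ M`;
* `P1Stmt49`    : `P1Target8.P1Stmt` with the extra hypothesis `4 ∣ M ∨ 9 ∣ M` after `[NeZero M]`;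
* `P1ResStmt49` : `P1Target8.P1ResStmt` with the same extra hypothesis (what `ResFam7.resFam49`
                  consumes),

and proves `p1_49_of_jac : KUM1Stmt → GAL1Stmt → SP1Stmt49 → P1Stmt49`,
`p1Res49_of : P1Stmt49 → P1FinStmt → P1ResStmt49`, `p1Res49_of_jac`.  The proofs are the level-wise
cores `p1At_of_jac`, `p1ResAt_of` (the proofs of `P1Jac8.p1_of_jac`, `P1Res8.p1Res_of` are
level-wise; they are repeated here at one level).
-/
import Mathlib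
import Fermat.Agent.M48.P1Jac8

set_option autoImplicit false
set_option linter.unusedSectionVars false
set_option linter.style.haveILetI false
set_option synthInstance.maxHeartbeats 400000

open Polynomial IsLocalRing CongruenceSubgroup
open scoped MatrixGroups ModularForm

noncomputable section

namespace Fermat.Agent.M48.P1Jac49_8

open Fermat.Agent.M48.P1Target8 Fermat.Agent.M48.P1Jac8 Fermat.Agent.M48.J1Defs8
  Fermat.Agent.M48.P1Inputs8 Fermat.Agent.M48.P1Geom3 Fermat.Agent.M48.G1Fin3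

local notation "Qb" => AlgebraicClosure ℚ

/-! ### The level-wise statements -/

/-- (P1) at the level `M` for the prime `p`: the body of `P1Stmt`. -/
def P1At (p : ℕ) [Fact p.Prime] (M : ℕ) [NeZero M] : Prop :=
  ∀ (H : G1Ops M 2) (S : Finset ℕ)
    (_hpS : p ∈ S) (_hMS : ∀ q : ℕ, q.Prime → q ∣ M → q ∈ S)
    (𝒪' : Type) [CommRing 𝒪'] [IsDomain 𝒪'] [IsDiscreteValuationRing 𝒪']
    [IsAdicComplete (IsLocalRing.maximalIdeal 𝒪') 𝒪'] [Finite (IsLocalRing.ResidueField 𝒪')]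
    [CharZero 𝒪'] (_hp𝒪' : (p : 𝒪') ∈ IsLocalRing.maximalIdeal 𝒪')
    (χ : H.heckeAlgebra (↑S : Set ℕ) →+* 𝒪'),
    ∃ (𝒪'' : Type) (_ : CommRing 𝒪'') (_ : IsDomain 𝒪'') (_ : IsDiscreteValuationRing 𝒪'')
      (_ : IsAdicComplete (IsLocalRing.maximalIdeal 𝒪'') 𝒪'')
      (_ : Finite (IsLocalRing.ResidueField 𝒪'')) (_ : CharZero 𝒪'')
      (_ : Algebra 𝒪' 𝒪'') (_ : Module.Finite 𝒪' 𝒪'') (_ : IsLocalHom (algebraMap 𝒪' 𝒪'')),
    Function.Injective (algebraMap 𝒪' 𝒪'') ∧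
    ∃ ρ : GaloisRepAdic 𝒪'',
      (∀ (r : ℕ) (hr : r.Prime) (hrM : ¬ r ∣ M) (hrS : r ∉ (↑S : Set ℕ)),
        ∀ A : ValuationSubring (AlgebraicClosure ℚ), A.LiesOverPrime r →
          ∀ σ : GQ, A.IsFrobeniusAt σ r →
            LinearMap.charpoly (ρ.ρ σ) =
              X ^ 2 - C (algebraMap 𝒪' 𝒪'' (χ (H.Tr hr hrM hrS))) * X
                + C (algebraMap 𝒪' 𝒪'' (χ (H.Dr (↑S : Set ℕ) hr hrM)) * (r : 𝒪''))) ∧
      (∀ q : ℕ, q.Prime → ¬ q ∣ M → q ≠ p → ρ.IsUnramifiedAt q)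

/-- (P1-RES) at the level `M` for the prime `p`: the body of `P1ResStmt`. -/
def P1ResAt (p : ℕ) [Fact p.Prime] (M : ℕ) [NeZero M] : Prop :=
  ∀ (H : G1Ops M 2) (S : Finset ℕ)
    (_hpS : p ∈ S) (_hMS : ∀ q : ℕ, q.Prime → q ∣ M → q ∈ S)
    (k : Type) [Field k] [Finite k] [CharP k p]
    (Θ : H.heckeAlgebra (↑S : Set ℕ) →+* k),
    ∃ (k' : Type) (_ : Field k') (_ : Finite k') (_ : Algebra k k')
      (ρ : GQ →* GL (Fin 2) k'),
      GaloisFactorsThroughFiniteLevel ρ ∧ IsSemisimpleRep ρ ∧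
      (∀ (r : ℕ) (hr : r.Prime) (hrM : ¬ r ∣ M) (hrS : r ∉ (↑S : Set ℕ)),
        ∀ A : ValuationSubring (AlgebraicClosure ℚ), A.LiesOverPrime r →
          ∀ σ : GQ, A.IsFrobeniusAt σ r →
            ((ρ σ : GL (Fin 2) k') : Matrix (Fin 2) (Fin 2) k').charpoly =
              X ^ 2 - C (algebraMap k k' (Θ (H.Tr hr hrM hrS))) * X
                + C (algebraMap k k' (Θ (H.Dr (↑S : Set ℕ) hr hrM)) * (r : k'))) ∧
      (∀ q : ℕ, q.Prime → ¬ q ∣ M → q ≠ p →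
        ∀ A : ValuationSubring (AlgebraicClosure ℚ), A.LiesOverPrime q →
          ∀ σ ∈ A.inertiaSubgroupIn ℚ, ρ σ = 1)

theorem p1Stmt_iff_forall_p1At :
    P1Stmt ↔ ∀ (p : ℕ) [Fact p.Prime] (M : ℕ) [NeZero M], P1At p M :=
  Iff.rfl

theorem p1ResStmt_iff_forall_p1ResAt :
    P1ResStmt ↔ ∀ (p : ℕ) [Fact p.Prime] (M : ℕ) [NeZero M], P1ResAt p M :=
  Iff.rfl

/-! ### The restricted targets (ruling R6) -/

/-- **[SP1]** at the levels carrying a Hauptmodul base (`4 ∣ M` or `9 ∣ M`). -/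
def SP1Stmt49 : Prop :=
  ∀ (M : ℕ) [NeZero M], 2 ≤ M → (4 ∣ M ∨ 9 ∣ M) → ∀ (ℓ : ℕ) (hℓ : ℓ.Prime) (hℓM : ¬ ℓ ∣ M)
    (A : ValuationSubring Qb), A.LiesOverPrime ℓ → SP1 M hℓ hℓM A

/-- **(P1)** at the levels `M` with `4 ∣ M` or `9 ∣ M`: `P1Stmt` with the extra hypothesis. -/
def P1Stmt49 : Prop :=
  ∀ (p : ℕ) [Fact p.Prime] (M : ℕ) [NeZero M], (4 ∣ M ∨ 9 ∣ M) → ∀ (H : G1Ops M 2) (S : Finset ℕ)
    (_hpS : p ∈ S) (_hMS : ∀ q : ℕ, q.Prime → q ∣ M → q ∈ S)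
    (𝒪' : Type) [CommRing 𝒪'] [IsDomain 𝒪'] [IsDiscreteValuationRing 𝒪']
    [IsAdicComplete (IsLocalRing.maximalIdeal 𝒪') 𝒪'] [Finite (IsLocalRing.ResidueField 𝒪')]
    [CharZero 𝒪'] (_hp𝒪' : (p : 𝒪') ∈ IsLocalRing.maximalIdeal 𝒪')
    (χ : H.heckeAlgebra (↑S : Set ℕ) →+* 𝒪'),
    ∃ (𝒪'' : Type) (_ : CommRing 𝒪'') (_ : IsDomain 𝒪'') (_ : IsDiscreteValuationRing 𝒪'')
      (_ : IsAdicComplete (IsLocalRing.maximalIdeal 𝒪'') 𝒪'')
      (_ : Finite (IsLocalRing.ResidueField 𝒪'')) (_ : CharZero 𝒪'')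
      (_ : Algebra 𝒪' 𝒪'') (_ : Module.Finite 𝒪' 𝒪'') (_ : IsLocalHom (algebraMap 𝒪' 𝒪'')),
    Function.Injective (algebraMap 𝒪' 𝒪'') ∧
    ∃ ρ : GaloisRepAdic 𝒪'',
      (∀ (r : ℕ) (hr : r.Prime) (hrM : ¬ r ∣ M) (hrS : r ∉ (↑S : Set ℕ)),
        ∀ A : ValuationSubring (AlgebraicClosure ℚ), A.LiesOverPrime r →
          ∀ σ : GQ, A.IsFrobeniusAt σ r →
            LinearMap.charpoly (ρ.ρ σ) =
              X ^ 2 - C (algebraMap 𝒪' 𝒪'' (χ (H.Tr hr hrM hrS))) * X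
                + C (algebraMap 𝒪' 𝒪'' (χ (H.Dr (↑S : Set ℕ) hr hrM)) * (r : 𝒪''))) ∧
      (∀ q : ℕ, q.Prime → ¬ q ∣ M → q ≠ p → ρ.IsUnramifiedAt q)

/-- **(P1-RES)** at the levels `M` with `4 ∣ M` or `9 ∣ M`: `P1ResStmt` with the extra hypothesis
`4 ∣ M ∨ 9 ∣ M` right after `[NeZero M]`. -/
def P1ResStmt49 : Prop :=
  ∀ (p : ℕ) [Fact p.Prime] (M : ℕ) [NeZero M], (4 ∣ M ∨ 9 ∣ M) → ∀ (H : G1Ops M 2) (S : Finset ℕ)
    (_hpS : p ∈ S) (_hMS : ∀ q : ℕ, q.Prime → q ∣ M → q ∈ S)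
    (k : Type) [Field k] [Finite k] [CharP k p]
    (Θ : H.heckeAlgebra (↑S : Set ℕ) →+* k),
    ∃ (k' : Type) (_ : Field k') (_ : Finite k') (_ : Algebra k k')
      (ρ : GQ →* GL (Fin 2) k'),
      GaloisFactorsThroughFiniteLevel ρ ∧ IsSemisimpleRep ρ ∧
      (∀ (r : ℕ) (hr : r.Prime) (hrM : ¬ r ∣ M) (hrS : r ∉ (↑S : Set ℕ)),
        ∀ A : ValuationSubring (AlgebraicClosure ℚ), A.LiesOverPrime r →
          ∀ σ : GQ, A.IsFrobeniusAt σ r →
            ((ρ σ : GL (Fin 2) k') : Matrix (Fin 2) (Fin 2) k').charpoly =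
              X ^ 2 - C (algebraMap k k' (Θ (H.Tr hr hrM hrS))) * X
                + C (algebraMap k k' (Θ (H.Dr (↑S : Set ℕ) hr hrM)) * (r : k'))) ∧
      (∀ q : ℕ, q.Prime → ¬ q ∣ M → q ≠ p →
        ∀ A : ValuationSubring (AlgebraicClosure ℚ), A.LiesOverPrime q →
          ∀ σ ∈ A.inertiaSubgroupIn ℚ, ρ σ = 1)

theorem p1Stmt49_iff :
    P1Stmt49 ↔ ∀ (p : ℕ) [Fact p.Prime] (M : ℕ) [NeZero M], (4 ∣ M ∨ 9 ∣ M) → P1At p M :=
  Iff.rfl

theorem p1ResStmt49_iff :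
    P1ResStmt49 ↔ ∀ (p : ℕ) [Fact p.Prime] (M : ℕ) [NeZero M], (4 ∣ M ∨ 9 ∣ M) → P1ResAt p M :=
  Iff.rfl

/-- The unrestricted statements imply the restricted ones. -/
theorem p1ResStmt49_of_p1ResStmt (h : P1ResStmt) : P1ResStmt49 :=
  fun p _ M _ _ => h p M

/-! ### Level-wise cores -/

/-- **(P1) at one level** `2 ≤ M` from the three geometric targets at that level. -/
theorem p1At_of_jac (p : ℕ) [Fact p.Prime] (M : ℕ) [NeZero M]
    (KS : Fermat.Agent.ES.J.TateChar11.KummerSystem p (Gamma1 M) (J1 M)) (hK : HeckeCompat1 M KS) (hG : GAL1 M)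
    (hSP : ∀ (ℓ : ℕ) (hℓ : ℓ.Prime) (hℓM : ¬ ℓ ∣ M) (A : ValuationSubring Qb),
      A.LiesOverPrime ℓ → SP1 M hℓ hℓM A) : P1At p M := by
  intro H S hpS hMS 𝒪' _ _ _ _ _ _ hp𝒪' χ
  have I : P1Inputs p M H S := (p1Geom_of_jac KS hK hG hSP).toInputs H S
  obtain ⟨ρ, h1, h2⟩ := exists_rep_of_inputs I hpS hMS hp𝒪' χ
  exact ⟨𝒪', inferInstance, inferInstance, inferInstance, inferInstance, inferInstance,
    inferInstance, Algebra.id 𝒪', Module.Finite.self 𝒪', ⟨fun _ h => h⟩, Function.injective_id,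
    ρ, h1, h2⟩

/-- **(P1-RES) at one level from (P1) at that level and (P1-FIN)** (the proof of
`P1Res8.p1Res_of`, level-wise). -/
theorem p1ResAt_of (p : ℕ) [Fact p.Prime] (M : ℕ) [NeZero M] (hP1 : P1At p M)
    (hFin : P1FinStmt) : P1ResAt p M := by
  intro H S hpS hMS k _ _ _ Θ
  obtain ⟨hcomm, hfin⟩ := hFin M H (↑S : Set ℕ)
  letI instT : CommRing (H.heckeAlgebra (↑S : Set ℕ)) :=
    { (inferInstance : Ring (H.heckeAlgebra (↑S : Set ℕ))) with mul_comm := hcomm }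
  haveI : Module.Finite ℤ (H.heckeAlgebra (↑S : Set ℕ)) :=
    Fermat.Agent.M48.P1Res8.finite_int_of_finite _ hfin
  have htf : ∀ (n : ℤ) (t : H.heckeAlgebra (↑S : Set ℕ)), n ≠ 0 →
      (n : H.heckeAlgebra (↑S : Set ℕ)) * t = 0 → t = 0 := by
    intro n t hn h
    apply Subtype.ext
    have h1 := congrArg Subtype.val h
    have h2 : (n : Module.End ℂ (CuspForm (CongruenceSubgroup.Gamma1 M) 2)) *
        (t : Module.End ℂ (CuspForm (CongruenceSubgroup.Gamma1 M) 2)) = 0 := by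
      simpa using h1
    rw [← zsmul_eq_mul] at h2
    have h3 : ((n : ℂ)) • (t : Module.End ℂ (CuspForm (CongruenceSubgroup.Gamma1 M) 2)) = 0 := by
      rw [← h2]; exact (Int.cast_smul_eq_zsmul ℂ n _)
    rcases smul_eq_zero.mp h3 with h4 | h4
    · exact absurd (by exact_mod_cast h4) hn
    · exact h4
  obtain ⟨χ, φ, hφ⟩ :=
    Fermat.Agent.M48.HeckeLift8.exists_lift (H.heckeAlgebra (↑S : Set ℕ)) htf k Θ
  haveI : CharP (AlgebraicClosure k) p := charP_of_injective_algebraMap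
    (algebraMap k (AlgebraicClosure k)).injective p
  obtain ⟨𝒪', i1, i2, i3, i4, i5, i6, hp𝒪', χ', ψ, hψ, -⟩ :=
    Fermat.Agent.ES.J7.Contracts1.completeDVR (H.heckeAlgebra (↑S : Set ℕ)) χ p
      (AlgebraicClosure k) φ
  obtain ⟨𝒪'', j1, j2, j3, j4, j5, j6, j7, j8, j9, -, ρ, hfrob, hunr⟩ :=
    hP1 H S hpS hMS 𝒪' hp𝒪' χ'
  let res12 : ResidueField 𝒪' →+* ResidueField 𝒪'' := ResidueField.map (algebraMap 𝒪' 𝒪'')
  letI : Algebra (ResidueField 𝒪') (ResidueField 𝒪'') := res12.toAlgebra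
  letI : Algebra (ResidueField 𝒪') (AlgebraicClosure k) := ψ.toAlgebra
  haveI : Module.Finite (ResidueField 𝒪') (ResidueField 𝒪'') := Module.Finite.of_finite
  haveI : Algebra.IsAlgebraic (ResidueField 𝒪') (ResidueField 𝒪'') :=
    Algebra.IsAlgebraic.of_finite _ _
  let ψ'' : ResidueField 𝒪'' →ₐ[ResidueField 𝒪'] AlgebraicClosure k := IsAlgClosed.lift
  have hψ'' : ∀ x : 𝒪', ψ'' (residue 𝒪'' (algebraMap 𝒪' 𝒪'' x)) = ψ (residue 𝒪' x) := by
    intro x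
    have h1 : residue 𝒪'' (algebraMap 𝒪' 𝒪'' x) =
        algebraMap (ResidueField 𝒪') (ResidueField 𝒪'') (residue 𝒪' x) := by
      rw [RingHom.algebraMap_toAlgebra]
      rfl
    rw [h1, AlgHom.commutes, RingHom.algebraMap_toAlgebra]
  obtain ⟨k', hk'fin, j, hj⟩ :=
    Fermat.Agent.M48.P1Res8.exists_finite_overfield k (ResidueField 𝒪'') ψ''.toRingHom
  obtain ⟨r₀, hr₀lvl, hr₀cp, hr₀one⟩ := Fermat.Agent.M48.P1Res8.exists_matrixRep ρ.residual j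
  obtain ⟨r, hrss, hrcp, hrone⟩ := Fermat.Agent.M48.SemiSimple8.exists_semisimple r₀
  have hkey : ∀ t : H.heckeAlgebra (↑S : Set ℕ),
      j (residue 𝒪'' (algebraMap 𝒪' 𝒪'' (χ' t))) = algebraMap k k' (Θ t) := by
    intro t
    apply Subtype.ext
    rw [hj]
    show ψ'' _ = algebraMap k (AlgebraicClosure k) (Θ t)
    rw [hψ'', hψ, hφ]
  refine ⟨k', inferInstance, hk'fin, inferInstance, r, ?_, hrss, ?_, ?_⟩
  · obtain ⟨L, hL, h1⟩ := hr₀lvl
    exact ⟨L, hL, fun σ hσ => hrone σ (h1 σ hσ)⟩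
  · intro q hq hqM hqS A hA σ hσ
    rw [hrcp, hr₀cp, Fermat.Agent.M48.P1Res8.residual_charpoly, hfrob q hq hqM hqS A hA σ hσ,
      Polynomial.map_map]
    simp only [Polynomial.map_add, Polynomial.map_sub, Polynomial.map_mul, Polynomial.map_pow,
      Polynomial.map_X, Polynomial.map_C, RingHom.comp_apply, map_mul, map_natCast,
      Polynomial.map_natCast]
    rw [hkey, hkey]
  · intro q hq hqM hqp A hA σ hσ
    exact hrone σ (hr₀one σ
      (Fermat.Agent.M48.P1Res8.residual_eq_one ρ σ (hunr q hq hqM hqp A hA σ hσ)))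

/-! ### The restricted top theorems -/

theorem two_le_of_49 {M : ℕ} [NeZero M] (h : 4 ∣ M ∨ 9 ∣ M) : 2 ≤ M := by
  have h0 : 0 < M := Nat.pos_of_ne_zero (NeZero.ne M)
  rcases h with h | h
  · have := Nat.le_of_dvd h0 h
    omega
  · have := Nat.le_of_dvd h0 h
    omega

/-- **(P1) at the levels with a Hauptmodul base from the literal targets.** -/
theorem p1_49_of_jac (hKUM : KUM1Stmt) (hGAL : GAL1Stmt) (hSP : SP1Stmt49) : P1Stmt49 := by
  intro p _ M _ h49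
  have hM : 2 ≤ M := two_le_of_49 h49
  obtain ⟨KS, hK⟩ := hKUM p M hM
  exact p1At_of_jac p M KS hK (hGAL M hM) (hSP M hM h49)

/-- **(P1-RES) at the levels with a Hauptmodul base from (P1) there and (P1-FIN).** -/
theorem p1Res49_of (hP1 : P1Stmt49) (hFin : P1FinStmt) : P1ResStmt49 :=
  fun p _ M _ h49 => p1ResAt_of p M (hP1 p M h49) hFin

/-- **(P1-RES) at the levels with a Hauptmodul base from the literal targets of the geometric
chapters** (what `ResFam7.resFam49` consumes). -/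
theorem p1Res49_of_jac (hKUM : KUM1Stmt) (hGAL : GAL1Stmt) (hSP : SP1Stmt49) : P1ResStmt49 :=
  p1Res49_of (p1_49_of_jac hKUM hGAL hSP) p1FinStmt

end Fermat.Agent.M48.P1Jac49_8
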