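/-
M48 (lead), leaf (W1-RAT), part (O4) for the form `f` of S48: infinitely many primes `ℓ ∤ 2N` with
a subring `A ⊆ ℂ` containing all `q`-coefficients of `f`, all values of `ε` and all `(ℓ-1)`-st
roots of unity, and a ring homomorphism `A →+* ZMod ℓ` — from the leaf (R2a) alone
(`W1R2a0.R2Rat (Γ₁(4N))`).  Combines `W1R2a0.w1rat_of_r2a` (finite generation of the coefficient
module) with `W1Red0.exists_reductions`.
-/
import Mathlib
import Fermat.Agent.M48.W1R2a0
import Fermat.Agent.M48.W1Red0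

set_option autoImplicit false

open UpperHalfPlane ModularForm ModularFormClass CongruenceSubgroup
open scoped MatrixGroups ModularForm Manifold Real

noncomputable section

namespace Fermat.Agent.M48.W1RedF0

open Fermat.Agent.M48.W1R2a0

variable (N : ℕ) [NeZero N]

/-- **(O4) for `f`, from (R2a) alone.** -/
theorem exists_reductions_of_r2a (ε : DirichletCharacter ℂ N) (f : CuspForm (Gamma1 N) 1)
    (hf₁ : ModularFormClass.qCoeff f 1 = 1)
    (hT : ∀ p : ℕ, p.Prime → ¬ p ∣ N → ∀ n : ℕ,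
        ModularFormClass.qCoeff f (p * n) +
            ε (p : ZMod N) * (if p ∣ n then ModularFormClass.qCoeff f (n / p) else 0) =
          ModularFormClass.qCoeff f p * ModularFormClass.qCoeff f n)
    (hR2a : R2Rat ((Gamma1 (N * 4) : Subgroup SL(2, ℤ)) : Subgroup (GL (Fin 2) ℝ))) :
    ∃ L : Set ℕ, L.Infinite ∧ ∀ ℓ ∈ L, ℓ.Prime ∧ ¬ ℓ ∣ 2 * N ∧
      ∃ (A : Subring ℂ) (_ : A →+* ZMod ℓ),
        (∀ n, ModularFormClass.qCoeff f n ∈ A) ∧ (∀ d : ZMod N, ε d ∈ A) ∧
          ∀ ζ : ℂ, ζ ^ (ℓ - 1) = 1 → ζ ∈ A :=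
  W1Red0.exists_reductions ε (fun n => ModularFormClass.qCoeff f n)
    (w1rat_of_r2a N ε f hf₁ hT hR2a).1 (2 * N) (mul_ne_zero two_ne_zero (NeZero.ne N))

end Fermat.Agent.M48.W1RedF0
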