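/-
M48 (helper7), block (RESFAM): **the residual family of the weight-one form of S48.**

From
* `P1Target8.P1ResStmt` (block (P1-RES), helper8 + …: residual representations attached to ring homomorphisms from
  the `Γ₁(M)` Hecke algebra of weight two to a finite field), and
* leaf (R2a) at level `4N` (`W1R2a0.R2Rat`; through lead's `W1RedF0.exists_reductions_of_r2a` = (O4) and
  `W1R2a0.w1rat_of_r2a` = integrality),
the literal body of lead's `Top0.ResFamStmt`: a `DSInterfaces9.ResBase` and, for infinitely many primes `ℓ`, a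
`DSInterfaces9.ResDatum`.

* `R` := the subring of `ℂ` generated by the `a_p(f)` (`p ∤ N` prime) and the values of `ε`;
* for `ℓ ∈ L`: `Θ := Theta7.exists_theta` with `F = ZMod ℓ`, `S` = the prime divisors of `N ℓ`; (P1-RES) for
  `H = OpsInst1.ops1 (N ℓ) 2`, `k = ZMod ℓ` gives `k' ⊇ 𝔽_ℓ` and `ρ : G_ℚ → GL₂(k')`; trace and determinant of
  Frobenius from the characteristic polynomial `X² - Θ(T_p) X + Θ(⟨p⟩) p`.

Imported by no statement.
-/
import Mathlib
import Fermat.Agent.M48.Theta7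
import Fermat.Agent.M48.OpsInst1
import Fermat.Agent.M48.DSInterfaces9
import Fermat.Agent.M48.W1RedF0

set_option autoImplicit false
set_option linter.unusedSectionVars false

open CongruenceSubgroup UpperHalfPlane ModularFormClass Polynomial
open scoped MatrixGroups ModularForm

noncomputable section

namespace Fermat.Agent.M48.ResFam7

open Fermat.Agent.M48.Diamond1 Fermat.Agent.M48.HeckeOne1 Fermat.Agent.M48.P1Target8
  Fermat.Agent.M48.DSInterfaces9 Fermat.Agent.M48.OpsInst1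

/-- trace and determinant of a `2 × 2` matrix from its characteristic polynomial. -/
theorem trace_det_of_charpoly {k : Type*} [Field k] (M : Matrix (Fin 2) (Fin 2) k) (t d : k)
    (h : M.charpoly = X ^ 2 - C t * X + C d) : M.trace = t ∧ M.det = d := by
  rw [Matrix.charpoly_fin_two] at h
  have h1 := congrArg (fun p : k[X] => p.coeff 1) h
  have h0 := congrArg (fun p : k[X] => p.coeff 0) h
  simp only [coeff_add, coeff_sub, coeff_X_pow, coeff_C_mul, coeff_X_one,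
    coeff_X_zero, coeff_C] at h1 h0
  norm_num at h1 h0
  exact ⟨h1, h0⟩

section

variable (N : ℕ) [NeZero N] (ε : DirichletCharacter ℂ N) (f : CuspForm (Gamma1 N) 1)

/-- the generators of the coefficient ring. -/
def gens : Set ℂ :=
  {z | ∃ p : ℕ, p.Prime ∧ ¬ p ∣ N ∧ z = ModularFormClass.qCoeff f p} ∪ Set.range ε

/-- the coefficient ring: generated by the `a_p(f)`, `p ∤ N` prime, and the values of `ε`. -/
def coeffRing : Subring ℂ := Subring.closure (gens N ε f)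

theorem qCoeff_mem_coeffRing {p : ℕ} (hp : p.Prime) (hpN : ¬ p ∣ N) :
    ModularFormClass.qCoeff f p ∈ coeffRing N ε f :=
  Subring.subset_closure (Or.inl ⟨p, hp, hpN, rfl⟩)

theorem eps_mem_coeffRing (d : ZMod N) : ε d ∈ coeffRing N ε f :=
  Subring.subset_closure (Or.inr ⟨d, rfl⟩)

theorem coeffRing_le {A : Subring ℂ} (hA : ∀ n, ModularFormClass.qCoeff f n ∈ A)
    (hε : ∀ d : ZMod N, ε d ∈ A) : coeffRing N ε f ≤ A := by
  refine Subring.closure_le.2 ?_
  rintro z (⟨p, -, -, rfl⟩ | ⟨d, rfl⟩)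
  · exact hA p
  · exact hε d

theorem isIntegral_of_mem_coeffRing
    (hint : ∀ p : ℕ, p.Prime → ¬ p ∣ N → IsIntegral ℤ (ModularFormClass.qCoeff f p))
    {x : ℂ} (hx : x ∈ coeffRing N ε f) : IsIntegral ℤ x := by
  have hle : coeffRing N ε f ≤ (integralClosure ℤ ℂ).toSubring := by
    refine Subring.closure_le.2 ?_
    rintro z (⟨p, hp, hpN, rfl⟩ | ⟨d, rfl⟩)
    · exact hint p hp hpN
    · exact W1Rat0.isIntegral_char ε d
  exact hle hx

open Classical in
/-- the `ResBase` of the form of S48. -/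
def resBase (hint : ∀ p : ℕ, p.Prime → ¬ p ∣ N → IsIntegral ℤ (ModularFormClass.qCoeff f p)) :
    ResBase N (fun n => ModularFormClass.qCoeff f n) (fun p => ε (p : ZMod N)) where
  R := coeffRing N ε f
  ι := (coeffRing N ε f).subtype
  ι_inj := Subtype.val_injective
  int x := isIntegral_of_mem_coeffRing N ε f hint x.2
  b p := if h : p.Prime ∧ ¬ p ∣ N then ⟨ModularFormClass.qCoeff f p, qCoeff_mem_coeffRing N ε f h.1 h.2⟩
    else 0
  c p := ⟨ε (p : ZMod N), eps_mem_coeffRing N ε f _⟩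
  hb p hp hpN := by rw [dif_pos ⟨hp, hpN⟩]; rfl
  hc p _ _ := rfl
  e_fin := (Set.finite_range ε).subset (by rintro z ⟨p, -, -, rfl⟩; exact ⟨_, rfl⟩)

/-- one residual datum, from (P1-RES), (THETA) and a reduction `φ : A →+* ZMod ℓ`. -/
theorem nonempty_resDatum (hP1 : P1ResStmt) {ℓ : ℕ} [Fact ℓ.Prime] (hℓ2 : ℓ ≠ 2)
    (hf₁ : ModularFormClass.qCoeff f 1 = 1)
    (hT : ∀ p : ℕ, p.Prime → ¬ p ∣ N → ∀ n : ℕ,
        ModularFormClass.qCoeff f (p * n) +
            ε (p : ZMod N) * (if p ∣ n then ModularFormClass.qCoeff f (n / p) else 0) =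
          ModularFormClass.qCoeff f p * ModularFormClass.qCoeff f n)
    (hint : ∀ p : ℕ, p.Prime → ¬ p ∣ N → IsIntegral ℤ (ModularFormClass.qCoeff f p))
    (A : Subring ℂ) (φ : A →+* ZMod ℓ) (hA : ∀ n, ModularFormClass.qCoeff f n ∈ A)
    (hε : ∀ d : ZMod N, ε d ∈ A) (hμ : ∀ ζ : ℂ, ζ ^ (ℓ - 1) = 1 → ζ ∈ A) :
    Nonempty (ResDatum (resBase N ε f hint) ℓ) := by
  classical
  have hℓp : ℓ.Prime := Fact.out
  have hM0 : N * ℓ ≠ 0 := mul_ne_zero (NeZero.ne N) hℓp.ne_zero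
  have hℓS : ℓ ∈ (N * ℓ).primeFactors := Nat.mem_primeFactors.2 ⟨hℓp, dvd_mul_left ℓ N, hM0⟩
  have hMS : ∀ q : ℕ, q.Prime → q ∣ N * ℓ → q ∈ (N * ℓ).primeFactors := fun q hq hqM =>
    Nat.mem_primeFactors.2 ⟨hq, hqM, hM0⟩
  obtain ⟨Θ, hΘT, hΘd⟩ := Theta7.exists_theta hℓ2 ε f hf₁ hT A φ hA hε hμ
    (↑(N * ℓ).primeFactors : Set ℕ)
  obtain ⟨k', hk'F, hk'fin, hk'alg, ρ, hlev, hss, hchar, hunr⟩ :=
    hP1 ℓ (N * ℓ) (ops1 (N * ℓ) 2) (N * ℓ).primeFactors hℓS hMS (ZMod ℓ) Θ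
  letI := hk'F
  letI := hk'alg
  have hRA : coeffRing N ε f ≤ A := coeffRing_le N ε f hA hε
  haveI : CharP k' ℓ := charP_of_injective_algebraMap (algebraMap (ZMod ℓ) k').injective ℓ
  refine ⟨{ k := k'
            φ := (algebraMap (ZMod ℓ) k').comp (φ.comp (Subring.inclusion hRA))
            φ_prime := fun x => ?_
            ρ := ρ
            level := hlev
            ss := hss
            unram := fun p hp hpM V hV σ hσ => ?_
            frob := fun p hp hpM V hV σ hσ => ?_ }⟩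
  · rw [RingHom.comp_apply, ← map_pow, ZMod.pow_card]
  · refine hunr p hp hpM ?_ V hV σ hσ
    rintro rfl
    exact hpM (dvd_mul_left p N)
  · have hpS : p ∉ (↑(N * ℓ).primeFactors : Set ℕ) := fun h =>
      hpM (Nat.dvd_of_mem_primeFactors (Finset.mem_coe.1 h))
    have hpN : ¬ p ∣ N := fun h => hpM (h.trans (dvd_mul_right N ℓ))
    obtain ⟨ht, hd⟩ := trace_det_of_charpoly _ _ _ (hchar p hp hpM hpS V hV σ hσ)
    have e1 : Θ ((ops1 (N * ℓ) 2).Tr hp hpM hpS) = φ ⟨ModularFormClass.qCoeff f p, hA p⟩ :=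
      (congrArg Θ (Subtype.ext (Tnat_of_prime hp hpM) :
        (ops1 (N * ℓ) 2).Tr hp hpM hpS = ⟨T1 2 hp hpM, T1_mem_heckeAlgebra1 hp hpM hpS⟩)).trans
        (hΘT p hp hpM hpS)
    have e2 : Θ ((ops1 (N * ℓ) 2).Dr (↑(N * ℓ).primeFactors : Set ℕ) hp hpM) * (p : ZMod ℓ) =
        φ ⟨ε (p : ZMod N), hε _⟩ :=
      hΘd (ZMod.unitOfCoprime p ((Nat.Prime.coprime_iff_not_dvd hp).mpr hpM)) p
        (ZMod.coe_unitOfCoprime p _).symm
    refine ⟨?_, ?_⟩
    · refine ht.trans ((congrArg (algebraMap (ZMod ℓ) k') e1).trans ?_)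
      show _ = algebraMap (ZMod ℓ) k' (φ (Subring.inclusion hRA ((resBase N ε f hint).b p)))
      congr 2
      apply Subtype.ext
      exact ((resBase N ε f hint).hb p hp hpN).symm
    · refine hd.trans ?_
      have e3 : (p : k') = algebraMap (ZMod ℓ) k' (p : ZMod ℓ) := (map_natCast _ p).symm
      rw [e3, ← map_mul]
      exact congrArg (algebraMap (ZMod ℓ) k') e2

/-- **(RESFAM)**: the literal body of `Top0.ResFamStmt`, from (P1-RES) and (R2a) at level `4N`. -/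
theorem resFam (hP1 : P1ResStmt)
    (hf₁ : ModularFormClass.qCoeff f 1 = 1)
    (hT : ∀ p : ℕ, p.Prime → ¬ p ∣ N → ∀ n : ℕ,
        ModularFormClass.qCoeff f (p * n) +
            ε (p : ZMod N) * (if p ∣ n then ModularFormClass.qCoeff f (n / p) else 0) =
          ModularFormClass.qCoeff f p * ModularFormClass.qCoeff f n)
    (hR2a : W1R2a0.R2Rat ((Gamma1 (N * 4) : Subgroup SL(2, ℤ)) : Subgroup (GL (Fin 2) ℝ))) :
    ∃ (B : ResBase N (fun n => ModularFormClass.qCoeff f n) (fun p => ε (p : ZMod N)))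
      (L : Set ℕ), L.Infinite ∧ ∀ ℓ ∈ L, ℓ.Prime ∧ Nonempty (ResDatum B ℓ) := by
  obtain ⟨-, K, -, hεK, haK, hint, -⟩ := W1R2a0.w1rat_of_r2a N ε f hf₁ hT hR2a
  obtain ⟨L, hL, hfam⟩ := W1RedF0.exists_reductions_of_r2a N ε f hf₁ hT hR2a
  refine ⟨resBase N ε f hint, L, hL, fun ℓ hℓ => ?_⟩
  obtain ⟨hℓp, hℓ2N, A, φ, hA, hε, hμ⟩ := hfam ℓ hℓ
  refine ⟨hℓp, ?_⟩
  haveI : Fact ℓ.Prime := ⟨hℓp⟩
  have hℓ2 : ℓ ≠ 2 := by
    rintro rfl
    exact hℓ2N (dvd_mul_right 2 N)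
  exact nonempty_resDatum N ε f hP1 hℓ2 hf₁ hT hint A φ hA hε hμ

end

end Fermat.Agent.M48.ResFam7
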