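/-
M48 (helper7), block (RESFAM), ruling R6: **the residual family from the level-restricted (P1-RES).**

`ResFam7.resFam` consumes the full `P1Target8.P1ResStmt`, but only at the levels `M = N ℓ`.  After ruling R6
the reduction chapter delivers (P1-RES) only at the levels `M` with `4 ∣ M` or `9 ∣ M`
(`P1Jac49_8.P1ResStmt49`); for `4 ∣ N` or `9 ∣ N` the levels `N ℓ` are of this kind.  This file repeats the
level-wise core (`nonempty_resDatum_at`, with hypothesis `P1Jac49_8.P1ResAt ℓ (N ℓ)`) and states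

* `resFam49 N ε f (hP1 : P1ResStmt49) (h49 : 4 ∣ N ∨ 9 ∣ N) hf₁ hT hR2a` : same conclusion as `ResFam7.resFam`.

Imported by no statement.
-/
import Mathlib
import Fermat.Agent.M48.ResFam7
import Fermat.Agent.M48.P1Jac49_8

set_option autoImplicit false
set_option linter.unusedSectionVars false
set_option linter.style.haveILetI false

open CongruenceSubgroup UpperHalfPlane ModularFormClass Polynomial
open scoped MatrixGroups ModularForm

noncomputable section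

namespace Fermat.Agent.M48.ResFam49_7

open Fermat.Agent.M48.Diamond1 Fermat.Agent.M48.HeckeOne1 Fermat.Agent.M48.P1Target8
  Fermat.Agent.M48.DSInterfaces9 Fermat.Agent.M48.OpsInst1 Fermat.Agent.M48.ResFam7
  Fermat.Agent.M48.P1Jac49_8

variable (N : ℕ) [NeZero N] (ε : DirichletCharacter ℂ N) (f : CuspForm (Gamma1 N) 1)

/-- one residual datum, from (P1-RES) AT THE LEVEL `N ℓ`, (THETA) and a reduction `φ : A →+* ZMod ℓ`. -/
theorem nonempty_resDatum_at {ℓ : ℕ} [Fact ℓ.Prime]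
    (hP1 : haveI : NeZero (N * ℓ) := ⟨mul_ne_zero (NeZero.ne N) (Fact.out : ℓ.Prime).ne_zero⟩
      P1ResAt ℓ (N * ℓ))
    (hℓ2 : ℓ ≠ 2)
    (hf₁ : ModularFormClass.qCoeff f 1 = 1)
    (hT : ∀ p : ℕ, p.Prime → ¬ p ∣ N → ∀ n : ℕ,
        ModularFormClass.qCoeff f (p * n) +
            ε (p : ZMod N) * (if p ∣ n then ModularFormClass.qCoeff f (n / p) else 0) =
          ModularFormClass.qCoeff f p * ModularFormClass.qCoeff f n)
    (hint : ∀ p : ℕ, p.Prime → ¬ p ∣ N → IsIntegral ℤ (ModularFormClass.qCoeff f p))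
    (A : Subring ℂ) (φ : A →+* ZMod ℓ) (hA : ∀ n, ModularFormClass.qCoeff f n ∈ A)
    (hε : ∀ d : ZMod N, ε d ∈ A) (hμ : ∀ ζ : ℂ, ζ ^ (ℓ - 1) = 1 → ζ ∈ A) :
    Nonempty (ResDatum (resBase N ε f hint) ℓ) := by
  classical
  have hℓp : ℓ.Prime := Fact.out
  have hM0 : N * ℓ ≠ 0 := mul_ne_zero (NeZero.ne N) hℓp.ne_zero
  have hℓS : ℓ ∈ (N * ℓ).primeFactors := Nat.mem_primeFactors.2 ⟨hℓp, dvd_mul_left ℓ N, hM0⟩
  have hMS : ∀ q : ℕ, q.Prime → q ∣ N * ℓ → q ∈ (N * ℓ).primeFactors := fun q hq hqM =>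
    Nat.mem_primeFactors.2 ⟨hq, hqM, hM0⟩
  obtain ⟨Θ, hΘT, hΘd⟩ := Theta7.exists_theta hℓ2 ε f hf₁ hT A φ hA hε hμ
    (↑(N * ℓ).primeFactors : Set ℕ)
  obtain ⟨k', hk'F, hk'fin, hk'alg, ρ, hlev, hss, hchar, hunr⟩ :=
    hP1 (ops1 (N * ℓ) 2) (N * ℓ).primeFactors hℓS hMS (ZMod ℓ) Θ
  letI := hk'F
  letI := hk'alg
  have hRA : coeffRing N ε f ≤ A := coeffRing_le N ε f hA hε
  haveI : CharP k' ℓ := charP_of_injective_algebraMap (algebraMap (ZMod ℓ) k').injective ℓ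
  refine ⟨{ k := k'
            φ := (algebraMap (ZMod ℓ) k').comp (φ.comp (Subring.inclusion hRA))
            φ_prime := fun x => ?_
            ρ := ρ
            level := hlev
            ss := hss
            unram := fun p hp hpM V hV σ hσ => ?_
            frob := fun p hp hpM V hV σ hσ => ?_ }⟩
  · rw [RingHom.comp_apply, ← map_pow, ZMod.pow_card]
  · refine hunr p hp hpM ?_ V hV σ hσ
    rintro rfl
    exact hpM (dvd_mul_left p N)
  · have hpS : p ∉ (↑(N * ℓ).primeFactors : Set ℕ) := fun h =>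
      hpM (Nat.dvd_of_mem_primeFactors (Finset.mem_coe.1 h))
    have hpN : ¬ p ∣ N := fun h => hpM (h.trans (dvd_mul_right N ℓ))
    obtain ⟨ht, hd⟩ := trace_det_of_charpoly _ _ _ (hchar p hp hpM hpS V hV σ hσ)
    have e1 : Θ ((ops1 (N * ℓ) 2).Tr hp hpM hpS) = φ ⟨ModularFormClass.qCoeff f p, hA p⟩ :=
      (congrArg Θ (Subtype.ext (Tnat_of_prime hp hpM) :
        (ops1 (N * ℓ) 2).Tr hp hpM hpS = ⟨T1 2 hp hpM, T1_mem_heckeAlgebra1 hp hpM hpS⟩)).trans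
        (hΘT p hp hpM hpS)
    have e2 : Θ ((ops1 (N * ℓ) 2).Dr (↑(N * ℓ).primeFactors : Set ℕ) hp hpM) * (p : ZMod ℓ) =
        φ ⟨ε (p : ZMod N), hε _⟩ :=
      hΘd (ZMod.unitOfCoprime p ((Nat.Prime.coprime_iff_not_dvd hp).mpr hpM)) p
        (ZMod.coe_unitOfCoprime p _).symm
    refine ⟨?_, ?_⟩
    · refine ht.trans ((congrArg (algebraMap (ZMod ℓ) k') e1).trans ?_)
      show _ = algebraMap (ZMod ℓ) k' (φ (Subring.inclusion hRA ((resBase N ε f hint).b p)))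
      congr 2
      apply Subtype.ext
      exact ((resBase N ε f hint).hb p hp hpN).symm
    · refine hd.trans ?_
      have e3 : (p : k') = algebraMap (ZMod ℓ) k' (p : ZMod ℓ) := (map_natCast _ p).symm
      rw [e3, ← map_mul]
      exact congrArg (algebraMap (ZMod ℓ) k') e2

/-- **(RESFAM), ruling R6**: the literal body of `Top0.ResFamStmt` at a level `N` with `4 ∣ N` or `9 ∣ N`,
from the level-restricted (P1-RES) and (R2a) at level `4N`. -/
theorem resFam49 (hP1 : P1ResStmt49) (h49 : 4 ∣ N ∨ 9 ∣ N)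
    (hf₁ : ModularFormClass.qCoeff f 1 = 1)
    (hT : ∀ p : ℕ, p.Prime → ¬ p ∣ N → ∀ n : ℕ,
        ModularFormClass.qCoeff f (p * n) +
            ε (p : ZMod N) * (if p ∣ n then ModularFormClass.qCoeff f (n / p) else 0) =
          ModularFormClass.qCoeff f p * ModularFormClass.qCoeff f n)
    (hR2a : W1R2a0.R2Rat ((Gamma1 (N * 4) : Subgroup SL(2, ℤ)) : Subgroup (GL (Fin 2) ℝ))) :
    ∃ (B : ResBase N (fun n => ModularFormClass.qCoeff f n) (fun p => ε (p : ZMod N)))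
      (L : Set ℕ), L.Infinite ∧ ∀ ℓ ∈ L, ℓ.Prime ∧ Nonempty (ResDatum B ℓ) := by
  obtain ⟨-, K, -, hεK, haK, hint, -⟩ := W1R2a0.w1rat_of_r2a N ε f hf₁ hT hR2a
  obtain ⟨L, hL, hfam⟩ := W1RedF0.exists_reductions_of_r2a N ε f hf₁ hT hR2a
  refine ⟨resBase N ε f hint, L, hL, fun ℓ hℓ => ?_⟩
  obtain ⟨hℓp, hℓ2N, A, φ, hA, hε, hμ⟩ := hfam ℓ hℓ
  refine ⟨hℓp, ?_⟩
  haveI : Fact ℓ.Prime := ⟨hℓp⟩
  haveI : NeZero (N * ℓ) := ⟨mul_ne_zero (NeZero.ne N) hℓp.ne_zero⟩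
  have hℓ2 : ℓ ≠ 2 := by
    rintro rfl
    exact hℓ2N (dvd_mul_right 2 N)
  have h49' : 4 ∣ N * ℓ ∨ 9 ∣ N * ℓ := h49.imp (fun h => h.mul_right ℓ) (fun h => h.mul_right ℓ)
  exact nonempty_resDatum_at N ε f (hP1 ℓ (N * ℓ) h49') hℓ2 hf₁ hT hint A φ hA hε hμ

end Fermat.Agent.M48.ResFam49_7
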