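/-
M48 (lead), block [GLUE49]: **the conclusion of S48 at the levels `4N` and `9N` gives it at `N`.**

Ruling R6 of block (P1) proves the reduction theory only at levels divisible by `4` or `9`; the
representation attached at level `4N` has the required properties at all `p ∤ 4N`, the one at
level `9N` at all `p ∤ 9N`.  Here:

* `exists_frobenius` : (CHEB) => every element of `G_ℚ` is, in any finite-level quotient and up to
  conjugation and inversion, a Frobenius at a prime not dividing a given `m`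
  (`DSCheb9.cheb_rep`: positive lower density => nonempty);
* `trace_eq` : two finite-level `ρ₁, ρ₂ : G_ℚ → GL₂(ℂ)` whose Frobenius traces and determinants
  agree outside `6N` have the same trace everywhere (`tr g` from `tr g⁻¹`, `det g⁻¹` for `2 × 2`);
* `exists_equiv` : irreducible + same trace on a finite group => equivalent (Mathlib's
  `Representation.char_orthonormal`);
* `transport` : an equivalence transports `ρ g = 1` and `det`;
* `glue : ChebStmt → N ≠ 0 → Conclusion (4 * N) a e → Conclusion (9 * N) a e → Conclusion N a e`.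

Nothing is left unproved in this file.  Imported by no statement.
-/
import Mathlib
import Fermat.Agent.M48.DSInterfaces9
import Fermat.Agent.M48.DSCheb9
import Fermat.Agent.M48.DSDensity9
import Fermat.Agent.M48.DSRep9

set_option autoImplicit false
set_option linter.style.haveILetI false

noncomputable section

namespace Fermat.Agent.M48.Glue0

open Fermat.Agent.M48.DSInterfaces9 Fermat.Agent.M48.DSDensity9 Fermat.Agent.M48.DSCheb9

local notation "Qbar" => AlgebraicClosure ℚ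
local notation "GQ" => (AlgebraicClosure ℚ ≃ₐ[ℚ] AlgebraicClosure ℚ)

/-! ### `2 × 2` matrices -/

theorem det_ne_zero' (g : GL (Fin 2) ℂ) : (g : Matrix (Fin 2) (Fin 2) ℂ).det ≠ 0 := by
  have h := (Matrix.GeneralLinearGroup.det g).ne_zero
  rwa [Matrix.GeneralLinearGroup.val_det_apply] at h

theorem trace_inv (g : GL (Fin 2) ℂ) :
    ((g⁻¹ : GL (Fin 2) ℂ) : Matrix (Fin 2) (Fin 2) ℂ).trace =
      (g : Matrix (Fin 2) (Fin 2) ℂ).trace / (g : Matrix (Fin 2) (Fin 2) ℂ).det := by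
  have hd := det_ne_zero' g
  rw [Matrix.coe_units_inv, Matrix.inv_def, Matrix.adjugate_fin_two, Matrix.trace_smul,
    Matrix.trace_fin_two, Matrix.trace_fin_two]
  simp
  field_simp
  ring

theorem det_inv' (g : GL (Fin 2) ℂ) :
    ((g⁻¹ : GL (Fin 2) ℂ) : Matrix (Fin 2) (Fin 2) ℂ).det =
      ((g : Matrix (Fin 2) (Fin 2) ℂ).det)⁻¹ := by
  rw [Matrix.coe_units_inv, Matrix.det_nonsing_inv, Ring.inverse_eq_inv']

theorem trace_conj'' (h g : GL (Fin 2) ℂ) :
    ((h * g * h⁻¹ : GL (Fin 2) ℂ) : Matrix (Fin 2) (Fin 2) ℂ).trace =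
      (g : Matrix (Fin 2) (Fin 2) ℂ).trace := by
  rw [Units.val_mul, Units.val_mul, Matrix.trace_mul_comm, ← mul_assoc, ← Units.val_mul,
    inv_mul_cancel, Units.val_one, one_mul]

theorem det_conj'' (h g : GL (Fin 2) ℂ) :
    ((h * g * h⁻¹ : GL (Fin 2) ℂ) : Matrix (Fin 2) (Fin 2) ℂ).det =
      (g : Matrix (Fin 2) (Fin 2) ℂ).det := by
  rw [Units.val_mul, Units.val_mul, Matrix.det_mul, Matrix.det_mul, mul_comm, ← mul_assoc,
    ← Matrix.det_mul, ← Units.val_mul, inv_mul_cancel, Units.val_one, Matrix.det_one, one_mul]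

/-- trace and determinant of `g` from those of `g⁻¹`. -/
theorem trace_det_of_inv {g₁ g₂ : GL (Fin 2) ℂ}
    (ht : ((g₁⁻¹ : GL (Fin 2) ℂ) : Matrix (Fin 2) (Fin 2) ℂ).trace =
      ((g₂⁻¹ : GL (Fin 2) ℂ) : Matrix (Fin 2) (Fin 2) ℂ).trace)
    (hd : ((g₁⁻¹ : GL (Fin 2) ℂ) : Matrix (Fin 2) (Fin 2) ℂ).det =
      ((g₂⁻¹ : GL (Fin 2) ℂ) : Matrix (Fin 2) (Fin 2) ℂ).det) :
    (g₁ : Matrix (Fin 2) (Fin 2) ℂ).trace = (g₂ : Matrix (Fin 2) (Fin 2) ℂ).trace ∧
      (g₁ : Matrix (Fin 2) (Fin 2) ℂ).det = (g₂ : Matrix (Fin 2) (Fin 2) ℂ).det := by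
  have h1 := trace_inv g₁⁻¹
  have h2 := trace_inv g₂⁻¹
  rw [inv_inv] at h1 h2
  refine ⟨by rw [h1, h2, ht, hd], ?_⟩
  rw [det_inv', det_inv'] at hd
  exact inv_injective hd

/-! ### Every element is a Frobenius up to conjugation and inversion -/

theorem PZ_empty (s : ℝ) : PZ (∅ : Set ℕ) s = 0 := by
  unfold PZ
  exact tsum_empty

theorem nonempty_of_lowerDens {S : Set ℕ} {δ : ℝ} (hδ : 0 < δ) (h : LowerDens S δ) :
    S.Nonempty := by
  by_contra hS
  rw [Set.not_nonempty_iff_eq_empty] at hS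
  subst hS
  obtain ⟨C, hC⟩ := h
  have : δ ≤ 0 := nonpos_of_mul_lg_le (C := C) fun s hs => by
    have := hC s hs
    rw [PZ_empty] at this
    linarith
  linarith

theorem exists_frobenius (hC : ChebStmt) {M : Type} [Group M] (ρ : GQ →* M)
    (hlev : GaloisFactorsThroughFiniteLevel ρ) (g : GQ) (m : ℕ) (hm : m ≠ 0) :
    ∃ p : ℕ, p.Prime ∧ ¬ p ∣ m ∧ ∃ (A : ValuationSubring Qbar) (σ : GQ),
      A.LiesOverPrime p ∧ A.IsFrobeniusAt σ p ∧
        ∃ h : GQ, ρ σ = ρ h * ρ g * (ρ h)⁻¹ ∨ ρ σ = ρ h * (ρ g)⁻¹ * (ρ h)⁻¹ := by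
  set C₀ : Set M := {y | ∃ h : GQ, y = ρ h * ρ g * (ρ h)⁻¹ ∨ y = ρ h * (ρ g)⁻¹ * (ρ h)⁻¹}
    with hC₀
  have hconj : ∀ x ∈ ρ.range, ∀ y ∈ C₀, x * y * x⁻¹ ∈ C₀ := by
    rintro _ ⟨k, rfl⟩ y ⟨h, hy⟩
    refine ⟨k * h, ?_⟩
    rcases hy with rfl | rfl
    · left; rw [map_mul]; group
    · right; rw [map_mul]; group
  have hinv : ∀ y ∈ C₀, y⁻¹ ∈ C₀ := by
    rintro y ⟨h, hy⟩
    refine ⟨h, ?_⟩
    rcases hy with rfl | rfl
    · right; group
    · left; group
  have : Finite ρ.range := finite_range ρ hlev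
  have hmem : ρ g ∈ C₀ ∩ (ρ.range : Set M) :=
    ⟨⟨1, Or.inl (by rw [map_one]; group)⟩, ⟨g, rfl⟩⟩
  have : Finite ↥(C₀ ∩ (ρ.range : Set M)) :=
    Finite.of_injective (fun x : ↥(C₀ ∩ (ρ.range : Set M)) => (⟨x.1, x.2.2⟩ : ρ.range))
      fun x y hxy => Subtype.ext (congrArg (fun z : ρ.range => (z : M)) hxy)
  have : Nonempty ↥(C₀ ∩ (ρ.range : Set M)) := ⟨⟨ρ g, hmem⟩⟩
  have h1 : 0 < (Nat.card ↥(C₀ ∩ (ρ.range : Set M)) : ℝ) := by exact_mod_cast Nat.card_pos
  have h2 : 0 < (Nat.card ρ.range : ℝ) := by exact_mod_cast Nat.card_pos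
  set δ : ℝ := (Nat.card ↥(C₀ ∩ (ρ.range : Set M)) : ℝ) / Nat.card ρ.range with hδ
  have hδpos : 0 < δ := div_pos h1 h2
  have key := cheb_rep hC ρ hlev C₀ hconj hinv m hm (δ / 2) (by positivity)
  have hne := nonempty_of_lowerDens (by rw [← hδ]; linarith) key
  obtain ⟨p, hp, hpm, A, σ, hA, hσ, h, hh⟩ := hne
  exact ⟨p, hp, hpm, A, σ, hA, hσ, h, hh⟩


/-! ### Equality of traces -/

theorem not_dvd_four_mul {p N : ℕ} (hp : p.Prime) (h : ¬ p ∣ 6 * N) : ¬ p ∣ 4 * N := by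
  intro h4
  apply h
  rcases (Nat.Prime.dvd_mul hp).mp h4 with h' | h'
  · have : p ∣ 2 := hp.dvd_of_dvd_pow (n := 2) (by norm_num; exact h')
    exact Dvd.dvd.mul_right (this.trans (by norm_num)) N
  · exact Dvd.dvd.mul_left h' 6

theorem not_dvd_nine_mul {p N : ℕ} (hp : p.Prime) (h : ¬ p ∣ 6 * N) : ¬ p ∣ 9 * N := by
  intro h9
  apply h
  rcases (Nat.Prime.dvd_mul hp).mp h9 with h' | h'
  · have : p ∣ 3 := hp.dvd_of_dvd_pow (n := 2) (by norm_num; exact h')
    exact Dvd.dvd.mul_right (this.trans (by norm_num)) N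
  · exact Dvd.dvd.mul_left h' 6

section TraceEq

variable {N : ℕ} {a e : ℕ → ℂ} (ρ₁ ρ₂ : GQ →* GL (Fin 2) ℂ)

/-- the Frobenius condition of `Conclusion` at the primes not dividing `m`. -/
def FrobAt (ρ : GQ →* GL (Fin 2) ℂ) (m : ℕ) (a e : ℕ → ℂ) : Prop :=
  ∀ p : ℕ, p.Prime → ¬ p ∣ m →
    ∀ A : ValuationSubring Qbar, A.LiesOverPrime p →
      ∀ σ : GQ, A.IsFrobeniusAt σ p →
        ((ρ σ : GL (Fin 2) ℂ) : Matrix (Fin 2) (Fin 2) ℂ).trace = a p ∧
        ((ρ σ : GL (Fin 2) ℂ) : Matrix (Fin 2) (Fin 2) ℂ).det = e p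

theorem trace_eq (hC : ChebStmt) (hN : N ≠ 0)
    (h₁ : GaloisFactorsThroughFiniteLevel ρ₁) (h₂ : GaloisFactorsThroughFiniteLevel ρ₂)
    (hf₁ : FrobAt ρ₁ (4 * N) a e) (hf₂ : FrobAt ρ₂ (9 * N) a e) (g : GQ) :
    ((ρ₁ g : GL (Fin 2) ℂ) : Matrix (Fin 2) (Fin 2) ℂ).trace =
      ((ρ₂ g : GL (Fin 2) ℂ) : Matrix (Fin 2) (Fin 2) ℂ).trace := by
  obtain ⟨p, hp, hpm, A, σ, hA, hσ, h, hh⟩ :=
    exists_frobenius hC (ρ₁.prod ρ₂) (DSRep9.level_prod ρ₁ ρ₂ h₁ h₂) g (6 * N)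
      (Nat.mul_ne_zero (by norm_num) hN)
  obtain ⟨t1, d1⟩ := hf₁ p hp (not_dvd_four_mul hp hpm) A hA σ hσ
  obtain ⟨t2, d2⟩ := hf₂ p hp (not_dvd_nine_mul hp hpm) A hA σ hσ
  simp only [MonoidHom.prod_apply, Prod.inv_mk, Prod.mk_mul_mk, Prod.mk.injEq] at hh
  rcases hh with ⟨e1, e2⟩ | ⟨e1, e2⟩
  · rw [e1, trace_conj''] at t1
    rw [e2, trace_conj''] at t2
    rw [t1, t2]
  · rw [e1, trace_conj''] at t1
    rw [e2, trace_conj''] at t2
    rw [e1, det_conj''] at d1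
    rw [e2, det_conj''] at d2
    exact (trace_det_of_inv (t1.trans t2.symm) (d1.trans d2.symm)).1

end TraceEq


/-! ### Irreducible representations with the same character -/

open Deformation Representation

theorem isIrreducible_of_comp {Γ G : Type} [Group Γ] [Group G] (π : Γ →* G)
    (r : G →* GL (Fin 2) ℂ) (ρ : Γ →* GL (Fin 2) ℂ) (hρ : ∀ σ, r (π σ) = ρ σ)
    (h : (matrixRepresentation ρ).IsIrreducible) : (matrixRepresentation r).IsIrreducible := by
  have hnt : Nontrivial (Subrepresentation (matrixRepresentation r)) := by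
    refine ⟨⊥, ⊤, fun hbt => ?_⟩
    have h1 := congrArg Subrepresentation.toSubmodule hbt
    have h2 : (⊥ : Submodule ℂ (Fin 2 → ℂ)) = ⊤ := h1
    exact bot_ne_top h2
  refine { exists_pair_ne := hnt.exists_pair_ne, eq_bot_or_eq_top := fun W => ?_ }
  let W' : Subrepresentation (matrixRepresentation ρ) :=
    { toSubmodule := W.toSubmodule
      apply_mem_toSubmodule := fun σ v hv => by
        have := W.apply_mem_toSubmodule (π σ) hv
        rwa [matrixRepresentation_apply, hρ, ← matrixRepresentation_apply] at this }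
  rcases h.eq_bot_or_eq_top W' with h1 | h1
  · left
    apply Subrepresentation.toSubmodule_injective
    have h2 : W'.toSubmodule = (⊥ : Subrepresentation (matrixRepresentation ρ)).toSubmodule :=
      congrArg Subrepresentation.toSubmodule h1
    exact h2
  · right
    apply Subrepresentation.toSubmodule_injective
    have h2 : W'.toSubmodule = (⊤ : Subrepresentation (matrixRepresentation ρ)).toSubmodule :=
      congrArg Subrepresentation.toSubmodule h1
    exact h2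

theorem character_matrixRepresentation {G : Type} [Group G] (r : G →* GL (Fin 2) ℂ) (g : G) :
    (matrixRepresentation r).character g =
      ((r g : GL (Fin 2) ℂ) : Matrix (Fin 2) (Fin 2) ℂ).trace := by
  rw [Representation.character, matrixRepresentation_apply, ← Matrix.toLin'_apply',
    Matrix.trace_toLin'_eq]

theorem exists_equiv {G : Type} [Group G] [Fintype G] (r₁ r₂ : G →* GL (Fin 2) ℂ)
    (hi₁ : (matrixRepresentation r₁).IsIrreducible)
    (hi₂ : (matrixRepresentation r₂).IsIrreducible)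
    (ht : ∀ g, ((r₁ g : GL (Fin 2) ℂ) : Matrix (Fin 2) (Fin 2) ℂ).trace =
      ((r₂ g : GL (Fin 2) ℂ) : Matrix (Fin 2) (Fin 2) ℂ).trace) :
    Nonempty ((matrixRepresentation r₁).Equiv (matrixRepresentation r₂)) := by
  letI : Invertible (Nat.card G : ℂ) :=
    invertibleOfNonzero (Nat.cast_ne_zero.mpr Nat.card_pos.ne')
  have hchar : (matrixRepresentation r₁).character = (matrixRepresentation r₂).character := by
    funext g
    rw [character_matrixRepresentation, character_matrixRepresentation, ht]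
  have o1 := Representation.char_orthonormal (matrixRepresentation r₁) (matrixRepresentation r₁)
  have o2 := Representation.char_orthonormal (matrixRepresentation r₂) (matrixRepresentation r₁)
  rw [if_pos ⟨Representation.Equiv.refl _⟩] at o1
  rw [← hchar, o1] at o2
  by_contra hne
  rw [if_neg hne] at o2
  norm_num at o2


/-- what an equivalence of matrix representations transports. -/
theorem transport {G : Type} [Group G] (r₁ r₂ : G →* GL (Fin 2) ℂ)
    (φ : (matrixRepresentation r₁).Equiv (matrixRepresentation r₂)) (g : G) :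
    (r₂ g = 1 → r₁ g = 1) ∧
      ((r₁ g : GL (Fin 2) ℂ) : Matrix (Fin 2) (Fin 2) ℂ).det =
        ((r₂ g : GL (Fin 2) ℂ) : Matrix (Fin 2) (Fin 2) ℂ).det := by
  have hc := Representation.Equiv.conj_apply_self g φ
  rw [matrixRepresentation_apply, matrixRepresentation_apply] at hc
  refine ⟨fun h2 => ?_, ?_⟩
  · rw [h2] at hc
    have h1 : Matrix.mulVecLin ((1 : GL (Fin 2) ℂ) : Matrix (Fin 2) (Fin 2) ℂ) =
        (LinearMap.id : (Fin 2 → ℂ) →ₗ[ℂ] (Fin 2 → ℂ)) := by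
      rw [Units.val_one, Matrix.mulVecLin_one]
    rw [h1] at hc
    have h3 : φ.toLinearEquiv.conj (Matrix.mulVecLin ((r₁ g : GL (Fin 2) ℂ) :
        Matrix (Fin 2) (Fin 2) ℂ)) = φ.toLinearEquiv.conj LinearMap.id := by
      rw [LinearEquiv.conj_id]
      exact hc
    have h4 := φ.toLinearEquiv.conj.injective h3
    apply Units.ext
    rw [Units.val_one]
    apply Matrix.toLin'.injective
    rw [Matrix.toLin'_apply', h4, Matrix.toLin'_one]
  · have h3 : LinearMap.det (φ.toLinearEquiv.conj (Matrix.mulVecLin ((r₁ g : GL (Fin 2) ℂ) :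
        Matrix (Fin 2) (Fin 2) ℂ))) = LinearMap.det (Matrix.mulVecLin ((r₂ g : GL (Fin 2) ℂ) :
        Matrix (Fin 2) (Fin 2) ℂ)) := congrArg _ hc
    rw [LinearEquiv.conj_apply, LinearMap.comp_assoc, LinearMap.det_conj, ← Matrix.toLin'_apply', ← Matrix.toLin'_apply',
      LinearMap.det_toLin', LinearMap.det_toLin'] at h3
    exact h3

/-! ### The gluing -/

theorem eq_two_of_dvd_four_mul {p N : ℕ} (hp : p.Prime) (h4 : p ∣ 4 * N) (hN : ¬ p ∣ N) :
    p = 2 := by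
  rcases (Nat.Prime.dvd_mul hp).mp h4 with h' | h'
  · have : p ∣ 2 := hp.dvd_of_dvd_pow (n := 2) (by norm_num; exact h')
    exact (Nat.prime_dvd_prime_iff_eq hp Nat.prime_two).mp this
  · exact absurd h' hN

theorem not_two_dvd_nine_mul {N : ℕ} (hN : ¬ 2 ∣ N) : ¬ 2 ∣ 9 * N := by
  intro h
  rcases (Nat.Prime.dvd_mul Nat.prime_two).mp h with h' | h'
  · omega
  · exact hN h'

/-- **[GLUE49]**: the conclusion of S48 at the levels `4N` and `9N` gives it at the level `N`. -/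
theorem glue (hC : ChebStmt) {N : ℕ} (hN : N ≠ 0) {a e : ℕ → ℂ}
    (h4 : Conclusion (4 * N) a e) (h9 : Conclusion (9 * N) a e) : Conclusion N a e := by
  obtain ⟨ρ₁, hl₁, hi₁, hp₁⟩ := h4
  obtain ⟨ρ₂, hl₂, hi₂, hp₂⟩ := h9
  have ht := trace_eq (N := N) (a := a) (e := e) ρ₁ ρ₂ hC hN hl₁ hl₂
    (fun p hp hpm A hA σ hσ => (hp₁ p hp hpm A hA).2 σ hσ)
    (fun p hp hpm A hA σ hσ => (hp₂ p hp hpm A hA).2 σ hσ)
  obtain ⟨E, hfd, hgal, hE⟩ :=
    exists_galois_level (ρ₁.prod ρ₂) (DSRep9.level_prod ρ₁ ρ₂ hl₁ hl₂)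
  have hE₁ : ∀ σ : GQ, (∀ x ∈ E, σ x = x) → ρ₁ σ = 1 := fun σ hσ =>
    (Prod.ext_iff.mp (hE σ hσ)).1
  have hE₂ : ∀ σ : GQ, (∀ x ∈ E, σ x = x) → ρ₂ σ = 1 := fun σ hσ =>
    (Prod.ext_iff.mp (hE σ hσ)).2
  letI : Fintype (E ≃ₐ[ℚ] E) := Fintype.ofFinite _
  have hi₁' := isIrreducible_of_comp (AlgEquiv.restrictNormalHom E) (desc E ρ₁ hE₁) ρ₁
    (desc_restrict E ρ₁ hE₁) hi₁
  have hi₂' := isIrreducible_of_comp (AlgEquiv.restrictNormalHom E) (desc E ρ₂ hE₂) ρ₂
    (desc_restrict E ρ₂ hE₂) hi₂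
  obtain ⟨φ⟩ := exists_equiv (desc E ρ₁ hE₁) (desc E ρ₂ hE₂) hi₁' hi₂' (fun g => by
    obtain ⟨σ, rfl⟩ := restrict_surjective E g
    rw [desc_restrict, desc_restrict]
    exact ht σ)
  refine ⟨ρ₁, hl₁, hi₁, fun p hp hpN A hA => ?_⟩
  by_cases h2 : p ∣ 4 * N
  · have hp2 : p = 2 := eq_two_of_dvd_four_mul hp h2 hpN
    subst hp2
    obtain ⟨hin, hfr⟩ := hp₂ 2 hp (not_two_dvd_nine_mul hpN) A hA
    refine ⟨fun σ hσ => ?_, fun σ hσ => ?_⟩
    · have := (transport _ _ φ (AlgEquiv.restrictNormalHom E σ)).1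
        (by rw [desc_restrict]; exact hin σ hσ)
      rwa [desc_restrict] at this
    · obtain ⟨t, d⟩ := hfr σ hσ
      have := (transport _ _ φ (AlgEquiv.restrictNormalHom E σ)).2
      rw [desc_restrict, desc_restrict] at this
      exact ⟨(ht σ).trans t, this.trans d⟩
  · exact hp₁ p hp h2 A hA

end Fermat.Agent.M48.Glue0
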