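/-
M48 (helper5), block (P2) Rankin-lite.  Rankin-lite, step 1: Bessel/Parseval on a horizontal line.

For a cusp form `f` of weight `k` on an arithmetic group `Γ` with strict period `1`, `a_n` its
`q`-expansion coefficients: `∑ ‖a_n‖² exp (-4π n t) ≤ C / t^k` for all `t > 0`.
-/
import Mathlib

set_option autoImplicit false

namespace Fermat.Agent.M48.RankinBessel5

open UpperHalfPlane hiding I
open Complex MeasureTheory Function Set
open scoped Real

variable {k : ℤ} {Γ : Subgroup (GL (Fin 2) ℝ)} {F : Type*} [FunLike F ℍ ℂ]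

/-- The restriction of `f` to the horizontal line of height `t`. -/
noncomputable def line (f : F) (t : ℝ) (u : ℝ) : ℂ := f (ofComplex (u + t * I))

theorem line_eq (f : F) {t : ℝ} (ht : 0 < t) (u : ℝ) :
    line f t u = f ⟨u + t * I, by simpa using ht⟩ := by
  unfold line
  congr 1
  exact ofComplex_apply_of_im_pos (by simpa using ht)

theorem continuous_line [CuspFormClass F Γ k] (f : F) {t : ℝ} (ht : 0 < t) :
    Continuous (line f t) := by
  have h1 : Continuous fun u : ℝ => (⟨u + t * I, by simpa using ht⟩ : ℍ) := by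
    rw [UpperHalfPlane.isEmbedding_coe.continuous_iff]
    show Continuous fun u : ℝ => ((u : ℂ) + t * I)
    fun_prop
  have h2 : Continuous (f : ℍ → ℂ) := (ModularFormClass.holo f).continuous
  have : line f t = fun u : ℝ => f ⟨u + t * I, by simpa using ht⟩ := funext (line_eq f ht)
  rw [this]
  exact h2.comp h1

/-- The `q`-expansion coefficients (period `1`). -/
noncomputable def coeffQ (f : F) (n : ℕ) : ℂ := (qExpansion 1 f).coeff n

theorem fourier_neg_eq (t u : ℝ) (n : ℕ) :
    (fourier (-(n : ℤ)) (u : AddCircle ((1 : ℝ) - 0)) : ℂ) =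
      1 / Periodic.qParam 1 ((u : ℂ) + t * I) ^ n * (Real.exp (-2 * π * n * t) : ℂ) := by
  have hne : Periodic.qParam 1 ((u : ℂ) + t * I) ^ n ≠ 0 :=
    pow_ne_zero _ (Complex.exp_ne_zero _)
  rw [one_div, inv_mul_eq_div, eq_div_iff hne]
  rw [fourier_coe_apply, Periodic.qParam, ← Complex.exp_nat_mul, ← Complex.exp_add, ofReal_exp]
  congr 1
  push_cast
  have := I_sq
  simp only [sub_zero, div_one]
  linear_combination (2 * π * n * t : ℂ) * this

theorem fourierCoeffOn_line [CuspFormClass F Γ k] (f : F) (hΓ : (1 : ℝ) ∈ Γ.strictPeriods)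
    {t : ℝ} (ht : 0 < t) (n : ℕ) :
    fourierCoeffOn zero_lt_one (line f t) n = coeffQ f n * Real.exp (-2 * π * n * t) := by
  have h1 := ModularFormClass.qExpansion_coeff_eq_intervalIntegral (h := 1) f one_pos hΓ n ht
  rw [fourierCoeffOn_eq_integral]
  unfold coeffQ
  rw [h1]
  simp only [sub_zero, ofReal_one, div_one, one_mul, one_smul]
  rw [← intervalIntegral.integral_mul_const]
  refine intervalIntegral.integral_congr fun u _ => ?_
  rw [line_eq f ht u, smul_eq_mul]
  have := fourier_neg_eq t u n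
  rw [this]
  ring

/-- **Bessel on a horizontal line.** -/
theorem summable_and_tsum_le [CuspFormClass F Γ k] [Γ.IsArithmetic] (f : F) (hΓ : (1 : ℝ) ∈ Γ.strictPeriods) :
    ∃ C : ℝ, 0 ≤ C ∧ ∀ t : ℝ, 0 < t →
      Summable (fun n : ℕ => ‖coeffQ f n‖ ^ 2 * Real.exp (-4 * π * n * t)) ∧
      ∑' n : ℕ, ‖coeffQ f n‖ ^ 2 * Real.exp (-4 * π * n * t) ≤ C / t ^ (k : ℝ) := by
  obtain ⟨C, hC⟩ := CuspFormClass.exists_bound (k := k) (Γ := Γ) f
  have hC0 : 0 ≤ C := by
    have := hC UpperHalfPlane.I
    simp only [UpperHalfPlane.I_im, Real.one_rpow, div_one] at this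
    exact le_trans (norm_nonneg _) this
  refine ⟨C ^ 2, by positivity, fun t ht => ?_⟩
  -- pointwise bound on the line
  have hbound : ∀ u : ℝ, ‖line f t u‖ ≤ C / t ^ ((k : ℝ) / 2) := by
    intro u
    rw [line_eq f ht]
    have := hC ⟨u + t * I, by simpa using ht⟩
    simpa using this
  have hmeas : AEStronglyMeasurable (line f t) (volume.restrict (Ioc (0 : ℝ) 1)) :=
    (continuous_line f ht).aestronglyMeasurable
  have hL2 : MemLp (line f t) 2 (volume.restrict (Ioc (0 : ℝ) 1)) :=
    MemLp.of_bound hmeas _ (ae_of_all _ hbound)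
  have hP := hasSum_sq_fourierCoeffOn zero_lt_one hL2
  simp only [sub_zero, inv_one, one_smul] at hP
  -- restrict to `ℕ ⊆ ℤ`
  have hinj : Function.Injective (fun n : ℕ => (n : ℤ)) := Nat.cast_injective
  have hterm : ∀ n : ℕ, ‖fourierCoeffOn zero_lt_one (line f t) (n : ℤ)‖ ^ 2 =
      ‖coeffQ f n‖ ^ 2 * Real.exp (-4 * π * n * t) := by
    intro n
    rw [fourierCoeffOn_line f hΓ ht n, norm_mul, mul_pow, Complex.norm_real, Real.norm_eq_abs,
      abs_of_pos (Real.exp_pos _), ← Real.exp_nat_mul]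
    congr 2
    push_cast
    ring
  have hsum : Summable (fun n : ℕ => ‖coeffQ f n‖ ^ 2 * Real.exp (-4 * π * n * t)) := by
    have := hP.summable.comp_injective hinj
    refine this.congr fun n => ?_
    simp only [Function.comp]
    exact hterm n
  refine ⟨hsum, ?_⟩
  have hle : ∑' n : ℕ, ‖coeffQ f n‖ ^ 2 * Real.exp (-4 * π * n * t) ≤
      ∫ x in (0 : ℝ)..1, ‖line f t x‖ ^ 2 := by
    have h1 := tsum_comp_le_tsum_of_inj hP.summable (fun i => by positivity) hinj
    rw [hP.tsum_eq] at h1
    refine le_trans (le_of_eq ?_) h1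
    refine tsum_congr fun n => ?_
    simp only [Function.comp]
    exact (hterm n).symm
  refine le_trans hle ?_
  have hint : ∫ x in (0 : ℝ)..1, ‖line f t x‖ ^ 2 ≤ ∫ _x in (0 : ℝ)..1, (C / t ^ ((k : ℝ) / 2)) ^ 2 := by
    apply intervalIntegral.integral_mono_on zero_le_one
    · exact ((continuous_line f ht).norm.pow 2).intervalIntegrable _ _
    · exact intervalIntegrable_const
    · intro x _
      exact pow_le_pow_left₀ (norm_nonneg _) (hbound x) 2
  refine le_trans hint (le_of_eq ?_)
  rw [intervalIntegral.integral_const]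
  simp only [sub_zero, one_smul]
  rw [div_pow, ← Real.rpow_natCast (t ^ ((k : ℝ) / 2)) 2, ← Real.rpow_mul ht.le]
  congr 2
  push_cast
  ring

end Fermat.Agent.M48.RankinBessel5
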