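/-
M48 (helper5), block (P2) Rankin-lite.  Rankin-lite, step 2: from the Bessel bound to the Dirichlet
series.

If `g ≥ 0` and `∑ g n exp (-4π n t) ≤ C / t` for all `t > 0`, then for `1 < s ≤ 2`
`∑ g n n^{-s} ≤ 2 e^{8π} C / (s - 1)`  (dyadic comparison, no partial summation).
-/
import Mathlib

set_option autoImplicit false

namespace Fermat.Agent.M48.RankinDirichlet5

open Finset
open scoped Real

/-- `n^{-s} ≤ e^{8π} (2^j)^{-s} exp (-4π n / 2^j)` for `2^j ≤ n < 2^{j+1}`. -/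
theorem rpow_neg_le {s : ℝ} (hs : 0 < s) {n j : ℕ} (h1 : 2 ^ j ≤ n) (h2 : n < 2 ^ (j + 1)) :
    (n : ℝ) ^ (-s) ≤
      Real.exp (8 * π) * (((2 : ℝ) ^ j) ^ (-s) * Real.exp (-4 * π * n * (1 / 2 ^ j))) := by
  have hj : (0 : ℝ) < 2 ^ j := by positivity
  have hn : (0 : ℝ) < n := by
    have : 0 < n := lt_of_lt_of_le (by positivity) h1
    exact_mod_cast this
  have h1' : ((2 : ℝ) ^ j) ≤ n := by exact_mod_cast h1
  have h2' : (n : ℝ) < 2 ^ (j + 1) := by exact_mod_cast h2
  have hA : (n : ℝ) ^ (-s) ≤ ((2 : ℝ) ^ j) ^ (-s) :=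
    Real.rpow_le_rpow_of_nonpos hj h1' (by linarith)
  have hB : 1 ≤ Real.exp (8 * π) * Real.exp (-4 * π * n * (1 / 2 ^ j)) := by
    rw [← Real.exp_add]
    apply Real.one_le_exp
    have : (n : ℝ) * (1 / 2 ^ j) ≤ 2 := by
      rw [mul_one_div, div_le_iff₀ hj]
      rw [pow_succ] at h2'
      linarith
    nlinarith [Real.pi_pos]
  have hpos : 0 ≤ ((2 : ℝ) ^ j) ^ (-s) := by positivity
  calc (n : ℝ) ^ (-s) ≤ ((2 : ℝ) ^ j) ^ (-s) * 1 := by rw [mul_one]; exact hA
    _ ≤ ((2 : ℝ) ^ j) ^ (-s) * (Real.exp (8 * π) * Real.exp (-4 * π * n * (1 / 2 ^ j))) :=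
        mul_le_mul_of_nonneg_left hB hpos
    _ = _ := by ring

/-- `1 - 2^{-y} ≥ y / 2` on `[0, 1]`. -/
theorem one_sub_two_rpow_neg_ge {y : ℝ} (h0 : 0 ≤ y) (h1 : y ≤ 1) :
    y / 2 ≤ 1 - (2 : ℝ) ^ (-y) := by
  have h := rpow_one_add_le_one_add_mul_self (s := -(1 / 2)) (by norm_num) h0 h1
  have h2 : (1 + -(1 / 2) : ℝ) ^ y = (2 : ℝ) ^ (-y) := by
    rw [Real.rpow_neg (by norm_num), ← Real.inv_rpow (by norm_num)]
    norm_num
  rw [h2] at h
  linarith

theorem dirichlet_bound {g : ℕ → ℝ} (hg : ∀ n, 0 ≤ g n) {C : ℝ} (hC : 0 ≤ C)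
    (hB : ∀ t : ℝ, 0 < t → Summable (fun n : ℕ => g n * Real.exp (-4 * π * n * t)) ∧
      ∑' n : ℕ, g n * Real.exp (-4 * π * n * t) ≤ C / t)
    {s : ℝ} (hs1 : 1 < s) (hs2 : s ≤ 2) :
    Summable (fun n : ℕ => g n * (n : ℝ) ^ (-s)) ∧
      ∑' n : ℕ, g n * (n : ℝ) ^ (-s) ≤ 2 * Real.exp (8 * π) * C / (s - 1) := by
  have hs0 : 0 < s := by linarith
  have hnonneg : ∀ n : ℕ, 0 ≤ g n * (n : ℝ) ^ (-s) := fun n =>
    mul_nonneg (hg n) (Real.rpow_nonneg (Nat.cast_nonneg n) _)
  -- the geometric ratio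
  set r : ℝ := (2 : ℝ) ^ (-(s - 1)) with hr
  have hr0 : 0 < r := by positivity
  have hr1 : r ≤ 1 - (s - 1) / 2 := by
    have := one_sub_two_rpow_neg_ge (y := s - 1) (by linarith) (by linarith)
    linarith
  have hr1' : r < 1 := by linarith
  have key : ∀ M : ℕ, ∑ n ∈ range M, g n * (n : ℝ) ^ (-s) ≤ 2 * Real.exp (8 * π) * C / (s - 1) := by
    intro M
    -- pointwise comparison
    have hpt : ∀ n ∈ range M, g n * (n : ℝ) ^ (-s) ≤
        ∑ j ∈ range M, Real.exp (8 * π) *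
          (((2 : ℝ) ^ j) ^ (-s) * (g n * Real.exp (-4 * π * n * (1 / 2 ^ j)))) := by
      intro n hn
      rcases Nat.eq_zero_or_pos n with rfl | hpos
      · simp only [Nat.cast_zero]
        rw [Real.zero_rpow (by linarith), mul_zero]
        exact sum_nonneg fun j _ => by
          have := hg 0
          positivity
      · have hjM : Nat.log 2 n ∈ range M := by
          rw [mem_range] at hn ⊢
          exact lt_of_le_of_lt (Nat.log_le_self 2 n) hn
        have h1 : 2 ^ Nat.log 2 n ≤ n := Nat.pow_log_le_self 2 hpos.ne'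
        have h2 : n < 2 ^ (Nat.log 2 n + 1) := Nat.lt_pow_succ_log_self (by norm_num) n
        have h3 := rpow_neg_le hs0 h1 h2
        have h4 : g n * (n : ℝ) ^ (-s) ≤ Real.exp (8 * π) *
            (((2 : ℝ) ^ Nat.log 2 n) ^ (-s) *
              (g n * Real.exp (-4 * π * n * (1 / 2 ^ Nat.log 2 n)))) := by
          have := mul_le_mul_of_nonneg_left h3 (hg n)
          linarith [this]
        refine le_trans h4 ?_
        exact single_le_sum
          (f := fun j => Real.exp (8 * π) *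
            (((2 : ℝ) ^ j) ^ (-s) * (g n * Real.exp (-4 * π * n * (1 / 2 ^ j)))))
          (fun j _ => by
            have := hg n
            positivity) hjM
    calc ∑ n ∈ range M, g n * (n : ℝ) ^ (-s)
        ≤ ∑ n ∈ range M, ∑ j ∈ range M, Real.exp (8 * π) *
          (((2 : ℝ) ^ j) ^ (-s) * (g n * Real.exp (-4 * π * n * (1 / 2 ^ j)))) := sum_le_sum hpt
      _ = ∑ j ∈ range M, Real.exp (8 * π) * (((2 : ℝ) ^ j) ^ (-s) *
            ∑ n ∈ range M, g n * Real.exp (-4 * π * n * (1 / 2 ^ j))) := by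
          rw [sum_comm]
          refine sum_congr rfl fun j _ => ?_
          rw [mul_sum, mul_sum]
      _ ≤ ∑ j ∈ range M, Real.exp (8 * π) * (((2 : ℝ) ^ j) ^ (-s) * (C / (1 / 2 ^ j))) := by
          refine sum_le_sum fun j _ => ?_
          have htj : (0 : ℝ) < 1 / 2 ^ j := by positivity
          obtain ⟨hsum, hle⟩ := hB (1 / 2 ^ j) htj
          have h5 : ∑ n ∈ range M, g n * Real.exp (-4 * π * n * (1 / 2 ^ j)) ≤ C / (1 / 2 ^ j) :=
            le_trans (hsum.sum_le_tsum _ fun n _ => mul_nonneg (hg n) (Real.exp_pos _).le) hle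
          have h6 : 0 ≤ ((2 : ℝ) ^ j) ^ (-s) := by positivity
          exact mul_le_mul_of_nonneg_left (mul_le_mul_of_nonneg_left h5 h6) (Real.exp_pos _).le
      _ = Real.exp (8 * π) * C * ∑ j ∈ range M, r ^ j := by
          rw [mul_sum]
          refine sum_congr rfl fun j _ => ?_
          have h7 : ((2 : ℝ) ^ j) ^ (-s) * (C / (1 / 2 ^ j)) = C * r ^ j := by
            rw [hr, ← Real.rpow_natCast _ j, ← Real.rpow_natCast _ j, ← Real.rpow_mul (by norm_num),
              ← Real.rpow_mul (by norm_num), one_div, div_inv_eq_mul]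
            have : (2 : ℝ) ^ ((j : ℝ) * -s) * (C * (2 : ℝ) ^ (j : ℝ)) =
                C * ((2 : ℝ) ^ ((j : ℝ) * -s) * (2 : ℝ) ^ (j : ℝ)) := by ring
            rw [this, ← Real.rpow_add (by norm_num)]
            congr 2
            ring
          rw [h7]
          ring
      _ ≤ Real.exp (8 * π) * C * (1 / (1 - r)) := by
          have hgeo : ∑ j ∈ range M, r ^ j ≤ 1 / (1 - r) := by
            rw [geom_sum_eq hr1'.ne M, ← neg_div_neg_eq, neg_sub, neg_sub]
            apply div_le_div_of_nonneg_right _ (by linarith)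
            have := pow_nonneg hr0.le M
            linarith
          exact mul_le_mul_of_nonneg_left hgeo (by positivity)
      _ ≤ 2 * Real.exp (8 * π) * C / (s - 1) := by
          have h8 : 1 / (1 - r) ≤ 2 / (s - 1) := by
            rw [div_le_div_iff₀ (by linarith) (by linarith)]
            linarith
          calc Real.exp (8 * π) * C * (1 / (1 - r)) ≤ Real.exp (8 * π) * C * (2 / (s - 1)) :=
                mul_le_mul_of_nonneg_left h8 (by positivity)
            _ = _ := by ring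
  exact ⟨summable_of_sum_range_le hnonneg key, Real.tsum_le_of_sum_range_le hnonneg key⟩

end Fermat.Agent.M48.RankinDirichlet5
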