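/-
M48 (helper5), block (P2) Rankin-lite.  Rankin-lite, local algebra.

For Lucas sequences `u` (`u 0 = 1, u 1 = a, u (m+2) = a u (m+1) - e u m`) and `u'` (same with `a', e'`),
`w m = u m * u' m`, and `v, v'` (`v 0 = 2, v 1 = a`), `p m = v m * v' m`:

* `W * A = 1 - e e' X²` with `A = 1 - c₁ X + c₂ X² - c₃ X³ + c₄ X⁴` (local Rankin-Selberg factor);
* `P * A = - A'` with `P = ∑ p (m+1) X^m`;
* hence for `Q = A⁻¹`: `Q' = Q * P` (Newton), i.e. `(M+1) q (M+1) = ∑_{i+j=M} q i * p (j+1)`.
Mathlib only.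
-/
import Mathlib

set_option autoImplicit false

namespace Fermat.Agent.M48.RankinLocalAlg5

open PowerSeries

variable {R : Type*} [CommRing R]

/-- `1 - c₁ X + c₂ X² - c₃ X³ + c₄ X⁴`. -/
noncomputable def quartic (c1 c2 c3 c4 : R) : R⟦X⟧ :=
  1 - C c1 * X + C c2 * X ^ 2 - C c3 * X ^ 3 + C c4 * X ^ 4

theorem mk_mul_quartic (f : ℕ → R) (c1 c2 c3 c4 : R) :
    mk f * quartic c1 c2 c3 c4 =
      mk f - C c1 * (mk f * X ^ 1) + C c2 * (mk f * X ^ 2) - C c3 * (mk f * X ^ 3)
        + C c4 * (mk f * X ^ 4) := by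
  unfold quartic; ring

theorem coeff_mk_mul_quartic (f : ℕ → R) (c1 c2 c3 c4 : R) (n : ℕ) :
    coeff (n + 4) (mk f * quartic c1 c2 c3 c4) =
      f (n + 4) - c1 * f (n + 3) + c2 * f (n + 2) - c3 * f (n + 1) + c4 * f n := by
  rw [mk_mul_quartic]
  simp only [map_add, map_sub, coeff_C_mul, coeff_mul_X_pow', coeff_mk]
  have h1 : (1 : ℕ) ≤ n + 4 := by omega
  have h2 : (2 : ℕ) ≤ n + 4 := by omega
  have h3 : (3 : ℕ) ≤ n + 4 := by omega
  have h4 : (4 : ℕ) ≤ n + 4 := by omega
  simp only [h1, h2, h3, h4, if_true]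
  have e1 : n + 4 - 1 = n + 3 := by omega
  have e2 : n + 4 - 2 = n + 2 := by omega
  have e3 : n + 4 - 3 = n + 1 := by omega
  have e4 : n + 4 - 4 = n := by omega
  rw [e1, e2, e3, e4]

theorem coeff_zero_mk_mul_quartic (f : ℕ → R) (c1 c2 c3 c4 : R) :
    coeff 0 (mk f * quartic c1 c2 c3 c4) = f 0 := by
  rw [mk_mul_quartic]
  simp

theorem coeff_one_mk_mul_quartic (f : ℕ → R) (c1 c2 c3 c4 : R) :
    coeff 1 (mk f * quartic c1 c2 c3 c4) = f 1 - c1 * f 0 := by
  rw [mk_mul_quartic]
  simp [coeff_mul_X_pow']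

theorem coeff_two_mk_mul_quartic (f : ℕ → R) (c1 c2 c3 c4 : R) :
    coeff 2 (mk f * quartic c1 c2 c3 c4) = f 2 - c1 * f 1 + c2 * f 0 := by
  rw [mk_mul_quartic]
  simp [coeff_mul_X_pow']

theorem coeff_three_mk_mul_quartic (f : ℕ → R) (c1 c2 c3 c4 : R) :
    coeff 3 (mk f * quartic c1 c2 c3 c4) = f 3 - c1 * f 2 + c2 * f 1 - c3 * f 0 := by
  rw [mk_mul_quartic]
  simp [coeff_mul_X_pow']

/-- Lucas sequence of the first kind. -/
def lucU (a e : R) : ℕ → R
  | 0 => 1
  | 1 => a
  | (m + 2) => a * lucU a e (m + 1) - e * lucU a e m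

/-- Lucas sequence of the second kind. -/
def lucV (a e : R) : ℕ → R
  | 0 => 2
  | 1 => a
  | (m + 2) => a * lucV a e (m + 1) - e * lucV a e m

@[simp] theorem lucU_zero (a e : R) : lucU a e 0 = 1 := rfl
@[simp] theorem lucU_one (a e : R) : lucU a e 1 = a := rfl
theorem lucU_add_two (a e : R) (m : ℕ) :
    lucU a e (m + 2) = a * lucU a e (m + 1) - e * lucU a e m := rfl
@[simp] theorem lucV_zero (a e : R) : lucV a e 0 = 2 := rfl
@[simp] theorem lucV_one (a e : R) : lucV a e 1 = a := rfl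
theorem lucV_add_two (a e : R) (m : ℕ) :
    lucV a e (m + 2) = a * lucV a e (m + 1) - e * lucV a e m := rfl

section coeffs
variable (a a' e e' : R)

/-- The coefficients of the local Rankin–Selberg quartic. -/
def c1 : R := a * a'
def c2 : R := e' * a ^ 2 + e * a' ^ 2 - 2 * e * e'
def c3 : R := e * e' * a * a'
def c4 : R := e ^ 2 * e' ^ 2

/-- The local quartic `A`. -/
noncomputable def polyA : R⟦X⟧ := quartic (c1 a a') (c2 a a' e e') (c3 a a' e e') (c4 e e')

end coeffs

/-- A product of solutions of the two second order recurrences satisfies the fourth order one. -/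
theorem prod_rec {a a' e e' : R} {x y : ℕ → R}
    (hx : ∀ m, x (m + 2) = a * x (m + 1) - e * x m)
    (hy : ∀ m, y (m + 2) = a' * y (m + 1) - e' * y m) (m : ℕ) :
    x (m + 4) * y (m + 4) - c1 a a' * (x (m + 3) * y (m + 3))
      + c2 a a' e e' * (x (m + 2) * y (m + 2)) - c3 a a' e e' * (x (m + 1) * y (m + 1))
      + c4 e e' * (x m * y m) = 0 := by
  have hx2 := hx m
  have hx3 := hx (m + 1)
  have hx4 := hx (m + 2)
  have hy2 := hy m
  have hy3 := hy (m + 1)
  have hy4 := hy (m + 2)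
  simp only [show m + 1 + 2 = m + 3 by ring, show m + 2 + 2 = m + 4 by ring,
    show m + 1 + 1 = m + 2 by ring] at hx3 hx4 hy3 hy4
  rw [hx4, hy4, hx3, hy3, hx2, hy2]
  unfold c1 c2 c3 c4
  ring

variable (a a' e e' : R)

/-- `W = ∑ u_m u'_m X^m`. -/
noncomputable def serW : R⟦X⟧ := mk fun m => lucU a e m * lucU a' e' m

/-- `P = ∑ v_{m+1} v'_{m+1} X^m`. -/
noncomputable def serP : R⟦X⟧ := mk fun m => lucV a e (m + 1) * lucV a' e' (m + 1)

/-- **Local Rankin–Selberg identity**: `W * A = 1 - e e' X²`. -/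
theorem serW_mul_polyA : serW a a' e e' * polyA a a' e e' = 1 - C (e * e') * X ^ 2 := by
  ext n
  unfold serW polyA
  rcases n with _ | _ | _ | _ | n
  · rw [coeff_zero_mk_mul_quartic]
    simp only [map_sub, coeff_one, coeff_C_mul_X_pow, lucU_zero]
    simp
  · rw [coeff_one_mk_mul_quartic]
    simp only [map_sub, coeff_one, coeff_C_mul_X_pow, lucU_zero, lucU_one, c1]
    simp
  · rw [coeff_two_mk_mul_quartic]
    simp only [lucU_add_two, lucU_zero, lucU_one, zero_add, c1, c2, map_sub, coeff_one,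
      coeff_C_mul_X_pow]
    simp
    ring
  · rw [coeff_three_mk_mul_quartic]
    simp only [lucU_add_two, lucU_zero, lucU_one, zero_add, c1, c2, c3, map_sub, coeff_one,
      coeff_C_mul_X_pow]
    simp
    ring
  · rw [coeff_mk_mul_quartic]
    have := prod_rec (x := lucU a e) (y := lucU a' e') (lucU_add_two a e) (lucU_add_two a' e') n
    rw [this]
    simp only [map_sub, coeff_one, coeff_C_mul_X_pow]
    simp

/-- `P * A = c₁ - 2 c₂ X + 3 c₃ X² - 4 c₄ X³ = - A'`. -/
theorem serP_mul_polyA : serP a a' e e' * polyA a a' e e' =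
    C (c1 a a') * X ^ 0 - C (2 * c2 a a' e e') * X ^ 1 + C (3 * c3 a a' e e') * X ^ 2
      - C (4 * c4 e e') * X ^ 3 := by
  ext n
  unfold serP polyA
  rcases n with _ | _ | _ | _ | n
  · rw [coeff_zero_mk_mul_quartic]
    simp only [map_sub, map_add, coeff_C_mul_X_pow, lucV_one, zero_add, c1]
    simp
  · rw [coeff_one_mk_mul_quartic]
    simp only [lucV_add_two, lucV_zero, lucV_one, zero_add, c1, c2, map_sub, map_add,
      coeff_C_mul_X_pow]
    simp
    ring
  · rw [coeff_two_mk_mul_quartic]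
    simp only [lucV_add_two, lucV_zero, lucV_one, zero_add, c1, c2, c3, map_sub, map_add,
      coeff_C_mul_X_pow]
    simp
    ring
  · rw [coeff_three_mk_mul_quartic]
    simp only [lucV_add_two, lucV_zero, lucV_one, zero_add, c1, c2, c3, c4, map_sub, map_add,
      coeff_C_mul_X_pow]
    simp
    ring
  · rw [coeff_mk_mul_quartic]
    have := prod_rec (x := fun m => lucV a e (m + 1)) (y := fun m => lucV a' e' (m + 1))
      (fun m => lucV_add_two a e (m + 1)) (fun m => lucV_add_two a' e' (m + 1)) n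
    rw [this]
    simp only [map_sub, map_add, coeff_C_mul_X_pow]
    simp

/-- The derivative of the local quartic. -/
theorem derivative_polyA : d⁄dX R (polyA a a' e e') =
    -(C (c1 a a') * X ^ 0 - C (2 * c2 a a' e e') * X ^ 1 + C (3 * c3 a a' e e') * X ^ 2
      - C (4 * c4 e e') * X ^ 3) := by
  ext n
  rw [coeff_derivative]
  unfold polyA quartic
  simp only [map_sub, map_add, map_neg, coeff_one, coeff_C_mul_X_pow]
  have hX : ∀ k, coeff k (C (c1 a a') * X : R⟦X⟧) = if k = 1 then c1 a a' else 0 := by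
    intro k
    have := coeff_C_mul_X_pow (c1 a a') 1 k
    rwa [pow_one] at this
  rw [hX]
  rcases n with _ | _ | _ | _ | n
  · simp
  · simp; ring
  · simp; ring
  · simp; ring
  · simp

/-- **Newton's identity** in generating function form: if `Q * A = 1` then `Q' = Q * P`. -/
theorem newton {Q : R⟦X⟧} (hQ : Q * polyA a a' e e' = 1) :
    d⁄dX R Q = Q * serP a a' e e' := by
  have h := congrArg (d⁄dX R) hQ
  rw [Derivation.leibniz, derivative_polyA, ← serP_mul_polyA, derivative_one] at h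
  simp only [smul_eq_mul] at h
  -- `Q * -(P * A) + A * Q' = 0`
  have h2 : polyA a a' e e' * d⁄dX R Q = Q * serP a a' e e' * polyA a a' e e' := by
    linear_combination h
  calc d⁄dX R Q = (Q * polyA a a' e e') * d⁄dX R Q := by rw [hQ, one_mul]
    _ = Q * (polyA a a' e e' * d⁄dX R Q) := by ring
    _ = Q * (Q * serP a a' e e' * polyA a a' e e') := by rw [h2]
    _ = (Q * serP a a' e e') * (Q * polyA a a' e e') := by ring
    _ = Q * serP a a' e e' := by rw [hQ, mul_one]

/-- The sequence `q (M+2) = w (M+2) + t * q M`, `q 0 = w 0`, `q 1 = w 1`. -/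
def seqQ (w : ℕ → R) (t : R) : ℕ → R
  | 0 => w 0
  | 1 => w 1
  | (M + 2) => w (M + 2) + t * seqQ w t M

theorem mk_seqQ_mul (w : ℕ → R) (t : R) :
    mk (seqQ w t) * (1 - C t * X ^ 2) = mk w := by
  have h0 : mk (seqQ w t) * (1 - C t * X ^ 2) = mk (seqQ w t) - C t * (mk (seqQ w t) * X ^ 2) := by
    ring
  rw [h0]
  ext n
  rw [map_sub, coeff_C_mul, coeff_mul_X_pow', coeff_mk, coeff_mk]
  rcases n with _ | _ | n
  · simp [seqQ]
  · simp [seqQ]
  · have : (2 : ℕ) ≤ n + 2 := by omega
    rw [if_pos this, coeff_mk]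
    have e2 : n + 2 - 2 = n := by omega
    rw [e2]
    simp only [seqQ]
    ring

/-- With `Q = ∑ q_M X^M`, `q = seqQ (u u') (e e')`: `Q * A = 1`. -/
theorem mk_seqQ_mul_polyA :
    mk (seqQ (fun m => lucU a e m * lucU a' e' m) (e * e')) * polyA a a' e e' = 1 := by
  have hu : IsUnit (1 - C (e * e') * X ^ 2 : R⟦X⟧) := by
    rw [isUnit_iff_constantCoeff]
    simp
  have h1 := mk_seqQ_mul (fun m => lucU a e m * lucU a' e' m) (e * e')
  have h2 := serW_mul_polyA a a' e e'
  unfold serW at h2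
  rw [← h1] at h2
  apply hu.mul_left_cancel
  rw [mul_one]
  calc (1 - C (e * e') * X ^ 2) *
        (mk (seqQ (fun m => lucU a e m * lucU a' e' m) (e * e')) * polyA a a' e e')
      = mk (seqQ (fun m => lucU a e m * lucU a' e' m) (e * e')) * (1 - C (e * e') * X ^ 2) *
          polyA a a' e e' := by ring
    _ = 1 - C (e * e') * X ^ 2 := h2

/-- **Newton's identity**, coefficient form. -/
theorem newton_coeff (M : ℕ) :
    ((M : R) + 1) * seqQ (fun m => lucU a e m * lucU a' e' m) (e * e') (M + 1) =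
      ∑ ij ∈ Finset.HasAntidiagonal.antidiagonal M,
        seqQ (fun m => lucU a e m * lucU a' e' m) (e * e') ij.1 *
          (lucV a e (ij.2 + 1) * lucV a' e' (ij.2 + 1)) := by
  have h := congrArg (coeff M) (newton a a' e e' (mk_seqQ_mul_polyA a a' e e'))
  rw [coeff_derivative, coeff_mul, coeff_mk] at h
  rw [mul_comm, h]
  refine Finset.sum_congr rfl fun ij _ => ?_
  simp [serP]

/-- Ring homomorphisms commute with Lucas sequences. -/
theorem map_lucU {S : Type*} [CommRing S] (φ : R →+* S) (a e : R) (m : ℕ) :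
    φ (lucU a e m) = lucU (φ a) (φ e) m := by
  induction m using Nat.strong_induction_on with
  | _ m ih =>
    rcases m with _ | _ | m
    · simp
    · simp
    · rw [lucU_add_two, lucU_add_two, map_sub, map_mul, map_mul, ih (m + 1) (by omega),
        ih m (by omega)]

theorem map_lucV {S : Type*} [CommRing S] (φ : R →+* S) (a e : R) (m : ℕ) :
    φ (lucV a e m) = lucV (φ a) (φ e) m := by
  induction m using Nat.strong_induction_on with
  | _ m ih =>
    rcases m with _ | _ | m
    · simp [map_ofNat]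
    · simp
    · rw [lucV_add_two, lucV_add_two, map_sub, map_mul, map_mul, ih (m + 1) (by omega),
        ih m (by omega)]

theorem map_seqQ {S : Type*} [CommRing S] (φ : R →+* S) (w : ℕ → R) (t : R) (M : ℕ) :
    φ (seqQ w t M) = seqQ (fun m => φ (w m)) (φ t) M := by
  induction M using Nat.strong_induction_on with
  | _ M ih =>
    rcases M with _ | _ | M
    · simp [seqQ]
    · simp [seqQ]
    · simp only [seqQ, map_add, map_mul]
      rw [ih M (by omega)]

end Fermat.Agent.M48.RankinLocalAlg5
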