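/-
M48 (helper5), block (P2) Rankin-lite.  Rankin-lite, the local inequality.

For `u = lucU a e` with `‖e‖ = 1`, `0 ≤ x < 1` and `∑ ‖u_m‖² x^m < ∞`:
`(1 - x²) exp (‖a‖² x) ≤ ∑ ‖u_m‖² x^m`.
-/
import Fermat.Agent.M48.RankinLocalAlg5

set_option autoImplicit false

namespace Fermat.Agent.M48.RankinLocal5

open Fermat.Agent.M48.RankinLocalAlg5 Finset
open scoped ComplexConjugate Nat

variable (a e : ℂ)

/-- `qr M = ∑_{j ≤ M/2} ‖u_{M-2j}‖²`. -/
noncomputable def qr : ℕ → ℝ := seqQ (fun m => ‖lucU a e m‖ ^ 2) 1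

theorem qr_zero : qr a e 0 = 1 := by simp [qr, seqQ]

theorem qr_one : qr a e 1 = ‖a‖ ^ 2 := by simp [qr, seqQ]

theorem qr_add_two (M : ℕ) : qr a e (M + 2) = ‖lucU a e (M + 2)‖ ^ 2 + qr a e M := by
  simp [qr, seqQ]

theorem qr_nonneg (M : ℕ) : 0 ≤ qr a e M := by
  induction M using Nat.strong_induction_on with
  | _ M ih =>
    rcases M with _ | _ | M
    · rw [qr_zero]; norm_num
    · rw [qr_one]; positivity
    · rw [qr_add_two]
      have := ih M (by omega)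
      positivity

theorem conj_lucU (m : ℕ) : conj (lucU a e m) = lucU (conj a) (conj e) m :=
  map_lucU (starRingEnd ℂ) a e m

theorem conj_lucV (m : ℕ) : conj (lucV a e m) = lucV (conj a) (conj e) m :=
  map_lucV (starRingEnd ℂ) a e m

theorem ofReal_norm_sq (z : ℂ) : ((‖z‖ ^ 2 : ℝ) : ℂ) = z * conj z := by
  rw [Complex.mul_conj, Complex.normSq_eq_norm_sq]

theorem qr_cast (he : ‖e‖ = 1) (M : ℕ) :
    ((qr a e M : ℝ) : ℂ) =
      seqQ (fun m => lucU a e m * lucU (conj a) (conj e) m) (e * conj e) M := by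
  have h1 : e * conj e = 1 := by
    rw [← ofReal_norm_sq, he]; simp
  have := map_seqQ Complex.ofRealHom (fun m => ‖lucU a e m‖ ^ 2) 1 M
  simp only [Complex.ofRealHom_eq_coe] at this
  rw [qr, this, h1]
  congr 1
  funext m
  rw [ofReal_norm_sq, conj_lucU]

/-- **Newton's identity** over `ℝ`. -/
theorem newton_real (he : ‖e‖ = 1) (M : ℕ) :
    ((M : ℝ) + 1) * qr a e (M + 1) =
      ∑ ij ∈ antidiagonal M, qr a e ij.1 * ‖lucV a e (ij.2 + 1)‖ ^ 2 := by
  have h := newton_coeff a (conj a) e (conj e) M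
  rw [← qr_cast a e he] at h
  have h2 : ∀ ij ∈ antidiagonal M,
      seqQ (fun m => lucU a e m * lucU (conj a) (conj e) m) (e * conj e) ij.1 *
          (lucV a e (ij.2 + 1) * lucV (conj a) (conj e) (ij.2 + 1)) =
        ((qr a e ij.1 * ‖lucV a e (ij.2 + 1)‖ ^ 2 : ℝ) : ℂ) := by
    intro ij _
    rw [← qr_cast a e he, ← conj_lucV, ← ofReal_norm_sq]
    push_cast
    ring
  rw [sum_congr rfl h2] at h
  have h3 : (((M : ℝ) + 1) * qr a e (M + 1) : ℝ) =
      ((∑ ij ∈ antidiagonal M, qr a e ij.1 * ‖lucV a e (ij.2 + 1)‖ ^ 2 : ℝ) : ℂ) := by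
    rw [Complex.ofReal_mul, Complex.ofReal_add, Complex.ofReal_natCast, Complex.ofReal_one, h,
      Complex.ofReal_sum]
  exact_mod_cast h3

/-- The coefficients of `Q` dominate those of `exp (‖a‖² x)`. -/
theorem le_qr (he : ‖e‖ = 1) (M : ℕ) : (‖a‖ ^ 2) ^ M / (M ! : ℝ) ≤ qr a e M := by
  induction M with
  | zero => simp [qr_zero]
  | succ M ih =>
    have hN := newton_real a e he M
    have hterm : qr a e M * ‖a‖ ^ 2 ≤
        ∑ ij ∈ antidiagonal M, qr a e ij.1 * ‖lucV a e (ij.2 + 1)‖ ^ 2 := by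
      have hmem : (M, 0) ∈ antidiagonal M := by simp
      have := single_le_sum (f := fun ij : ℕ × ℕ => qr a e ij.1 * ‖lucV a e (ij.2 + 1)‖ ^ 2)
        (fun ij _ => mul_nonneg (qr_nonneg a e ij.1) (by positivity)) hmem
      simpa using this
    have hpos : (0 : ℝ) < (M : ℝ) + 1 := by positivity
    have h1 : (‖a‖ ^ 2) ^ M / (M ! : ℝ) * ‖a‖ ^ 2 ≤ ((M : ℝ) + 1) * qr a e (M + 1) := by
      rw [hN]
      refine le_trans ?_ hterm
      exact mul_le_mul_of_nonneg_right ih (by positivity)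
    rw [Nat.factorial_succ, pow_succ]
    push_cast
    rw [div_le_iff₀ (by positivity)]
    have hfac : (0 : ℝ) < (M ! : ℝ) := by positivity
    have h2 : (‖a‖ ^ 2) ^ M * ‖a‖ ^ 2 ≤ ((M : ℝ) + 1) * qr a e (M + 1) * (M ! : ℝ) := by
      have := mul_le_mul_of_nonneg_right h1 hfac.le
      calc (‖a‖ ^ 2) ^ M * ‖a‖ ^ 2 = (‖a‖ ^ 2) ^ M / (M ! : ℝ) * ‖a‖ ^ 2 * (M ! : ℝ) := by
            field_simp
        _ ≤ _ := this
    linarith [h2]

/-- Partial sums: `S (K+2) = W (K+2) + x² S K`. -/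
theorem sum_qr_add_two (x : ℝ) (K : ℕ) :
    ∑ M ∈ range (K + 2), qr a e M * x ^ M =
      ∑ m ∈ range (K + 2), ‖lucU a e m‖ ^ 2 * x ^ m + x ^ 2 * ∑ M ∈ range K, qr a e M * x ^ M := by
  induction K with
  | zero =>
    simp [sum_range_succ, qr_zero, qr_one]
  | succ K ih =>
    rw [sum_range_succ, ih, sum_range_succ _ (K + 2), sum_range_succ _ K, qr_add_two]
    ring

/-- **The local inequality.** -/
theorem local_ineq (he : ‖e‖ = 1) {x : ℝ} (hx0 : 0 ≤ x) (hx1 : x < 1)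
    (hs : Summable fun m => ‖lucU a e m‖ ^ 2 * x ^ m) :
    (1 - x ^ 2) * Real.exp (‖a‖ ^ 2 * x) ≤ ∑' m, ‖lucU a e m‖ ^ 2 * x ^ m := by
  have hx2 : 0 < 1 - x ^ 2 := by nlinarith
  -- every partial sum of `Q` is bounded by `T / (1 - x²)`
  have hS : ∀ K, (1 - x ^ 2) * ∑ M ∈ range K, qr a e M * x ^ M ≤
      ∑' m, ‖lucU a e m‖ ^ 2 * x ^ m := by
    intro K
    have h1 := sum_qr_add_two a e x K
    have hmono : ∑ M ∈ range K, qr a e M * x ^ M ≤ ∑ M ∈ range (K + 2), qr a e M * x ^ M := by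
      apply sum_le_sum_of_subset_of_nonneg
      · intro i hi
        simp only [mem_range] at hi ⊢
        omega
      · intro i _ _
        exact mul_nonneg (qr_nonneg a e i) (pow_nonneg hx0 i)
    have hW : ∑ m ∈ range (K + 2), ‖lucU a e m‖ ^ 2 * x ^ m ≤ ∑' m, ‖lucU a e m‖ ^ 2 * x ^ m :=
      hs.sum_le_tsum _ (fun i _ => by positivity)
    nlinarith
  -- compare with the exponential series
  have hE : ∀ K, (1 - x ^ 2) * ∑ M ∈ range K, (‖a‖ ^ 2 * x) ^ M / (M ! : ℝ) ≤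
      ∑' m, ‖lucU a e m‖ ^ 2 * x ^ m := by
    intro K
    refine le_trans (mul_le_mul_of_nonneg_left ?_ hx2.le) (hS K)
    apply sum_le_sum
    intro M _
    rw [mul_pow, mul_div_right_comm]
    exact mul_le_mul_of_nonneg_right (le_qr a e he M) (pow_nonneg hx0 M)
  have hexp : Filter.Tendsto (fun K => (1 - x ^ 2) * ∑ M ∈ range K, (‖a‖ ^ 2 * x) ^ M / (M ! : ℝ))
      Filter.atTop (nhds ((1 - x ^ 2) * Real.exp (‖a‖ ^ 2 * x))) := by
    have := (NormedSpace.expSeries_div_hasSum_exp (‖a‖ ^ 2 * x)).tendsto_sum_nat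
    rw [← Real.exp_eq_exp_ℝ] at this
    exact this.const_mul _
  exact le_of_tendsto' hexp hE

end Fermat.Agent.M48.RankinLocal5
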