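/-
M48 (helper5), block (P2) Rankin-lite.  Rankin-lite, step 3: multiplicativity from the Hecke
relations and the Euler product inequality.
-/
import Fermat.Agent.M48.RankinLocal5

set_option autoImplicit false

namespace Fermat.Agent.M48.RankinEuler5

open Fermat.Agent.M48.RankinLocalAlg5 Fermat.Agent.M48.RankinLocal5 Finset
open scoped Real

/-- The formal Hecke relations away from `N` (character values `e p`). -/
structure HeckeRel (N : ℕ) (a e : ℕ → ℂ) : Prop where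
  one : a 1 = 1
  rel : ∀ p : ℕ, p.Prime → ¬ p ∣ N → ∀ n : ℕ,
    a (p * n) + e p * (if p ∣ n then a (n / p) else 0) = a p * a n

variable {N : ℕ} {a e : ℕ → ℂ}

theorem HeckeRel.prime_pow_mul (h : HeckeRel N a e) {p : ℕ} (hp : p.Prime) (hpN : ¬ p ∣ N)
    {n : ℕ} (hn : ¬ p ∣ n) (j : ℕ) : a (p ^ j * n) = lucU (a p) (e p) j * a n := by
  induction j using Nat.strong_induction_on with
  | _ j ih =>
    rcases j with _ | _ | j
    · simp
    · have := h.rel p hp hpN n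
      rw [if_neg hn, mul_zero, add_zero] at this
      simpa using this
    · have h1 := h.rel p hp hpN (p ^ (j + 1) * n)
      have hdvd : p ∣ p ^ (j + 1) * n := Dvd.dvd.mul_right (dvd_pow_self p (by omega)) n
      rw [if_pos hdvd] at h1
      have hdiv : p ^ (j + 1) * n / p = p ^ j * n := by
        rw [pow_succ, mul_assoc, mul_comm p n, ← mul_assoc, Nat.mul_div_cancel _ hp.pos]
      rw [hdiv, ih (j + 1) (by omega), ih j (by omega)] at h1
      have hpow : p * (p ^ (j + 1) * n) = p ^ (j + 2) * n := by ring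
      rw [hpow] at h1
      rw [lucU_add_two]
      linear_combination h1

theorem HeckeRel.prime_pow (h : HeckeRel N a e) {p : ℕ} (hp : p.Prime) (hpN : ¬ p ∣ N) (j : ℕ) :
    a (p ^ j) = lucU (a p) (e p) j := by
  have := h.prime_pow_mul hp hpN (n := 1) (by simpa using hp.one_lt.ne') j
  simpa [h.one] using this

/-- Multiplicativity away from `N`. -/
theorem HeckeRel.mul (h : HeckeRel N a e) (m : ℕ) :
    Nat.Coprime m N → ∀ n : ℕ, Nat.Coprime m n → a (m * n) = a m * a n := by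
  induction m using Nat.recOnPrimeCoprime with
  | zero =>
    intro _ n hn
    rw [Nat.coprime_zero_left] at hn
    subst hn
    simp [h.one]
  | prime_pow p j hp =>
    intro hN n hn
    rcases Nat.eq_zero_or_pos j with rfl | hj
    · simp [h.one]
    · have hpN : ¬ p ∣ N := by
        rw [Nat.coprime_pow_left_iff hj] at hN
        exact (Nat.Prime.coprime_iff_not_dvd hp).mp hN
      have hpn : ¬ p ∣ n := by
        rw [Nat.coprime_pow_left_iff hj] at hn
        exact (Nat.Prime.coprime_iff_not_dvd hp).mp hn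
      rw [h.prime_pow_mul hp hpN hpn, h.prime_pow hp hpN]
  | coprime x y _ _ hxy ihx ihy =>
    intro hN n hn
    have hxN : Nat.Coprime x N := Nat.Coprime.coprime_mul_right hN
    have hyN : Nat.Coprime y N := Nat.Coprime.coprime_mul_left hN
    have hxn : Nat.Coprime x n := Nat.Coprime.coprime_mul_right hn
    have hyn : Nat.Coprime y n := Nat.Coprime.coprime_mul_left hn
    rw [mul_assoc, ihx hxN (y * n) (Nat.Coprime.mul_right hxy hxn), ihy hyN n hyn,
      ihx hxN y hxy]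
    ring

/-- The multiplicative function `‖a n‖² n^{-s}` restricted to `n` prime to `N`. -/
noncomputable def fN (N : ℕ) (a : ℕ → ℂ) (s : ℝ) (n : ℕ) : ℝ :=
  if Nat.Coprime n N then ‖a n‖ ^ 2 * (n : ℝ) ^ (-s) else 0

theorem fN_nonneg (s : ℝ) (n : ℕ) : 0 ≤ fN N a s n := by
  unfold fN
  split_ifs
  · positivity
  · exact le_rfl

theorem fN_le (s : ℝ) (n : ℕ) : fN N a s n ≤ ‖a n‖ ^ 2 * (n : ℝ) ^ (-s) := by
  unfold fN
  split_ifs
  · exact le_rfl
  · positivity

theorem fN_one (h : HeckeRel N a e) (s : ℝ) : fN N a s 1 = 1 := by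
  simp [fN, h.one]

theorem fN_mul (h : HeckeRel N a e) (s : ℝ) {m n : ℕ} (hmn : Nat.Coprime m n) :
    fN N a s (m * n) = fN N a s m * fN N a s n := by
  unfold fN
  by_cases hm : Nat.Coprime m N
  · by_cases hn : Nat.Coprime n N
    · rw [if_pos hm, if_pos hn, if_pos (Nat.Coprime.mul_left hm hn), h.mul m hm n hmn, norm_mul,
        Nat.cast_mul, Real.mul_rpow (Nat.cast_nonneg m) (Nat.cast_nonneg n)]
      ring
    · rw [if_neg hn, mul_zero, if_neg]
      intro hc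
      exact hn (Nat.Coprime.coprime_mul_left hc)
  · rw [if_neg hm, zero_mul, if_neg]
    intro hc
    exact hm (Nat.Coprime.coprime_mul_right hc)

theorem fN_prime_pow (h : HeckeRel N a e) (s : ℝ) {p : ℕ} (hp : p.Prime) (hpN : ¬ p ∣ N) (j : ℕ) :
    fN N a s (p ^ j) = ‖lucU (a p) (e p) j‖ ^ 2 * ((p : ℝ) ^ (-s)) ^ j := by
  unfold fN
  have hc : Nat.Coprime (p ^ j) N :=
    Nat.Coprime.pow_left j ((Nat.Prime.coprime_iff_not_dvd hp).mpr hpN)
  have hpow : (((p ^ j : ℕ) : ℝ)) ^ (-s) = ((p : ℝ) ^ (-s)) ^ j := by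
    rw [Nat.cast_pow, ← Real.rpow_natCast (p : ℝ) j, ← Real.rpow_natCast ((p : ℝ) ^ (-s)) j,
      ← Real.rpow_mul (Nat.cast_nonneg p), ← Real.rpow_mul (Nat.cast_nonneg p), mul_comm (j : ℝ)]
  rw [if_pos hc, h.prime_pow hp hpN, hpow]

/-- **Euler product inequality**: for a finite set `S` of primes not dividing `N`,
`∏_{p ∈ S} (1 - p^{-2s}) exp (‖a_p‖² p^{-s}) ≤ ∑ ‖a_n‖² n^{-s}`. -/
theorem prod_le_tsum (h : HeckeRel N a e) (he : ∀ p : ℕ, p.Prime → ¬ p ∣ N → ‖e p‖ = 1)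
    {s : ℝ} (hs : 0 < s) (hsum : Summable fun n : ℕ => ‖a n‖ ^ 2 * (n : ℝ) ^ (-s))
    (S : Finset ℕ) (hS : ∀ p ∈ S, p.Prime ∧ ¬ p ∣ N) :
    ∏ p ∈ S, ((1 - ((p : ℝ) ^ (-s)) ^ 2) * Real.exp (‖a p‖ ^ 2 * (p : ℝ) ^ (-s))) ≤
      ∑' n : ℕ, ‖a n‖ ^ 2 * (n : ℝ) ^ (-s) := by
  have hfsum : Summable (fN N a s) :=
    Summable.of_nonneg_of_le (fN_nonneg s) (fN_le s) hsum
  have hfnorm : Summable fun n => ‖fN N a s n‖ := by
    simpa [Real.norm_eq_abs, abs_of_nonneg (fN_nonneg (N := N) (a := a) s _)] using hfsum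
  have hE := EulerProduct.prod_filter_prime_tsum_eq_tsum_factoredNumbers (f := fN N a s)
    (fN_one h s) (fun hmn => fN_mul h s hmn) hfnorm S
  have hfilter : S.filter Nat.Prime = S := filter_true_of_mem fun p hp => (hS p hp).1
  rw [hfilter] at hE
  -- local inequalities
  have hloc : ∀ p ∈ S, (1 - ((p : ℝ) ^ (-s)) ^ 2) * Real.exp (‖a p‖ ^ 2 * (p : ℝ) ^ (-s)) ≤
      ∑' j : ℕ, fN N a s (p ^ j) := by
    intro p hp
    obtain ⟨hpp, hpN⟩ := hS p hp
    have hx0 : 0 ≤ (p : ℝ) ^ (-s) := Real.rpow_nonneg (Nat.cast_nonneg p) _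
    have hx1 : (p : ℝ) ^ (-s) < 1 :=
      Real.rpow_lt_one_of_one_lt_of_neg (by exact_mod_cast hpp.one_lt) (by linarith)
    have hsumj : Summable fun j : ℕ => ‖lucU (a p) (e p) j‖ ^ 2 * ((p : ℝ) ^ (-s)) ^ j := by
      have := hfsum.comp_injective (Nat.pow_right_injective hpp.two_le)
      refine this.congr fun j => ?_
      simp only [Function.comp]
      exact fN_prime_pow h s hpp hpN j
    have := local_ineq (a p) (e p) (he p hpp hpN) hx0 hx1 hsumj
    refine le_trans this (le_of_eq ?_)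
    exact tsum_congr fun j => (fN_prime_pow h s hpp hpN j).symm
  have hpos : ∀ p ∈ S, 0 ≤ (1 - ((p : ℝ) ^ (-s)) ^ 2) * Real.exp (‖a p‖ ^ 2 * (p : ℝ) ^ (-s)) := by
    intro p hp
    obtain ⟨hpp, hpN⟩ := hS p hp
    have hx0 : 0 ≤ (p : ℝ) ^ (-s) := Real.rpow_nonneg (Nat.cast_nonneg p) _
    have hx1 : (p : ℝ) ^ (-s) < 1 :=
      Real.rpow_lt_one_of_one_lt_of_neg (by exact_mod_cast hpp.one_lt) (by linarith)
    have : 0 ≤ 1 - ((p : ℝ) ^ (-s)) ^ 2 := by nlinarith
    positivity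
  calc ∏ p ∈ S, ((1 - ((p : ℝ) ^ (-s)) ^ 2) * Real.exp (‖a p‖ ^ 2 * (p : ℝ) ^ (-s)))
      ≤ ∏ p ∈ S, ∑' j : ℕ, fN N a s (p ^ j) := prod_le_prod hpos hloc
    _ = ∑' m : Nat.factoredNumbers S, fN N a s m := hE
    _ ≤ ∑' n : ℕ, fN N a s n := by
        exact Summable.tsum_subtype_le (fN N a s) (Nat.factoredNumbers S) (fN_nonneg s) hfsum
    _ ≤ ∑' n : ℕ, ‖a n‖ ^ 2 * (n : ℝ) ^ (-s) := hfsum.tsum_le_tsum (fN_le s) hsum

end Fermat.Agent.M48.RankinEuler5
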