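/-
M48 (helper5), block (P2) Rankin-lite.  **Rankin-lite** (Deligne–Serre (5.1.1) in weight one, upper
bound only): for `f ∈ S₁(Γ₁(N))` with `a₁ = 1` satisfying the Hecke relations with character `ε`
at the primes `p ∤ N`,
`∑_{p ∤ N} ‖a_p‖² p^{-s} ≤ log (1 / (s - 1)) + C` for `1 < s ≤ 2`.
-/
import Fermat.Agent.M48.RankinBessel5
import Fermat.Agent.M48.RankinDirichlet5
import Fermat.Agent.M48.RankinEuler5
import Fermat.Prelude.Def_FLTPrelim_Modularity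

set_option autoImplicit false

namespace Fermat.Agent.M48.RankinLite5

open Fermat.Agent.M48.RankinBessel5 Fermat.Agent.M48.RankinDirichlet5
  Fermat.Agent.M48.RankinEuler5 Finset CongruenceSubgroup
open scoped Real MatrixGroups

theorem one_mem_strictPeriods_Gamma1 (N : ℕ) :
    (1 : ℝ) ∈ (Subgroup.map (Matrix.SpecialLinearGroup.mapGL ℝ) (Gamma1 N)).strictPeriods := by
  have hT : ModularGroup.T ∈ CongruenceSubgroup.Gamma1 N := by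
    rw [CongruenceSubgroup.Gamma1_mem]
    simp [ModularGroup.T]
  have h := Subgroup.strictPeriods_eq_zmultiples_one_of_T_mem hT
  rw [h]
  exact AddSubgroup.mem_zmultiples (1 : ℝ)

/-- `-log (1 - y) ≤ 2 y` for `0 ≤ y ≤ 1/4`. -/
theorem neg_log_one_sub_le {y : ℝ} (h0 : 0 ≤ y) (h1 : y ≤ 1 / 4) : -Real.log (1 - y) ≤ 2 * y := by
  have hpos : 0 < 1 - y := by linarith
  have := Real.one_sub_inv_le_log_of_pos hpos
  have h2 : (1 - y)⁻¹ ≤ 1 + 2 * y := by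
    rw [inv_le_iff_one_le_mul₀ hpos]
    nlinarith
  linarith

/-- `∑_{p ∈ S} p^{-2s} ≤ 2` for a finite set `S` of primes and `s ≥ 1`. -/
theorem sum_rpow_neg_two_le {s : ℝ} (hs : 1 ≤ s) (S : Finset ℕ) (hS : ∀ p ∈ S, p.Prime) :
    ∑ p ∈ S, ((p : ℝ) ^ (-s)) ^ 2 ≤ 2 := by
  have hsum : Summable fun n : ℕ => 1 / (n : ℝ) ^ 2 := hasSum_zeta_two.summable
  have h1 : ∑ p ∈ S, ((p : ℝ) ^ (-s)) ^ 2 ≤ ∑ p ∈ S, 1 / (p : ℝ) ^ 2 := by
    refine sum_le_sum fun p hp => ?_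
    have hp1 : (1 : ℝ) ≤ p := by exact_mod_cast (hS p hp).one_le
    have hp0 : (0 : ℝ) < p := by linarith
    have : (p : ℝ) ^ (-s) ≤ (p : ℝ) ^ (-(1 : ℝ)) :=
      Real.rpow_le_rpow_of_exponent_le hp1 (by linarith)
    rw [Real.rpow_neg_one] at this
    have h0 : 0 ≤ (p : ℝ) ^ (-s) := Real.rpow_nonneg hp0.le _
    calc ((p : ℝ) ^ (-s)) ^ 2 ≤ ((p : ℝ)⁻¹) ^ 2 := pow_le_pow_left₀ h0 this 2
      _ = 1 / (p : ℝ) ^ 2 := by rw [inv_pow, one_div]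
  have h2 : ∑ p ∈ S, 1 / (p : ℝ) ^ 2 ≤ ∑' n : ℕ, 1 / (n : ℝ) ^ 2 :=
    hsum.sum_le_tsum S fun n _ => by positivity
  rw [hasSum_zeta_two.tsum_eq] at h2
  have hpi : π ^ 2 / 6 ≤ 2 := by
    have := Real.pi_lt_d2
    nlinarith [Real.pi_pos]
  linarith

/-- The abstract form: Hecke relations + the Bessel bound give the Rankin-lite inequality. -/
theorem rankin_lite_of_bessel {N : ℕ} {a e : ℕ → ℂ} (h : HeckeRel N a e)
    (he : ∀ p : ℕ, p.Prime → ¬ p ∣ N → ‖e p‖ = 1) {C₀ : ℝ} (hC₀ : 0 ≤ C₀)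
    (hB : ∀ t : ℝ, 0 < t → Summable (fun n : ℕ => ‖a n‖ ^ 2 * Real.exp (-4 * π * n * t)) ∧
      ∑' n : ℕ, ‖a n‖ ^ 2 * Real.exp (-4 * π * n * t) ≤ C₀ / t) :
    ∃ C : ℝ, ∀ s : ℝ, 1 < s → s ≤ 2 → ∀ S : Finset ℕ, (∀ p ∈ S, p.Prime ∧ ¬ p ∣ N) →
      ∑ p ∈ S, ‖a p‖ ^ 2 * (p : ℝ) ^ (-s) ≤ Real.log (1 / (s - 1)) + C := by
  set K : ℝ := 2 * Real.exp (8 * π) * (C₀ + 1) with hK
  have hKpos : 0 < K := by positivity
  refine ⟨Real.log K + 4, fun s hs1 hs2 S hS => ?_⟩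
  have hs0 : 0 < s := by linarith
  have hB' : ∀ t : ℝ, 0 < t → Summable (fun n : ℕ => ‖a n‖ ^ 2 * Real.exp (-4 * π * n * t)) ∧
      ∑' n : ℕ, ‖a n‖ ^ 2 * Real.exp (-4 * π * n * t) ≤ (C₀ + 1) / t := by
    intro t ht
    obtain ⟨h1, h2⟩ := hB t ht
    refine ⟨h1, le_trans h2 ?_⟩
    apply div_le_div_of_nonneg_right _ ht.le
    linarith
  obtain ⟨hsum, hD⟩ := dirichlet_bound (g := fun n => ‖a n‖ ^ 2) (fun n => by positivity)
    (by linarith : (0 : ℝ) ≤ C₀ + 1) hB' hs1 hs2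
  have hE := prod_le_tsum h he hs0 hsum S hS
  have hx : ∀ p ∈ S, 0 ≤ (p : ℝ) ^ (-s) ∧ ((p : ℝ) ^ (-s)) ^ 2 ≤ 1 / 4 := by
    intro p hp
    have hp2 : (2 : ℝ) ≤ p := by exact_mod_cast (hS p hp).1.two_le
    have h0 : 0 ≤ (p : ℝ) ^ (-s) := Real.rpow_nonneg (by linarith) _
    have h1 : (p : ℝ) ^ (-s) ≤ (p : ℝ) ^ (-(1 : ℝ)) :=
      Real.rpow_le_rpow_of_exponent_le (by linarith) (by linarith)
    rw [Real.rpow_neg_one] at h1
    have h2 : (p : ℝ)⁻¹ ≤ 1 / 2 := by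
      rw [inv_le_comm₀ (by linarith) (by norm_num)]
      simpa using hp2
    refine ⟨h0, ?_⟩
    have : (p : ℝ) ^ (-s) ≤ 1 / 2 := le_trans h1 h2
    nlinarith
  have hfac : ∀ p ∈ S, 0 < (1 - ((p : ℝ) ^ (-s)) ^ 2) * Real.exp (‖a p‖ ^ 2 * (p : ℝ) ^ (-s)) := by
    intro p hp
    have := (hx p hp).2
    have h3 : 0 < 1 - ((p : ℝ) ^ (-s)) ^ 2 := by linarith
    positivity
  have hprodpos : 0 < ∏ p ∈ S,
      ((1 - ((p : ℝ) ^ (-s)) ^ 2) * Real.exp (‖a p‖ ^ 2 * (p : ℝ) ^ (-s))) := prod_pos hfac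
  have hlog : Real.log (∏ p ∈ S,
      ((1 - ((p : ℝ) ^ (-s)) ^ 2) * Real.exp (‖a p‖ ^ 2 * (p : ℝ) ^ (-s)))) ≤
      Real.log (K / (s - 1)) :=
    Real.log_le_log hprodpos (le_trans hE hD)
  rw [Real.log_prod (fun p hp => (hfac p hp).ne')] at hlog
  have hterm : ∀ p ∈ S, Real.log ((1 - ((p : ℝ) ^ (-s)) ^ 2) *
      Real.exp (‖a p‖ ^ 2 * (p : ℝ) ^ (-s))) =
      Real.log (1 - ((p : ℝ) ^ (-s)) ^ 2) + ‖a p‖ ^ 2 * (p : ℝ) ^ (-s) := by
    intro p hp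
    have := (hx p hp).2
    rw [Real.log_mul (by linarith) (Real.exp_pos _).ne', Real.log_exp]
  rw [sum_congr rfl hterm, sum_add_distrib] at hlog
  have hneg : -(∑ p ∈ S, Real.log (1 - ((p : ℝ) ^ (-s)) ^ 2)) ≤ 4 := by
    rw [← sum_neg_distrib]
    calc ∑ p ∈ S, -Real.log (1 - ((p : ℝ) ^ (-s)) ^ 2)
        ≤ ∑ p ∈ S, 2 * ((p : ℝ) ^ (-s)) ^ 2 :=
          sum_le_sum fun p hp => neg_log_one_sub_le (sq_nonneg _) (hx p hp).2
      _ = 2 * ∑ p ∈ S, ((p : ℝ) ^ (-s)) ^ 2 := by rw [mul_sum]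
      _ ≤ 2 * 2 := by
          have := sum_rpow_neg_two_le hs1.le S fun p hp => (hS p hp).1
          linarith
      _ = 4 := by norm_num
  have hlogK : Real.log (K / (s - 1)) = Real.log K + Real.log (1 / (s - 1)) := by
    rw [div_eq_mul_one_div, Real.log_mul hKpos.ne' (by
      have : 0 < s - 1 := by linarith
      positivity)]
  rw [hlogK] at hlog
  linarith

variable {N : ℕ} [NeZero N]

omit [NeZero N] in
theorem heckeRel_of (ε : DirichletCharacter ℂ N) (f : CuspForm (Gamma1 N) 1)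
    (hf₁ : ModularFormClass.qCoeff f 1 = 1)
    (hT : ∀ p : ℕ, p.Prime → ¬ p ∣ N → ∀ n : ℕ,
        ModularFormClass.qCoeff f (p * n) +
            ε (p : ZMod N) * (if p ∣ n then ModularFormClass.qCoeff f (n / p) else 0) =
          ModularFormClass.qCoeff f p * ModularFormClass.qCoeff f n) :
    HeckeRel N (fun n => ModularFormClass.qCoeff f n) (fun p => ε (p : ZMod N)) :=
  ⟨hf₁, hT⟩

omit [NeZero N] in
theorem norm_char_eq_one (ε : DirichletCharacter ℂ N) {p : ℕ} (hp : p.Prime) (hpN : ¬ p ∣ N) :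
    ‖ε (p : ZMod N)‖ = 1 := by
  have hc : Nat.Coprime p N := (Nat.Prime.coprime_iff_not_dvd hp).mpr hpN
  have hu : IsUnit (p : ZMod N) := (ZMod.isUnit_iff_coprime p N).mpr hc
  have := ε.unit_norm_eq_one hu.unit
  simpa using this

/-- **Rankin-lite** for the `f` of S48. -/
theorem rankin_lite (ε : DirichletCharacter ℂ N) (f : CuspForm (Gamma1 N) 1)
    (hf₁ : ModularFormClass.qCoeff f 1 = 1)
    (hT : ∀ p : ℕ, p.Prime → ¬ p ∣ N → ∀ n : ℕ,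
        ModularFormClass.qCoeff f (p * n) +
            ε (p : ZMod N) * (if p ∣ n then ModularFormClass.qCoeff f (n / p) else 0) =
          ModularFormClass.qCoeff f p * ModularFormClass.qCoeff f n) :
    ∃ C : ℝ, ∀ s : ℝ, 1 < s → s ≤ 2 → ∀ S : Finset ℕ, (∀ p ∈ S, p.Prime ∧ ¬ p ∣ N) →
      ∑ p ∈ S, ‖ModularFormClass.qCoeff f p‖ ^ 2 * (p : ℝ) ^ (-s) ≤
        Real.log (1 / (s - 1)) + C := by
  obtain ⟨C₀, hC₀, hB⟩ := summable_and_tsum_le (k := 1)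
    (Γ := Subgroup.map (Matrix.SpecialLinearGroup.mapGL ℝ) (Gamma1 N)) f
    (one_mem_strictPeriods_Gamma1 N)
  refine rankin_lite_of_bessel (heckeRel_of ε f hf₁ hT)
    (fun p hp hpN => norm_char_eq_one ε hp hpN) hC₀ fun t ht => ?_
  have := hB t ht
  simpa [coeffQ, ModularFormClass.qCoeff] using this

end Fermat.Agent.M48.RankinLite5
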