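/-
M48 (lead), block (TOP): **the final assembly of S48 (Deligne–Serre), dry.**

S48 is derived from FOUR `Prop`-level inputs, each the literal target of a block of the
programme:

* `DSInterfaces9.DSAlgStmt` (block (DS), helper9): an infinite family of residual representations
  + (SPARSE) + (CHEB) + (RANKIN) give the complex representation;
* `DSInterfaces9.ChebStmt` (block (P6), helper2): Chebotarev, lower density bound;
* `R2aStmt` (leaf (R2a), helper4): `S₂(Γ₁(4N))` is spanned by forms with rational `q`-expansion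
  (`W1R2a0.R2Rat`);
* `ResFamStmt` (block (RESFAM), helper7): for the `f` of S48 there are a `ResBase` and, for
  infinitely many primes `ℓ`, a `ResDatum`.

(SPARSE) and (RANKIN) are theorems: `W1R2a0.sparse_of_r2a` (modulo (R2a)) and
`RankinLite5.rankin_lite`.

`s48_of : DSAlgStmt → ChebStmt → R2aStmt → ResFamStmt → (the literal statement of S48)`.
Nothing is left open in this file; the four inputs are hypotheses.
-/
import Mathlib
import Fermat.Agent.M48.DSInterfaces9
import Fermat.Agent.M48.W1R2a0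
import Fermat.Agent.M48.RankinLite5

set_option autoImplicit false

open UpperHalfPlane ModularForm ModularFormClass CongruenceSubgroup
open scoped MatrixGroups ModularForm Manifold Real

noncomputable section

namespace Fermat.Agent.M48.Top0

open Fermat.Agent.M48.DSInterfaces9 Fermat.Agent.M48.W1R2a0

local notation "Qbar" => AlgebraicClosure ℚ
local notation "GQ" => (AlgebraicClosure ℚ ≃ₐ[ℚ] AlgebraicClosure ℚ)

/-- the sequence `a n = a_n(f)`. -/
def aSeq {N : ℕ} (f : CuspForm (Gamma1 N) 1) : ℕ → ℂ := fun n => ModularFormClass.qCoeff f n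

/-- the sequence `e p = ε(p)`. -/
def eSeq {N : ℕ} (ε : DirichletCharacter ℂ N) : ℕ → ℂ := fun p => ε (p : ZMod N)

/-- the hypotheses of S48 on `(N, ε, f)`: `f` is normalised and satisfies the Hecke relations
`a_{pn} + ε(p) a_{n/p} = a_p a_n` for `p ∤ N`. -/
def IsS48Datum (N : ℕ) (ε : DirichletCharacter ℂ N) (f : CuspForm (Gamma1 N) 1) : Prop :=
  ModularFormClass.qCoeff f 1 = 1 ∧
  ∀ p : ℕ, p.Prime → ¬ p ∣ N → ∀ n : ℕ,
    ModularFormClass.qCoeff f (p * n) +
        ε (p : ZMod N) * (if p ∣ n then ModularFormClass.qCoeff f (n / p) else 0) =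
      ModularFormClass.qCoeff f p * ModularFormClass.qCoeff f n

/-- **Leaf (R2a)** in the form consumed here: at every level `4N` the weight two cusp forms are
spanned by forms with rational `q`-expansion. -/
def R2aStmt : Prop :=
  ∀ (N : ℕ) [NeZero N],
    R2Rat ((Gamma1 (N * 4) : Subgroup SL(2, ℤ)) : Subgroup (GL (Fin 2) ℝ))

/-- **Block (RESFAM)**: the residual family of the `f` of S48. -/
def ResFamStmt : Prop :=
  ∀ (N : ℕ) [NeZero N] (ε : DirichletCharacter ℂ N) (f : CuspForm (Gamma1 N) 1),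
    IsS48Datum N ε f →
    ∃ (B : ResBase N (aSeq f) (eSeq ε)) (L : Set ℕ), L.Infinite ∧
      ∀ ℓ ∈ L, ℓ.Prime ∧ Nonempty (ResDatum B ℓ)

variable {N : ℕ} [NeZero N] (ε : DirichletCharacter ℂ N) (f : CuspForm (Gamma1 N) 1)

/-- (SPARSE) in helper9's literal form, from (R2a). -/
theorem sparseStmt_of_r2a (h : IsS48Datum N ε f)
    (hR2a : R2Rat ((Gamma1 (N * 4) : Subgroup SL(2, ℤ)) : Subgroup (GL (Fin 2) ℝ))) :
    SparseStmt N (aSeq f) := by
  intro η hη
  obtain ⟨Y, C, hC⟩ := sparse_of_r2a N ε f h.1 h.2 hR2a hη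
  exact ⟨Y, C, fun s hs => (hC s hs.1 hs.2).2⟩

/-- (RANKIN) in helper9's literal form. -/
theorem rankinStmt (h : IsS48Datum N ε f) : RankinStmt N (aSeq f) :=
  RankinLite5.rankin_lite ε f h.1 h.2

/-- **S48 from the four block targets**, in `Conclusion` form. -/
theorem conclusion_of (hDS : DSAlgStmt) (hCheb : ChebStmt) (hR2a : R2aStmt) (hRes : ResFamStmt)
    (h : IsS48Datum N ε f) : Conclusion N (aSeq f) (eSeq ε) := by
  obtain ⟨B, L, hL, hfam⟩ := hRes N ε f h
  exact hDS N (NeZero.ne N) (aSeq f) (eSeq ε) B L hL hfam (sparseStmt_of_r2a ε f h (hR2a N)) hCheb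
    (rankinStmt ε f h)

/-- **S48 from the four block targets**, literal statement. -/
theorem s48_of (hDS : DSAlgStmt) (hCheb : ChebStmt) (hR2a : R2aStmt) (hRes : ResFamStmt)
    (N : ℕ) [NeZero N] (ε : DirichletCharacter ℂ N) (f : CuspForm (Gamma1 N) 1)
    (hf₁ : ModularFormClass.qCoeff f 1 = 1)
    (hT : ∀ p : ℕ, p.Prime → ¬ p ∣ N → ∀ n : ℕ,
        ModularFormClass.qCoeff f (p * n) +
            ε (p : ZMod N) * (if p ∣ n then ModularFormClass.qCoeff f (n / p) else 0) =
          ModularFormClass.qCoeff f p * ModularFormClass.qCoeff f n) :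
    ∃ ρ : GQ →* GL (Fin 2) ℂ, GaloisFactorsThroughFiniteLevel ρ ∧
      (Deformation.matrixRepresentation ρ).IsIrreducible ∧
      ∀ p : ℕ, p.Prime → ¬ p ∣ N →
        ∀ A : ValuationSubring (AlgebraicClosure ℚ), A.LiesOverPrime p →
          (∀ σ ∈ A.inertiaSubgroupIn ℚ, ρ σ = 1) ∧
          ∀ σ : GQ, A.IsFrobeniusAt σ p →
            ((ρ σ : GL (Fin 2) ℂ) : Matrix (Fin 2) (Fin 2) ℂ).trace =
              ModularFormClass.qCoeff f p ∧
            ((ρ σ : GL (Fin 2) ℂ) : Matrix (Fin 2) (Fin 2) ℂ).det = ε (p : ZMod N) :=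
  conclusion_of ε f hDS hCheb hR2a hRes ⟨hf₁, hT⟩

end Fermat.Agent.M48.Top0
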