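/-
M48 (lead), top for ruling R6: **S48 from the residual families at the levels divisible by 4 or 9.**

* `ResFamStmt49` : block (RESFAM) only at the levels `N` with `4 ∣ N ∨ 9 ∣ N`;
* `raiseF c f`, `raiseE c ε` : the form `f` of level `N` and its character at the level `c * N`
  (same function, `W1Forms0.restrictCF`; `DirichletCharacter.changeLevel`), `isS48Datum_raise`;
* `conclusion_of49` : `Conclusion N (aSeq f) (eSeq ε)` for EVERY `N` from `ResFamStmt49`, through
  the levels `4N`, `9N` and `Glue0.glue`;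
* `s48_of49 : DSAlgStmt → ChebStmt → R2aStmt → ResFamStmt49 → (the literal statement of S48)`.

Nothing is left unproved in this file; the four inputs are hypotheses.  Imported by no statement.
-/
import Mathlib
import Fermat.Agent.M48.Top0
import Fermat.Agent.M48.Glue0

set_option autoImplicit false

open UpperHalfPlane ModularForm ModularFormClass CongruenceSubgroup
open scoped MatrixGroups ModularForm Manifold Real

noncomputable section

namespace Fermat.Agent.M48.Top49_0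

open Fermat.Agent.M48.DSInterfaces9 Fermat.Agent.M48.W1R2a0 Fermat.Agent.M48.Top0

local notation "Qbar" => AlgebraicClosure ℚ
local notation "GQ" => (AlgebraicClosure ℚ ≃ₐ[ℚ] AlgebraicClosure ℚ)

/-- **Block (RESFAM) at the levels divisible by `4` or `9`** (ruling R6). -/
def ResFamStmt49 : Prop :=
  ∀ (N : ℕ) [NeZero N], (4 ∣ N ∨ 9 ∣ N) →
    ∀ (ε : DirichletCharacter ℂ N) (f : CuspForm (Gamma1 N) 1), IsS48Datum N ε f →
    ∃ (B : ResBase N (aSeq f) (eSeq ε)) (L : Set ℕ), L.Infinite ∧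
      ∀ ℓ ∈ L, ℓ.Prime ∧ Nonempty (ResDatum B ℓ)

/-- the conclusion at the levels divisible by `4` or `9`. -/
theorem conclusion49_of (hDS : DSAlgStmt) (hCheb : ChebStmt) (hR2a : R2aStmt)
    (hRes : ResFamStmt49) {N : ℕ} [NeZero N] (h49 : 4 ∣ N ∨ 9 ∣ N)
    (ε : DirichletCharacter ℂ N) (f : CuspForm (Gamma1 N) 1)
    (h : IsS48Datum N ε f) : Conclusion N (aSeq f) (eSeq ε) := by
  obtain ⟨B, L, hL, hfam⟩ := hRes N h49 ε f h
  exact hDS N (NeZero.ne N) (aSeq f) (eSeq ε) B L hL hfam (sparseStmt_of_r2a ε f h (hR2a N)) hCheb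
    (rankinStmt ε f h)

/-! ### Raising the level -/

section Raise

variable {N : ℕ} (c : ℕ)

theorem gamma1_le (c : ℕ) (N : ℕ) :
    ((Gamma1 (c * N) : Subgroup SL(2, ℤ)) : Subgroup (GL (Fin 2) ℝ)) ≤
      ((Gamma1 N : Subgroup SL(2, ℤ)) : Subgroup (GL (Fin 2) ℝ)) :=
  W1Rat0.mapGL_Gamma1_le_of_dvd (Dvd.intro_left c rfl : N ∣ c * N)

/-- `f` at the level `c * N`. -/
def raiseF (f : CuspForm (Gamma1 N) 1) : CuspForm (Gamma1 (c * N)) 1 :=
  W1Forms0.restrictCF (gamma1_le c N) f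

@[simp] theorem coe_raiseF (f : CuspForm (Gamma1 N) 1) : (raiseF c f : ℍ → ℂ) = f := rfl

theorem aSeq_raiseF (f : CuspForm (Gamma1 N) 1) : aSeq (raiseF c f) = aSeq f := rfl

/-- `ε` at the level `c * N`. -/
def raiseE (ε : DirichletCharacter ℂ N) : DirichletCharacter ℂ (c * N) :=
  DirichletCharacter.changeLevel (Dvd.intro_left c rfl) ε

theorem raiseE_apply (ε : DirichletCharacter ℂ N) {p : ℕ} (hp : p.Prime) (hpN : ¬ p ∣ c * N) :
    raiseE c ε (p : ZMod (c * N)) = ε (p : ZMod N) := by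
  have hcop : p.Coprime (c * N) := (Nat.Prime.coprime_iff_not_dvd hp).mpr hpN
  have h := DirichletCharacter.changeLevel_eq_cast_of_dvd ε (Dvd.intro_left c rfl : N ∣ c * N)
    (ZMod.unitOfCoprime p hcop)
  rw [ZMod.coe_unitOfCoprime] at h
  rw [raiseE, h, ZMod.cast_natCast (Dvd.intro_left c rfl : N ∣ c * N)]

theorem isS48Datum_raise [NeZero N] [NeZero c] (ε : DirichletCharacter ℂ N)
    (f : CuspForm (Gamma1 N) 1) (h : IsS48Datum N ε f) :
    IsS48Datum (c * N) (raiseE c ε) (raiseF c f) := by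
  refine ⟨h.1, fun p hp hpN n => ?_⟩
  rw [raiseE_apply c ε hp hpN]
  exact h.2 p hp (fun hd => hpN (Dvd.dvd.mul_left hd c)) n

/-- `Conclusion (c * N)` only reads the character at the primes not dividing `c * N`. -/
theorem conclusion_raise (ε : DirichletCharacter ℂ N) (a : ℕ → ℂ)
    (h : Conclusion (c * N) a (eSeq (raiseE c ε))) : Conclusion (c * N) a (eSeq ε) := by
  obtain ⟨ρ, hl, hi, hp⟩ := h
  refine ⟨ρ, hl, hi, fun p hpp hpN A hA => ⟨(hp p hpp hpN A hA).1, fun σ hσ => ?_⟩⟩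
  obtain ⟨t, d⟩ := (hp p hpp hpN A hA).2 σ hσ
  refine ⟨t, d.trans ?_⟩
  exact raiseE_apply c ε hpp hpN

end Raise

/-! ### The top -/

variable {N : ℕ} [NeZero N] (ε : DirichletCharacter ℂ N) (f : CuspForm (Gamma1 N) 1)

theorem conclusion_at (hDS : DSAlgStmt) (hCheb : ChebStmt) (hR2a : R2aStmt)
    (hRes : ResFamStmt49) (c : ℕ) [NeZero c] (hc : 4 ∣ c ∨ 9 ∣ c) (h : IsS48Datum N ε f) :
    Conclusion (c * N) (aSeq f) (eSeq ε) := by
  have h49 : 4 ∣ c * N ∨ 9 ∣ c * N := hc.imp (fun h => Dvd.dvd.mul_right h N)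
    (fun h => Dvd.dvd.mul_right h N)
  have := conclusion49_of hDS hCheb hR2a hRes h49 (raiseE c ε) (raiseF c f)
    (isS48Datum_raise c ε f h)
  rw [aSeq_raiseF] at this
  exact conclusion_raise c ε _ this

/-- **S48 in `Conclusion` form at every level**, from the residual families at the levels
divisible by `4` or `9`. -/
theorem conclusion_of49 (hDS : DSAlgStmt) (hCheb : ChebStmt) (hR2a : R2aStmt)
    (hRes : ResFamStmt49) (h : IsS48Datum N ε f) : Conclusion N (aSeq f) (eSeq ε) :=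
  Glue0.glue hCheb (NeZero.ne N)
    (conclusion_at ε f hDS hCheb hR2a hRes 4 (Or.inl dvd_rfl) h)
    (conclusion_at ε f hDS hCheb hR2a hRes 9 (Or.inr dvd_rfl) h)

/-- **S48 from the four block targets (R6 form)**, literal statement. -/
theorem s48_of49 (hDS : DSAlgStmt) (hCheb : ChebStmt) (hR2a : R2aStmt) (hRes : ResFamStmt49)
    (N : ℕ) [NeZero N] (ε : DirichletCharacter ℂ N) (f : CuspForm (Gamma1 N) 1)
    (hf₁ : ModularFormClass.qCoeff f 1 = 1)
    (hT : ∀ p : ℕ, p.Prime → ¬ p ∣ N → ∀ n : ℕ,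
        ModularFormClass.qCoeff f (p * n) +
            ε (p : ZMod N) * (if p ∣ n then ModularFormClass.qCoeff f (n / p) else 0) =
          ModularFormClass.qCoeff f p * ModularFormClass.qCoeff f n) :
    ∃ ρ : GQ →* GL (Fin 2) ℂ, GaloisFactorsThroughFiniteLevel ρ ∧
      (Deformation.matrixRepresentation ρ).IsIrreducible ∧
      ∀ p : ℕ, p.Prime → ¬ p ∣ N →
        ∀ A : ValuationSubring (AlgebraicClosure ℚ), A.LiesOverPrime p →
          (∀ σ ∈ A.inertiaSubgroupIn ℚ, ρ σ = 1) ∧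
          ∀ σ : GQ, A.IsFrobeniusAt σ p →
            ((ρ σ : GL (Fin 2) ℂ) : Matrix (Fin 2) (Fin 2) ℂ).trace =
              ModularFormClass.qCoeff f p ∧
            ((ρ σ : GL (Fin 2) ℂ) : Matrix (Fin 2) (Fin 2) ℂ).det = ε (p : ZMod N) :=
  conclusion_of49 ε f hDS hCheb hR2a hRes ⟨hf₁, hT⟩

end Fermat.Agent.M48.Top49_0
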