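/-
M48 (lead), top assembly (ruling R6): **S48 from (SP1) at the levels divisible by 4 or 9 alone.**

All other blocks of the programme are theorems on main:
* (DS)     `DSMain9.dsAlg`, (CHEB) `ChebQbar2.cheb_lower`, (R2a) `R2aMain4.r2a`;
* (RESFAM) `ResFam49_7.resFam49` (helper7) : (P1-RES) at the levels `4 ∣ M ∨ 9 ∣ M` + (R2a) ⇒ the
  residual family of `f` at the levels `4 ∣ N ∨ 9 ∣ N`;
* [GLUE49] `Top49_0.s48_of49` (lead) : the levels `4N`, `9N` give the level `N`;
* (P1)     `P1Jac49_8.p1Res49_of_jac` (helper8) with `Kum1Stmt3.kum1Stmt` (helper1, helper2, helper3)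
  and `Gal1Stmt9.gal1Stmt` (helper9, helper2).

`s48_of_p1_49 : P1ResStmt49 → (literal S48)`, `s48_of_sp1_49 : SP1Stmt49 → (literal S48)`.
Nothing is left unproved in this file.  Imported by no statement.
-/
import Mathlib
import Fermat.Agent.M48.Top49_0
import Fermat.Agent.M48.DSMain9
import Fermat.Agent.M48.ChebQbar2
import Fermat.Agent.M48.R2aMain4
import Fermat.Agent.M48.ResFam49_7
import Fermat.Agent.M48.Kum1Stmt3
import Fermat.Agent.M48.Gal1Stmt9

set_option autoImplicit false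

open UpperHalfPlane ModularForm ModularFormClass CongruenceSubgroup
open scoped MatrixGroups ModularForm Manifold Real

noncomputable section

namespace Fermat.Agent.M48.TopAsm49_0

open Fermat.Agent.M48.Top0 Fermat.Agent.M48.Top49_0 Fermat.Agent.M48.DSInterfaces9
  Fermat.Agent.M48.P1Jac49_8 Fermat.Agent.M48.P1Jac8

local notation "GQ" => (AlgebraicClosure ℚ ≃ₐ[ℚ] AlgebraicClosure ℚ)

/-- leaf (R2a), in the form consumed by `Top49_0.s48_of49`. -/
theorem r2aStmt : R2aStmt := fun N _ => R2aMain4.r2a N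

/-- block (RESFAM) at the levels divisible by `4` or `9`, from (P1-RES) at those levels. -/
theorem resFamStmt49_of (hP1 : P1ResStmt49) : ResFamStmt49 := fun N _ h49 ε f h =>
  ResFam49_7.resFam49 N ε f hP1 h49 h.1 h.2 (R2aMain4.r2a N)

/-- **S48 from (P1-RES) at the levels divisible by `4` or `9`**, literal statement. -/
theorem s48_of_p1_49 (hP1 : P1ResStmt49)
    (N : ℕ) [NeZero N] (ε : DirichletCharacter ℂ N) (f : CuspForm (Gamma1 N) 1)
    (hf₁ : ModularFormClass.qCoeff f 1 = 1)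
    (hT : ∀ p : ℕ, p.Prime → ¬ p ∣ N → ∀ n : ℕ,
        ModularFormClass.qCoeff f (p * n) +
            ε (p : ZMod N) * (if p ∣ n then ModularFormClass.qCoeff f (n / p) else 0) =
          ModularFormClass.qCoeff f p * ModularFormClass.qCoeff f n) :
    ∃ ρ : GQ →* GL (Fin 2) ℂ, GaloisFactorsThroughFiniteLevel ρ ∧
      (Deformation.matrixRepresentation ρ).IsIrreducible ∧
      ∀ p : ℕ, p.Prime → ¬ p ∣ N →
        ∀ A : ValuationSubring (AlgebraicClosure ℚ), A.LiesOverPrime p →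
          (∀ σ ∈ A.inertiaSubgroupIn ℚ, ρ σ = 1) ∧
          ∀ σ : GQ, A.IsFrobeniusAt σ p →
            ((ρ σ : GL (Fin 2) ℂ) : Matrix (Fin 2) (Fin 2) ℂ).trace =
              ModularFormClass.qCoeff f p ∧
            ((ρ σ : GL (Fin 2) ℂ) : Matrix (Fin 2) (Fin 2) ℂ).det = ε (p : ZMod N) :=
  s48_of49 DSMain9.dsAlg ChebQbar2.cheb_lower r2aStmt (resFamStmt49_of hP1) N ε f hf₁ hT

/-- **S48 from (SP1) at the levels divisible by `4` or `9`**, literal statement: the only open
block of the programme. -/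
theorem s48_of_sp1_49 (hSP : SP1Stmt49)
    (N : ℕ) [NeZero N] (ε : DirichletCharacter ℂ N) (f : CuspForm (Gamma1 N) 1)
    (hf₁ : ModularFormClass.qCoeff f 1 = 1)
    (hT : ∀ p : ℕ, p.Prime → ¬ p ∣ N → ∀ n : ℕ,
        ModularFormClass.qCoeff f (p * n) +
            ε (p : ZMod N) * (if p ∣ n then ModularFormClass.qCoeff f (n / p) else 0) =
          ModularFormClass.qCoeff f p * ModularFormClass.qCoeff f n) :
    ∃ ρ : GQ →* GL (Fin 2) ℂ, GaloisFactorsThroughFiniteLevel ρ ∧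
      (Deformation.matrixRepresentation ρ).IsIrreducible ∧
      ∀ p : ℕ, p.Prime → ¬ p ∣ N →
        ∀ A : ValuationSubring (AlgebraicClosure ℚ), A.LiesOverPrime p →
          (∀ σ ∈ A.inertiaSubgroupIn ℚ, ρ σ = 1) ∧
          ∀ σ : GQ, A.IsFrobeniusAt σ p →
            ((ρ σ : GL (Fin 2) ℂ) : Matrix (Fin 2) (Fin 2) ℂ).trace =
              ModularFormClass.qCoeff f p ∧
            ((ρ σ : GL (Fin 2) ℂ) : Matrix (Fin 2) (Fin 2) ℂ).det = ε (p : ZMod N) :=
  s48_of_p1_49 (p1Res49_of_jac Kum1Stmt3.kum1Stmt Gal1Stmt9.gal1Stmt hSP) N ε f hf₁ hT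

end Fermat.Agent.M48.TopAsm49_0
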