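/-
Programme M48 (target S48) — lead.  **The last plug above the three open blocks.**

`s48_of_three : [IG1] → [ESRED-MODEL] (`ModelAt1`) → [RED1] smooth half (`ModelStep1`) → (literal statement
of S48, every `N`)`, i.e. `TopAsm49_0.s48_of_sp1_49 ∘ SP1Final5.sp1Stmt49_of_model`.

Imported by no statement.
-/
import Mathlib
import Fermat.Agent.M48.TopAsm49_0
import Fermat.Agent.M48.SP1Final5

set_option autoImplicit false
set_option linter.unusedSectionVars false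

open UpperHalfPlane ModularForm ModularFormClass CongruenceSubgroup
open scoped MatrixGroups ModularForm Manifold Real

noncomputable section

namespace Fermat.Agent.M48.S48Top0

open Fermat.Agent.M48 Fermat.Agent.RED.BASE

local notation "GQ" => (AlgebraicClosure ℚ ≃ₐ[ℚ] AlgebraicClosure ℚ)

local notation "Qb" => AlgebraicClosure ℚ

/-- **S48 from the three open blocks of [RED1].** -/
theorem s48_of_three
    (hIG : ∀ (M : ℕ) [NeZero M], 2 ≤ M → (4 ∣ M ∨ 9 ∣ M) → PurGauss1.IG1 M 1)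
    (hmodel : ∀ (n e : ℕ) [NeZero n], Hauptmodul12.BaseHyp n e → ∀ (M : ℕ) [NeZero M], 2 ≤ M →
      n ∣ M → ∀ (h : Red1Iface4.TMem1 n e M 1) (ℓ : ℕ), ℓ.Prime → ¬ ℓ ∣ M →
      ∀ A : ValuationSubring Qb, A.LiesOverPrime ℓ → Red1Iface4.ModelAt1 A n e M 1 h)
    (hstep : ∀ (M : ℕ) [NeZero M], 2 ≤ M → (4 ∣ M ∨ 9 ∣ M) → ∀ ℓ : ℕ, ℓ.Prime → ¬ ℓ ∣ M →
      ∀ A : ValuationSubring Qb, A.LiesOverPrime ℓ → Red1Iface4.ModelStep1 M 1 A)
    (N : ℕ) [NeZero N] (ε : DirichletCharacter ℂ N) (f : CuspForm (Gamma1 N) 1)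
    (hf₁ : ModularFormClass.qCoeff f 1 = 1)
    (hT : ∀ p : ℕ, p.Prime → ¬ p ∣ N → ∀ n : ℕ,
        ModularFormClass.qCoeff f (p * n) +
            ε (p : ZMod N) * (if p ∣ n then ModularFormClass.qCoeff f (n / p) else 0) =
          ModularFormClass.qCoeff f p * ModularFormClass.qCoeff f n) :
    ∃ ρ : GQ →* GL (Fin 2) ℂ, GaloisFactorsThroughFiniteLevel ρ ∧
      (Deformation.matrixRepresentation ρ).IsIrreducible ∧
      ∀ p : ℕ, p.Prime → ¬ p ∣ N →
        ∀ A : ValuationSubring (AlgebraicClosure ℚ), A.LiesOverPrime p →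
          (∀ σ ∈ A.inertiaSubgroupIn ℚ, ρ σ = 1) ∧
          ∀ σ : GQ, A.IsFrobeniusAt σ p →
            ((ρ σ : GL (Fin 2) ℂ) : Matrix (Fin 2) (Fin 2) ℂ).trace =
              ModularFormClass.qCoeff f p ∧
            ((ρ σ : GL (Fin 2) ℂ) : Matrix (Fin 2) (Fin 2) ℂ).det = ε (p : ZMod N) :=
  TopAsm49_0.s48_of_sp1_49 (SP1Final5.sp1Stmt49_of_model hIG hmodel hstep) N ε f hf₁ hT

end Fermat.Agent.M48.S48Top0
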