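/-
Programme M48 (target S48) — lead.  **`S48Top0.s48_of_three` with the `ModelAt1` input split into the two
Hauptmodul cases** `(n, e) = (4, 8)` (levels with `4 ∣ M`) and `(9, 3)` (levels with `9 ∣ M`), so that the
suppliers may use `4 ∣ M` resp. `9 ∣ M` (hence `4 ≤ M`) instead of a generic `BaseHyp n e`.

Imported by no statement.
-/
import Mathlib
import Fermat.Agent.M48.S48Top0

set_option autoImplicit false
set_option linter.unusedSectionVars false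

open UpperHalfPlane ModularForm ModularFormClass CongruenceSubgroup
open scoped MatrixGroups ModularForm Manifold Real

noncomputable section

namespace Fermat.Agent.M48.S48Plug0

open Fermat.Agent.M48 Fermat.Agent.RED.BASE

local notation "GQ" => (AlgebraicClosure ℚ ≃ₐ[ℚ] AlgebraicClosure ℚ)

local notation "Qb" => AlgebraicClosure ℚ

/-- `SP1Stmt49` with the `ModelAt1` input split into the cases `(4, 8)` and `(9, 3)`. -/
theorem sp1Stmt49_of_model_split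
    (hIG : ∀ (M : ℕ) [NeZero M], 2 ≤ M → (4 ∣ M ∨ 9 ∣ M) → PurGauss1.IG1 M 1)
    (hmodel4 : ∀ (M : ℕ) [NeZero M], 2 ≤ M → 4 ∣ M → ∀ (h : Red1Iface4.TMem1 4 8 M 1) (ℓ : ℕ),
      ℓ.Prime → ¬ ℓ ∣ M → ∀ A : ValuationSubring Qb, A.LiesOverPrime ℓ →
        Red1Iface4.ModelAt1 A 4 8 M 1 h)
    (hmodel9 : ∀ (M : ℕ) [NeZero M], 2 ≤ M → 9 ∣ M → ∀ (h : Red1Iface4.TMem1 9 3 M 1) (ℓ : ℕ),
      ℓ.Prime → ¬ ℓ ∣ M → ∀ A : ValuationSubring Qb, A.LiesOverPrime ℓ →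
        Red1Iface4.ModelAt1 A 9 3 M 1 h)
    (hstep : ∀ (M : ℕ) [NeZero M], 2 ≤ M → (4 ∣ M ∨ 9 ∣ M) → ∀ ℓ : ℕ, ℓ.Prime → ¬ ℓ ∣ M →
      ∀ A : ValuationSubring Qb, A.LiesOverPrime ℓ → Red1Iface4.ModelStep1 M 1 A) :
    P1Jac49_8.SP1Stmt49 := by
  refine SP1Top8.sp1Stmt49_of_inputs fun M _ hM h49 ℓ hℓ hℓM A hA => ?_
  rcases h49 with h4 | h9
  · have hmem := SP1Final5.tMem1_of_old (Main12.baseExports Hauptmodul12.baseHyp_four M h4).mem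
    exact SP1Final5.sp1Inputs_of_baseHyp 4 8 M hM Hauptmodul12.baseHyp_four h4 hℓ hℓM A hA
      (hIG M hM (Or.inl h4)) hmem (hmodel4 M hM h4 hmem ℓ hℓ hℓM A hA)
      (hstep M hM (Or.inl h4) ℓ hℓ hℓM A hA)
  · have hmem := SP1Final5.tMem1_of_old (Main12.baseExports Hauptmodul12.baseHyp_nine M h9).mem
    exact SP1Final5.sp1Inputs_of_baseHyp 9 3 M hM Hauptmodul12.baseHyp_nine h9 hℓ hℓM A hA
      (hIG M hM (Or.inr h9)) hmem (hmodel9 M hM h9 hmem ℓ hℓ hℓM A hA)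
      (hstep M hM (Or.inr h9) ℓ hℓ hℓM A hA)

/-- **S48 from the three open blocks, split form.** -/
theorem s48_of_three_split
    (hIG : ∀ (M : ℕ) [NeZero M], 2 ≤ M → (4 ∣ M ∨ 9 ∣ M) → PurGauss1.IG1 M 1)
    (hmodel4 : ∀ (M : ℕ) [NeZero M], 2 ≤ M → 4 ∣ M → ∀ (h : Red1Iface4.TMem1 4 8 M 1) (ℓ : ℕ),
      ℓ.Prime → ¬ ℓ ∣ M → ∀ A : ValuationSubring Qb, A.LiesOverPrime ℓ →
        Red1Iface4.ModelAt1 A 4 8 M 1 h)
    (hmodel9 : ∀ (M : ℕ) [NeZero M], 2 ≤ M → 9 ∣ M → ∀ (h : Red1Iface4.TMem1 9 3 M 1) (ℓ : ℕ),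
      ℓ.Prime → ¬ ℓ ∣ M → ∀ A : ValuationSubring Qb, A.LiesOverPrime ℓ →
        Red1Iface4.ModelAt1 A 9 3 M 1 h)
    (hstep : ∀ (M : ℕ) [NeZero M], 2 ≤ M → (4 ∣ M ∨ 9 ∣ M) → ∀ ℓ : ℕ, ℓ.Prime → ¬ ℓ ∣ M →
      ∀ A : ValuationSubring Qb, A.LiesOverPrime ℓ → Red1Iface4.ModelStep1 M 1 A)
    (N : ℕ) [NeZero N] (ε : DirichletCharacter ℂ N) (f : CuspForm (Gamma1 N) 1)
    (hf₁ : ModularFormClass.qCoeff f 1 = 1)
    (hT : ∀ p : ℕ, p.Prime → ¬ p ∣ N → ∀ n : ℕ,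
        ModularFormClass.qCoeff f (p * n) +
            ε (p : ZMod N) * (if p ∣ n then ModularFormClass.qCoeff f (n / p) else 0) =
          ModularFormClass.qCoeff f p * ModularFormClass.qCoeff f n) :
    ∃ ρ : GQ →* GL (Fin 2) ℂ, GaloisFactorsThroughFiniteLevel ρ ∧
      (Deformation.matrixRepresentation ρ).IsIrreducible ∧
      ∀ p : ℕ, p.Prime → ¬ p ∣ N →
        ∀ A : ValuationSubring (AlgebraicClosure ℚ), A.LiesOverPrime p →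
          (∀ σ ∈ A.inertiaSubgroupIn ℚ, ρ σ = 1) ∧
          ∀ σ : GQ, A.IsFrobeniusAt σ p →
            ((ρ σ : GL (Fin 2) ℂ) : Matrix (Fin 2) (Fin 2) ℂ).trace =
              ModularFormClass.qCoeff f p ∧
            ((ρ σ : GL (Fin 2) ℂ) : Matrix (Fin 2) (Fin 2) ℂ).det = ε (p : ZMod N) :=
  TopAsm49_0.s48_of_sp1_49 (sp1Stmt49_of_model_split hIG hmodel4 hmodel9 hstep) N ε f hf₁ hT

end Fermat.Agent.M48.S48Plug0
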