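/-
Programme M48 (target S48) — lead.  **S48 from the two remaining blocks**, with [IG1] plugged
(`IG1Main9.ig1`) and the smooth half reduced to the cusp families (`StepOfFam4.hstep_of_cuspFam`):

  `s48_of_cuspFam : StepOfFam4.CuspFamStmt → (ModelAt1 at (4,8), 4 ∣ M) → (ModelAt1 at (9,3), 9 ∣ M) →
     (literal statement of S48, every N)`.

Imported by no statement.
-/
import Mathlib
import Fermat.Agent.M48.S48Plug0
import Fermat.Agent.M48.IG1Main9
import Fermat.Agent.M48.StepOfFam4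

set_option autoImplicit false
set_option linter.unusedSectionVars false

open UpperHalfPlane ModularForm ModularFormClass CongruenceSubgroup
open scoped MatrixGroups ModularForm Manifold Real

noncomputable section

namespace Fermat.Agent.M48.S48Final0

open Fermat.Agent.M48 Fermat.Agent.RED.BASE

local notation "GQ" => (AlgebraicClosure ℚ ≃ₐ[ℚ] AlgebraicClosure ℚ)

local notation "Qb" => AlgebraicClosure ℚ

/-- [IG1] in the shape of the consumers. -/
theorem hIG : ∀ (M : ℕ) [NeZero M], 2 ≤ M → (4 ∣ M ∨ 9 ∣ M) → PurGauss1.IG1 M 1 :=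
  fun M _ hM _ => IG1Main9.ig1 M hM

/-- **S48 from the cusp families and `ModelAt1`.** -/
theorem s48_of_cuspFam (hfam : StepOfFam4.CuspFamStmt)
    (hmodel4 : ∀ (M : ℕ) [NeZero M], 2 ≤ M → 4 ∣ M → ∀ (h : Red1Iface4.TMem1 4 8 M 1) (ℓ : ℕ),
      ℓ.Prime → ¬ ℓ ∣ M → ∀ A : ValuationSubring Qb, A.LiesOverPrime ℓ →
        Red1Iface4.ModelAt1 A 4 8 M 1 h)
    (hmodel9 : ∀ (M : ℕ) [NeZero M], 2 ≤ M → 9 ∣ M → ∀ (h : Red1Iface4.TMem1 9 3 M 1) (ℓ : ℕ),
      ℓ.Prime → ¬ ℓ ∣ M → ∀ A : ValuationSubring Qb, A.LiesOverPrime ℓ →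
        Red1Iface4.ModelAt1 A 9 3 M 1 h)
    (N : ℕ) [NeZero N] (ε : DirichletCharacter ℂ N) (f : CuspForm (Gamma1 N) 1)
    (hf₁ : ModularFormClass.qCoeff f 1 = 1)
    (hT : ∀ p : ℕ, p.Prime → ¬ p ∣ N → ∀ n : ℕ,
        ModularFormClass.qCoeff f (p * n) +
            ε (p : ZMod N) * (if p ∣ n then ModularFormClass.qCoeff f (n / p) else 0) =
          ModularFormClass.qCoeff f p * ModularFormClass.qCoeff f n) :
    ∃ ρ : GQ →* GL (Fin 2) ℂ, GaloisFactorsThroughFiniteLevel ρ ∧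
      (Deformation.matrixRepresentation ρ).IsIrreducible ∧
      ∀ p : ℕ, p.Prime → ¬ p ∣ N →
        ∀ A : ValuationSubring (AlgebraicClosure ℚ), A.LiesOverPrime p →
          (∀ σ ∈ A.inertiaSubgroupIn ℚ, ρ σ = 1) ∧
          ∀ σ : GQ, A.IsFrobeniusAt σ p →
            ((ρ σ : GL (Fin 2) ℂ) : Matrix (Fin 2) (Fin 2) ℂ).trace =
              ModularFormClass.qCoeff f p ∧
            ((ρ σ : GL (Fin 2) ℂ) : Matrix (Fin 2) (Fin 2) ℂ).det = ε (p : ZMod N) :=
  S48Plug0.s48_of_three_split hIG hmodel4 hmodel9 (StepOfFam4.hstep_of_cuspFam hIG hfam)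
    N ε f hf₁ hT

end Fermat.Agent.M48.S48Final0
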