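/-
M48 (helper1), block (H): **commutativity of the Hecke operators on `CuspForm (Gamma1 N) k`.**

* `T1_comm`, `T1_U1_comm`, `U1_comm` : the operators `T_p` (`p ∤ N`), `U_q` (`q ∣ N`) commute pairwise
  (through the `q`-coefficient formulas and `diamondC_T1`);
* `heckeAlgebra1_comm`, `instCommRingHeckeAlgebra1` : the Hecke algebra `heckeAlgebra1 N k S` is commutative;
* `diamondC_neg_one : ⟨-1⟩ f = (-1)^k f`;
* uniqueness of helper8's `G1Ops` : `G1Ops.heckeAlgebra H S = heckeAlgebra1 M k S` for EVERY `H : G1Ops M k`,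
  hence `p1Fin_comm` = the commutativity half of `P1Target8.P1FinStmt`.

Imported by no statement.
-/
import Mathlib
import Fermat.Agent.M48.HeckeOne1
import Fermat.Agent.M48.OpsInst1

set_option autoImplicit false
set_option linter.unusedSectionVars false

open CongruenceSubgroup Matrix.SpecialLinearGroup UpperHalfPlane ModularForm ModularFormClass
open scoped MatrixGroups ModularForm Manifold

noncomputable section

namespace Fermat.Agent.M48.HeckeComm1

open Fermat.Agent.M48.Diamond1 Fermat.Agent.M48.HeckeInv1 Fermat.Agent.M48.NiceQ1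
  Fermat.Agent.M48.HeckeOne1 Fermat.Agent.M48.P1Target8 Fermat.Agent.M48.OpsInst1

variable {N : ℕ} [NeZero N] {k : ℤ}

/-! ### arithmetic of the indices -/

theorem dvd_mul_iff_of_ne {p q : ℕ} (hp : p.Prime) (hq : q.Prime) (hne : p ≠ q) (n : ℕ) :
    q ∣ n * p ↔ q ∣ n := by
  constructor
  · intro h
    rcases (Nat.Prime.dvd_mul hq).1 h with h | h
    · exact h
    · exact absurd ((Nat.prime_dvd_prime_iff_eq hq hp).1 h).symm hne
  · exact fun h => Dvd.dvd.mul_right h p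

theorem dvd_div_iff_of_ne {p q : ℕ} (hp : p.Prime) (hq : q.Prime) (hne : p ≠ q) {n : ℕ}
    (hpn : p ∣ n) : q ∣ n / p ↔ q ∣ n := by
  constructor
  · exact fun h => h.trans (Nat.div_dvd_of_dvd hpn)
  · intro h
    have hco : Nat.Coprime p q := (Nat.coprime_primes hp hq).2 hne
    exact Nat.dvd_div_of_mul_dvd (hco.mul_dvd_of_dvd_of_dvd hpn h)

/-! ### the commutation relations -/

theorem T1_comm {p q : ℕ} (hp : p.Prime) (hpN : ¬ p ∣ N) (hq : q.Prime) (hqN : ¬ q ∣ N)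
    (f : CuspForm (Gamma1 N) k) :
    T1 k hp hpN (T1 k hq hqN f) = T1 k hq hqN (T1 k hp hpN f) := by
  rcases eq_or_ne p q with rfl | hne
  · rfl
  apply ext_qCoeffC
  intro n
  rw [qCoeff_T1, qCoeff_T1, diamondC_T1, qCoeff_T1, qCoeff_T1 hq hqN (T1 k hp hpN f), qCoeff_T1,
    diamondC_T1, qCoeff_T1]
  rw [diamondC_comm (unitOfPrime hq hqN) (unitOfPrime hp hpN) f]
  have e1 := dvd_mul_iff_of_ne hp hq hne n
  have e2 := dvd_mul_iff_of_ne hq hp hne.symm n
  by_cases hpn : p ∣ n <;> by_cases hqn : q ∣ n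
  · rw [if_pos hpn, if_pos hqn, if_pos (e1.2 hqn), if_pos (e2.2 hpn),
      if_pos ((dvd_div_iff_of_ne hp hq hne hpn).2 hqn),
      if_pos ((dvd_div_iff_of_ne hq hp hne.symm hqn).2 hpn), ← Nat.div_mul_right_comm hqn,
      ← Nat.div_mul_right_comm hpn, Nat.div_div_eq_div_mul, Nat.div_div_eq_div_mul, mul_comm q p,
      mul_assoc n p q, mul_assoc n q p, mul_comm q p]
    ring
  · rw [if_pos hpn, if_neg hqn, if_neg (fun h => hqn (e1.1 h)), if_pos (e2.2 hpn),
      if_neg (fun h => hqn ((dvd_div_iff_of_ne hp hq hne hpn).1 h)),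
      ← Nat.div_mul_right_comm hpn, mul_assoc n p q, mul_assoc n q p, mul_comm q p]
    ring
  · rw [if_neg hpn, if_pos hqn, if_pos (e1.2 hqn), if_neg (fun h => hpn (e2.1 h)),
      if_neg (fun h => hpn ((dvd_div_iff_of_ne hq hp hne.symm hqn).1 h)),
      ← Nat.div_mul_right_comm hqn, mul_assoc n p q, mul_assoc n q p, mul_comm q p]
    ring
  · rw [if_neg hpn, if_neg hqn, if_neg (fun h => hqn (e1.1 h)), if_neg (fun h => hpn (e2.1 h)),
      mul_assoc n p q, mul_assoc n q p, mul_comm q p]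

theorem T1_U1_comm {p q : ℕ} (hp : p.Prime) (hpN : ¬ p ∣ N) (hq : q.Prime) (hqN : q ∣ N)
    (f : CuspForm (Gamma1 N) k) :
    T1 k hp hpN (U1 k hq hqN f) = U1 k hq hqN (T1 k hp hpN f) := by
  have hne : p ≠ q := fun h => hpN (h ▸ hqN)
  apply ext_qCoeffC
  intro n
  rw [qCoeff_T1, qCoeff_U1, diamondC_U1, qCoeff_U1, qCoeff_U1, qCoeff_T1]
  have e2 := dvd_mul_iff_of_ne hq hp hne.symm n
  by_cases hpn : p ∣ n
  · rw [if_pos hpn, if_pos (e2.2 hpn), ← Nat.div_mul_right_comm hpn, mul_assoc n p q,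
      mul_assoc n q p, mul_comm q p]
  · rw [if_neg hpn, if_neg (fun h => hpn (e2.1 h)), mul_assoc n p q, mul_assoc n q p, mul_comm q p]

theorem U1_comm {p q : ℕ} (hp : p.Prime) (hpN : p ∣ N) (hq : q.Prime) (hqN : q ∣ N)
    (f : CuspForm (Gamma1 N) k) :
    U1 k hp hpN (U1 k hq hqN f) = U1 k hq hqN (U1 k hp hpN f) := by
  apply ext_qCoeffC
  intro n
  rw [qCoeff_U1, qCoeff_U1, qCoeff_U1, qCoeff_U1, mul_assoc n p q, mul_assoc n q p, mul_comm q p]

/-! ### the Hecke algebra is commutative -/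

theorem Tnat_comm (r s : ℕ) : Tnat N k r * Tnat N k s = Tnat N k s * Tnat N k r := by
  unfold Tnat
  split_ifs with h1 h2 h2
  · exact LinearMap.ext fun f => T1_comm h1.1 h1.2 h2.1 h2.2 f
  · simp
  · simp
  · simp

theorem Tnat_diamondHom_comm (r : ℕ) (d : (ZMod N)ˣ) :
    Tnat N k r * diamondHom N k d = diamondHom N k d * Tnat N k r := by
  unfold Tnat
  split_ifs with h1
  · exact LinearMap.ext fun f => (diamondC_T1 d h1.1 h1.2 f).symm
  · simp

theorem diamondHom_comm (d e : (ZMod N)ˣ) :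
    diamondHom N k d * diamondHom N k e = diamondHom N k e * diamondHom N k d := by
  rw [← map_mul, ← map_mul, mul_comm]

/-- **the generators of `heckeAlgebra1` commute pairwise.** -/
theorem generators_comm (S : Set ℕ) :
    ∀ a ∈ ({T | ∃ r : ℕ, r.Prime ∧ ¬ r ∣ N ∧ r ∉ S ∧ T = Tnat N k r} ∪
        Set.range (diamondHom N k) : Set (Module.End ℂ (CuspForm (Gamma1 N) k))),
      ∀ b ∈ ({T | ∃ r : ℕ, r.Prime ∧ ¬ r ∣ N ∧ r ∉ S ∧ T = Tnat N k r} ∪
        Set.range (diamondHom N k) : Set (Module.End ℂ (CuspForm (Gamma1 N) k))),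
      a * b = b * a := by
  rintro a (⟨r, -, -, -, rfl⟩ | ⟨d, rfl⟩) b (⟨s, -, -, -, rfl⟩ | ⟨e, rfl⟩)
  · exact Tnat_comm r s
  · exact Tnat_diamondHom_comm r e
  · exact (Tnat_diamondHom_comm s d).symm
  · exact diamondHom_comm d e

/-- **any two elements of `heckeAlgebra1 N k S` commute.** -/
theorem mul_comm_of_mem_heckeAlgebra1 (S : Set ℕ) {a b : Module.End ℂ (CuspForm (Gamma1 N) k)}
    (ha : a ∈ heckeAlgebra1 N k S) (hb : b ∈ heckeAlgebra1 N k S) : a * b = b * a := by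
  have h := Algebra.adjoin_le_centralizer_centralizer ℤ
    ({T | ∃ r : ℕ, r.Prime ∧ ¬ r ∣ N ∧ r ∉ S ∧ T = Tnat N k r} ∪
        Set.range (diamondHom N k) : Set (Module.End ℂ (CuspForm (Gamma1 N) k)))
  exact Set.centralizer_centralizer_comm_of_comm (generators_comm S) _ (h ha) _ (h hb)

theorem heckeAlgebra1_comm (S : Set ℕ) (a b : heckeAlgebra1 N k S) : a * b = b * a :=
  Subtype.ext (mul_comm_of_mem_heckeAlgebra1 S a.2 b.2)

instance instIsMulCommutativeHeckeAlgebra1 (S : Set ℕ) : IsMulCommutative (heckeAlgebra1 N k S) :=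
  ⟨⟨heckeAlgebra1_comm S⟩⟩

/-- **`heckeAlgebra1 N k S` is a commutative ring.** -/
instance instCommRingHeckeAlgebra1 (S : Set ℕ) : CommRing (heckeAlgebra1 N k S) :=
  { (inferInstance : Ring (heckeAlgebra1 N k S)) with mul_comm := heckeAlgebra1_comm S }

/-! ### `⟨-1⟩ = (-1)^k` -/

theorem neg_one_mem_Gamma0 : (-1 : SL(2, ℤ)) ∈ Gamma0 N := by
  rw [Gamma0_mem]
  simp

theorem slash_neg_one (f : ℍ → ℂ) : f ∣[k] (-1 : SL(2, ℤ)) = ((-1 : ℂ) ^ k) • f := by
  funext τ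
  rw [ModularForm.SL_slash_apply, Pi.smul_apply, smul_eq_mul]
  have h1 : ((-1 : SL(2, ℤ)) • τ) = τ := by
    rw [ModularGroup.SL_neg_smul, one_smul]
  have h2 : denom ((-1 : SL(2, ℤ)) : GL (Fin 2) ℝ) τ = -1 := by
    simp [UpperHalfPlane.denom]
  rw [h1, h2, mul_comm]
  congr 1
  rw [zpow_neg, ← inv_zpow]
  norm_num

theorem diamondC_neg_one (f : CuspForm (Gamma1 N) k) :
    diamondC (-1 : (ZMod N)ˣ) f = ((-1 : ℂ) ^ k) • f :=
  DFunLike.coe_injective <| by
    rw [coe_diamondC_of_mem (-1) f neg_one_mem_Gamma0 (by simp), slash_neg_one]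
    rfl

theorem diamondC_neg_one_of_even (hk : Even k) (f : CuspForm (Gamma1 N) k) :
    diamondC (-1 : (ZMod N)ˣ) f = f := by
  rw [diamondC_neg_one, hk.neg_one_zpow, one_smul]

/-! ### uniqueness of `G1Ops` -/

theorem G1Ops.diamond_eq (H : G1Ops N k) (d : (ZMod N)ˣ) : H.diamond d = diamondC d :=
  LinearMap.ext fun f => DFunLike.coe_injective <| by
    rw [H.diamond_spec d _ (sigma d).2 (congrArg Units.val (unitOf_sigma d)) f, coe_diamondC_sigma]

theorem G1Ops.T_eq (H : G1Ops N k) {r : ℕ} (hr : r.Prime) (hrN : ¬ r ∣ N) :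
    H.T r = Tnat N k r :=
  LinearMap.ext fun f => DFunLike.coe_injective <| by
    rw [H.T_spec r hr hrN f, G1Ops.diamond_eq, Tnat_of_prime hr hrN, coe_T1]
    rfl

theorem G1Ops.heckeAlgebra_eq (H : G1Ops N k) (S : Set ℕ) :
    H.heckeAlgebra S = heckeAlgebra1 N k S := by
  unfold G1Ops.heckeAlgebra G1Ops.heckeGenerators heckeAlgebra1
  congr 1
  ext T
  constructor
  · rintro (⟨r, hr, hrN, hrS, rfl⟩ | ⟨d, rfl⟩)
    · exact Or.inl ⟨r, hr, hrN, hrS, G1Ops.T_eq H hr hrN⟩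
    · exact Or.inr ⟨d, (G1Ops.diamond_eq H d).symm⟩
  · rintro (⟨r, hr, hrN, hrS, rfl⟩ | ⟨d, rfl⟩)
    · exact Or.inl ⟨r, hr, hrN, hrS, (G1Ops.T_eq H hr hrN).symm⟩
    · exact Or.inr ⟨d, G1Ops.diamond_eq H d⟩

/-- **the commutativity half of `P1Target8.P1FinStmt`** (all weights). -/
theorem p1Fin_comm (H : G1Ops N k) (S : Set ℕ) (a b : H.heckeAlgebra S) : a * b = b * a := by
  have ha : (a : Module.End ℂ (CuspForm (Gamma1 N) k)) ∈ heckeAlgebra1 N k S := by
    rw [← G1Ops.heckeAlgebra_eq H S]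
    exact a.2
  have hb : (b : Module.End ℂ (CuspForm (Gamma1 N) k)) ∈ heckeAlgebra1 N k S := by
    rw [← G1Ops.heckeAlgebra_eq H S]
    exact b.2
  exact Subtype.ext (mul_comm_of_mem_heckeAlgebra1 S ha hb)

end Fermat.Agent.M48.HeckeComm1
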