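/-
Programme M48, pillar (P1), chapter [RED1] / [ESRED-MODEL], chart group (helper8), file 1:
**the chart ring over `A` is the union of the chart rings over the number fields, for an ARBITRARY
model field** `F₀ ≤ ℚ((q))`.

Generic twin of `ES/RED/ChartUnion1` (helper1, Program I) on top of lead's `DescG0`
(`FBg F₀ = ℚ̄·F₀`, `FKg F₀ K = K·F₀`, `DescG0.baseChangeHom F₀ K : K·F₀ → ℚ̄·F₀`): the text of the old
file with `Fbar M`, `Interface4.FK M K`, `PlaceExtend27.baseChangeHom M K` replaced.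

`A ≤ ℚ̄` a valuation subring, `K ⊂ ℚ̄` a subfield, `AK A K = A ∩ K`, `f = baseChangeHom F₀ K`.
For `t = f tK`:
* `baseChangeHom_mem_chart` : `f` maps `chart (AK A K) tK` (integral closure of `(A ∩ K)[tK]` in
  `K·F₀`) into `chart A t`;
* `exists_chart_descent` : every element of `chart A t` comes from `chart (AK A K) tK` for all
  sufficiently large number fields `K`.

Nothing is left unproved in this file.  Imported by no statement.
-/
import Mathlib
import Fermat.Agent.M48.DescG0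
import Fermat.Agent.ES.RED.ChartUnion1

set_option autoImplicit false
set_option linter.unusedSectionVars false

open HahnSeries ModularCurve Polynomial

noncomputable section

namespace Fermat.Agent.M48.ChartUnionG8

open Fermat.Agent.RED.Interface4 Fermat.Agent.RED.DESC Fermat.Agent.RED.PUR.ChartGeneric22
  Fermat.Agent.RED.NumInst4 Fermat.Agent.M48.DescG0

variable (A : ValuationSubring Qbar) (F₀ : IntermediateField ℚ (LaurentSeries ℚ))

/-- the coefficientwise base change `K·F₀ → ℚ̄·F₀` is injective. -/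
theorem baseChangeHom_injective (K : IntermediateField ℚ Qbar) :
    Function.Injective (baseChangeHom F₀ K) :=
  (baseChangeHom F₀ K).injective

/-- `f` is compatible with the structure maps `A ∩ K → K·F₀`, `A → ℚ̄·F₀`. -/
theorem baseChangeHom_algebraMap_AK (K : IntermediateField ℚ Qbar) (a : AK A K) :
    baseChangeHom F₀ K (algebraMap ↥(AK A K) ↥(FKg F₀ K) a) =
      algebraMap ↥A ↥(FBg F₀) (NumberFieldDVR27.incl A K a) := by
  have h := baseChangeHom_algebraMap F₀ K ((a : AK A K) : K)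
  exact h

/-- `f` maps `(A ∩ K)[tK]` into `A[f tK]`. -/
theorem baseChangeHom_mem_adjoin (K : IntermediateField ℚ Qbar) (tK : FKg F₀ K) {c : FKg F₀ K}
    (hc : c ∈ Algebra.adjoin ↥(AK A K) {tK}) :
    baseChangeHom F₀ K c ∈ Algebra.adjoin ↥A {baseChangeHom F₀ K tK} := by
  induction hc using Algebra.adjoin_induction with
  | mem x hx =>
      rw [Set.mem_singleton_iff.mp hx]
      exact Algebra.self_mem_adjoin_singleton _ _
  | algebraMap a =>
      rw [baseChangeHom_algebraMap_AK]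
      exact Subalgebra.algebraMap_mem _ _
  | add x y _ _ hx hy => rw [map_add]; exact add_mem hx hy
  | mul x y _ _ hx hy => rw [map_mul]; exact mul_mem hx hy

/-- `f` maps the chart over `A ∩ K` into the chart over `A`. -/
theorem baseChangeHom_mem_chart (K : IntermediateField ℚ Qbar) (tK x : FKg F₀ K)
    (hx : x ∈ chart ↥(AK A K) tK) :
    baseChangeHom F₀ K x ∈ chart ↥A (baseChangeHom F₀ K tK) := by
  rw [mem_chart_iff, isIntegral_subalgebra_iff] at hx ⊢
  obtain ⟨P, hP, hcoeff, hx⟩ := hx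
  refine ⟨P.map (baseChangeHom F₀ K), hP.map _, fun i => ?_, ?_⟩
  · rw [coeff_map]
    exact baseChangeHom_mem_adjoin A F₀ K tK (hcoeff i)
  · rw [eval_map, eval₂_at_apply, hx, map_zero]

/-- Every element of `A[t]` comes from `(A ∩ K)[tK]` for all large number fields `K`. -/
theorem exists_adjoin_descent (K₀ : IntermediateField ℚ Qbar) [FiniteDimensional ℚ K₀]
    (t : FBg F₀) {c : FBg F₀} (hc : c ∈ Algebra.adjoin ↥A {t}) :
    ∃ K₁ : IntermediateField ℚ Qbar, FiniteDimensional ℚ K₁ ∧ K₀ ≤ K₁ ∧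
      ∀ K : IntermediateField ℚ Qbar, K₁ ≤ K → ∀ tK : FKg F₀ K, baseChangeHom F₀ K tK = t →
        ∃ c' ∈ Algebra.adjoin ↥(AK A K) {tK}, baseChangeHom F₀ K c' = c := by
  classical
  obtain ⟨p, hp⟩ := Algebra.adjoin_mem_exists_aeval ↥A t hc
  obtain ⟨K₁, hfin, hK₀, hS⟩ := NumberFieldDVR27.exists_numberField K₀
    (p.support.image fun i => ((p.coeff i : A) : Qbar))
  refine ⟨K₁, hfin, hK₀, fun K hK tK htK => ?_⟩
  have hl : p ∈ lifts (NumberFieldDVR27.incl A K) := by
    rw [lifts_iff_coeff_lifts]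
    intro n
    by_cases hn : n ∈ p.support
    · have h1 : ((p.coeff n : A) : Qbar) ∈ K :=
        hK (hS _ (Finset.mem_image.mpr ⟨n, hn, rfl⟩))
      refine ⟨⟨⟨((p.coeff n : A) : Qbar), h1⟩, ?_⟩, ?_⟩
      · rw [NumberFieldDVR27.mem_AK_iff]
        exact (p.coeff n).2
      · exact Subtype.ext rfl
    · rw [notMem_support_iff.mp hn]
      exact ⟨0, map_zero _⟩
  obtain ⟨p', hp'⟩ := hl
  rw [coe_mapRingHom] at hp'
  refine ⟨aeval tK p', aeval_mem_adjoin_singleton _ _, ?_⟩
  rw [← hp, ← hp', aeval_def, aeval_def, hom_eval₂, eval₂_map, htK]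
  congr 1
  exact RingHom.ext fun a => baseChangeHom_algebraMap_AK A F₀ K a

/-- **The chart over `A` is the union of the charts over the number fields.** -/
theorem exists_chart_descent (K₀ : IntermediateField ℚ Qbar) [FiniteDimensional ℚ K₀]
    (t y : FBg F₀) (hy : y ∈ chart ↥A t) :
    ∃ K₁ : IntermediateField ℚ Qbar, FiniteDimensional ℚ K₁ ∧ K₀ ≤ K₁ ∧
      ∀ K : IntermediateField ℚ Qbar, K₁ ≤ K → ∀ tK : FKg F₀ K, baseChangeHom F₀ K tK = t →
        ∃ x ∈ chart ↥(AK A K) tK, baseChangeHom F₀ K x = y := by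
  classical
  rw [mem_chart_iff, isIntegral_subalgebra_iff] at hy
  obtain ⟨P, hP, hcoeff, hPy⟩ := hy
  obtain ⟨K₁, hfin₁, hK₁, Hy⟩ := exists_descent_ge F₀ K₀ y
  have := hfin₁
  obtain ⟨K₂, hfin₂, hK₂, Hc⟩ := Fermat.Agent.ES.RED.ChartUnion1.exists_common
    (Finset.range (P.natDegree + 1)) K₁
    (fun i K => ∀ tK : FKg F₀ K, baseChangeHom F₀ K tK = t →
      ∃ c' ∈ Algebra.adjoin ↥(AK A K) {tK}, baseChangeHom F₀ K c' = P.coeff i)
    (fun i _ => exists_adjoin_descent A F₀ K₁ t (hcoeff i))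
  refine ⟨K₂, hfin₂, hK₁.trans hK₂, fun K hK tK htK => ?_⟩
  obtain ⟨x, hx⟩ := Hy K (hK₂.trans hK)
  refine ⟨x, ?_, hx⟩
  have hinj := baseChangeHom_injective F₀ K
  have hc : ∀ i, ∃ c' ∈ Algebra.adjoin ↥(AK A K) {tK}, baseChangeHom F₀ K c' = P.coeff i := by
    intro i
    by_cases hi : i ∈ Finset.range (P.natDegree + 1)
    · exact Hc K hK i hi tK htK
    · refine ⟨0, zero_mem _, ?_⟩
      rw [map_zero]
      rw [Finset.mem_range, not_lt] at hi
      exact (coeff_eq_zero_of_natDegree_lt (by omega)).symm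
  have hl : P ∈ lifts (baseChangeHom F₀ K) := by
    rw [lifts_iff_coeff_lifts]
    intro n
    obtain ⟨c', -, hc'⟩ := hc n
    exact ⟨c', hc'⟩
  obtain ⟨q, hq, -, hqm⟩ := lifts_and_natDegree_eq_and_monic hl hP
  rw [mem_chart_iff, isIntegral_subalgebra_iff]
  refine ⟨q, hqm, fun i => ?_, ?_⟩
  · obtain ⟨c', hc'mem, hc'⟩ := hc i
    have : q.coeff i = c' := by
      apply hinj
      rw [hc', ← hq, coeff_map]
    rw [this]
    exact hc'mem
  · apply hinj
    rw [map_zero, ← eval₂_at_apply, ← eval_map, hq, hx]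
    exact hPy

end Fermat.Agent.M48.ChartUnionG8
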