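/-
Programme M48, pillar (P1), chapter [RED1] / [ESRED-MODEL], chart group (helper8), file 3:
**the chart ring over `A` consists of `A`-integral `q`-expansions and reduces into the special-fibre
field `Fk`, for an ARBITRARY model field `F₀ ≤ ℚ((q))` and an ARBITRARY `Fk ≤ κ_A((q))`.**

Generic twin of `ES/RED/ChartIntegralA1` (helper1, Program I) on top of lead's `DescG0` and
`ChartUnionG8`.  `A ≤ ℚ̄` a valuation subring over `ℓ`, `κ_A = A/𝔪_A`.  The two facts about the pair
`(F₀, Fk)` used by the old file are bundled in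

* `RedHyp A F₀ Fk` : (GB1) `K·F₀ ⊂ Frac (A ∩ K)((q))` for every subfield `K ⊂ ℚ̄`, and (RED) for every
  number field `K` the reduction of an `(A ∩ K)`-integral element of `K·F₀`, pushed to `κ_A`, lies in
  `Fk`  (for `F₀ = fieldG10 M L`, `Fk = fieldG10C κ_A M L` this is `ChartInstG8.redHyp_G10`, from
  helper1's `PurGauss1` and helper9's `GaussUnitG9.resField_FK_eq`).

Then, as in the old file:
* `intF A F₀ : Subring (FBg F₀)` : the elements of `ℚ̄·F₀` whose `q`-expansion has coefficients in `A`;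
  `seriesHom A F₀ : intF A F₀ →+* A((q))`;
* `redF H : intF A F₀ →+* ↥Fk` : coefficientwise reduction;
* `chart_le_intF` : if `t ∈ intF` then `chart A t ⊂ intF`;
* `chartRing`, `redChart`, `coe_redChart_eq_of` : the reduction of the chart ring, in the shape of
  `Contract8.ChartSpec.red`;
* `OvKg H K hπ` : the Gauss valuation ring of `K·F₀`; `LevelSat H t` : level-`K` `π`-saturation of the
  chart ring for all large number fields; `exists_content` : (R-4) strong saturation over `A`.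

Nothing is left unproved in this file.  Imported by no statement.
-/
import Mathlib
import Fermat.Agent.ES.RED.ChartIntegralA1
import Fermat.Agent.M48.ChartUnionG8
import Fermat.Agent.ES.RED.Contract8

set_option autoImplicit false
set_option linter.unusedSectionVars false

open HahnSeries ModularCurve Polynomial

noncomputable section

namespace Fermat.Agent.M48.ChartIntegralG8

open Fermat.Agent.RED.Interface4 Fermat.Agent.RED.DESC Fermat.Agent.RED.PUR.ChartGeneric22
  Fermat.Agent.RED.NumInst4 Fermat.Agent.RED.PUR.GaussGen8 Fermat.Agent.RED.DESC.NumberFieldDVR27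
  Fermat.Agent.M48.DescG0 Fermat.Agent.ES.RED.Contract8

variable (A : ValuationSubring Qbar) (F₀ : IntermediateField ℚ (LaurentSeries ℚ))
  (Fk : IntermediateField (kA A) (LaurentSeries (kA A)))

/-- **The two hypotheses on the pair `(F₀, Fk)`.** -/
structure RedHyp : Prop where
  /-- (GB1) `K·F₀ ⊂ Frac (A ∩ K)((q))`. -/
  le_fracField : ∀ K : IntermediateField ℚ Qbar, FKg F₀ K ≤ fracField (AK A K)
  /-- (RED) the reduction of an integral element of `K·F₀`, pushed to `κ_A`, lies in `Fk`. -/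
  red_mem : ∀ K : IntermediateField ℚ Qbar, FiniteDimensional ℚ K →
    ∀ Y₀ : LaurentSeries ↥(AK A K), embK (AK A K) Y₀ ∈ FKg F₀ K →
      coeffMap (resMap A K) (redL (AK A K) Y₀) ∈ Fk

theorem coeffMap_subtype_injective : Function.Injective (coeffMap (A.subtype : ↥A →+* Qbar)) :=
  CoeffDescent1.coeffMap_injective_of_injective _ Subtype.val_injective

/-- The elements of `ℚ̄·F₀` with `A`-integral `q`-expansion. -/
def intF : Subring ↥(FBg F₀) :=
  (coeffMap (A.subtype : ↥A →+* Qbar)).range.comap (algebraMap ↥(FBg F₀) (LaurentSeries Qbar))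

theorem mem_intF_iff {y : FBg F₀} :
    y ∈ intF A F₀ ↔
      ∃ Y : LaurentSeries ↥A, coeffMap A.subtype Y = ((y : FBg F₀) : LaurentSeries Qbar) :=
  Iff.rfl

/-- The `q`-expansion over `A` of an element of `intF`. -/
def series (y : intF A F₀) : LaurentSeries ↥A := Classical.choose ((mem_intF_iff A F₀).mp y.2)

theorem coeffMap_series (y : intF A F₀) :
    coeffMap A.subtype (series A F₀ y) = (((y : intF A F₀) : FBg F₀) : LaurentSeries Qbar) :=
  Classical.choose_spec ((mem_intF_iff A F₀).mp y.2)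

variable {A F₀} in
theorem series_eq_of {y : intF A F₀} {Y : LaurentSeries ↥A}
    (h : coeffMap A.subtype Y = (((y : intF A F₀) : FBg F₀) : LaurentSeries Qbar)) :
    series A F₀ y = Y :=
  coeffMap_subtype_injective A (by rw [coeffMap_series, h])

/-- The `q`-expansion over `A`, as a ring homomorphism. -/
def seriesHom : ↥(intF A F₀) →+* LaurentSeries ↥A where
  toFun := series A F₀
  map_one' := series_eq_of (by rw [map_one]; rfl)
  map_mul' a b := series_eq_of (by rw [map_mul, coeffMap_series, coeffMap_series]; rfl)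
  map_zero' := series_eq_of (by rw [map_zero]; rfl)
  map_add' a b := series_eq_of (by rw [map_add, coeffMap_series, coeffMap_series]; rfl)

@[simp] theorem coeffMap_seriesHom (y : intF A F₀) :
    coeffMap A.subtype (seriesHom A F₀ y) = (((y : intF A F₀) : FBg F₀) : LaurentSeries Qbar) :=
  coeffMap_series A F₀ y

variable {A F₀} in
theorem seriesHom_eq_of {y : intF A F₀} {Y : LaurentSeries ↥A}
    (h : coeffMap A.subtype Y = (((y : intF A F₀) : FBg F₀) : LaurentSeries Qbar)) :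
    seriesHom A F₀ y = Y := series_eq_of h

theorem seriesHom_injective : Function.Injective (seriesHom A F₀) := by
  intro a b h
  apply Subtype.ext
  apply Subtype.ext
  rw [← coeffMap_seriesHom, ← coeffMap_seriesHom, h]

/-- Coefficientwise reduction `intF → κ_A((q))`. -/
def redSeries : ↥(intF A F₀) →+* LaurentSeries (kA A) :=
  (coeffMap (IsLocalRing.residue ↥A)).comp (seriesHom A F₀)

theorem redSeries_apply (y : intF A F₀) :
    redSeries A F₀ y = coeffMap (IsLocalRing.residue ↥A) (seriesHom A F₀ y) := rfl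

variable {A F₀} in
theorem redSeries_eq_of {y : intF A F₀} {Y : LaurentSeries ↥A}
    (h : coeffMap A.subtype Y = (((y : intF A F₀) : FBg F₀) : LaurentSeries Qbar)) :
    redSeries A F₀ y = coeffMap (IsLocalRing.residue ↥A) Y := by
  rw [redSeries_apply, seriesHom_eq_of h]

/-! ### descent of integral elements to number fields -/

/-- If `f x = y` with `y` integral over `A`, then `x` is integral over `A ∩ K`. -/
theorem exists_embK_of_baseChangeHom (K : IntermediateField ℚ Qbar) (x : FKg F₀ K)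
    (Y : LaurentSeries ↥A)
    (h : coeffMap A.subtype Y = ((baseChangeHom F₀ K x : FBg F₀) : LaurentSeries Qbar)) :
    ∃ Y₀ : LaurentSeries ↥(AK A K), embK (AK A K) Y₀ = ((x : FKg F₀ K) : LaurentSeries K) ∧
      coeffMap (incl A K) Y₀ = Y := by
  have hc : ∀ n : ℤ, ((x : FKg F₀ K) : LaurentSeries K).coeff n ∈
      Set.range ((AK A K).subtype : ↥(AK A K) →+* K) := by
    intro n
    have h1 := congrArg (fun z => HahnSeries.coeff z n) h
    simp only [coe_baseChangeHom, coeffMap_coeff] at h1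
    refine ⟨⟨((x : FKg F₀ K) : LaurentSeries K).coeff n, ?_⟩, rfl⟩
    rw [mem_AK_iff]
    have h2 : (algebraMap ↥K Qbar) (((x : FKg F₀ K) : LaurentSeries K).coeff n) =
        ((Y.coeff n : ↥A) : Qbar) := h1.symm
    show algebraMap ↥K Qbar _ ∈ A
    rw [h2]
    exact (Y.coeff n).2
  obtain ⟨Y₀, hY₀⟩ := UnifDescent14.exists_coeffMap_eq ((AK A K).subtype : ↥(AK A K) →+* K)
    Subtype.val_injective _ hc
  refine ⟨Y₀, hY₀, ?_⟩
  apply coeffMap_subtype_injective A
  rw [Fermat.Agent.ES.RED.GaussUnit25.coeffMap_subtype_incl, h, coe_baseChangeHom]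
  congr 1

/-! ### the reduction lands in `Fk` -/

section Red

variable {A F₀ Fk} (H : RedHyp A F₀ Fk)

include H in
/-- **(R0a) over `A`**: the reduction of an `A`-integral element of `ℚ̄·F₀` lies in `Fk`. -/
theorem redSeries_mem (y : intF A F₀) : redSeries A F₀ y ∈ Fk := by
  obtain ⟨K, hfin, -, HK⟩ := exists_descent_ge F₀
    (⊥ : IntermediateField ℚ Qbar) ((y : intF A F₀) : FBg F₀)
  obtain ⟨x, hx⟩ := HK K le_rfl
  obtain ⟨Y₀, hY₀, hY⟩ := exists_embK_of_baseChangeHom A F₀ K x (seriesHom A F₀ y)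
    (by rw [coeffMap_seriesHom, hx])
  rw [redSeries_apply, ← hY, Fermat.Agent.ES.RED.GaussUnit25.coeffMap_residue_incl]
  apply H.red_mem K hfin Y₀
  rw [hY₀]
  exact x.2

/-- **The reduction map** `intF → Fk`. -/
def redF : ↥(intF A F₀) →+* ↥Fk :=
  (redSeries A F₀).codRestrict Fk (redSeries_mem H)

@[simp] theorem coe_redF (y : intF A F₀) :
    ((redF H y : ↥Fk) : LaurentSeries (kA A)) =
      coeffMap (IsLocalRing.residue ↥A) (seriesHom A F₀ y) := rfl

theorem coe_redF_eq_of {y : intF A F₀} {Y : LaurentSeries ↥A}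
    (h : coeffMap A.subtype Y = (((y : intF A F₀) : FBg F₀) : LaurentSeries Qbar)) :
    ((redF H y : ↥Fk) : LaurentSeries (kA A)) = coeffMap (IsLocalRing.residue ↥A) Y := by
  rw [coe_redF, seriesHom_eq_of h]

theorem redF_eq_zero_iff (y : intF A F₀) :
    redF H y = 0 ↔ coeffMap (IsLocalRing.residue ↥A) (seriesHom A F₀ y) = 0 := by
  rw [← coe_redF H]
  exact ⟨fun h => by rw [h]; rfl, fun h => Subtype.ext h⟩

variable (A F₀) in
/-- constants lie in `intF`. -/
theorem algebraMap_mem_intF (a : ↥A) : algebraMap Qbar ↥(FBg F₀) (a : Qbar) ∈ intF A F₀ := by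
  refine ⟨HahnSeries.C a, ?_⟩
  rw [Fermat.Agent.RED.PUR.GaussGen8.coeffMap_C]
  exact (algebraMap_eq_C _).symm

variable (A F₀) in
theorem seriesHom_algebraMap (a : ↥A) :
    seriesHom A F₀ ⟨algebraMap Qbar ↥(FBg F₀) (a : Qbar), algebraMap_mem_intF A F₀ a⟩ =
      HahnSeries.C a := by
  apply seriesHom_eq_of
  rw [Fermat.Agent.RED.PUR.GaussGen8.coeffMap_C]
  exact (algebraMap_eq_C _).symm

theorem redF_algebraMap (a : ↥A) :
    redF H ⟨algebraMap Qbar ↥(FBg F₀) (a : Qbar), algebraMap_mem_intF A F₀ a⟩ =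
      algebraMap (kA A) ↥Fk (IsLocalRing.residue ↥A a) := by
  apply Subtype.ext
  rw [coe_redF, seriesHom_algebraMap, Fermat.Agent.RED.PUR.GaussGen8.coeffMap_C]
  exact (algebraMap_eq_C _).symm

end Red

/-! ### the chart ring lies in `intF` -/

section Chart

variable {A F₀} (ℓ : ℕ) [Fact ℓ.Prime] (hA : A.LiesOverPrime ℓ)
  (hE : ∀ K : IntermediateField ℚ Qbar, FKg F₀ K ≤ fracField (AK A K))

include hA hE in
/-- **(MA1) over `A`**: if `t` has an `A`-integral `q`-expansion, so has every element of the chart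
ring `chart A t` (integral closure of `A[t]` in `ℚ̄·F₀`). -/
theorem chart_le_intF {t : FBg F₀} (ht : t ∈ intF A F₀) {y : FBg F₀} (hy : y ∈ chart ↥A t) :
    y ∈ intF A F₀ := by
  obtain ⟨K₁, hfin₁, -, Ht⟩ := exists_descent_ge F₀ (⊥ : IntermediateField ℚ Qbar) t
  have := hfin₁
  obtain ⟨K, hfin, hK₁, Hy⟩ := ChartUnionG8.exists_chart_descent A F₀ K₁ t y hy
  have := hfin
  obtain ⟨tK, htK⟩ := Ht K hK₁
  obtain ⟨x, hx, hxy⟩ := Hy K le_rfl tK htK
  obtain ⟨T, hT⟩ := (mem_intF_iff A F₀).mp ht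
  obtain ⟨T₀, hT₀, -⟩ := exists_embK_of_baseChangeHom A F₀ K tK T (by rw [hT, htK])
  have : IsDiscreteValuationRing ↥(AK A K) :=
    isDiscreteValuationRing_AK A K (Fact.out : ℓ.Prime).ne_zero hA
  obtain ⟨Y₀, hY₀⟩ := Fermat.Agent.ES.RED.IntegralQExp1.exists_embK_of_mem_chart (AK A K)
    (FKg F₀ K) (hE K) ⟨T₀, hT₀⟩ hx
  refine ⟨coeffMap (incl A K) Y₀, ?_⟩
  rw [Fermat.Agent.ES.RED.GaussUnit25.coeffMap_subtype_incl, hY₀, ← hxy]
  exact (coe_baseChangeHom F₀ K x).symm

end Chart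

/-! ### the reduction of the chart ring, and strong saturation (R-4) -/

section Sat

variable {A F₀ Fk} (ℓ : ℕ) [Fact ℓ.Prime] (hA : A.LiesOverPrime ℓ) (H : RedHyp A F₀ Fk)

/-- shortcut instance (typeclass search is slow to find it). -/
local instance (priority := high) algebraAKFKg (K : IntermediateField ℚ Qbar) :
    Algebra ↥(AK A K) ↥(FKg F₀ K) := inferInstance

variable (A F₀) in
/-- The chart ring over `A` as a subring of `ℚ̄·F₀`. -/
def chartRing (t : FBg F₀) : Subring ↥(FBg F₀) := (chart ↥A t).toSubring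

theorem mem_chartRing_iff {t y : FBg F₀} : y ∈ chartRing A F₀ t ↔ y ∈ chart ↥A t := Iff.rfl

/-- **The reduction of the chart ring** `chart A t →+* Fk` (shape of `Contract8.ChartSpec.red`). -/
def redChart {t : FBg F₀} (ht : t ∈ intF A F₀) : ↥(chartRing A F₀ t) →+* ↥Fk :=
  (redF H).comp
    (Subring.inclusion (S := chartRing A F₀ t) (T := intF A F₀)
      (fun _ hy => chart_le_intF ℓ hA H.le_fracField ht hy))

theorem coe_redChart_eq_of {t : FBg F₀} (ht : t ∈ intF A F₀) (b : chartRing A F₀ t)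
    {Y : LaurentSeries ↥A}
    (h : coeffMap A.subtype Y = (((b : chartRing A F₀ t) : FBg F₀) : LaurentSeries Qbar)) :
    ((redChart ℓ hA H ht b : ↥Fk) : LaurentSeries (kA A)) =
      coeffMap (IsLocalRing.residue ↥A) Y :=
  coe_redF_eq_of H (y := Subring.inclusion (S := chartRing A F₀ t) (T := intF A F₀)
      (fun _ hy => chart_le_intF ℓ hA H.le_fracField ht hy) b) h

/-- The Gauss valuation ring of `K·F₀` over `A ∩ K`. -/
def OvKg (K : IntermediateField ℚ Qbar) {π : ↥(AK A K)} (hπ : IsUnif (AK A K) π) :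
    ValuationSubring ↥(FKg F₀ K) :=
  gaussVS hπ (FKg F₀ K) (H.le_fracField K)

theorem mem_OvKg_iff (K : IntermediateField ℚ Qbar) {π : ↥(AK A K)} (hπ : IsUnif (AK A K) π)
    (f : FKg F₀ K) :
    f ∈ OvKg H K hπ ↔ (f : LaurentSeries K) ∈ gaussRing (AK A K) :=
  mem_gaussVS_iff hπ (FKg F₀ K) (H.le_fracField K) f

/-- Level-`K` `π`-saturation of the chart ring in the Gauss valuation ring, for all large number
fields `K` (field `sat0` / `sat1` of `CoreIface24.TwoChartModel`). -/
def LevelSat (t : FBg F₀) : Prop :=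
  ∃ K₀ : IntermediateField ℚ Qbar, FiniteDimensional ℚ K₀ ∧
    ∀ K : IntermediateField ℚ Qbar, FiniteDimensional ℚ K → K₀ ≤ K →
      ∀ (ϖ : ↥(AK A K)) (_ : Irreducible ϖ) (hu : IsUnif (AK A K) ϖ) (tK : FKg F₀ K),
        baseChangeHom F₀ K tK = t →
        ∀ b ∈ chart ↥(AK A K) tK, ∀ c ∈ OvKg H K hu,
          b = algebraMap ↥(AK A K) ↥(FKg F₀ K) ϖ * c → c ∈ chart ↥(AK A K) tK

theorem algebraMap_mem_OvKg (K : IntermediateField ℚ Qbar) {ϖ : ↥(AK A K)}
    (hu : IsUnif (AK A K) ϖ) (a : ↥(AK A K)) :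
    algebraMap ↥(AK A K) ↥(FKg F₀ K) a ∈ OvKg H K hu := by
  rw [mem_OvKg_iff, coe_algebraMap_OE]
  exact C_mem (AK A K) a

/-- iterated saturation. -/
theorem mem_chart_of_pow_mul_mem (K : IntermediateField ℚ Qbar) {ϖ : ↥(AK A K)}
    (hu : IsUnif (AK A K) ϖ) (tK : FKg F₀ K)
    (hsat : ∀ b ∈ chart ↥(AK A K) tK, ∀ c ∈ OvKg H K hu,
      b = algebraMap ↥(AK A K) ↥(FKg F₀ K) ϖ * c → c ∈ chart ↥(AK A K) tK)
    (i : ℕ) (c : FKg F₀ K) (hc : c ∈ OvKg H K hu)
    (h : (algebraMap ↥(AK A K) ↥(FKg F₀ K) ϖ) ^ i * c ∈ chart ↥(AK A K) tK) :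
    c ∈ chart ↥(AK A K) tK := by
  induction i with
  | zero => simpa using h
  | succ i ih =>
    apply ih
    refine hsat _ h _ (mul_mem (pow_mem (algebraMap_mem_OvKg H K hu ϖ) i) hc) ?_
    rw [pow_succ]
    ring

include hA in
/-- **(R-4) strong saturation over `A`**: every nonzero element of the chart ring is a constant of
`A` times an element of the chart ring with nonzero reduction. -/
theorem exists_content {t : FBg F₀} (ht : t ∈ intF A F₀) (hsat : LevelSat H t)
    (b : chartRing A F₀ t) (hb0 : b ≠ 0) :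
    ∃ (c : ↥A) (b' : chartRing A F₀ t),
      ((b : chartRing A F₀ t) : FBg F₀) =
        algebraMap Qbar ↥(FBg F₀) (c : Qbar) * ((b' : chartRing A F₀ t) : FBg F₀) ∧
      redChart ℓ hA H ht b' ≠ 0 := by
  have hℓ : ℓ.Prime := Fact.out
  obtain ⟨K₁, hfin₁, -, Ht⟩ := exists_descent_ge F₀ (⊥ : IntermediateField ℚ Qbar) t
  obtain ⟨K₂, hfin₂, Hsat⟩ := hsat
  have := hfin₁
  have := hfin₂
  obtain ⟨K, hfin, hK₁₂, Hb⟩ :=
    ChartUnionG8.exists_chart_descent A F₀ (K₁ ⊔ K₂) t b b.2
  have := hfin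
  have hK₁ : K₁ ≤ K := le_sup_left.trans hK₁₂
  have hK₂ : K₂ ≤ K := le_sup_right.trans hK₁₂
  obtain ⟨tK, htK⟩ := Ht K hK₁
  obtain ⟨x, hx, hxb⟩ := Hb K le_rfl tK htK
  have hdvr : IsDiscreteValuationRing ↥(AK A K) := isDiscreteValuationRing_AK A K hℓ.ne_zero hA
  obtain ⟨ϖ, hϖ⟩ := IsDiscreteValuationRing.exists_irreducible ↥(AK A K)
  have hu : IsUnif (AK A K) ϖ := isUnif_of_irreducible (AK A K) hϖ
  have hsatK := Hsat K hfin hK₂ ϖ hϖ hu tK htK
  -- integral expansions
  obtain ⟨T, hT⟩ := (mem_intF_iff A F₀).mp ht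
  obtain ⟨T₀, hT₀, -⟩ := exists_embK_of_baseChangeHom A F₀ K tK T (by rw [hT, htK])
  obtain ⟨Y₀, hY₀⟩ := Fermat.Agent.ES.RED.IntegralQExp1.exists_embK_of_mem_chart (AK A K)
    (FKg F₀ K) (H.le_fracField K) ⟨T₀, hT₀⟩ hx
  have hx0 : x ≠ 0 := by
    rintro rfl
    apply hb0
    apply Subtype.ext
    rw [← hxb, map_zero]
    rfl
  have hY₀0 : Y₀ ≠ 0 := by
    rintro rfl
    rw [map_zero] at hY₀
    exact hx0 (Subtype.ext hY₀.symm)
  obtain ⟨i, a₀, ha₀, hred⟩ := exists_eq_pow_mul hu Y₀ hY₀0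
  -- the primitive part, as an element of `K·F₀`
  set p : FKg F₀ K := algebraMap ↥(AK A K) ↥(FKg F₀ K) ϖ with hp
  have hp0 : p ≠ 0 := by
    intro h0
    have h1 := congrArg (fun z : FKg F₀ K => (z : LaurentSeries K)) h0
    simp only [hp, coe_algebraMap_OE] at h1
    have h2 : ((ϖ : ↥(AK A K)) : K) = 0 := by
      have := congrArg (fun z : LaurentSeries K => z.coeff 0) h1
      simpa using this
    exact hu.ne_zero (Subtype.ext h2)
  set x' : FKg F₀ K := x * (p ^ i)⁻¹ with hx'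
  have hxx' : p ^ i * x' = x := by
    rw [hx', mul_comm x, ← mul_assoc, mul_inv_cancel₀ (pow_ne_zero i hp0), one_mul]
  have hcoe_p : ((p : FKg F₀ K) : LaurentSeries K) = embK (AK A K) (HahnSeries.C ϖ) := by
    rw [hp, coe_algebraMap_OE, embK_C]
  have hx'coe : ((x' : FKg F₀ K) : LaurentSeries K) = embK (AK A K) a₀ := by
    have h1 : ((p : FKg F₀ K) : LaurentSeries K) ^ i * ((x' : FKg F₀ K) : LaurentSeries K) =
        ((p : FKg F₀ K) : LaurentSeries K) ^ i * embK (AK A K) a₀ := by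
      have h2 := congrArg (fun z : FKg F₀ K => (z : LaurentSeries K)) hxx'
      simp only [MulMemClass.coe_mul, SubmonoidClass.coe_pow] at h2
      rw [h2, ← hY₀, ha₀, map_mul, map_pow, hcoe_p]
    have hp0' : ((p : FKg F₀ K) : LaurentSeries K) ^ i ≠ 0 := by
      apply pow_ne_zero
      intro h0
      exact hp0 (Subtype.ext h0)
    exact mul_left_cancel₀ hp0' h1
  have hx'Ov : x' ∈ OvKg H K hu := by
    rw [mem_OvKg_iff, hx'coe]
    exact embK_mem (AK A K) a₀
  have hx'chart : x' ∈ chart ↥(AK A K) tK :=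
    mem_chart_of_pow_mul_mem H K hu tK hsatK i x' hx'Ov (by rw [hxx']; exact hx)
  -- push to `ℚ̄`
  have hb' : baseChangeHom F₀ K x' ∈ chart ↥A t := by
    have := ChartUnionG8.baseChangeHom_mem_chart A F₀ K tK x' hx'chart
    rwa [htK] at this
  refine ⟨incl A K (ϖ ^ i), ⟨baseChangeHom F₀ K x', hb'⟩, ?_, ?_⟩
  · show ((b : chartRing A F₀ t) : FBg F₀) = _ * baseChangeHom F₀ K x'
    have h3 : algebraMap Qbar ↥(FBg F₀) ((incl A K ϖ ^ i : ↥A) : Qbar) =
        (algebraMap ↥A ↥(FBg F₀)) (incl A K ϖ) ^ i :=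
      map_pow (algebraMap ↥A ↥(FBg F₀)) (incl A K ϖ) i
    rw [← hxb, ← hxx', map_mul, map_pow, map_pow, hp,
      ChartUnionG8.baseChangeHom_algebraMap_AK, h3]
  · intro h0
    have h1 : ((redChart ℓ hA H ht ⟨baseChangeHom F₀ K x', hb'⟩ : ↥Fk) :
        LaurentSeries (kA A)) = 0 := by
      rw [h0]
      rfl
    have hser : coeffMap A.subtype (coeffMap (incl A K) a₀) =
        ((baseChangeHom F₀ K x' : FBg F₀) : LaurentSeries Qbar) := by
      rw [Fermat.Agent.ES.RED.GaussUnit25.coeffMap_subtype_incl, ← hx'coe, coe_baseChangeHom]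
    have h2 := coe_redChart_eq_of ℓ hA H ht ⟨baseChangeHom F₀ K x', hb'⟩ hser
    rw [h2, Fermat.Agent.ES.RED.GaussUnit25.coeffMap_residue_incl] at h1
    apply hred
    apply CoeffDescent1.coeffMap_injective_of_injective (resMap A K) (resMap_injective A K)
    rw [h1]
    exact (map_zero _).symm

end Sat

end Fermat.Agent.M48.ChartIntegralG8
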