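/-
Programme M48 (target S48), leaf (P6) = Chebotarev's density theorem, file A (helper2):
**`L`-series of a bounded completely multiplicative function on the ideals of a number field and
the real part of its prime sum.**

For `θ : Ideal (𝓞 K) →*₀ ℂ` with `‖θ 𝔞‖ ≤ 1` put `Lfun θ s = ∑_𝔞 θ(𝔞) N(𝔞)^(-s)` (`s` real, `s > 1`)
and `primeSum θ s = ∑_P θ(P) N(P)^(-s)`.  Then (`abs_log_norm_Lfun_sub_re_primeSum_le`)

  `|log ‖Lfun θ s‖ - Re (primeSum θ s)| ≤ primeZeta K 2`      for all `s > 1`.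

Only the REAL part of the prime sum is controlled by `‖L‖`; this is all that the density theorem for
inversion-closed sets of Frobenius classes needs (no continuity of `L` at `s = 1`, no argument of
`L`).  Inputs: the Euler product over the prime ideals of a Dedekind domain
(`CFT/IdealEuler.hasProd_inv_one_sub`), Mathlib's bound `‖log (1 - z)⁻¹ - z‖ ≤ ‖z‖² / (2 (1 - ‖z‖))`.
-/
import Mathlib
import Fermat.Agent.CFT.IdealEuler
import Fermat.Agent.CFT.SplitPrimes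

set_option autoImplicit false
set_option linter.unusedSectionVars false

open NumberField Ideal IsDedekindDomain
open Fermat.Agent.CFT.SplitPrimes Fermat.Agent.CFT.IdealEuler Fermat.Agent.CFT.IdealZetaSum

noncomputable section

namespace Fermat.Agent.M48.ChebLSeries2

variable {K : Type*} [Field K] [NumberField K]

/-- The Dirichlet series term `𝔞 ↦ θ(𝔞) N(𝔞)^(-s)` as a completely multiplicative function. -/
def term (θ : Ideal (𝓞 K) →*₀ ℂ) (s : ℝ) : Ideal (𝓞 K) →*₀ ℂ where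
  toFun a := θ a * (((absNorm a : ℝ) ^ (-s) : ℝ) : ℂ)
  map_zero' := by rw [map_zero, zero_mul]
  map_one' := by
    rw [map_one, map_one, Nat.cast_one, Real.one_rpow, Complex.ofReal_one, mul_one]
  map_mul' a b := by
    rw [map_mul, map_mul, Nat.cast_mul, Real.mul_rpow (Nat.cast_nonneg _) (Nat.cast_nonneg _),
      Complex.ofReal_mul]
    ring

theorem term_apply (θ : Ideal (𝓞 K) →*₀ ℂ) (s : ℝ) (a : Ideal (𝓞 K)) :
    term θ s a = θ a * (((absNorm a : ℝ) ^ (-s) : ℝ) : ℂ) := rfl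

/-- The `L`-series of `θ` at a real argument. -/
def Lfun (θ : Ideal (𝓞 K) →*₀ ℂ) (s : ℝ) : ℂ := ∑' a : Ideal (𝓞 K), term θ s a

/-- The prime sum `∑_P θ(P) N(P)^(-s)`. -/
def primeSum (θ : Ideal (𝓞 K) →*₀ ℂ) (s : ℝ) : ℂ :=
  ∑' P : HeightOneSpectrum (𝓞 K), θ P.asIdeal * ((xP K s P : ℝ) : ℂ)

section Bounded

variable (θ : Ideal (𝓞 K) →*₀ ℂ) (hθ : ∀ a, ‖θ a‖ ≤ 1)

include hθ

theorem norm_term_le (s : ℝ) (a : Ideal (𝓞 K)) : ‖term θ s a‖ ≤ (absNorm a : ℝ) ^ (-s) := by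
  rw [term_apply, norm_mul, Complex.norm_real,
    Real.norm_of_nonneg (Real.rpow_nonneg (Nat.cast_nonneg _) _)]
  calc ‖θ a‖ * (absNorm a : ℝ) ^ (-s) ≤ 1 * (absNorm a : ℝ) ^ (-s) :=
        mul_le_mul_of_nonneg_right (hθ a) (Real.rpow_nonneg (Nat.cast_nonneg _) _)
    _ = _ := one_mul _

theorem summable_norm_term {s : ℝ} (hs : 1 < s) :
    Summable (fun a : Ideal (𝓞 K) => ‖term θ s a‖) :=
  Summable.of_nonneg_of_le (fun _ => norm_nonneg _) (norm_term_le θ hθ s)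
    (summable_absNorm_rpow K hs)

/-- `‖L(s, θ)‖ ≤ ζ_K(s)` (as a sum over all ideals). -/
theorem norm_Lfun_le {s : ℝ} (hs : 1 < s) :
    ‖Lfun θ s‖ ≤ ∑' a : Ideal (𝓞 K), (absNorm a : ℝ) ^ (-s) := by
  refine (norm_tsum_le_tsum_norm (summable_norm_term θ hθ hs)).trans ?_
  exact (summable_norm_term θ hθ hs).tsum_le_tsum (norm_term_le θ hθ s)
    (summable_absNorm_rpow K hs)

/-- The Euler product of `L(s, θ)`. -/
theorem hasProd_Lfun {s : ℝ} (hs : 1 < s) :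
    HasProd (fun P : HeightOneSpectrum (𝓞 K) =>
      (1 - θ P.asIdeal * ((xP K s P : ℝ) : ℂ))⁻¹) (Lfun θ s) :=
  hasProd_inv_one_sub (term θ s) (summable_norm_term θ hθ hs)

theorem Lfun_ne_zero {s : ℝ} (hs : 1 < s) : Lfun θ s ≠ 0 :=
  tsum_ne_zero (term θ s) (summable_norm_term θ hθ hs)

/-- The local variable `z_P = θ(P) N(P)^(-s)` has norm at most `N(P)^(-s) ≤ 1/2`. -/
theorem norm_local_le (s : ℝ) (P : HeightOneSpectrum (𝓞 K)) :
    ‖θ P.asIdeal * ((xP K s P : ℝ) : ℂ)‖ ≤ xP K s P := by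
  rw [norm_mul, Complex.norm_real, Real.norm_of_nonneg (xP_pos K s P).le]
  calc ‖θ P.asIdeal‖ * xP K s P ≤ 1 * xP K s P :=
        mul_le_mul_of_nonneg_right (hθ _) (xP_pos K s P).le
    _ = _ := one_mul _

theorem summable_local {s : ℝ} (hs : 1 < s) :
    Summable (fun P : HeightOneSpectrum (𝓞 K) => θ P.asIdeal * ((xP K s P : ℝ) : ℂ)) :=
  Summable.of_norm_bounded (summable_xP K hs) (norm_local_le θ hθ s)

/-- `‖primeSum θ s‖ ≤ primeZeta K s`. -/
theorem norm_primeSum_le {s : ℝ} (hs : 1 < s) : ‖primeSum θ s‖ ≤ primeZeta K s := by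
  have h1 : Summable (fun P : HeightOneSpectrum (𝓞 K) =>
      ‖θ P.asIdeal * ((xP K s P : ℝ) : ℂ)‖) :=
    Summable.of_nonneg_of_le (fun _ => norm_nonneg _) (norm_local_le θ hθ s) (summable_xP K hs)
  exact (norm_tsum_le_tsum_norm h1).trans
    (h1.tsum_le_tsum (norm_local_le θ hθ s) (summable_xP K hs))

/-- The local logarithm `log (1 - z_P)⁻¹` differs from `z_P` by at most `N(P)^(-2s)`. -/
theorem norm_log_local_sub_le {s : ℝ} (hs : 1 ≤ s) (P : HeightOneSpectrum (𝓞 K)) :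
    ‖Complex.log (1 - θ P.asIdeal * ((xP K s P : ℝ) : ℂ))⁻¹ -
        θ P.asIdeal * ((xP K s P : ℝ) : ℂ)‖ ≤ xP K s P ^ 2 := by
  set z : ℂ := θ P.asIdeal * ((xP K s P : ℝ) : ℂ) with hz
  have h1 : ‖z‖ ≤ xP K s P := norm_local_le θ hθ s P
  have h2 : xP K s P ≤ 1 / 2 := xP_le_half K hs P
  have h3 : ‖z‖ < 1 := by linarith
  have h0 : 0 ≤ ‖z‖ := norm_nonneg z
  refine (Complex.norm_log_one_sub_inv_sub_self_le h3).trans ?_
  have h4 : (1 - ‖z‖)⁻¹ ≤ 2 := by
    rw [inv_le_comm₀ (by linarith) two_pos]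
    linarith
  have h5 : 0 ≤ (1 - ‖z‖)⁻¹ := inv_nonneg.mpr (by linarith)
  calc ‖z‖ ^ 2 * (1 - ‖z‖)⁻¹ / 2 ≤ ‖z‖ ^ 2 * 2 / 2 := by
        apply div_le_div_of_nonneg_right _ (by norm_num : (0:ℝ) ≤ 2)
        exact mul_le_mul_of_nonneg_left h4 (sq_nonneg _)
    _ = ‖z‖ ^ 2 := by ring
    _ ≤ xP K s P ^ 2 := pow_le_pow_left₀ h0 h1 2

theorem summable_log_local {s : ℝ} (hs : 1 < s) :
    Summable (fun P : HeightOneSpectrum (𝓞 K) =>
      Complex.log (1 - θ P.asIdeal * ((xP K s P : ℝ) : ℂ))⁻¹) := by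
  have h1 : Summable (fun P : HeightOneSpectrum (𝓞 K) =>
      Complex.log (1 - θ P.asIdeal * ((xP K s P : ℝ) : ℂ))⁻¹ -
        θ P.asIdeal * ((xP K s P : ℝ) : ℂ)) :=
    Summable.of_norm_bounded (summable_xP_sq K hs) (norm_log_local_sub_le θ hθ hs.le)
  have := h1.add (summable_local θ hθ hs)
  simpa using this

/-- `L(s, θ) = exp (∑_P log (1 - z_P)⁻¹)`. -/
theorem Lfun_eq_exp {s : ℝ} (hs : 1 < s) :
    Lfun θ s = Complex.exp (∑' P : HeightOneSpectrum (𝓞 K),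
      Complex.log (1 - θ P.asIdeal * ((xP K s P : ℝ) : ℂ))⁻¹) := by
  have h1 := (summable_log_local θ hθ hs).hasSum.cexp
  have h2 : (Complex.exp ∘ fun P : HeightOneSpectrum (𝓞 K) =>
      Complex.log (1 - θ P.asIdeal * ((xP K s P : ℝ) : ℂ))⁻¹) =
      fun P : HeightOneSpectrum (𝓞 K) => (1 - θ P.asIdeal * ((xP K s P : ℝ) : ℂ))⁻¹ := by
    funext P
    have hne : (1 - θ P.asIdeal * ((xP K s P : ℝ) : ℂ))⁻¹ ≠ 0 := by
      apply inv_ne_zero
      intro h
      have h3 : θ P.asIdeal * ((xP K s P : ℝ) : ℂ) = 1 := (sub_eq_zero.mp h).symm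
      have h4 := norm_local_le θ hθ s P
      rw [h3, norm_one] at h4
      have := xP_le_half K hs.le P
      linarith
    exact Complex.exp_log hne
  rw [h2] at h1
  exact (hasProd_Lfun θ hθ hs).unique h1

/-- **The real part of the prime sum is `log ‖L‖` up to `primeZeta K 2`.** -/
theorem abs_log_norm_Lfun_sub_re_primeSum_le {s : ℝ} (hs : 1 < s) :
    |Real.log ‖Lfun θ s‖ - (primeSum θ s).re| ≤ primeZeta K 2 := by
  have hsumlog := summable_log_local θ hθ hs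
  have hsumloc := summable_local θ hθ hs
  rw [Lfun_eq_exp θ hθ hs, Complex.norm_exp, Real.log_exp, primeSum, ← Complex.sub_re,
    ← hsumlog.tsum_sub hsumloc]
  refine (Complex.abs_re_le_norm _).trans ?_
  have hdiff : Summable (fun P : HeightOneSpectrum (𝓞 K) =>
      ‖Complex.log (1 - θ P.asIdeal * ((xP K s P : ℝ) : ℂ))⁻¹ -
        θ P.asIdeal * ((xP K s P : ℝ) : ℂ)‖) :=
    Summable.of_nonneg_of_le (fun _ => norm_nonneg _) (norm_log_local_sub_le θ hθ hs.le)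
      (summable_xP_sq K hs)
  refine (norm_tsum_le_tsum_norm hdiff).trans ?_
  unfold primeZeta
  exact hdiff.tsum_le_tsum
    (fun P => (norm_log_local_sub_le θ hθ hs.le P).trans (xP_sq_le K hs.le P))
    (summable_xP K one_lt_two)

end Bounded

end Fermat.Agent.M48.ChebLSeries2
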