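/-
Programme M48 (target S48), leaf (P6) = Chebotarev's density theorem, file B (helper2):
**the abstract Fourier argument on a finite abelian group, real parts only.**

`K` a number field, `G` a finite commutative group, `bad` a finite set of primes of `K`,
`lab : primes → G` a labelling, and for every character `χ` of `G` a completely multiplicative
`θ χ` on the ideals of `K`, bounded by `1`, with `θ χ P = χ (lab P)` at the good primes and
`θ χ P = 0` at the bad ones.  Put `dens b s = ∑_{P good, lab P = b} N(P)^(-s)`.  If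

* (b) for every `χ ≠ 1` the series `L(s, θ χ)` is bounded on `(1, 2]` (no non-vanishing needed), and
* (c) `log (1/(s-1)) - B ≤ #G * dens 1 s` on `(1, 2]` (enough primes with trivial label),

then for every `b : G`

  `(#G / 2) * (dens b s + dens b⁻¹ s) = log (1/(s-1)) + O(1)`      on `(1, 2]`.

Only real parts of the prime sums occur: (b) gives `Re ∑_P θ χ (P) N(P)^(-s) ≤ O(1)` for `χ ≠ 1`
(file A), (c) and orthogonality give the matching lower bounds, and the second orthogonality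
relation with `Re χ(b) Re χ(g) = (Re χ(bg) + Re χ(b g⁻¹))/2` gives the statement.
-/
import Mathlib
import Fermat.Agent.CFT.CharOrtho
import Fermat.Agent.ES.GAL.ChebAbstract23
import Fermat.Agent.M48.ChebLSeries2

set_option autoImplicit false
set_option linter.unusedSectionVars false

open NumberField Ideal IsDedekindDomain
open Fermat.Agent.CFT.SplitPrimes Fermat.Agent.CFT.CharOrtho
open Fermat.Agent.ES.GAL.ChebAbstract23 Fermat.Agent.M48.ChebLSeries2

noncomputable section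

namespace Fermat.Agent.M48.ChebFourier2

variable {K : Type*} [Field K] [NumberField K] {G : Type*} [CommGroup G]

/-- The weighted sum `∑ N(P)^(-s)` over the good primes with label `b`. -/
def dens (bad : Set (HeightOneSpectrum (𝓞 K))) (lab : HeightOneSpectrum (𝓞 K) → G) (b : G)
    (s : ℝ) : ℝ :=
  wsum (xP K s) {P | P ∉ bad ∧ lab P = b}

theorem dens_nonneg (bad : Set (HeightOneSpectrum (𝓞 K))) (lab : HeightOneSpectrum (𝓞 K) → G)
    (b : G) (s : ℝ) : 0 ≤ dens bad lab b s :=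
  wsum_nonneg (fun P => (xP_pos K s P).le) _

/-! ### Characters: norm one, conjugate = inverse -/

theorem norm_char_apply [Finite G] (χ : G →* ℂˣ) (g : G) : ‖((χ g : ℂˣ) : ℂ)‖ = 1 := by
  have h1 : (χ g) ^ Nat.card G = 1 := by
    rw [← map_pow, pow_card_eq_one', map_one]
  have h2 : ((χ g : ℂˣ) : ℂ) ^ Nat.card G = 1 := by
    rw [← Units.val_pow_eq_pow_val, h1, Units.val_one]
  exact Complex.norm_eq_one_of_pow_eq_one h2 Nat.card_pos.ne'

theorem conj_char_apply [Finite G] (χ : G →* ℂˣ) (g : G) :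
    (starRingEnd ℂ) ((χ g : ℂˣ) : ℂ) = ((χ g⁻¹ : ℂˣ) : ℂ) := by
  rw [map_inv, Units.val_inv_eq_inv_val]
  exact (Complex.inv_eq_conj (norm_char_apply χ g)).symm

theorem abs_re_char_le [Finite G] (χ : G →* ℂˣ) (g : G) : |((χ g : ℂˣ) : ℂ).re| ≤ 1 :=
  (Complex.abs_re_le_norm _).trans (norm_char_apply χ g).le

/-- `Re z * Re w = (Re (z w) + Re (z w̄)) / 2`. -/
theorem re_mul_re (z w : ℂ) :
    z.re * w.re = ((z * w).re + (z * (starRingEnd ℂ) w).re) / 2 := by
  simp only [Complex.mul_re, Complex.conj_re, Complex.conj_im]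
  ring

open scoped Classical in
/-- Second orthogonality relation, real parts. -/
theorem sum_re_mul_re [Finite G] [Fintype (G →* ℂˣ)] (b g : G) :
    ∑ χ : G →* ℂˣ, ((χ b : ℂˣ) : ℂ).re * ((χ g : ℂˣ) : ℂ).re =
      (Nat.card G : ℝ) / 2 * ((if g = b⁻¹ then 1 else 0) + (if g = b then 1 else 0)) := by
  have h1 : ∀ χ : G →* ℂˣ, ((χ b : ℂˣ) : ℂ).re * ((χ g : ℂˣ) : ℂ).re =
      (((χ (b * g) : ℂˣ) : ℂ).re + ((χ (b * g⁻¹) : ℂˣ) : ℂ).re) / 2 := by
    intro χ
    rw [re_mul_re, conj_char_apply, map_mul, map_mul, Units.val_mul, Units.val_mul]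
  rw [Finset.sum_congr rfl (fun χ _ => h1 χ), ← Finset.sum_div, Finset.sum_add_distrib,
    ← Complex.re_sum, ← Complex.re_sum, Fermat.Agent.CFT.CharOrtho.sum_apply, Fermat.Agent.CFT.CharOrtho.sum_apply]
  have e1 : b * g = 1 ↔ g = b⁻¹ := by
    rw [mul_eq_one_iff_eq_inv, eq_comm, inv_eq_iff_eq_inv, eq_comm]
  have e2 : b * g⁻¹ = 1 ↔ g = b := by
    rw [mul_inv_eq_one, eq_comm]
  simp only [e1, e2]
  split_ifs <;> first | (simp; done) | (simp; ring)

open scoped Classical in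
/-- First orthogonality relation, real parts. -/
theorem sum_re [Finite G] [Fintype (G →* ℂˣ)] (g : G) :
    ∑ χ : G →* ℂˣ, ((χ g : ℂˣ) : ℂ).re = if g = 1 then (Nat.card G : ℝ) else 0 := by
  rw [← Complex.re_sum, Fermat.Agent.CFT.CharOrtho.sum_apply]
  split_ifs <;> simp

/-! ### The real part of the prime sum as a combination of the `dens` -/

section Family

variable (bad : Set (HeightOneSpectrum (𝓞 K))) (lab : HeightOneSpectrum (𝓞 K) → G)
  (θ : (G →* ℂˣ) → Ideal (𝓞 K) →*₀ ℂ)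

theorem summable_indicator_xP {s : ℝ} (hs : 1 < s) (T : Set (HeightOneSpectrum (𝓞 K))) :
    Summable (T.indicator (xP K s)) :=
  (summable_xP K hs).indicator T

open scoped Classical in
theorem apply_prime_eq_ite
    (hθbad : ∀ χ (P : HeightOneSpectrum (𝓞 K)), P ∈ bad → θ χ P.asIdeal = 0)
    (hθgood : ∀ χ (P : HeightOneSpectrum (𝓞 K)), P ∉ bad →
      θ χ P.asIdeal = ((χ (lab P) : ℂˣ) : ℂ))
    (χ : G →* ℂˣ) (P : HeightOneSpectrum (𝓞 K)) :
    θ χ P.asIdeal = if P ∈ bad then 0 else ((χ (lab P) : ℂˣ) : ℂ) := by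
  split_ifs with h
  · exact hθbad χ P h
  · exact hθgood χ P h

theorem re_primeSum_eq [Finite G] [Fintype G]
    (hθbad : ∀ χ (P : HeightOneSpectrum (𝓞 K)), P ∈ bad → θ χ P.asIdeal = 0)
    (hθgood : ∀ χ (P : HeightOneSpectrum (𝓞 K)), P ∉ bad →
      θ χ P.asIdeal = ((χ (lab P) : ℂˣ) : ℂ))
    (χ : G →* ℂˣ) {s : ℝ} (hs : 1 < s) :
    (primeSum (θ χ) s).re = ∑ g : G, ((χ g : ℂˣ) : ℂ).re * dens bad lab g s := by
  classical
  have hθP := apply_prime_eq_ite bad lab θ hθbad hθgood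
  have hterm : ∀ P : HeightOneSpectrum (𝓞 K),
      (θ χ P.asIdeal * ((xP K s P : ℝ) : ℂ)).re =
        ∑ g : G, ((χ g : ℂˣ) : ℂ).re * ({P | P ∉ bad ∧ lab P = g} : Set _).indicator (xP K s) P := by
    intro P
    rw [hθP, Complex.re_mul_ofReal]
    by_cases hP : P ∈ bad
    · rw [if_pos hP, Complex.zero_re, zero_mul]
      symm
      apply Finset.sum_eq_zero
      intro g _
      rw [Set.indicator_of_notMem (fun h => h.1 hP), mul_zero]
    · rw [if_neg hP]
      rw [Finset.sum_eq_single (lab P)]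
      · rw [Set.indicator_of_mem (show P ∈ {Q | Q ∉ bad ∧ lab Q = lab P} from ⟨hP, rfl⟩)]
      · intro g _ hg
        rw [Set.indicator_of_notMem (fun h => hg h.2.symm), mul_zero]
      · intro h
        exact absurd (Finset.mem_univ _) h
  have hsummable : ∀ g : G, Summable (fun P : HeightOneSpectrum (𝓞 K) =>
      ((χ g : ℂˣ) : ℂ).re * ({P | P ∉ bad ∧ lab P = g} : Set _).indicator (xP K s) P) :=
    fun g => (summable_indicator_xP hs _).mul_left _
  have hsum : Summable (fun P : HeightOneSpectrum (𝓞 K) =>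
      θ χ P.asIdeal * ((xP K s P : ℝ) : ℂ)) := by
    refine Summable.of_norm_bounded (summable_xP K hs) (fun P => ?_)
    rw [hθP, norm_mul, Complex.norm_real, Real.norm_of_nonneg (xP_pos K s P).le]
    by_cases hP : P ∈ bad
    · rw [if_pos hP, norm_zero, zero_mul]
      exact (xP_pos K s P).le
    · rw [if_neg hP, norm_char_apply, one_mul]
  rw [primeSum, Complex.re_tsum hsum]
  rw [tsum_congr hterm, Summable.tsum_finsetSum (fun g _ => hsummable g)]
  refine Finset.sum_congr rfl (fun g _ => ?_)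
  rw [tsum_mul_left]
  rfl

/-- The real part of the prime sum of the trivial character is `log (1/(s-1)) + O(1)`. -/
theorem re_primeSum_one_bound [Finite G] (hbad : bad.Finite)
    (hθbad : ∀ χ (P : HeightOneSpectrum (𝓞 K)), P ∈ bad → θ χ P.asIdeal = 0)
    (hθgood : ∀ χ (P : HeightOneSpectrum (𝓞 K)), P ∉ bad →
      θ χ P.asIdeal = ((χ (lab P) : ℂˣ) : ℂ)) :
    ∃ B : ℝ, ∀ s ∈ Set.Ioc (1 : ℝ) 2,
      |(primeSum (θ 1) s).re - Real.log (1 / (s - 1))| ≤ B := by
  classical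
  have hθP := apply_prime_eq_ite bad lab θ hθbad hθgood
  obtain ⟨B, hB⟩ := primeZeta_bound K
  refine ⟨B + hbad.toFinset.card, fun s hs => ?_⟩
  have hs1 : 1 < s := hs.1
  have hsum : Summable (fun P : HeightOneSpectrum (𝓞 K) =>
      θ 1 P.asIdeal * ((xP K s P : ℝ) : ℂ)) := by
    refine Summable.of_norm_bounded (summable_xP K hs1) (fun P => ?_)
    rw [hθP, norm_mul, Complex.norm_real, Real.norm_of_nonneg (xP_pos K s P).le]
    by_cases hP : P ∈ bad
    · rw [if_pos hP, norm_zero, zero_mul]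
      exact (xP_pos K s P).le
    · rw [if_neg hP, norm_char_apply, one_mul]
  have hterm : ∀ P : HeightOneSpectrum (𝓞 K),
      (θ 1 P.asIdeal * ((xP K s P : ℝ) : ℂ)).re = xP K s P - bad.indicator (xP K s) P := by
    intro P
    rw [hθP, Complex.re_mul_ofReal]
    by_cases hP : P ∈ bad
    · rw [if_pos hP, Complex.zero_re, zero_mul, Set.indicator_of_mem hP, sub_self]
    · rw [if_neg hP, Set.indicator_of_notMem hP, sub_zero, MonoidHom.one_apply, Units.val_one,
        Complex.one_re, one_mul]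
  have hre : (primeSum (θ 1) s).re = primeZeta K s - wsum (xP K s) bad := by
    rw [primeSum, Complex.re_tsum hsum, tsum_congr hterm,
      (summable_xP K hs1).tsum_sub (summable_indicator_xP hs1 bad)]
    rfl
  have hw0 : 0 ≤ wsum (xP K s) bad := wsum_nonneg (fun P => (xP_pos K s P).le) _
  have hw1 : wsum (xP K s) bad ≤ hbad.toFinset.card := by
    unfold wsum
    have h1 : (∑' P, bad.indicator (xP K s) P) = ∑ P ∈ hbad.toFinset, xP K s P := by
      rw [tsum_eq_sum (s := hbad.toFinset)]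
      · refine Finset.sum_congr rfl (fun P hP => ?_)
        rw [Set.indicator_of_mem (hbad.mem_toFinset.mp hP)]
      · intro P hP
        rw [Set.indicator_of_notMem (fun h => hP (hbad.mem_toFinset.mpr h))]
    rw [h1]
    calc ∑ P ∈ hbad.toFinset, xP K s P ≤ ∑ _P ∈ hbad.toFinset, (1 : ℝ) := by
          refine Finset.sum_le_sum (fun P _ => ?_)
          have := xP_le_half K hs1.le P
          linarith
      _ = hbad.toFinset.card := by rw [Finset.sum_const, nsmul_eq_mul, mul_one]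
  have hB' := abs_le.mp (hB s hs)
  rw [hre, abs_le]
  constructor <;> linarith [hB'.1, hB'.2]

/-- Upper bound for the real part of the prime sum of a character with bounded `L`-series. -/
theorem re_primeSum_le_of_bounded (ψ : Ideal (𝓞 K) →*₀ ℂ) (hψ : ∀ a, ‖ψ a‖ ≤ 1) {B : ℝ}
    (hB : ∀ s ∈ Set.Ioc (1 : ℝ) 2, ‖Lfun ψ s‖ ≤ B) :
    ∀ s ∈ Set.Ioc (1 : ℝ) 2, (primeSum ψ s).re ≤ Real.log (max B 1) + primeZeta K 2 := by
  intro s hs
  have h1 := abs_le.mp (abs_log_norm_Lfun_sub_re_primeSum_le ψ hψ hs.1)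
  have h2 : 0 < ‖Lfun ψ s‖ := norm_pos_iff.mpr (Lfun_ne_zero ψ hψ hs.1)
  have h3 : Real.log ‖Lfun ψ s‖ ≤ Real.log (max B 1) :=
    Real.log_le_log h2 ((hB s hs).trans (le_max_left _ _))
  linarith [h1.1]

end Family

/-! ### The theorem -/

/-- **The abstract density theorem, real parts**, from upper bounds for the real parts of the
prime sums of the nontrivial characters. -/
theorem fourier_density_re [Finite G] (bad : Set (HeightOneSpectrum (𝓞 K))) (hbad : bad.Finite)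
    (lab : HeightOneSpectrum (𝓞 K) → G)
    (θ : (G →* ℂˣ) → Ideal (𝓞 K) →*₀ ℂ)
    (hθbad : ∀ χ (P : HeightOneSpectrum (𝓞 K)), P ∈ bad → θ χ P.asIdeal = 0)
    (hθgood : ∀ χ (P : HeightOneSpectrum (𝓞 K)), P ∉ bad →
      θ χ P.asIdeal = ((χ (lab P) : ℂˣ) : ℂ))
    (hRe : ∀ χ : G →* ℂˣ, χ ≠ 1 →
      ∃ B : ℝ, ∀ s ∈ Set.Ioc (1 : ℝ) 2, (primeSum (θ χ) s).re ≤ B)
    (hsplit : ∃ B : ℝ, ∀ s ∈ Set.Ioc (1 : ℝ) 2,
      Real.log (1 / (s - 1)) - B ≤ Nat.card G * dens bad lab 1 s)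
    (b : G) :
    ∃ B : ℝ, ∀ s ∈ Set.Ioc (1 : ℝ) 2,
      |(Nat.card G : ℝ) / 2 * (dens bad lab b s + dens bad lab b⁻¹ s) -
        Real.log (1 / (s - 1))| ≤ B := by
  classical
  let _ : Fintype G := Fintype.ofFinite G
  let _ : Fintype (G →* ℂˣ) := Fintype.ofFinite _
  set R : (G →* ℂˣ) → ℝ → ℝ := fun χ s => (primeSum (θ χ) s).re with hR
  -- the trivial character
  obtain ⟨B₁, hB₁'⟩ := re_primeSum_one_bound bad lab θ hbad hθbad hθgood
  have hB₁ : ∀ s ∈ Set.Ioc (1 : ℝ) 2, |R 1 s - Real.log (1 / (s - 1))| ≤ B₁ := hB₁'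
  have hB₁0 : 0 ≤ B₁ := (abs_nonneg _).trans (hB₁ 2 ⟨one_lt_two, le_rfl⟩)
  obtain ⟨B₀', hB₀'⟩ := hsplit
  set B₀ : ℝ := |B₀'| with hB₀def
  have hB₀0 : 0 ≤ B₀ := abs_nonneg _
  have hB₀ : ∀ s ∈ Set.Ioc (1 : ℝ) 2,
      Real.log (1 / (s - 1)) - B₀ ≤ Nat.card G * dens bad lab 1 s := fun s hs => by
    have := hB₀' s hs
    have := le_abs_self B₀'
    linarith
  -- upper bounds for the nontrivial characters
  choose! Bχ hBχ using hRe
  set U : (G →* ℂˣ) → ℝ := fun χ => max (Bχ χ) 0 with hU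
  have hup : ∀ χ : G →* ℂˣ, χ ≠ 1 → ∀ s ∈ Set.Ioc (1 : ℝ) 2, R χ s ≤ U χ := fun χ hχ s hs =>
    (hBχ χ hχ s hs).trans (le_max_left _ _)
  have hU0 : ∀ χ : G →* ℂˣ, 0 ≤ U χ := fun χ => le_max_right _ _
  -- the sum over all characters
  have hsumR : ∀ s ∈ Set.Ioc (1 : ℝ) 2, ∑ χ : G →* ℂˣ, R χ s = Nat.card G * dens bad lab 1 s := by
    intro s hs
    simp only [hR]
    rw [Finset.sum_congr rfl (fun χ _ => re_primeSum_eq bad lab θ hθbad hθgood χ hs.1), Finset.sum_comm]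
    simp_rw [← Finset.sum_mul, sum_re]
    rw [Finset.sum_eq_single (1 : G)]
    · rw [if_pos rfl]
    · intro g _ hg
      rw [if_neg hg, zero_mul]
    · intro h
      exact absurd (Finset.mem_univ _) h
  -- total of the upper bounds
  set T : ℝ := ∑ χ : G →* ℂˣ, U χ with hT
  have hT0 : 0 ≤ T := Finset.sum_nonneg (fun χ _ => hU0 χ)
  -- lower bounds for the nontrivial characters
  have hlow : ∀ χ₀ : G →* ℂˣ, χ₀ ≠ 1 → ∀ s ∈ Set.Ioc (1 : ℝ) 2,
      -(B₀ + B₁ + T) ≤ R χ₀ s := by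
    intro χ₀ hχ₀ s hs
    have h1 := hsumR s hs
    have h2 := abs_le.mp (hB₁ s hs)
    have h3 := hB₀ s hs
    -- split the sum into 1, χ₀ and the rest
    have h4 : ∑ χ : G →* ℂˣ, R χ s =
        R 1 s + R χ₀ s + ∑ χ ∈ (Finset.univ.erase (1 : G →* ℂˣ)).erase χ₀, R χ s := by
      rw [← Finset.add_sum_erase Finset.univ _ (Finset.mem_univ (1 : G →* ℂˣ)),
        ← Finset.add_sum_erase (Finset.univ.erase (1 : G →* ℂˣ)) _
          (Finset.mem_erase.mpr ⟨hχ₀, Finset.mem_univ _⟩), add_assoc]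
    have h5 : ∑ χ ∈ (Finset.univ.erase (1 : G →* ℂˣ)).erase χ₀, R χ s ≤ T := by
      calc ∑ χ ∈ (Finset.univ.erase (1 : G →* ℂˣ)).erase χ₀, R χ s
          ≤ ∑ χ ∈ (Finset.univ.erase (1 : G →* ℂˣ)).erase χ₀, U χ := by
            refine Finset.sum_le_sum (fun χ hχ => ?_)
            exact hup χ (Finset.mem_erase.mp (Finset.mem_erase.mp hχ).2).1 s hs
        _ ≤ T := Finset.sum_le_sum_of_subset_of_nonneg (Finset.subset_univ _)
            (fun χ _ _ => hU0 χ)
    linarith [h2.1, h2.2]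
  -- two-sided bound
  set M : ℝ := B₀ + B₁ + T with hM
  have hM0 : 0 ≤ M + T := by
    rw [hM]
    linarith
  have habs : ∀ χ : G →* ℂˣ, χ ≠ 1 → ∀ s ∈ Set.Ioc (1 : ℝ) 2, |R χ s| ≤ M + T := by
    intro χ hχ s hs
    rw [abs_le]
    constructor
    · have := hlow χ hχ s hs
      linarith
    · have h1 := hup χ hχ s hs
      have h2 : U χ ≤ T := Finset.single_le_sum (fun χ _ => hU0 χ) (Finset.mem_univ χ)
      have h3 : 0 ≤ M := by
        rw [hM]
        linarith
      linarith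
  -- the weighted sum
  have hsumW : ∀ s ∈ Set.Ioc (1 : ℝ) 2, ∑ χ : G →* ℂˣ, ((χ b : ℂˣ) : ℂ).re * R χ s =
      (Nat.card G : ℝ) / 2 * (dens bad lab b s + dens bad lab b⁻¹ s) := by
    intro s hs
    simp only [hR]
    rw [Finset.sum_congr rfl (fun χ _ => by
      rw [re_primeSum_eq bad lab θ hθbad hθgood χ hs.1, Finset.mul_sum])]
    rw [Finset.sum_comm]
    simp_rw [← mul_assoc, ← Finset.sum_mul, sum_re_mul_re]
    simp_rw [mul_add, add_mul, Finset.sum_add_distrib, mul_ite, mul_one, mul_zero, ite_mul,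
      zero_mul]
    rw [Finset.sum_ite_eq' Finset.univ b⁻¹, Finset.sum_ite_eq' Finset.univ b]
    simp only [Finset.mem_univ, if_true]
    ring
  refine ⟨B₁ + Fintype.card (G →* ℂˣ) * (M + T), fun s hs => ?_⟩
  rw [← hsumW s hs, ← Finset.add_sum_erase Finset.univ _ (Finset.mem_univ (1 : G →* ℂˣ))]
  rw [MonoidHom.one_apply, Units.val_one, Complex.one_re, one_mul]
  have h1 := hB₁ s hs
  have h2 : |∑ χ ∈ Finset.univ.erase (1 : G →* ℂˣ), ((χ b : ℂˣ) : ℂ).re * R χ s| ≤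
      Fintype.card (G →* ℂˣ) * (M + T) := by
    refine (Finset.abs_sum_le_sum_abs _ _).trans ?_
    calc ∑ χ ∈ Finset.univ.erase (1 : G →* ℂˣ), |((χ b : ℂˣ) : ℂ).re * R χ s|
        ≤ ∑ _χ ∈ Finset.univ.erase (1 : G →* ℂˣ), (M + T) := by
          refine Finset.sum_le_sum (fun χ hχ => ?_)
          rw [abs_mul]
          calc |((χ b : ℂˣ) : ℂ).re| * |R χ s| ≤ 1 * (M + T) :=
                mul_le_mul (abs_re_char_le χ b) (habs χ (Finset.mem_erase.mp hχ).1 s hs)
                  (abs_nonneg _) zero_le_one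
            _ = M + T := one_mul _
      _ = (Finset.univ.erase (1 : G →* ℂˣ)).card * (M + T) := by
          rw [Finset.sum_const, nsmul_eq_mul]
      _ ≤ Fintype.card (G →* ℂˣ) * (M + T) := by
          refine mul_le_mul_of_nonneg_right ?_ hM0
          exact_mod_cast Finset.card_le_univ _
  have h3 : (R 1 s + ∑ χ ∈ Finset.univ.erase (1 : G →* ℂˣ), ((χ b : ℂˣ) : ℂ).re * R χ s) -
      Real.log (1 / (s - 1)) = (R 1 s - Real.log (1 / (s - 1))) +
        ∑ χ ∈ Finset.univ.erase (1 : G →* ℂˣ), ((χ b : ℂˣ) : ℂ).re * R χ s := by ring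
  rw [h3]
  exact (abs_add_le _ _).trans (add_le_add h1 h2)

/-- **The abstract density theorem, real parts**, from bounded `L`-series. -/
theorem fourier_density [Finite G] (bad : Set (HeightOneSpectrum (𝓞 K))) (hbad : bad.Finite)
    (lab : HeightOneSpectrum (𝓞 K) → G)
    (θ : (G →* ℂˣ) → Ideal (𝓞 K) →*₀ ℂ) (hθ : ∀ χ a, ‖θ χ a‖ ≤ 1)
    (hθbad : ∀ χ (P : HeightOneSpectrum (𝓞 K)), P ∈ bad → θ χ P.asIdeal = 0)
    (hθgood : ∀ χ (P : HeightOneSpectrum (𝓞 K)), P ∉ bad →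
      θ χ P.asIdeal = ((χ (lab P) : ℂˣ) : ℂ))
    (hL : ∀ χ : G →* ℂˣ, χ ≠ 1 → ∃ B : ℝ, ∀ s ∈ Set.Ioc (1 : ℝ) 2, ‖Lfun (θ χ) s‖ ≤ B)
    (hsplit : ∃ B : ℝ, ∀ s ∈ Set.Ioc (1 : ℝ) 2,
      Real.log (1 / (s - 1)) - B ≤ Nat.card G * dens bad lab 1 s)
    (b : G) :
    ∃ B : ℝ, ∀ s ∈ Set.Ioc (1 : ℝ) 2,
      |(Nat.card G : ℝ) / 2 * (dens bad lab b s + dens bad lab b⁻¹ s) -
        Real.log (1 / (s - 1))| ≤ B := by
  refine fourier_density_re bad hbad lab θ hθbad hθgood (fun χ hχ => ?_) hsplit b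
  obtain ⟨B, hB⟩ := hL χ hχ
  exact ⟨_, re_primeSum_le_of_bounded (θ χ) (hθ χ) hB⟩

end Fermat.Agent.M48.ChebFourier2
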