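/-
Programme M48 (target S48), leaf (P6) = Chebotarev's density theorem, file C2a (helper2):
**bounded `L`-series for a ray class character which is nontrivial on principal ideals.**

`K` a number field, `𝔪` a nonzero ideal, `θ : Ideal (𝓞 K) →*₀ ℂ` a "ray class character modulo `𝔪`"
(no conditions at infinity): `‖θ 𝔞‖ ≤ 1`, `θ 𝔞 = 0` unless `𝔞 + 𝔪 = 1`, and `θ (α) = 1` for
`α ≡ 1 mod 𝔪`.  If `θ (α) ≠ 1` for some `α` prime to `𝔪` then `L(s, θ)` is bounded on `(1, 2]`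
(`bounded_of_exists_principal`).

Method: the smoothed unfolding of `CFT/ClassZeta`.  The part of the series over an ideal class `C`
is `θ(𝔟)⁻¹ N(𝔟)^s ∑_{α ∈ 𝔟} W_s(α) θ((α))` for an ideal `𝔟 ∈ C⁻¹` prime to `𝔪`; `θ((α))` only
depends on the coset of `α` modulo `𝔪𝔟`, the sums of `W_s` over two cosets differ by `O(1)`
(`ClassZeta.shift_bound`), and the sum of `θ((r))` over the cosets vanishes because multiplication
by `α` permutes them.  No ray class group is needed.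
-/
import Mathlib
import Fermat.Agent.CFT.ClassZeta
import Fermat.Agent.CFT.CoprimeRep
import Fermat.Agent.M48.ChebLSeries2

set_option autoImplicit false
set_option linter.unusedSectionVars false

open NumberField Ideal IsDedekindDomain nonZeroDivisors NumberField.mixedEmbedding
open Fermat.Agent.CFT.ClassZeta Fermat.Agent.CFT.ZetaRBounds
open Fermat.Agent.M48.ChebLSeries2

noncomputable section

namespace Fermat.Agent.M48.ChebRayL2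

variable {K : Type*} [Field K] [NumberField K]

/-- A ray class character modulo `𝔪` (no conditions at the infinite places), as a completely
multiplicative function on all ideals. -/
structure IsRayChar (𝔪 : Ideal (𝓞 K)) (θ : Ideal (𝓞 K) →*₀ ℂ) : Prop where
  norm_le : ∀ a, ‖θ a‖ ≤ 1
  eq_zero : ∀ a, a ⊔ 𝔪 ≠ ⊤ → θ a = 0
  principal : ∀ α : 𝓞 K, α - 1 ∈ 𝔪 → θ (span {α}) = 1

namespace IsRayChar

variable {𝔪 : Ideal (𝓞 K)} {θ : Ideal (𝓞 K) →*₀ ℂ}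

theorem ne_top (h : IsRayChar 𝔪 θ) : 𝔪 ≠ ⊤ := by
  intro htop
  have h1 := h.principal 0 (by rw [htop]; exact Submodule.mem_top)
  rw [Set.singleton_zero, span_zero] at h1
  have h2 : θ ⊥ = 0 := map_zero θ
  rw [h2] at h1
  exact zero_ne_one h1

/-- `θ ((α))` only depends on `α` modulo `𝔪`. -/
theorem span_eq_of_sub_mem (h : IsRayChar 𝔪 θ) {α β : 𝓞 K} (hαβ : α - β ∈ 𝔪) :
    θ (span {α}) = θ (span {β}) := by
  have hsup : span {α} ⊔ 𝔪 = span {β} ⊔ 𝔪 := by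
    apply le_antisymm
    · refine sup_le ?_ le_sup_right
      rw [span_singleton_le_iff_mem]
      have : α = β + (α - β) := by ring
      rw [this]
      exact add_mem (mem_sup_left (mem_span_singleton_self β)) (mem_sup_right hαβ)
    · refine sup_le ?_ le_sup_right
      rw [span_singleton_le_iff_mem]
      have : β = α - (α - β) := by ring
      rw [this]
      exact sub_mem (mem_sup_left (mem_span_singleton_self α)) (mem_sup_right hαβ)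
  by_cases hα : span {α} ⊔ 𝔪 = ⊤
  · -- invert `α` modulo `𝔪`
    have h1 : (1 : 𝓞 K) ∈ span {α} ⊔ 𝔪 := by rw [hα]; exact Submodule.mem_top
    obtain ⟨x, hx, μ, hμ, hxμ⟩ := Submodule.mem_sup.mp h1
    obtain ⟨δ, rfl⟩ := mem_span_singleton'.mp hx
    have e1 : δ * α - 1 ∈ 𝔪 := by
      have : δ * α - 1 = -μ := by rw [← hxμ]; ring
      rw [this]
      exact neg_mem hμ
    have e2 : δ * β - 1 ∈ 𝔪 := by
      have : δ * β - 1 = (δ * α - 1) - δ * (α - β) := by ring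
      rw [this]
      exact sub_mem e1 (𝔪.mul_mem_left δ hαβ)
    have f1 := h.principal _ e1
    have f2 := h.principal _ e2
    rw [← span_singleton_mul_span_singleton, map_mul] at f1 f2
    have hδ : θ (span {δ}) ≠ 0 := by
      intro h0
      rw [h0, zero_mul] at f1
      exact zero_ne_one f1
    exact mul_left_cancel₀ hδ (f1.trans f2.symm)
  · rw [h.eq_zero _ hα, h.eq_zero _ (hsup ▸ hα)]

/-- `θ` does not vanish on the ideals prime to `𝔪`. -/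
theorem ne_zero_of_coprime (h : IsRayChar 𝔪 θ) (h𝔪 : 𝔪 ≠ ⊥) {a : Ideal (𝓞 K)}
    (ha : a ⊔ 𝔪 = ⊤) : θ a ≠ 0 := by
  have ha0 : a ≠ ⊥ := by
    rintro rfl
    rw [bot_sup_eq] at ha
    exact h.ne_top ha
  set a0 : (Ideal (𝓞 K))⁰ := ⟨a, mem_nonZeroDivisors_iff_ne_zero.mpr ha0⟩ with ha0def
  obtain ⟨c, hc, hcl⟩ := Fermat.Agent.CFT.CoprimeRep.exists_coprime_rep_classGroup 𝔪 h𝔪
    (ClassGroup.mk0 a0)⁻¹
  have hprod : ClassGroup.mk0 (a0 * c) = 1 := by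
    rw [map_mul, hcl, mul_inv_cancel]
  have hprin : ((a0 * c : (Ideal (𝓞 K))⁰) : Ideal (𝓞 K)).IsPrincipal :=
    (ClassGroup.mk0_eq_one_iff (a0 * c).2).mp hprod
  obtain ⟨γ, hγ⟩ := hprin.principal
  have hγ' : a * (c : Ideal (𝓞 K)) = span {γ} := by
    rw [← submodule_span_eq, ← hγ]
    rfl
  have hcop : span {γ} ⊔ 𝔪 = ⊤ := by
    rw [← hγ']
    exact Fermat.Agent.CFT.CoprimeRep.mul_sup_eq_top ha hc
  -- invert `γ`
  have h1 : (1 : 𝓞 K) ∈ span {γ} ⊔ 𝔪 := by rw [hcop]; exact Submodule.mem_top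
  obtain ⟨x, hx, μ, hμ, hxμ⟩ := Submodule.mem_sup.mp h1
  obtain ⟨δ, rfl⟩ := mem_span_singleton'.mp hx
  have e1 : δ * γ - 1 ∈ 𝔪 := by
    have : δ * γ - 1 = -μ := by rw [← hxμ]; ring
    rw [this]
    exact neg_mem hμ
  have f1 := h.principal _ e1
  rw [← span_singleton_mul_span_singleton, map_mul, ← hγ', map_mul] at f1
  intro h0
  rw [h0, zero_mul, mul_zero] at f1
  exact zero_ne_one f1

end IsRayChar

/-! ### Unfolding with bounded complex coefficients -/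

section Unfold

variable (U : WeightData K)

theorem hasSum_fiber_mul {s : ℝ} (hs : 1 < s) {J : Ideal (𝓞 K)} (g : Ideal (𝓞 K) → ℂ)
    (t : PJ J) :
    HasSum (fun a : {a : J0 J // toPJ J a = t} => ((U.F s a.1.1 : ℝ) : ℂ) * g (span {a.1.1}))
      ((((absNorm t.1 : ℝ) ^ (-s) : ℝ) : ℂ) * g t.1) := by
  have h1 := hasSum_fiber U hs t
  have h2 := (Complex.hasSum_ofReal.mpr h1).mul_right (g t.1)
  refine h2.congr_fun (fun a => ?_)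
  have : span {a.1.1} = t.1 := congrArg Subtype.val a.2
  rw [this]

theorem hasSum_J_mul {s : ℝ} (hs : 1 < s) (J : Ideal (𝓞 K)) (g : Ideal (𝓞 K) → ℂ)
    (hg : ∀ a, ‖g a‖ ≤ 1)
    (hS : Summable fun t : PJ J => (absNorm t.1 : ℝ) ^ (-s)) :
    HasSum (fun a : J => ((U.F s a.1 : ℝ) : ℂ) * g (span {a.1}))
      (∑' t : PJ J, (((absNorm t.1 : ℝ) ^ (-s) : ℝ) : ℂ) * g t.1) := by
  -- the sum over `J0 J`
  have hJ0 : HasSum (fun a : J0 J => ((U.F s a.1 : ℝ) : ℂ) * g (span {a.1}))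
      (∑' t : PJ J, (((absNorm t.1 : ℝ) ^ (-s) : ℝ) : ℂ) * g t.1) := by
    let Gc : (Σ t : PJ J, {a : J0 J // toPJ J a = t}) → ℂ :=
      fun p => ((U.F s p.2.1.1 : ℝ) : ℂ) * g (span {p.2.1.1})
    have hGr : Summable (fun p : (Σ t : PJ J, {a : J0 J // toPJ J a = t}) => U.F s p.2.1.1) :=
      (Equiv.sigmaFiberEquiv (toPJ J)).summable_iff.mpr (hasSum_J0 U hs J hS).summable
    have hGc : Summable Gc := by
      refine Summable.of_norm_bounded hGr (fun p => ?_)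
      rw [norm_mul, Complex.norm_real, Real.norm_of_nonneg (U.F_nonneg _ _)]
      calc U.F s p.2.1.1 * ‖g (span {p.2.1.1})‖ ≤ U.F s p.2.1.1 * 1 :=
            mul_le_mul_of_nonneg_left (hg _) (U.F_nonneg _ _)
        _ = _ := mul_one _
    have hT : Summable (fun t : PJ J => (((absNorm t.1 : ℝ) ^ (-s) : ℝ) : ℂ) * g t.1) := by
      refine Summable.of_norm_bounded hS (fun t => ?_)
      rw [norm_mul, Complex.norm_real,
        Real.norm_of_nonneg (Real.rpow_nonneg (Nat.cast_nonneg _) _)]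
      calc (absNorm t.1 : ℝ) ^ (-s) * ‖g t.1‖ ≤ (absNorm t.1 : ℝ) ^ (-s) * 1 :=
            mul_le_mul_of_nonneg_left (hg _) (Real.rpow_nonneg (Nat.cast_nonneg _) _)
        _ = _ := mul_one _
    have h2 : HasSum Gc (∑' t : PJ J, (((absNorm t.1 : ℝ) ^ (-s) : ℝ) : ℂ) * g t.1) :=
      HasSum.sigma_of_hasSum hT.hasSum (fun t => hasSum_fiber_mul U hs g t) hGc
    exact ((Equiv.sigmaFiberEquiv (toPJ J)).hasSum_iff).mp h2
  let e : J0 J → J := fun a => ⟨a.1, a.2.1⟩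
  have he : Function.Injective e := by
    intro a b h
    exact Subtype.ext (congrArg (fun x : J => x.1) h)
  refine (he.hasSum_iff ?_).mp hJ0
  intro x hx
  have : x.1 = 0 := by
    by_contra h0
    exact hx ⟨⟨x.1, x.2, h0⟩, rfl⟩
  rw [this, U.F_zero hs, Complex.ofReal_zero, zero_mul]

end Unfold

/-! ### The cosets of `𝔪𝔟` in `𝔟` -/

section Coset

variable {𝔪 : Ideal (𝓞 K)} {θ : Ideal (𝓞 K) →*₀ ℂ}

/-- The value of `θ` on the principal ideals generated by the elements of a coset. -/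
def cosetVal (θ : Ideal (𝓞 K) →*₀ ℂ) (𝔠 : Ideal (𝓞 K)) (q : 𝓞 K ⧸ 𝔠) : ℂ :=
  θ (span {Quotient.out q})

theorem cosetVal_mk (h : IsRayChar 𝔪 θ) {𝔠 : Ideal (𝓞 K)} (h𝔠 : 𝔠 ≤ 𝔪) (α : 𝓞 K) :
    cosetVal θ 𝔠 (Ideal.Quotient.mk 𝔠 α) = θ (span {α}) := by
  unfold cosetVal
  apply h.span_eq_of_sub_mem
  apply h𝔠
  rw [← Ideal.Quotient.eq]
  exact Ideal.Quotient.mk_out _

theorem norm_cosetVal_le (h : IsRayChar 𝔪 θ) (𝔠 : Ideal (𝓞 K)) (q : 𝓞 K ⧸ 𝔠) :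
    ‖cosetVal θ 𝔠 q‖ ≤ 1 := h.norm_le _

theorem mem_of_mk_eq {𝔟 𝔠 : Ideal (𝓞 K)} (hle : 𝔠 ≤ 𝔟) {x y : 𝓞 K}
    (hxy : Ideal.Quotient.mk 𝔠 x = Ideal.Quotient.mk 𝔠 y) (hx : x ∈ 𝔟) : y ∈ 𝔟 := by
  have h1 : x - y ∈ 𝔠 := Ideal.Quotient.eq.mp hxy
  have : y = x - (x - y) := by ring
  rw [this]
  exact sub_mem hx (hle h1)

/-- If `α` is prime to `𝔪`, `x ∈ 𝔟` and `α x ∈ 𝔪𝔟` then `x ∈ 𝔪𝔟`. -/
theorem mem_mul_of_mul_mem {𝔟 : Ideal (𝓞 K)} {α x : 𝓞 K} (hα : span {α} ⊔ 𝔪 = ⊤)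
    (hx : x ∈ 𝔟) (hαx : α * x ∈ 𝔪 * 𝔟) : x ∈ 𝔪 * 𝔟 := by
  have h1 : (1 : 𝓞 K) ∈ span {α} ⊔ 𝔪 := by rw [hα]; exact Submodule.mem_top
  obtain ⟨y, hy, μ, hμ, hyμ⟩ := Submodule.mem_sup.mp h1
  obtain ⟨δ, rfl⟩ := mem_span_singleton'.mp hy
  have : x = δ * (α * x) + μ * x := by
    calc x = (δ * α + μ) * x := by rw [hyμ, one_mul]
      _ = _ := by ring
  rw [this]
  exact add_mem (Ideal.mul_mem_left _ δ hαx) (Ideal.mul_mem_mul hμ hx)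

/-- The sum of `θ((r))` over the cosets `r` of `𝔪𝔟` in `𝔟` vanishes if `θ` is nontrivial on some
principal ideal prime to `𝔪`. -/
theorem sum_cosetVal_eq_zero (h : IsRayChar 𝔪 θ) (𝔟 : Ideal (𝓞 K))
    [Fintype {q : 𝓞 K ⧸ 𝔪 * 𝔟 // Quotient.out q ∈ 𝔟}]
    {α : 𝓞 K} (hα : span {α} ⊔ 𝔪 = ⊤) (hθα : θ (span {α}) ≠ 1) :
    ∑ q : {q : 𝓞 K ⧸ 𝔪 * 𝔟 // Quotient.out q ∈ 𝔟}, cosetVal θ (𝔪 * 𝔟) q.1 = 0 := by
  have hle : 𝔪 * 𝔟 ≤ 𝔟 := Ideal.mul_le_right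
  have hle𝔪 : 𝔪 * 𝔟 ≤ 𝔪 := Ideal.mul_le_left
  -- multiplication by `α` on the cosets
  have hmem : ∀ q : {q : 𝓞 K ⧸ 𝔪 * 𝔟 // Quotient.out q ∈ 𝔟},
      Quotient.out (Ideal.Quotient.mk (𝔪 * 𝔟) α * q.1) ∈ 𝔟 := by
    intro q
    have h1 : Ideal.Quotient.mk (𝔪 * 𝔟) (α * Quotient.out q.1) =
        Ideal.Quotient.mk (𝔪 * 𝔟) (Quotient.out (Ideal.Quotient.mk (𝔪 * 𝔟) α * q.1)) := by
      rw [Ideal.Quotient.mk_out, map_mul, Ideal.Quotient.mk_out]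
    exact mem_of_mk_eq hle h1 (𝔟.mul_mem_left α q.2)
  let π : {q : 𝓞 K ⧸ 𝔪 * 𝔟 // Quotient.out q ∈ 𝔟} → {q : 𝓞 K ⧸ 𝔪 * 𝔟 // Quotient.out q ∈ 𝔟} :=
    fun q => ⟨Ideal.Quotient.mk (𝔪 * 𝔟) α * q.1, hmem q⟩
  have hπinj : Function.Injective π := by
    intro q q' hqq'
    have h1 : Ideal.Quotient.mk (𝔪 * 𝔟) α * q.1 = Ideal.Quotient.mk (𝔪 * 𝔟) α * q'.1 :=
      congrArg Subtype.val hqq'
    rw [← Ideal.Quotient.mk_out q.1, ← Ideal.Quotient.mk_out q'.1, ← map_mul, ← map_mul,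
      Ideal.Quotient.eq, ← mul_sub] at h1
    have h2 := mem_mul_of_mul_mem hα (sub_mem q.2 q'.2) h1
    apply Subtype.ext
    rw [← Ideal.Quotient.mk_out q.1, ← Ideal.Quotient.mk_out q'.1, Ideal.Quotient.eq]
    exact h2
  have hπbij : Function.Bijective π := Finite.injective_iff_bijective.mp hπinj
  have hval : ∀ q : {q : 𝓞 K ⧸ 𝔪 * 𝔟 // Quotient.out q ∈ 𝔟},
      cosetVal θ (𝔪 * 𝔟) (π q).1 = θ (span {α}) * cosetVal θ (𝔪 * 𝔟) q.1 := by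
    intro q
    have h1 : (π q).1 = Ideal.Quotient.mk (𝔪 * 𝔟) (α * Quotient.out q.1) := by
      rw [map_mul, Ideal.Quotient.mk_out]
    rw [h1, cosetVal_mk h hle𝔪, ← span_singleton_mul_span_singleton, map_mul]
    rfl
  have hsum : ∑ q : {q : 𝓞 K ⧸ 𝔪 * 𝔟 // Quotient.out q ∈ 𝔟}, cosetVal θ (𝔪 * 𝔟) q.1 =
      θ (span {α}) * ∑ q : {q : 𝓞 K ⧸ 𝔪 * 𝔟 // Quotient.out q ∈ 𝔟}, cosetVal θ (𝔪 * 𝔟) q.1 := by
    rw [Finset.mul_sum]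
    exact (Fintype.sum_bijective π hπbij _ _ (fun q => (hval q).symm)).symm
  have h2 : (1 - θ (span {α})) *
      ∑ q : {q : 𝓞 K ⧸ 𝔪 * 𝔟 // Quotient.out q ∈ 𝔟}, cosetVal θ (𝔪 * 𝔟) q.1 = 0 := by
    rw [sub_mul, one_mul, ← hsum, sub_self]
  rcases mul_eq_zero.mp h2 with h3 | h3
  · exact absurd (sub_eq_zero.mp h3).symm hθα
  · exact h3

end Coset

/-! ### The bound for one ideal -/

section Bound

variable {𝔪 : Ideal (𝓞 K)} {θ : Ideal (𝓞 K) →*₀ ℂ}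

/-- The `θ`-twisted sum of the weight over a nonzero ideal `𝔟` is bounded on `(1, 2]`. -/
theorem ideal_sum_bound (U : WeightData K) (h : IsRayChar 𝔪 θ) (h𝔪 : 𝔪 ≠ ⊥)
    (hA : ∃ α : 𝓞 K, span {α} ⊔ 𝔪 = ⊤ ∧ θ (span {α}) ≠ 1) (b : (Ideal (𝓞 K))⁰) :
    ∃ D : ℝ, ∀ s ∈ Set.Ioc (1 : ℝ) 2,
      ‖∑' β : (b : Ideal (𝓞 K)), ((U.F s β.1 : ℝ) : ℂ) * θ (span {β.1})‖ ≤ D := by
  classical
  obtain ⟨α, hα, hθα⟩ := hA
  set 𝔟 : Ideal (𝓞 K) := (b : Ideal (𝓞 K)) with h𝔟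
  have h𝔟0 : 𝔟 ≠ ⊥ := nonZeroDivisors.coe_ne_zero b
  set 𝔠 : Ideal (𝓞 K) := 𝔪 * 𝔟 with h𝔠
  have h𝔠0 : 𝔠 ≠ ⊥ := mul_ne_zero h𝔪 h𝔟0
  have hle : 𝔠 ≤ 𝔟 := Ideal.mul_le_right
  have hle𝔪 : 𝔠 ≤ 𝔪 := Ideal.mul_le_left
  let c0 : (Ideal (𝓞 K))⁰ := ⟨𝔠, mem_nonZeroDivisors_iff_ne_zero.mpr h𝔠0⟩
  have : Finite (𝓞 K ⧸ 𝔠) := Ideal.finiteQuotientOfFreeOfNeBot 𝔠 h𝔠0
  let _ : Fintype {q : 𝓞 K ⧸ 𝔠 // Quotient.out q ∈ 𝔟} := Fintype.ofFinite _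
  set d : ℝ := ∑ q : {q : 𝓞 K ⧸ 𝔠 // Quotient.out q ∈ 𝔟},
    ‖mixedEmbedding K ((Quotient.out q.1 : 𝓞 K) : K)‖ with hd
  obtain ⟨C, hC⟩ := U.lip d
  refine ⟨(Fintype.card {q : 𝓞 K ⧸ 𝔠 // Quotient.out q ∈ 𝔟} : ℝ) * (C * majT K), ?_⟩
  intro s hs
  have hs' : s ∈ Set.Icc (1 : ℝ) 2 := ⟨hs.1.le, hs.2⟩
  have hsum𝔠 : Summable (fun γ : 𝔠 => U.F s γ.1) :=
    (sum_ideal_le U hs.1 c0 (summable_zetaR K hs.1)).1
  have hq : ∀ q : {q : 𝓞 K ⧸ 𝔠 // Quotient.out q ∈ 𝔟},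
      ‖mixedEmbedding K ((Quotient.out q.1 : 𝓞 K) : K)‖ ≤ d := by
    intro q
    rw [hd]
    exact Finset.single_le_sum (f := fun q : {q : 𝓞 K ⧸ 𝔠 // Quotient.out q ∈ 𝔟} =>
      ‖mixedEmbedding K ((Quotient.out q.1 : 𝓞 K) : K)‖) (fun _ _ => norm_nonneg _)
      (Finset.mem_univ q)
  have hsh := fun q : {q : 𝓞 K ⧸ 𝔠 // Quotient.out q ∈ 𝔟} =>
    shift_bound U 𝔠 hs' hC (Quotient.out q.1) (hq q) hsum𝔠
  -- the real sum over the product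
  let G : {q : 𝓞 K ⧸ 𝔠 // Quotient.out q ∈ 𝔟} × 𝔠 → ℝ :=
    fun p => U.F s (Quotient.out p.1.1 + p.2.1)
  have hG0 : 0 ≤ G := fun p => U.F_nonneg _ _
  have hGs : Summable G := by
    refine (summable_prod_of_nonneg hG0).mpr ⟨fun q => (hsh q).1, ?_⟩
    exact Summable.of_finite
  -- the complex sum over the product
  let Gc : {q : 𝓞 K ⧸ 𝔠 // Quotient.out q ∈ 𝔟} × 𝔠 → ℂ :=
    fun p => ((G p : ℝ) : ℂ) * cosetVal θ 𝔠 p.1.1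
  have hGc : Summable Gc := by
    refine Summable.of_norm_bounded hGs (fun p => ?_)
    rw [norm_mul, Complex.norm_real, Real.norm_of_nonneg (hG0 p)]
    calc G p * ‖cosetVal θ 𝔠 p.1.1‖ ≤ G p * 1 :=
          mul_le_mul_of_nonneg_left (norm_cosetVal_le h _ _) (hG0 p)
      _ = _ := mul_one _
  have hGe : ∀ p : {q : 𝓞 K ⧸ 𝔠 // Quotient.out q ∈ 𝔟} × 𝔠,
      ((U.F s ((cosetEquiv 𝔟 𝔠 hle p : 𝔟) : 𝓞 K) : ℝ) : ℂ) *
        θ (span {((cosetEquiv 𝔟 𝔠 hle p : 𝔟) : 𝓞 K)}) = Gc p := by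
    intro p
    rw [cosetEquiv_apply]
    show ((U.F s (Quotient.out p.1.1 + p.2.1) : ℝ) : ℂ) * _ =
      ((U.F s (Quotient.out p.1.1 + p.2.1) : ℝ) : ℂ) * cosetVal θ 𝔠 p.1.1
    congr 1
    unfold cosetVal
    apply h.span_eq_of_sub_mem
    rw [add_sub_cancel_left]
    exact hle𝔪 p.2.2
  have htsum : ∑' β : 𝔟, ((U.F s β.1 : ℝ) : ℂ) * θ (span {β.1}) =
      ∑ q : {q : 𝓞 K ⧸ 𝔠 // Quotient.out q ∈ 𝔟},
        cosetVal θ 𝔠 q.1 * ((∑' γ : 𝔠, U.F s (Quotient.out q.1 + γ.1) : ℝ) : ℂ) := by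
    calc ∑' β : 𝔟, ((U.F s β.1 : ℝ) : ℂ) * θ (span {β.1})
        = ∑' p, Gc p := by
          rw [← (cosetEquiv 𝔟 𝔠 hle).tsum_eq
            (fun β : 𝔟 => ((U.F s β.1 : ℝ) : ℂ) * θ (span {β.1}))]
          exact tsum_congr hGe
      _ = ∑' q : {q : 𝓞 K ⧸ 𝔠 // Quotient.out q ∈ 𝔟}, ∑' γ : 𝔠, Gc (q, γ) := hGc.tsum_prod
      _ = ∑ q : {q : 𝓞 K ⧸ 𝔠 // Quotient.out q ∈ 𝔟}, ∑' γ : 𝔠, Gc (q, γ) := tsum_fintype _
      _ = _ := by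
          refine Finset.sum_congr rfl (fun q _ => ?_)
          rw [Complex.ofReal_tsum, ← tsum_mul_left]
          refine tsum_congr (fun γ => ?_)
          exact mul_comm _ _
  have hzero := sum_cosetVal_eq_zero h 𝔟 hα hθα
  have hrew : ∑ q : {q : 𝓞 K ⧸ 𝔠 // Quotient.out q ∈ 𝔟},
        cosetVal θ 𝔠 q.1 * ((∑' γ : 𝔠, U.F s (Quotient.out q.1 + γ.1) : ℝ) : ℂ) =
      ∑ q : {q : 𝓞 K ⧸ 𝔠 // Quotient.out q ∈ 𝔟}, cosetVal θ 𝔠 q.1 *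
        (((∑' γ : 𝔠, U.F s (Quotient.out q.1 + γ.1)) - ∑' γ : 𝔠, U.F s γ.1 : ℝ) : ℂ) := by
    have : ∀ q : {q : 𝓞 K ⧸ 𝔠 // Quotient.out q ∈ 𝔟}, cosetVal θ 𝔠 q.1 *
        (((∑' γ : 𝔠, U.F s (Quotient.out q.1 + γ.1)) - ∑' γ : 𝔠, U.F s γ.1 : ℝ) : ℂ) =
        cosetVal θ 𝔠 q.1 * ((∑' γ : 𝔠, U.F s (Quotient.out q.1 + γ.1) : ℝ) : ℂ) -
          cosetVal θ 𝔠 q.1 * ((∑' γ : 𝔠, U.F s γ.1 : ℝ) : ℂ) := fun q => by
      push_cast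
      ring
    rw [Finset.sum_congr rfl (fun q _ => this q), Finset.sum_sub_distrib, ← Finset.sum_mul,
      hzero, zero_mul, sub_zero]
  rw [htsum, hrew]
  refine (norm_sum_le _ _).trans ?_
  calc ∑ q : {q : 𝓞 K ⧸ 𝔠 // Quotient.out q ∈ 𝔟}, ‖cosetVal θ 𝔠 q.1 *
        (((∑' γ : 𝔠, U.F s (Quotient.out q.1 + γ.1)) - ∑' γ : 𝔠, U.F s γ.1 : ℝ) : ℂ)‖
      ≤ ∑ _q : {q : 𝓞 K ⧸ 𝔠 // Quotient.out q ∈ 𝔟}, C * majT K := by
        refine Finset.sum_le_sum (fun q _ => ?_)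
        rw [norm_mul, Complex.norm_real, Real.norm_eq_abs]
        calc ‖cosetVal θ 𝔠 q.1‖ *
              |(∑' γ : 𝔠, U.F s (Quotient.out q.1 + γ.1)) - ∑' γ : 𝔠, U.F s γ.1|
            ≤ 1 * (C * majT K) :=
              mul_le_mul (norm_cosetVal_le h _ _) (hsh q).2 (abs_nonneg _) zero_le_one
          _ = _ := one_mul _
    _ = _ := by rw [Finset.sum_const, nsmul_eq_mul, Finset.card_univ]

/-- The part of `L(s, θ)` over an ideal class is bounded on `(1, 2]`. -/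
theorem class_tsum_bound (h : IsRayChar 𝔪 θ) (h𝔪 : 𝔪 ≠ ⊥)
    (hA : ∃ α : 𝓞 K, span {α} ⊔ 𝔪 = ⊤ ∧ θ (span {α}) ≠ 1) (C : ClassGroup (𝓞 K)) :
    ∃ D : ℝ, ∀ s ∈ Set.Ioc (1 : ℝ) 2,
      ‖∑' I : {I : (Ideal (𝓞 K))⁰ // ClassGroup.mk0 I = C},
        θ (I.1 : Ideal (𝓞 K)) * (((absNorm (I.1 : Ideal (𝓞 K)) : ℝ) ^ (-s) : ℝ) : ℂ)‖ ≤ D := by
  obtain ⟨b, hb, hbC⟩ := Fermat.Agent.CFT.CoprimeRep.exists_coprime_rep_classGroup 𝔪 h𝔪 C⁻¹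
  obtain ⟨D, hD⟩ := ideal_sum_bound (weightData K) h h𝔪 hA b
  have hθb : θ (b : Ideal (𝓞 K)) ≠ 0 := h.ne_zero_of_coprime h𝔪 hb
  set N : ℝ := (absNorm (b : Ideal (𝓞 K)) : ℝ) with hN
  have hN1 : 1 ≤ N := absNorm_one_le b
  have hNpos : 0 < N := by linarith
  refine ⟨N ^ (2 : ℝ) * ‖θ (b : Ideal (𝓞 K))‖⁻¹ * D, fun s hs => ?_⟩
  have hS := summable_zetaR K hs.1
  have hPJ := summable_PJ b C hbC s hS
  have hunf := (hasSum_J_mul (weightData K) hs.1 (b : Ideal (𝓞 K)) (fun a => θ a) h.norm_le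
    hPJ).tsum_eq
  have hmul : ∑' t : PJ (b : Ideal (𝓞 K)), (((absNorm t.1 : ℝ) ^ (-s) : ℝ) : ℂ) * θ t.1 =
      (((N ^ (-s) : ℝ) : ℂ) * θ (b : Ideal (𝓞 K))) *
        ∑' I : {I : (Ideal (𝓞 K))⁰ // ClassGroup.mk0 I = C},
          θ (I.1 : Ideal (𝓞 K)) * (((absNorm (I.1 : Ideal (𝓞 K)) : ℝ) ^ (-s) : ℝ) : ℂ) := by
    rw [← tsum_mul_left, ← (Equiv.ofBijective _ (mulJ_bijective b C hbC)).tsum_eq]
    refine tsum_congr (fun I => ?_)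
    show (((absNorm ((b : Ideal (𝓞 K)) * (I.1 : Ideal (𝓞 K))) : ℝ) ^ (-s) : ℝ) : ℂ) *
      θ ((b : Ideal (𝓞 K)) * (I.1 : Ideal (𝓞 K))) = _
    rw [map_mul, map_mul, Nat.cast_mul, Real.mul_rpow (Nat.cast_nonneg _) (Nat.cast_nonneg _),
      Complex.ofReal_mul]
    ring
  have hNs : (N ^ (-s) : ℝ) ≠ 0 := (Real.rpow_pos_of_pos hNpos _).ne'
  have hne : (((N ^ (-s) : ℝ) : ℂ) * θ (b : Ideal (𝓞 K))) ≠ 0 :=
    mul_ne_zero (Complex.ofReal_ne_zero.mpr hNs) hθb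
  have hsolve : ∑' I : {I : (Ideal (𝓞 K))⁰ // ClassGroup.mk0 I = C},
      θ (I.1 : Ideal (𝓞 K)) * (((absNorm (I.1 : Ideal (𝓞 K)) : ℝ) ^ (-s) : ℝ) : ℂ) =
      (((N ^ (-s) : ℝ) : ℂ) * θ (b : Ideal (𝓞 K)))⁻¹ *
        ∑' β : (b : Ideal (𝓞 K)), (((weightData K).F s β.1 : ℝ) : ℂ) * θ (span {β.1}) := by
    rw [hunf, hmul, ← mul_assoc, inv_mul_cancel₀ hne, one_mul]
  rw [hsolve, norm_mul, norm_inv, norm_mul, Complex.norm_real,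
    Real.norm_of_nonneg (Real.rpow_nonneg hNpos.le _), mul_inv]
  have h1 : (N ^ (-s))⁻¹ ≤ N ^ (2 : ℝ) := by
    rw [Real.rpow_neg hNpos.le, inv_inv]
    exact Real.rpow_le_rpow_of_exponent_le hN1 hs.2
  have h2 : 0 ≤ ‖θ (b : Ideal (𝓞 K))‖⁻¹ := inv_nonneg.mpr (norm_nonneg _)
  have h3 := hD s hs
  have h4 : 0 ≤ (N ^ (-s))⁻¹ := inv_nonneg.mpr (Real.rpow_nonneg hNpos.le _)
  calc (N ^ (-s))⁻¹ * ‖θ (b : Ideal (𝓞 K))‖⁻¹ *
        ‖∑' β : (b : Ideal (𝓞 K)), (((weightData K).F s β.1 : ℝ) : ℂ) * θ (span {β.1})‖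
      ≤ N ^ (2 : ℝ) * ‖θ (b : Ideal (𝓞 K))‖⁻¹ * D := by
        refine mul_le_mul (mul_le_mul_of_nonneg_right h1 h2) h3 (norm_nonneg _) ?_
        exact mul_nonneg (Real.rpow_nonneg hNpos.le _) h2

/-- **Bounded `L`-series**: a ray class character modulo `𝔪` which is nontrivial on some principal
ideal prime to `𝔪` has `L(s, θ)` bounded on `(1, 2]`. -/
theorem bounded_of_exists_principal (h : IsRayChar 𝔪 θ) (h𝔪 : 𝔪 ≠ ⊥)
    (hA : ∃ α : 𝓞 K, span {α} ⊔ 𝔪 = ⊤ ∧ θ (span {α}) ≠ 1) :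
    ∃ B : ℝ, ∀ s ∈ Set.Ioc (1 : ℝ) 2, ‖Lfun θ s‖ ≤ B := by
  classical
  choose D hD using class_tsum_bound h h𝔪 hA
  refine ⟨∑ C : ClassGroup (𝓞 K), D C, fun s hs => ?_⟩
  -- restrict to the nonzero ideals
  have hsupp : Function.support (fun a : Ideal (𝓞 K) => term θ s a) ⊆
      ((Ideal (𝓞 K))⁰ : Set (Ideal (𝓞 K))) := by
    intro a ha
    by_contra hmem
    apply ha
    have : a = 0 := by
      by_contra h0
      exact hmem (mem_nonZeroDivisors_iff_ne_zero.mpr h0)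
    show term θ s a = 0
    rw [this, map_zero]
  have hsum0 : Summable (fun a : (Ideal (𝓞 K))⁰ => term θ s (a : Ideal (𝓞 K))) :=
    ((summable_norm_term θ h.norm_le hs.1).of_norm).subtype _
  have h1 : Lfun θ s = ∑' a : (Ideal (𝓞 K))⁰, term θ s (a : Ideal (𝓞 K)) := by
    rw [Lfun]
    exact (tsum_subtype_eq_of_support_subset hsupp).symm
  have h2 : ∑' a : (Ideal (𝓞 K))⁰, term θ s (a : Ideal (𝓞 K)) =
      ∑ C : ClassGroup (𝓞 K), ∑' I : {I : (Ideal (𝓞 K))⁰ // ClassGroup.mk0 I = C},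
        θ (I.1 : Ideal (𝓞 K)) * (((absNorm (I.1 : Ideal (𝓞 K)) : ℝ) ^ (-s) : ℝ) : ℂ) := by
    rw [← (Equiv.sigmaFiberEquiv (ClassGroup.mk0 (R := 𝓞 K))).tsum_eq]
    rw [Summable.tsum_sigma' (fun C => ?_) ?_, tsum_fintype]
    · rfl
    · exact hsum0.comp_injective (Equiv.sigmaFiberEquiv (ClassGroup.mk0 (R := 𝓞 K))).injective
    · exact hsum0.comp_injective
        ((Equiv.sigmaFiberEquiv (ClassGroup.mk0 (R := 𝓞 K))).injective.comp sigma_mk_injective)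
  rw [h1, h2]
  exact (norm_sum_le _ _).trans (Finset.sum_le_sum (fun C _ => hD C s hs))

end Bound

end Fermat.Agent.M48.ChebRayL2
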