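/-
Programme M48 (target S48), leaf (P6) = Chebotarev's density theorem, file C2b (helper2):
**the real part of the prime sum of a nontrivial ray class character is bounded above.**

`re_primeSum_le`: for a ray class character `θ` modulo `𝔪 ≠ 0` (`ChebRayL2.IsRayChar`) with
`θ 𝔞 ≠ 1` for some `𝔞` prime to `𝔪`,  `Re ∑_P θ(P) N(P)^(-s) ≤ B` on `(1, 2]`.

Case A (`θ` nontrivial on a principal ideal prime to `𝔪`): `ChebRayL2.bounded_of_exists_principal`
and file A.  Case B (`θ` trivial on all principal ideals prime to `𝔪`): then `θ` is induced by a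
nontrivial character `Ψ` of the class group, `L(s, Ψ)` is bounded (`CFT/ClassZeta.classL_bounded`),
and the prime sums of `θ` and `Ψ` differ by the finitely many primes dividing `𝔪`.
-/
import Mathlib
import Fermat.Agent.CFT.ClassLEuler
import Fermat.Agent.M48.ChebRayL2
import Fermat.Agent.M48.ChebFourier2

set_option autoImplicit false
set_option linter.unusedSectionVars false

open NumberField Ideal IsDedekindDomain nonZeroDivisors
open Fermat.Agent.CFT.ClassZeta Fermat.Agent.CFT.ZetaRBounds Fermat.Agent.CFT.ClassLEuler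
open Fermat.Agent.CFT.C1ClassDefs Fermat.Agent.CFT.SplitPrimes
open Fermat.Agent.M48.ChebLSeries2 Fermat.Agent.M48.ChebRayL2

noncomputable section

namespace Fermat.Agent.M48.ChebRayB2

variable {K : Type*} [Field K] [NumberField K]
variable {𝔪 : Ideal (𝓞 K)} {θ : Ideal (𝓞 K) →*₀ ℂ}

/-! ### Case B: characters of the class group -/

section ClassChar

/-- In case B, `θ` is constant on the ideals prime to `𝔪` of an ideal class. -/
theorem eq_of_mk0_eq (h : IsRayChar 𝔪 θ) (h𝔪 : 𝔪 ≠ ⊥)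
    (hB : ∀ α : 𝓞 K, span {α} ⊔ 𝔪 = ⊤ → θ (span {α}) = 1)
    {a b : (Ideal (𝓞 K))⁰} (ha : (a : Ideal (𝓞 K)) ⊔ 𝔪 = ⊤) (hb : (b : Ideal (𝓞 K)) ⊔ 𝔪 = ⊤)
    (hab : ClassGroup.mk0 a = ClassGroup.mk0 b) :
    θ (a : Ideal (𝓞 K)) = θ (b : Ideal (𝓞 K)) := by
  obtain ⟨c, hc, hcl⟩ := Fermat.Agent.CFT.CoprimeRep.exists_coprime_rep_classGroup 𝔪 h𝔪
    (ClassGroup.mk0 a)⁻¹
  have key : ∀ x : (Ideal (𝓞 K))⁰, (x : Ideal (𝓞 K)) ⊔ 𝔪 = ⊤ →
      ClassGroup.mk0 x = ClassGroup.mk0 a →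
      θ (x : Ideal (𝓞 K)) * θ (c : Ideal (𝓞 K)) = 1 := by
    intro x hx hxa
    have hprod : ClassGroup.mk0 (x * c) = 1 := by
      rw [map_mul, hcl, hxa, mul_inv_cancel]
    have hprin : ((x * c : (Ideal (𝓞 K))⁰) : Ideal (𝓞 K)).IsPrincipal :=
      (ClassGroup.mk0_eq_one_iff (x * c).2).mp hprod
    obtain ⟨γ, hγ⟩ := hprin.principal
    have hγ' : (x : Ideal (𝓞 K)) * (c : Ideal (𝓞 K)) = span {γ} := by
      rw [← submodule_span_eq, ← hγ]
      rfl
    have hcop : span {γ} ⊔ 𝔪 = ⊤ := by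
      rw [← hγ']
      exact Fermat.Agent.CFT.CoprimeRep.mul_sup_eq_top hx hc
    rw [← map_mul, hγ']
    exact hB γ hcop
  have h1 := key a ha rfl
  have h2 := key b hb hab.symm
  have hc0 : θ (c : Ideal (𝓞 K)) ≠ 0 := h.ne_zero_of_coprime h𝔪 hc
  exact mul_right_cancel₀ hc0 (h1.trans h2.symm)

/-- In case B, `θ` is induced by a character of the class group. -/
theorem exists_classChar (h : IsRayChar 𝔪 θ) (h𝔪 : 𝔪 ≠ ⊥)
    (hB : ∀ α : 𝓞 K, span {α} ⊔ 𝔪 = ⊤ → θ (span {α}) = 1) :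
    ∃ Ψ : ClassGroup (𝓞 K) →* ℂˣ, ∀ a : (Ideal (𝓞 K))⁰, (a : Ideal (𝓞 K)) ⊔ 𝔪 = ⊤ →
      θ (a : Ideal (𝓞 K)) = ((Ψ (ClassGroup.mk0 a) : ℂˣ) : ℂ) := by
  choose rep hrep hcl using
    Fermat.Agent.CFT.CoprimeRep.exists_coprime_rep_classGroup 𝔪 h𝔪
  have hne : ∀ C : ClassGroup (𝓞 K), θ (rep C : Ideal (𝓞 K)) ≠ 0 := fun C =>
    h.ne_zero_of_coprime h𝔪 (hrep C)
  have hmul : ∀ C C' : ClassGroup (𝓞 K),
      Units.mk0 (θ (rep (C * C') : Ideal (𝓞 K))) (hne _) =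
        Units.mk0 (θ (rep C : Ideal (𝓞 K))) (hne _) *
          Units.mk0 (θ (rep C' : Ideal (𝓞 K))) (hne _) := by
    intro C C'
    apply Units.ext
    rw [Units.val_mul, Units.val_mk0, Units.val_mk0, Units.val_mk0, ← map_mul]
    have h1 : ((rep C * rep C' : (Ideal (𝓞 K))⁰) : Ideal (𝓞 K)) ⊔ 𝔪 = ⊤ :=
      Fermat.Agent.CFT.CoprimeRep.mul_sup_eq_top (hrep C) (hrep C')
    have h2 : ClassGroup.mk0 (rep (C * C')) = ClassGroup.mk0 (rep C * rep C') := by
      rw [map_mul, hcl, hcl, hcl]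
    exact eq_of_mk0_eq h h𝔪 hB (hrep _) h1 h2
  refine ⟨MonoidHom.mk' (fun C => Units.mk0 (θ (rep C : Ideal (𝓞 K))) (hne C)) hmul, ?_⟩
  intro a ha
  rw [MonoidHom.mk'_apply, Units.val_mk0]
  exact eq_of_mk0_eq h h𝔪 hB ha (hrep _) (hcl _).symm

end ClassChar

/-! ### The completely multiplicative function of a class group character -/

section ClassTheta

/-- `𝔞 ↦ Ψ([𝔞])` on all ideals (zero at `0`). -/
def classTheta (Ψ : ClassGroup (𝓞 K) →* ℂˣ) : Ideal (𝓞 K) →*₀ ℂ :=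
  twist (ClassGroup.mk0 (R := 𝓞 K)) Ψ 0

theorem classTheta_apply (Ψ : ClassGroup (𝓞 K) →* ℂˣ) (a : (Ideal (𝓞 K))⁰) :
    classTheta Ψ (a : Ideal (𝓞 K)) = ((Ψ (ClassGroup.mk0 a) : ℂˣ) : ℂ) := by
  unfold classTheta
  rw [twist_apply_of_mem, neg_zero, Real.rpow_zero, Complex.ofReal_one, mul_one]

theorem norm_classTheta_le (Ψ : ClassGroup (𝓞 K) →* ℂˣ) (a : Ideal (𝓞 K)) :
    ‖classTheta Ψ a‖ ≤ 1 := by
  have := norm_twist_le (ClassGroup.mk0 (R := 𝓞 K)) Ψ 0 a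
  rwa [neg_zero, Real.rpow_zero] at this

theorem Lfun_classTheta (Ψ : ClassGroup (𝓞 K) →* ℂˣ) (s : ℝ) :
    Lfun (classTheta Ψ) s = classL K (ClassGroup.mk0 (R := 𝓞 K)) Ψ s := by
  rw [classL_eq_tsum_twist, Lfun]
  refine tsum_congr (fun a => ?_)
  by_cases ha : a ∈ (Ideal (𝓞 K))⁰
  · have h1 := classTheta_apply Ψ ⟨a, ha⟩
    have h2 := twist_apply_of_mem (ClassGroup.mk0 (R := 𝓞 K)) Ψ s ⟨a, ha⟩
    simp only at h1 h2
    rw [term_apply, h1, h2]
  · rw [twist_apply_zero' _ _ _ ha]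
    have : a = 0 := by
      by_contra h0
      exact ha (mem_nonZeroDivisors_iff_ne_zero.mpr h0)
    rw [this, map_zero]

/-- `L(s, Ψ)` is bounded on `(1, 2]` for a nontrivial class group character. -/
theorem Lfun_classTheta_bounded (Ψ : ClassGroup (𝓞 K) →* ℂˣ) (hΨ : Ψ ≠ 1) :
    ∃ B : ℝ, ∀ s ∈ Set.Ioc (1 : ℝ) 2, ‖Lfun (classTheta Ψ) s‖ ≤ B := by
  have hne : Ψ.comp (MonoidHom.id (ClassGroup (𝓞 K))) ≠ 1 := by
    rw [MonoidHom.comp_id]
    exact hΨ
  obtain ⟨B, hB⟩ := classL_bounded (MonoidHom.id (ClassGroup (𝓞 K))) Ψ hne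
  refine ⟨B, fun s hs => ?_⟩
  have := hB s hs
  rw [MonoidHom.id_comp] at this
  rwa [Lfun_classTheta]

end ClassTheta

/-! ### Two functions agreeing at almost all primes -/

section Compare

/-- If two bounded completely multiplicative functions agree at the primes outside a finite set,
the real parts of their prime sums differ by at most the cardinality of that set. -/
theorem re_primeSum_le_add (θ θ' : Ideal (𝓞 K) →*₀ ℂ) (hθ : ∀ a, ‖θ a‖ ≤ 1)
    (hθ' : ∀ a, ‖θ' a‖ ≤ 1) (S : Finset (HeightOneSpectrum (𝓞 K)))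
    (hS : ∀ P : HeightOneSpectrum (𝓞 K), P ∉ S → θ P.asIdeal = θ' P.asIdeal) {s : ℝ}
    (hs : 1 < s) :
    (primeSum θ s).re ≤ (primeSum θ' s).re + S.card := by
  have hsum := summable_local θ hθ hs
  have hsum' := summable_local θ' hθ' hs
  have hdiff : primeSum θ s - primeSum θ' s =
      ∑ P ∈ S, (θ P.asIdeal * ((xP K s P : ℝ) : ℂ) - θ' P.asIdeal * ((xP K s P : ℝ) : ℂ)) := by
    rw [primeSum, primeSum, ← hsum.tsum_sub hsum']
    refine tsum_eq_sum (fun P hP => ?_)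
    rw [hS P hP, sub_self]
  have hnorm : ‖primeSum θ s - primeSum θ' s‖ ≤ S.card := by
    rw [hdiff]
    refine (norm_sum_le _ _).trans ?_
    calc ∑ P ∈ S, ‖θ P.asIdeal * ((xP K s P : ℝ) : ℂ) - θ' P.asIdeal * ((xP K s P : ℝ) : ℂ)‖
        ≤ ∑ _P ∈ S, (1 : ℝ) := by
          refine Finset.sum_le_sum (fun P _ => ?_)
          have h1 := norm_local_le θ hθ s P
          have h2 := norm_local_le θ' hθ' s P
          have h3 := xP_le_half K hs.le P
          calc ‖θ P.asIdeal * ((xP K s P : ℝ) : ℂ) - θ' P.asIdeal * ((xP K s P : ℝ) : ℂ)‖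
              ≤ ‖θ P.asIdeal * ((xP K s P : ℝ) : ℂ)‖ + ‖θ' P.asIdeal * ((xP K s P : ℝ) : ℂ)‖ :=
                norm_sub_le _ _
            _ ≤ 1 := by linarith
      _ = S.card := by rw [Finset.sum_const, nsmul_eq_mul, mul_one]
  have h1 : (primeSum θ s).re = (primeSum θ' s).re + (primeSum θ s - primeSum θ' s).re := by
    rw [Complex.sub_re]
    ring
  rw [h1]
  have h2 := (Complex.re_le_norm (primeSum θ s - primeSum θ' s)).trans hnorm
  linarith

end Compare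

/-! ### The theorem -/

/-- A prime not dividing `𝔪` is prime to `𝔪`. -/
theorem sup_eq_top_of_not_dvd (P : HeightOneSpectrum (𝓞 K)) (hP : ¬ P.asIdeal ∣ 𝔪) :
    P.asIdeal ⊔ 𝔪 = ⊤ := by
  by_contra hne
  have h1 : P.asIdeal = P.asIdeal ⊔ 𝔪 := P.isMaximal.eq_of_le hne le_sup_left
  apply hP
  rw [Ideal.dvd_iff_le, h1]
  exact le_sup_right

/-- **The real part of the prime sum of a nontrivial ray class character is bounded above on
`(1, 2]`.** -/
theorem re_primeSum_le (h : IsRayChar 𝔪 θ) (h𝔪 : 𝔪 ≠ ⊥)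
    (hne : ∃ a : Ideal (𝓞 K), a ⊔ 𝔪 = ⊤ ∧ θ a ≠ 1) :
    ∃ B : ℝ, ∀ s ∈ Set.Ioc (1 : ℝ) 2, (primeSum θ s).re ≤ B := by
  by_cases hA : ∃ α : 𝓞 K, span {α} ⊔ 𝔪 = ⊤ ∧ θ (span {α}) ≠ 1
  · obtain ⟨B, hB⟩ := bounded_of_exists_principal h h𝔪 hA
    exact ⟨_, Fermat.Agent.M48.ChebFourier2.re_primeSum_le_of_bounded θ h.norm_le hB⟩
  · push Not at hA
    obtain ⟨Ψ, hΨ⟩ := exists_classChar h h𝔪 hA
    have hΨ1 : Ψ ≠ 1 := by
      obtain ⟨a, ha, hθa⟩ := hne
      have ha0 : a ≠ ⊥ := by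
        rintro rfl
        rw [bot_sup_eq] at ha
        exact h.ne_top ha
      intro h1
      apply hθa
      have := hΨ ⟨a, mem_nonZeroDivisors_iff_ne_zero.mpr ha0⟩ ha
      simp only at this
      rw [this, h1, MonoidHom.one_apply, Units.val_one]
    obtain ⟨B, hB⟩ := Lfun_classTheta_bounded Ψ hΨ1
    have hre := Fermat.Agent.M48.ChebFourier2.re_primeSum_le_of_bounded (classTheta Ψ)
      (norm_classTheta_le Ψ) hB
    set S : Finset (HeightOneSpectrum (𝓞 K)) := (Ideal.finite_factors h𝔪).toFinset with hS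
    refine ⟨Real.log (max B 1) + primeZeta K 2 + S.card, fun s hs => ?_⟩
    have hagree : ∀ P : HeightOneSpectrum (𝓞 K), P ∉ S →
        θ P.asIdeal = classTheta Ψ P.asIdeal := by
      intro P hP
      have hP' : ¬ P.asIdeal ∣ 𝔪 := by
        intro hdvd
        exact hP ((Ideal.finite_factors h𝔪).mem_toFinset.mpr hdvd)
      have h1 := hΨ (primeToIdeal0 P) (sup_eq_top_of_not_dvd P hP')
      have h2 := classTheta_apply Ψ (primeToIdeal0 P)
      rw [coe_primeToIdeal0] at h1 h2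
      rw [h1, h2]
    have := re_primeSum_le_add θ (classTheta Ψ) h.norm_le (norm_classTheta_le Ψ) S hagree hs.1
    linarith [hre s hs]

end Fermat.Agent.M48.ChebRayB2
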