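/-
M48 (P1), glue (helper3; Mathlib only): **clearing denominators in an eigenvector.**

`Λ` a finite free `ℤ`-module with operators `t i`; `𝒪'` a domain with fraction field `K'`; `N` an
`𝒪'`-module which is the base change of `Λ` along `ι : Λ → N`, with operators `tN i` extending the
`t i`.  A nonzero common eigenvector of the `(t i).baseChange K'` in `K' ⊗ Λ` with eigenvalues in `𝒪'`
gives a nonzero common eigenvector of the `tN i` in `N` with the same eigenvalues.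

This is the step from (F2) (`G1Fin3.exists_eigenvector_lam`, `K' = Frac 𝒪'`) to the eigenvector in
`𝒪' ⊗ T_p J` consumed by the S30 skeleton (twin of `S30Glue8.exists_eigenvector_tate`).

* `incl Λ 𝒪' K' : 𝒪' ⊗[ℤ] Λ →ₗ[𝒪'] K' ⊗[ℤ] Λ`, injective (`incl_injective`), natural
  (`incl_baseChange`);
* `exists_smul_mem_range_incl` : every element of `K' ⊗ Λ` has a nonzero `𝒪'`-multiple in `𝒪' ⊗ Λ`;
* `exists_eigenvector_tensor` : the eigenvector in `𝒪' ⊗[ℤ] Λ`;
* **`exists_eigenvector_of_isBaseChange`** : the eigenvector in `N`.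
-/
import Mathlib

set_option autoImplicit false

noncomputable section

namespace Fermat.Agent.M48.ClearDenom3

open TensorProduct

variable (Λ : Type*) [AddCommGroup Λ]
variable (𝒪' : Type*) [CommRing 𝒪'] (K' : Type*) [Field K'] [Algebra 𝒪' K']

/-- the map `𝒪' ⊗ Λ → K' ⊗ Λ`. -/
def incl : 𝒪' ⊗[ℤ] Λ →ₗ[𝒪'] K' ⊗[ℤ] Λ :=
  TensorProduct.AlgebraTensorModule.map (Algebra.linearMap 𝒪' K') (LinearMap.id : Λ →ₗ[ℤ] Λ)

variable {Λ 𝒪' K'}

@[simp] theorem incl_tmul (a : 𝒪') (x : Λ) :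
    incl Λ 𝒪' K' (a ⊗ₜ[ℤ] x) = algebraMap 𝒪' K' a ⊗ₜ[ℤ] x := rfl

/-- naturality of `incl` with respect to endomorphisms of `Λ`. -/
theorem incl_baseChange (t : Module.End ℤ Λ) (y : 𝒪' ⊗[ℤ] Λ) :
    incl Λ 𝒪' K' (t.baseChange 𝒪' y) = t.baseChange K' (incl Λ 𝒪' K' y) := by
  induction y using TensorProduct.induction_on with
  | zero => simp
  | tmul a x => simp
  | add y z hy hz => rw [map_add, map_add, hy, hz, map_add, map_add]

variable (Λ 𝒪' K') in
theorem incl_injective [Module.Free ℤ Λ] [IsDomain 𝒪'] [IsFractionRing 𝒪' K'] :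
    Function.Injective (incl Λ 𝒪' K') := by
  have h1 : Function.Injective (Algebra.linearMap 𝒪' K') := IsFractionRing.injective 𝒪' K'
  have h2 : Function.Injective
      (((Algebra.linearMap 𝒪' K').restrictScalars ℤ).rTensor Λ) :=
    Module.Flat.rTensor_preserves_injective_linearMap _ h1
  intro y z hyz
  apply h2
  have e : ∀ w : 𝒪' ⊗[ℤ] Λ, ((Algebra.linearMap 𝒪' K').restrictScalars ℤ).rTensor Λ w
      = incl Λ 𝒪' K' w := by
    intro w
    induction w using TensorProduct.induction_on with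
    | zero => simp
    | tmul a x => rfl
    | add y z hy hz => rw [map_add, map_add, hy, hz]
  rw [e, e, hyz]

/-- every element of `K' ⊗ Λ` has a nonzero `𝒪'`-multiple in the image of `𝒪' ⊗ Λ`. -/
theorem exists_smul_mem_range_incl [IsDomain 𝒪'] [IsFractionRing 𝒪' K'] (w : K' ⊗[ℤ] Λ) :
    ∃ d : 𝒪', d ≠ 0 ∧ ∃ y : 𝒪' ⊗[ℤ] Λ, incl Λ 𝒪' K' y = algebraMap 𝒪' K' d • w := by
  induction w using TensorProduct.induction_on with
  | zero => exact ⟨1, one_ne_zero, 0, by simp⟩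
  | tmul c x =>
    obtain ⟨a, b, hb, rfl⟩ := IsFractionRing.div_surjective (A := 𝒪') c
    have hb0 : b ≠ 0 := nonZeroDivisors.ne_zero hb
    have hbK : algebraMap 𝒪' K' b ≠ 0 := by
      rwa [Ne, IsFractionRing.to_map_eq_zero_iff]
    refine ⟨b, hb0, a ⊗ₜ[ℤ] x, ?_⟩
    rw [incl_tmul, TensorProduct.smul_tmul', smul_eq_mul, mul_div_cancel₀ _ hbK]
  | add w w' hw hw' =>
    obtain ⟨d, hd, y, hy⟩ := hw
    obtain ⟨d', hd', y', hy'⟩ := hw'
    refine ⟨d * d', mul_ne_zero hd hd', d' • y + d • y', ?_⟩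
    rw [map_add, map_smul, map_smul, hy, hy', map_mul, smul_add, mul_smul, mul_smul,
      ← algebraMap_smul K' d' (algebraMap 𝒪' K' d • w),
      ← algebraMap_smul K' d (algebraMap 𝒪' K' d' • w'),
      smul_comm (algebraMap 𝒪' K' d') (algebraMap 𝒪' K' d) w]

/-- **the eigenvector in `𝒪' ⊗ Λ`.** -/
theorem exists_eigenvector_tensor [Module.Free ℤ Λ] [IsDomain 𝒪'] [IsFractionRing 𝒪' K']
    {ι' : Type*} (t : ι' → Module.End ℤ Λ) (c : ι' → 𝒪')
    (w₀ : K' ⊗[ℤ] Λ) (hw₀ : w₀ ≠ 0)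
    (heig : ∀ i, (t i).baseChange K' w₀ = algebraMap 𝒪' K' (c i) • w₀) :
    ∃ y : 𝒪' ⊗[ℤ] Λ, y ≠ 0 ∧ ∀ i, (t i).baseChange 𝒪' y = c i • y := by
  obtain ⟨d, hd, y, hy⟩ := exists_smul_mem_range_incl (𝒪' := 𝒪') w₀
  have hdK : algebraMap 𝒪' K' d ≠ 0 := by
    rwa [Ne, IsFractionRing.to_map_eq_zero_iff]
  refine ⟨y, ?_, fun i => ?_⟩
  · rintro rfl
    rw [map_zero] at hy
    exact hw₀ ((smul_eq_zero.mp hy.symm).resolve_left hdK)
  · apply incl_injective Λ 𝒪' K'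
    rw [incl_baseChange, hy, map_smul, heig, map_smul, hy,
      ← algebraMap_smul K' (c i) (algebraMap 𝒪' K' d • w₀), smul_comm]

/-- **the eigenvector in a base change `N` of `Λ`.** -/
theorem exists_eigenvector_of_isBaseChange [Module.Free ℤ Λ] [IsDomain 𝒪'] [IsFractionRing 𝒪' K']
    {N : Type*} [AddCommGroup N] [Module 𝒪' N] (ι : Λ →ₗ[ℤ] N) (hι : IsBaseChange 𝒪' ι)
    {ι' : Type*} (t : ι' → Module.End ℤ Λ) (tN : ι' → Module.End 𝒪' N)
    (htN : ∀ i x, tN i (ι x) = ι (t i x)) (c : ι' → 𝒪')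
    (w₀ : K' ⊗[ℤ] Λ) (hw₀ : w₀ ≠ 0)
    (heig : ∀ i, (t i).baseChange K' w₀ = algebraMap 𝒪' K' (c i) • w₀) :
    ∃ w : N, w ≠ 0 ∧ ∀ i, tN i w = c i • w := by
  obtain ⟨y, hy0, hy⟩ := exists_eigenvector_tensor t c w₀ hw₀ heig
  have hcomm : ∀ i (z : 𝒪' ⊗[ℤ] Λ), tN i (hι.equiv z) = hι.equiv ((t i).baseChange 𝒪' z) := by
    intro i z
    induction z using TensorProduct.induction_on with
    | zero => simp
    | tmul a x =>
      rw [LinearMap.baseChange_tmul, IsBaseChange.equiv_tmul, IsBaseChange.equiv_tmul, map_smul,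
        htN]
    | add z z' hz hz' => rw [map_add, map_add, hz, hz', map_add, map_add]
  refine ⟨hι.equiv y, fun h => hy0 (hι.equiv.injective (by rw [h, map_zero])), fun i => ?_⟩
  rw [hcomm, hy, map_smul]

end Fermat.Agent.M48.ClearDenom3
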