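/-
M48 (P1), [RED1], chapter [CUSP1] (helper2), file G1: **the cusp expansions over a number field,
GENERIC in the model field** `F₀ ≤ ℚ((q))`.

Re-run of `RED/CUSP/CuspExact16` (section "compressed expansion"), `CuspEmbK16` and `CuspFamilyK16`
with the function field `Fbar_M` of `X₀(M)` replaced by `FBg F₀ = ℚbar·F₀` (lead's `DescG0`), the
field `Interface4.FK M K` by `FKg F₀ K = K·F₀`, and the cusp expansion `(cuspData M).T γ` together
with `placeOf M γ`, `cuspR M γ` by ONE abstract **cusp datum** `D : CuspDatum F₀`: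

* `D.T : FBg F₀ →+* ℚbar((q_N))`, `D.v : Place ℚbar (FBg F₀)`, `D.r : ℕ`, `0 < D.r`,
* `D.map_const`     : `D.T` is the identity on constants,
* `D.coeff_eq_zero` : every `D.T f` is a series in `q_N ^ r`,
* `D.order_eq`      : `(D.T f).order = r * ord_v f`.

For the model `fieldG10 M L` of `Γ₁(M) ∩ Γ₀(M L)` these are the fields `cuspEmb g⁻¹`, `cuspPlace g`,
`cuspIdx g`, `order_cuspEmb` of helper4's dictionary transported to `ℚbar` ((MF2) of [RED1]).

The integrality input is `GenCoeff D S Z`: `F₀ = ℚ(S)` and the coefficients of `D.T` at the generators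
`s ∈ S` lie in a subring `Z ⊂ ℚbar` (old model: `ℤ[ζ_M]`; new model: `ℤ[ζ_N, 1/N]`).

Exports (same names as the old files): `Tc`, `qExpand_Tc`, `Tc_coeff`, `Tc_const`, `order_Tc`,
`mem_place_iff`; `genB`, `genK`, `map_mem_of_gen`, `coeffIn_of_genCoeff`; `TK`, `coeffMap_TK`,
`TK_coeff`, `TK_const`, `order_TK`, `mem_place_iff_TK`; `TK_gen_coeff_mem`, `TK_mem_psFrac`,
**(C1)** `TK_mem_psRange_of_isIntegral`, `exists_ps_of_isIntegral`, `iotaPS`, `toLS_iotaPS`;
**(F1)** `shape_some`, `shape_none`, **(F2)** `order_sub_of_shape`, `ord_place_of_shape`,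
**(F3)** `hplaces_of_fibre`.

Imported by no statement.
-/
import Mathlib
import Fermat.Agent.RED.CUSP.CuspFamilyK16
import Fermat.Agent.M48.DescG0

set_option autoImplicit false
set_option linter.unusedSectionVars false

open HahnSeries AlgebraicCurve ModularCurve

noncomputable section

namespace Fermat.Agent.M48.CuspExactG2

open Fermat.Agent.X0 Fermat.Agent.RED.Interface4
open Fermat.Agent.M48.DescG0
open Fermat.Agent.RED.CUSP.IntClosedPS16 Fermat.Agent.RED.BASE.Interface12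
open Fermat.Agent.RED.CUSP.CuspEmbK16 (coeffMap_injective' mem_range_coeffMap_iff order_coeffMap
  coeffMap_C cEquiv mem_psFrac_of_coeff C_algebraMap_mem_psRange C_mem_psFrac
  map_mem_psRange_of_isIntegralElem psEquiv)
open Fermat.Agent.RED.CUSP.CuspExact16 (order_qExpand)

variable (F₀ : IntermediateField ℚ (LaurentSeries ℚ))

/-- **One exact cusp expansion of the `ℚbar`-model.** -/
structure CuspDatum where
  /-- the `q_N`-expansion at the cusp -/
  T : FBg F₀ →+* LaurentSeries Qbar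
  /-- the cusp place -/
  v : Place Qbar (FBg F₀)
  /-- `N / width` -/
  r : ℕ
  r_pos : 0 < r
  map_const : ∀ c : Qbar, T (algebraMap Qbar (FBg F₀) c) = HahnSeries.C c
  coeff_eq_zero : ∀ (f : FBg F₀) (n : ℤ), ¬ (r : ℤ) ∣ n → (T f).coeff n = 0
  order_eq : ∀ f : FBg F₀, f ≠ 0 → (T f).order = (r : ℤ) * v.ord f

variable {F₀}

namespace CuspDatum

variable (D : CuspDatum F₀)

instance neZero_r : NeZero D.r := ⟨D.r_pos.ne'⟩

/-! ### The compressed expansion -/

theorem T_mem_range (f : FBg F₀) : D.T f ∈ (qExpand Qbar D.r).range :=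
  (Fermat.Agent.RED.LVL.RootRange2.mem_range_qExpand_iff D.r (D.T f)).mpr (D.coeff_eq_zero f)

/-- The ring isomorphism `ℚbar((s)) ≃ range (s ↦ q_N^r)`. -/
def qEquiv : LaurentSeries Qbar ≃+* (qExpand Qbar D.r).range :=
  RingEquiv.ofBijective (qExpand Qbar D.r).rangeRestrict
    ⟨fun _ _ h => qExpand_injective _ (congrArg Subtype.val h),
      (qExpand Qbar D.r).rangeRestrict_surjective⟩

/-- **The compressed cusp expansion** `Tc : ℚbar·F₀ → ℚbar((s))`, `s = q_N^r = q^{1/w}`. -/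
def Tc : FBg F₀ →+* LaurentSeries Qbar :=
  ((D.qEquiv).symm : _ →+* LaurentSeries Qbar).comp
    ((D.T).codRestrict (qExpand Qbar D.r).range D.T_mem_range)

theorem qExpand_Tc (f : FBg F₀) : qExpand Qbar D.r (D.Tc f) = D.T f := by
  have h : (D.qEquiv) (D.Tc f) =
      ((D.T).codRestrict (qExpand Qbar D.r).range D.T_mem_range) f := by
    rw [Tc, RingHom.comp_apply]
    exact (D.qEquiv).apply_symm_apply _
  exact congrArg Subtype.val h

theorem Tc_coeff (f : FBg F₀) (n : ℤ) : (D.Tc f).coeff n = (D.T f).coeff ((D.r : ℤ) * n) := by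
  rw [← qExpand_Tc, qExpand_coeff_mul]

theorem Tc_const (c : Qbar) : D.Tc (algebraMap Qbar (FBg F₀) c) = HahnSeries.C c := by
  apply qExpand_injective (R := Qbar) (N := D.r)
  rw [qExpand_Tc, D.map_const, qExpand_C]

theorem Tc_ne_zero {f : FBg F₀} (hf : f ≠ 0) : D.Tc f ≠ 0 :=
  (map_ne_zero_iff _ (D.Tc).injective).mpr hf

/-- **Exact order**: `ord (Tc f) = ord_v f`. -/
theorem order_Tc (f : FBg F₀) (hf : f ≠ 0) : (D.Tc f).order = D.v.ord f := by
  have h1 := D.order_eq f hf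
  rw [← qExpand_Tc, order_qExpand] at h1
  have hr : ((D.r : ℕ) : ℤ) ≠ 0 := by exact_mod_cast D.r_pos.ne'
  exact mul_left_cancel₀ hr h1

theorem mem_place_iff {f : FBg F₀} (hf : f ≠ 0) :
    f ∈ D.v.toValuationSubring ↔ 0 ≤ (D.Tc f).order := by
  rw [D.order_Tc f hf, FF.ffp_mem_iff_ord_nonneg]

end CuspDatum

/-! ### Generators of `ℚbar·F₀` and `K·F₀` -/

variable (F₀)

/-- `F₀ → ℚbar·F₀`, coefficientwise. -/
def genB : F₀ →+* FBg F₀ where
  toFun s := ⟨coeffEmb Qbar (s : LaurentSeries ℚ), coeffEmb_mem_laurentBaseChange Qbar s.2⟩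
  map_one' := Subtype.ext (map_one (coeffEmb Qbar))
  map_mul' _ _ := Subtype.ext (map_mul (coeffEmb Qbar) _ _)
  map_zero' := Subtype.ext (map_zero (coeffEmb Qbar))
  map_add' _ _ := Subtype.ext (map_add (coeffEmb Qbar) _ _)

@[simp] theorem coe_genB (s : F₀) :
    ((genB F₀ s : FBg F₀) : LaurentSeries Qbar) = coeffEmb Qbar (s : LaurentSeries ℚ) := rfl

variable (K : IntermediateField ℚ Qbar)

/-- `F₀ → K·F₀`, coefficientwise. -/
def genK : F₀ →+* FKg F₀ K where
  toFun s := ⟨coeffEmb K (s : LaurentSeries ℚ), coeffEmb_mem_laurentBaseChange K s.2⟩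
  map_one' := Subtype.ext (map_one (coeffEmb K))
  map_mul' _ _ := Subtype.ext (map_mul (coeffEmb K) _ _)
  map_zero' := Subtype.ext (map_zero (coeffEmb K))
  map_add' _ _ := Subtype.ext (map_add (coeffEmb K) _ _)

@[simp] theorem coe_genK (s : F₀) :
    ((genK F₀ K s : FKg F₀ K) : LaurentSeries K) = coeffEmb K (s : LaurentSeries ℚ) := rfl

theorem baseChangeHom_genK (s : F₀) : baseChangeHom F₀ K (genK F₀ K s) = genB F₀ s := by
  apply Subtype.ext
  rw [coe_baseChangeHom, coe_genK, coe_genB, coeffEmb, coeffEmb, coeffMap_coeffMap]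
  exact coeffMap_congr (RingHom.ext fun c => (IsScalarTower.algebraMap_apply ℚ K Qbar c).symm) _

theorem baseChangeHom_injective : Function.Injective (baseChangeHom F₀ K) :=
  (baseChangeHom F₀ K).injective

variable {F₀ K}

/-- A ring hom from `K·F₀` into a field maps everything into a subfield as soon as it does so for
the constants and for a set `S` of generators of `F₀`. -/
theorem map_mem_of_gen {L : Type*} [Field L] (S : Set (LaurentSeries ℚ))
    (hS : IntermediateField.adjoin ℚ S = F₀) (f : FKg F₀ K →+* L) (𝔽 : Subfield L)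
    (hconst : ∀ c : K, f (algebraMap K (FKg F₀ K) c) ∈ 𝔽)
    (hgen : ∀ s : F₀, (s : LaurentSeries ℚ) ∈ S → f (genK F₀ K s) ∈ 𝔽) (z : FKg F₀ K) :
    f z ∈ 𝔽 := by
  -- step 1: all of `F₀`
  have h1 : ∀ s : F₀, f (genK F₀ K s) ∈ 𝔽 := by
    have hF : ∀ y, y ∈ IntermediateField.adjoin ℚ S → y ∈ F₀ := fun y hy => hS ▸ hy
    suffices h : ∀ (y : LaurentSeries ℚ) (hy : y ∈ IntermediateField.adjoin ℚ S),
        f (genK F₀ K ⟨y, hF y hy⟩) ∈ 𝔽 by
      intro s
      have hs : (s : LaurentSeries ℚ) ∈ IntermediateField.adjoin ℚ S := by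
        rw [hS]; exact s.2
      exact h s hs
    intro y hy
    induction hy using IntermediateField.adjoin_induction with
    | mem x hx => exact hgen ⟨x, hF x (IntermediateField.subset_adjoin ℚ S hx)⟩ hx
    | algebraMap c =>
      have h2 : genK F₀ K ⟨algebraMap ℚ (LaurentSeries ℚ) c,
          hF _ ((IntermediateField.adjoin ℚ S).algebraMap_mem c)⟩ =
          algebraMap K (FKg F₀ K) (algebraMap ℚ K c) := by
        apply Subtype.ext
        rw [coe_genK]
        show coeffEmb K (algebraMap ℚ (LaurentSeries ℚ) c) =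
          algebraMap K (LaurentSeries K) (algebraMap ℚ K c)
        rw [algebraMap_laurentSeries_eq_single, algebraMap_laurentSeries_eq_single, coeffEmb,
          coeffMap_single]
      rw [h2]
      exact hconst _
    | add x y hx hy h1 h2 =>
      have : (⟨x + y, hF _ (add_mem hx hy)⟩ : F₀) = ⟨x, hF _ hx⟩ + ⟨y, hF _ hy⟩ := rfl
      rw [this, map_add, map_add]
      exact add_mem h1 h2
    | inv x hx h1 =>
      have : (⟨x⁻¹, hF _ (inv_mem hx)⟩ : F₀) = (⟨x, hF _ hx⟩ : F₀)⁻¹ := rfl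
      rw [this, map_inv₀, map_inv₀]
      exact inv_mem h1
    | mul x y hx hy h1 h2 =>
      have : (⟨x * y, hF _ (mul_mem hx hy)⟩ : F₀) = ⟨x, hF _ hx⟩ * ⟨y, hF _ hy⟩ := rfl
      rw [this, map_mul, map_mul]
      exact mul_mem h1 h2
  -- step 2: all of `K·F₀`
  obtain ⟨z, hz⟩ := z
  have hz' : z ∈ IntermediateField.adjoin K (⇑(coeffEmb K) '' (F₀ : Set (LaurentSeries ℚ))) := hz
  have hFK : ∀ y, y ∈ IntermediateField.adjoin K (⇑(coeffEmb K) '' (F₀ : Set (LaurentSeries ℚ))) →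
      y ∈ FKg F₀ K := fun y hy => hy
  suffices h : ∀ (y : LaurentSeries K)
      (hy : y ∈ IntermediateField.adjoin K (⇑(coeffEmb K) '' (F₀ : Set (LaurentSeries ℚ)))),
      f ⟨y, hFK y hy⟩ ∈ 𝔽 from h z hz'
  intro y hy
  induction hy using IntermediateField.adjoin_induction with
  | mem x hx =>
    obtain ⟨s, hs, rfl⟩ := hx
    exact h1 ⟨s, hs⟩
  | algebraMap c => exact hconst c
  | add x y hx hy h1 h2 =>
    have : (⟨x + y, hFK _ (add_mem hx hy)⟩ : FKg F₀ K) = ⟨x, hFK _ hx⟩ + ⟨y, hFK _ hy⟩ := rfl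
    rw [this, map_add]
    exact add_mem h1 h2
  | inv x hx h1 =>
    have : (⟨x⁻¹, hFK _ (inv_mem hx)⟩ : FKg F₀ K) = (⟨x, hFK _ hx⟩ : FKg F₀ K)⁻¹ := rfl
    rw [this, map_inv₀]
    exact inv_mem h1
  | mul x y hx hy h1 h2 =>
    have : (⟨x * y, hFK _ (mul_mem hx hy)⟩ : FKg F₀ K) = ⟨x, hFK _ hx⟩ * ⟨y, hFK _ hy⟩ := rfl
    rw [this, map_mul]
    exact mul_mem h1 h2

/-! ### The coefficients of the cusp expansions lie in `K` -/

/-- The integrality input: `F₀ = ℚ(S)` and the coefficients of `D.T` at the generators `s ∈ S` lie in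
the subring `Z ⊂ ℚbar`. -/
structure GenCoeff (D : CuspDatum F₀) (S : Set (LaurentSeries ℚ)) (Z : Subring Qbar) : Prop where
  adjoin_eq : IntermediateField.adjoin ℚ S = F₀
  coeff_mem : ∀ s : F₀, (s : LaurentSeries ℚ) ∈ S → ∀ n : ℤ, (D.T (genB F₀ s)).coeff n ∈ Z

/-- All coefficients of `D.T (emb z)`, `z ∈ K·F₀`, lie in `K`. -/
def CoeffIn (D : CuspDatum F₀) (K : IntermediateField ℚ Qbar) : Prop :=
  ∀ (z : FKg F₀ K) (n : ℤ), (D.T (baseChangeHom F₀ K z)).coeff n ∈ K

variable (D : CuspDatum F₀) {S : Set (LaurentSeries ℚ)} {Z : Subring Qbar}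

theorem T_mem_fieldRange (hG : GenCoeff D S Z) (hZK : Z ≤ K.toSubring) (z : FKg F₀ K) :
    D.T (baseChangeHom F₀ K z) ∈ (coeffMap (algebraMap K Qbar)).fieldRange := by
  refine map_mem_of_gen S hG.adjoin_eq ((D.T).comp (baseChangeHom F₀ K)) _ ?_ ?_ z
  · intro c
    rw [RingHom.comp_apply, baseChangeHom_algebraMap, D.map_const]
    exact ⟨HahnSeries.C c, coeffMap_C _ c⟩
  · intro s hs
    rw [RingHom.comp_apply, baseChangeHom_genK]
    show _ ∈ (coeffMap (algebraMap K Qbar)).range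
    rw [mem_range_coeffMap_iff]
    intro n
    have h1 := hZK (hG.coeff_mem s hs n)
    exact ⟨⟨_, h1⟩, rfl⟩

theorem coeffIn_of_genCoeff (hG : GenCoeff D S Z) (hZK : Z ≤ K.toSubring) : CoeffIn D K := by
  intro z n
  obtain ⟨y, hy⟩ := T_mem_fieldRange D hG hZK z
  rw [← hy, coeffMap_coeff]
  exact (y.coeff n).2

variable {D}

theorem Tc_mem_range (hK : CoeffIn D K) (z : FKg F₀ K) :
    D.Tc (baseChangeHom F₀ K z) ∈ (coeffMap (algebraMap K Qbar)).range := by
  rw [mem_range_coeffMap_iff]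
  intro n
  rw [CuspDatum.Tc_coeff]
  exact ⟨⟨_, hK z _⟩, rfl⟩

/-! ### The compressed expansion over `K` -/

/-- **The compressed cusp expansion over `K`**: `TK hK : K·F₀ →+* K((s))`. -/
def TK (hK : CoeffIn D K) : FKg F₀ K →+* LaurentSeries K :=
  ((cEquiv K).symm : _ →+* LaurentSeries K).comp
    (((D.Tc).comp (baseChangeHom F₀ K)).codRestrict (coeffMap (algebraMap K Qbar)).range
      (Tc_mem_range hK))

variable (hK : CoeffIn D K)

theorem coeffMap_TK (z : FKg F₀ K) :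
    coeffMap (algebraMap K Qbar) (TK hK z) = D.Tc (baseChangeHom F₀ K z) := by
  have h : (cEquiv K) (TK hK z) =
      (((D.Tc).comp (baseChangeHom F₀ K)).codRestrict (coeffMap (algebraMap K Qbar)).range
        (Tc_mem_range hK)) z := by
    rw [TK, RingHom.comp_apply]
    exact (cEquiv K).apply_symm_apply _
  exact congrArg Subtype.val h

theorem TK_coeff (z : FKg F₀ K) (n : ℤ) :
    algebraMap K Qbar ((TK hK z).coeff n) =
      (D.T (baseChangeHom F₀ K z)).coeff ((D.r : ℤ) * n) := by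
  rw [← coeffMap_coeff, coeffMap_TK, CuspDatum.Tc_coeff]

theorem TK_const (c : K) : TK hK (algebraMap K (FKg F₀ K) c) = HahnSeries.C c := by
  apply coeffMap_injective' (algebraMap K Qbar)
  rw [coeffMap_TK, baseChangeHom_algebraMap, CuspDatum.Tc_const, coeffMap_C]
  rfl

/-- **Exact order**: `ord (TK z) = ord_v (emb z)`. -/
theorem order_TK (z : FKg F₀ K) (hz : z ≠ 0) :
    (TK hK z).order = D.v.ord (baseChangeHom F₀ K z) := by
  rw [← order_coeffMap (algebraMap K Qbar), coeffMap_TK,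
    D.order_Tc _ ((map_ne_zero_iff _ (baseChangeHom_injective F₀ K)).mpr hz)]

theorem mem_place_iff_TK (z : FKg F₀ K) (hz : z ≠ 0) :
    baseChangeHom F₀ K z ∈ D.v.toValuationSubring ↔ 0 ≤ (TK hK z).order := by
  rw [order_TK hK z hz, FF.ffp_mem_iff_ord_nonneg]

/-- `coeffMap (qExpand r (TK z)) = D.T (emb z)`. -/
theorem coeffMap_qExpand_TK (z : FKg F₀ K) :
    coeffMap (algebraMap K Qbar) (qExpand K D.r (TK hK z)) = D.T (baseChangeHom F₀ K z) := by
  rw [ModularCurve.coeffMap_qExpand, coeffMap_TK, CuspDatum.qExpand_Tc]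

/-! ### Integrality: the expansions over `A_K = A ∩ K` -/

section Integral

variable (A : ValuationSubring Qbar)

/-- The coefficients of `TK` at a generator lie in `A_K`. -/
theorem TK_gen_coeff_mem (hG : GenCoeff D S Z) (hZA : Z ≤ A.toSubring) (s : F₀)
    (hs : (s : LaurentSeries ℚ) ∈ S) (n : ℤ) : (TK hK (genK F₀ K s)).coeff n ∈ AK A K := by
  rw [AK, ValuationSubring.mem_comap, TK_coeff, baseChangeHom_genK]
  exact hZA (hG.coeff_mem s hs _)

variable [IsPrincipalIdealRing ↥(AK A K)]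

/-- `TK` maps `K·F₀` into `Frac (A_K⟦s⟧)`. -/
theorem TK_mem_psFrac (hG : GenCoeff D S Z) (hZA : Z ≤ A.toSubring) (z : FKg F₀ K) :
    TK hK z ∈ psFrac ↥(AK A K) ↥K := by
  refine map_mem_of_gen S hG.adjoin_eq (TK hK) _ ?_ ?_ z
  · intro c
    rw [TK_const]
    exact C_mem_psFrac c
  · intro s hs
    apply mem_psFrac_of_coeff
    intro n
    exact ⟨⟨_, TK_gen_coeff_mem hK A hG hZA s hs n⟩, rfl⟩

/-- **(C1).**  If `TK t ∈ A_K⟦s⟧` then `TK b ∈ A_K⟦s⟧` for every `b` integral over `A_K[t]`. -/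
theorem TK_mem_psRange_of_isIntegral (hG : GenCoeff D S Z) (hZA : Z ≤ A.toSubring)
    (t : FKg F₀ K) (ht : TK hK t ∈ psRange ↥(AK A K) ↥K)
    (b : FKg F₀ K) (hb : IsIntegral (Algebra.adjoin ↥(AK A K) {t}) b) :
    TK hK b ∈ psRange ↥(AK A K) ↥K := by
  refine map_mem_psRange_of_isIntegralElem (TK hK) (TK_mem_psFrac hK A hG hZA)
    (algebraMap (Algebra.adjoin ↥(AK A K) {t}) (FKg F₀ K)) ?_ hb
  rintro ⟨r, hr⟩
  show TK hK r ∈ psRange ↥(AK A K) ↥K
  induction hr using Algebra.adjoin_induction with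
  | mem x hx =>
    rw [Set.mem_singleton_iff] at hx
    rw [hx]; exact ht
  | algebraMap a =>
    have h1 : algebraMap ↥(AK A K) ↥(FKg F₀ K) a = algebraMap K (FKg F₀ K) (a : K) := rfl
    rw [h1, TK_const]
    exact C_algebraMap_mem_psRange a
  | add x y _ _ h1 h2 => rw [map_add]; exact add_mem h1 h2
  | mul x y _ _ h1 h2 => rw [map_mul]; exact mul_mem h1 h2

/-- The power series over `A_K` attached to an element integral over `A_K[t]`. -/
theorem exists_ps_of_isIntegral (hG : GenCoeff D S Z) (hZA : Z ≤ A.toSubring)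
    (t : FKg F₀ K) (ht : TK hK t ∈ psRange ↥(AK A K) ↥K)
    (b : FKg F₀ K) (hb : IsIntegral (Algebra.adjoin ↥(AK A K) {t}) b) :
    ∃! p : PowerSeries ↥(AK A K), toLS ↥(AK A K) ↥K p = TK hK b := by
  obtain ⟨p, hp⟩ := TK_mem_psRange_of_isIntegral hK A hG hZA t ht b hb
  exact ⟨p, hp, fun q hq => toLS_injective _ _ (hq.trans hp.symm)⟩

/-- **`ιPS`**: for a ring `B` mapping to `K·F₀` with image integral over `A_K[t]`, the cusp
expansion as a ring hom `B →+* A_K⟦s⟧`. -/
def iotaPS (hG : GenCoeff D S Z) (hZA : Z ≤ A.toSubring)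
    (t : FKg F₀ K) (ht : TK hK t ∈ psRange ↥(AK A K) ↥K) {B : Type*} [CommRing B]
    (incl : B →+* FKg F₀ K) (hB : ∀ b, IsIntegral (Algebra.adjoin ↥(AK A K) {t}) (incl b)) :
    B →+* PowerSeries ↥(AK A K) :=
  ((psEquiv (K := K) A).symm : _ →+* PowerSeries ↥(AK A K)).comp
    (((TK hK).comp incl).codRestrict (psRange ↥(AK A K) ↥K)
      (fun b => TK_mem_psRange_of_isIntegral hK A hG hZA t ht (incl b) (hB b)))

theorem toLS_iotaPS (hG : GenCoeff D S Z) (hZA : Z ≤ A.toSubring)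
    (t : FKg F₀ K) (ht : TK hK t ∈ psRange ↥(AK A K) ↥K) {B : Type*} [CommRing B]
    (incl : B →+* FKg F₀ K) (hB : ∀ b, IsIntegral (Algebra.adjoin ↥(AK A K) {t}) (incl b))
    (b : B) :
    toLS ↥(AK A K) ↥K (iotaPS hK A hG hZA t ht incl hB b) = TK hK (incl b) := by
  have h : (psEquiv (K := K) A) (iotaPS hK A hG hZA t ht incl hB b) =
      (((TK hK).comp incl).codRestrict (psRange ↥(AK A K) ↥K)
        (fun b => TK_mem_psRange_of_isIntegral hK A hG hZA t ht (incl b) (hB b))) b := by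
    rw [iotaPS, RingHom.comp_apply]
    exact (psEquiv (K := K) A).apply_symm_apply _
  exact congrArg Subtype.val h

end Integral

/-! ### The shapes (F1), (F2), (F3) -/

section Family

open Fermat.Agent.RED.CUSP

variable (A : ValuationSubring Qbar)

/-- **(F1)** the shape of `TK t` at a cusp with finite value `c̄`. -/
theorem shape_some (n : ℕ) (hn : n ≠ 0) (hnA : ((n : Qbar))⁻¹ ∈ A) (t : FKg F₀ K) (cbar : Qbar)
    (h : CuspShape n (D.T (baseChangeHom F₀ K t)) (some cbar)) :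
    ∃ (c : AK A K) (e₀ : ℕ) (u : PowerSeries ↥(AK A K)), 0 < e₀ ∧
      IsUnit (PowerSeries.constantCoeff u) ∧ algebraMap K Qbar (c : K) = cbar ∧
      TK hK t = HahnSeries.C (c : K) + toLS ↥(AK A K) ↥K (u * PowerSeries.X ^ e₀) := by
  rw [← coeffMap_qExpand_TK hK t] at h
  obtain ⟨c, a, u, ha, hu, hc, hE⟩ :=
    CuspShapeK6.cuspShape_some A K n hn hnA _ cbar h
  obtain ⟨hdvd, u', hu', -, hE'⟩ := CuspShapeK6.compress A K (TK hK t) D.r c a u hu hE
  refine ⟨c, a / D.r, u', ?_, hu', hc, hE'⟩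
  exact Nat.div_pos (Nat.le_of_dvd ha hdvd) D.r_pos

/-- **(F1)**, pole version: the shape of `(TK t)⁻¹` at a cusp where `t` has a pole. -/
theorem shape_none (n : ℕ) (hn : n ≠ 0) (hnA : ((n : Qbar))⁻¹ ∈ A) (t : FKg F₀ K)
    (h : CuspShape n (D.T (baseChangeHom F₀ K t)) none) :
    ∃ (e₀ : ℕ) (u : PowerSeries ↥(AK A K)), 0 < e₀ ∧
      IsUnit (PowerSeries.constantCoeff u) ∧
      TK hK t⁻¹ = toLS ↥(AK A K) ↥K (u * PowerSeries.X ^ e₀) := by
  rw [← coeffMap_qExpand_TK hK t] at h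
  obtain ⟨a, u, ha, hu, hE⟩ := CuspShapeK6.cuspShape_none A K n hn hnA _ h
  obtain ⟨hdvd, u', hu', -, hE'⟩ :=
    CuspShapeK6.compress_none A K (TK hK t) D.r a u hu hE
  refine ⟨a / D.r, u', ?_, hu', ?_⟩
  · exact Nat.div_pos (Nat.le_of_dvd ha hdvd) D.r_pos
  · rw [map_inv₀]; exact hE'

/-- **(F2)** `ord (TK (t - c)) = e₀`. -/
theorem order_sub_of_shape (t : FKg F₀ K) (c : AK A K) (e₀ : ℕ) (u : PowerSeries ↥(AK A K))
    (hu : IsUnit (PowerSeries.constantCoeff u))
    (ht : TK hK t = HahnSeries.C (c : K) + toLS ↥(AK A K) ↥K (u * PowerSeries.X ^ e₀)) :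
    (TK hK (t - algebraMap K (FKg F₀ K) (c : K))).order = e₀ := by
  rw [map_sub, TK_const, ht, add_sub_cancel_left, CuspFamilyK16.order_toLS_mul_X_pow A u hu]

/-- **(F2)**, on the `ℚ̄`-side: `ord_v (emb t - c̄) = e₀`. -/
theorem ord_place_of_shape (t : FKg F₀ K) (c : AK A K) (e₀ : ℕ) (he₀ : 0 < e₀)
    (u : PowerSeries ↥(AK A K)) (hu : IsUnit (PowerSeries.constantCoeff u))
    (ht : TK hK t = HahnSeries.C (c : K) + toLS ↥(AK A K) ↥K (u * PowerSeries.X ^ e₀)) :
    D.v.ord (baseChangeHom F₀ K (t - algebraMap K (FKg F₀ K) (c : K))) = e₀ := by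
  have h1 := order_sub_of_shape hK A t c e₀ u hu ht
  have hne : t - algebraMap K (FKg F₀ K) (c : K) ≠ 0 := by
    intro h0
    rw [h0, map_zero, HahnSeries.order_zero] at h1
    exact he₀.ne' (by exact_mod_cast h1.symm)
  rw [← order_TK hK _ hne, h1]

end Family

/-- **(EXT)**, membership form (generic twin of `PlaceExtend27.exists_place_above_mem`). -/
theorem exists_place_above_mem {x : FBg F₀} (hx : FF.IsGen Qbar x) (w : Place K (FKg F₀ K)) :
    ∃ (v : Place Qbar (FBg F₀)) (e : ℕ), 0 < e ∧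
      (∀ f : FKg F₀ K, v.ord (baseChangeHom F₀ K f) = (e : ℤ) * w.ord f) ∧
      ∀ f : FKg F₀ K, baseChangeHom F₀ K f ∈ v.toValuationSubring ↔ f ∈ w.toValuationSubring := by
  obtain ⟨v, e, he, hord⟩ := exists_place_above K hx w
  refine ⟨v, e, he, hord, fun f => ?_⟩
  rw [FF.ffp_mem_iff_ord_nonneg, FF.ffp_mem_iff_ord_nonneg, hord]
  have he' : (0 : ℤ) < (e : ℤ) := by exact_mod_cast he
  constructor
  · intro h
    by_contra hneg
    rw [not_le] at hneg
    have := mul_neg_of_pos_of_neg he' hneg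
    omega
  · intro h
    exact mul_nonneg he'.le h

/-- **(F3)** `hplaces` from the description of the fibre over `ℚ̄`, for a family of cusp data. -/
theorem hplaces_of_fibre {x : FBg F₀} (hx : FF.IsGen Qbar x) {ι : Type*} (Dι : ι → CuspDatum F₀)
    (hKι : ∀ i, CoeffIn (Dι i) K) (τ : FKg F₀ K) (Γ : Set ι)
    (hfib : ∀ v : Place Qbar (FBg F₀), 0 < v.ord (baseChangeHom F₀ K τ) →
      ∃ i ∈ Γ, v = (Dι i).v)
    (w : Place K (FKg F₀ K)) (hw : 0 < w.ord τ) :
    ∃ i ∈ Γ, ∀ z : FKg F₀ K, z ≠ 0 → 0 ≤ (TK (hKι i) z).order → z ∈ w.toValuationSubring := by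
  obtain ⟨v, e, he, hord, hmem⟩ := exists_place_above_mem hx w
  have hv : 0 < v.ord (baseChangeHom F₀ K τ) := by
    rw [hord]
    exact mul_pos (by exact_mod_cast he) hw
  obtain ⟨i, hi, rfl⟩ := hfib v hv
  refine ⟨i, hi, fun z hz h0 => ?_⟩
  rw [← hmem, mem_place_iff_TK (hKι i) z hz]
  exact h0

end Fermat.Agent.M48.CuspExactG2
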