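/-
M48 (P1), [RED1], chapter [CUSP1], file (G3) (helper4): **the fibres of the Hauptmodul `t` over the
cusp values, and tameness, GENERIC in the model field** `F₀ ≤ ℚ((q))`.

Twin of `RED/CUSP/CuspFibre14` (`exists_placeOf_of_zero`, `exists_placeOf_of_pole`) and
`RED/CUSP/CuspTame11` (`tame_some`, `tame_none`) for a FAMILY of helper2's abstract cusp data
`D : SL(2, ℤ) → CuspExactG2.CuspDatum F₀` (`placeOf M γ ↦ (D γ).v`, `(cuspData M).T γ ↦ (D γ).T`),
from the hypotheses bundled in `FibreHyp`: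

* `shape`      : (B5) `CuspShape n ((D γ).T tF) (cv γ)`;
* `cusp_surj`  : every place over `j = ∞` is some `(D γ).v`;
* `r_mul_ord`  : `r_γ · ord_{v_γ} j = -N`;
* `cuspPlaces` : a zero of `t - c`, `c` a finite cusp value, lies over `j = ∞` ([BASE1]);
* `unbranched` : (B6) at a place not over `j = ∞` some `t - c` is a uniformiser ([BASE1]);
* `tame`       : at every place `v` there is `k ≥ 1` dividing `ord_v j` with `ord_v (t - c) = k`
  whenever positive and `ord_v t = -k` whenever negative (from the base field where `t` is a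
  generator of degree one: `exists_tame`, via restriction of places `PlaceRestrict2`).

Exports: `ord_sub_pos_of_shape_some`, `ord_neg_of_shape_none`, `halg_of_isGen`, `exists_tame`,
`fib_zero`, `fib_pole`, `tame_some`, `tame_none`.

Imported by no statement.
-/
import Mathlib
import Fermat.Agent.M48.CuspExactG2
import Fermat.Agent.RED.CUSP.CuspFibre14
import Fermat.Agent.RED.CUSP.RankConcrete16
import Fermat.Agent.RED.LVL.PlaceRestrict2

set_option autoImplicit false
set_option linter.unusedSectionVars false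
set_option linter.style.longLine false

open HahnSeries AlgebraicCurve ModularCurve
open scoped MatrixGroups IntermediateField

noncomputable section

namespace Fermat.Agent.M48.CuspFibre4

open Fermat.Agent.X0 Fermat.Agent.X0.FF Fermat.Agent.RED.Interface4
open Fermat.Agent.M48.DescG0 Fermat.Agent.M48.CuspExactG2
open Fermat.Agent.RED.BASE.Interface12 Fermat.Agent.RED.BASE.FiniteAvoids14
open Fermat.Agent.RED.BASE.Unbranched14
open Fermat.Agent.RED.CUSP.CuspFibre14 (eq_of_ord_sub_pos)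

/-! ### One cusp datum: the shape decides the value at the place -/

section Shape

variable {F₀ : IntermediateField ℚ (LaurentSeries ℚ)} (D : CuspDatum F₀)

theorem ord_sub_pos_of_shape_some {m : ℕ} (t : FBg F₀) (c : Qbar)
    (hs : CuspShape m (D.T t) (some c)) :
    0 < D.v.ord (t - algebraMap Qbar (FBg F₀) c) := by
  obtain ⟨k, lam, V, hk, hlam, hV, -, -, hE⟩ := hs
  have hexp : D.T (t - algebraMap Qbar (FBg F₀) c) =
      HahnSeries.C lam * HahnSeries.single (k : ℤ) 1 * HahnSeries.ofPowerSeries ℤ Qbar V := by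
    rw [map_sub, D.map_const, hE]
    ring
  have hord : (D.T (t - algebraMap Qbar (FBg F₀) c)).order = (k : ℤ) := by
    rw [hexp, order_cuspTail k lam hlam.1 V hV]
  have hk' : (0 : ℤ) < k := by exact_mod_cast hk
  have hne : t - algebraMap Qbar (FBg F₀) c ≠ 0 := by
    intro h0
    rw [h0, map_zero, HahnSeries.order_zero] at hord
    omega
  have h := D.order_eq _ hne
  rw [hord] at h
  have hr : (0 : ℤ) < D.r := by exact_mod_cast D.r_pos
  by_contra hneg
  rw [not_lt] at hneg
  nlinarith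

theorem ord_neg_of_shape_none {m : ℕ} (t : FBg F₀) (hs : CuspShape m (D.T t) none) :
    D.v.ord t < 0 := by
  obtain ⟨k, lam, V, hk, hlam, hV, -, hE⟩ := hs
  have hE' : (D.T t)⁻¹ =
      HahnSeries.C lam * HahnSeries.single (k : ℤ) 1 * HahnSeries.ofPowerSeries ℤ Qbar V := hE
  have hord : ((D.T t)⁻¹).order = (k : ℤ) := by
    rw [hE', order_cuspTail k lam hlam.1 V hV]
  have hk' : (0 : ℤ) < k := by exact_mod_cast hk
  have hne : t ≠ 0 := by
    intro h0
    rw [h0, map_zero, inv_zero, HahnSeries.order_zero] at hord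
    omega
  have hTne : D.T t ≠ 0 := (map_ne_zero_iff _ (D.T).injective).mpr hne
  have hordT : (D.T t).order = -(k : ℤ) := by
    have h1 : (D.T t * (D.T t)⁻¹).order = 0 := by
      rw [mul_inv_cancel₀ hTne, HahnSeries.order_one]
    rw [HahnSeries.order_mul hTne (inv_ne_zero hTne), hord] at h1
    omega
  have h := D.order_eq _ hne
  rw [hordT] at h
  have hr : (0 : ℤ) < D.r := by exact_mod_cast D.r_pos
  by_contra hneg
  rw [not_lt] at hneg
  nlinarith

end Shape

/-! ### Tameness from a base field where `t` has degree one -/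

section Tame

variable {K E F : Type*} [Field K] [Field E] [Field F] [Algebra K E] [Algebra K F]

/-- `F` is algebraic over the image of `E` as soon as `E` contains a preimage of a generator. -/
theorem halg_of_isGen (φ : E →ₐ[K] F) {jE : E} {jF : F} (hj : φ jE = jF) (hgen : IsGen K jF)
    (x : F) : ∃ p : Polynomial E, p ≠ 0 ∧ Polynomial.eval₂ (φ : E →+* F) x p = 0 := by
  have hfin : FiniteDimensional K⟮jF⟯ F := hgen.finite
  have h1 : IsAlgebraic K⟮jF⟯ x := IsAlgebraic.of_finite _ x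
  have hle : K⟮jF⟯ ≤ φ.fieldRange := by
    rw [IntermediateField.adjoin_simple_le_iff]
    exact ⟨jE, hj⟩
  have h2 : IsAlgebraic φ.fieldRange x :=
    IsAlgebraic.tower_top_of_subalgebra_le (A := K⟮jF⟯.toSubalgebra)
      (B := φ.fieldRange.toSubalgebra) hle h1
  obtain ⟨p₁, hp₁, hp₁x⟩ := h2
  let e : E ≃ₐ[K] φ.fieldRange := AlgEquiv.ofInjectiveField φ
  refine ⟨p₁.map (e.symm : φ.fieldRange →+* E), ?_, ?_⟩
  · intro h0
    apply hp₁
    have := congrArg (Polynomial.map (e : E →+* φ.fieldRange)) h0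
    rw [Polynomial.map_map, Polynomial.map_zero] at this
    have hid : ((e : E →+* φ.fieldRange).comp (e.symm : φ.fieldRange →+* E)) =
        RingHom.id φ.fieldRange := by
      ext y
      simp
    rwa [hid, Polynomial.map_id] at this
  · rw [Polynomial.eval₂_map]
    have hcomp : ((φ : E →+* F).comp (e.symm : φ.fieldRange →+* E)) =
        algebraMap φ.fieldRange F := by
      ext y
      obtain ⟨z, rfl⟩ := e.surjective y
      simp only [RingHom.coe_comp, RingHom.coe_coe, Function.comp_apply, AlgEquiv.symm_apply_apply]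
      rfl
    rw [hcomp]
    exact hp₁x

variable [IsAlgClosed K] [CharZero K]

/-- **Tameness, generic**: if `t = φ tE` comes from a field `E` generated by `tE` (degree one), then
at every place `v` of `F` the order of `t - c` (when positive) and minus the order of `t` (when
negative) equal the ramification index `k` of `v` over `E`, which divides `ord_v (φ f)` for every
`f ∈ E`. -/
theorem exists_tame (φ : E →ₐ[K] F)
    (halg : ∀ x : F, ∃ p : Polynomial E, p ≠ 0 ∧ Polynomial.eval₂ (φ : E →+* F) x p = 0)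
    {tE : E} (hgen : IsGen K tE) (hdeg : Module.finrank K⟮tE⟯ E = 1) (v : Place K F) :
    ∃ k : ℕ, 0 < k ∧ (∀ f : E, (k : ℤ) ∣ v.ord (φ f)) ∧
      (∀ c : K, 0 < v.ord (φ tE - algebraMap K F c) → v.ord (φ tE - algebraMap K F c) = k) ∧
      (v.ord (φ tE) < 0 → v.ord (φ tE) = -(k : ℤ)) := by
  obtain ⟨w, k, hk, hord, -⟩ :=
    Fermat.Agent.RED.LVL.PlaceRestrict2.exists_restrict_of_isAlgebraic φ halg v
  have hk' : (0 : ℤ) < k := by exact_mod_cast hk
  refine ⟨k, hk, fun f => ⟨w.ord f, hord f⟩, fun c hpos => ?_, fun hneg => ?_⟩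
  · have h1 : φ tE - algebraMap K F c = φ (tE - algebraMap K E c) := by
      rw [map_sub, AlgHom.commutes]
    rw [h1, hord] at hpos ⊢
    have hw : 0 < w.ord (tE - algebraMap K E c) := by
      by_contra hcon
      rw [not_lt] at hcon
      nlinarith
    rw [ord_eq_one_of_finrank_eq_one hgen hdeg c w hw, mul_one]
  · rw [hord] at hneg ⊢
    have hw : w.ord tE < 0 := by
      by_contra hcon
      rw [not_lt] at hcon
      nlinarith
    have hdeg' : Module.finrank K⟮tE⁻¹⟯ E = 1 := by
      rw [Fermat.Agent.RED.CUSP.RankConcrete16.finrank_adjoin_inv, hdeg]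
    have hw' : 0 < w.ord (tE⁻¹ - algebraMap K E 0) := by
      rw [map_zero, sub_zero, Place.ord_inv]
      omega
    have h1 := ord_eq_one_of_finrank_eq_one hgen.inv hdeg' 0 w hw'
    rw [map_zero, sub_zero, Place.ord_inv] at h1
    have h2 : w.ord tE = -1 := by omega
    rw [h2]
    ring

end Tame

/-! ### The family: fibres over the cusp values -/

section Family

variable {F₀ : IntermediateField ℚ (LaurentSeries ℚ)}

/-- The hypotheses of the fibre analysis. -/
structure FibreHyp (N n : ℕ) (D : SL(2, ℤ) → CuspDatum F₀) (jF tF : FBg F₀)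
    (cv : SL(2, ℤ) → Option Qbar) : Prop where
  shape : ∀ γ : SL(2, ℤ), CuspShape n ((D γ).T tF) (cv γ)
  cusp_surj : ∀ v : Place Qbar (FBg F₀), v.ord jF < 0 → ∃ γ : SL(2, ℤ), (D γ).v = v
  r_mul_ord : ∀ γ : SL(2, ℤ), ((D γ).r : ℤ) * (D γ).v.ord jF = -(N : ℤ)
  cuspPlaces : ∀ (v : Place Qbar (FBg F₀)) (γ : SL(2, ℤ)) (c : Qbar), cv γ = some c →
    0 < v.ord (tF - algebraMap Qbar (FBg F₀) c) → v.ord jF < 0
  unbranched : ∀ v : Place Qbar (FBg F₀), 0 ≤ v.ord jF →
    ∃ c : Qbar, v.ord (tF - algebraMap Qbar (FBg F₀) c) = 1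
  tame : ∀ v : Place Qbar (FBg F₀), ∃ k : ℕ, 0 < k ∧ (k : ℤ) ∣ v.ord jF ∧
    (∀ c : Qbar, 0 < v.ord (tF - algebraMap Qbar (FBg F₀) c) →
      v.ord (tF - algebraMap Qbar (FBg F₀) c) = k) ∧
    (v.ord tF < 0 → v.ord tF = -(k : ℤ))

variable {N n : ℕ} {D : SL(2, ℤ) → CuspDatum F₀} {jF tF : FBg F₀}
  {cv : SL(2, ℤ) → Option Qbar} (H : FibreHyp N n D jF tF cv)

include H

/-- `t - c` integral at `v` forces `t` integral at `v`. -/
theorem ord_nonneg_of_ord_sub_pos (v : Place Qbar (FBg F₀)) (c : Qbar)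
    (hpos : 0 < v.ord (tF - algebraMap Qbar (FBg F₀) c)) : 0 ≤ v.ord tF := by
  have h1 : tF - algebraMap Qbar (FBg F₀) c ∈ v.toValuationSubring :=
    (ffp_mem_iff_ord_nonneg v).mpr (le_of_lt hpos)
  have h2 : algebraMap Qbar (FBg F₀) c ∈ v.toValuationSubring :=
    (ffp_mem_iff_ord_nonneg v).mpr (le_of_eq (ffp_ord_algebraMap v c).symm)
  have h3 := v.toValuationSubring.add_mem _ _ h1 h2
  rw [sub_add_cancel] at h3
  exact (ffp_mem_iff_ord_nonneg v).mp h3

/-- the cusp place of `γ` is a zero of `t - c` when `cv γ = some c`. -/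
theorem ord_sub_pos (γ : SL(2, ℤ)) (c : Qbar) (hγ : cv γ = some c) :
    0 < (D γ).v.ord (tF - algebraMap Qbar (FBg F₀) c) := by
  have hs := H.shape γ
  rw [hγ] at hs
  exact ord_sub_pos_of_shape_some (D γ) tF c hs

/-- the cusp place of `γ` is a pole of `t` when `cv γ = none`. -/
theorem ord_neg (γ : SL(2, ℤ)) (hγ : cv γ = none) : (D γ).v.ord tF < 0 := by
  have hs := H.shape γ
  rw [hγ] at hs
  exact ord_neg_of_shape_none (D γ) tF hs

/-- **zeros of `t - c`, `c` a finite cusp value, are the cusp places `(D γ).v`, `cv γ = some c`.** -/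
theorem fib_zero (v : Place Qbar (FBg F₀)) (γ₀ : SL(2, ℤ)) (c : Qbar) (hγ₀ : cv γ₀ = some c)
    (hpos : 0 < v.ord (tF - algebraMap Qbar (FBg F₀) c)) :
    ∃ γ : SL(2, ℤ), (D γ).v = v ∧ cv γ = some c := by
  obtain ⟨γ, hγ⟩ := H.cusp_surj v (H.cuspPlaces v γ₀ c hγ₀ hpos)
  refine ⟨γ, hγ, ?_⟩
  rcases hcg : cv γ with _ | c'
  · exfalso
    have hneg := ord_neg H γ hcg
    rw [hγ] at hneg
    have := ord_nonneg_of_ord_sub_pos H v c hpos
    omega
  · have hpos' := ord_sub_pos H γ c' hcg
    rw [hγ] at hpos'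
    rw [eq_of_ord_sub_pos v tF c c' hpos hpos']

/-- **poles of `t` are the cusp places `(D γ).v` with `cv γ = none`.** -/
theorem fib_pole (v : Place Qbar (FBg F₀)) (hneg : v.ord tF < 0) :
    ∃ γ : SL(2, ℤ), (D γ).v = v ∧ cv γ = none := by
  have hj : v.ord jF < 0 := by
    by_contra hj
    rw [not_lt] at hj
    obtain ⟨c, hc⟩ := H.unbranched v hj
    have := ord_nonneg_of_ord_sub_pos H v c (by omega)
    omega
  obtain ⟨γ, hγ⟩ := H.cusp_surj v hj
  refine ⟨γ, hγ, ?_⟩
  rcases hcg : cv γ with _ | c'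
  · rfl
  · exfalso
    have hpos := ord_sub_pos H γ c' hcg
    rw [hγ] at hpos
    have := ord_nonneg_of_ord_sub_pos H v c' hpos
    omega

/-- `-ord_{v_γ} j` divides `N`. -/
theorem natAbs_ord_jF_dvd (γ : SL(2, ℤ)) : ((D γ).v.ord jF).natAbs ∣ N := by
  have h := H.r_mul_ord γ
  have h1 : (D γ).v.ord jF ∣ (N : ℤ) := by
    refine ⟨-((D γ).r : ℤ), ?_⟩
    linarith
  have := Int.natAbs_dvd_natAbs.mpr h1
  rwa [Int.natAbs_natCast] at this

/-- **Tameness at a finite cusp value.** -/
theorem tame_some (γ : SL(2, ℤ)) (c : Qbar) (hγ : cv γ = some c) :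
    0 < (D γ).v.ord (tF - algebraMap Qbar (FBg F₀) c) ∧
      ((D γ).v.ord (tF - algebraMap Qbar (FBg F₀) c)).natAbs ∣ N := by
  have hpos := ord_sub_pos H γ c hγ
  refine ⟨hpos, ?_⟩
  obtain ⟨k, hk, hkj, hzero, -⟩ := H.tame (D γ).v
  rw [hzero c hpos, Int.natAbs_natCast]
  have h1 : k ∣ ((D γ).v.ord jF).natAbs := by
    have := Int.natAbs_dvd_natAbs.mpr hkj
    rwa [Int.natAbs_natCast] at this
  exact h1.trans (natAbs_ord_jF_dvd H γ)

/-- **Tameness at a pole.** -/
theorem tame_none (γ : SL(2, ℤ)) (hγ : cv γ = none) :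
    (D γ).v.ord tF < 0 ∧ ((D γ).v.ord tF).natAbs ∣ N := by
  have hneg := ord_neg H γ hγ
  refine ⟨hneg, ?_⟩
  obtain ⟨k, hk, hkj, -, hpole⟩ := H.tame (D γ).v
  rw [hpole hneg, Int.natAbs_neg, Int.natAbs_natCast]
  have h1 : k ∣ ((D γ).v.ord jF).natAbs := by
    have := Int.natAbs_dvd_natAbs.mpr hkj
    rwa [Int.natAbs_natCast] at this
  exact h1.trans (natAbs_ord_jF_dvd H γ)

end Family

end Fermat.Agent.M48.CuspFibre4
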