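/-
M48 (P1), [RED1], chapter [CUSP1], file (G3), instance (helper4): **the fibre analysis of `t` over the
cusp values for the model of `Γ₁(M) ∩ Γ₀(M L)`**: the hypotheses `CuspFibre4.FibreHyp` for the family
`DML M L hM γ := cuspDatumML M L hM γ⁻¹` (so that `(DML γ).T = T1ML M L hM γ`), from (MF2)
(`CuspML4`), helper7's [BASE1] (`Base1Iface7`) and the restriction of places to the base field
`Fbar n = ℚbar(t)`; hence `fib_zero`, `fib_pole`, `tame_some`, `tame_none` for the new model.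

Imported by no statement.
-/
import Mathlib
import Fermat.Agent.M48.CuspFibre4
import Fermat.Agent.M48.CuspML4
import Fermat.Agent.M48.Base1Iface7
import Fermat.Agent.RED.CUSP.CuspTame11

set_option autoImplicit false
set_option linter.unusedSectionVars false
set_option linter.style.longLine false

open HahnSeries AlgebraicCurve ModularCurve
open scoped MatrixGroups IntermediateField

noncomputable section

namespace Fermat.Agent.M48.CuspFibreML4

open Fermat.Agent.X0 Fermat.Agent.X0.FF Fermat.Agent.RED.Interface4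
open Fermat.Agent.M48.DictIface4 Fermat.Agent.M48.DescG0 Fermat.Agent.M48.CuspExactG2
open Fermat.Agent.M48.Red1Iface4 Fermat.Agent.M48.CuspML4 Fermat.Agent.M48.CuspFibre4
open Fermat.Agent.RED.BASE.Interface12 Fermat.Agent.RED.BASE.Hauptmodul12
open Fermat.Agent.RED.BASE.UnbranchedMain14

variable (M L : ℕ) [NeZero M] [NeZero L] (hM : 2 ≤ M)

/-- The family of cusp data indexed so that `(DML γ).T = T1ML M L hM γ` (the cusp `γ ∞`). -/
def DML (γ : SL(2, ℤ)) : CuspDatum (fieldG10 M L) := cuspDatumML M L hM γ⁻¹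

theorem DML_T (γ : SL(2, ℤ)) : (DML M L hM γ).T = T1ML M L hM γ := by
  rw [DML, cuspDatumML_T, inv_inv]

theorem DML_v (γ : SL(2, ℤ)) : (DML M L hM γ).v = placeML M L hM γ⁻¹ := rfl

variable {n e : ℕ} [NeZero n]

/-- `Fbar n → F1b M L`. -/
def baseIncl (hnML : n ∣ M * L) : FF n →ₐ[Kbar] F1b M L :=
  (inclOld M L).comp (IntermediateField.inclusion (fbar_mono hnML))

theorem baseIncl_tF (hnML : n ∣ M * L) (h₀ : TMem n e n) (h : TMem1 n e M L) :
    baseIncl M L hnML (tF n h₀) = tF1 M L h := rfl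

theorem baseIncl_jF (hnML : n ∣ M * L) : baseIncl M L hnML (jF n) = jF1 M L := by
  apply Subtype.ext
  show ((jF n : FF n) : LaurentSeries Kbar) = _
  rw [coe_jF, coe_jF1]
  rfl

/-- **The hypotheses of the fibre analysis hold for the new model.** -/
theorem fibreHyp (hb : BaseHyp n e) (hM4 : 4 ≤ M) (hnML : n ∣ M * L)
    {cv : SL(2, ℤ) → Option Kbar} (hexp : CuspExp n e (M * L) cv) (h : TMem1 n e M L) :
    FibreHyp (M * L) n (DML M L hM) (jF1 M L) (tF1 M L h) cv where
  shape := fun γ => by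
    rw [DML_T]
    exact cuspShape_T1ML' M L hM hexp h γ
  cusp_surj := fun v hv => by
    obtain ⟨g, rfl⟩ := exists_placeML_of_ord_neg M L hM v hv
    exact ⟨g⁻¹, by rw [DML_v, inv_inv]⟩
  r_mul_ord := fun γ => cuspDatumML_r_mul_ord_jF1 M L hM γ⁻¹
  cuspPlaces := by
    obtain ⟨h', H⟩ := Base1Iface7.cuspPlaces1 M L hM4 hb hnML cv hexp
    exact H
  unbranched := by
    obtain ⟨h', H⟩ := Base1Iface7.unbranched1 M L hM4 hb hnML
    exact H
  tame := fun v => by
    obtain ⟨h₀, htop⟩ := tGenBase' hb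
    obtain ⟨hgen, hdeg⟩ := isGen_of_adjoin_eq_top (transcendental_jF n) htop
    have hjgen : IsGen Kbar (jF1 M L) := by
      rw [CuspML4.jF1_eq_jK]
      exact G10Degree2.isGen_jK M L hM Kbar
    obtain ⟨k, hk, hdiv, hzero, hpole⟩ := exists_tame (baseIncl M L hnML)
      (halg_of_isGen (baseIncl M L hnML) (baseIncl_jF M L hnML) hjgen) hgen hdeg v
    refine ⟨k, hk, ?_, ?_, ?_⟩
    · have := hdiv (jF n)
      rwa [baseIncl_jF] at this
    · intro c hpos
      exact hzero c hpos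
    · intro hneg
      exact hpole hneg

variable (hb : BaseHyp n e) (hM4 : 4 ≤ M) (hnML : n ∣ M * L)
  {cv : SL(2, ℤ) → Option Kbar} (hexp : CuspExp n e (M * L) cv) (h : TMem1 n e M L)

include hb hM4 hnML hexp

/-- zeros of `t - c`, `c` a finite cusp value, are cusp places with value `c`. -/
theorem fib_zero (v : Place Kbar (F1b M L)) (γ₀ : SL(2, ℤ)) (c : Kbar) (hγ₀ : cv γ₀ = some c)
    (hpos : 0 < v.ord (tF1 M L h - algebraMap Kbar (F1b M L) c)) :
    ∃ γ : SL(2, ℤ), (DML M L hM γ).v = v ∧ cv γ = some c :=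
  CuspFibre4.fib_zero (fibreHyp M L hM hb hM4 hnML hexp h) v γ₀ c hγ₀ hpos

/-- poles of `t` are cusp places with `cv γ = none`. -/
theorem fib_pole (v : Place Kbar (F1b M L)) (hneg : v.ord (tF1 M L h) < 0) :
    ∃ γ : SL(2, ℤ), (DML M L hM γ).v = v ∧ cv γ = none :=
  CuspFibre4.fib_pole (fibreHyp M L hM hb hM4 hnML hexp h) v hneg

theorem tame_some (γ : SL(2, ℤ)) (c : Kbar) (hγ : cv γ = some c) :
    0 < (DML M L hM γ).v.ord (tF1 M L h - algebraMap Kbar (F1b M L) c) ∧
      ((DML M L hM γ).v.ord (tF1 M L h - algebraMap Kbar (F1b M L) c)).natAbs ∣ M * L :=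
  CuspFibre4.tame_some (fibreHyp M L hM hb hM4 hnML hexp h) γ c hγ

theorem tame_none (γ : SL(2, ℤ)) (hγ : cv γ = none) :
    (DML M L hM γ).v.ord (tF1 M L h) < 0 ∧ ((DML M L hM γ).v.ord (tF1 M L h)).natAbs ∣ M * L :=
  CuspFibre4.tame_none (fibreHyp M L hM hb hM4 hnML hexp h) γ hγ

end Fermat.Agent.M48.CuspFibreML4
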