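/-
M48 (P1), [RED1], (MF2d) (helper4): **generator integrality of the cusp expansions of the
`Γ₁(M)`-model** (`L = 1`, ruling R6).

From helper6's explicit expansions (`EisRat6.rel_gExp`, `coeff_gExp_mem`) and the bridge
`CuspML4.T1ML_gF1_eq_of_isQExp`:

* `T1ML_gF1 : T1ML M 1 hM γ (g_{M,a}) = EisRat6.gExp M ζ_M a γ`;
* `Zc M ⊂ ℚbar` : the subring generated by `ζ_M` and `1 / M` (contains all `(1 - ζ^b)⁻¹`, `0 < b < M`:
  `one_sub_zetaK_pow_inv_mem`), `Zc_le_A` (`⊂ A` for `A` over `ℓ ∤ M`), `Zc_le_K` (`⊂ K` if `ζ_M ∈ K`);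
* `coeff_T1ML_gF1_mem`, `coeff_T1ML_jdF1_mem'`;
* **`genCoeff_ML1 g : CuspExactG2.GenCoeff (cuspDatumML M 1 hM g)
  (divisorExpansions (M * 1) ∪ gExpansions M 1) (Zc M)`** = helper2's integrality input, for every cusp.

Imported by no statement.
-/
import Mathlib
import Fermat.Agent.M48.CuspML4
import Fermat.Agent.M48.EisRat6
import Fermat.Agent.RED.NumInst4

set_option autoImplicit false
set_option linter.unusedSectionVars false
set_option linter.style.longLine false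

open AlgebraicCurve ModularCurve UpperHalfPlane HahnSeries
open scoped MatrixGroups

noncomputable section

namespace Fermat.Agent.M48.CuspGen4

open Fermat.Agent.X0 Fermat.Agent.M48.DictIface4 Fermat.Agent.M48.CuspML4
  Fermat.Agent.M48.Red1Iface4 Fermat.Agent.M48.G10Model4 Fermat.Agent.X0.Analytic

local notation "Qb" => AlgebraicClosure ℚ

theorem zetaK_congr {N N' : ℕ} [NeZero N] [NeZero N'] (h : N = N') : zetaK N = zetaK N' := by
  subst h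
  rfl

variable (M : ℕ) [NeZero M] (hM : 2 ≤ M)

theorem zetaK_mul_one : zetaK (M * 1) = zetaK M := zetaK_congr (Nat.mul_one M)

theorem iotaK_zetaK_eq_zetaC : iotaK (zetaK M) = Fermat.Agent.X0.QExpAffine.zetaC M :=
  Fermat.Agent.X0.iotaK_zetaK M

include hM in
theorem unit_ne_zero (a : (ZMod M)ˣ) : (a : ZMod M) ≠ 0 := by
  have : Fact (1 < M) := ⟨hM⟩
  exact a.ne_zero

/-- **The expansion of `g_{M,a}` at the cusp `γ ∞` is helper6's explicit series.** -/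
theorem T1ML_gF1 (γ : SL(2, ℤ)) (a : (ZMod M)ˣ) :
    T1ML M 1 hM γ (gF1 M 1 a 1 (one_dvd 1)) = EisRat6.gExp M (zetaK M) (a : ZMod M) γ := by
  obtain ⟨m, P, hP, hPe⟩ := EisRat6.rel_gExp (ι := iotaK) M (ζ := zetaK M)
    (iotaK_zetaK_eq_zetaC M) (unit_ne_zero M hM a) γ
  obtain ⟨P', hx, hP'⟩ := exists_laurentOf_of_toC
    (x := EisRat6.gExp M (zetaK M) (a : ZMod M) γ) (m := m) (Q := P) hPe.symm
  rw [hx]
  apply T1ML_gF1_eq_of_isQExp M 1 hM γ a 1 (one_dvd 1)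
  rw [hP']
  have h1 : (fun z => gFun M (a : ZMod M) (scaleH 1 z)) = gFun M (a : ZMod M) :=
    funext fun z => by rw [scaleH_one]
  rw [h1, Nat.mul_one]
  exact hP

/-! ### The coefficient ring `ℤ[ζ_M, 1/M]` -/

/-- `ℤ[ζ_M, 1/M] ⊂ ℚbar`. -/
def Zc : Subring Qb := Subring.closure {zetaK M, ((M : Qb))⁻¹}

theorem zetaK_mem_Zc : zetaK M ∈ Zc M := Subring.subset_closure (Or.inl rfl)

theorem inv_natCast_mem_Zc : ((M : Qb))⁻¹ ∈ Zc M := Subring.subset_closure (Or.inr rfl)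

/-- `(1 - ζ^b)⁻¹ ∈ ℤ[ζ_M, 1/M]` for `0 < b < M` (`∏_{0<k<M} (1 - ζ^k) = M`). -/
theorem one_sub_zetaK_pow_inv_mem (b : ℕ) (hb0 : 0 < b) (hbM : b < M) :
    (1 - zetaK M ^ b)⁻¹ ∈ Zc M := by
  obtain ⟨n, rfl⟩ : ∃ n, M = n + 1 := ⟨M - 1, by omega⟩
  have hprim : IsPrimitiveRoot (zetaK (n + 1)) (n + 1) := isPrimitiveRoot_zetaK (n + 1)
  have hprod := hprim.prod_one_sub_pow_eq_order
  obtain ⟨k, rfl⟩ : ∃ k, b = k + 1 := ⟨b - 1, by omega⟩
  have hk : k ∈ Finset.range n := Finset.mem_range.mpr (by omega)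
  rw [← Finset.mul_prod_erase _ _ hk] at hprod
  have hM0 : ((n : Qb) + 1) ≠ 0 := by
    have : ((n + 1 : ℕ) : Qb) ≠ 0 := Nat.cast_ne_zero.mpr (NeZero.ne (n + 1))
    simpa using this
  have hne : (1 - zetaK (n + 1) ^ (k + 1)) ≠ 0 := by
    intro h0
    rw [h0, zero_mul] at hprod
    exact hM0 hprod.symm
  have hP0 : (∏ x ∈ (Finset.range n).erase k, (1 - zetaK (n + 1) ^ (x + 1))) ≠ 0 := by
    intro h0
    rw [h0, mul_zero] at hprod
    exact hM0 hprod.symm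
  have hinv : (1 - zetaK (n + 1) ^ (k + 1))⁻¹ =
      (∏ x ∈ (Finset.range n).erase k, (1 - zetaK (n + 1) ^ (x + 1))) * (((n + 1 : ℕ) : Qb))⁻¹ := by
    have hN : (((n + 1 : ℕ) : Qb)) = (1 - zetaK (n + 1) ^ (k + 1)) *
        ∏ x ∈ (Finset.range n).erase k, (1 - zetaK (n + 1) ^ (x + 1)) := by
      push_cast
      exact hprod.symm
    rw [hN, mul_inv, mul_comm (1 - zetaK (n + 1) ^ (k + 1))⁻¹, ← mul_assoc,
      mul_inv_cancel₀ hP0, one_mul]
  rw [hinv]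
  refine Subring.mul_mem _ (Subring.prod_mem _ fun x _ => ?_) (inv_natCast_mem_Zc (n + 1))
  exact Subring.sub_mem _ (Subring.one_mem _) (Subring.pow_mem _ (zetaK_mem_Zc (n + 1)) _)

theorem Zc_le_A {ℓ : ℕ} (hℓ : ℓ.Prime) {A : ValuationSubring Qb} (hA : A.LiesOverPrime ℓ)
    (hℓM : ¬ ℓ ∣ M) : Zc M ≤ A.toSubring := by
  rw [Zc, Subring.closure_le]
  rintro x (rfl | rfl)
  · exact Fermat.Agent.RED.CUSP.CuspEmbK16.zetaK_mem A
  · exact Fermat.Agent.RED.NumInst4.inv_natCast_mem hℓ hA M hℓM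

theorem Zc_le_K {K : IntermediateField ℚ Qb} (hζ : zetaK M ∈ K) : Zc M ≤ K.toSubring := by
  rw [Zc, Subring.closure_le]
  rintro x (rfl | rfl)
  · exact hζ
  · show ((M : Qb))⁻¹ ∈ K
    exact K.inv_mem (natCast_mem K M)

/-! ### Integrality of the expansions of the generators -/

theorem coeff_T1ML_gF1_mem (γ : SL(2, ℤ)) (a : (ZMod M)ˣ) (n : ℤ) :
    (T1ML M 1 hM γ (gF1 M 1 a 1 (one_dvd 1))).coeff n ∈ Zc M := by
  rw [T1ML_gF1]
  exact EisRat6.coeff_gExp_mem M (Zc M) (zetaK_mem_Zc M) (inv_natCast_mem_Zc M)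
    (one_sub_zetaK_pow_inv_mem M) _ γ n

theorem coeff_T1ML_jdF1_mem' (γ : SL(2, ℤ)) (d : ℕ) [NeZero d] (hd : d ∣ M * 1) (n : ℤ) :
    (T1ML M 1 hM γ (jdF1 M 1 d hd)).coeff n ∈ Zc M := by
  have h := coeff_T1ML_jdF1_mem M 1 hM γ d hd n
  refine (Subring.closure_le.mpr ?_) h
  rintro x rfl
  rw [zetaK_mul_one]
  exact zetaK_mem_Zc M

/-- **helper2's `GenCoeff`, unconditional, at `L = 1`**: the coefficients of the cusp expansions of
the generators `j(q^d)`, `g_{M,a}(q)` of `fieldG10 M 1` lie in `ℤ[ζ_M, 1/M]`. -/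
theorem genCoeff_ML1 (g : SL(2, ℤ)) :
    CuspExactG2.GenCoeff (cuspDatumML M 1 hM g) (divisorExpansions (M * 1) ∪ gExpansions M 1)
      (Zc M) := by
  refine genCoeff_of M 1 hM (Zc M) ?_ ?_ g
  · rw [zetaK_mul_one]
    exact zetaK_mem_Zc M
  · intro γ a e hne he n
    obtain rfl : e = 1 := Nat.dvd_one.mp he
    exact coeff_T1ML_gF1_mem M hM γ a n

end Fermat.Agent.M48.CuspGen4
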