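/-
M48 (P1), [RED1], chapter [CUSP1], file (G2a) (helper4): **the packaged family of cusp expansions over
a cusp value, GENERIC in the model field** `F₀ ≤ ℚ((q))`.

Twin of `RED/CUSP/CuspPackK16` (`cusp_family_some`, `cusp_family_none`) for a family
`D : SL(2, ℤ) → CuspExactG2.CuspDatum F₀` of helper2's abstract cusp data with

* `H  : CuspFibre4.FibreHyp N n D jF tF cv`  (shapes, fibres, tameness: (G3));
* `hG : ∀ γ, GenCoeff (D γ) S Z`, `Z ≤ A`, `Z ≤ K`  (generator integrality: (MF2d));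
* `hgen : IsGen ℚbar tF`.

Then the wrappers `hasCuspFamily_some/none` (twin of `CuspConcrete23` §Family) in the vocabulary of
`CuspIface23.HasCuspFamily`, with rank sum `[ℚbar·F₀ : ℚbar(t)]`.

Imported by no statement.
-/
import Mathlib
import Fermat.Agent.M48.CuspFibre4
import Fermat.Agent.RED.CUSP.CuspPackK16
import Fermat.Agent.RED.CUSP.CuspIface23

set_option autoImplicit false
set_option linter.unusedSectionVars false
set_option linter.unusedVariables false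
set_option linter.style.longLine false
set_option synthInstance.maxHeartbeats 400000
set_option maxHeartbeats 1000000

open HahnSeries AlgebraicCurve ModularCurve
open scoped MatrixGroups IntermediateField

noncomputable section

namespace Fermat.Agent.M48.CuspPack4

open Fermat.Agent.X0 Fermat.Agent.X0.FF Fermat.Agent.RED.Interface4
open Fermat.Agent.M48.DescG0 Fermat.Agent.M48.CuspExactG2 Fermat.Agent.M48.CuspFibre4
open Fermat.Agent.RED.BASE.Interface12
open Fermat.Agent.RED.CUSP.IntClosedPS16 Fermat.Agent.RED.CUSP.CuspFamilyK16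
open Fermat.Agent.RED.CUSP.CuspIface23
open Fermat.Agent.RED.CUSP (CuspFibre14.fintypeFibre CuspFibre14.fintypePoles
  CuspFibre14.sum_toNat_fibre CuspFibre14.sum_toNat_poles)

variable {F₀ : IntermediateField ℚ (LaurentSeries ℚ)} {K : IntermediateField ℚ Qbar}
variable (A : ValuationSubring Qbar)
variable {N n : ℕ} [NeZero N] {D : SL(2, ℤ) → CuspDatum F₀} {jF tF : FBg F₀}
  {cv : SL(2, ℤ) → Option Qbar} (H : FibreHyp N n D jF tF cv)
  {S : Set (LaurentSeries ℚ)} {Z : Subring Qbar} (hG : ∀ γ, GenCoeff (D γ) S Z)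
  (hZA : Z ≤ A.toSubring) (hZK : Z ≤ K.toSubring) (hgen : IsGen Qbar tF)

include hG hZK in
/-- the coefficients of all cusp expansions of `K·F₀` lie in `K`. -/
theorem coeffIn (γ : SL(2, ℤ)) : CoeffIn (D γ) K := coeffIn_of_genCoeff (D γ) (hG γ) hZK

include H hG hZA hZK hgen in
/-- **The packaged family over a finite cusp value.** -/
theorem cusp_family_some [IsPrincipalIdealRing ↥(AK A K)] (hn0 : n ≠ 0)
    (hnA : ((n : Qbar))⁻¹ ∈ A) (hNA : ((N : Qbar))⁻¹ ∈ A)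
    (t : FKg F₀ K) (ht : baseChangeHom F₀ K t = tF)
    (γ₀ : SL(2, ℤ)) (cbar : Qbar) (hγ₀ : cv γ₀ = some cbar) :
    ∃ c : ↥(AK A K), algebraMap K Qbar (c : K) = cbar ∧
    ∃ (C : Type) (_ : Fintype C) (_ : DecidableEq C) (γ : C → SL(2, ℤ)) (e' : C → ℕ)
      (u : C → PowerSeries ↥(AK A K)),
      (∀ κ, cv (γ κ) = some cbar) ∧
      (∀ κ, 0 < e' κ) ∧ (∀ κ, IsUnit ((e' κ : ℕ) : ↥(AK A K))) ∧
      (∀ κ, IsUnit (PowerSeries.constantCoeff (u κ))) ∧
      (∀ κ, TK (coeffIn hG hZK (γ κ)) t =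
        HahnSeries.C (c : K) + toLS ↥(AK A K) ↥K (u κ * PowerSeries.X ^ e' κ)) ∧
      (∀ κ, (TK (coeffIn hG hZK (γ κ)) (t - algebraMap K (FKg F₀ K) (c : K))).order = e' κ) ∧
      (∑ κ, e' κ = Module.finrank Qbar⟮tF⟯ (FBg F₀)) ∧
      (∀ w : Place K (FKg F₀ K), 0 < w.ord (t - algebraMap K (FKg F₀ K) (c : K)) →
        ∃ κ, ∀ z : FKg F₀ K, z ≠ 0 → 0 ≤ (TK (coeffIn hG hZK (γ κ)) z).order →
          z ∈ w.toValuationSubring) := by
  classical
  have hshape' : ∀ γ, CuspShape n ((D γ).T (baseChangeHom F₀ K t)) (cv γ) := by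
    intro γ
    rw [ht]
    exact H.shape γ
  -- the constant `c`
  have hs₀ := hshape' γ₀
  rw [hγ₀] at hs₀
  obtain ⟨c, -, -, -, -, hc, -⟩ := shape_some (coeffIn hG hZK γ₀) A n hn0 hnA t cbar hs₀
  refine ⟨c, hc, ?_⟩
  have hemb : baseChangeHom F₀ K (t - algebraMap K (FKg F₀ K) (c : K)) =
      tF - algebraMap Qbar (FBg F₀) cbar := by
    rw [map_sub, ht, baseChangeHom_algebraMap, ← hc]
    rfl
  -- the index type
  let C : Type := {v : Place Qbar (FBg F₀) // 0 < v.ord (tF - algebraMap Qbar (FBg F₀) cbar)}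
  let instF : Fintype C := CuspFibre14.fintypeFibre hgen cbar
  have hγex : ∀ κ : C, ∃ γ : SL(2, ℤ), (D γ).v = κ.1 ∧ cv γ = some cbar := fun κ =>
    fib_zero H κ.1 γ₀ cbar hγ₀ κ.2
  choose γ hγv hγc using hγex
  have hsh : ∀ κ : C, ∃ (e₀ : ℕ) (u : PowerSeries ↥(AK A K)), 0 < e₀ ∧
      IsUnit (PowerSeries.constantCoeff u) ∧
      TK (coeffIn hG hZK (γ κ)) t =
        HahnSeries.C (c : K) + toLS ↥(AK A K) ↥K (u * PowerSeries.X ^ e₀) := by
    intro κ
    have hs := hshape' (γ κ)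
    rw [hγc κ] at hs
    obtain ⟨c', e₀, u, he₀, hu, hc', hE⟩ :=
      shape_some (coeffIn hG hZK (γ κ)) A n hn0 hnA t cbar hs
    have hcc : c' = c := by
      apply Subtype.ext
      apply (algebraMap K Qbar).injective
      rw [hc', hc]
    rw [hcc] at hE
    exact ⟨e₀, u, he₀, hu, hE⟩
  choose e' u he' hu hE using hsh
  have hord : ∀ κ : C, (e' κ : ℤ) = κ.1.ord (tF - algebraMap Qbar (FBg F₀) cbar) := by
    intro κ
    have := ord_place_of_shape (coeffIn hG hZK (γ κ)) A t c (e' κ) (he' κ) (u κ) (hu κ) (hE κ)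
    rw [hemb, hγv κ] at this
    exact this.symm
  refine ⟨C, instF, Classical.decEq C, γ, e', u, hγc, he', ?_, hu, hE, ?_, ?_, ?_⟩
  · intro κ
    apply Fermat.Agent.RED.CUSP.CuspPackK16.isUnit_natCast_of_dvd (M := N) A hNA
    have htame := (tame_some H (γ κ) cbar (hγc κ)).2
    rw [hγv κ, ← hord κ, Int.natAbs_natCast] at htame
    exact htame
  · intro κ
    exact order_sub_of_shape (coeffIn hG hZK (γ κ)) A t c (e' κ) (u κ) (hu κ) (hE κ)
  · rw [← CuspFibre14.sum_toNat_fibre hgen cbar]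
    refine Finset.sum_congr rfl fun κ _ => ?_
    rw [← hord κ, Int.toNat_natCast]
  · intro w hw
    obtain ⟨γ', ⟨κ, rfl⟩, hκ⟩ := hplaces_of_fibre hgen D (coeffIn hG hZK)
      (t - algebraMap K (FKg F₀ K) (c : K))
      (Set.range γ) (fun v hv => by
        rw [hemb] at hv
        exact ⟨γ ⟨v, hv⟩, ⟨⟨v, hv⟩, rfl⟩, (hγv ⟨v, hv⟩).symm⟩) w hw
    exact ⟨κ, hκ⟩

include H hG hZA hZK hgen in
/-- **The packaged family over the poles of `t`**, for the coordinate `t⁻¹` and the value `0`. -/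
theorem cusp_family_none [IsPrincipalIdealRing ↥(AK A K)] (hn0 : n ≠ 0)
    (hnA : ((n : Qbar))⁻¹ ∈ A) (hNA : ((N : Qbar))⁻¹ ∈ A)
    (t : FKg F₀ K) (ht : baseChangeHom F₀ K t = tF) :
    ∃ (C : Type) (_ : Fintype C) (_ : DecidableEq C) (γ : C → SL(2, ℤ)) (e' : C → ℕ)
      (u : C → PowerSeries ↥(AK A K)),
      (∀ κ, cv (γ κ) = none) ∧
      (∀ κ, 0 < e' κ) ∧ (∀ κ, IsUnit ((e' κ : ℕ) : ↥(AK A K))) ∧
      (∀ κ, IsUnit (PowerSeries.constantCoeff (u κ))) ∧
      (∀ κ, TK (coeffIn hG hZK (γ κ)) t⁻¹ =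
        HahnSeries.C (((0 : ↥(AK A K)) : ↥(AK A K)) : K) +
          toLS ↥(AK A K) ↥K (u κ * PowerSeries.X ^ e' κ)) ∧
      (∀ κ, (TK (coeffIn hG hZK (γ κ))
        (t⁻¹ - algebraMap K (FKg F₀ K) (((0 : ↥(AK A K)) : ↥(AK A K)) : K))).order = e' κ) ∧
      (∑ κ, e' κ = Module.finrank Qbar⟮tF⟯ (FBg F₀)) ∧
      (∀ w : Place K (FKg F₀ K),
        0 < w.ord (t⁻¹ - algebraMap K (FKg F₀ K) (((0 : ↥(AK A K)) : ↥(AK A K)) : K)) →
        ∃ κ, ∀ z : FKg F₀ K, z ≠ 0 → 0 ≤ (TK (coeffIn hG hZK (γ κ)) z).order →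
          z ∈ w.toValuationSubring) := by
  classical
  have hshape' : ∀ γ, CuspShape n ((D γ).T (baseChangeHom F₀ K t)) (cv γ) := by
    intro γ
    rw [ht]
    exact H.shape γ
  have hzero : algebraMap K (FKg F₀ K) (((0 : ↥(AK A K)) : ↥(AK A K)) : K) = 0 := by
    rw [ZeroMemClass.coe_zero, map_zero]
  have hC0 : HahnSeries.C ((((0 : ↥(AK A K)) : ↥(AK A K)) : K)) = (0 : LaurentSeries K) := by
    rw [ZeroMemClass.coe_zero, map_zero]
  -- the index type
  let C : Type := {v : Place Qbar (FBg F₀) // v.ord tF < 0}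
  let instF : Fintype C := CuspFibre14.fintypePoles hgen
  have hγex : ∀ κ : C, ∃ γ : SL(2, ℤ), (D γ).v = κ.1 ∧ cv γ = none := fun κ =>
    fib_pole H κ.1 κ.2
  choose γ hγv hγc using hγex
  have hsh : ∀ κ : C, ∃ (e₀ : ℕ) (u : PowerSeries ↥(AK A K)), 0 < e₀ ∧
      IsUnit (PowerSeries.constantCoeff u) ∧
      TK (coeffIn hG hZK (γ κ)) t⁻¹ = toLS ↥(AK A K) ↥K (u * PowerSeries.X ^ e₀) := by
    intro κ
    have hs := hshape' (γ κ)
    rw [hγc κ] at hs
    exact shape_none (coeffIn hG hZK (γ κ)) A n hn0 hnA t hs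
  choose e' u he' hu hE using hsh
  have ht0 : t ≠ 0 := by
    intro h0
    have htr := hgen.transcendental
    rw [← ht, h0, map_zero] at htr
    exact htr (isAlgebraic_zero)
  have hordK : ∀ κ : C, (TK (coeffIn hG hZK (γ κ)) t⁻¹).order = e' κ := by
    intro κ
    rw [hE κ, order_toLS_mul_X_pow A (u κ) (hu κ)]
  have hord : ∀ κ : C, (e' κ : ℤ) = -κ.1.ord tF := by
    intro κ
    have h1 := hordK κ
    have hne : t⁻¹ ≠ 0 := inv_ne_zero ht0
    rw [order_TK (coeffIn hG hZK (γ κ)) _ hne, map_inv₀, ht, hγv κ, Place.ord_inv] at h1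
    exact h1.symm
  refine ⟨C, instF, Classical.decEq C, γ, e', u, hγc, he', ?_, hu, ?_, ?_, ?_, ?_⟩
  · intro κ
    apply Fermat.Agent.RED.CUSP.CuspPackK16.isUnit_natCast_of_dvd (M := N) A hNA
    have htame := (tame_none H (γ κ) (hγc κ)).2
    rw [hγv κ] at htame
    have : (κ.1.ord tF).natAbs = e' κ := by
      have := hord κ
      omega
    rwa [this] at htame
  · intro κ
    rw [hC0, zero_add]
    exact hE κ
  · intro κ
    rw [hzero, sub_zero]
    exact hordK κ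
  · rw [← CuspFibre14.sum_toNat_poles hgen]
    refine Finset.sum_congr rfl fun κ _ => ?_
    rw [← hord κ, Int.toNat_natCast]
  · intro w hw
    rw [hzero, sub_zero] at hw
    obtain ⟨γ', ⟨κ, rfl⟩, hκ⟩ := hplaces_of_fibre hgen D (coeffIn hG hZK) t⁻¹
      (Set.range γ) (fun v hv => by
        rw [map_inv₀, ht, Place.ord_inv] at hv
        have hv' : v.ord tF < 0 := by omega
        exact ⟨γ ⟨v, hv'⟩, ⟨⟨v, hv'⟩, rfl⟩, (hγv ⟨v, hv'⟩).symm⟩) w hw
    exact ⟨κ, hκ⟩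

/-! ### The wrappers in the vocabulary of `CuspIface23.HasCuspFamily` -/

include H hG hZA hZK hgen in
/-- the family over a finite cusp value, in the wrapper form. -/
theorem hasCuspFamily_some [IsPrincipalIdealRing ↥(AK A K)] (hn0 : n ≠ 0)
    (hnA : ((n : Qbar))⁻¹ ∈ A) (hNA : ((N : Qbar))⁻¹ ∈ A)
    (t : FKg F₀ K) (ht : baseChangeHom F₀ K t = tF) (c : ↥(AK A K)) (γ₀ : SL(2, ℤ))
    (hγ₀ : cv γ₀ = some (algebraMap K Qbar (c : K))) :
    HasCuspFamily (AK A K) (FKg F₀ K) t c (Module.finrank Qbar⟮tF⟯ (FBg F₀)) := by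
  obtain ⟨c', hc', C, hfin, hdec, γ, e', u, -, he, heA, hu, hshape, -, hsum, hpl⟩ :=
    cusp_family_some A H hG hZA hZK hgen hn0 hnA hNA t ht γ₀ _ hγ₀
  have hcc : c' = c := Subtype.ext ((algebraMap K Qbar).injective hc')
  subst hcc
  exact ⟨C, hfin, hdec, fun κ => TK (coeffIn hG hZK (γ κ)), e', u,
    fun κ a => TK_const (coeffIn hG hZK (γ κ)) (a : K),
    fun κ f => TK_mem_psFrac (coeffIn hG hZK (γ κ)) A (hG (γ κ)) hZA f, he, heA, hu, hshape, hpl,
    hsum⟩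

include H hG hZA hZK hgen in
/-- the family over the poles of `t`, for the coordinate `t⁻¹` and the value `0`. -/
theorem hasCuspFamily_none [IsPrincipalIdealRing ↥(AK A K)] (hn0 : n ≠ 0)
    (hnA : ((n : Qbar))⁻¹ ∈ A) (hNA : ((N : Qbar))⁻¹ ∈ A)
    (t : FKg F₀ K) (ht : baseChangeHom F₀ K t = tF) :
    HasCuspFamily (AK A K) (FKg F₀ K) t⁻¹ 0 (Module.finrank Qbar⟮tF⟯ (FBg F₀)) := by
  obtain ⟨C, hfin, hdec, γ, e', u, -, he, heA, hu, hshape, -, hsum, hpl⟩ :=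
    cusp_family_none A H hG hZA hZK hgen hn0 hnA hNA t ht
  exact ⟨C, hfin, hdec, fun κ => TK (coeffIn hG hZK (γ κ)), e', u,
    fun κ a => TK_const (coeffIn hG hZK (γ κ)) (a : K),
    fun κ f => TK_mem_psFrac (coeffIn hG hZK (γ κ)) A (hG (γ κ)) hZA f, he, heA, hu, hshape, hpl,
    hsum⟩

end Fermat.Agent.M48.CuspPack4
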