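/-
M48 (P1), [RED1], chapter [CUSP1], file (G2c) (helper4): **the two cusp-family statements for the
`Γ₁(M)`-model** (`StepOfFam4.CuspFamStmt`), from

* (G2a) `CuspPack4.hasCuspFamily_some/none` (generic packaged families),
* (G3)  `CuspFibreML4.fibreHyp` (fibres + tameness for the new model),
* (MF2d) `CuspGen4.genCoeff_ML1`, `Zc_le_A`, `Zc_le_K` (generator integrality, `ℤ[ζ_M, 1/M]`),
* helper7's `Base1Iface7.tIsGen1`, helper1's `PurOff1.bcK1_eq_tF1`, the old `ModelFinal4.jTarget`,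
* and the RANK BRIDGE `[K·F₀ : K(t)] = [ℚbar·F₀ : ℚbar(t)]` (hypothesis `RankBridge M`, literal of
  helper3's `RankML3.finrank_adjoin_tF1`).

Exports: `RankBridge`, `cuspFam_of_rank`, `cuspFamStmt_of_rank`.

Imported by no statement.
-/
import Mathlib
import Fermat.Agent.M48.CuspPack4
import Fermat.Agent.M48.CuspFibreML4
import Fermat.Agent.M48.CuspGen4
import Fermat.Agent.M48.StepOfFam4
import Fermat.Agent.M48.PurOff1
import Fermat.Agent.RED.ModelFinal4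
import Fermat.Agent.RED.CUSP.CuspConcrete23

set_option autoImplicit false
set_option linter.unusedSectionVars false
set_option linter.unusedVariables false
set_option linter.style.longLine false
set_option synthInstance.maxHeartbeats 400000
set_option maxHeartbeats 1000000

open HahnSeries AlgebraicCurve ModularCurve IntermediateField
open scoped MatrixGroups

noncomputable section

namespace Fermat.Agent.M48.CuspFam4

open Fermat.Agent.X0 Fermat.Agent.X0.FF Fermat.Agent.RED.Interface4 Fermat.Agent.RED.ModelTargets4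
open Fermat.Agent.M48.DictIface4 Fermat.Agent.M48.DescG0 Fermat.Agent.M48.CuspExactG2
open Fermat.Agent.M48.Red1Iface4 Fermat.Agent.M48.CuspML4 Fermat.Agent.M48.CuspFibre4
open Fermat.Agent.M48.CuspFibreML4 Fermat.Agent.M48.CuspGen4 Fermat.Agent.M48.CuspPack4
open Fermat.Agent.RED.BASE.Interface12 Fermat.Agent.RED.BASE.Hauptmodul12
open Fermat.Agent.RED.BASE.EtaQuot12 Fermat.Agent.RED.NumInst4
open Fermat.Agent.RED.DESC.NumberFieldDVR27 Fermat.Agent.RED.CUSP.CuspIface23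

/-- **The rank bridge** for the `Γ₁(M)`-model (literal of `RankML3.finrank_adjoin_tF1`). -/
def RankBridge (M : ℕ) [NeZero M] : Prop :=
  ∀ (K : IntermediateField ℚ Qbar) {n e : ℕ} [NeZero n] (h : TMem1 n e M 1) (t : ↥(F1K M 1 K)),
    (t : LaurentSeries K) = tq K n e → jqModC K ∈ IntermediateField.adjoin K {tq K n e} →
    Module.finrank ↥K⟮t⟯ ↥(F1K M 1 K) = Module.finrank Qbar⟮tF1 M 1 h⟯ ↥(F1b M 1)

variable {M : ℕ} [NeZero M]

theorem inv_natCast_mem_of_dvd {ℓ : ℕ} (hℓ : ℓ.Prime) {A : ValuationSubring Qbar}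
    (hA : A.LiesOverPrime ℓ) {N : ℕ} (hℓN : ¬ ℓ ∣ N) (d : ℕ) (hd : d ∣ N) :
    ((d : Qbar))⁻¹ ∈ A :=
  inv_natCast_mem hℓ hA d (fun h => hℓN (h.trans hd))

/-- **The two cusp-family statements** at `(M, 1)`, given the rank bridge. -/
theorem cuspFam_of_rank (hrank : RankBridge M) {n e : ℕ} [NeZero n] (hb : BaseHyp n e)
    (hM4 : 4 ≤ M) (hnM : n ∣ M * 1) {ℓ : ℕ} [Fact ℓ.Prime] (hℓM : ¬ ℓ ∣ M * 1)
    (A : ValuationSubring Qbar) (hA : A.LiesOverPrime ℓ) (cv : SL(2, ℤ) → Option Kbar)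
    (hexp : CuspExp n e (M * 1) cv) :
    (EventuallyT1 n e M 1 A fun K ϖ t => ∀ c ∈ cuspSet A K cv,
      HasCuspFamily (AK A K) (F1K M 1 K) t c (Module.finrank ↥K⟮t⟯ ↥(F1K M 1 K))) ∧
    (EventuallyT1 n e M 1 A fun K ϖ t =>
      HasCuspFamily (AK A K) (F1K M 1 K) t⁻¹ 0
        (Module.finrank ↥K⟮(t⁻¹ : ↥(F1K M 1 K))⟯ ↥(F1K M 1 K))) := by
  have hℓ : ℓ.Prime := Fact.out
  have hM : 2 ≤ M := by omega
  have hℓM' : ¬ ℓ ∣ M := by rwa [Nat.mul_one] at hℓM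
  obtain ⟨hmem, hgen⟩ := Base1Iface7.tIsGen1 M 1 hM (Base1T7.tMem1 (M := M) (L := 1) hb hnM)
  have H := fibreHyp M 1 hM hb hM4 hnM hexp hmem
  have hG : ∀ γ : SL(2, ℤ), GenCoeff (DML M 1 hM γ)
      (divisorExpansions (M * 1) ∪ gExpansions M 1) (Zc M) := fun γ => genCoeff_ML1 M hM γ⁻¹
  have hZA : Zc M ≤ A.toSubring := Zc_le_A M hℓ hA hℓM'
  have hn0 : n ≠ 0 := NeZero.ne n
  have hnA : ((n : Qbar))⁻¹ ∈ A := inv_natCast_mem_of_dvd hℓ hA hℓM n hnM
  have hNA : (((M * 1 : ℕ) : Qbar))⁻¹ ∈ A := inv_natCast_mem_of_dvd hℓ hA hℓM (M * 1) dvd_rfl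
  obtain ⟨K₂, hK₂, hJ⟩ := Fermat.Agent.RED.ModelFinal4.jTarget (n := n) (e := e) (tGenBase' hb)
  obtain ⟨K₃, hK₃, hζ₀⟩ := Fermat.Agent.RED.CUSP.CuspConcrete23.exists_zeta_field M
  constructor
  · refine ⟨K₂ ⊔ K₃, inferInstance, fun K hKfd hle ϖ hϖ t htq c hc => ?_⟩
    have hle2 : K₂ ≤ K := le_trans le_sup_left hle
    have hle3 : K₃ ≤ K := le_trans le_sup_right hle
    have hZK : Zc M ≤ K.toSubring := Zc_le_K M (hle3 hζ₀)
    have hdvr : IsDiscreteValuationRing ↥(AK A K) := isDiscreteValuationRing_AK A K hℓ.ne_zero hA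
    have ht : baseChangeHom (fieldG10 M 1) K t = tF1 M 1 hmem := PurOff1.bcK1_eq_tF1 M 1 K hmem t htq
    obtain ⟨γ₀, hγ₀⟩ := hc
    have hfam := hasCuspFamily_some A H hG hZA hZK hgen hn0 hnA hNA t ht c γ₀ hγ₀
    have hr : Module.finrank ↥K⟮t⟯ ↥(F1K M 1 K) = Module.finrank Qbar⟮tF1 M 1 hmem⟯ ↥(F1b M 1) :=
      hrank K hmem t htq (hJ K hKfd hle2)
    show HasCuspFamily (AK A K) (F1K M 1 K) t c (Module.finrank ↥K⟮t⟯ ↥(F1K M 1 K))
    rw [hr]
    exact hfam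
  · refine ⟨K₂ ⊔ K₃, inferInstance, fun K hKfd hle ϖ hϖ t htq => ?_⟩
    have hle2 : K₂ ≤ K := le_trans le_sup_left hle
    have hle3 : K₃ ≤ K := le_trans le_sup_right hle
    have hZK : Zc M ≤ K.toSubring := Zc_le_K M (hle3 hζ₀)
    have hdvr : IsDiscreteValuationRing ↥(AK A K) := isDiscreteValuationRing_AK A K hℓ.ne_zero hA
    have ht : baseChangeHom (fieldG10 M 1) K t = tF1 M 1 hmem := PurOff1.bcK1_eq_tF1 M 1 K hmem t htq
    have hfam := hasCuspFamily_none A H hG hZA hZK hgen hn0 hnA hNA t ht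
    have hr : Module.finrank ↥K⟮(t⁻¹ : ↥(F1K M 1 K))⟯ ↥(F1K M 1 K) =
        Module.finrank Qbar⟮tF1 M 1 hmem⟯ ↥(F1b M 1) := by
      rw [Fermat.Agent.RED.CUSP.RankConcrete16.finrank_adjoin_inv]
      exact hrank K hmem t htq (hJ K hKfd hle2)
    show HasCuspFamily (AK A K) (F1K M 1 K) t⁻¹ 0
      (Module.finrank ↥K⟮(t⁻¹ : ↥(F1K M 1 K))⟯ ↥(F1K M 1 K))
    rw [hr]
    exact hfam

/-- **`CuspFamStmt` from the rank bridge.** -/
theorem cuspFamStmt_of_rank (hrank : ∀ (M : ℕ) [NeZero M], 2 ≤ M → RankBridge M) :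
    StepOfFam4.CuspFamStmt :=
  fun n e _ hb M _ hM4 hnM ℓ _ hℓM A hA cv hexp _ =>
    cuspFam_of_rank (hrank M (by omega)) hb hM4 hnM hℓM A hA cv hexp

end Fermat.Agent.M48.CuspFam4
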