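/-
M48 (P1), [RED1], chapter [CUSP1] (helper2), file G3: **the fibres of the Hauptmodul over the cusp
values and the tameness of the cusp ramification, GENERIC in the model field** `F₀ ≤ ℚ((q))`.

Re-run of `RED/CUSP/CuspFibre14` and `CuspTame11` for a family `D : SL(2, ℤ) → CuspDatum F₀` of exact
cusp expansions of `FBg F₀ = ℚbar·F₀` (file `CuspExactG2`), elements `jB tB : FBg F₀` and a cusp
value function `cv`, subject to the facts bundled in `CuspModel N n jB tB D cv`:

* `isGen_t`    : `t` is a transcendental generator of `ℚbar·F₀ / ℚbar`;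
* `r_mul_ord`  : `r γ · ord_{v γ} j = -N` (the widths are exact and divide `N`);
* `cusp_surj`  : every place over `j = ∞` is a cusp place `(D γ).v`;
* `shape`      : (B5) `CuspShape n ((D γ).T t) (cv γ)`;
* `cuspPlaces` : a zero of `t - c`, `c` a finite cusp value, lies over `j = ∞`;
* `poles`      : a pole of `t` lies over `j = ∞` (from (B6), `poles_of_unbranched`).

Exports: `ord_of_cuspShape_some/none`, `exists_place_of_zero`, `exists_place_of_pole`,
`place_ord_sub_pos`, `place_ord_neg` (twins of `CuspFibre14`), and, given that the old field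
`Fbar_n = ℚbar(t)` of the Hauptmodul sits inside `ℚbar·F₀` (`OldBase`), `tame_some`, `tame_none`
(twins of `CuspTame11`): the orders of `t - c` / `t` at the cusp places divide `N`.

Imported by no statement.
-/
import Mathlib
import Fermat.Agent.RED.CUSP.CuspFibre14
import Fermat.Agent.RED.CUSP.CuspTame11
import Fermat.Agent.M48.CuspExactG2

set_option autoImplicit false
set_option linter.unusedSectionVars false

open HahnSeries AlgebraicCurve ModularCurve
open scoped MatrixGroups IntermediateField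

noncomputable section

namespace Fermat.Agent.M48.CuspFibreG2

open Fermat.Agent.X0 Fermat.Agent.X0.FF Fermat.Agent.RED.Interface4
open Fermat.Agent.M48.DescG0 Fermat.Agent.M48.CuspExactG2
open Fermat.Agent.RED.BASE.Interface12 Fermat.Agent.RED.BASE.Hauptmodul12
open Fermat.Agent.RED.BASE.FiniteAvoids14 Fermat.Agent.RED.BASE.Unbranched14
open Fermat.Agent.RED.BASE.UnbranchedMain14
open Fermat.Agent.RED.CUSP.CuspTame11 (cuspTail_ne_zero)
open Fermat.Agent.RED.CUSP.CuspFibre14 (eq_of_ord_sub_pos)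

variable {F₀ : IntermediateField ℚ (LaurentSeries ℚ)}

/-! ### Signs of the orders from the cusp shape -/

section Sign

variable (D : CuspDatum F₀)

/-- A finite cusp value `c` of `f`: `f - c` vanishes at the cusp place. -/
theorem ord_of_cuspShape_some {m : ℕ} (f : FBg F₀) (c : Qbar)
    (h : CuspShape m (D.T f) (some c)) :
    0 < D.v.ord (f - algebraMap Qbar (FBg F₀) c) := by
  obtain ⟨a, lam, V, ha, hlam, hV, -, -, hE⟩ := h
  have hT : D.T (f - algebraMap Qbar (FBg F₀) c) =
      HahnSeries.C lam * HahnSeries.single (a : ℤ) 1 * HahnSeries.ofPowerSeries ℤ Qbar V := by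
    rw [map_sub, D.map_const, hE]
    ring
  have hne : f - algebraMap Qbar (FBg F₀) c ≠ 0 := by
    intro h0
    rw [h0, map_zero] at hT
    exact cuspTail_ne_zero a hlam.1 V hV hT.symm
  have hord := D.order_eq _ hne
  rw [hT, order_cuspTail a lam hlam.1 V hV] at hord
  have hr : (0 : ℤ) < D.r := by exact_mod_cast D.r_pos
  have ha' : (0 : ℤ) < a := by exact_mod_cast ha
  by_contra hcon
  rw [not_lt] at hcon
  nlinarith

/-- A pole of `f` at the cusp. -/
theorem ord_of_cuspShape_none {m : ℕ} (f : FBg F₀) (h : CuspShape m (D.T f) none) :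
    D.v.ord f < 0 := by
  obtain ⟨a, lam, V, ha, hlam, hV, -, hE⟩ := h
  have hE' : (D.T f)⁻¹ =
      HahnSeries.C lam * HahnSeries.single (a : ℤ) 1 * HahnSeries.ofPowerSeries ℤ Qbar V := hE
  have hT : D.T f⁻¹ =
      HahnSeries.C lam * HahnSeries.single (a : ℤ) 1 * HahnSeries.ofPowerSeries ℤ Qbar V := by
    rw [map_inv₀, hE']
  have hne : f⁻¹ ≠ 0 := by
    intro h0
    rw [h0, map_zero] at hT
    exact cuspTail_ne_zero a hlam.1 V hV hT.symm
  have hord := D.order_eq _ hne
  rw [hT, order_cuspTail a lam hlam.1 V hV, Place.ord_inv] at hord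
  have hr : (0 : ℤ) < D.r := by exact_mod_cast D.r_pos
  have ha' : (0 : ℤ) < a := by exact_mod_cast ha
  by_contra hcon
  rw [not_lt] at hcon
  nlinarith

end Sign

/-! ### The model facts -/

/-- **The `ℚbar`-level facts about the cusps of the model used by the cusp theorem.** -/
structure CuspModel (N n : ℕ) (jB tB : FBg F₀) (D : SL(2, ℤ) → CuspDatum F₀)
    (cv : SL(2, ℤ) → Option Qbar) : Prop where
  isGen_t : FF.IsGen Qbar tB
  r_mul_ord : ∀ γ, ((D γ).r : ℤ) * (D γ).v.ord jB = -(N : ℤ)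
  cusp_surj : ∀ v : Place Qbar (FBg F₀), v.ord jB < 0 → ∃ γ, (D γ).v = v
  shape : ∀ γ, CuspShape n ((D γ).T tB) (cv γ)
  cuspPlaces : ∀ (v : Place Qbar (FBg F₀)) (γ : SL(2, ℤ)) (c : Qbar), cv γ = some c →
    0 < v.ord (tB - algebraMap Qbar (FBg F₀) c) → v.ord jB < 0
  poles : ∀ v : Place Qbar (FBg F₀), v.ord tB < 0 → v.ord jB < 0

/-- (B6) implies that the poles of `t` lie over `j = ∞`. -/
theorem poles_of_unbranched {jB tB : FBg F₀}
    (hU : ∀ v : Place Qbar (FBg F₀), 0 ≤ v.ord jB →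
      ∃ c : Qbar, v.ord (tB - algebraMap Qbar (FBg F₀) c) = 1)
    (v : Place Qbar (FBg F₀)) (hneg : v.ord tB < 0) : v.ord jB < 0 := by
  by_contra hj
  rw [not_lt] at hj
  obtain ⟨c, hc⟩ := hU v hj
  have h1 : tB - algebraMap Qbar (FBg F₀) c ∈ v.toValuationSubring :=
    (ffp_mem_iff_ord_nonneg v).mpr (by rw [hc]; exact zero_le_one)
  have h2 : algebraMap Qbar (FBg F₀) c ∈ v.toValuationSubring :=
    (ffp_mem_iff_ord_nonneg v).mpr (le_of_eq (ffp_ord_algebraMap v c).symm)
  have h3 := v.toValuationSubring.add_mem _ _ h1 h2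
  rw [sub_add_cancel] at h3
  have := (ffp_mem_iff_ord_nonneg v).mp h3
  omega

namespace CuspModel

variable {N n : ℕ} {jB tB : FBg F₀} {D : SL(2, ℤ) → CuspDatum F₀}
  {cv : SL(2, ℤ) → Option Qbar} (H : CuspModel N n jB tB D cv)

include H

/-- `(D γ).v` is a zero of `t - c` when `cv γ = some c`. -/
theorem place_ord_sub_pos (γ : SL(2, ℤ)) (c : Qbar) (hγ : cv γ = some c) :
    0 < (D γ).v.ord (tB - algebraMap Qbar (FBg F₀) c) := by
  have hs := H.shape γ
  rw [hγ] at hs
  exact ord_of_cuspShape_some (D γ) tB c hs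

/-- `(D γ).v` is a pole of `t` when `cv γ = none`. -/
theorem place_ord_neg (γ : SL(2, ℤ)) (hγ : cv γ = none) : (D γ).v.ord tB < 0 := by
  have hs := H.shape γ
  rw [hγ] at hs
  exact ord_of_cuspShape_none (D γ) tB hs

/-- zeros of `t - c`, `c` a finite cusp value, are the cusp places `(D γ).v`, `cv γ = some c`. -/
theorem exists_place_of_zero (v : Place Qbar (FBg F₀)) (γ₀ : SL(2, ℤ)) (c : Qbar)
    (hγ₀ : cv γ₀ = some c) (hpos : 0 < v.ord (tB - algebraMap Qbar (FBg F₀) c)) :
    ∃ γ : SL(2, ℤ), (D γ).v = v ∧ cv γ = some c := by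
  have hj := H.cuspPlaces v γ₀ c hγ₀ hpos
  obtain ⟨γ, hγ⟩ := H.cusp_surj v hj
  refine ⟨γ, hγ, ?_⟩
  rcases hcg : cv γ with _ | c'
  · exfalso
    have hneg := H.place_ord_neg γ hcg
    rw [hγ] at hneg
    have h1 : tB - algebraMap Qbar (FBg F₀) c ∈ v.toValuationSubring :=
      (ffp_mem_iff_ord_nonneg v).mpr (le_of_lt hpos)
    have h2 : algebraMap Qbar (FBg F₀) c ∈ v.toValuationSubring :=
      (ffp_mem_iff_ord_nonneg v).mpr (le_of_eq (ffp_ord_algebraMap v c).symm)
    have h3 := v.toValuationSubring.add_mem _ _ h1 h2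
    rw [sub_add_cancel] at h3
    have := (ffp_mem_iff_ord_nonneg v).mp h3
    omega
  · have hpos' := H.place_ord_sub_pos γ c' hcg
    rw [hγ] at hpos'
    rw [eq_of_ord_sub_pos v tB c c' hpos hpos']

/-- poles of `t` are the cusp places `(D γ).v` with `cv γ = none`. -/
theorem exists_place_of_pole (v : Place Qbar (FBg F₀)) (hneg : v.ord tB < 0) :
    ∃ γ : SL(2, ℤ), (D γ).v = v ∧ cv γ = none := by
  have hj := H.poles v hneg
  obtain ⟨γ, hγ⟩ := H.cusp_surj v hj
  refine ⟨γ, hγ, ?_⟩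
  rcases hcg : cv γ with _ | c'
  · rfl
  · exfalso
    have hpos := H.place_ord_sub_pos γ c' hcg
    rw [hγ] at hpos
    have h1 : tB - algebraMap Qbar (FBg F₀) c' ∈ v.toValuationSubring :=
      (ffp_mem_iff_ord_nonneg v).mpr (le_of_lt hpos)
    have h2 : algebraMap Qbar (FBg F₀) c' ∈ v.toValuationSubring :=
      (ffp_mem_iff_ord_nonneg v).mpr (le_of_eq (ffp_ord_algebraMap v c').symm)
    have h3 := v.toValuationSubring.add_mem _ _ h1 h2
    rw [sub_add_cancel] at h3
    have := (ffp_mem_iff_ord_nonneg v).mp h3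
    omega

/-- the width `N / r γ = -ord_{v γ} j` divides `N`. -/
theorem natAbs_ord_jF_dvd (γ : SL(2, ℤ)) : ((D γ).v.ord jB).natAbs ∣ N := by
  have h := H.r_mul_ord γ
  have h1 : ((D γ).v.ord jB) ∣ (N : ℤ) := by
    refine ⟨-((D γ).r : ℤ), ?_⟩
    linarith
  have h2 := Int.natAbs_dvd_natAbs.mpr h1
  rwa [Int.natAbs_natCast] at h2

end CuspModel

/-! ### Tameness -/

/-- The old field `Fbar_n = ℚbar(t)` of the Hauptmodul inside `ℚbar·F₀`. -/
structure OldBase (n e : ℕ) [NeZero n] (jB tB : FBg F₀) : Prop where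
  le : Fbar n ≤ FBg F₀
  isAlgebraic : ∀ x : FBg F₀, IsAlgebraic ↥(Fbar n) (x : LaurentSeries Qbar)
  mem : TMem n e n
  coe_tF : (tB : LaurentSeries Qbar) = ((Fermat.Agent.RED.BASE.Interface12.tF n mem : FF n) : LaurentSeries Qbar)
  coe_jF : (jB : LaurentSeries Qbar) = ((Fermat.Agent.X0.jF n : FF n) : LaurentSeries Qbar)

namespace OldBase

variable {n e : ℕ} [NeZero n] {jB tB : FBg F₀} (O : OldBase n e jB tB)

theorem inclusion_tF : IntermediateField.inclusion O.le (Fermat.Agent.RED.BASE.Interface12.tF n O.mem) = tB :=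
  Subtype.ext O.coe_tF.symm

theorem inclusion_jF : IntermediateField.inclusion O.le (Fermat.Agent.X0.jF n) = jB :=
  Subtype.ext O.coe_jF.symm

/-- restriction of a place of `ℚbar·F₀` to `Fbar_n`. -/
theorem exists_base_place (v : Place Qbar (FBg F₀)) :
    ∃ (w₀ : Place Kbar (FF n)) (k : ℕ), 0 < k ∧
      ∀ f : FF n, v.ord (IntermediateField.inclusion O.le f) = (k : ℤ) * w₀.ord f := by
  obtain ⟨w₀, k, hk, h, -⟩ := Fermat.Agent.RED.LVL.PlaceRestrict2.exists_restrict_le
    O.le O.isAlgebraic v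
  exact ⟨w₀, k, hk, h⟩

end OldBase

section Tame

variable {N n e : ℕ} [NeZero n] {jB tB : FBg F₀} {D : SL(2, ℤ) → CuspDatum F₀}
  {cv : SL(2, ℤ) → Option Qbar}

/-- **Tameness at a finite cusp value**: the order of `t - c` at the cusp place of `γ` is positive
and divides `N`. -/
theorem tame_some (hb : BaseHyp n e) (H : CuspModel N n jB tB D cv) (O : OldBase n e jB tB)
    (γ : SL(2, ℤ)) (c : Qbar) (hγ : cv γ = some c) :
    0 < (D γ).v.ord (tB - algebraMap Qbar (FBg F₀) c) ∧
      ((D γ).v.ord (tB - algebraMap Qbar (FBg F₀) c)).natAbs ∣ N := by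
  have hpos := H.place_ord_sub_pos γ c hγ
  refine ⟨hpos, ?_⟩
  obtain ⟨h₀, htop⟩ := tGenBase' hb
  obtain ⟨hgen, hdeg⟩ := isGen_of_adjoin_eq_top (transcendental_jF n) htop
  obtain ⟨w₀, k, hk, hres⟩ := O.exists_base_place (D γ).v
  have hk' : (0 : ℤ) < k := by exact_mod_cast hk
  have ht : IntermediateField.inclusion O.le (Fermat.Agent.RED.BASE.Interface12.tF n h₀ - algebraMap Kbar (FF n) c)
      = tB - algebraMap Qbar (FBg F₀) c := by
    rw [map_sub, AlgHom.commutes]
    congr 1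
    exact O.inclusion_tF
  have h1 := hres (Fermat.Agent.RED.BASE.Interface12.tF n h₀ - algebraMap Kbar (FF n) c)
  rw [ht] at h1
  have hw₀ : 0 < w₀.ord (Fermat.Agent.RED.BASE.Interface12.tF n h₀ - algebraMap Kbar (FF n) c) := by
    by_contra hneg
    rw [not_lt] at hneg
    nlinarith
  have hone := ord_eq_one_of_finrank_eq_one hgen hdeg c w₀ hw₀
  rw [hone, mul_one] at h1
  have h2 := hres (Fermat.Agent.X0.jF n)
  rw [O.inclusion_jF] at h2
  have hdvd : (k : ℤ) ∣ (D γ).v.ord jB := ⟨_, h2⟩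
  rw [h1, Int.natAbs_natCast]
  have h3 := Int.natAbs_dvd_natAbs.mpr hdvd
  rw [Int.natAbs_natCast] at h3
  exact h3.trans (H.natAbs_ord_jF_dvd γ)

/-- **Tameness at a pole**: the order of `t` at the cusp place of `γ` is negative and divides `N`
(it is minus the width). -/
theorem tame_none (hb : BaseHyp n e) (H : CuspModel N n jB tB D cv) (O : OldBase n e jB tB)
    (γ : SL(2, ℤ)) (hγ : cv γ = none) :
    (D γ).v.ord tB < 0 ∧ ((D γ).v.ord tB).natAbs ∣ N := by
  have hneg := H.place_ord_neg γ hγ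
  refine ⟨hneg, ?_⟩
  have h₀ : TMem n e n := O.mem
  obtain ⟨w₀, k, hk, hres⟩ := O.exists_base_place (D γ).v
  have hk' : (0 : ℤ) < k := by exact_mod_cast hk
  have h1 := hres (Fermat.Agent.RED.BASE.Interface12.tF n h₀)
  rw [O.inclusion_tF] at h1
  have hw₀ : w₀.ord (Fermat.Agent.RED.BASE.Interface12.tF n h₀) < 0 := by
    by_contra hcon
    rw [not_lt] at hcon
    nlinarith
  have h2 := hres (Fermat.Agent.X0.jF n)
  rw [O.inclusion_jF] at h2
  rcases ord_tF_cases hb.two_le hb.exp hb.nuTwo hb.nuThree hb.sq h₀ w₀ with h0 | ⟨h0, -⟩ | ⟨h0, -⟩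
  · omega
  · omega
  · have : (D γ).v.ord tB = (D γ).v.ord jB := by rw [h1, h0, ← h2]
    rw [this]
    exact H.natAbs_ord_jF_dvd γ

end Tame

end Fermat.Agent.M48.CuspFibreG2
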