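/-
Programme M48 (target S48), pillar (P1), chapter [IG1] — helper6.
Two abstract complements to `DecompGalois6`:

* `fixed_mem` : the Galois correspondence in the form used for `huniq` (`G` finite acting faithfully
  on a field `N`, `E ⊇ N^G` a subfield: an element fixed by the pointwise stabiliser of `E` lies in `E`);
* `exists_indep_of_sep` : the residue-degree count with a SEPARATING family instead of faithfulness:
  if `𝔪 ∩ core` is `G`-stable and the ring homomorphisms `red ∘ a_c ∘ θ : R → k` (`c ∈ Q` finite,
  `θ : R → core`) are pairwise distinct, there are `|Q|` elements of `θ(R)` whose residues are linearly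
  independent over every subfield `κ₀ ⊆ k` of residues of `G`-invariant elements.
-/
import Mathlib
import Fermat.Agent.M48.DecompGalois6

set_option autoImplicit false
set_option linter.unusedSectionVars false

noncomputable section

namespace Fermat.Agent.M48.DecompSep6

open Fermat.Agent.M48.DecompGalois6

/-- **Galois correspondence**, membership form. -/
theorem fixed_mem {N : Type*} [Field N] {G : Type*} [Group G] [Finite G] [MulSemiringAction G N]
    [FaithfulSMul G N] (E : Subfield N) (hE : ∀ x : N, (∀ g : G, g • x = x) → x ∈ E) (x : N)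
    (hx : ∀ h ∈ fixingSubgroup G (E : Set N), h • x = x) : x ∈ E := by
  let E' : IntermediateField (FixedPoints.subfield G N) N :=
    E.toIntermediateField (fun y => hE _ (fun g => y.2 g))
  have h1 := IsGaloisGroup.fixedPoints_fixingSubgroup G (FixedPoints.subfield G N) N E'
  have h2 : x ∈ FixedPoints.intermediateField (F := FixedPoints.subfield G N)
      (fixingSubgroup G ((E' : IntermediateField (FixedPoints.subfield G N) N) : Set N)) := by
    intro h
    exact hx h.1 h.2
  rw [h1] at h2
  exact h2

variable {N : Type*} [Field N] {G : Type*} [Group G] [MulSemiringAction G N]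
  {W : ValuationSubring N} {k : Type*} [Field k]

/-- **The residue-degree count with a separating family.** -/
theorem exists_indep_of_sep (red : W →+* k)
    (hker : ∀ x : W, red x = 0 ↔ (x : N) ∈ W.nonunits)
    (hstab : ∀ (g : G) (x : N), x ∈ core G W → (g • x ∈ W.nonunits ↔ x ∈ W.nonunits))
    (κ₀ : Subfield k)
    (hκ₀ : ∀ c ∈ κ₀, ∃ a : W, (∀ g : G, g • (a : N) = a) ∧ red a = c)
    {Q : Type*} [Fintype Q] (a : Q → G) {R : Type*} [CommRing R] (θ : R →+* core G W)
    (hsep : Function.Injective (fun c : Q => (psi red (a c)).comp θ)) :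
    ∃ y : Q → R, LinearIndependent κ₀ (fun c => redC red (θ (y c))) := by
  classical
  obtain ⟨y, hy⟩ := exists_linearIndependent_of_injective
    (fun c : Q => (psi red (a c)).comp θ) hsep
  refine ⟨y, ?_⟩
  rw [Fintype.linearIndependent_iff]
  intro cf hcf c₀
  have hlift : ∀ c, ∃ b : W, (∀ g : G, g • (b : N) = b) ∧ red b = (cf c : k) :=
    fun c => hκ₀ _ (cf c).2
  choose b hbfix hbred using hlift
  have hbcore : ∀ c, ((b c : W) : N) ∈ core G W := fun c =>
    mem_core_of_fixed (b c).2 (hbfix c)
  let z : core G W := ∑ c, (⟨_, hbcore c⟩ : core G W) * θ (y c)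
  have hz : redC red z = 0 := by
    rw [map_sum]
    rw [← hcf]
    refine Finset.sum_congr rfl fun c _ => ?_
    rw [map_mul, Subfield.smul_def, smul_eq_mul]
    congr 1
    exact hbred c
  have hz' : ∀ g : G, redC red (g • z) = 0 := by
    intro g
    rw [redC_eq_zero_iff red hker] at hz ⊢
    rw [coe_smul_core]
    exact (hstab g _ z.2).mpr hz
  rw [Fintype.linearIndependent_iff] at hy
  have hvec : ∑ c, (cf c : k) • (fun c' => ((psi red (a c')).comp θ) (y c) : Q → k) = 0 := by
    funext c'
    rw [Finset.sum_apply, Pi.zero_apply, ← hz' (a c')]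
    rw [Finset.smul_sum, map_sum]
    refine Finset.sum_congr rfl fun c _ => ?_
    rw [Pi.smul_apply, smul_eq_mul, smul_mul', map_mul]
    congr 1
    have : (a c') • (⟨_, hbcore c⟩ : core G W) = ⟨_, hbcore c⟩ :=
      Subtype.ext (hbfix c _)
    rw [this]
    exact (hbred c).symm
  have := hy (fun c => (cf c : k)) hvec c₀
  exact Subtype.ext this

end Fermat.Agent.M48.DecompSep6
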