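/-
Programme M48, pillar (P1), chapter [ESRED1], item (KR2) — helper3.  **The diamond package for
`SP1Final5`**: for `2 ≤ M`, `ℓ ∤ M` prime, `A ⊂ ℚbar` over `ℓ`, `π : A → κ` surjective and
`d ∈ (ℤ/M)ˣ`, from `PurGauss1.IG1 M 1` alone: the diamond `δ = ⟨d⟩` of `FK ℚbar M 1`, the reduced
diamond `δt` of `fieldG10C κ M 1`, their compatibility `DiaRed2` (pair form), and the commutation
of `ofAlgAut δt` with every coefficientwise semilinear automorphism (Frobenius).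
-/
import Mathlib
import Fermat.Agent.M48.DiamondInv3

set_option autoImplicit false
set_option linter.unusedSectionVars false
set_option synthInstance.maxHeartbeats 400000

open AlgebraicCurve ModularCurve IntermediateField HahnSeries

noncomputable section

namespace Fermat.Agent.M48.DiamondPack3

open Fermat.Agent.M48.DiamondRed3 Fermat.Agent.M48.J1Defs8 Fermat.Agent.M48.QModel8
open Fermat.Agent.M48.PurGauss1

/-- `ℚbar`. -/
local notation "Qb" => AlgebraicClosure ℚ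

/-- `Commute` form of `IsDiamondAutC.commute_semilinear`. -/
theorem commute_of_isDiamondAutC {κ : Type*} [Field κ] {M : ℕ} {d : (ZMod M)ˣ}
    {δt : fieldG10C κ M 1 ≃ₐ[κ] fieldG10C κ M 1} (hδ : IsDiamondAutC κ M d δt)
    (h : SemilinearAut κ (fieldG10C κ M 1)) (ψ : κ ≃+* κ)
    (hh : ∀ y : fieldG10C κ M 1, ((h • y : fieldG10C κ M 1) : LaurentSeries κ)
      = coeffMap (ψ : κ →+* κ) (y : LaurentSeries κ)) :
    Commute (SemilinearAut.ofAlgAut δt) h :=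
  hδ.commute_semilinear h ψ hh

/-- **The diamond package.** -/
theorem diamond_package {ℓ : ℕ} [Fact ℓ.Prime] {M : ℕ} [NeZero M] (hM : 2 ≤ M)
    (hℓM : ¬ ℓ ∣ M) (hIG : IG1 M 1) {A : ValuationSubring Qb} (hA : A.LiesOverPrime ℓ)
    {κ : Type*} [Field κ] {π : A →+* κ} (hπ : Function.Surjective π) (d : (ZMod M)ˣ) :
    ∃ (δ : FK Qb M 1 ≃ₐ[Qb] FK Qb M 1) (δt : fieldG10C κ M 1 ≃ₐ[κ] fieldG10C κ M 1),
      IsDiamondAut Qb M d δ ∧ IsDiamondAutC κ M d δt ∧ DiaRed2 A π δ δt ∧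
      ∀ (h : SemilinearAut κ (fieldG10C κ M 1)) (ψ : κ ≃+* κ),
        (∀ y : fieldG10C κ M 1, ((h • y : fieldG10C κ M 1) : LaurentSeries κ)
          = coeffMap (ψ : κ →+* κ) (y : LaurentSeries κ)) →
        Commute (SemilinearAut.ofAlgAut δt) h := by
  obtain ⟨δ, hδ⟩ := DiamondAut5.exists_isDiamondAut_Qbar G10Model4.g10ModelStmt hM d
  obtain ⟨δt, hδt, hred⟩ := DiamondInv3.exists_diamondRed_of_IG1 hM hℓM hIG hA hπ hδ
  exact ⟨δ, δt, hδ, hδt, hred, fun h ψ hh => commute_of_isDiamondAutC hδt h ψ hh⟩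

/-- The same for a GIVEN diamond `δ` over `ℚbar`. -/
theorem diamond_package_of {ℓ : ℕ} [Fact ℓ.Prime] {M : ℕ} [NeZero M] (hM : 2 ≤ M)
    (hℓM : ¬ ℓ ∣ M) (hIG : IG1 M 1) {A : ValuationSubring Qb} (hA : A.LiesOverPrime ℓ)
    {κ : Type*} [Field κ] {π : A →+* κ} (hπ : Function.Surjective π) {d : (ZMod M)ˣ}
    {δ : FK Qb M 1 ≃ₐ[Qb] FK Qb M 1} (hδ : IsDiamondAut Qb M d δ) :
    ∃ δt : fieldG10C κ M 1 ≃ₐ[κ] fieldG10C κ M 1,
      IsDiamondAutC κ M d δt ∧ DiaRed2 A π δ δt ∧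
      ∀ (h : SemilinearAut κ (fieldG10C κ M 1)) (ψ : κ ≃+* κ),
        (∀ y : fieldG10C κ M 1, ((h • y : fieldG10C κ M 1) : LaurentSeries κ)
          = coeffMap (ψ : κ →+* κ) (y : LaurentSeries κ)) →
        Commute (SemilinearAut.ofAlgAut δt) h := by
  obtain ⟨δt, hδt, hred⟩ := DiamondInv3.exists_diamondRed_of_IG1 hM hℓM hIG hA hπ hδ
  exact ⟨δt, hδt, hred, fun h ψ hh => commute_of_isDiamondAutC hδt h ψ hh⟩

end Fermat.Agent.M48.DiamondPack3
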