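import Fermat.Agent.M48.EisOneBdd7
import Fermat.Agent.M48.NiceQ1
import Fermat.Agent.M48.Diamond1

/-!
# M48 (E1), part 6: the weight-one Eisenstein series `E_{1,ψ}` on `Γ₁(ℓ)`

For a prime `ℓ` and an odd Dirichlet character `ψ` modulo `ℓ`:
`E1 ψ hodd : ModularForm (Gamma1 ℓ) 1` with nebentypus `ψ` (`E1_slash`, `diamondM_E1`) and
`q`-expansion `-(1/(2ℓ)) ∑_{j<ℓ} j ψ(j) + ∑_{n ≥ 1} (∑_{d ∣ n} ψ(d)) qⁿ` (`qCoeff_E1`).
-/

set_option autoImplicit false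

open UpperHalfPlane hiding I
open Complex Filter Topology EisensteinSeries SummationFilter Matrix ModularForm CongruenceSubgroup
open scoped Real MatrixGroups Manifold

noncomputable section

namespace Fermat.Agent.M48.EisChar7

open Fermat.Agent.M48.Zeta7 Fermat.Agent.M48.EisOne7 Fermat.Agent.M48.EisOneQ7
  Fermat.Agent.M48.EisOneHol7 Fermat.Agent.M48.EisOneBdd7 Fermat.Agent.M48.Diamond1
  Fermat.Agent.M48.NiceQ1

variable {ℓ : ℕ} [Fact ℓ.Prime]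

/-! ### Gauss sums -/

/-- The Gauss sum of `ψ⁻¹`. -/
def gs (ψ : DirichletCharacter ℂ ℓ) : ℂ := gaussSum ψ⁻¹ (ZMod.stdAddChar (N := ℓ))

lemma gs_ne_zero {ψ : DirichletCharacter ℂ ℓ} (hψ : ψ ≠ 1) : gs ψ ≠ 0 := by
  have hψ' : ψ⁻¹ ≠ 1 := by
    intro h
    apply hψ
    rw [← inv_inv ψ, h, inv_one]
  refine gaussSum_ne_zero_of_nontrivial ?_ hψ' (ZMod.isPrimitive_stdAddChar ℓ)
  rw [ZMod.card]
  exact_mod_cast (Fact.out : ℓ.Prime).ne_zero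

lemma sum_mulShift {ψ : DirichletCharacter ℂ ℓ} (hψ : ψ ≠ 1) (n : ZMod ℓ) :
    ∑ c : ZMod ℓ, ψ⁻¹ c * ZMod.stdAddChar (c * n) = ψ n * gs ψ := by
  have hψ' : ψ⁻¹ ≠ 1 := by
    intro h
    apply hψ
    rw [← inv_inv ψ, h, inv_one]
  by_cases hn : n = 0
  · subst hn
    simp only [mul_zero, AddChar.map_zero_eq_one, mul_one, MulChar.map_zero, zero_mul]
    exact MulChar.sum_eq_zero_of_ne_one hψ'
  · have hu : IsUnit n := isUnit_iff_ne_zero.mpr hn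
    have h := gaussSum_mulShift ψ⁻¹ (ZMod.stdAddChar (N := ℓ)) hu.unit
    have e : gaussSum ψ⁻¹ (AddChar.mulShift (ZMod.stdAddChar (N := ℓ)) (hu.unit : ZMod ℓ)) =
        ∑ c : ZMod ℓ, ψ⁻¹ c * ZMod.stdAddChar (c * n) := by
      rw [gaussSum]
      refine Finset.sum_congr rfl fun c _ => ?_
      rw [AddChar.mulShift_apply, hu.unit_spec, mul_comm n c]
    rw [e, hu.unit_spec] at h
    have h1 : ψ⁻¹ n * ψ n = 1 := by
      rw [MulChar.inv_apply_eq_inv', inv_mul_cancel₀]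
      exact (IsUnit.map ψ hu).ne_zero
    rw [gs, ← h, ← mul_assoc, mul_comm (ψ n), h1, one_mul]

/-! ### Roots of unity -/

lemma geom_weighted (x : ℂ) (n : ℕ) :
    (1 - x) * ∑ k ∈ Finset.range (n + 1), (k : ℂ) * x ^ k =
      ∑ k ∈ Finset.range (n + 1), x ^ k - 1 - n * x ^ (n + 1) := by
  induction n with
  | zero => simp
  | succ n ih =>
    rw [Finset.sum_range_succ, mul_add, ih, Finset.sum_range_succ _ (n + 1)]
    push_cast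
    ring

lemma exp_eq_stdAddChar (c : ZMod ℓ) :
    cexp (2 * π * I * (((c.val : ℤ) : ℝ) / ℓ : ℝ)) = ZMod.stdAddChar c := by
  have := ZMod.stdAddChar_coe (N := ℓ) (c.val : ℤ)
  rw [show ((c.val : ℤ) : ZMod ℓ) = c by simp] at this
  rw [this]
  congr 1
  push_cast
  ring

lemma stdAddChar_ne_one {c : ZMod ℓ} (hc : c ≠ 0) : ZMod.stdAddChar c ≠ 1 := by
  intro h
  apply hc
  have := ZMod.injective_stdAddChar (N := ℓ)
  apply this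
  rw [h, AddChar.map_zero_eq_one]

lemma stdAddChar_pow_card (c : ZMod ℓ) : (ZMod.stdAddChar c : ℂ) ^ ℓ = 1 := by
  rw [← AddChar.map_nsmul_eq_pow]
  have : ℓ • c = 0 := by
    rw [nsmul_eq_mul]
    simp
  rw [this, AddChar.map_zero_eq_one]

lemma sum_stdAddChar_pow {c : ZMod ℓ} (hc : c ≠ 0) :
    ∑ k ∈ Finset.range ℓ, (ZMod.stdAddChar c : ℂ) ^ k = 0 := by
  have h1 := stdAddChar_ne_one hc
  have h2 := stdAddChar_pow_card c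
  have := geom_sum_eq h1 ℓ
  rw [this, h2, sub_self, zero_div]

/-- `π cot(π c/ℓ)` through the `ℓ`-th root of unity `ζ^c`. -/
lemma pcot_div_eq {c : ZMod ℓ} (hc : c ≠ 0) :
    pcot ((((c.val : ℤ) : ℝ) / ℓ : ℝ) : ℂ) =
      π * I * (1 + 2 / ℓ * ∑ k ∈ Finset.range ℓ, (k : ℂ) * (ZMod.stdAddChar c : ℂ) ^ k) := by
  have hℓ : ℓ ≠ 0 := (Fact.out : ℓ.Prime).ne_zero
  obtain ⟨n, hn⟩ : ∃ n, ℓ = n + 1 := ⟨ℓ - 1, by omega⟩
  set ζ : ℂ := ZMod.stdAddChar c with hζ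
  have h1 : ζ ≠ 1 := stdAddChar_ne_one hc
  have h2 : ζ ^ ℓ = 1 := stdAddChar_pow_card c
  have h3 : ∑ k ∈ Finset.range ℓ, ζ ^ k = 0 := sum_stdAddChar_pow hc
  have h4 : (1 - ζ) * ∑ k ∈ Finset.range ℓ, (k : ℂ) * ζ ^ k = -ℓ := by
    have := geom_weighted ζ n
    rw [← hn] at this
    rw [this, h3, h2, hn]
    push_cast
    ring
  have h5 : 1 - ζ ≠ 0 := sub_ne_zero.mpr (Ne.symm h1)
  have h6 : ∑ k ∈ Finset.range ℓ, (k : ℂ) * ζ ^ k = -ℓ / (1 - ζ) := by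
    rw [eq_div_iff h5, mul_comm]; exact h4
  have hℓC : (ℓ : ℂ) ≠ 0 := Nat.cast_ne_zero.mpr hℓ
  rw [h6, pcot, Complex.cot_pi_eq_exp_ratio]
  have e := exp_eq_stdAddChar c
  have e' : cexp (2 * π * I * ((((c.val : ℤ) : ℝ) / ℓ : ℝ) : ℂ)) = ζ := e
  rw [e']
  have hI : I ≠ 0 := Complex.I_ne_zero
  field_simp
  linear_combination (ζ + 1) * Complex.I_sq

/-! ### The coefficients -/

lemma ne_one_of_odd {ψ : DirichletCharacter ℂ ℓ} (hodd : ψ (-1) = -1) : ψ ≠ 1 := by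
  rintro rfl
  have h1 : (1 : DirichletCharacter ℂ ℓ) (-1) = 1 := by
    apply MulChar.one_apply
    exact isUnit_one.neg
  rw [h1] at hodd
  norm_num at hodd

lemma bb_eq (c : ZMod ℓ) (n : ℕ) :
    bb (((c.val : ℤ) : ℝ) / ℓ) n =
      ZMod.stdAddChar (c * (n : ZMod ℓ)) - ZMod.stdAddChar (c * (-(n : ZMod ℓ))) := by
  rw [bb, exp_eq_stdAddChar c]
  have h2 : cexp (-(2 * π * I * (((c.val : ℤ) : ℝ) / ℓ : ℝ))) = ZMod.stdAddChar (-c) := by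
    rw [Complex.exp_neg, exp_eq_stdAddChar c, AddChar.map_neg_eq_inv]
  rw [h2, ← AddChar.map_nsmul_eq_pow, ← AddChar.map_nsmul_eq_pow]
  congr 2
  · rw [nsmul_eq_mul, mul_comm]
  · rw [nsmul_eq_mul]; ring

/-- The coefficients of the unnormalised Eisenstein series. -/
def cE (ψ : DirichletCharacter ℂ ℓ) (k : ℕ) : ℂ :=
  ∑ c : ZMod ℓ, ψ⁻¹ c * coeffG ℓ (c.val : ℤ) k

lemma cE_pos {ψ : DirichletCharacter ℂ ℓ} (hodd : ψ (-1) = -1) {k : ℕ} (hk : k ≠ 0) :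
    cE ψ k = -(4 * π * I) * gs ψ * ∑ n ∈ k.divisors, ψ (n : ZMod ℓ) := by
  have hψ := ne_one_of_odd hodd
  simp only [cE, coeffG, if_neg hk]
  have h1 : ∀ c : ZMod ℓ, ψ⁻¹ c * (-(2 * π * I) * ∑ n ∈ k.divisors, bb (((c.val : ℤ) : ℝ) / ℓ) n) =
      -(2 * π * I) * ∑ n ∈ k.divisors, (ψ⁻¹ c * ZMod.stdAddChar (c * (n : ZMod ℓ)) -
        ψ⁻¹ c * ZMod.stdAddChar (c * (-(n : ZMod ℓ)))) := by
    intro c
    rw [mul_left_comm, Finset.mul_sum]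
    congr 1
    refine Finset.sum_congr rfl fun n _ => ?_
    rw [bb_eq]; ring
  simp_rw [h1]
  rw [← Finset.mul_sum, Finset.sum_comm]
  have h2 : ∀ n : ℕ, ∑ c : ZMod ℓ, (ψ⁻¹ c * ZMod.stdAddChar (c * (n : ZMod ℓ)) -
      ψ⁻¹ c * ZMod.stdAddChar (c * (-(n : ZMod ℓ)))) = 2 * ψ (n : ZMod ℓ) * gs ψ := by
    intro n
    rw [Finset.sum_sub_distrib, sum_mulShift hψ, sum_mulShift hψ]
    have : ψ (-(n : ZMod ℓ)) = -ψ (n : ZMod ℓ) := by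
      rw [← neg_one_mul, map_mul, hodd]; ring
    rw [this]; ring
  simp_rw [h2]
  rw [← Finset.sum_mul, ← Finset.mul_sum]
  ring

lemma cE_zero {ψ : DirichletCharacter ℂ ℓ} (hodd : ψ (-1) = -1) :
    cE ψ 0 = 2 * π * I / ℓ * gs ψ * ∑ k ∈ Finset.range ℓ, (k : ℂ) * ψ (k : ZMod ℓ) := by
  have hψ := ne_one_of_odd hodd
  have hψ' : ψ⁻¹ ≠ 1 := by
    intro h
    apply hψ
    rw [← inv_inv ψ, h, inv_one]
  simp only [cE, coeffG, if_true]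
  have h1 : ∀ c : ZMod ℓ, ψ⁻¹ c * pcot (((c.val : ℤ) : ℂ) / ℓ) =
      π * I * ψ⁻¹ c + 2 * π * I / ℓ * ∑ k ∈ Finset.range ℓ,
        (k : ℂ) * (ψ⁻¹ c * ZMod.stdAddChar (c * (k : ZMod ℓ))) := by
    intro c
    by_cases hc : c = 0
    · subst hc
      have h0 : ψ⁻¹ (0 : ZMod ℓ) = 0 := MulChar.map_nonunit _ not_isUnit_zero
      simp [h0]
    · have e : (((c.val : ℤ) : ℂ) / ℓ) = ((((c.val : ℤ) : ℝ) / ℓ : ℝ) : ℂ) := by push_cast; rfl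
      rw [e, pcot_div_eq hc]
      have : ∀ k : ℕ, (ZMod.stdAddChar c : ℂ) ^ k = ZMod.stdAddChar (c * (k : ZMod ℓ)) := by
        intro k
        rw [← AddChar.map_nsmul_eq_pow, nsmul_eq_mul, mul_comm]
      simp_rw [this, Finset.mul_sum]
      rw [mul_add, mul_add, Finset.mul_sum, Finset.mul_sum]
      congr 1
      · ring
      · refine Finset.sum_congr rfl fun k _ => ?_
        ring
  simp_rw [h1]
  rw [Finset.sum_add_distrib, ← Finset.mul_sum, MulChar.sum_eq_zero_of_ne_one hψ', mul_zero,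
    zero_add, ← Finset.mul_sum, Finset.sum_comm]
  simp_rw [← Finset.mul_sum, sum_mulShift hψ]
  rw [mul_assoc (2 * (π : ℂ) * I / ℓ) (gs ψ), Finset.mul_sum (a := gs ψ)]
  congr 1
  refine Finset.sum_congr rfl fun k _ => ?_
  ring

/-! ### The Eisenstein series -/

lemma not_dvd_val {c : ZMod ℓ} (hc : c ≠ 0) : ¬ ((ℓ : ℕ) : ℤ) ∣ ((c.val : ℕ) : ℤ) := by
  intro h
  apply hc
  have h1 : (ℓ : ℕ) ∣ c.val := by exact_mod_cast h
  have h2 : c.val < ℓ := ZMod.val_lt c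
  have h3 : c.val = 0 := Nat.eq_zero_of_dvd_of_lt h1 h2
  exact (ZMod.val_eq_zero c).mp h3

/-- The unnormalised Eisenstein series `∑_c ψ⁻¹(c) G_{(0,c)}`. -/
def Eraw (ψ : DirichletCharacter ℂ ℓ) (τ : ℍ) : ℂ :=
  ∑ c : ZMod ℓ, ψ⁻¹ c * G1 ℓ ![0, (c.val : ℤ)] τ

lemma hasSum_Eraw (ψ : DirichletCharacter ℂ ℓ) (τ : ℍ) :
    HasSum (fun k : ℕ => cE ψ k * qq τ ^ k) (Eraw ψ τ) := by
  have h : ∀ c ∈ (Finset.univ : Finset (ZMod ℓ)),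
      HasSum (fun k : ℕ => ψ⁻¹ c * coeffG ℓ (c.val : ℤ) k * qq τ ^ k)
        (ψ⁻¹ c * G1 ℓ ![0, (c.val : ℤ)] τ) := by
    intro c _
    by_cases hc : c = 0
    · have h0 : ψ⁻¹ c = 0 := by rw [hc]; exact MulChar.map_nonunit _ not_isUnit_zero
      simp only [h0, zero_mul]
      exact hasSum_zero
    · have := (hasSum_G1_zero (N := ℓ) (not_dvd_val hc) τ).mul_left (ψ⁻¹ c)
      simpa [mul_assoc] using this
  have := hasSum_sum h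
  convert this using 1
  · funext k
    rw [cE, Finset.sum_mul]
  · rfl

/-- The normalised coefficients. -/
def aE (ψ : DirichletCharacter ℂ ℓ) (k : ℕ) : ℂ :=
  if k = 0 then -(1 / (2 * ℓ)) * ∑ j ∈ Finset.range ℓ, (j : ℂ) * ψ (j : ZMod ℓ)
  else ∑ n ∈ k.divisors, ψ (n : ZMod ℓ)

/-- The weight-one Eisenstein series `E_{1,ψ}` as a function. -/
def Efun (ψ : DirichletCharacter ℂ ℓ) (τ : ℍ) : ℂ := (-(4 * π * I) * gs ψ)⁻¹ * Eraw ψ τ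

lemma hasSum_Efun {ψ : DirichletCharacter ℂ ℓ} (hodd : ψ (-1) = -1) (τ : ℍ) :
    HasSum (fun k : ℕ => aE ψ k * qq τ ^ k) (Efun ψ τ) := by
  have hg := gs_ne_zero (ne_one_of_odd hodd)
  have hpi : (π : ℂ) ≠ 0 := by exact_mod_cast Real.pi_ne_zero
  have hI : I ≠ 0 := Complex.I_ne_zero
  have hℓ : (ℓ : ℂ) ≠ 0 := Nat.cast_ne_zero.mpr (Fact.out : ℓ.Prime).ne_zero
  have := (hasSum_Eraw ψ τ).mul_left ((-(4 * π * I) * gs ψ)⁻¹)
  refine this.congr_fun fun k => ?_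
  rw [aE]
  split_ifs with hk
  · subst hk
    rw [cE_zero hodd]
    field_simp
    ring
  · rw [cE_pos hodd hk]
    field_simp

/-! ### The transformation law -/

lemma G1_congr {N : ℕ} [NeZero N] {a b : Fin 2 → ℤ} (ha : NotDvd N a)
    (h : ∀ i, (N : ℤ) ∣ b i - a i) : G1 N b = G1 N a := by
  choose v hv using h
  funext τ
  have e : b = a + (N : ℤ) • v := by
    funext i
    simp only [Pi.add_apply, Pi.smul_apply, smul_eq_mul]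
    have := hv i
    linarith
  rw [e]
  exact G1_add_smul ha v τ

lemma notDvd_zero_val {c : ZMod ℓ} (hc : c ≠ 0) : NotDvd ℓ ![0, (c.val : ℤ)] := by
  intro h
  exact not_dvd_val hc (by simpa using h.2)

lemma G1_vecMul_Gamma0 {γ : SL(2, ℤ)} (hγ : γ ∈ Gamma0 ℓ) {c : ZMod ℓ} (hc : c ≠ 0) :
    G1 ℓ (![0, (c.val : ℤ)] ᵥ* γ.1) = G1 ℓ ![0, ((c * ((γ 1 1 : ℤ) : ZMod ℓ)).val : ℤ)] := by
  have hd : ((γ 1 1 : ℤ) : ZMod ℓ) ≠ 0 := by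
    have h10 : ((γ 1 0 : ℤ) : ZMod ℓ) = 0 := Gamma0_mem.mp hγ
    have hdet := γ.det_coe
    rw [Matrix.det_fin_two] at hdet
    have h2 := congrArg (Int.cast : ℤ → ZMod ℓ) hdet
    push_cast at h2
    intro h11
    rw [h10, h11] at h2
    simp at h2
  have hcd : c * ((γ 1 1 : ℤ) : ZMod ℓ) ≠ 0 := mul_ne_zero hc hd
  apply G1_congr (notDvd_zero_val hcd)
  have h10 : ((γ 1 0 : ℤ) : ZMod ℓ) = 0 := Gamma0_mem.mp hγ
  intro i
  apply (ZMod.intCast_zmod_eq_zero_iff_dvd _ ℓ).mp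
  fin_cases i
  · simp [Matrix.vecMul, dotProduct, Fin.sum_univ_two, h10]
  · simp [Matrix.vecMul, dotProduct, Fin.sum_univ_two]

lemma lowerRight_ne_zero {γ : SL(2, ℤ)} (hγ : γ ∈ Gamma0 ℓ) : ((γ 1 1 : ℤ) : ZMod ℓ) ≠ 0 := by
  have h10 : ((γ 1 0 : ℤ) : ZMod ℓ) = 0 := Gamma0_mem.mp hγ
  have hdet := γ.det_coe
  rw [Matrix.det_fin_two] at hdet
  have h2 := congrArg (Int.cast : ℤ → ZMod ℓ) hdet
  push_cast at h2
  intro h11
  rw [h10, h11] at h2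
  simp at h2

lemma Eraw_smul (ψ : DirichletCharacter ℂ ℓ) {γ : SL(2, ℤ)} (hγ : γ ∈ Gamma0 ℓ) (τ : ℍ) :
    Eraw ψ (γ • τ) = denom γ τ * (ψ ((γ 1 1 : ℤ) : ZMod ℓ) * Eraw ψ τ) := by
  set d : ZMod ℓ := ((γ 1 1 : ℤ) : ZMod ℓ) with hd
  have hd0 : d ≠ 0 := lowerRight_ne_zero hγ
  have h1 : ∀ c : ZMod ℓ, ψ⁻¹ c * G1 ℓ ![0, (c.val : ℤ)] (γ • τ) =
      denom γ τ * (ψ⁻¹ c * G1 ℓ ![0, ((c * d).val : ℤ)] τ) := by
    intro c
    by_cases hc : c = 0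
    · have h0 : ψ⁻¹ c = 0 := by rw [hc]; exact MulChar.map_nonunit _ not_isUnit_zero
      simp [h0]
    · rw [G1_smul, G1_vecMul_Gamma0 hγ hc]
      ring
  rw [Eraw, Finset.sum_congr rfl (fun c _ => h1 c), ← Finset.mul_sum]
  congr 1
  rw [Eraw, Finset.mul_sum]
  refine Fintype.sum_equiv (Equiv.mulRight₀ d hd0) _ _ fun c => ?_
  show ψ⁻¹ c * G1 ℓ ![0, ((c * d).val : ℤ)] τ = ψ d * (ψ⁻¹ (c * d) * G1 ℓ ![0, ((c * d).val : ℤ)] τ)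
  have : ψ⁻¹ c = ψ d * ψ⁻¹ (c * d) := by
    rw [map_mul, ← mul_assoc, mul_comm (ψ d), mul_assoc]
    have : ψ⁻¹ d * ψ d = 1 := by
      rw [MulChar.inv_apply_eq_inv', inv_mul_cancel₀]
      exact (IsUnit.map ψ (isUnit_iff_ne_zero.mpr hd0)).ne_zero
    rw [mul_comm (ψ d) (ψ⁻¹ d), this, mul_one]
  rw [this]
  ring

/-! ### The modular form -/

lemma Efun_slash (ψ : DirichletCharacter ℂ ℓ) {γ : SL(2, ℤ)} (hγ : γ ∈ Gamma0 ℓ) :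
    Efun ψ ∣[(1 : ℤ)] γ = ψ ((γ 1 1 : ℤ) : ZMod ℓ) • Efun ψ := by
  funext τ
  have hd : denom γ τ ≠ 0 := denom_ne_zero γ τ
  rw [SL_slash_apply, Efun, Eraw_smul ψ hγ]
  simp only [Pi.smul_apply, smul_eq_mul, Efun, _root_.zpow_neg, zpow_one]
  field_simp

lemma notDvd_vecMul {N : ℕ} {a : Fin 2 → ℤ} (ha : NotDvd N a) (A : SL(2, ℤ)) :
    NotDvd N (a ᵥ* A.1) := by
  intro h
  apply ha
  have e : a = (a ᵥ* A.1) ᵥ* (A⁻¹).1 := by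
    simp [Matrix.vecMul_vecMul, Matrix.mul_adjugate]
  have h0 : ∀ (b : Fin 2 → ℤ), (N : ℤ) ∣ b 0 → (N : ℤ) ∣ b 1 →
      ∀ i, (N : ℤ) ∣ (b ᵥ* (A⁻¹).1) i := by
    intro b hb0 hb1 i
    simp only [Matrix.vecMul, dotProduct, Fin.sum_univ_two]
    exact dvd_add (Dvd.dvd.mul_right hb0 _) (Dvd.dvd.mul_right hb1 _)
  rw [e]
  exact ⟨h0 _ h.1 h.2 0, h0 _ h.1 h.2 1⟩

lemma isBoundedAtImInfty_Efun_slash (ψ : DirichletCharacter ℂ ℓ) (A : SL(2, ℤ)) :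
    IsBoundedAtImInfty (Efun ψ ∣[(1 : ℤ)] A) := by
  have e : Efun ψ ∣[(1 : ℤ)] A = fun τ => (-(4 * π * I) * gs ψ)⁻¹ *
      ∑ c : ZMod ℓ, ψ⁻¹ c * G1 ℓ (![0, (c.val : ℤ)] ᵥ* A.1) τ := by
    funext τ
    have hd : denom A τ ≠ 0 := denom_ne_zero A τ
    rw [SL_slash_apply, Efun, Eraw]
    simp only [_root_.zpow_neg, zpow_one]
    rw [mul_assoc, Finset.sum_mul]
    congr 1
    refine Finset.sum_congr rfl fun c _ => ?_
    rw [G1_smul]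
    field_simp
  rw [e]
  unfold IsBoundedAtImInfty BoundedAtFilter
  apply Asymptotics.IsBigO.const_mul_left
  have e2 : (fun τ => ∑ c : ZMod ℓ, ψ⁻¹ c * G1 ℓ (![0, (c.val : ℤ)] ᵥ* A.1) τ) =
      ∑ c : ZMod ℓ, fun τ => ψ⁻¹ c * G1 ℓ (![0, (c.val : ℤ)] ᵥ* A.1) τ := by
    funext τ
    simp [Finset.sum_apply]
  rw [e2]
  apply Asymptotics.IsBigO.sum
  intro c _
  by_cases hc : c = 0
  · have h0 : ψ⁻¹ c = 0 := by rw [hc]; exact MulChar.map_nonunit _ not_isUnit_zero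
    simp only [h0, zero_mul]
    exact Asymptotics.isBigO_zero _ _
  · apply Asymptotics.IsBigO.const_mul_left
    exact isBoundedAtImInfty_G1 (notDvd_vecMul (notDvd_zero_val hc) A)

lemma inv1_Efun (ψ : DirichletCharacter ℂ ℓ) : Inv1 ℓ 1 (Efun ψ) := by
  intro γ hγ
  have h0 : γ ∈ Gamma0 ℓ := Gamma1_in_Gamma0 ℓ hγ
  rw [Efun_slash ψ h0]
  have : ((γ 1 1 : ℤ) : ZMod ℓ) = 1 := (Gamma1_mem ℓ γ).mp hγ |>.2.1
  rw [this, map_one, one_smul]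

/-- **The weight-one Eisenstein series `E_{1,ψ}`** of level `Γ₁(ℓ)`. -/
def E1 (ψ : DirichletCharacter ℂ ℓ) (hodd : ψ (-1) = -1) : ModularForm (Gamma1 ℓ) 1 where
  toFun := Efun ψ
  slash_action_eq' γ hγ := (inv1_Efun ψ).slash_action_eq γ hγ
  holo' := mdifferentiable_of_hasSum_qq (hasSum_Efun hodd)
  bdd_at_cusps' {c} hc := by
    rw [Subgroup.IsArithmetic.isCusp_iff_isCusp_SL2Z] at hc
    rw [OnePoint.isBoundedAt_iff_forall_SL2Z hc]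
    exact fun γ _ => isBoundedAtImInfty_Efun_slash ψ γ

@[simp] lemma coe_E1 (ψ : DirichletCharacter ℂ ℓ) (hodd : ψ (-1) = -1) :
    ⇑(E1 ψ hodd) = Efun ψ := rfl

theorem E1_slash (ψ : DirichletCharacter ℂ ℓ) (hodd : ψ (-1) = -1) {γ : SL(2, ℤ)}
    (hγ : γ ∈ Gamma0 ℓ) :
    ⇑(E1 ψ hodd) ∣[(1 : ℤ)] γ = ψ ((γ 1 1 : ℤ) : ZMod ℓ) • ⇑(E1 ψ hodd) :=
  Efun_slash ψ hγ

theorem diamondM_E1 (ψ : DirichletCharacter ℂ ℓ) (hodd : ψ (-1) = -1) (d : (ZMod ℓ)ˣ) :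
    diamondM d (E1 ψ hodd) = ψ (d : ZMod ℓ) • E1 ψ hodd := by
  apply DFunLike.coe_injective
  rw [coe_diamondM d (E1 ψ hodd) (sigma d) (unitOf_sigma d), E1_slash ψ hodd (sigma d).2]
  have : (((sigma d : Gamma0 ℓ) : SL(2, ℤ)) 1 1 : ZMod ℓ) = (d : ZMod ℓ) := by
    show Gamma0Map ℓ (sigma d) = _
    rw [← coe_unitOf, unitOf_sigma]
  rw [this]
  rfl

theorem qCoeff_E1 (ψ : DirichletCharacter ℂ ℓ) (hodd : ψ (-1) = -1) (n : ℕ) :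
    ModularFormClass.qCoeff (⇑(E1 ψ hodd)) n = aE ψ n := by
  have h := ModularFormClass.qExpansion_coeff_unique (c := aE ψ) (f := E1 ψ hodd)
    (h := 1) one_pos one_mem_strictPeriods_Gamma1 (fun τ => by
      have := hasSum_Efun hodd τ
      convert this using 2 with k
      · simp [Function.Periodic.qParam, qq]
      · rfl) n
  rw [ModularFormClass.qCoeff, ← h]

/-- **(E1), summary.** For a prime `ℓ` and an odd character `ψ` modulo `ℓ` there is a modular form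
of weight one on `Γ₁(ℓ)` with nebentypus `ψ` and the expected `q`-expansion. -/
theorem exists_eisenstein_one (ψ : DirichletCharacter ℂ ℓ) (hodd : ψ (-1) = -1) :
    ∃ E : ModularForm (Gamma1 ℓ) 1,
      (∀ γ : SL(2, ℤ), γ ∈ Gamma0 ℓ → ⇑E ∣[(1 : ℤ)] γ = ψ ((γ 1 1 : ℤ) : ZMod ℓ) • ⇑E) ∧
      (∀ d : (ZMod ℓ)ˣ, diamondM d E = ψ (d : ZMod ℓ) • E) ∧
      ModularFormClass.qCoeff (⇑E) 0 =
        -(1 / (2 * ℓ)) * ∑ j ∈ Finset.range ℓ, (j : ℂ) * ψ (j : ZMod ℓ) ∧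
      ∀ n : ℕ, n ≠ 0 → ModularFormClass.qCoeff (⇑E) n = ∑ d ∈ n.divisors, ψ (d : ZMod ℓ) := by
  refine ⟨E1 ψ hodd, fun γ hγ => E1_slash ψ hodd hγ, diamondM_E1 ψ hodd, ?_, fun n hn => ?_⟩
  · rw [qCoeff_E1, aE, if_pos rfl]
  · rw [qCoeff_E1, aE, if_neg hn]

end Fermat.Agent.M48.EisChar7
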