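/-
Programme M48 (target S48), pillar (P1), chapter [IG1] — helper6.
**The constant terms of Eisenstein series at the cusps: `∑_{n ∈ ℤ} (x + n)^{-k}` for REAL `x ∉ ℤ`.**

* `eulC e j : ℤ` with `d^e = ∑_{j ≤ e} eulC e j · C(d + j, j)` (`pow_eq_sum_eulC`);
* `liF e ξ = ∑_{j ≤ e} eulC e j / (1 - ξ)^{j+1}` over any field (the value `Li_{-e}(ξ)`), `map_liF`;
* `tsum_pow_mul_geometric : ∑_{d ≥ 0} d^e q^d = liF e q` for `‖q‖ < 1`;
* **`tsum_int_real_eq`** : for `x : ℝ` not an integer and `k ≥ 2`,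
  `∑_{n ∈ ℤ} (x + n)^{-k} = ((-2πi)^k / (k-1)!) · liF (k-1) (exp(2πi x))`
  (the Lipschitz formula on the boundary: limit `ε → 0⁺` of `τ = x + iε`, dominated convergence).
Mathlib only.
-/
import Mathlib

set_option autoImplicit false

open Complex Filter Topology
open scoped Real Nat

noncomputable section

namespace Fermat.Agent.M48.EisConst6

/-! ### Powers in the binomial basis -/

/-- the coefficients of `d ↦ d^e` in the basis `d ↦ C(d + j, j)`. -/
def eulC : ℕ → ℕ → ℤ
  | 0, j => if j = 0 then 1 else 0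
  | e + 1, j => (if j = 0 then 0 else (j : ℤ) * eulC e (j - 1)) -
      (if j ≤ e then ((j : ℤ) + 1) * eulC e j else 0)

theorem choose_step (d j : ℕ) :
    (d : ℤ) * ((d + j).choose j : ℤ) =
      ((j : ℤ) + 1) * ((d + (j + 1)).choose (j + 1) : ℤ) - ((j : ℤ) + 1) * ((d + j).choose j : ℤ) := by
  have h := Nat.add_one_mul_choose_eq (d + j) j
  have h' : ((d + j + 1 : ℕ) : ℤ) * ((d + j).choose j : ℤ) =
      ((d + j + 1).choose (j + 1) : ℤ) * ((j + 1 : ℕ) : ℤ) := by exact_mod_cast h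
  rw [show d + (j + 1) = d + j + 1 by ring]
  push_cast at h'
  linarith

theorem pow_eq_sum_eulC (e d : ℕ) :
    (d : ℤ) ^ e = ∑ j ∈ Finset.range (e + 1), eulC e j * ((d + j).choose j : ℤ) := by
  induction e with
  | zero => simp [eulC]
  | succ e ih =>
    rw [pow_succ, ih, Finset.sum_mul]
    have h1 : ∀ j ∈ Finset.range (e + 1), eulC e j * ((d + j).choose j : ℤ) * (d : ℤ) =
        ((j : ℤ) + 1) * eulC e j * ((d + (j + 1)).choose (j + 1) : ℤ) -
          ((j : ℤ) + 1) * eulC e j * ((d + j).choose j : ℤ) := by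
      intro j _
      have := choose_step d j
      linear_combination eulC e j * this
    rw [Finset.sum_congr rfl h1, Finset.sum_sub_distrib]
    have h2 : ∑ j ∈ Finset.range (e + 1 + 1), eulC (e + 1) j * ((d + j).choose j : ℤ) =
        ∑ j ∈ Finset.range (e + 1 + 1),
          (if j = 0 then 0 else (j : ℤ) * eulC e (j - 1)) * ((d + j).choose j : ℤ) -
        ∑ j ∈ Finset.range (e + 1 + 1),
          (if j ≤ e then ((j : ℤ) + 1) * eulC e j else 0) * ((d + j).choose j : ℤ) := by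
      rw [← Finset.sum_sub_distrib]
      refine Finset.sum_congr rfl fun j _ => ?_
      rw [eulC, sub_mul]
    rw [h2]
    congr 1
    · rw [Finset.sum_range_succ' _ (e + 1)]
      simp
    · rw [Finset.sum_range_succ _ (e + 1)]
      simp only [show ¬ (e + 1 ≤ e) by omega, if_false, zero_mul, add_zero]
      refine Finset.sum_congr rfl fun j hj => ?_
      rw [if_pos (by have := Finset.mem_range.mp hj; omega)]

/-! ### The values `Li_{-e}(ξ)` -/

/-- `Li_{-e}(ξ) = ∑_{d ≥ 0} d^e ξ^d` as a rational function of `ξ` (any field; junk at `ξ = 1`). -/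
def liF {R : Type*} [Field R] (e : ℕ) (ξ : R) : R :=
  ∑ j ∈ Finset.range (e + 1), (eulC e j : R) / (1 - ξ) ^ (j + 1)

theorem map_liF {R S : Type*} [Field R] [Field S] (f : R →+* S) (e : ℕ) (ξ : R) :
    f (liF e ξ) = liF e (f ξ) := by
  simp [liF, map_sum, map_div₀]

/-- `∑_{d ≥ 0} d^e q^d = Li_{-e}(q)` inside the unit disc. -/
theorem hasSum_pow_mul_geometric (e : ℕ) {q : ℂ} (hq : ‖q‖ < 1) :
    HasSum (fun d : ℕ => (d : ℂ) ^ e * q ^ d) (liF e q) := by
  have h1 : ∀ d : ℕ, (d : ℂ) ^ e * q ^ d =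
      ∑ j ∈ Finset.range (e + 1), (eulC e j : ℂ) * (((d + j).choose j : ℂ) * q ^ d) := by
    intro d
    have := congrArg (Int.cast : ℤ → ℂ) (pow_eq_sum_eulC e d)
    push_cast at this
    rw [this, Finset.sum_mul]
    refine Finset.sum_congr rfl fun j _ => ?_
    ring
  rw [show (fun d : ℕ => (d : ℂ) ^ e * q ^ d) = fun d : ℕ =>
      ∑ j ∈ Finset.range (e + 1), (eulC e j : ℂ) * (((d + j).choose j : ℂ) * q ^ d) from
    funext h1]
  unfold liF
  refine hasSum_sum fun j _ => ?_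
  have := (hasSum_choose_mul_geometric_of_norm_lt_one j hq).mul_left (eulC e j : ℂ)
  rw [mul_one_div] at this
  exact this

theorem tsum_pow_mul_geometric (e : ℕ) {q : ℂ} (hq : ‖q‖ < 1) :
    ∑' d : ℕ, (d : ℂ) ^ e * q ^ d = liF e q :=
  (hasSum_pow_mul_geometric e hq).tsum_eq

theorem continuousAt_liF (e : ℕ) {ξ : ℂ} (hξ : ξ ≠ 1) : ContinuousAt (liF e) ξ := by
  unfold liF
  refine tendsto_finsetSum _ fun j _ => ?_
  refine ContinuousAt.div continuousAt_const ?_ ?_
  · exact ((continuousAt_const.sub continuousAt_id).pow _)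
  · exact pow_ne_zero _ (sub_ne_zero.mpr hξ.symm)

/-! ### The Lipschitz formula on the real line -/

theorem cexp_ne_one_of_not_int {x : ℝ} (hx : ∀ n : ℤ, x ≠ n) : cexp (2 * π * I * x) ≠ 1 := by
  intro h
  rw [Complex.exp_eq_one_iff] at h
  obtain ⟨n, hn⟩ := h
  have h2 : (2 * (π : ℂ) * I) ≠ 0 := by
    simp [Real.pi_ne_zero, I_ne_zero]
  have : (x : ℂ) = n := by
    apply mul_left_cancel₀ h2
    rw [hn]; ring
  exact hx n (by exact_mod_cast this)

/-- The Lipschitz formula inside `ℍ`, with the `ℕ`-indexed polylogarithm. -/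
theorem tsum_int_upper_eq {k : ℕ} (hk : 2 ≤ k) (τ : UpperHalfPlane) :
    ∑' n : ℤ, (((τ : ℂ) + n) ^ k)⁻¹ =
      ((-2 * π * I) ^ k / (k - 1)!) * liF (k - 1) (cexp (2 * π * I * τ)) := by
  have H := EisensteinSeries.qExpansion_identity_pnat (k := k - 1) (by omega) τ
  rw [show k - 1 + 1 = k by omega] at H
  have hq : ‖cexp (2 * π * I * τ)‖ < 1 := by
    simpa using UpperHalfPlane.norm_exp_two_pi_I_lt_one τ
  have h1 : ∑' n : ℕ+, ((n : ℕ) : ℂ) ^ (k - 1) * cexp (2 * π * I * τ) ^ (n : ℕ) =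
      liF (k - 1) (cexp (2 * π * I * τ)) := by
    rw [← tsum_pow_mul_geometric (k - 1) hq,
      tsum_pnat_eq_tsum_succ (f := fun d : ℕ => (d : ℂ) ^ (k - 1) * cexp (2 * π * I * τ) ^ d),
      (hasSum_pow_mul_geometric (k - 1) hq).summable.tsum_eq_zero_add]
    simp [show k - 1 ≠ 0 by omega]
  rw [← h1, ← H]
  exact tsum_congr fun n => by rw [one_div]

/-- **The Lipschitz formula on the real line** (`x ∉ ℤ`). -/
theorem tsum_int_real_eq {k : ℕ} (hk : 2 ≤ k) {x : ℝ} (hx : ∀ n : ℤ, x ≠ n) :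
    ∑' n : ℤ, (((x : ℂ) + n) ^ k)⁻¹ =
      ((-2 * π * I) ^ k / (k - 1)!) * liF (k - 1) (cexp (2 * π * I * x)) := by
  -- the two sides along `τ = x + iε`, `ε → 0⁺`
  have hξ := cexp_ne_one_of_not_int hx
  have hL : Tendsto (fun ε : ℝ => ∑' n : ℤ, (((x : ℂ) + ε * I + n) ^ k)⁻¹) (𝓝[>] 0)
      (𝓝 (∑' n : ℤ, (((x : ℂ) + n) ^ k)⁻¹)) := by
    refine tendsto_tsum_of_dominated_convergence
      (bound := fun n : ℤ => ‖(((x : ℂ) + n) ^ k)⁻¹‖) ?_ ?_ ?_
    · have := (EisensteinSeries.linear_right_summable (x : ℂ) 1 (k := k) (by omega)).norm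
      simpa using this
    · intro n
      have hc : ContinuousAt (fun ε : ℝ => (((x : ℂ) + ε * I + n) ^ k)⁻¹) 0 := by
        refine ContinuousAt.inv₀ (by fun_prop) ?_
        simp only [Complex.ofReal_zero, zero_mul, add_zero]
        refine pow_ne_zero _ ?_
        have : (x : ℂ) + n = ((x + n : ℝ) : ℂ) := by push_cast; ring
        rw [this, Complex.ofReal_ne_zero]
        intro h0
        exact hx (-n) (by push_cast; linarith)
      have := hc.tendsto
      simp only [Complex.ofReal_zero, zero_mul, add_zero] at this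
      exact this.mono_left nhdsWithin_le_nhds
    · refine Eventually.of_forall fun ε n => ?_
      rw [norm_inv, norm_inv, norm_pow, norm_pow]
      have h0 : ‖(x : ℂ) + n‖ ≤ ‖(x : ℂ) + ε * I + n‖ := by
        have e1 : (x : ℂ) + n = ((x + n : ℝ) : ℂ) := by push_cast; ring
        have e2 : ((x : ℂ) + ε * I + n).re = x + n := by simp
        rw [e1, Complex.norm_real, Real.norm_eq_abs, ← e2]
        exact Complex.abs_re_le_norm _
      have hpos : 0 < ‖(x : ℂ) + n‖ := by
        rw [norm_pos_iff]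
        have : (x : ℂ) + n = ((x + n : ℝ) : ℂ) := by push_cast; ring
        rw [this, Complex.ofReal_ne_zero]
        intro h0
        exact hx (-n) (by push_cast; linarith)
      exact inv_anti₀ (pow_pos hpos k) (pow_le_pow_left₀ hpos.le h0 k)
  have hR : Tendsto (fun ε : ℝ => ((-2 * π * I) ^ k / (k - 1)!) *
      liF (k - 1) (cexp (2 * π * I * ((x : ℂ) + ε * I)))) (𝓝[>] 0)
      (𝓝 (((-2 * π * I) ^ k / (k - 1)!) * liF (k - 1) (cexp (2 * π * I * x)))) := by
    refine Tendsto.const_mul _ ?_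
    have hc : ContinuousAt (fun ε : ℝ => cexp (2 * π * I * ((x : ℂ) + ε * I))) 0 := by fun_prop
    have h1 := hc.tendsto
    simp only [Complex.ofReal_zero, zero_mul, add_zero] at h1
    exact ((continuousAt_liF (k - 1) hξ).tendsto.comp h1).mono_left nhdsWithin_le_nhds
  refine tendsto_nhds_unique (hL.congr' ?_) hR
  filter_upwards [self_mem_nhdsWithin] with ε hε
  have hε' : 0 < ((x : ℂ) + ε * I).im := by simpa using hε
  exact tsum_int_upper_eq hk ⟨_, hε'⟩

end Fermat.Agent.M48.EisConst6
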