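import Fermat.Agent.M48.Zeta7

/-!
# M48 (E1), part 2: the weight-one Eisenstein series `G_a` of level `N`

For `a ∈ ℤ²` not divisible by `N`, `G1 N a τ = Z((a₀τ + a₁)/N; ℤτ + ℤ)` where
`Z = ζ - (real-linear extension of the quasi-periods)`.  We prove the `SL(2,ℤ)`-law
`G1 N a (γ • τ) = denom γ τ * G1 N (a ᵥ* γ) τ`, periodicity in `a` modulo `N` and the formula
`G1 N a τ = zetaE τ ((a₀τ + a₁)/N) + 2πi a₀/N`.
-/

set_option autoImplicit false

open UpperHalfPlane hiding I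
open Complex Filter Topology EisensteinSeries SummationFilter Matrix ModularForm
open scoped Real MatrixGroups

noncomputable section

namespace Fermat.Agent.M48.EisOne7

open Fermat.Agent.M48.Zeta7

/-- The second quasi-period `η(τ) = τ G₂(τ) - 2πi`. -/
def eta2 (τ : ℍ) : ℂ := G2 τ * τ - 2 * π * I

/-- The weight-one Eisenstein series of level `N` attached to `a ∈ ℤ²`. -/
def G1 (N : ℕ) (a : Fin 2 → ℤ) (τ : ℍ) : ℂ :=
  wzeta τ (om τ a / N) - (a 0 / N) * eta2 τ - (a 1 / N) * G2 τ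

lemma om_injective (τ : ℍ) : Function.Injective (om τ) := by
  intro v w h
  have : om τ (v - w) = 0 := by
    rw [sub_eq_add_neg, om_add, om_neg, h]; ring
  rw [om_eq_zero_iff] at this
  exact sub_eq_zero.mp this

lemma om_smul_int (τ : ℍ) (n : ℤ) (v : Fin 2 → ℤ) : om τ (n • v) = n * om τ v := by
  simp [om]; ring

/-- `a` is not divisible by `N`. -/
def NotDvd (N : ℕ) (a : Fin 2 → ℤ) : Prop := ¬ ((N : ℤ) ∣ a 0 ∧ (N : ℤ) ∣ a 1)

lemma offLattice_of_notDvd {N : ℕ} [NeZero N] {a : Fin 2 → ℤ} (ha : NotDvd N a) (τ : ℍ) :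
    OffLattice τ (om τ a / N) := by
  intro v h
  apply ha
  have hN : (N : ℂ) ≠ 0 := Nat.cast_ne_zero.mpr (NeZero.ne N)
  have h1 : om τ a = om τ ((N : ℤ) • v) := by
    rw [om_smul_int, ← h]
    push_cast
    field_simp
  have h2 := om_injective τ h1
  constructor
  · exact ⟨v 0, by rw [h2]; simp⟩
  · exact ⟨v 1, by rw [h2]; simp⟩

/-- `G_a` through the Eisenstein summation. -/
theorem G1_eq_zetaE {N : ℕ} [NeZero N] {a : Fin 2 → ℤ} (ha : NotDvd N a) (τ : ℍ) :
    G1 N a τ = zetaE τ (om τ a / N) + 2 * π * I * a 0 / N := by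
  have hN : (N : ℂ) ≠ 0 := Nat.cast_ne_zero.mpr (NeZero.ne N)
  rw [G1, wzeta_eq_zetaE_add (offLattice_of_notDvd ha τ), eta2, om]
  field_simp
  ring

/-- `G_a` only depends on `a` modulo `N`. -/
theorem G1_add_smul {N : ℕ} [NeZero N] {a : Fin 2 → ℤ} (ha : NotDvd N a) (v : Fin 2 → ℤ)
    (τ : ℍ) : G1 N (a + (N : ℤ) • v) τ = G1 N a τ := by
  have hN : (N : ℂ) ≠ 0 := Nat.cast_ne_zero.mpr (NeZero.ne N)
  have e : om τ (a + (N : ℤ) • v) / N = om τ a / N + om τ v := by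
    rw [om_add, om_smul_int]
    push_cast
    field_simp
  rw [G1, G1, e, wzeta_add_om (offLattice_of_notDvd ha τ), eta2]
  simp only [Pi.add_apply, Pi.smul_apply, smul_eq_mul]
  push_cast
  field_simp
  ring

lemma offLattice_smul (A : SL(2, ℤ)) {τ : ℍ} {z : ℂ} (hz : OffLattice τ z) :
    OffLattice (A • τ) (z / denom A τ) := by
  intro v h
  apply hz (v ᵥ* A.1)
  have hd : denom A τ ≠ 0 := denom_ne_zero A τ
  rw [om_smul] at h
  field_simp at h
  exact h

lemma quasi_smul (A : SL(2, ℤ)) (τ : ℍ) (v : Fin 2 → ℤ) :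
    v 0 * eta2 (A • τ) + v 1 * G2 (A • τ) =
      denom A τ * ((v ᵥ* A.1) 0 * eta2 τ + (v ᵥ* A.1) 1 * G2 τ) := by
  have hd : denom A τ ≠ 0 := denom_ne_zero A τ
  -- an off-lattice point
  have h0 : OffLattice τ (om τ ![1, 0] / (2 : ℕ)) :=
    offLattice_of_notDvd (N := 2) (a := ![1, 0]) (by
      intro h
      have := h.1
      simp only [Matrix.cons_val_zero] at this
      norm_num at this) τ
  set z₀ := om τ ![1, 0] / (2 : ℕ)
  have h1 := wzeta_add_om (offLattice_smul A h0) v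
  have h2 : z₀ / denom A τ + om (A • τ) v = (z₀ + om τ (v ᵥ* A.1)) / denom A τ := by
    rw [om_smul]; field_simp
  rw [h2, wzeta_smul, wzeta_smul, wzeta_add_om h0] at h1
  simp only [eta2] at h1 ⊢
  linear_combination -h1

/-- **The `SL(2,ℤ)`-law of the weight-one Eisenstein series.** -/
theorem G1_smul (N : ℕ) (a : Fin 2 → ℤ) (A : SL(2, ℤ)) (τ : ℍ) :
    G1 N a (A • τ) = denom A τ * G1 N (a ᵥ* A.1) τ := by
  have hd : denom A τ ≠ 0 := denom_ne_zero A τ
  have e : om (A • τ) a / N = (om τ (a ᵥ* A.1) / N) / denom A τ := by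
    rw [om_smul]; field_simp
  have hq := quasi_smul A τ a
  rw [G1, G1, e, wzeta_smul]
  linear_combination (-(1 : ℂ) / N) * hq

theorem G1_slash (N : ℕ) (a : Fin 2 → ℤ) (A : SL(2, ℤ)) :
    (G1 N a) ∣[(1 : ℤ)] A = G1 N (a ᵥ* A.1) := by
  funext τ
  have hd : denom A τ ≠ 0 := denom_ne_zero A τ
  rw [SL_slash_apply, G1_smul]
  simp only [_root_.zpow_neg, zpow_one]
  field_simp

end Fermat.Agent.M48.EisOne7
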