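import Fermat.Agent.M48.EisOneHol7

/-!
# M48 (E1), part 5: the weight-one Eisenstein series `G_a` are bounded at `i∞`
-/

set_option autoImplicit false

open UpperHalfPlane hiding I
open Complex Filter Topology EisensteinSeries SummationFilter Matrix ModularForm
open scoped Real MatrixGroups Manifold

noncomputable section

namespace Fermat.Agent.M48.EisOneBdd7

open Fermat.Agent.M48.Zeta7 Fermat.Agent.M48.EisOne7 Fermat.Agent.M48.EisOneQ7

lemma exp_neg_lt_one {δ : ℝ} (hδ : 0 < δ) : Real.exp (-2 * π * δ) < 1 := by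
  rw [Real.exp_lt_one_iff]
  have := Real.pi_pos
  nlinarith

/-- The constant in the cotangent bound. -/
def KK (δ : ℝ) : ℝ := 2 * π / (1 - Real.exp (-2 * π * δ))

lemma KK_pos {δ : ℝ} (hδ : 0 < δ) : 0 < KK δ := by
  have := exp_neg_lt_one hδ
  have hpi := Real.pi_pos
  unfold KK
  apply div_pos (by positivity) (by linarith)

lemma norm_pcot_add_le' (w : ℂ) {δ : ℝ} (hδ : 0 < δ) (hw : δ ≤ w.im) :
    ‖pcot w + π * I‖ ≤ KK δ * Real.exp (-2 * π * w.im) := by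
  have hw0 : 0 < w.im := lt_of_lt_of_le hδ hw
  refine (norm_pcot_add_le w hw0).trans ?_
  have h1 := exp_neg_lt_one hδ
  have h2 : Real.exp (-2 * π * w.im) ≤ Real.exp (-2 * π * δ) := by
    apply Real.exp_le_exp.mpr
    have := Real.pi_pos
    nlinarith
  have h3 : 0 < 1 - Real.exp (-2 * π * δ) := by linarith
  have h4 : 1 - Real.exp (-2 * π * δ) ≤ 1 - Real.exp (-2 * π * w.im) := by linarith
  unfold KK
  rw [div_mul_eq_mul_div]
  have hpi := Real.pi_pos
  gcongr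

lemma norm_pcot_le (w : ℂ) {δ : ℝ} (hδ : 0 < δ) (hw : δ ≤ w.im) :
    ‖pcot w‖ ≤ π + KK δ := by
  have h := norm_pcot_add_le' w hδ hw
  have h2 : Real.exp (-2 * π * w.im) ≤ 1 := by
    rw [Real.exp_le_one_iff]
    have := Real.pi_pos
    have : 0 < w.im := lt_of_lt_of_le hδ hw
    nlinarith
  have h3 : ‖pcot w‖ ≤ ‖pcot w + π * I‖ + ‖(π : ℂ) * I‖ := by
    have := norm_sub_le (pcot w + π * I) (π * I)
    simpa using this
  have h4 : ‖(π : ℂ) * I‖ = π := by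
    rw [norm_mul, Complex.norm_I, mul_one, Complex.norm_real, Real.norm_of_nonneg Real.pi_pos.le]
  have := KK_pos hδ
  nlinarith

/-- The bound for a pair of cotangent terms. -/
lemma norm_pair_le (z : ℂ) (τ : ℍ) (m : ℕ) {δ : ℝ} (hδ : 0 < δ)
    (h1 : δ ≤ (z + m * τ).im) (h2 : δ ≤ ((m : ℂ) * τ - z).im) :
    ‖pcot (z - m * τ) + pcot (z + m * τ)‖ ≤
      KK δ * (Real.exp (-2 * π * (z + m * τ).im) + Real.exp (-2 * π * ((m : ℂ) * τ - z).im)) := by
  have e : pcot (z - m * τ) + pcot (z + m * τ) =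
      (pcot (z + m * τ) + π * I) - (pcot ((m : ℂ) * τ - z) + π * I) := by
    have : pcot (z - m * τ) = -pcot ((m : ℂ) * τ - z) := by
      rw [← pcot_neg]; congr 1; ring
    rw [this]; ring
  rw [e]
  refine (norm_sub_le _ _).trans ?_
  rw [mul_add]
  exact add_le_add (norm_pcot_add_le' _ hδ h1) (norm_pcot_add_le' _ hδ h2)

/-- `r = e^{-2π}`. -/
def rr : ℝ := Real.exp (-2 * π)

lemma rr_pos : 0 < rr := Real.exp_pos _

lemma rr_lt_one : rr < 1 := by
  rw [rr, Real.exp_lt_one_iff]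
  have := Real.pi_pos
  linarith

lemma exp_le_rr_pow {t : ℝ} {j : ℕ} (h : (j : ℝ) ≤ t) : Real.exp (-2 * π * t) ≤ rr ^ j := by
  rw [rr, ← Real.exp_nat_mul]
  apply Real.exp_le_exp.mpr
  have := Real.pi_pos
  nlinarith

lemma sum_rr_le (M : ℕ) : ∑ j ∈ Finset.range M, rr ^ j ≤ 1 / (1 - rr) := by
  have h1 := rr_lt_one
  have h0 := rr_pos
  rw [geom_sum_eq h1.ne, le_div_iff₀ (by linarith)]
  have h2 : (rr ^ M - 1) / (rr - 1) * (1 - rr) = 1 - rr ^ M := by
    have : rr - 1 ≠ 0 := by linarith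
    field_simp
    ring
  rw [h2]
  have : 0 ≤ rr ^ M := by positivity
  linarith

theorem norm_zetaE_le {τ : ℍ} {z : ℂ} {δ : ℝ} (hδ : 0 < δ) (hδ1 : δ ≤ 1) (hτ : 1 ≤ τ.im)
    (hz : OffLattice τ z) (h0 : 0 ≤ z.im) (h1 : z.im ≤ (1 - δ) * τ.im) :
    ‖zetaE τ z‖ ≤ ‖pcot z‖ + KK δ * (2 / (1 - rr)) := by
  have hs := hasSum_zetaE hz
  rw [hasSum_symmetricIcc_iff] at hs
  refine le_of_tendsto hs.norm (Eventually.of_forall fun M => ?_)
  rw [sum_Icc_eq_zero_add_range (fun m : ℤ => pcot (z - m * τ)) M]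
  have hy : (τ : ℂ).im = τ.im := rfl
  have hK := KK_pos hδ
  have hpair : ∀ j ∈ Finset.range M,
      ‖pcot (z - (((j : ℤ) + 1 : ℤ) : ℂ) * τ) + pcot (z - ((-((j : ℤ) + 1) : ℤ) : ℂ) * τ)‖ ≤
        KK δ * (rr ^ (j + 1) + rr ^ j) := by
    intro j _
    have e1 : z - (((j : ℤ) + 1 : ℤ) : ℂ) * τ = z - ((j + 1 : ℕ) : ℂ) * τ := by push_cast; ring
    have e2 : z - ((-((j : ℤ) + 1) : ℤ) : ℂ) * τ = z + ((j + 1 : ℕ) : ℂ) * τ := by
      push_cast; ring
    rw [e1, e2]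
    have i1 : (z + ((j + 1 : ℕ) : ℂ) * τ).im = z.im + (j + 1) * τ.im := by
      simp [Complex.add_im, Complex.mul_im, hy]
    have i2 : (((j + 1 : ℕ) : ℂ) * τ - z).im = (j + 1) * τ.im - z.im := by
      simp [Complex.sub_im, Complex.mul_im, hy]
    have hj : (0 : ℝ) ≤ j := Nat.cast_nonneg j
    have b1 : ((j + 1 : ℕ) : ℝ) ≤ (z + ((j + 1 : ℕ) : ℂ) * τ).im := by
      rw [i1]; push_cast; nlinarith
    have b2 : ((j : ℕ) : ℝ) ≤ (((j + 1 : ℕ) : ℂ) * τ - z).im := by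
      rw [i2]; nlinarith
    have c1 : δ ≤ (z + ((j + 1 : ℕ) : ℂ) * τ).im := by
      refine le_trans ?_ b1
      push_cast; linarith
    have c2 : δ ≤ (((j + 1 : ℕ) : ℂ) * τ - z).im := by
      rw [i2]; nlinarith
    refine (norm_pair_le z τ (j + 1) hδ c1 c2).trans ?_
    gcongr
    · exact exp_le_rr_pow b1
    · exact exp_le_rr_pow b2
  calc ‖pcot (z - ((0 : ℤ) : ℂ) * τ) + ∑ j ∈ Finset.range M,
        (pcot (z - (((j : ℤ) + 1 : ℤ) : ℂ) * τ) + pcot (z - ((-((j : ℤ) + 1) : ℤ) : ℂ) * τ))‖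
      ≤ ‖pcot (z - ((0 : ℤ) : ℂ) * τ)‖ + ∑ j ∈ Finset.range M, KK δ * (rr ^ (j + 1) + rr ^ j) := by
        refine (norm_add_le _ _).trans (add_le_add le_rfl ?_)
        exact (norm_sum_le _ _).trans (Finset.sum_le_sum hpair)
    _ ≤ ‖pcot z‖ + KK δ * (2 / (1 - rr)) := by
        have e0 : z - ((0 : ℤ) : ℂ) * τ = z := by simp
        rw [e0, ← Finset.mul_sum]
        have hsum : ∑ j ∈ Finset.range M, (rr ^ (j + 1) + rr ^ j) ≤ 2 / (1 - rr) := by
          have h3 := sum_rr_le M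
          have h4 : ∑ j ∈ Finset.range M, rr ^ (j + 1) ≤ ∑ j ∈ Finset.range M, rr ^ j := by
            apply Finset.sum_le_sum
            intro j _
            rw [pow_succ]
            have := rr_lt_one
            have : 0 ≤ rr ^ j := by have := rr_pos; positivity
            nlinarith
          rw [Finset.sum_add_distrib]
          have : 2 / (1 - rr) = 1 / (1 - rr) + 1 / (1 - rr) := by ring
          linarith
        gcongr

/-- Reduction of the first coordinate modulo `N`. -/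
lemma G1_reduce {N : ℕ} [NeZero N] {a : Fin 2 → ℤ} (ha : NotDvd N a) :
    NotDvd N ![a 0 % N, a 1] ∧ G1 N a = G1 N ![a 0 % N, a 1] := by
  have hnd : NotDvd N ![a 0 % N, a 1] := by
    intro h
    apply ha
    refine ⟨?_, by simpa using h.2⟩
    have h1 : (N : ℤ) ∣ a 0 % N := by simpa using h.1
    exact (Int.dvd_iff_emod_eq_zero ..).mpr (by
      have := Int.emod_emod_of_dvd (a 0) (dvd_refl (N : ℤ))
      rw [← this]
      exact (Int.dvd_iff_emod_eq_zero ..).mp h1)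
  refine ⟨hnd, ?_⟩
  funext τ
  have e : a = ![a 0 % N, a 1] + (N : ℤ) • ![a 0 / N, 0] := by
    funext i
    fin_cases i
    · simp [Int.emod_add_mul_ediv]
    · simp
  conv_lhs => rw [e]
  exact G1_add_smul hnd _ τ

theorem isBoundedAtImInfty_G1 {N : ℕ} [NeZero N] {a : Fin 2 → ℤ} (ha : NotDvd N a) :
    IsBoundedAtImInfty (G1 N a) := by
  obtain ⟨hnd, hG⟩ := G1_reduce ha
  rw [hG]
  set a₀ : ℤ := a 0 % N with ha₀
  have hNpos : (0 : ℤ) < N := by exact_mod_cast Nat.pos_of_ne_zero (NeZero.ne N)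
  have h0 : 0 ≤ a₀ := Int.emod_nonneg _ hNpos.ne'
  have h1 : a₀ < N := Int.emod_lt_of_pos _ hNpos
  have hN2 : 2 ≤ N := by
    by_contra h
    have : N = 1 := by
      have := Nat.pos_of_ne_zero (NeZero.ne N)
      omega
    apply ha
    subst this
    simp
  have hNR : (0 : ℝ) < N := by exact_mod_cast Nat.pos_of_ne_zero (NeZero.ne N)
  set δ : ℝ := 1 / N with hδdef
  have hδ : 0 < δ := by positivity
  have hδ1 : δ ≤ 1 := by
    rw [hδdef, div_le_one hNR]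
    exact_mod_cast Nat.one_le_of_lt hN2
  rw [UpperHalfPlane.isBoundedAtImInfty_iff]
  refine ⟨‖pcot ((a 1 : ℂ) / N)‖ + (π + KK δ) + KK δ * (2 / (1 - rr)) + 2 * π, 1, ?_⟩
  intro τ hτ
  have hNC : (N : ℂ) ≠ 0 := Nat.cast_ne_zero.mpr (NeZero.ne N)
  rw [G1_eq_zetaE hnd]
  set z : ℂ := om τ ![a₀, a 1] / N with hz
  have hzim : z.im = a₀ * τ.im / N := by
    rw [hz, om]
    simp only [Matrix.cons_val_zero, Matrix.cons_val_one]
    have : ((a₀ : ℂ) * τ + (a 1 : ℂ)) / (N : ℂ) = (((a₀ : ℂ) * τ + (a 1 : ℂ))) * ((N : ℝ)⁻¹ : ℝ) := by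
      push_cast; rw [div_eq_mul_inv]
    rw [this, Complex.mul_im]
    simp [Complex.add_im, Complex.mul_im]
    field_simp
  have ha₀R : (0 : ℝ) ≤ a₀ := by exact_mod_cast h0
  have ha₀N : (a₀ : ℝ) ≤ N - 1 := by
    have : a₀ ≤ N - 1 := by omega
    exact_mod_cast this
  have hτpos : 0 < τ.im := τ.im_pos
  have z0 : 0 ≤ z.im := by rw [hzim]; positivity
  have z1 : z.im ≤ (1 - δ) * τ.im := by
    rw [hzim, hδdef, div_le_iff₀ hNR]
    have : (1 - 1 / (N : ℝ)) * τ.im * N = (N - 1) * τ.im := by field_simp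
    rw [this]
    nlinarith
  have hoff := offLattice_of_notDvd hnd τ
  have hb := norm_zetaE_le hδ hδ1 hτ hoff z0 z1
  have hp : ‖pcot z‖ ≤ ‖pcot ((a 1 : ℂ) / N)‖ + (π + KK δ) := by
    by_cases hz0 : a₀ = 0
    · have : z = (a 1 : ℂ) / N := by
        rw [hz, om, hz0]; simp
      rw [this]
      have := KK_pos hδ
      have := Real.pi_pos
      linarith [norm_nonneg (pcot ((a 1 : ℂ) / N))]
    · have h1' : (1 : ℝ) ≤ a₀ := by
        have : 1 ≤ a₀ := by omega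
        exact_mod_cast this
      have : δ ≤ z.im := by
        rw [hzim, hδdef, div_le_div_iff_of_pos_right hNR]
        nlinarith
      have := norm_pcot_le z hδ this
      linarith [norm_nonneg (pcot ((a 1 : ℂ) / N))]
  have h2 : ‖2 * (π : ℂ) * I * ((![a₀, a 1] 0 : ℤ) : ℂ) / N‖ ≤ 2 * π := by
    simp only [Matrix.cons_val_zero]
    rw [norm_div, norm_mul, norm_mul, norm_mul, Complex.norm_I, Complex.norm_ofNat,
      Complex.norm_real, Real.norm_of_nonneg Real.pi_pos.le, Complex.norm_natCast, mul_one,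
      Complex.norm_intCast, div_le_iff₀ hNR]
    have : |(a₀ : ℝ)| ≤ N := by
      rw [abs_of_nonneg ha₀R]; linarith
    have := Real.pi_pos
    nlinarith
  calc ‖zetaE τ z + 2 * π * I * ((![a₀, a 1] 0 : ℤ) : ℂ) / N‖
      ≤ ‖zetaE τ z‖ + ‖2 * (π : ℂ) * I * ((![a₀, a 1] 0 : ℤ) : ℂ) / N‖ := norm_add_le _ _
    _ ≤ _ := by linarith

end Fermat.Agent.M48.EisOneBdd7
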