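import Fermat.Agent.M48.EisOneQ7

/-!
# M48 (E1), part 4: holomorphy from a `q`-expansion, and the `q`-expansion of `G_{(0,c)}`
-/

set_option autoImplicit false

open UpperHalfPlane hiding I
open Complex Filter Topology EisensteinSeries SummationFilter Matrix ModularForm
open scoped Real MatrixGroups Manifold

noncomputable section

namespace Fermat.Agent.M48.EisOneHol7

open Fermat.Agent.M48.Zeta7 Fermat.Agent.M48.EisOne7 Fermat.Agent.M48.EisOneQ7

/-- A point of the upper half plane with prescribed real `q ∈ (0,1)`. -/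
lemma exists_qq_eq (r : ℝ) (hr0 : 0 < r) (hr1 : r < 1) : ∃ τ : ℍ, qq τ = r := by
  have hlog : Real.log r < 0 := Real.log_neg hr0 hr1
  set t : ℝ := -Real.log r / (2 * π) with ht
  have hpos : 0 < t := div_pos (by linarith) (by positivity)
  have him : 0 < (I * (t : ℂ)).im := by
    simp only [Complex.mul_im, Complex.I_re, Complex.ofReal_im, mul_zero, Complex.I_im,
      Complex.ofReal_re, one_mul, zero_add]
    exact hpos
  refine ⟨⟨I * (t : ℂ), him⟩, ?_⟩
  rw [qq]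
  have hpi : (π : ℝ) ≠ 0 := Real.pi_ne_zero
  have h2 : 2 * π * t = -Real.log r := by rw [ht]; field_simp
  have : 2 * (π : ℂ) * I * (I * (t : ℂ)) = ((Real.log r : ℝ) : ℂ) := by
    have h3 : ((2 * π * t : ℝ) : ℂ) = ((-Real.log r : ℝ) : ℂ) := by rw [h2]
    push_cast at h3
    linear_combination (2 * (π : ℂ) * t) * Complex.I_sq - h3
  change cexp (2 * π * I * (I * (t : ℂ))) = r
  rw [this, ← Complex.ofReal_exp, Real.exp_log hr0]

/-- A function on `ℍ` given by a convergent power series in `q` is holomorphic. -/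
theorem mdifferentiable_of_hasSum_qq {f : ℍ → ℂ} {c : ℕ → ℂ}
    (hf : ∀ τ : ℍ, HasSum (fun m : ℕ => c m * qq τ ^ m) (f τ)) : MDiff f := by
  rw [UpperHalfPlane.mdifferentiable_iff]
  intro z hz
  apply DifferentiableAt.differentiableWithinAt
  set τ₀ : ℍ := ⟨z, hz⟩
  -- a radius between `‖q(τ₀)‖` and `1`
  obtain ⟨r, hr1, hr2⟩ := exists_between (norm_qq_lt_one τ₀)
  have hr0 : 0 < r := lt_of_le_of_lt (norm_nonneg _) hr1
  obtain ⟨τ₁, hτ₁⟩ := exists_qq_eq r hr0 hr2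
  have hsum : Summable (fun m : ℕ => ‖c m‖ * r ^ m) := by
    have := (hf τ₁).summable.norm
    simpa [hτ₁, norm_mul, norm_pow, abs_of_pos hr0] using this
  have hG : DifferentiableOn ℂ (fun q : ℂ => ∑' m : ℕ, c m * q ^ m) (Metric.ball 0 r) := by
    apply differentiableOn_tsum_of_summable_norm hsum
    · intro m
      fun_prop
    · exact Metric.isOpen_ball
    · intro m w hw
      rw [norm_mul, norm_pow]
      have : ‖w‖ ≤ r := by
        rw [Metric.mem_ball, dist_zero_right] at hw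
        exact hw.le
      gcongr
  have hq0 : cexp (2 * π * I * z) ∈ Metric.ball (0 : ℂ) r := by
    rw [Metric.mem_ball, dist_zero_right]
    exact hr1
  have hG' : DifferentiableAt ℂ (fun q : ℂ => ∑' m : ℕ, c m * q ^ m) (cexp (2 * π * I * z)) :=
    hG.differentiableAt (Metric.isOpen_ball.mem_nhds hq0)
  have hcomp : DifferentiableAt ℂ
      ((fun q : ℂ => ∑' m : ℕ, c m * q ^ m) ∘ (fun w : ℂ => cexp (2 * π * I * w))) z :=
    DifferentiableAt.comp (𝕜 := ℂ) z hG'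
      (show DifferentiableAt ℂ (fun w : ℂ => cexp (2 * π * I * w)) z by fun_prop)
  refine hcomp.congr_of_eventuallyEq ?_
  filter_upwards [isOpen_upperHalfPlaneSet.mem_nhds hz] with w hw
  simp only [Function.comp_apply]
  rw [UpperHalfPlane.ofComplex_apply_of_im_pos hw]
  exact ((hf ⟨w, hw⟩).tsum_eq).symm

local notation "ℂ_ℤ" => Complex.integerComplement

/-- The `q`-coefficients of `G_{(0,c)}`. -/
def coeffG (N : ℕ) (c : ℤ) (k : ℕ) : ℂ :=
  if k = 0 then pcot ((c : ℂ) / N) else -(2 * π * I) * ∑ n ∈ k.divisors, bb ((c : ℝ) / N) n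

lemma div_mem_integerComplement {N : ℕ} [NeZero N] {c : ℤ} (hc : ¬ (N : ℤ) ∣ c) :
    (((c : ℝ) / N : ℝ) : ℂ) ∈ ℂ_ℤ := by
  rw [Complex.mem_integerComplement_iff]
  rintro ⟨n, hn⟩
  apply hc
  have hN : (N : ℝ) ≠ 0 := Nat.cast_ne_zero.mpr (NeZero.ne N)
  have h1 : (n : ℝ) = (c : ℝ) / N := by exact_mod_cast hn
  have h2 : (c : ℝ) = n * N := by rw [h1]; field_simp
  have h3 : c = n * N := by exact_mod_cast h2
  exact ⟨n, by rw [h3]; ring⟩

theorem hasSum_G1_zero {N : ℕ} [NeZero N] {c : ℤ} (hc : ¬ (N : ℤ) ∣ c) (τ : ℍ) :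
    HasSum (fun k : ℕ => coeffG N c k * qq τ ^ k) (G1 N ![0, c] τ) := by
  have hnd : NotDvd N ![0, c] := by
    intro h
    exact hc (by simpa using h.2)
  have hx := div_mem_integerComplement hc
  have e0 : om τ ![0, c] / N = (((c : ℝ) / N : ℝ) : ℂ) := by
    simp [om]
  rw [G1_eq_zetaE hnd, e0, zetaE_real_eq _ hx]
  have h1 := (hasSum_lambert (bb ((c : ℝ) / N)) 2 (norm_bb_le _) (qq τ)
    (norm_qq_lt_one τ)).mul_left (-(2 * π * I))
  have h2 : HasSum (fun k : ℕ+ => coeffG N c k * qq τ ^ (k : ℕ))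
      (-(2 * π * I) * ∑' m : ℕ+, ∑' n : ℕ+, bb ((c : ℝ) / N) n * qq τ ^ ((m : ℕ) * (n : ℕ))) := by
    refine h1.congr_fun fun k => ?_
    rw [coeffG, if_neg k.pos.ne']
    ring
  rw [hasSum_pnat_iff_hasSum_succ (f := fun k : ℕ => coeffG N c k * qq τ ^ k)] at h2
  have h3 : HasSum (fun k : ℕ => coeffG N c k * qq τ ^ k) (pcot ((c : ℂ) / N) +
      -(2 * π * I) * ∑' m : ℕ+, ∑' n : ℕ+, bb ((c : ℝ) / N) n * qq τ ^ ((m : ℕ) * (n : ℕ))) := by
    rw [← hasSum_nat_add_iff' 1]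
    have e : pcot ((c : ℂ) / N) +
        -(2 * π * I) * ∑' m : ℕ+, ∑' n : ℕ+, bb ((c : ℝ) / N) n * qq τ ^ ((m : ℕ) * (n : ℕ)) -
        ∑ i ∈ Finset.range 1, coeffG N c i * qq τ ^ i =
        -(2 * π * I) * ∑' m : ℕ+, ∑' n : ℕ+, bb ((c : ℝ) / N) n * qq τ ^ ((m : ℕ) * (n : ℕ)) := by
      simp [coeffG]
    rw [e]
    exact h2
  have e2 : pcot (((c : ℝ) / N : ℝ) : ℂ) -
      2 * π * I * ∑' m : ℕ+, ∑' n : ℕ+, bb ((c : ℝ) / N) n * qq τ ^ ((m : ℕ) * (n : ℕ)) +
      2 * π * I * ((![0, c] 0 : ℤ) : ℂ) / N =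
      pcot ((c : ℂ) / N) +
      -(2 * π * I) * ∑' m : ℕ+, ∑' n : ℕ+, bb ((c : ℝ) / N) n * qq τ ^ ((m : ℕ) * (n : ℕ)) := by
    simp only [Matrix.cons_val_zero, Int.cast_zero, mul_zero, zero_div, add_zero]
    push_cast
    ring
  rw [e2]
  exact h3

end Fermat.Agent.M48.EisOneHol7
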