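import Fermat.Agent.M48.EisOne7

/-!
# M48 (E1), part 3: the `q`-expansion of `G_{(0,c)}`

`G1 N ![0, c] τ = π cot(π c/N) - 2πi ∑_{k ≥ 1} (∑_{n ∣ k} (ζ^{cn} - ζ^{-cn})) q^k`, `ζ = e^{2πi/N}`.
-/

set_option autoImplicit false

open UpperHalfPlane hiding I
open Complex Filter Topology EisensteinSeries SummationFilter Matrix ModularForm
open scoped Real MatrixGroups

noncomputable section

namespace Fermat.Agent.M48.EisOneQ7

open Fermat.Agent.M48.Zeta7 Fermat.Agent.M48.EisOne7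

/-- `q = exp(2πiτ)`. -/
def qq (τ : ℍ) : ℂ := cexp (2 * π * I * τ)

lemma norm_qq_lt_one (τ : ℍ) : ‖qq τ‖ < 1 := by
  rw [qq, norm_exp_two_pi_I_mul, Real.exp_lt_one_iff]
  have := Real.pi_pos
  have := τ.im_pos
  have : (τ : ℂ).im = τ.im := rfl
  nlinarith

lemma pcot_eq_tsum (w : ℂ) (hw : 0 < w.im) :
    pcot w = -(π * I) - 2 * π * I * ∑' n : ℕ+, cexp (2 * π * I * w) ^ (n : ℕ) := by
  have h := pi_mul_cot_pi_q_exp ⟨w, hw⟩
  have hlt : ‖cexp (2 * π * I * w)‖ < 1 := by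
    rw [norm_exp_two_pi_I_mul, Real.exp_lt_one_iff]
    have := Real.pi_pos
    nlinarith
  have hs : Summable (fun n : ℕ => cexp (2 * π * I * w) ^ n) :=
    summable_geometric_of_norm_lt_one hlt
  rw [tsum_pnat_eq_tsum_succ (f := fun n => cexp (2 * π * I * w) ^ n)]
  have h2 := hs.tsum_eq_zero_add
  simp only [pow_zero] at h2
  have h3 : (∑' n : ℕ, cexp (2 * π * I * w) ^ (n + 1)) =
      (∑' n : ℕ, cexp (2 * π * I * w) ^ n) - 1 := by rw [h2]; ring
  rw [h3, pcot]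
  change (π : ℂ) * Complex.cot (π * w) = _
  have h' : (π : ℂ) * Complex.cot (π * w) =
      π * I - 2 * π * I * ∑' n : ℕ, cexp (2 * π * I * w) ^ n := h
  rw [h']
  ring

/-- `b_n = e^{2πinx} - e^{-2πinx}`. -/
def bb (x : ℝ) (n : ℕ) : ℂ := cexp (2 * π * I * x) ^ n - cexp (-(2 * π * I * x)) ^ n

lemma norm_exp_real (x : ℝ) : ‖cexp (2 * π * I * x)‖ = 1 := by
  rw [norm_exp_two_pi_I_mul]
  simp

lemma norm_exp_neg_real (x : ℝ) : ‖cexp (-(2 * π * I * x))‖ = 1 := by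
  have : -(2 * (π : ℂ) * I * x) = 2 * π * I * ((-x : ℝ) : ℂ) := by push_cast; ring
  rw [this, norm_exp_real]

lemma norm_bb_le (x : ℝ) (n : ℕ) : ‖bb x n‖ ≤ 2 := by
  refine (norm_sub_le _ _).trans ?_
  rw [norm_pow, norm_pow, norm_exp_real, norm_exp_neg_real]
  norm_num

lemma summable_pnat_pow {u : ℂ} (hu : ‖u‖ < 1) : Summable (fun n : ℕ+ => u ^ (n : ℕ)) :=
  (summable_geometric_of_norm_lt_one hu).comp_injective PNat.coe_injective

lemma pair_eq (x : ℝ) (τ : ℍ) (m : ℕ) (hm : 0 < m) :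
    pcot ((x : ℂ) + m * τ) + pcot ((x : ℂ) - m * τ) =
      -(2 * π * I) * ∑' n : ℕ+, bb x n * qq τ ^ (m * (n : ℕ)) := by
  have hτ : 0 < (τ : ℂ).im := τ.im_pos
  have hm' : (0 : ℝ) < m := by exact_mod_cast hm
  have h1 : 0 < ((x : ℂ) + m * τ).im := by
    simp only [Complex.add_im, Complex.ofReal_im, Complex.mul_im, Complex.natCast_re,
      Complex.natCast_im, zero_mul, add_zero, zero_add]
    positivity
  have h2 : 0 < ((m : ℂ) * τ - x).im := by
    simp only [Complex.sub_im, Complex.ofReal_im, Complex.mul_im, Complex.natCast_re,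
      Complex.natCast_im, zero_mul, add_zero, sub_zero]
    positivity
  have e : pcot ((x : ℂ) - m * τ) = -pcot ((m : ℂ) * τ - x) := by
    rw [← pcot_neg]; congr 1; ring
  rw [e, pcot_eq_tsum _ h1, pcot_eq_tsum _ h2]
  have q1 : ∀ n : ℕ, cexp (2 * π * I * ((x : ℂ) + m * τ)) ^ n =
      cexp (2 * π * I * x) ^ n * qq τ ^ (m * n) := by
    intro n
    rw [qq, pow_mul, ← mul_pow, ← Complex.exp_nat_mul _ m, ← Complex.exp_add]
    congr 2; ring
  have q2 : ∀ n : ℕ, cexp (2 * π * I * ((m : ℂ) * τ - x)) ^ n =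
      cexp (-(2 * π * I * x)) ^ n * qq τ ^ (m * n) := by
    intro n
    rw [qq, pow_mul, ← mul_pow, ← Complex.exp_nat_mul _ m, ← Complex.exp_add]
    congr 2; ring
  have n1 : ‖cexp (2 * π * I * ((x : ℂ) + m * τ))‖ < 1 := by
    rw [norm_exp_two_pi_I_mul, Real.exp_lt_one_iff]
    have := Real.pi_pos
    nlinarith
  have n2 : ‖cexp (2 * π * I * ((m : ℂ) * τ - x))‖ < 1 := by
    rw [norm_exp_two_pi_I_mul, Real.exp_lt_one_iff]
    have := Real.pi_pos
    nlinarith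
  have s1 := summable_pnat_pow n1
  have s2 := summable_pnat_pow n2
  have : ∑' n : ℕ+, bb x n * qq τ ^ (m * (n : ℕ)) =
      ∑' n : ℕ+, cexp (2 * π * I * ((x : ℂ) + m * τ)) ^ (n : ℕ) -
        ∑' n : ℕ+, cexp (2 * π * I * ((m : ℂ) * τ - x)) ^ (n : ℕ) := by
    rw [← s1.tsum_sub s2]
    refine tsum_congr fun n => ?_
    rw [q1, q2, bb]
    ring
  rw [this]
  ring

/-- General Lambert rearrangement: `∑_{m,n ≥ 1} b_n q^{mn} = ∑_k (∑_{n ∣ k} b_n) q^k`. -/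
lemma summable_lambert_prod (b : ℕ → ℂ) (C : ℝ) (hb : ∀ n, ‖b n‖ ≤ C) (q : ℂ) (hq : ‖q‖ < 1) :
    Summable (fun c : ℕ+ × ℕ+ => b c.2 * q ^ ((c.1 : ℕ) * (c.2 : ℕ))) := by
  have h := summable_prod_mul_pow (𝕜 := ℝ) 0 (r := ‖q‖) (by simpa using hq)
  refine Summable.of_norm_bounded (g := fun c : ℕ+ × ℕ+ => C * ‖q‖ ^ ((c.1 : ℕ) * (c.2 : ℕ)))
    ?_ ?_
  · simpa using h.mul_left C
  · intro c
    rw [norm_mul, norm_pow]
    gcongr
    exact hb _

lemma hasSum_lambert (b : ℕ → ℂ) (C : ℝ) (hb : ∀ n, ‖b n‖ ≤ C) (q : ℂ) (hq : ‖q‖ < 1) :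
    HasSum (fun k : ℕ+ => (∑ n ∈ (k : ℕ).divisors, b n) * q ^ (k : ℕ))
      (∑' m : ℕ+, ∑' n : ℕ+, b n * q ^ ((m : ℕ) * (n : ℕ))) := by
  have hs := summable_lambert_prod b C hb q hq
  have h1 : HasSum (fun c : ℕ+ × ℕ+ => b c.2 * q ^ ((c.1 : ℕ) * (c.2 : ℕ)))
      (∑' m : ℕ+, ∑' n : ℕ+, b n * q ^ ((m : ℕ) * (n : ℕ))) := by
    rw [← hs.tsum_prod]
    exact hs.hasSum
  have h2 := sigmaAntidiagonalEquivProd.hasSum_iff.mpr h1
  refine (h2.sigma fun k => hasSum_fintype _).congr_fun fun k => ?_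
  simp only [Function.comp_apply, sigmaAntidiagonalEquivProd, Equiv.coe_fn_mk,
    divisorsAntidiagonalFactors, PNat.mk_coe]
  rw [Finset.sum_coe_sort (k : ℕ).divisorsAntidiagonal
    (fun x : ℕ × ℕ => b x.2 * q ^ (x.1 * x.2))]
  rw [Finset.sum_mul, ← Nat.sum_divisorsAntidiagonal' (fun x y => b y * q ^ (k : ℕ))]
  apply Finset.sum_congr rfl
  intro x hx
  rw [(Nat.mem_divisorsAntidiagonal.mp hx).1]

local notation "ℂ_ℤ" => Complex.integerComplement

lemma offLattice_real (x : ℝ) (hx : (x : ℂ) ∈ ℂ_ℤ) (τ : ℍ) : OffLattice τ x := by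
  intro v h
  rw [Complex.mem_integerComplement_iff] at hx
  apply hx
  have him := congrArg Complex.im h
  simp only [om, Complex.ofReal_im, Complex.add_im, Complex.mul_im, Complex.intCast_re,
    Complex.intCast_im, zero_mul, add_zero] at him
  have hτ : 0 < (τ : ℂ).im := τ.im_pos
  have hv0 : v 0 = 0 := by
    have : (v 0 : ℝ) * (τ : ℂ).im = 0 := by linarith
    rcases mul_eq_zero.mp this with h0 | h0
    · exact_mod_cast h0
    · linarith
  refine ⟨v 1, ?_⟩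
  rw [h, om, hv0]
  simp

/-- Eisenstein summation at a real non-integral point, as a double `q`-series. -/
theorem zetaE_real_eq (x : ℝ) (hx : (x : ℂ) ∈ ℂ_ℤ) (τ : ℍ) :
    zetaE τ x = pcot x -
      2 * π * I * ∑' m : ℕ+, ∑' n : ℕ+, bb x n * qq τ ^ ((m : ℕ) * (n : ℕ)) := by
  have h1 := hasSum_zetaE (offLattice_real x hx τ)
  rw [hasSum_symmetricIcc_iff] at h1
  have hs := summable_lambert_prod (bb x) 2 (norm_bb_le x) (qq τ) (norm_qq_lt_one τ)
  have hs1 : Summable (fun m : ℕ+ => ∑' n : ℕ+, bb x n * qq τ ^ ((m : ℕ) * (n : ℕ))) :=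
    hs.prod
  have hs2 : Summable (fun j : ℕ => ∑' n : ℕ+, bb x n * qq τ ^ ((j + 1) * (n : ℕ))) := by
    have := (summable_pnat_iff_summable_succ
      (f := fun m : ℕ => ∑' n : ℕ+, bb x n * qq τ ^ (m * (n : ℕ)))).mp hs1
    exact this
  have h2 : Tendsto (fun M : ℕ => ∑ m ∈ Finset.Icc (-(M : ℤ)) M, pcot ((x : ℂ) - m * τ)) atTop
      (𝓝 (pcot x + -(2 * π * I) *
        ∑' j : ℕ, ∑' n : ℕ+, bb x n * qq τ ^ ((j + 1) * (n : ℕ)))) := by
    have := ((hs2.hasSum.mul_left (-(2 * π * I))).tendsto_sum_nat).const_add (pcot x)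
    refine this.congr fun M => ?_
    rw [sum_Icc_eq_zero_add_range (fun m : ℤ => pcot ((x : ℂ) - m * τ)) M]
    congr 1
    · simp
    · apply Finset.sum_congr rfl
      intro j _
      have := pair_eq x τ (j + 1) (Nat.succ_pos j)
      rw [← this]
      push_cast
      ring_nf
  have := tendsto_nhds_unique h1 h2
  rw [this, tsum_pnat_eq_tsum_succ
    (f := fun m : ℕ => ∑' n : ℕ+, bb x n * qq τ ^ (m * (n : ℕ)))]
  ring

end Fermat.Agent.M48.EisOneQ7
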