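/-
Programme M48 (target S48), pillar (P1), chapter [IG1] — lead.  **The generic realised family**: all
`SL(2, ℤ)`-translates of a set of base functions, and the `IG1Plug9.AnaData` package for it.

* `famOf B g hx : RealFam ι n` : index `B × SL(2, ℤ)`, functions `g b ∘ σ`, expansions chosen from
  `hx : ∀ b σ, ∃ a, Rel ι n a (compSL (g b) σ)`; stability under `SL(2, ℤ)` is automatic.
* `rho_eq_one_of_normal` : a NORMAL subgroup fixing all `g b` acts trivially;
  `f_mem_HolH`, `mem_A_of_rel`, `N_le_fracField`.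
* **`anaData_famOf`** : for `B = gensO O M`, `g = fS`: `AnaData O M (famOf …) ζ fS` from
  [ζ], `Γ(M)`-invariance and holomorphy of the `fS s`, `hSrel`, (intA), (sepA).

Imported by no statement.
-/
import Mathlib
import Fermat.Agent.M48.IG1Plug9

set_option autoImplicit false
set_option linter.unusedSectionVars false
set_option synthInstance.maxHeartbeats 400000

noncomputable section

open HahnSeries ModularCurve IntermediateField UpperHalfPlane
open scoped MatrixGroups

namespace Fermat.Agent.M48.FullFam0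

open Fermat.Agent.RED.PUR.GaussGen8
open Fermat.Agent.M48.DictIface4 Fermat.Agent.M48.IG1Fam0 Fermat.Agent.M48.IG1Plug9
open Fermat.Agent.M48.FullLevelGen6 Fermat.Agent.X0 Fermat.Agent.X0.QExpAffine

section Fam

variable {K : Type} [Field K] {ι : K →+* ℂ} {n : ℕ} [NeZero n]

/-- The family of all `SL(2, ℤ)`-translates of the base functions `g b`. -/
def famOf (B : Type) (g : B → ℍ → ℂ)
    (hx : ∀ (b : B) (σ : SL(2, ℤ)), ∃ a : LaurentSeries K, Rel ι n a (compSL (g b) σ)) :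
    RealFam ι n where
  I := B × SL(2, ℤ)
  f := fun i => compSL (g i.1) i.2
  x := fun i => (hx i.1 i.2).choose
  rel := fun i => (hx i.1 i.2).choose_spec
  perm := fun γ i => ⟨(i.1, i.2 * γ), compSL_compSL _ _ _⟩

variable {B : Type} {g : B → ℍ → ℂ}
  {hx : ∀ (b : B) (σ : SL(2, ℤ)), ∃ a : LaurentSeries K, Rel ι n a (compSL (g b) σ)}

/-- A normal subgroup fixing all base functions acts trivially on the field of the family. -/
theorem rho_eq_one_of_normal (Γ : Subgroup SL(2, ℤ)) [Γ.Normal]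
    (hinv : ∀ b, ∀ γ ∈ Γ, compSL (g b) γ = g b) (γ : SL(2, ℤ)) (hγ : γ ∈ Γ) :
    (famOf B g hx).rho γ = 1 := by
  apply RealFam.rho_eq_one_of_fix
  rintro ⟨b, σ⟩
  show compSL (compSL (g b) σ) γ = compSL (g b) σ
  have h1 : σ * γ * σ⁻¹ ∈ Γ := Subgroup.Normal.conj_mem inferInstance γ hγ σ
  have h2 : σ * γ = (σ * γ * σ⁻¹) * σ := by group
  rw [compSL_compSL, h2, ← compSL_compSL, hinv b _ h1]

theorem f_mem_HolH (hhol : ∀ b, g b ∈ HolH) (i : (famOf B g hx).I) :
    (famOf B g hx).f i ∈ HolH :=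
  compSL_mem_HolH (hhol i.1) i.2

/-- every expansion of a translate lies in `A`. -/
theorem mem_A_of_rel {a : LaurentSeries K} {b : B} {σ : SL(2, ℤ)}
    (ha : Rel ι n a (compSL (g b) σ)) : a ∈ (famOf B g hx).A := by
  have h1 : a = (famOf B g hx).x (b, σ) := ha.left_unique ((famOf B g hx).rel (b, σ))
  rw [h1]
  exact Algebra.subset_adjoin ⟨(b, σ), rfl⟩

theorem mem_A_of_rel_base {a : LaurentSeries K} {b : B} (ha : Rel ι n a (g b)) :
    a ∈ (famOf B g hx).A := by
  have : Rel ι n a (compSL (g b) 1) := by rw [compSL_one']; exact ha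
  exact mem_A_of_rel this

/-- if all translates have expansions in the Gauss ring, `N ⊂ Frac O((Q))`. -/
theorem N_le_fracField (O : ValuationSubring K)
    (hint : ∀ (b : B) (σ : SL(2, ℤ)), ∃ a' : LaurentSeries K,
      Rel ι n a' (compSL (g b) σ) ∧ a' ∈ gaussRing O) :
    (famOf B g hx).N ≤ fracField O := by
  rw [IntermediateField.adjoin_le_iff]
  rintro _ ⟨⟨b, σ⟩, rfl⟩
  obtain ⟨a', hrel, ha'⟩ := hint b σ
  have h1 : (famOf B g hx).x (b, σ) = a' := ((famOf B g hx).rel (b, σ)).left_unique hrel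
  rw [h1]
  exact gaussRing_le_fracField O ha'

end Fam

/-! ### The package for the model generators -/

section Package

variable {K : Type} [Field K] [CharZero K] (O : ValuationSubring K) [IsDiscreteValuationRing ↥O]
  (M : ℕ) [NeZero M] {ι : K →+* ℂ}

/-- existence of expansions from (intA). -/
theorem hx_of_hint (fS : LaurentSeries ↥O → ℍ → ℂ)
    (hint : ∀ s ∈ gensO O M, ∀ γ : SL(2, ℤ), ∃ a' : LaurentSeries K,
      Rel ι M a' (compSL (fS s) γ) ∧ a' ∈ gaussRing O)
    (b : ↥(gensO O M)) (σ : SL(2, ℤ)) :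
    ∃ a : LaurentSeries K, Rel ι M a (compSL (fS b.1) σ) := by
  obtain ⟨a', h, -⟩ := hint b.1 b.2 σ
  exact ⟨a', h⟩

/-- **`AnaData` for the family of all translates of the model generators.** -/
theorem anaData_famOf (ζ : K) (hζ0 : ζ ≠ 0) (hζ : ι ζ = zetaC M) (hζO : ζ ∈ O) (hζO' : ζ⁻¹ ∈ O)
    (fS : LaurentSeries ↥O → ℍ → ℂ)
    (hinv : ∀ s ∈ gensO O M, ∀ γ ∈ CongruenceSubgroup.Gamma M, compSL (fS s) γ = fS s)
    (hhol : ∀ s ∈ gensO O M, fS s ∈ HolH)
    (hSrel : ∀ s ∈ gensO O M, Rel ι M (qExpand K M (embK O s)) (fS s))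
    (hint : ∀ s ∈ gensO O M, ∀ γ : SL(2, ℤ), ∃ a' : LaurentSeries K,
      Rel ι M a' (compSL (fS s) γ) ∧ a' ∈ gaussRing O)
    (hsepA : ∀ γ : SL(2, ℤ), γ ∉ pm (Gamma10 M (M * 1)) →
      ∃ s ∈ gensO O M, ∃ (a' : LaurentSeries K) (ha' : a' ∈ gaussRing O),
        Rel ι M a' (compSL (fS s) γ⁻¹) ∧
          gaussRed O ⟨a', ha'⟩ ≠ qExpand (Res O) M (redL O s)) :
    AnaData O M (famOf (↥(gensO O M)) (fun b => fS b.1) (hx_of_hint O M fS hint)) ζ fS where
  hΓ := by
    haveI : (CongruenceSubgroup.Gamma M).Normal := CongruenceSubgroup.Gamma_normal M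
    exact rho_eq_one_of_normal (CongruenceSubgroup.Gamma M) (fun b γ hγ => hinv b.1 b.2 γ hγ)
  hhol := f_mem_HolH (fun b => hhol b.1 b.2)
  hζ0 := hζ0
  hζ := hζ
  hζO := hζO
  hζO' := hζO'
  hNfrac := N_le_fracField O (fun b σ => hint b.1 b.2 σ)
  hSA := fun s hs => mem_A_of_rel_base (b := (⟨s, hs⟩ : ↥(gensO O M))) (hSrel s hs)
  hSrel := hSrel
  hint := hint
  hsepA := hsepA

end Package

end Fermat.Agent.M48.FullFam0
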