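/-
Programme M48, pillar (P1), chapter [IG1] — helper9.  **The Galois bookkeeping of the full-level
field**, generic in helper6's `FullLevelGen6.RealFam` (no dependence on the concrete family).

`F : RealFam ι n`, `N = F.N = K(x_i) ⊂ K((Q))`, `ρ = F.rho : SL(2, ℤ) →* (N ≃ₐ[K] N)` with finite
image `G = ρ.range` (acting on `N`), fixed field `N^G = K(J)` (`RealFam.mem_adjoin_of_rho_fixed`).

* Part A (Mathlib only): `relfinrank_fixed` : `[N^H : N^G] = [G : H]` (Artin); **`fixed_eq_of_degree`** :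
  a subfield `N^G ≤ E ≤ N^H` with `[G : H] ≤ [E : N^G]` is `N^H`, and `[G : H] = [E : N^G]`.
* Part B (Mathlib + `SL2Gen6`): for a surjection `φ : SL(2, ℤ) →* G` with `Γ(M) ≤ ker φ`:
  **`hGT_of_surjective`** : the group-theoretic input `hGT` of `DecompGalois6.smul_mem_nonunits_iff`
  for `H = φ(Γ₀(M))`, `u = φ(T⁻¹)` : a subgroup `D ∋ u` with `D · H = G` is everything;
  `index_map_le`, `mem_map_iff_of_ker_le`.
* Part C: `G F = ↥F.rho.range`, `φ F = F.rho.rangeRestrict`, `imG F Γ = φ(Γ)`;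
  `fixedPoints_eq` : `N^G = K(J)` inside `N`; **`fixed_of_degree`** (D) : for `Γ ≤ SL(2, ℤ)` of finite index
  and a subfield `K(J) ≤ E ≤ N` (inside `K((Q))`) fixed pointwise by `ρ(Γ)` with
  `[E : K(J)] = [SL(2, ℤ) : Γ]`: every element of `N` fixed by `ρ(Γ)` lies in `E`, and
  `[G : ρ(Γ)] = [SL(2, ℤ) : Γ]`; **`hGT`** (S) for `G F`;
  `relfinrank_map_qExpand` : transport of degrees along `q ↦ Q^M`;
  `relfinrank_fullC_map`, `relfinrank_fieldG10C_map` : the two degrees
  `[K(j(Q^{dM})) : K(j(Q^M))] = ψ(M) = [SL(2, ℤ) : Γ₀(M)]` and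
  `[K(j(Q^{dM}), g_{M,a}(Q^M)) : K(j(Q^M))] = [SL(2, ℤ) : ±Γ₁(M)]` (inputs `hdeg` of (D1), (D2)).

Nothing is left unproved in this file.  Imported by no statement.
-/
import Mathlib
import Fermat.Agent.M48.FullLevelGen6
import Fermat.Agent.M48.SL2Gen6
import Fermat.Agent.M48.G10Degree2
import Fermat.Agent.M48.QModel8
import Fermat.Agent.X0.G1Index
import Fermat.Agent.RED.PUR.DegBaseChange25

set_option autoImplicit false
set_option linter.unusedSectionVars false
set_option linter.style.haveILetI false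

noncomputable section

open Module
open scoped MatrixGroups

namespace Fermat.Agent.M48.FullFix9

/-! ### Part A: fixed fields by a degree count -/

section Galois

variable {N : Type*} [Field N] {G : Type*} [Group G] [Finite G] [MulSemiringAction G N]
  [FaithfulSMul G N]

/-- Artin: `[N : N^G] = |G|`. -/
theorem finrank_fixed_eq_card : finrank (FixedPoints.subfield G N) N = Nat.card G := by
  have : Fintype G := Fintype.ofFinite G
  rw [FixedPoints.finrank_eq_card G N, Nat.card_eq_fintype_card]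

omit [Finite G] [FaithfulSMul G N] in
theorem fixed_le_fixed (H : Subgroup G) : FixedPoints.subfield G N ≤ FixedPoints.subfield H N :=
  fun _ hx h => hx (h : G)

/-- `[N^H : N^G] = [G : H]`. -/
theorem relfinrank_fixed (H : Subgroup G) :
    (FixedPoints.subfield G N).relfinrank (FixedPoints.subfield H N) = H.index := by
  have h1 := Subfield.relfinrank_mul_finrank_top (fixed_le_fixed (N := N) H)
  rw [finrank_fixed_eq_card, finrank_fixed_eq_card] at h1
  have h2 := H.index_mul_card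
  have hpos : 0 < Nat.card H := Nat.card_pos
  exact Nat.eq_of_mul_eq_mul_right hpos (h1.trans h2.symm)

/-- **Fixed field from a degree count.**  A subfield `N^G ≤ E ≤ N^H` with `[G : H] ≤ [E : N^G]` is
`N^H`, and then `[G : H] = [E : N^G]`. -/
theorem fixed_eq_of_degree (H : Subgroup G) (E : Subfield N)
    (hE : ∀ x ∈ E, ∀ h ∈ H, h • x = x) (h0 : FixedPoints.subfield G N ≤ E)
    (hidx : H.index ≤ (FixedPoints.subfield G N).relfinrank E) :
    FixedPoints.subfield H N = E ∧ H.index = (FixedPoints.subfield G N).relfinrank E := by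
  have hEH : E ≤ FixedPoints.subfield H N := fun x hx h => hE x hx h h.2
  have hmul := Subfield.relfinrank_mul_relfinrank h0 hEH
  rw [relfinrank_fixed] at hmul
  have hi0 : H.index ≠ 0 := Subgroup.index_ne_zero_of_finite
  set m := (FixedPoints.subfield G N).relfinrank E with hm
  set r := E.relfinrank (FixedPoints.subfield H N) with hr
  have hm0 : m ≠ 0 := fun h => hi0 (by rw [← hmul, h, zero_mul])
  have hr0 : r ≠ 0 := fun h => hi0 (by rw [← hmul, h, mul_zero])
  have hr1 : r = 1 := by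
    by_contra hne
    have h2 : 2 ≤ r := by omega
    have : m * 2 ≤ m * r := Nat.mul_le_mul_left m h2
    omega
  refine ⟨le_antisymm (Subfield.relfinrank_eq_one_iff.mp hr1) hEH, ?_⟩
  rw [← hmul, hr1, mul_one]

end Galois

/-! ### Part B: group theory -/

section Group

open Matrix ModularGroup CongruenceSubgroup

variable {G : Type*} [Group G] (φ : SL(2, ℤ) →* G)

/-- **(S)** the group-theoretic input `hGT` of `DecompGalois6.smul_mem_nonunits_iff` for a quotient
`φ : SL(2, ℤ) ↠ G` through which `Γ(M)` acts trivially, `H = φ(Γ₀(M))`, `u = φ(T⁻¹)`. -/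
theorem hGT_of_surjective (hφ : Function.Surjective φ) (M : ℕ) (hker : Gamma M ≤ φ.ker)
    (D : Subgroup G) (hu : φ T⁻¹ ∈ D)
    (hDH : ∀ g : G, ∃ d ∈ D, ∃ h ∈ (Gamma0 M).map φ, g = d * h) : D = ⊤ := by
  have hT : T ∈ D.comap φ := by
    rw [Subgroup.mem_comap]
    have := D.inv_mem hu
    rwa [← map_inv, inv_inv] at this
  have hΓ : Gamma M ≤ D.comap φ := fun x hx => by
    rw [Subgroup.mem_comap, (MonoidHom.mem_ker).mp (hker hx)]
    exact D.one_mem
  have hDB : ∀ g : SL(2, ℤ), ∃ d ∈ D.comap φ, ∃ h ∈ Gamma0 M, g = d * h := by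
    intro g
    obtain ⟨d, hd, h, ⟨h', hh', rfl⟩, hg⟩ := hDH (φ g)
    refine ⟨g * h'⁻¹, ?_, h', hh', by group⟩
    rw [Subgroup.mem_comap, map_mul, map_inv, hg, mul_inv_cancel_right]
    exact hd
  have htop := SL2Gen6.eq_top_of_mul_Gamma0_eq_top M (D.comap φ) hΓ hT hDB
  rw [eq_top_iff]
  intro g _
  obtain ⟨g', rfl⟩ := hφ g
  have : g' ∈ D.comap φ := by rw [htop]; trivial
  exact this

theorem index_map_le (hφ : Function.Surjective φ) (Γ : Subgroup SL(2, ℤ)) (hΓ : Γ.index ≠ 0) :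
    (Γ.map φ).index ≤ Γ.index :=
  Nat.le_of_dvd (Nat.pos_of_ne_zero hΓ) (Γ.index_map_dvd hφ)

/-- membership in the image of a subgroup containing the kernel. -/
theorem mem_map_iff_of_ker_le (Γ : Subgroup SL(2, ℤ)) (hker : φ.ker ≤ Γ) (γ : SL(2, ℤ)) :
    φ γ ∈ Γ.map φ ↔ γ ∈ Γ := by
  constructor
  · rintro ⟨γ', hγ', h⟩
    have : γ'⁻¹ * γ ∈ φ.ker := by
      rw [MonoidHom.mem_ker, map_mul, map_inv, h, inv_mul_cancel]
    have h2 := Γ.mul_mem hγ' (hker this)
    rwa [mul_inv_cancel_left] at h2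
  · exact fun h => ⟨γ, h, rfl⟩

end Group

/-! ### Part C: the full-level field -/

section RealFam

open FullLevelGen6 IntermediateField ModularCurve HahnSeries
open Fermat.Agent.ES.RED.SpecialGen25 (mem_adjoin_simple_iff_coe)

variable {K : Type} [Field K] {ι : K →+* ℂ} {n : ℕ} [NeZero n] (F : RealFam ι n)

/-- The Galois group of the full-level field: the image of `ρ`. -/
abbrev G : Type := ↥F.rho.range

/-- `ρ` as a surjection onto its image. -/
abbrev φ : SL(2, ℤ) →* G F := F.rho.rangeRestrict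

theorem φ_surjective : Function.Surjective (φ F) := F.rho.rangeRestrict_surjective

/-- The image of a subgroup of `SL(2, ℤ)` in `G`. -/
abbrev imG (Γ : Subgroup SL(2, ℤ)) : Subgroup (G F) := Γ.map (φ F)

theorem φ_smul (γ : SL(2, ℤ)) (y : F.N) : (φ F γ) • y = F.rho γ y := rfl

theorem smul_eq_iff_rho (y : F.N) :
    (∀ g : G F, g • y = y) ↔ ∀ γ : SL(2, ℤ), F.rho γ y = y := by
  constructor
  · intro h γ
    exact h (φ F γ)
  · rintro h ⟨_, γ, rfl⟩
    exact h γ

theorem smul_imG_eq_iff_rho (Γ : Subgroup SL(2, ℤ)) (y : F.N) :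
    (∀ g ∈ imG F Γ, g • y = y) ↔ ∀ γ ∈ Γ, F.rho γ y = y := by
  constructor
  · intro h γ hγ
    exact h (φ F γ) ⟨γ, hγ, rfl⟩
  · rintro h _ ⟨γ, hγ, rfl⟩
    exact h γ hγ

theorem ker_φ : (φ F).ker = F.rho.ker := F.rho.ker_rangeRestrict

variable (J : LaurentSeries K) (hJN : J ∈ F.N) (hJfix : ∀ γ, F.rho γ ⟨J, hJN⟩ = ⟨J, hJN⟩)
  (hfixed : ∀ y : F.N, (∀ γ, F.rho γ y = y) → (y : LaurentSeries K) ∈ K⟮J⟯)

include hJfix in
/-- elements of `K(J)` are fixed by `ρ`. -/
theorem rho_eq_of_mem_adjoin (y : F.N) (hy : (y : LaurentSeries K) ∈ K⟮J⟯) (γ : SL(2, ℤ)) :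
    F.rho γ y = y := by
  have h1 : y ∈ (K⟮(⟨J, hJN⟩ : F.N)⟯ : IntermediateField K F.N) :=
    (mem_adjoin_simple_iff_coe F.N ⟨J, hJN⟩ y).mpr hy
  have h2 : (K⟮(⟨J, hJN⟩ : F.N)⟯ : IntermediateField K F.N) ≤
      IntermediateField.fixedField (Subgroup.zpowers (F.rho γ)) := by
    rw [adjoin_simple_le_iff, IntermediateField.mem_fixedField_iff]
    intro f hf
    obtain ⟨k, rfl⟩ := Subgroup.mem_zpowers_iff.mp hf
    have hfix : F.rho γ ⟨J, hJN⟩ = ⟨J, hJN⟩ := hJfix γ
    have : ∀ k : ℕ, (F.rho γ ^ k) ⟨J, hJN⟩ = ⟨J, hJN⟩ := by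
      intro k
      induction k with
      | zero => rfl
      | succ k ih => rw [pow_succ, AlgEquiv.mul_apply, hfix, ih]
    rcases Int.eq_nat_or_neg k with ⟨m, rfl | rfl⟩
    · rw [zpow_natCast]; exact this m
    · rw [zpow_neg, zpow_natCast]
      have h3 := this m
      calc (F.rho γ ^ m)⁻¹ ⟨J, hJN⟩ = (F.rho γ ^ m)⁻¹ ((F.rho γ ^ m) ⟨J, hJN⟩) := by rw [h3]
        _ = ⟨J, hJN⟩ := (F.rho γ ^ m).symm_apply_apply _
  have h3 := (IntermediateField.mem_fixedField_iff _ _).mp (h2 h1) (F.rho γ)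
    (Subgroup.mem_zpowers _)
  exact h3

include hJfix hfixed in
/-- **`N^G = K(J)`** inside `N`. -/
theorem fixedPoints_eq :
    FixedPoints.subfield (G F) F.N = (K⟮J⟯.comap F.N.val).toSubfield := by
  ext y
  constructor
  · intro hy
    exact hfixed y ((smul_eq_iff_rho F y).mp hy)
  · intro hy
    exact (smul_eq_iff_rho F y).mpr fun γ => rho_eq_of_mem_adjoin F J hJN hJfix y hy γ

theorem relfinrank_comap_val {A B : IntermediateField K (LaurentSeries K)} (hB : B ≤ F.N) :
    (A.comap F.N.val).toSubfield.relfinrank (B.comap F.N.val).toSubfield = relfinrank A B := by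
  have h := IntermediateField.relfinrank_comap_comap_eq_relfinrank_of_le A B F.N.val
    (by rw [IntermediateField.fieldRange_val]; exact hB)
  exact h

include hJfix hfixed in
/-- **(D)** Fixed fields of the full-level field by a degree count: for `Γ ≤ SL(2, ℤ)` and a
subfield `K(J) ≤ E ≤ N` fixed pointwise by `ρ(Γ)` with `[E : K(J)] = [SL(2, ℤ) : Γ] ≠ 0`, every
element of `N` fixed by `ρ(Γ)` lies in `E`, and `[G : ρ(Γ)] = [SL(2, ℤ) : Γ]`. -/
theorem fixed_of_degree [Finite (G F)] (Γ : Subgroup SL(2, ℤ))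
    (E : IntermediateField K (LaurentSeries K)) (hJE : J ∈ E) (hEN : E ≤ F.N)
    (hEfix : ∀ y : F.N, (y : LaurentSeries K) ∈ E → ∀ γ ∈ Γ, F.rho γ y = y)
    (hdeg : relfinrank K⟮J⟯ E = Γ.index) (hΓ : Γ.index ≠ 0) :
    (∀ y : F.N, (∀ γ ∈ Γ, F.rho γ y = y) → (y : LaurentSeries K) ∈ E) ∧
      (imG F Γ).index = Γ.index := by
  have hfp := fixedPoints_eq F J hJN hJfix hfixed
  have hJE' : K⟮J⟯ ≤ E := adjoin_simple_le_iff.mpr hJE
  have hrel : (FixedPoints.subfield (G F) F.N).relfinrank (E.comap F.N.val).toSubfield =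
      Γ.index := by
    rw [hfp, relfinrank_comap_val F hEN, hdeg]
  obtain ⟨h1, h2⟩ := fixed_eq_of_degree (N := F.N) (imG F Γ) (E.comap F.N.val).toSubfield
    (fun y hy => (smul_imG_eq_iff_rho F Γ y).mpr (hEfix y hy))
    (by
      rw [hfp]
      intro y hy
      exact hJE' hy)
    (by
      rw [hrel]
      exact index_map_le (φ F) (φ_surjective F) Γ hΓ)
  refine ⟨fun y hy => ?_, h2.trans hrel⟩
  have : y ∈ FixedPoints.subfield (imG F Γ) F.N := fun h =>
    (smul_imG_eq_iff_rho F Γ y).mpr hy h h.2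
  rw [h1] at this
  exact this

/-- **(S)** the input `hGT` of `DecompGalois6.smul_mem_nonunits_iff` for `G = ρ.range`,
`H = ρ(Γ₀(M))`, `u = ρ(T⁻¹)`, as soon as `Γ(M)` acts trivially. -/
theorem hGT (M : ℕ) (hker : CongruenceSubgroup.Gamma M ≤ F.rho.ker)
    (D : Subgroup (G F)) (hu : φ F ModularGroup.T⁻¹ ∈ D)
    (hDH : ∀ g : G F, ∃ d ∈ D, ∃ h ∈ imG F (CongruenceSubgroup.Gamma0 M), g = d * h) : D = ⊤ :=
  hGT_of_surjective (φ F) (φ_surjective F) M (by rw [ker_φ]; exact hker) D hu hDH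

end RealFam

/-! ### The two degrees along `q ↦ Q^M` -/

section Degrees

open IntermediateField ModularCurve HahnSeries
open Fermat.Agent.M48.DictIface4 Fermat.Agent.M48.QModel8 Fermat.Agent.M48.J1Defs8

variable (K : Type) [Field K] (M : ℕ) [NeZero M]

/-- transport of degrees along `q ↦ Q^M`. -/
theorem relfinrank_map_qExpand (A B : IntermediateField K (LaurentSeries K)) :
    relfinrank (A.map (qExpandAlgHomC K M)) (B.map (qExpandAlgHomC K M)) = relfinrank A B :=
  IntermediateField.relfinrank_map_map A B (qExpandAlgHomC K M)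

theorem map_adjoin_simple (x : LaurentSeries K) :
    (K⟮x⟯).map (qExpandAlgHomC K M) = K⟮qExpand K M x⟯ := by
  rw [IntermediateField.adjoin_map, Set.image_singleton, qExpandAlgHomC_apply]

/-- `[K(j(Q^{dM}) : d ∣ M) : K(j(Q^M))] = ψ(M) = [SL(2, ℤ) : Γ₀(M)]` in characteristic `0`. -/
theorem relfinrank_fullC_map [CharZero K] :
    relfinrank K⟮qExpand K M (jqModC K)⟯
        ((modularFunctionFieldFullC K M).map (qExpandAlgHomC K M)) =
      (CongruenceSubgroup.Gamma0 M).index := by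
  rw [← map_adjoin_simple, relfinrank_map_qExpand,
    Fermat.Agent.RED.PUR.DegBaseChange25.relfinrank_fullC_eq_psi_of_charZero K M,
    Fermat.Agent.X0.G1Index.g1_index]

/-- `[K(j(Q^{dM}), g_{M,a}(Q^M)) : K(j(Q^M))] = [SL(2, ℤ) : ±Γ₁(M)]` in characteristic `0`. -/
theorem relfinrank_fieldG10C_map [CharZero K] (hM : 2 ≤ M) :
    relfinrank K⟮qExpand K M (jqModC K)⟯
        ((fieldG10C K M 1).map (qExpandAlgHomC K M)) =
      (pm (Gamma10 M (M * 1))).index := by
  let _ : Algebra ℚ K := DivisionRing.toRatAlgebra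
  rw [← map_adjoin_simple, relfinrank_map_qExpand]
  have h := G10Degree2.relfinrank_FK M 1 hM K
  rw [FK_eq] at h
  exact h

end Degrees

end Fermat.Agent.M48.FullFix9
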