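/-
Programme M48, pillar (P1), chapter [IG1] — helper9.  **Index bounds for pointwise stabilisers in
the full-level field** (complement of `FullFix9`), generic in `FullLevelGen6.RealFam`.

* Part A (Mathlib only): `relfinrank_dvd_index` : for a subgroup `H'` of a finite group `G` acting
  faithfully on a field `N` and a subfield `N^G ≤ E` fixed pointwise by `H'`: `[E : N^G] ∣ [G : H']`;
* Part C: **`index_le_of_fixes`** : for ANY subgroup `H' ≤ G F` fixing pointwise a subfield
  `K(J) ≤ E ≤ N` with `[E : K(J)] = m`: `m ≤ [G : H']` (the index bound for the pointwise stabiliser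
  of the model generators); `eq_imG_of_fixes` : if moreover `ρ(Γ) ≤ H'`, `[E : K(J)] = [SL(2, ℤ) : Γ]`,
  then `H' = ρ(Γ)`; `pointwiseStab`, `mem_pointwiseStab`, `index_pointwiseStab`.

Nothing is left unproved in this file.  Imported by no statement.
-/
import Mathlib
import Fermat.Agent.M48.FullFix9

set_option autoImplicit false
set_option linter.unusedSectionVars false
set_option linter.style.haveILetI false

noncomputable section

open Module
open scoped MatrixGroups

namespace Fermat.Agent.M48.FullFixB9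

open Fermat.Agent.M48.FullFix9

/-! ### Part A -/

section Galois

variable {N : Type*} [Field N] {G : Type*} [Group G] [Finite G] [MulSemiringAction G N]
  [FaithfulSMul G N]

/-- `[E : N^G]` divides `[G : H']` when `H'` fixes `E ⊇ N^G` pointwise. -/
theorem relfinrank_dvd_index (H' : Subgroup G) (E : Subfield N)
    (hE : ∀ x ∈ E, ∀ h ∈ H', h • x = x) (h0 : FixedPoints.subfield G N ≤ E) :
    (FixedPoints.subfield G N).relfinrank E ∣ H'.index := by
  have hEH : E ≤ FixedPoints.subfield H' N := fun x hx h => hE x hx h h.2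
  have hmul := Subfield.relfinrank_mul_relfinrank h0 hEH
  rw [relfinrank_fixed] at hmul
  exact Dvd.intro _ hmul

theorem relfinrank_le_index (H' : Subgroup G) (E : Subfield N)
    (hE : ∀ x ∈ E, ∀ h ∈ H', h • x = x) (h0 : FixedPoints.subfield G N ≤ E) :
    (FixedPoints.subfield G N).relfinrank E ≤ H'.index :=
  Nat.le_of_dvd (Nat.pos_of_ne_zero Subgroup.index_ne_zero_of_finite)
    (relfinrank_dvd_index H' E hE h0)

end Galois

/-! ### Part C -/

section RealFam

open FullLevelGen6 IntermediateField ModularCurve HahnSeries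

variable {K : Type} [Field K] {ι : K →+* ℂ} {n : ℕ} [NeZero n] (F : RealFam ι n)
  (J : LaurentSeries K) (hJN : J ∈ F.N) (hJfix : ∀ γ, F.rho γ ⟨J, hJN⟩ = ⟨J, hJN⟩)
  (hfixed : ∀ y : F.N, (∀ γ, F.rho γ y = y) → (y : LaurentSeries K) ∈ K⟮J⟯)

include hJfix hfixed in
/-- **Index bound for a pointwise stabiliser**: a subgroup `H' ≤ G` fixing pointwise a subfield
`K(J) ≤ E ≤ N` has index at least `[E : K(J)]`. -/
theorem index_le_of_fixes [Finite (G F)] (H' : Subgroup (G F))
    (E : IntermediateField K (LaurentSeries K)) (hJE : J ∈ E) (hEN : E ≤ F.N)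
    (hEfix : ∀ y : F.N, (y : LaurentSeries K) ∈ E → ∀ h ∈ H', h • y = y) :
    relfinrank K⟮J⟯ E ≤ H'.index := by
  have hfp := fixedPoints_eq F J hJN hJfix hfixed
  have hJE' : K⟮J⟯ ≤ E := adjoin_simple_le_iff.mpr hJE
  have h := relfinrank_le_index (N := F.N) H' (E.comap F.N.val).toSubfield
    (fun y hy => hEfix y hy)
    (by
      rw [hfp]
      intro y hy
      exact hJE' hy)
  rwa [hfp, relfinrank_comap_val F hEN] at h

include hJfix hfixed in
/-- A subgroup `ρ(Γ) ≤ H' ≤ G` fixing pointwise a subfield `E` with `[E : K(J)] = [SL(2, ℤ) : Γ]`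
is `ρ(Γ)`. -/
theorem eq_imG_of_fixes [Finite (G F)] (Γ : Subgroup SL(2, ℤ)) (H' : Subgroup (G F))
    (hΓH : imG F Γ ≤ H')
    (E : IntermediateField K (LaurentSeries K)) (hJE : J ∈ E) (hEN : E ≤ F.N)
    (hEfix : ∀ y : F.N, (y : LaurentSeries K) ∈ E → ∀ h ∈ H', h • y = y)
    (hdeg : relfinrank K⟮J⟯ E = Γ.index) (hΓ : Γ.index ≠ 0) :
    H' = imG F Γ ∧ H'.index = Γ.index := by
  have h1 : Γ.index ≤ H'.index := by
    rw [← hdeg]
    exact index_le_of_fixes F J hJN hJfix hfixed H' E hJE hEN hEfix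
  have h2 : (imG F Γ).index ≤ Γ.index := index_map_le (φ F) (φ_surjective F) Γ hΓ
  have h3 : H'.index ∣ (imG F Γ).index := Subgroup.index_dvd_of_le hΓH
  have h4 : H'.index ≤ (imG F Γ).index :=
    Nat.le_of_dvd (Nat.pos_of_ne_zero Subgroup.index_ne_zero_of_finite) h3
  have h5 : H'.index = (imG F Γ).index := le_antisymm h4 (h2.trans h1)
  refine ⟨?_, le_antisymm (h4.trans h2) h1⟩
  symm
  exact Subgroup.eq_of_le_of_card_ge hΓH (by
    have e1 := H'.index_mul_card
    have e2 := (imG F Γ).index_mul_card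
    rw [h5] at e1
    have hpos : 0 < (imG F Γ).index := Nat.pos_of_ne_zero Subgroup.index_ne_zero_of_finite
    exact (Nat.eq_of_mul_eq_mul_left hpos (e1.trans e2.symm)).le)

/-- The pointwise stabiliser in `G` of a subfield `E` of `K((Q))`. -/
def pointwiseStab (E : IntermediateField K (LaurentSeries K)) : Subgroup (G F) where
  carrier := {g | ∀ y : F.N, (y : LaurentSeries K) ∈ E → g • y = y}
  mul_mem' := fun {a b} ha hb y hy => by rw [mul_smul, hb y hy, ha y hy]
  one_mem' := fun y _ => one_smul _ y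
  inv_mem' := fun {a} ha y hy => by
    conv_lhs => rw [← ha y hy]
    exact inv_smul_smul a y

theorem mem_pointwiseStab {E : IntermediateField K (LaurentSeries K)} {g : G F} :
    g ∈ pointwiseStab F E ↔ ∀ y : F.N, (y : LaurentSeries K) ∈ E → g • y = y := Iff.rfl

include hJfix hfixed in
/-- **The index of the pointwise stabiliser of `E`** (`K(J) ≤ E ≤ N` fixed by `ρ(Γ)`,
`[E : K(J)] = [SL(2, ℤ) : Γ]`) is `[SL(2, ℤ) : Γ]`, and the stabiliser is `ρ(Γ)`. -/
theorem index_pointwiseStab [Finite (G F)] (Γ : Subgroup SL(2, ℤ))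
    (E : IntermediateField K (LaurentSeries K)) (hJE : J ∈ E) (hEN : E ≤ F.N)
    (hEfix : ∀ y : F.N, (y : LaurentSeries K) ∈ E → ∀ γ ∈ Γ, F.rho γ y = y)
    (hdeg : relfinrank K⟮J⟯ E = Γ.index) (hΓ : Γ.index ≠ 0) :
    pointwiseStab F E = imG F Γ ∧ (pointwiseStab F E).index = Γ.index := by
  refine eq_imG_of_fixes F J hJN hJfix hfixed Γ (pointwiseStab F E) ?_ E hJE hEN
    (fun y hy h hh => hh y hy) hdeg hΓ
  rintro _ ⟨γ, hγ, rfl⟩ y hy
  exact hEfix y hy γ hγ

end RealFam

end Fermat.Agent.M48.FullFixB9
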