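/-
Programme M48 (target S48), pillar (P1), chapter [IG1] — helper6.
**The concrete full-level family**: all `SL(2, ℤ)`-translates of `j(d z)` (`d ∣ M`) and of the
Eisenstein quotients `g_{M,a}` (`a ∈ (ℤ/M)ˣ`), with their `q_M`-expansions over a field `K ∋ ζ_M`
(`JRat6`, `EisRat6`).  It is a `RealFam`; the principal congruence subgroup `Γ(M)` acts trivially
on the field `N` it generates, so `ρ(SL(2, ℤ))` is finite; all coefficients lie in
`ℤ[ζ, ζ⁻¹, 1/M, (1 - ζ^b)⁻¹]`; the members at `σ = 1` are `j(Q^{dM})`, `g_{M,a}(Q^M)`.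
-/
import Mathlib
import Fermat.Agent.M48.FullLevelGen6
import Fermat.Agent.M48.JRat6
import Fermat.Agent.M48.EisRat6
import Fermat.Agent.M48.G10QExp5
import Fermat.Agent.M48.QModel8

set_option autoImplicit false
set_option linter.unusedSectionVars false

open UpperHalfPlane ModularCurve
open scoped MatrixGroups

noncomputable section

namespace Fermat.Agent.M48.FullLevelFam6

open Fermat.Agent.X0 Fermat.Agent.X0.QExpAffine Fermat.Agent.M48.FullLevelGen6 Fermat.Agent.M48.JRat6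
  Fermat.Agent.M48.EisRat6 Fermat.Agent.M48.DictIface4 Fermat.Agent.M48.QModel8

/-- the divisors of `M`. -/
abbrev Dv (M : ℕ) : Type := {d : ℕ // d ≠ 0 ∧ d ∣ M}

/-- the index set: translates of `j(d z)` and of `g_{M,a}`. -/
abbrev Idx (M : ℕ) : Type := (Dv M × SL(2, ℤ)) ⊕ ((ZMod M)ˣ × SL(2, ℤ))

instance instNeZeroDv {M : ℕ} (d : Dv M) : NeZero d.1 := ⟨d.2.1⟩

variable {K : Type} [Field K] {ι : K →+* ℂ} (M : ℕ) [NeZero M] {ζ : K}

/-- the functions. -/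
def famF : Idx M → ℍ → ℂ
  | Sum.inl p => compSL (jdFun p.1.1) p.2
  | Sum.inr p => compSL (gFun M (p.1 : ZMod M)) p.2

/-- a general transport: a `q`-expansion over `K` gives a `q_M`-expansion. -/
theorem rel_of_hasQExp {a : LaurentSeries K} {g : ℍ → ℂ}
    (h : Analytic.HasQExp (coeffMap ι a) g) : Rel ι M (qExpand K M a) g := by
  obtain ⟨m, P, hP, e⟩ := h.exists_isQExp
  have h1 := hP.level_mul M
  rw [one_mul] at h1
  refine ⟨m * M, _, h1, ?_⟩
  rw [← qExpand_laurentOf, ← e, coeffMap_qExpand]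

section Fam

variable (hζ : ι ζ = zetaC M)

/-- the expansions. -/
def famX : Idx M → LaurentSeries K
  | Sum.inl p =>
      jExpS M ζ (exists_rel_compSL_jdFun M hζ p.1.1 p.1.2.2 p.2).choose_spec.choose
        (exists_rel_compSL_jdFun M hζ p.1.1 p.1.2.2 p.2).choose_spec.choose_spec.choose
        (exists_rel_compSL_jdFun M hζ p.1.1 p.1.2.2 p.2).choose_spec.choose_spec.choose_spec.choose
  | Sum.inr p => gExp M ζ (p.1 : ZMod M) p.2

theorem unit_ne_zero (hM : 2 ≤ M) (a : (ZMod M)ˣ) : (a : ZMod M) ≠ 0 := by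
  have : Fact (1 < M) := ⟨by omega⟩
  exact a.ne_zero

/-- the Hermite data of the `j`-members. -/
theorem famX_inl (d : Dv M) (σ : SL(2, ℤ)) :
    ∃ (σ' : SL(2, ℤ)) (a e : ℕ) (b : ℤ), 0 < a ∧ 0 < e ∧ a * e = d.1 ∧ 0 ≤ b ∧ b < e ∧
      σ 1 0 = σ' 1 0 * a ∧ σ 1 1 = σ' 1 0 * b + σ' 1 1 * e ∧
      famX M hζ (Sum.inl (d, σ)) = jExpS M ζ a e b ∧
      Rel ι M (jExpS M ζ a e b) (compSL (jdFun d.1) σ) := by
  have h := (exists_rel_compSL_jdFun M hζ d.1 d.2.2 σ).choose_spec.choose_spec.choose_spec.choose_spec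
  exact ⟨_, _, _, _, h.1, h.2.1, h.2.2.1, h.2.2.2.1, h.2.2.2.2.1, h.2.2.2.2.2.1, h.2.2.2.2.2.2.1, rfl,
    h.2.2.2.2.2.2.2⟩

theorem famX_inr (a : (ZMod M)ˣ) (σ : SL(2, ℤ)) :
    famX M hζ (Sum.inr (a, σ)) = gExp M ζ (a : ZMod M) σ := rfl

theorem rel_fam (hM : 2 ≤ M) (i : Idx M) : Rel ι M (famX M hζ i) (famF M i) := by
  rcases i with ⟨d, σ⟩ | ⟨a, σ⟩
  · obtain ⟨σ', a, e, b, -, -, -, -, -, -, -, hx, hr⟩ := famX_inl M hζ d σ
    rw [hx]
    exact hr
  · exact rel_gExp M hζ (unit_ne_zero M hM a) σ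

/-- right translation of the index. -/
def trI (γ : SL(2, ℤ)) : Idx M → Idx M
  | Sum.inl p => Sum.inl (p.1, p.2 * γ)
  | Sum.inr p => Sum.inr (p.1, p.2 * γ)

theorem compSL_famF (γ : SL(2, ℤ)) (i : Idx M) : compSL (famF M i) γ = famF M (trI M γ i) := by
  rcases i with ⟨d, σ⟩ | ⟨a, σ⟩
  · exact compSL_compSL _ _ _
  · exact compSL_compSL _ _ _

/-- **The full-level family.** -/
def fam (hM : 2 ≤ M) : RealFam ι M where
  I := Idx M
  f := famF M
  x := famX M hζ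
  rel := rel_fam M hζ hM
  perm γ i := ⟨trI M γ i, compSL_famF M γ i⟩

@[simp] theorem fam_f (hM : 2 ≤ M) (i : Idx M) : (fam M hζ hM).f i = famF M i := rfl
@[simp] theorem fam_x (hM : 2 ≤ M) (i : Idx M) : (fam M hζ hM).x i = famX M hζ i := rfl

end Fam

/-! ### Holomorphy -/

theorem jdFun_mem_HolH (d : ℕ) [NeZero d] : jdFun d ∈ HolH :=
  (Analytic.hasQExp_jd d).mdifferentiable

theorem famF_mem_HolH (hM : 2 ≤ M) (i : Idx M) : famF M i ∈ HolH := by
  rcases i with ⟨d, σ⟩ | ⟨a, σ⟩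
  · exact compSL_mem_HolH (jdFun_mem_HolH d.1) σ
  · exact compSL_mem_HolH (G10QExp5.gFun_mem_HolH M _ (unit_ne_zero M hM a)) σ

/-! ### `Γ(M)` acts trivially -/

theorem conj_mem_Gamma {γ : SL(2, ℤ)} (hγ : γ ∈ CongruenceSubgroup.Gamma M) (σ : SL(2, ℤ)) :
    σ * γ * σ⁻¹ ∈ CongruenceSubgroup.Gamma M :=
  (CongruenceSubgroup.Gamma_normal M).conj_mem γ hγ σ

theorem famF_fix {γ : SL(2, ℤ)} (hγ : γ ∈ CongruenceSubgroup.Gamma M) (i : Idx M) :
    compSL (famF M i) γ = famF M i := by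
  rcases i with ⟨d, σ⟩ | ⟨a, σ⟩
  · funext z
    show jdFun d.1 (σ • γ • z) = jdFun d.1 (σ • z)
    have h1 : σ • γ • z = (σ * γ * σ⁻¹) • (σ • z) := by
      rw [← mul_smul, ← mul_smul, inv_mul_cancel_right]
    rw [h1]
    have h2 := conj_mem_Gamma M hγ σ
    rw [CongruenceSubgroup.Gamma_mem] at h2
    have h3 : (M : ℤ) ∣ (σ * γ * σ⁻¹) 1 0 := (ZMod.intCast_zmod_eq_zero_iff_dvd _ _).mp h2.2.2.1
    exact Analytic.jdFun_smul_of_dvd _ d.1 ((Int.natCast_dvd_natCast.mpr d.2.2).trans h3) _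
  · funext z
    show gFun M (a : ZMod M) (σ • γ • z) = gFun M (a : ZMod M) (σ • z)
    have h1 : σ • γ • z = (σ * γ * σ⁻¹) • (σ • z) := by
      rw [← mul_smul, ← mul_smul, inv_mul_cancel_right]
    rw [h1]
    have h2 := conj_mem_Gamma M hγ σ
    have h3 : σ * γ * σ⁻¹ ∈ CongruenceSubgroup.Gamma1 M := by
      rw [CongruenceSubgroup.Gamma_mem] at h2
      rw [CongruenceSubgroup.Gamma1_mem]
      exact ⟨h2.1, h2.2.2.2, h2.2.2.1⟩
    exact G10Eis4.gFun_smul_of_mem_Gamma1 M _ h3 _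

section Rho

variable (hζ : ι ζ = zetaC M) (hM : 2 ≤ M)

theorem Gamma_le_ker : CongruenceSubgroup.Gamma M ≤ (fam M hζ hM).rho.ker := by
  intro γ hγ
  rw [MonoidHom.mem_ker]
  exact (fam M hζ hM).rho_eq_one_of_fix (fun i => famF_fix M hγ i)

theorem finite_range : Finite (fam M hζ hM).rho.range := by
  have h1 : (fam M hζ hM).rho.ker.FiniteIndex :=
    Subgroup.finiteIndex_of_le (Gamma_le_ker M hζ hM)
  have h2 : Finite (SL(2, ℤ) ⧸ (fam M hζ hM).rho.ker) := Subgroup.finite_quotient_of_finiteIndex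
  exact Finite.of_equiv _ (QuotientGroup.quotientKerEquivRange (fam M hζ hM).rho).toEquiv

end Rho

/-! ### The members at `σ = 1` -/

section Base

variable (hζ : ι ζ = zetaC M)

theorem famX_inl_one (d : Dv M) :
    famX M hζ (Sum.inl (d, 1)) = qExpand K M (qExpand K d.1 (jqModC K)) := by
  obtain ⟨σ', a, e, b, -, -, -, -, -, -, -, hx, hr⟩ := famX_inl M hζ d 1
  rw [hx]
  rw [compSL_one'] at hr
  exact hr.left_unique (rel_jdFun M d.1)

theorem rel_gqR {a : ZMod M} (ha : a ≠ 0) : Rel ι M (qExpand K M (gqR K M a)) (gFun M a) := by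
  apply rel_of_hasQExp
  have h := G10QExp5.hasQExp_gFun M a ha
  rw [coeffEmb_gq] at h
  rw [coeffMap_gqR]
  exact h

theorem famX_inr_one (hM : 2 ≤ M) (a : (ZMod M)ˣ) :
    famX M hζ (Sum.inr (a, 1)) = qExpand K M (gqR K M (a : ZMod M)) := by
  have h1 := rel_gExp (ι := ι) M hζ (unit_ne_zero M hM a) 1
  rw [compSL_one'] at h1
  exact h1.left_unique (rel_gqR M (unit_ne_zero M hM a))

end Base

/-! ### Integrality of the coefficients -/

theorem coeff_famX_mem (hζ : ι ζ = zetaC M) (R : Subring K) (h1 : ζ ∈ R) (h2 : ζ⁻¹ ∈ R)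
    (hMR : ((M : K))⁻¹ ∈ R) (hinv : ∀ b : ℕ, 0 < b → b < M → (1 - ζ ^ b)⁻¹ ∈ R) (i : Idx M)
    (k : ℤ) : (famX M hζ i).coeff k ∈ R := by
  rcases i with ⟨d, σ⟩ | ⟨a, σ⟩
  · obtain ⟨σ', a, e, b, -, -, -, -, -, -, -, hx, -⟩ := famX_inl M hζ d σ
    rw [hx]
    exact coeff_jExpS_mem M R h1 h2 a e b k
  · exact coeff_gExp_mem M R h1 hMR hinv _ σ k

end Fermat.Agent.M48.FullLevelFam6
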