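/-
M48 (P1), glue (helper3): **the `χ`-eigenvector in `𝒪' ⊗ T_p J`**, for `Γ₁(M)` — the twin of
`S30Glue8.exists_eigenvector_tate`, with FAITH replaced by FAITH-lite.

Input: a `KummerSystem p (Gamma1 M) J` (any abelian group `J`) and endomorphisms `fJ i` of `J`, one for
each generator `i` of the Hecke algebra (`T_r`, `r ∤ M`, `r ∉ S`; `⟨d⟩`), corresponding under the Kummer
maps to the coset-sum operators `TateCoset3.mulX (cosetOf M S i)` on characters.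
Output: for every `χ : heckeAlgebra1 M 2 S →+* 𝒪'` (`𝒪'` a domain of characteristic zero, a
`ℤ_[p]`-algebra) a nonzero `w ∈ 𝒪' ⊗[ℤ_[p]] T_p J` with
`(TateModule13.map (fJ i)).baseChange 𝒪' w = χ (generator i) • w` for all `i`.

* `Top_mem`, `exists_eigenvector_lam'` (uniform form of `G1Fin3.exists_eigenvector_lam`);
* `iotaO`, `isBaseChange_iotaO` : `Λ₁ → 𝒪' ⊗ T_p J` is a base change;
* **`exists_eigenvector_tate1`**.
-/
import Mathlib
import Fermat.Agent.M48.G1Fin3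
import Fermat.Agent.M48.TateCoset3
import Fermat.Agent.M48.ClearDenom3

set_option autoImplicit false

noncomputable section

universe u

namespace Fermat.Agent.M48.G1Tate3

open CongruenceSubgroup TensorProduct
open scoped MatrixGroups
open Fermat.Agent.ES.J Fermat.Agent.ES.J.TateModule13 Fermat.Agent.ES.J.TateChar11
open Fermat.Agent.ES.J.TateCompare11
open Fermat.Agent.M48.ESInv3 Fermat.Agent.M48.CosetOp3 Fermat.Agent.M48.HeckeOne1
open Fermat.Agent.M48.G1Fin3 Fermat.Agent.M48.TateCoset3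

variable {M : ℕ} [NeZero M]

theorem Top_mem (S : Set ℕ) (i : gen M S) : Top M 2 S i ∈ heckeAlgebra1 M 2 S := by
  rw [heckeAlgebra1_eq_adjoin]
  exact Algebra.subset_adjoin ⟨i, rfl⟩

/-- (F2) for `Γ₁(M)`, uniform in the generator. -/
theorem exists_eigenvector_lam' (S : Set ℕ) {K' : Type u} [Field K'] [CharZero K']
    (χ : heckeAlgebra1 M 2 S →+* K') :
    ∃ w : K' ⊗[ℤ] Lam1 M, w ≠ 0 ∧
      ∀ i : gen M S, (lamOp M S i).baseChange K' w = χ ⟨Top M 2 S i, Top_mem S i⟩ • w := by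
  have hge : Algebra.adjoin ℤ (Set.range (Top M 2 S)) ≤ heckeAlgebra1 M 2 S :=
    (heckeAlgebra1_eq_adjoin S).ge
  obtain ⟨w, hw, h⟩ := (ParTensor3.finite_and_eigen.{0, u} (Top M 2 S) (cosetOf M S)
    (commute_Top S) (coe_Top S)).2 (K' := K') (χ.comp (Subalgebra.inclusion hge).toRingHom)
  exact ⟨w, hw, fun i => h i⟩

variable {p : ℕ} [hp : Fact p.Prime] {J : Type*} [AddCommGroup J]
  (KS : KummerSystem p (Gamma1 M) J)
variable (𝒪' : Type*) [CommRing 𝒪'] [Algebra ℤ_[p] 𝒪']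

/-- `Λ₁ → 𝒪' ⊗ T_p J`. -/
def iotaO : Lam1 M →ₗ[ℤ] 𝒪' ⊗[ℤ_[p]] TateModule p J :=
  ((TensorProduct.mk ℤ_[p] 𝒪' (TateModule p J) 1).restrictScalars ℤ).comp (iota KS)

omit [NeZero M] in
theorem iotaO_apply (x : Lam1 M) : iotaO KS 𝒪' x = (1 : 𝒪') ⊗ₜ[ℤ_[p]] iota KS x := rfl

theorem isBaseChange_iotaO : IsBaseChange 𝒪' (iotaO KS 𝒪') :=
  IsBaseChange.comp (isBaseChange_iota KS (ParTensor3.fg (Gamma1 M)))
    (TensorProduct.isBaseChange ℤ_[p] (TateModule p J) 𝒪')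

variable {𝒪'}

/-- **the `χ`-eigenvector in `𝒪' ⊗ T_p J`.** -/
theorem exists_eigenvector_tate1 [IsDomain 𝒪'] [CharZero 𝒪'] (S : Set ℕ)
    (fJ : gen M S → (J →+ J))
    (hfJ : ∀ (i : gen M S) (k : ℕ) (x : ↥(tors J (p ^ k))) (hfx : fJ i (x : J) ∈ tors J (p ^ k)),
      KS.κ k ⟨fJ i (x : J), hfx⟩ = mulX (cosetOf M S i) (KS.κ k x))
    (χ : heckeAlgebra1 M 2 S →+* 𝒪') :
    ∃ w : 𝒪' ⊗[ℤ_[p]] TateModule p J, w ≠ 0 ∧
      ∀ i : gen M S, (TateModule13.map (p := p) (fJ i)).baseChange 𝒪' w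
        = χ ⟨Top M 2 S i, Top_mem S i⟩ • w := by
  have hcz : CharZero (FractionRing 𝒪') :=
    charZero_of_injective_algebraMap (IsFractionRing.injective 𝒪' (FractionRing 𝒪'))
  obtain ⟨w₀, hw₀, heig⟩ :=
    exists_eigenvector_lam' S ((algebraMap 𝒪' (FractionRing 𝒪')).comp χ)
  refine ClearDenom3.exists_eigenvector_of_isBaseChange (K' := FractionRing 𝒪')
    (iotaO KS 𝒪') (isBaseChange_iotaO KS 𝒪') (lamOp M S)
    (fun i => (TateModule13.map (p := p) (fJ i)).baseChange 𝒪') (fun i x => ?_)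
    (fun i => χ ⟨Top M 2 S i, Top_mem S i⟩) w₀ hw₀ heig
  rw [iotaO_apply, LinearMap.baseChange_tmul, iotaO_apply]
  congr 1
  exact TateCoset3.map_iota (cosetOf M S i) KS (fJ i) (hfJ i) x

end Fermat.Agent.M48.G1Tate3
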