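/-
Programme M48 (target S48), pillar (P1), chapter [IG1] — helper6.
**The decomposition group of the Gauss valuation in the full-level field is everything.**

`K` a field with `ι : K →+* ℂ`, `ζ ∈ K` with `ι ζ = exp(2πi/M)`, `O ⊂ K` a discrete valuation ring of
residue characteristic `ℓ ∤ M`.  `N = K(all translates of j(d z), g_{M,a})` (`FullLevelFam6`),
`G = ρ(SL(2, ℤ))` finite, `W` the Gauss valuation ring of `N`.

* units: `ζ, ζ⁻¹, 1/M, (1 - ζ^b)⁻¹ ∈ O`; all generators lie in the Gauss ring and in the core;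
* `hu` : `ρ(T⁻¹)` (the twist `Q ↦ ζ Q`) preserves `W`;
* `isometry_E`, `huniq` : on the image of the `X₀(M)`-field `E = K(j(q^d))` every `g ∈ G` preserves `W`
  (unique extension of the Gauss valuation of `K(j)` to `E`: tree `GaussInst25.exists_degLe_irr_fullC` +
  `GaussVTwoFam25.isometry_mem_iff`), and `N^H = E` for `H = Fix(E)` (Galois correspondence);
* `jExpS_sep` (SEP₁): the reductions of the expansions of `j((a z + b)/e)` are pairwise distinct;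
  `key_Gamma0`; `hGT` (via `SL2Gen6`);
* **`hstab`** : `g • x ∈ 𝔪_W ↔ x ∈ 𝔪_W` for `x` in the core.
-/
import Mathlib
import Fermat.Agent.M48.FullLevelFam6
import Fermat.Agent.M48.DecompSep6
import Fermat.Agent.M48.SL2Gen6
import Fermat.Agent.M48.GaussCoeff6
import Fermat.Agent.ES.N34.IsoM25
import Fermat.Agent.RED.PUR.GaussInst25
import Fermat.Agent.M48.ConstBC2

set_option autoImplicit false
set_option linter.unusedSectionVars false

open UpperHalfPlane ModularCurve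
open scoped MatrixGroups

noncomputable section

namespace Fermat.Agent.M48.IG1Core6

open Fermat.Agent.X0 Fermat.Agent.X0.QExpAffine Fermat.Agent.X0.CuspEquiv
open Fermat.Agent.M48.FullLevelGen6 Fermat.Agent.M48.FullLevelFam6 Fermat.Agent.M48.JRat6
  Fermat.Agent.M48.EisRat6 Fermat.Agent.M48.DictIface4 Fermat.Agent.M48.QModel8
  Fermat.Agent.M48.GaussCoeff6 Fermat.Agent.M48.DecompGalois6 Fermat.Agent.M48.DecompSep6
open Fermat.Agent.RED.PUR.GaussGen8 Fermat.Agent.RED.PUR.KtGauss8 Fermat.Agent.RED.PUR.G1Package8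
  Fermat.Agent.RED.PUR.GaussBridge10 Fermat.Agent.RED.PUR.GaussInst25

/-! ### Units of the valuation ring -/

section Units

variable {K : Type} [Field K] {ι : K →+* ℂ} (M : ℕ) [NeZero M] {ζ : K}
  (O : ValuationSubring K) (ℓ : ℕ) [CharP (Res O) ℓ]

theorem isPrimitiveRoot_zeta (hζ : ι ζ = zetaC M) : IsPrimitiveRoot ζ M := by
  have h : IsPrimitiveRoot (ι ζ) M := by
    rw [hζ, zetaC]
    exact Complex.isPrimitiveRoot_exp M (NeZero.ne M)
  exact IsPrimitiveRoot.of_map_of_injective h ι.injective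

theorem zeta_ne_zero (hζ : ι ζ = zetaC M) : ζ ≠ 0 :=
  (isPrimitiveRoot_zeta M hζ).ne_zero (NeZero.ne M)

theorem zeta_mem_and (hζ : ι ζ = zetaC M) : ζ ∈ O ∧ ζ⁻¹ ∈ O := by
  have hp := isPrimitiveRoot_zeta M hζ
  have h1 : ζ ^ M = 1 := hp.pow_eq_one
  have hM : M ≠ 0 := NeZero.ne M
  have e1 : ζ⁻¹ = ζ ^ (M - 1) := by
    apply inv_eq_of_mul_eq_one_right
    rw [← pow_succ', Nat.sub_add_cancel (Nat.pos_of_ne_zero hM), h1]
  have e2 : ζ = ζ⁻¹ ^ (M - 1) := by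
    rw [inv_pow]
    apply eq_inv_of_mul_eq_one_right
    rw [← pow_succ, Nat.sub_add_cancel (Nat.pos_of_ne_zero hM), h1]
  rcases O.mem_or_inv_mem ζ with h | h
  · exact ⟨h, by rw [e1]; exact pow_mem h _⟩
  · exact ⟨by rw [e2]; exact pow_mem h _, h⟩

theorem zeta_mem (hζ : ι ζ = zetaC M) : ζ ∈ O := (zeta_mem_and M O hζ).1
theorem zeta_inv_mem (hζ : ι ζ = zetaC M) : ζ⁻¹ ∈ O := (zeta_mem_and M O hζ).2

/-- an element of `O` with nonzero residue is invertible in `O`. -/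
theorem inv_mem_of_res_ne_zero {x : K} (hx : x ∈ O) (hres : res0 O ⟨x, hx⟩ ≠ 0) : x⁻¹ ∈ O := by
  have hu : IsUnit (⟨x, hx⟩ : ↥O) := by
    by_contra hnu
    exact hres ((IsLocalRing.residue_eq_zero_iff _).mpr ((IsLocalRing.mem_maximalIdeal _).mpr hnu))
  obtain ⟨u, hu⟩ := hu
  have h1 : ((u⁻¹ : (↥O)ˣ) : ↥O) * ⟨x, hx⟩ = 1 := by rw [← hu]; exact u.inv_mul
  have h2 : (((u⁻¹ : (↥O)ˣ) : ↥O) : K) * x = 1 := congrArg Subtype.val h1
  have h3 : x⁻¹ = (((u⁻¹ : (↥O)ˣ) : ↥O) : K) := (eq_inv_of_mul_eq_one_left h2).symm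
  rw [h3]
  exact Subtype.property _

theorem natCast_inv_mem (hℓ : ¬ ℓ ∣ M) : ((M : K))⁻¹ ∈ O := by
  have hx : (M : K) ∈ O := natCast_mem O M
  apply inv_mem_of_res_ne_zero O hx
  have : (⟨(M : K), hx⟩ : ↥O) = (M : ↥O) := Subtype.ext (by simp)
  rw [this, map_natCast]
  intro h0
  exact hℓ ((CharP.cast_eq_zero_iff (Res O) ℓ M).mp h0)

theorem one_sub_inv_mem (hζ : ι ζ = zetaC M) (hℓ : ¬ ℓ ∣ M) (b : ℕ) (hb0 : 0 < b) (hbM : b < M) :
    (1 - ζ ^ b)⁻¹ ∈ O := by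
  have hz := zeta_mem M O hζ
  have hx : 1 - ζ ^ b ∈ O := sub_mem (one_mem O) (pow_mem hz b)
  apply inv_mem_of_res_ne_zero O hx
  intro h0
  set η : ↥O := ⟨ζ, hz⟩ ^ b with hη
  have h1 : (⟨1 - ζ ^ b, hx⟩ : ↥O) = 1 - η := Subtype.ext (by simp [hη])
  rw [h1, map_sub, map_one, sub_eq_zero] at h0
  have hp := isPrimitiveRoot_zeta M hζ
  have h2 : η ^ M = 1 := by
    apply Subtype.ext
    simp only [hη, SubmonoidClass.coe_pow, OneMemClass.coe_one]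
    rw [← pow_mul, mul_comm, pow_mul, hp.pow_eq_one, one_pow]
  have h3 := eq_one_of_res_eq_one O hℓ η h2 h0.symm
  have h4 : ζ ^ b = 1 := by
    have := congrArg Subtype.val h3
    simpa [hη] using this
  exact hp.pow_ne_one_of_pos_of_lt hb0.ne' hbM h4

end Units

/-! ### The Gauss valuation of the full-level field -/

section Setup

variable {K : Type} [Field K] {ι : K →+* ℂ} (M : ℕ) [NeZero M] {ζ : K}
  (hζ : ι ζ = zetaC M) (hM : 2 ≤ M)
  (O : ValuationSubring K) [IsDiscreteValuationRing ↥O] {π : ↥O} (hπ : Irreducible π)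
  (ℓ : ℕ) [Fact ℓ.Prime] [CharP (Res O) ℓ] (hℓ : ¬ ℓ ∣ M)

include hℓ in
theorem famX_mem_gaussRing (i : Idx M) : famX M hζ i ∈ gaussRing O :=
  mem_gaussRing_of_coeff O (fun k => coeff_famX_mem M hζ O.toSubring (zeta_mem M O hζ)
    (zeta_inv_mem M O hζ) (natCast_inv_mem M O ℓ hℓ) (one_sub_inv_mem M O ℓ hζ hℓ) i k)

include hℓ in
theorem N_le_fracField : (fam M hζ hM).N ≤ fracField O := by
  rw [IntermediateField.adjoin_le_iff]
  rintro _ ⟨i, rfl⟩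
  exact gaussRing_le_fracField O (famX_mem_gaussRing M hζ O ℓ hℓ i)

/-- the Gauss valuation ring of `N`. -/
def WW : ValuationSubring (fam M hζ hM).N :=
  gaussVS (isUnif_of_irreducible O hπ) (fam M hζ hM).N (N_le_fracField M hζ hM O ℓ hℓ)

/-- its residue map. -/
def redW : WW M hζ hM O hπ ℓ hℓ →+* LaurentSeries (Res O) :=
  gaussVSRed (isUnif_of_irreducible O hπ) (fam M hζ hM).N (N_le_fracField M hζ hM O ℓ hℓ)

theorem mem_WW_iff (x : (fam M hζ hM).N) :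
    x ∈ WW M hζ hM O hπ ℓ hℓ ↔ (x : LaurentSeries K) ∈ gaussRing O :=
  mem_gaussVS_iff _ _ _ x

theorem redW_apply (x : WW M hζ hM O hπ ℓ hℓ) :
    redW M hζ hM O hπ ℓ hℓ x = gaussRed O ⟨((x : (fam M hζ hM).N) : LaurentSeries K),
      (mem_WW_iff M hζ hM O hπ ℓ hℓ x).mp x.2⟩ := rfl

theorem redW_ker (x : WW M hζ hM O hπ ℓ hℓ) :
    redW M hζ hM O hπ ℓ hℓ x = 0 ↔ ((x : (fam M hζ hM).N)) ∈ (WW M hζ hM O hπ ℓ hℓ).nonunits := by
  rw [ValuationSubring.mem_nonunits_iff_or]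
  constructor
  · intro h0
    by_contra hcon
    rw [not_or, not_not] at hcon
    obtain ⟨hx0, hinv⟩ := hcon
    have h1 : redW M hζ hM O hπ ℓ hℓ (x * ⟨_, hinv⟩) = 1 := by
      have : x * (⟨_, hinv⟩ : WW M hζ hM O hπ ℓ hℓ) = 1 := Subtype.ext (mul_inv_cancel₀ hx0)
      rw [this, map_one]
    rw [map_mul, h0, zero_mul] at h1
    exact zero_ne_one h1
  · rintro (h | h)
    · have : x = 0 := Subtype.ext h
      rw [this, map_zero]
    · by_contra hne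
      apply h
      rw [redW_apply] at hne
      have h5 := inv_mem_of_gaussRed_ne_zero O _ hne
      exact (mem_WW_iff M hζ hM O hπ ℓ hℓ (x : (fam M hζ hM).N)⁻¹).mpr h5

/-! ### The group -/

/-- the finite group `ρ(SL(2, ℤ))`. -/
abbrev GG : Type := ↥(fam M hζ hM).rho.range

instance instFiniteGG : Finite (GG M hζ hM) := finite_range M hζ hM

/-- the element `ρ(γ)`. -/
def gOf (γ : SL(2, ℤ)) : GG M hζ hM := ⟨(fam M hζ hM).rho γ, γ, rfl⟩

theorem gOf_smul (γ : SL(2, ℤ)) (y : (fam M hζ hM).N) :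
    gOf M hζ hM γ • y = (fam M hζ hM).rho γ y := rfl

theorem exists_gOf (g : GG M hζ hM) : ∃ γ, g = gOf M hζ hM γ := by
  obtain ⟨_, γ, rfl⟩ := g
  exact ⟨γ, rfl⟩

theorem gOf_mul (γ δ : SL(2, ℤ)) : gOf M hζ hM (γ * δ) = gOf M hζ hM γ * gOf M hζ hM δ :=
  Subtype.ext (map_mul _ γ δ)

theorem gOf_inv (γ : SL(2, ℤ)) : gOf M hζ hM γ⁻¹ = (gOf M hζ hM γ)⁻¹ :=
  Subtype.ext (map_inv _ γ)

theorem famX_mem_A (i : Idx M) : famX M hζ i ∈ (fam M hζ hM).A :=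
  Algebra.subset_adjoin ⟨i, rfl⟩

theorem famX_mem_N (i : Idx M) : famX M hζ i ∈ (fam M hζ hM).N :=
  IntermediateField.subset_adjoin K _ ⟨i, rfl⟩

/-- the generators as elements of `N`. -/
def xN (i : Idx M) : (fam M hζ hM).N := ⟨famX M hζ i, famX_mem_N M hζ hM i⟩

theorem coe_gOf_smul_xN (γ : SL(2, ℤ)) (i : Idx M) :
    ((gOf M hζ hM γ • xN M hζ hM i : (fam M hζ hM).N) : LaurentSeries K) =
      famX M hζ (trI M γ⁻¹ i) := by
  rw [gOf_smul]
  refine (fam M hζ hM).rho_eq_of_rel γ (famX_mem_A M hζ hM i) (famX_mem_A M hζ hM _)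
    (rel_fam M hζ hM i) ?_ (famX_mem_N M hζ hM i)
  rw [compSL_famF]
  exact rel_fam M hζ hM _

theorem gOf_smul_xN (γ : SL(2, ℤ)) (i : Idx M) :
    gOf M hζ hM γ • xN M hζ hM i = xN M hζ hM (trI M γ⁻¹ i) :=
  Subtype.ext (coe_gOf_smul_xN M hζ hM γ i)

theorem xN_mem_core (i : Idx M) : xN M hζ hM i ∈ core (GG M hζ hM) (WW M hζ hM O hπ ℓ hℓ) := by
  intro g
  obtain ⟨γ, rfl⟩ := exists_gOf M hζ hM g
  rw [gOf_smul_xN, mem_WW_iff]
  exact famX_mem_gaussRing M hζ O ℓ hℓ _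

/-- **`hu`**: `ρ(T⁻¹)` preserves the Gauss valuation ring. -/
theorem hu (x : (fam M hζ hM).N) :
    gOf M hζ hM ModularGroup.T⁻¹ • x ∈ WW M hζ hM O hπ ℓ hℓ ↔ x ∈ WW M hζ hM O hπ ℓ hℓ := by
  rw [mem_WW_iff, mem_WW_iff, gOf_smul, (fam M hζ hM).coe_rho_T_inv (zeta_ne_zero M hζ) hζ,
    twist_mem_gaussRing_iff O _ (zeta_mem M O hζ) (zeta_inv_mem M O hζ)]

/-! ### `huniq`: the `X₀(M)`-field and the unique extension of the Gauss valuation -/

/-- the `X₀(M)`-field `K(j(q^d) : d ∣ M)`. -/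
abbrev EE : IntermediateField K (LaurentSeries K) := modularFunctionFieldFullC K M

/-- the index of `j(d z)`. -/
def iJ (d : ℕ) (hd0 : d ≠ 0) (hd : d ∣ M) : Idx M := Sum.inl (⟨d, hd0, hd⟩, 1)

theorem famX_iJ (d : ℕ) (hd0 : d ≠ 0) (hd : d ∣ M) :
    haveI : NeZero d := ⟨hd0⟩
    famX M hζ (iJ M d hd0 hd) = qExpand K M (qExpand K d (jqModC K)) :=
  famX_inl_one M hζ ⟨d, hd0, hd⟩

theorem qExpand_mem_N {x : LaurentSeries K} (hx : x ∈ EE (K := K) M) :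
    qExpand K M x ∈ (fam M hζ hM).N := by
  have h1 : (EE (K := K) M).map (qExpandAlgHomC K M) ≤ (fam M hζ hM).N := by
    rw [EE, modularFunctionFieldFullC, IntermediateField.adjoin_map, IntermediateField.adjoin_le_iff]
    rintro _ ⟨_, ⟨d, hd0, hd, rfl⟩, rfl⟩
    rw [qExpandAlgHomC_apply]
    have := famX_iJ M hζ d hd0.out hd
    rw [← this]
    exact famX_mem_N M hζ hM _
  exact h1 ((IntermediateField.mem_map _).mpr ⟨x, hx, rfl⟩)

/-- `x ↦ x(Q^M)` as a map `E → N`. -/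
def iotaN : ↥(EE (K := K) M) →ₐ[K] ↥(fam M hζ hM).N where
  toFun x := ⟨qExpand K M (x : LaurentSeries K), qExpand_mem_N M hζ hM x.2⟩
  map_one' := Subtype.ext (map_one _)
  map_mul' _ _ := Subtype.ext (map_mul _ _ _)
  map_zero' := Subtype.ext (map_zero _)
  map_add' _ _ := Subtype.ext (map_add _ _ _)
  commutes' c := Subtype.ext ((qExpandAlgHomC K M).commutes c)

theorem coe_iotaN (x : ↥(EE (K := K) M)) :
    ((iotaN M hζ hM x : (fam M hζ hM).N) : LaurentSeries K) = qExpand K M (x : LaurentSeries K) := rfl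

/-- `j` as an element of `E`. -/
def jE : ↥(EE (K := K) M) := ⟨jqModC K, jqModC_mem_full K M⟩

theorem iotaN_jE : iotaN M hζ hM (jE M) = xN M hζ hM (iJ M 1 one_ne_zero (one_dvd M)) := by
  apply Subtype.ext
  show qExpand K M (jqModC K) = famX M hζ (iJ M 1 one_ne_zero (one_dvd M))
  rw [famX_iJ, qExpand_one_apply]

include hM in
/-- the translates of `j` all have the same expansion. -/
theorem famX_inl_one_eq (σ : SL(2, ℤ)) :
    famX M hζ (Sum.inl (⟨1, one_ne_zero, one_dvd M⟩, σ)) =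
      famX M hζ (iJ M 1 one_ne_zero (one_dvd M)) := by
  have h1 := rel_fam M hζ hM (Sum.inl (⟨1, one_ne_zero, one_dvd M⟩, σ))
  have h2 := rel_fam M hζ hM (iJ M 1 one_ne_zero (one_dvd M))
  have e1 : famF M (Sum.inl (⟨1, one_ne_zero, one_dvd M⟩, σ)) = jFun := intg_compSL_jdFun_one σ
  have e2 : famF M (iJ M 1 one_ne_zero (one_dvd M)) = jFun := intg_compSL_jdFun_one 1
  rw [e1] at h1
  rw [e2] at h2
  exact h1.left_unique h2

theorem smul_iotaN_jE (g : GG M hζ hM) : g • iotaN M hζ hM (jE M) = iotaN M hζ hM (jE M) := by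
  obtain ⟨γ, rfl⟩ := exists_gOf M hζ hM g
  rw [iotaN_jE, gOf_smul_xN]
  apply Subtype.ext
  show famX M hζ (trI M γ⁻¹ (iJ M 1 one_ne_zero (one_dvd M))) = _
  exact famX_inl_one_eq M hζ hM _

/-- the expansion map of `E` twisted by `g`. -/
def iotaG (g : GG M hζ hM) : ↥(EE (K := K) M) →ₐ[K] LaurentSeries K :=
  (fam M hζ hM).N.val.comp
    (((g : (fam M hζ hM).N ≃ₐ[K] (fam M hζ hM).N) : (fam M hζ hM).N →ₐ[K] (fam M hζ hM).N).comp
      (iotaN M hζ hM))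

theorem iotaG_apply (g : GG M hζ hM) (x : ↥(EE (K := K) M)) :
    iotaG M hζ hM g x = ((g • iotaN M hζ hM x : (fam M hζ hM).N) : LaurentSeries K) := rfl

/-- the pull-back of the Gauss valuation ring of `N` along `g ∘ iotaN`. -/
def VG (g : GG M hζ hM) : ValuationSubring ↥(EE (K := K) M) :=
  (WW M hζ hM O hπ ℓ hℓ).comap
    ((((g : (fam M hζ hM).N ≃ₐ[K] (fam M hζ hM).N) : (fam M hζ hM).N →ₐ[K] (fam M hζ hM).N).comp
      (iotaN M hζ hM)) : ↥(EE (K := K) M) →+* (fam M hζ hM).N)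

theorem isGaussPullback_VG (g : GG M hζ hM) :
    Fermat.Agent.ES.N34.GaussEmb22.IsGaussPullback O (iotaG M hζ hM g) (VG M hζ hM O hπ ℓ hℓ g) := by
  intro x
  rw [VG, ValuationSubring.mem_comap, mem_WW_iff]
  rfl

include ι in
theorem charZero_K : CharZero K := RingHom.charZero ι

include hπ hℓ in
/-- **The isometry**: `g ∘ (Q ↦ Q^M)` preserves the Gauss ring on the `X₀(M)`-field. -/
theorem isometry_E (g : GG M hζ hM) (x : ↥(EE (K := K) M)) :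
    (x : LaurentSeries K) ∈ gaussRing O ↔
      ((g • iotaN M hζ hM x : (fam M hζ hM).N) : LaurentSeries K) ∈ gaussRing O := by
  have hchar : CharZero K := RingHom.charZero ι
  have hE : EE (K := K) M ≤ fracField O := fullC_le_fracField O M
  have hV₁ := Fermat.Agent.ES.N34.G2Out22.isGaussPullback_OvE hπ hE
  have hV₂ := isGaussPullback_VG M hζ hM O hπ ℓ hℓ g
  have ht₁ : (EE (K := K) M).val (jE M) ∈ gaussRing O := (jG O).2
  have htr₁ : Transcendental (Res O) (gaussRed O ⟨(EE (K := K) M).val (jE M), ht₁⟩) := by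
    have : (⟨(EE (K := K) M).val (jE M), ht₁⟩ : ↥(gaussRing O)) = jG O := rfl
    rw [this, gaussRed_jG]
    exact Fermat.Agent.IG.VAL.OvBasics22.transcendental_jqModC (Res O)
  have e2 : iotaG M hζ hM g (jE M) = qExpand K M (jqModC K) := by
    rw [iotaG_apply, smul_iotaN_jE]
    rfl
  have ht₂ : iotaG M hζ hM g (jE M) ∈ gaussRing O := by
    rw [e2]; exact jqd_mem_gaussRing O M
  have htr₂ : Transcendental (Res O) (gaussRed O ⟨iotaG M hζ hM g (jE M), ht₂⟩) := by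
    have : (⟨iotaG M hζ hM g (jE M), ht₂⟩ : ↥(gaussRing O)) =
        ⟨qExpand K M (jqModC K), jqd_mem_gaussRing O M⟩ := Subtype.ext e2
    rw [this]
    exact Fermat.Agent.ES.N34.IsoM25.transcendental_gaussRed_jqd O M
  obtain ⟨n, hn0, hdeg, hirr⟩ := exists_degLe_irr_fullC O hπ ℓ M hℓ (jG O) (jqModC_mem_full K M)
    (IntermediateField.mem_adjoin_simple_self K _)
  have hle : Kt O (jG O) ≤ EE (K := K) M :=
    IntermediateField.adjoin_simple_le_iff.mpr (jqModC_mem_full K M)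
  have hrel0 : IntermediateField.relfinrank (Kt O (jG O)) (EE (K := K) M) ≠ 0 :=
    Fermat.Agent.M48.ConstBC2.relfinrank_ne_zero_of_family_bound hle n hdeg
  have hrel : IntermediateField.relfinrank (Kt O (jG O)) (EE (K := K) M) ≤ n :=
    Fermat.Agent.IG.PR.FamilyForm20.relfinrank_le_of_family_bound hle n hdeg
  have hfd := Fermat.Agent.ES.N34.IsoM25.finite_of_relfinrank (O := O) (jE M) ht₁ hrel0
  have hmj : Module.finrank ↥(IntermediateField.adjoin K {jE (K := K) M}) ↥(EE (K := K) M) ≤ n :=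
    (Fermat.Agent.ES.N34.IsoM25.finrank_eq_relfinrank (O := O) (jE M) ht₁).le.trans hrel
  obtain ⟨b, hb, hli⟩ := Fermat.Agent.ES.N34.IsoM25.exists_family_of_irr hπ hE (jE M) ht₁ hirr
  exact Fermat.Agent.ES.N34.GaussVTwoFam25.isometry_mem_iff hV₁ hV₂ hπ ht₁ htr₁ ht₂ htr₂ hmj b hb
    hli x

/-- the image of `E` in `N`, as a subfield. -/
def EMN : Subfield (fam M hζ hM).N := (iotaN M hζ hM).fieldRange.toSubfield

theorem mem_EMN_iff (y : (fam M hζ hM).N) :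
    y ∈ EMN M hζ hM ↔ ∃ x : ↥(EE (K := K) M), iotaN M hζ hM x = y := by
  rw [EMN]
  exact AlgHom.mem_fieldRange

theorem rel_J : Rel ι M (laurentOf (1 * M) ((jNumR K).expand M (NeZero.ne M))) jFun := by
  have h := rel_jdFun (ι := ι) M 1
  rw [qExpand_one_apply, jqModC_eq_laurentOf, qExpand_laurentOf] at h
  have e : jdFun 1 = jFun := (compSL_one' _).symm.trans (intg_compSL_jdFun_one 1)
  rw [← e]
  exact h

/-- **The fixed field of `G` lies in the image of `E`.** -/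
theorem mem_EMN_of_fixed (y : (fam M hζ hM).N) (hy : ∀ g : GG M hζ hM, g • y = y) :
    y ∈ EMN M hζ hM := by
  have hU0 : PowerSeries.constantCoeff ((jNumR K).expand M (NeZero.ne M)) = 1 := by
    rw [← PowerSeries.coeff_zero_eq_constantCoeff_apply]
    have := PowerSeries.coeff_expand_mul M (NeZero.ne M) (jNumR K) 0
    rw [mul_zero] at this
    rw [this, coeff_zero_jNumR]
  have h1 := (fam M hζ hM).mem_adjoin_of_rho_fixed (finite_range M hζ hM) (famF_mem_HolH M hM)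
    (Nat.pos_of_ne_zero (Nat.mul_ne_zero one_ne_zero (NeZero.ne M))) hU0 (rel_J M) y
    (fun γ => hy (gOf M hζ hM γ))
  have h2 : laurentOf (1 * M) ((jNumR K).expand M (NeZero.ne M)) = qExpandAlgHomC K M (jqModC K) := by
    rw [qExpandAlgHomC_apply, jqModC_eq_laurentOf, qExpand_laurentOf]
  rw [h2] at h1
  have h3 : IntermediateField.adjoin K {qExpandAlgHomC K M (jqModC K)} =
      (IntermediateField.adjoin K {jqModC K}).map (qExpandAlgHomC K M) := by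
    rw [IntermediateField.adjoin_map, Set.image_singleton]
  rw [h3] at h1
  obtain ⟨x, hx, hxy⟩ := (IntermediateField.mem_map _).mp h1
  have hxE : x ∈ EE (K := K) M :=
    (IntermediateField.adjoin_simple_le_iff.mpr (jqModC_mem_full K M)) hx
  rw [mem_EMN_iff]
  exact ⟨⟨x, hxE⟩, Subtype.ext hxy⟩

/-- the subgroup fixing the `X₀(M)`-field. -/
abbrev HH : Subgroup (GG M hζ hM) := fixingSubgroup (GG M hζ hM) (EMN M hζ hM : Set (fam M hζ hM).N)

include hπ hℓ in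
/-- **`huniq`.** -/
theorem huniq (g : GG M hζ hM) (x : (fam M hζ hM).N) (hx : ∀ h ∈ HH M hζ hM, h • x = x) :
    g • x ∈ WW M hζ hM O hπ ℓ hℓ ↔ x ∈ WW M hζ hM O hπ ℓ hℓ := by
  have h1 := fixed_mem (EMN M hζ hM) (mem_EMN_of_fixed M hζ hM) x hx
  obtain ⟨x', rfl⟩ := (mem_EMN_iff M hζ hM x).mp h1
  rw [mem_WW_iff, mem_WW_iff, ← isometry_E M hζ hM O hπ ℓ hℓ g x']
  have := isometry_E M hζ hM O hπ ℓ hℓ 1 x'
  rw [one_smul] at this
  exact this

end Setup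

/-! ### Separation of the translates of `j(M z)` modulo the maximal ideal -/

section SepJ

variable {K : Type} [Field K] {ι : K →+* ℂ} (M : ℕ) [NeZero M] {ζ : K}
  (hζ : ι ζ = zetaC M) (O : ValuationSubring K) (ℓ : ℕ) [CharP (Res O) ℓ] (hℓ : ¬ ℓ ∣ M)

include hζ in
theorem coeff_jExpS_mem_O (a e : ℕ) (b k : ℤ) : (jExpS M ζ a e b).coeff k ∈ O :=
  coeff_jExpS_mem M O.toSubring (zeta_mem M O hζ) (zeta_inv_mem M O hζ) a e b k

theorem res_zpow_ne_zero {ξ : K} (h1 : ξ ∈ O) (h2 : ξ⁻¹ ∈ O) (hξ0 : ξ ≠ 0) (k : ℤ) :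
    res0 O ⟨ξ ^ k, zpow_mem_of_unit O h1 h2 k⟩ ≠ 0 := by
  have hmul : (⟨ξ ^ k, zpow_mem_of_unit O h1 h2 k⟩ : ↥O) *
      ⟨ξ ^ (-k), zpow_mem_of_unit O h1 h2 (-k)⟩ = 1 := Subtype.ext (by
    show ξ ^ k * ξ ^ (-k) = 1
    rw [← zpow_add₀ hξ0, add_neg_cancel, zpow_zero])
  intro h0'
  have := congrArg (res0 O) hmul
  rw [map_mul, h0', zero_mul, map_one] at this
  exact zero_ne_one this

include hζ in
theorem xi_mem_and (e : ℕ) : ζ ^ (M / e) ∈ O ∧ (ζ ^ (M / e))⁻¹ ∈ O ∧ ζ ^ (M / e) ≠ 0 :=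
  ⟨pow_mem (zeta_mem M O hζ) _, by rw [← inv_pow]; exact pow_mem (zeta_inv_mem M O hζ) _,
    pow_ne_zero _ (zeta_ne_zero M hζ)⟩

include hζ in
/-- the pole order of the reduction. -/
theorem jExpS_sep_le {a e a' e' : ℕ} {b b' : ℤ}
    (h1 : jExpS M ζ a e b ∈ gaussRing O) (h2 : jExpS M ζ a' e' b' ∈ gaussRing O)
    (h : gaussRed O ⟨jExpS M ζ a e b, h1⟩ = gaussRed O ⟨jExpS M ζ a' e' b', h2⟩) :
    a' * (M / e') ≤ a * (M / e) := by
  by_contra hlt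
  rw [not_le] at hlt
  have hk := congrArg (fun y : LaurentSeries (Res O) => y.coeff (-((a' * (M / e') : ℕ) : ℤ))) h
  beta_reduce at hk
  rw [gaussRed_coeff' O (coeff_jExpS_mem_O M hζ O a e b) h1,
    gaussRed_coeff' O (coeff_jExpS_mem_O M hζ O a' e' b') h2] at hk
  have e1 : (⟨(jExpS M ζ a e b).coeff (-((a' * (M / e') : ℕ) : ℤ)),
      coeff_jExpS_mem_O M hζ O a e b _⟩ : ↥O) = 0 := by
    apply Subtype.ext
    show (jExpS M ζ a e b).coeff (-((a' * (M / e') : ℕ) : ℤ)) = 0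
    apply coeff_jExpS_of_lt
    have : ((a * (M / e) : ℕ) : ℤ) < ((a' * (M / e') : ℕ) : ℤ) := by exact_mod_cast hlt
    omega
  obtain ⟨hx1, hx2, hx0⟩ := xi_mem_and M hζ O e'
  have e2 : (⟨(jExpS M ζ a' e' b').coeff (-((a' * (M / e') : ℕ) : ℤ)),
      coeff_jExpS_mem_O M hζ O a' e' b' _⟩ : ↥O) =
      ⟨(ζ ^ (M / e')) ^ (-b'), zpow_mem_of_unit O hx1 hx2 (-b')⟩ :=
    Subtype.ext (coeff_jExpS_lowest M a' e' b')
  rw [e1, e2, map_zero] at hk
  exact res_zpow_ne_zero O hx1 hx2 hx0 (-b') hk.symm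

include hζ hℓ in
/-- **(SEP₁)**: the reductions of the expansions of `j((a z + b)/e)`, `a e = M`, `0 ≤ b < e`, are
pairwise distinct. -/
theorem jExpS_sep {a e a' e' : ℕ} {b b' : ℤ} (he : 0 < e) (hae : a * e = M) (hb0 : 0 ≤ b)
    (hbe : b < e) (he' : 0 < e') (hae' : a' * e' = M) (hb0' : 0 ≤ b') (hbe' : b' < e')
    (h1 : jExpS M ζ a e b ∈ gaussRing O) (h2 : jExpS M ζ a' e' b' ∈ gaussRing O)
    (h : gaussRed O ⟨jExpS M ζ a e b, h1⟩ = gaussRed O ⟨jExpS M ζ a' e' b', h2⟩) :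
    a = a' ∧ e = e' ∧ b = b' := by
  have hle1 := jExpS_sep_le M hζ O h1 h2 h
  have hle2 := jExpS_sep_le M hζ O h2 h1 h.symm
  have hm : a * (M / e) = a' * (M / e') := le_antisymm hle2 hle1
  have hMe : M / e = a := by rw [← hae, Nat.mul_div_cancel _ he]
  have hMe' : M / e' = a' := by rw [← hae', Nat.mul_div_cancel _ he']
  rw [hMe, hMe'] at hm
  have haa : a = a' := Nat.mul_self_inj.mp hm
  subst haa
  have ha0 : 0 < a := Nat.pos_of_ne_zero (fun h0 => NeZero.ne M (by rw [← hae, h0, zero_mul]))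
  have hee : e = e' := Nat.eq_of_mul_eq_mul_left ha0 (hae.trans hae'.symm)
  subst hee
  refine ⟨rfl, rfl, ?_⟩
  -- the lowest coefficients
  have hk := congrArg (fun y : LaurentSeries (Res O) => y.coeff (-((a * (M / e) : ℕ) : ℤ))) h
  beta_reduce at hk
  rw [gaussRed_coeff' O (coeff_jExpS_mem_O M hζ O a e b) h1,
    gaussRed_coeff' O (coeff_jExpS_mem_O M hζ O a e b') h2] at hk
  obtain ⟨hx1, hx2, hx0⟩ := xi_mem_and M hζ O e
  have e1 : (⟨(jExpS M ζ a e b).coeff (-((a * (M / e) : ℕ) : ℤ)),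
      coeff_jExpS_mem_O M hζ O a e b _⟩ : ↥O) =
      ⟨(ζ ^ (M / e)) ^ (-b), zpow_mem_of_unit O hx1 hx2 (-b)⟩ :=
    Subtype.ext (coeff_jExpS_lowest M a e b)
  have e2 : (⟨(jExpS M ζ a e b').coeff (-((a * (M / e) : ℕ) : ℤ)),
      coeff_jExpS_mem_O M hζ O a e b' _⟩ : ↥O) =
      ⟨(ζ ^ (M / e)) ^ (-b'), zpow_mem_of_unit O hx1 hx2 (-b')⟩ :=
    Subtype.ext (coeff_jExpS_lowest M a e b')
  rw [e1, e2] at hk
  -- `η = ξ^(b' - b)` reduces to `1`
  set η : ↥O := ⟨(ζ ^ (M / e)) ^ (b' - b), zpow_mem_of_unit O hx1 hx2 (b' - b)⟩ with hη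
  have hmul : (⟨(ζ ^ (M / e)) ^ (-b), zpow_mem_of_unit O hx1 hx2 (-b)⟩ : ↥O) =
      ⟨(ζ ^ (M / e)) ^ (-b'), zpow_mem_of_unit O hx1 hx2 (-b')⟩ * η := Subtype.ext (by
    show (ζ ^ (M / e)) ^ (-b) = (ζ ^ (M / e)) ^ (-b') * (ζ ^ (M / e)) ^ (b' - b)
    rw [← zpow_add₀ hx0]
    congr 1
    ring)
  rw [hmul, map_mul] at hk
  have hres : res0 O η = 1 := by
    have hne := res_zpow_ne_zero O hx1 hx2 hx0 (-b')
    have : res0 O ⟨(ζ ^ (M / e)) ^ (-b'), zpow_mem_of_unit O hx1 hx2 (-b')⟩ * res0 O η =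
        res0 O ⟨(ζ ^ (M / e)) ^ (-b'), zpow_mem_of_unit O hx1 hx2 (-b')⟩ * 1 := by
      rw [hk, mul_one]
    exact mul_left_cancel₀ hne this
  have hp := isPrimitiveRoot_zeta M hζ
  have hηM : η ^ M = 1 := by
    apply Subtype.ext
    show ((ζ ^ (M / e)) ^ (b' - b)) ^ M = 1
    rw [← zpow_natCast, ← zpow_mul, mul_comm, zpow_mul, zpow_natCast, ← pow_mul, mul_comm, pow_mul,
      hp.pow_eq_one, one_pow, one_zpow]
  have hη1 := eq_one_of_res_eq_one O hℓ η hηM hres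
  have hξ : IsPrimitiveRoot (ζ ^ (M / e)) e := by
    apply hp.pow (Nat.pos_of_ne_zero (NeZero.ne M))
    rw [hMe, hae]
  have hz : (ζ ^ (M / e)) ^ (b' - b) = 1 := congrArg Subtype.val hη1
  have hdvd := (hξ.zpow_eq_one_iff_dvd _).mp hz
  obtain ⟨c, hc⟩ := hdvd
  have hc0 : c = 0 := by
    by_contra hc0
    rcases lt_or_gt_of_ne hc0 with hneg | hpos
    · have : (e : ℤ) * c ≤ (e : ℤ) * (-1) := by
        apply mul_le_mul_of_nonneg_left (by omega) (by positivity)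
      omega
    · have : (e : ℤ) * 1 ≤ (e : ℤ) * c := by
        apply mul_le_mul_of_nonneg_left (by omega) (by positivity)
      omega
  rw [hc0, mul_zero] at hc
  omega

end SepJ

/-! ### The decomposition group is everything -/

section Decomp

variable {K : Type} [Field K] {ι : K →+* ℂ} (M : ℕ) [NeZero M] {ζ : K}
  (hζ : ι ζ = zetaC M) (hM : 2 ≤ M)
  (O : ValuationSubring K) [IsDiscreteValuationRing ↥O] {π : ↥O} (hπ : Irreducible π)
  (ℓ : ℕ) [Fact ℓ.Prime] [CharP (Res O) ℓ] (hℓ : ¬ ℓ ∣ M)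

/-- the reduction of a generator. -/
def redx (i : Idx M) : LaurentSeries (Res O) :=
  gaussRed O ⟨famX M hζ i, famX_mem_gaussRing M hζ O ℓ hℓ i⟩

/-- the generators as elements of the core. -/
def xC (i : Idx M) : core (GG M hζ hM) (WW M hζ hM O hπ ℓ hℓ) :=
  ⟨xN M hζ hM i, xN_mem_core M hζ hM O hπ ℓ hℓ i⟩

theorem psi_xC (γ : SL(2, ℤ)) (i : Idx M) :
    psi (redW M hζ hM O hπ ℓ hℓ) (gOf M hζ hM γ) (xC M hζ hM O hπ ℓ hℓ i) =
      redx M hζ O ℓ hℓ (trI M γ⁻¹ i) := by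
  rw [psi_apply, redC, RingHom.comp_apply, redW_apply]
  unfold redx
  congr 1
  exact Subtype.ext (coe_gOf_smul_xN M hζ hM γ i)

/-- the index of `j(M z) ∘ σ`. -/
def iM (σ : SL(2, ℤ)) : Idx M := Sum.inl (⟨M, NeZero.ne M, dvd_rfl⟩, σ)

include hM in
/-- **(KEY)**: equal reductions of `j(M ·) ∘ σ`, `j(M ·) ∘ τ` force `σ τ⁻¹ ∈ Γ₀(M)`. -/
theorem key_Gamma0 (σ τ : SL(2, ℤ))
    (h : redx M hζ O ℓ hℓ (iM M σ) = redx M hζ O ℓ hℓ (iM M τ)) :
    σ * τ⁻¹ ∈ CongruenceSubgroup.Gamma0 M := by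
  obtain ⟨s', a, e, b, ha, he, hae, hb0, hbe, hs10, hs11, hxs, -⟩ :=
    famX_inl M hζ ⟨M, NeZero.ne M, dvd_rfl⟩ σ
  obtain ⟨t', a', e', b', ha', he', hae', hb0', hbe', ht10, ht11, hxt, -⟩ :=
    famX_inl M hζ ⟨M, NeZero.ne M, dvd_rfl⟩ τ
  have h1 : jExpS M ζ a e b ∈ gaussRing O := by
    rw [← hxs]; exact famX_mem_gaussRing M hζ O ℓ hℓ _
  have h2 : jExpS M ζ a' e' b' ∈ gaussRing O := by
    rw [← hxt]; exact famX_mem_gaussRing M hζ O ℓ hℓ _
  have h' : gaussRed O ⟨jExpS M ζ a e b, h1⟩ = gaussRed O ⟨jExpS M ζ a' e' b', h2⟩ := by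
    unfold redx at h
    have e1 : (⟨famX M hζ (iM M σ), famX_mem_gaussRing M hζ O ℓ hℓ _⟩ : ↥(gaussRing O)) =
        ⟨jExpS M ζ a e b, h1⟩ := Subtype.ext hxs
    have e2 : (⟨famX M hζ (iM M τ), famX_mem_gaussRing M hζ O ℓ hℓ _⟩ : ↥(gaussRing O)) =
        ⟨jExpS M ζ a' e' b', h2⟩ := Subtype.ext hxt
    rw [e1, e2] at h
    exact h
  obtain ⟨rfl, rfl, rfl⟩ := jExpS_sep M hζ O ℓ hℓ he hae hb0 hbe he' hae' hb0' hbe' h1 h2 h'
  rw [CongruenceSubgroup.Gamma0_mem, ZMod.intCast_zmod_eq_zero_iff_dvd]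
  have hinv := Matrix.SpecialLinearGroup.SL2_inv_expl τ
  have e00 : (τ⁻¹ : SL(2, ℤ)) 0 0 = τ 1 1 := by rw [hinv]; rfl
  have e10 : (τ⁻¹ : SL(2, ℤ)) 1 0 = -τ 1 0 := by rw [hinv]; rfl
  have hmul : (σ * τ⁻¹) 1 0 = σ 1 0 * (τ⁻¹ : SL(2, ℤ)) 0 0 + σ 1 1 * (τ⁻¹ : SL(2, ℤ)) 1 0 := by
    rw [Matrix.SpecialLinearGroup.coe_mul, Matrix.mul_apply, Fin.sum_univ_two]
  rw [hmul, e00, e10, hs10, hs11, ht10, ht11]
  refine ⟨s' 1 0 * t' 1 1 - s' 1 1 * t' 1 0, ?_⟩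
  have : ((a * e : ℕ) : ℤ) = (M : ℤ) := by rw [hae]
  rw [← this]
  push_cast
  ring

include hπ hℓ in
/-- elements of `H` come from `Γ₀(M)`. -/
theorem mem_Gamma0_of_mem_HH (η : SL(2, ℤ)) (h : gOf M hζ hM η ∈ HH M hζ hM) :
    η ∈ CongruenceSubgroup.Gamma0 M := by
  -- `x₁ = j(Q^{M²})` lies in the image of `E`
  have hx1 : xN M hζ hM (iM M 1) ∈ EMN M hζ hM := by
    rw [mem_EMN_iff]
    refine ⟨⟨qExpand K M (jqModC K), jqModCd_mem_full K M dvd_rfl⟩, ?_⟩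
    apply Subtype.ext
    show qExpand K M (qExpand K M (jqModC K)) = famX M hζ (iM M 1)
    exact (famX_iJ M hζ M (NeZero.ne M) dvd_rfl).symm
  have h1 : gOf M hζ hM η • xN M hζ hM (iM M 1) = xN M hζ hM (iM M 1) := h ⟨_, hx1⟩
  rw [gOf_smul_xN] at h1
  have h2 : famX M hζ (iM M (1 * η⁻¹)) = famX M hζ (iM M 1) := congrArg Subtype.val h1
  have h3 : redx M hζ O ℓ hℓ (iM M (1 * η⁻¹)) = redx M hζ O ℓ hℓ (iM M 1) := by
    unfold redx
    congr 1
    exact Subtype.ext h2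
  have h4 := key_Gamma0 M hζ hM O ℓ hℓ _ _ h3
  rw [one_mul, inv_one, mul_one] at h4
  have := (CongruenceSubgroup.Gamma0 M).inv_mem h4
  rwa [inv_inv] at this

include hπ hℓ in
/-- **`hGT`.** -/
theorem hGT (D : Subgroup (GG M hζ hM)) (hu : gOf M hζ hM ModularGroup.T⁻¹ ∈ D)
    (hDH : ∀ g : GG M hζ hM, ∃ d ∈ D, ∃ h ∈ HH M hζ hM, g = d * h) : D = ⊤ := by
  set D' : Subgroup SL(2, ℤ) := D.comap (fam M hζ hM).rho.rangeRestrict with hD'
  have hmem : ∀ γ, γ ∈ D' ↔ gOf M hζ hM γ ∈ D := fun γ => Iff.rfl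
  have hΓ : CongruenceSubgroup.Gamma M ≤ D' := by
    intro γ hγ
    rw [hmem]
    have h1 : gOf M hζ hM γ = 1 := Subtype.ext (Gamma_le_ker M hζ hM hγ)
    rw [h1]
    exact D.one_mem
  have hT : ModularGroup.T ∈ D' := by
    rw [hmem]
    have := D.inv_mem hu
    rwa [← gOf_inv, inv_inv] at this
  have hDB : ∀ g : SL(2, ℤ), ∃ d ∈ D', ∃ h ∈ CongruenceSubgroup.Gamma0 M, g = d * h := by
    intro γ
    obtain ⟨d₀, hd₀, h₀, hh₀, hγ⟩ := hDH (gOf M hζ hM γ)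
    obtain ⟨δ, rfl⟩ := exists_gOf M hζ hM d₀
    refine ⟨δ, (hmem δ).mpr hd₀, δ⁻¹ * γ, ?_, by group⟩
    apply mem_Gamma0_of_mem_HH M hζ hM O hπ ℓ hℓ
    rw [gOf_mul, gOf_inv, hγ, inv_mul_cancel_left]
    exact hh₀
  have htop := Fermat.Agent.M48.SL2Gen6.eq_top_of_mul_Gamma0_eq_top M D' hΓ hT hDB
  rw [eq_top_iff]
  intro g _
  obtain ⟨γ, rfl⟩ := exists_gOf M hζ hM g
  rw [← hmem, htop]
  trivial

/-- **`hstab`**: the maximal ideal is `G`-stable on the core. -/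
theorem hstab (g : GG M hζ hM) (x : (fam M hζ hM).N)
    (hx : x ∈ core (GG M hζ hM) (WW M hζ hM O hπ ℓ hℓ)) :
    g • x ∈ (WW M hζ hM O hπ ℓ hℓ).nonunits ↔ x ∈ (WW M hζ hM O hπ ℓ hℓ).nonunits :=
  smul_mem_nonunits_iff (HH M hζ hM) (gOf M hζ hM ModularGroup.T⁻¹)
    (hu M hζ hM O hπ ℓ hℓ) (huniq M hζ hM O hπ ℓ hℓ) (hGT M hζ hM O hπ ℓ hℓ) g hx

end Decomp

end Fermat.Agent.M48.IG1Core6
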