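/-
Programme M48 (target S48), pillar (P1), chapter [IG1] — helper3.
**`IG1Plug9.AnaData` from the family alone.**

For a realised family `F : RealFam ι M` containing the generators `s(Q^M)`, `s ∈ gensO O M`
(`hSA`), take `fS s := F.real (s(Q^M))`: then `hSrel` is `F.rel_real`, (intA) is `IG1Int3.intA` and
(sepA) is `IG1Sep3.sepA`.  So the datum `AnaData O M F ζ fS` of `IG1Plug9.ig1_of_data` follows from

* `hΓ` (`Γ(M)` acts trivially), `hhol` (holomorphy), `hNfrac` (`F.N ≤ Frac O((Q))`), `hSA`,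
* `ι ζ = exp(2πi/M)`, `ζ, ζ⁻¹ ∈ O`, residue characteristic `ℓ ∤ M`, `2 ≤ M`.

Imported by no statement.
-/
import Mathlib
import Fermat.Agent.M48.IG1Plug9
import Fermat.Agent.M48.IG1Int3

set_option autoImplicit false
set_option linter.unusedSectionVars false
set_option linter.style.haveILetI false
set_option synthInstance.maxHeartbeats 400000
set_option maxHeartbeats 1000000

noncomputable section

open HahnSeries ModularCurve IntermediateField UpperHalfPlane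
open scoped MatrixGroups

namespace Fermat.Agent.M48.IG1FS3

open Fermat.Agent.RED.PUR.GaussGen8 Fermat.Agent.RED.PUR.KtGauss8
open Fermat.Agent.M48.DictIface4 Fermat.Agent.M48.QModel8 Fermat.Agent.M48.IG1Fam0
open Fermat.Agent.M48.FullLevelGen6 Fermat.Agent.X0 Fermat.Agent.X0.CuspEquiv
  Fermat.Agent.X0.QExpAffine Fermat.Agent.M48.IG1Plug9

variable {K : Type} [Field K] (O : ValuationSubring K) (M : ℕ) [NeZero M] {ι : K →+* ℂ}
  (F : RealFam ι M)

open Classical in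
/-- The function realised by `s(Q^M)` in the family `F` (`0` outside `F.A`). -/
def fSOf (s : LaurentSeries ↥O) : ℍ → ℂ :=
  if hs : qExpand K M (embK O s) ∈ F.A then F.real ⟨_, hs⟩ else 0

theorem rel_fSOf {s : LaurentSeries ↥O} (hs : qExpand K M (embK O s) ∈ F.A) :
    Rel ι M (qExpand K M (embK O s)) (fSOf O M F s) := by
  unfold fSOf
  rw [dif_pos hs]
  exact F.rel_real ⟨_, hs⟩

theorem zeta_ne_zero {ζ : K} (hζ : ι ζ = zetaC M) : ζ ≠ 0 := by
  rintro rfl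
  rw [map_zero] at hζ
  exact FullLevelGen6.zetaC_ne_zero M hζ.symm

/-- **`AnaData` from the family alone.** -/
theorem anaData_of_family [CharZero K] [IsDiscreteValuationRing ↥O] (ℓ : ℕ) [CharP (Res O) ℓ]
    (hM : 2 ≤ M) (hℓM : ¬ ℓ ∣ M) (ζ : K) (hζ : ι ζ = zetaC M) (hζO : ζ ∈ O) (hζO' : ζ⁻¹ ∈ O)
    (hΓ : ∀ γ ∈ CongruenceSubgroup.Gamma M, F.rho γ = 1) (hhol : ∀ i, F.f i ∈ HolH)
    (hNfrac : F.N ≤ fracField O)
    (hSA : ∀ s ∈ gensO O M, qExpand K M (embK O s) ∈ F.A) :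
    AnaData O M F ζ (fSOf O M F) := by
  have hSrel : ∀ s ∈ gensO O M, Rel ι M (qExpand K M (embK O s)) (fSOf O M F s) :=
    fun s hs => rel_fSOf O M F (hSA s hs)
  exact
    { hΓ := hΓ
      hhol := hhol
      hζ0 := zeta_ne_zero M hζ
      hζ := hζ
      hζO := hζO
      hζO' := hζO'
      hNfrac := hNfrac
      hSA := hSA
      hSrel := hSrel
      hint := IG1Int3.intA O M ℓ hM hℓM hζ hζO hζO' _ hSrel
      hsepA := IG1Sep3.sepA O M hM hζ hζO hζO' _ hSrel }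

/-- **[IG1] `M 1` from one family per prime `ℓ ∤ M`.** -/
theorem ig1_of_families (hM : 2 ≤ M)
    (h : ∀ (ℓ : ℕ) [Fact ℓ.Prime], ¬ ℓ ∣ M →
      ∃ (K : Type) (_ : Field K) (_ : CharZero K) (O : ValuationSubring K)
        (_ : IsDiscreteValuationRing ↥O) (_ : CharP (Res O) ℓ) (ι : K →+* ℂ) (F : RealFam ι M)
        (ζ : K), ι ζ = zetaC M ∧ ζ ∈ O ∧ ζ⁻¹ ∈ O ∧
          (∀ γ ∈ CongruenceSubgroup.Gamma M, F.rho γ = 1) ∧ (∀ i, F.f i ∈ HolH) ∧
          F.N ≤ fracField O ∧ ∀ s ∈ gensO O M, qExpand K M (embK O s) ∈ F.A) :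
    Fermat.Agent.M48.PurGauss1.IG1 M 1 := by
  refine ig1_of_data M hM fun ℓ _ hℓ => ?_
  obtain ⟨K, iK, iC, O, iD, iP, ι, F, ζ, hζ, hζO, hζO', hΓ, hhol, hNfrac, hSA⟩ := h ℓ hℓ
  exact ⟨K, iK, iC, O, iD, iP, ι, F, ζ, fSOf O M F,
    anaData_of_family O M F ℓ hM hℓ ζ hζ hζO hζO' hΓ hhol hNfrac hSA⟩

end Fermat.Agent.M48.IG1FS3
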