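/-
Programme M48 (target S48), pillar (P1), chapter [IG1] — helper6.
**The residue-degree count**: for a discrete valuation ring `O` of a field `K ∋ ζ_M` (`ι : K →+* ℂ`) of
residue characteristic `ℓ ∤ M`, `3 ≤ M`, with residue field `κ`:

  `card_le_relfinrank_res : #(SL(2, ℤ) ⧸ ±Γ₁(M)) ≤ [κ(j(q^d), g_{M,a}(q)) : κ(j)]`.

Ingredients: `IG1Core6.hstab` (the maximal ideal of the Gauss valuation is stable under
`G = ρ(SL(2, ℤ))` on the core), `sep` (the ring homomorphisms `red ∘ ρ(α)` separate the cosets of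
`±Γ₁(M)` on `ℤ[j(Q^{M²}), g_{M,1}(Q^M)]`: (SEP₁) `IG1Core6.key_Gamma0` + (SEP₂) constant terms of the
`g_{M,a}`), and Dedekind–Artin (`DecompSep6.exists_indep_of_sep`).
-/
import Mathlib
import Fermat.Agent.M48.IG1Core6
import Fermat.Agent.M48.PurGauss1
import Fermat.Agent.M48.G10Sep4
import Fermat.Agent.M48.G10Index2
import Fermat.Agent.M48.DiamondRed3
import Fermat.Agent.M48.ConstBC2

set_option autoImplicit false
set_option linter.unusedSectionVars false

open UpperHalfPlane ModularCurve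
open scoped MatrixGroups

noncomputable section

namespace Fermat.Agent.M48.IG1Main6

open Fermat.Agent.X0 Fermat.Agent.X0.QExpAffine Fermat.Agent.X0.CuspEquiv
open Fermat.Agent.M48.FullLevelGen6 Fermat.Agent.M48.FullLevelFam6 Fermat.Agent.M48.JRat6
  Fermat.Agent.M48.EisRat6 Fermat.Agent.M48.DictIface4 Fermat.Agent.M48.QModel8
  Fermat.Agent.M48.GaussCoeff6 Fermat.Agent.M48.DecompGalois6 Fermat.Agent.M48.DecompSep6
  Fermat.Agent.M48.IG1Core6
open Fermat.Agent.RED.PUR.GaussGen8 Fermat.Agent.RED.PUR.KtGauss8 Fermat.Agent.RED.PUR.G1Package8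
  Fermat.Agent.RED.PUR.GaussBridge10 Fermat.Agent.RED.PUR.GaussInst25

/-! ### (SEP₂): the constant terms of the `g_{M,a}` -/

section SepG

theorem coeff_zero_gqR (R : Type*) [CommRing R] (M : ℕ) (a : ZMod M) :
    (gqR R M a).coeff 0 = ((eisCoeff M a 1 : ℤ) : R) := by
  unfold gqR
  have h0 : (0 : ℤ) = ((1 : ℕ) : ℤ) + (-1) := by norm_num
  rw [h0, HahnSeries.coeff_single_mul_add, one_mul, HahnSeries.ofPowerSeries_apply_coeff,
    PowerSeries.coeff_map, Fermat.Agent.M48.G10Sep4.coeff_one_eisPS_mul]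
  simp

theorem one_ne_neg_one_zmod (M : ℕ) (hM : 3 ≤ M) : (1 : ZMod M) ≠ -1 := by
  intro h
  have h2 : ((2 : ℕ) : ZMod M) = 0 := by
    have : (1 : ZMod M) + 1 = 0 := by nth_rewrite 2 [h]; ring
    push_cast
    rw [← this]; ring
  have := (ZMod.natCast_eq_zero_iff 2 M).mp h2
  have := Nat.le_of_dvd (by norm_num) this
  omega

/-- **(SEP₂)**. -/
theorem gqR_sep {κ : Type*} [Field κ] (M : ℕ) (hM : 3 ≤ M) (a : ZMod M)
    (h : gqR κ M a = gqR κ M 1) : a = 1 ∨ a = -1 := by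
  have h1 := congrArg (fun y : LaurentSeries κ => y.coeff 0) h
  beta_reduce at h1
  rw [coeff_zero_gqR, coeff_zero_gqR, Fermat.Agent.M48.G10Sep4.eisCoeff_one,
    Fermat.Agent.M48.G10Sep4.eisCoeff_one, if_pos rfl, if_neg (one_ne_neg_one_zmod M hM)] at h1
  by_contra hcon
  rw [not_or] at hcon
  have e1 : ¬ (1 : ZMod M) = a := fun e => hcon.1 e.symm
  have e2 : ¬ (1 : ZMod M) = -a := fun e => hcon.2 (by rw [e, neg_neg])
  rw [if_neg e1, if_neg e2] at h1
  simp at h1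

end SepG

/-! ### Separation of the cosets of `±Γ₁(M)` -/

section Sep

variable {K : Type} [Field K] {ι : K →+* ℂ} (M : ℕ) [NeZero M] {ζ : K}
  (hζ : ι ζ = zetaC M) (hM : 2 ≤ M)
  (O : ValuationSubring K) [IsDiscreteValuationRing ↥O] {π : ↥O} (hπ : Irreducible π)
  (ℓ : ℕ) [Fact ℓ.Prime] [CharP (Res O) ℓ] (hℓ : ¬ ℓ ∣ M)

/-- the unit `γ₀₀ mod M` of an element of `Γ₀(M)`. -/
def unitOf (γ : SL(2, ℤ)) (hγ : γ ∈ CongruenceSubgroup.Gamma0 M) : (ZMod M)ˣ :=
  Units.mkOfMulEqOne ((γ 0 0 : ℤ) : ZMod M) ((γ 1 1 : ℤ) : ZMod M) (by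
    have hdet : γ 0 0 * γ 1 1 - γ 0 1 * γ 1 0 = 1 := by
      have := γ.det_coe
      rw [Matrix.det_fin_two] at this
      exact this
    have h10 : ((γ 1 0 : ℤ) : ZMod M) = 0 := hγ
    have := congrArg (fun x : ℤ => (x : ZMod M)) hdet
    simp only [Int.cast_sub, Int.cast_mul, Int.cast_one, h10, mul_zero, sub_zero] at this
    exact this)

theorem coe_unitOf (γ : SL(2, ℤ)) (hγ : γ ∈ CongruenceSubgroup.Gamma0 M) :
    ((unitOf M γ hγ : (ZMod M)ˣ) : ZMod M) = ((γ 0 0 : ℤ) : ZMod M) := rfl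

/-- the index of `g_{M,a} ∘ σ`. -/
def iG (a : (ZMod M)ˣ) (σ : SL(2, ℤ)) : Idx M := Sum.inr (a, σ)

include hM in
theorem famX_iG_Gamma0 (a : (ZMod M)ˣ) (γ : SL(2, ℤ)) (hγ : γ ∈ CongruenceSubgroup.Gamma0 M)
    (σ : SL(2, ℤ)) :
    famX M hζ (iG M a (γ * σ)) = famX M hζ (iG M (a * unitOf M γ hγ) σ) := by
  have h1 := rel_fam M hζ hM (iG M a (γ * σ))
  have h2 := rel_fam M hζ hM (iG M (a * unitOf M γ hγ) σ)
  have e : famF M (iG M a (γ * σ)) = famF M (iG M (a * unitOf M γ hγ) σ) := by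
    show compSL (gFun M (a : ZMod M)) (γ * σ) =
      compSL (gFun M ((a * unitOf M γ hγ : (ZMod M)ˣ) : ZMod M)) σ
    rw [← compSL_compSL]
    congr 1
    funext z
    show gFun M (a : ZMod M) (γ • z) = _
    rw [Fermat.Agent.M48.G10Eis4.gFun_smul_of_mem_Gamma0 M _ hγ]
    rfl
  rw [e] at h1
  exact h1.left_unique h2

include hM in
theorem redx_iG_one (a : (ZMod M)ˣ) :
    redx M hζ O ℓ hℓ (iG M a 1) = qExpand (Res O) M (gqR (Res O) M (a : ZMod M)) := by
  unfold redx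
  have e : (⟨famX M hζ (iG M a 1), famX_mem_gaussRing M hζ O ℓ hℓ _⟩ : ↥(gaussRing O)) =
      ⟨qExpand K M (gqR K M (a : ZMod M)), Fermat.Agent.M48.PurGauss1.gqe_mem_gaussRing O M _ M⟩ :=
    Subtype.ext (famX_inr_one M hζ hM a)
  rw [e, Fermat.Agent.M48.PurGauss1.gaussRed_gqe]

theorem redC_xC (i : Idx M) :
    redC (redW M hζ hM O hπ ℓ hℓ) (xC M hζ hM O hπ ℓ hℓ i) = redx M hζ O ℓ hℓ i := by
  have := psi_xC M hζ hM O hπ ℓ hℓ 1 i
  rw [psi_apply] at this
  have e1 : gOf M hζ hM 1 = 1 := Subtype.ext (map_one _)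
  rw [e1, one_smul] at this
  rw [this]
  congr 1
  rcases i with ⟨d, σ⟩ | ⟨a, σ⟩ <;> simp [trI]

theorem redx_congr {i j : Idx M} (h : famX M hζ i = famX M hζ j) :
    redx M hζ O ℓ hℓ i = redx M hζ O ℓ hℓ j := by
  unfold redx
  congr 1
  exact Subtype.ext h

/-- elements of `Γ₀(M)` with `γ₀₀ ≡ ±1` lie in `±Γ₁(M)`. -/
theorem mem_pm_of_unitOf (γ : SL(2, ℤ)) (hγ : γ ∈ CongruenceSubgroup.Gamma0 M)
    (h : (unitOf M γ hγ : ZMod M) = 1 ∨ (unitOf M γ hγ : ZMod M) = -1) :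
    γ ∈ pm (Gamma10 M (M * 1)) := by
  rw [Fermat.Agent.M48.G10Index2.Gamma10_mul_one, mem_pm]
  have hdet : γ 0 0 * γ 1 1 - γ 0 1 * γ 1 0 = 1 := by
    have := γ.det_coe
    rw [Matrix.det_fin_two] at this
    exact this
  have h10 : ((γ 1 0 : ℤ) : ZMod M) = 0 := hγ
  have hd := congrArg (fun x : ℤ => (x : ZMod M)) hdet
  simp only [Int.cast_sub, Int.cast_mul, Int.cast_one, h10, mul_zero, sub_zero] at hd
  rw [coe_unitOf] at h
  rcases h with h | h
  · left
    rw [CongruenceSubgroup.Gamma1_mem]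
    refine ⟨h, ?_, h10⟩
    rw [h, one_mul] at hd
    exact hd
  · right
    rw [CongruenceSubgroup.Gamma1_mem]
    have e00 : (-γ) 0 0 = -(γ 0 0) := by simp
    have e11 : (-γ) 1 1 = -(γ 1 1) := by simp
    have e10 : (-γ) 1 0 = -(γ 1 0) := by simp
    rw [e00, e11, e10]
    push_cast
    refine ⟨by rw [h, neg_neg], ?_, by rw [h10, neg_zero]⟩
    rw [h] at hd
    rw [← hd]; ring

include hM in
/-- **Separation of the cosets**: if `ρ(α)` and `ρ(β)` agree modulo `𝔪` on `j(Q^{M²})` and on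
`g_{M,1}(Q^M)`, then `α⁻¹ β ∈ ±Γ₁(M)`. -/
theorem sep (hM3 : 3 ≤ M) (α β : SL(2, ℤ))
    (h1 : psi (redW M hζ hM O hπ ℓ hℓ) (gOf M hζ hM α) (xC M hζ hM O hπ ℓ hℓ (iM M 1)) =
      psi (redW M hζ hM O hπ ℓ hℓ) (gOf M hζ hM β) (xC M hζ hM O hπ ℓ hℓ (iM M 1)))
    (h2 : psi (redW M hζ hM O hπ ℓ hℓ) (gOf M hζ hM α) (xC M hζ hM O hπ ℓ hℓ (iG M 1 1)) =
      psi (redW M hζ hM O hπ ℓ hℓ) (gOf M hζ hM β) (xC M hζ hM O hπ ℓ hℓ (iG M 1 1))) :
    α⁻¹ * β ∈ pm (Gamma10 M (M * 1)) := by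
  rw [psi_xC, psi_xC] at h1 h2
  -- step 1: `α⁻¹ β ∈ Γ₀(M)`
  have hγ : α⁻¹ * β ∈ CongruenceSubgroup.Gamma0 M := by
    have := key_Gamma0 M hζ hM O ℓ hℓ (1 * α⁻¹) (1 * β⁻¹) h1
    rwa [one_mul, one_mul, inv_inv] at this
  have hδ0 : (α⁻¹ * β)⁻¹ ∈ CongruenceSubgroup.Gamma0 M :=
    (CongruenceSubgroup.Gamma0 M).inv_mem hγ
  -- step 2: the diamond
  have hu : ((unitOf M _ hδ0 : (ZMod M)ˣ) : ZMod M) = 1 ∨
      ((unitOf M _ hδ0 : (ZMod M)ˣ) : ZMod M) = -1 := by
    have e1 : famX M hζ (trI M β⁻¹ (iG M 1 1)) =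
        famX M hζ (iG M (1 * unitOf M _ hδ0) α⁻¹) := by
      rw [← famX_iG_Gamma0 M hζ hM 1 _ hδ0 α⁻¹]
      show famX M hζ (iG M 1 (1 * β⁻¹)) = _
      rw [one_mul, mul_inv_rev, inv_inv, mul_inv_cancel_right]
    have h2' : redx M hζ O ℓ hℓ (iG M 1 (1 * α⁻¹)) =
        redx M hζ O ℓ hℓ (iG M (1 * unitOf M _ hδ0) α⁻¹) :=
      h2.trans (redx_congr M hζ O ℓ hℓ e1)
    generalize unitOf M _ hδ0 = u at h2' ⊢
    rw [one_mul, one_mul] at h2'
    -- back to `ψ_α`
    have h3 : psi (redW M hζ hM O hπ ℓ hℓ) (gOf M hζ hM α)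
        (xC M hζ hM O hπ ℓ hℓ (iG M 1 1) - xC M hζ hM O hπ ℓ hℓ (iG M u 1)) = 0 := by
      rw [map_sub, psi_xC, psi_xC, sub_eq_zero]
      show redx M hζ O ℓ hℓ (iG M 1 (1 * α⁻¹)) = redx M hζ O ℓ hℓ (iG M u (1 * α⁻¹))
      rw [one_mul]
      exact h2'
    rw [psi_apply, redC_eq_zero_iff _ (redW_ker M hζ hM O hπ ℓ hℓ), coe_smul_core,
      hstab M hζ hM O hπ ℓ hℓ _ _ (Subtype.property _),
      ← redC_eq_zero_iff _ (redW_ker M hζ hM O hπ ℓ hℓ), map_sub, sub_eq_zero, redC_xC, redC_xC,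
      redx_iG_one M hζ hM, redx_iG_one M hζ hM] at h3
    have h4 := qExpand_injective M h3
    exact gqR_sep M hM3 _ h4.symm
  have h6 := mem_pm_of_unitOf M _ hδ0 hu
  have := (pm (Gamma10 M (M * 1))).inv_mem h6
  rwa [inv_inv] at this

end Sep

/-! ### The residue-degree count -/

section Final

variable {K : Type} [Field K] {ι : K →+* ℂ} (M : ℕ) [NeZero M] {ζ : K}
  (hζ : ι ζ = zetaC M) (hM : 2 ≤ M)
  (O : ValuationSubring K) [IsDiscreteValuationRing ↥O] {π : ↥O} (hπ : Irreducible π)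
  (ℓ : ℕ) [Fact ℓ.Prime] [CharP (Res O) ℓ] (hℓ : ¬ ℓ ∣ M)

/-- the quotient `SL(2, ℤ) ⧸ ±Γ₁(M)`. -/
abbrev QQ : Type := SL(2, ℤ) ⧸ pm (Gamma10 M (M * 1))

/-- the two generators in the core. -/
def vC : Fin 2 → core (GG M hζ hM) (WW M hζ hM O hπ ℓ hℓ) := fun i =>
  if i = 0 then xC M hζ hM O hπ ℓ hℓ (iM M 1) else xC M hζ hM O hπ ℓ hℓ (iG M 1 1)

/-- `ℤ[X₀, X₁] → core`. -/
def theta : MvPolynomial (Fin 2) ℤ →+* core (GG M hζ hM) (WW M hζ hM O hπ ℓ hℓ) :=
  MvPolynomial.eval₂Hom (Int.castRingHom _) (vC M hζ hM O hπ ℓ hℓ)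

theorem theta_X0 : theta M hζ hM O hπ ℓ hℓ (MvPolynomial.X 0) = xC M hζ hM O hπ ℓ hℓ (iM M 1) := by
  rw [theta, MvPolynomial.eval₂Hom_X']
  rfl

theorem theta_X1 :
    theta M hζ hM O hπ ℓ hℓ (MvPolynomial.X 1) = xC M hζ hM O hπ ℓ hℓ (iG M 1 1) := by
  rw [theta, MvPolynomial.eval₂Hom_X']
  rfl

/-- the reduced generators downstairs. -/
def vk (κ : Type*) [Field κ] (M : ℕ) [NeZero M] : Fin 2 → LaurentSeries κ := fun i =>
  if i = 0 then qExpand κ M (jqModC κ) else gqR κ M 1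

include hM in
/-- the residues of the core polynomials. -/
theorem redC_theta (p : MvPolynomial (Fin 2) ℤ) :
    redC (redW M hζ hM O hπ ℓ hℓ) (theta M hζ hM O hπ ℓ hℓ p) =
      qExpand (Res O) M (MvPolynomial.eval₂ (Int.castRingHom _) (vk (Res O) M) p) := by
  have h : ((redC (redW M hζ hM O hπ ℓ hℓ)).comp (theta M hζ hM O hπ ℓ hℓ)) =
      ((qExpand (Res O) M : LaurentSeries (Res O) →+* LaurentSeries (Res O))).comp
        (MvPolynomial.eval₂Hom (Int.castRingHom _) (vk (Res O) M)) := by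
    apply MvPolynomial.ringHom_ext
    · intro r
      simp
    · intro i
      rw [RingHom.comp_apply, RingHom.comp_apply, MvPolynomial.eval₂Hom_X', theta,
        MvPolynomial.eval₂Hom_X']
      fin_cases i
      · show redC _ (xC M hζ hM O hπ ℓ hℓ (iM M 1)) = qExpand (Res O) M (qExpand (Res O) M (jqModC _))
        rw [redC_xC]
        unfold redx
        have e : (⟨famX M hζ (iM M 1), famX_mem_gaussRing M hζ O ℓ hℓ _⟩ : ↥(gaussRing O)) =
            ⟨qExpand K M ((⟨qExpand K M (jqModC K), jqd_mem_gaussRing O M⟩ : ↥(gaussRing O)) :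
              LaurentSeries K),
              Fermat.Agent.ES.N34.GaussVTwoFam25.qExpand_mem_gaussRing M (jqd_mem_gaussRing O M)⟩ :=
          Subtype.ext (famX_iJ M hζ M (NeZero.ne M) dvd_rfl)
        rw [e, Fermat.Agent.ES.N34.GaussVTwoFam25.gaussRed_qExpand, gaussRed_jqd]
      · show redC _ (xC M hζ hM O hπ ℓ hℓ (iG M 1 1)) = qExpand (Res O) M (gqR _ M 1)
        rw [redC_xC, redx_iG_one M hζ hM]
        rfl
  exact RingHom.congr_fun h p

theorem eval_vk_mem (κ : Type*) [Field κ] (p : MvPolynomial (Fin 2) ℤ) :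
    MvPolynomial.eval₂ (Int.castRingHom _) (vk κ M) p ∈ fieldG10C κ M 1 := by
  induction p using MvPolynomial.induction_on with
  | C a =>
    rw [MvPolynomial.eval₂_C]
    exact intCast_mem _ a
  | add p q hp hq =>
    rw [MvPolynomial.eval₂_add]
    exact add_mem hp hq
  | mul_X p i hp =>
    rw [MvPolynomial.eval₂_mul, MvPolynomial.eval₂_X]
    refine mul_mem hp ?_
    fin_cases i
    · exact jqd_mem_fieldG10C κ M 1 (by rw [mul_one])
    · have := gqe_mem_fieldG10C κ M 1 (1 : (ZMod M)ˣ) (e := 1) dvd_rfl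
      rw [qExpand_one_apply] at this
      exact this

/-- `J = j(Q^M)` in the Gauss ring. -/
def JG : ↥(gaussRing O) := ⟨qExpand K M (jqModC K), jqd_mem_gaussRing O M⟩

/-- `J` as an element of `N`. -/
def JN : (fam M hζ hM).N := iotaN M hζ hM (jE M)

theorem coe_JN : ((JN M hζ hM : (fam M hζ hM).N) : LaurentSeries K) = qExpand K M (jqModC K) := rfl

/-- elements of `K(J)` are `G`-invariant. -/
theorem smul_eq_of_mem_KJ (y : (fam M hζ hM).N)
    (hy : (y : LaurentSeries K) ∈ IntermediateField.adjoin K {qExpand K M (jqModC K)})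
    (g : GG M hζ hM) : g • y = y := by
  have h1 : IntermediateField.adjoin K {JN M hζ hM} ≤
      IntermediateField.fixedField (fam M hζ hM).rho.range := by
    rw [IntermediateField.adjoin_simple_le_iff, IntermediateField.mem_fixedField_iff]
    intro f hf
    exact smul_iotaN_jE M hζ hM ⟨f, hf⟩
  have h2 : (IntermediateField.adjoin K {JN M hζ hM}).map (fam M hζ hM).N.val =
      IntermediateField.adjoin K {qExpand K M (jqModC K)} := by
    rw [IntermediateField.adjoin_map, Set.image_singleton]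
    rfl
  rw [← h2] at hy
  obtain ⟨y', hy', hyy⟩ := (IntermediateField.mem_map _).mp hy
  have : y' = y := Subtype.ext hyy
  rw [← this]
  exact (IntermediateField.mem_fixedField_iff _ _).mp (h1 hy') g.1 g.2

theorem kt_JG : kt O (JG M O) =
    IntermediateField.adjoin (Res O) {qExpand (Res O) M (jqModC (Res O))} := by
  show IntermediateField.adjoin (Res O) {gaussRed O (JG M O)} = _
  rw [JG, gaussRed_jqd]

/-- the subfield `κ(J̃)` of `κ((Q))`. -/
abbrev kJ : Subfield (LaurentSeries (Res O)) :=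
  (IntermediateField.adjoin (Res O) {qExpand (Res O) M (jqModC (Res O))}).toSubfield

include hM in
/-- **`hκ₀`**: `κ(J̃)` consists of residues of `G`-invariant elements. -/
theorem hkJ (c : LaurentSeries (Res O)) (hc : c ∈ kJ M O) :
    ∃ a : WW M hζ hM O hπ ℓ hℓ, (∀ g : GG M hζ hM, g • (a : (fam M hζ hM).N) = a) ∧
      redW M hζ hM O hπ ℓ hℓ a = c := by
  have htr : Transcendental (Res O) (gaussRed O (JG M O)) :=
    Fermat.Agent.ES.N34.IsoM25.transcendental_gaussRed_jqd O M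
  have hc' : c ∈ kt O (JG M O) := by
    rw [kt_JG]; exact hc
  obtain ⟨c', hc'K, hc'g, hred⟩ := exists_gaussRed_eq htr hc'
  have hKN : Kt O (JG M O) ≤ (fam M hζ hM).N := by
    rw [IntermediateField.adjoin_simple_le_iff]
    exact (JN M hζ hM).2
  refine ⟨⟨⟨c', hKN hc'K⟩, (mem_WW_iff M hζ hM O hπ ℓ hℓ _).mpr hc'g⟩, fun g => ?_, ?_⟩
  · exact smul_eq_of_mem_KJ M hζ hM ⟨c', hKN hc'K⟩ hc'K g
  · rw [redW_apply]
    exact hred

include hζ hM hπ hℓ in
/-- **The independent family**: `[SL(2, ℤ) : ±Γ₁(M)]` elements of `κ(j(q^d), g_{M,a}(q))` linearly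
independent over `κ(j)`, `κ` the residue field of `O`. -/
theorem exists_indep (hM3 : 3 ≤ M) :
    ∃ Z : QQ M → LaurentSeries (Res O), (∀ c, Z c ∈ fieldG10C (Res O) M 1) ∧
      LinearIndependent ↥(IntermediateField.adjoin (Res O) {jqModC (Res O)}) Z := by
  classical
  have hfin : Finite (QQ M) :=
    Nat.finite_of_card_ne_zero (Fermat.Agent.M48.G10Degree2.card_quotient_ne_zero M 1 hM)
  have : Fintype (QQ M) := Fintype.ofFinite _
  have hsep : Function.Injective (fun c : QQ M =>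
      (psi (redW M hζ hM O hπ ℓ hℓ) (gOf M hζ hM (Quotient.out c))).comp
        (theta M hζ hM O hπ ℓ hℓ)) := by
    intro c c' h
    have h1 := RingHom.congr_fun h (MvPolynomial.X 0)
    have h2 := RingHom.congr_fun h (MvPolynomial.X 1)
    simp only [RingHom.comp_apply, theta_X0, theta_X1] at h1 h2
    have := sep M hζ hM O hπ ℓ hℓ hM3 _ _ h1 h2
    rw [← QuotientGroup.out_eq' c, ← QuotientGroup.out_eq' c', QuotientGroup.eq]
    exact this
  obtain ⟨y, hy⟩ := exists_indep_of_sep (redW M hζ hM O hπ ℓ hℓ) (redW_ker M hζ hM O hπ ℓ hℓ)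
    (fun g x hx => hstab M hζ hM O hπ ℓ hℓ g x hx) (kJ M O) (hkJ M hζ hM O hπ ℓ hℓ)
    (fun c : QQ M => gOf M hζ hM (Quotient.out c)) (theta M hζ hM O hπ ℓ hℓ) hsep
  refine ⟨fun c => MvPolynomial.eval₂ (Int.castRingHom _) (vk (Res O) M) (y c),
    fun c => eval_vk_mem M (Res O) (y c), ?_⟩
  simp only [redC_theta M hζ hM O hπ ℓ hℓ] at hy
  rw [Fintype.linearIndependent_iff] at hy ⊢
  intro g hg c₀
  have hmem : ∀ c, qExpand (Res O) M ((g c : ↥(IntermediateField.adjoin (Res O)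
      {jqModC (Res O)})) : LaurentSeries (Res O)) ∈ kJ M O := by
    intro c
    have := Fermat.Agent.ES.N34.GaussVTwoFam25.map_adjoin_simple M (jqModC (Res O))
    show _ ∈ IntermediateField.adjoin (Res O) {qExpand (Res O) M (jqModC (Res O))}
    rw [← this]
    exact (IntermediateField.mem_map _).mpr ⟨_, (g c).2, rfl⟩
  have hsum : ∑ c, (⟨_, hmem c⟩ : kJ M O) • qExpand (Res O) M
      (MvPolynomial.eval₂ (Int.castRingHom _) (vk (Res O) M) (y c)) = 0 := by
    have h1 := congrArg (qExpand (Res O) M) hg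
    rw [map_sum, map_zero] at h1
    rw [← h1]
    refine Finset.sum_congr rfl fun c _ => ?_
    rw [Subfield.smul_def, smul_eq_mul]
    show _ = qExpand (Res O) M (((g c : ↥(IntermediateField.adjoin (Res O)
      {jqModC (Res O)})) : LaurentSeries (Res O)) * _)
    rw [map_mul]
  have h2 := hy (fun c => ⟨_, hmem c⟩) hsum c₀
  have h0 : qExpand (Res O) M ((g c₀ : ↥(IntermediateField.adjoin (Res O)
      {jqModC (Res O)})) : LaurentSeries (Res O)) = 0 := congrArg Subtype.val h2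
  apply Subtype.ext
  apply qExpand_injective M
  rw [h0]
  exact (map_zero (qExpand (Res O) M)).symm

include hζ hM hπ hℓ in
/-- finiteness in characteristic `ℓ` (lifting independent families to characteristic `0`). -/
theorem relfinrank_res_ne_zero :
    IntermediateField.relfinrank (IntermediateField.adjoin (Res O) {jqModC (Res O)})
      (fieldG10C (Res O) M 1) ≠ 0 := by
  have hchar : CharZero K := RingHom.charZero ι
  let _ : Algebra ℚ K := DivisionRing.toRatAlgebra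
  have hle : IntermediateField.adjoin (Res O) {jqModC (Res O)} ≤ fieldG10C (Res O) M 1 :=
    IntermediateField.adjoin_simple_le_iff.mpr (Fermat.Agent.M48.PurGauss1.jqModC_mem_fieldG10C (Res O) M 1)
  have hjtr : Transcendental (Res O) (gaussRed O (jG O)) := by
    rw [gaussRed_jG]
    exact Fermat.Agent.IG.VAL.OvBasics22.transcendental_jqModC (Res O)
  have hkt : kt O (jG O) = IntermediateField.adjoin (Res O) {jqModC (Res O)} := by
    show IntermediateField.adjoin (Res O) {gaussRed O (jG O)} = _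
    rw [gaussRed_jG]
  have hψ0 : Nat.card (QQ M) ≠ 0 := Fermat.Agent.M48.G10Degree2.card_quotient_ne_zero M 1 hM
  have hψ : IntermediateField.relfinrank (Kt O (jG O)) (fieldG10C K M 1) = Nat.card (QQ M) := by
    have h := Fermat.Agent.M48.G10Degree2.relfinrank_FK M 1 hM K
    rw [FK_eq] at h
    exact h
  have hleK : Kt O (jG O) ≤ fieldG10C K M 1 :=
    IntermediateField.adjoin_simple_le_iff.mpr (Fermat.Agent.M48.PurGauss1.jqModC_mem_fieldG10C K M 1)
  refine Fermat.Agent.M48.ConstBC2.relfinrank_ne_zero_of_family_bound hle (Nat.card (QQ M))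
    (fun n c hc hli => ?_)
  have hres : ∀ i, ∃ b : ↥(gaussRing O),
      (b : LaurentSeries K) ∈ fieldG10C K M 1 ∧ gaussRed O b = c i := by
    intro i
    obtain ⟨f, hf, hfE, hfy⟩ := Fermat.Agent.M48.PurGauss1.fieldG10C_le_resField O M 1 (hc i)
    exact ⟨⟨f, hf⟩, hfE, hfy⟩
  choose b hbE hb using hres
  have hli' : LinearIndependent ↥(kt O (jG O)) (fun i => gaussRed O (b i)) := by
    rw [hkt]
    have : (fun i => gaussRed O (b i)) = c := funext hb
    rw [this]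
    exact hli
  have h1 := Fermat.Agent.RED.PUR.GaussDeg25.linearIndependent_of_gaussRed hπ hjtr b hli'
  have h2 := Fermat.Agent.IG.PR.FamilyForm20.le_relfinrank_of_family hleK n
    (by rw [hψ]; exact hψ0) _ hbE h1
  rwa [hψ] at h2

include hζ hM hπ hℓ in
/-- **[IG1] over the residue field of `O`.** -/
theorem card_le_relfinrank_res (hM3 : 3 ≤ M) :
    Nat.card (SL(2, ℤ) ⧸ pm (Gamma10 M (M * 1))) ≤
      IntermediateField.relfinrank (IntermediateField.adjoin (Res O) {jqModC (Res O)})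
        (fieldG10C (Res O) M 1) := by
  classical
  have hfin : Finite (QQ M) :=
    Nat.finite_of_card_ne_zero (Fermat.Agent.M48.G10Degree2.card_quotient_ne_zero M 1 hM)
  have : Fintype (QQ M) := Fintype.ofFinite _
  obtain ⟨Z, hZ, hli⟩ := exists_indep M hζ hM O hπ ℓ hℓ hM3
  have hle : IntermediateField.adjoin (Res O) {jqModC (Res O)} ≤ fieldG10C (Res O) M 1 :=
    IntermediateField.adjoin_simple_le_iff.mpr (Fermat.Agent.M48.PurGauss1.jqModC_mem_fieldG10C (Res O) M 1)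
  have e := Fintype.equivFin (QQ M)
  have h := Fermat.Agent.IG.PR.FamilyForm20.le_relfinrank_of_family hle (Fintype.card (QQ M))
    (relfinrank_res_ne_zero M hζ hM O hπ ℓ hℓ) (fun i => Z (e.symm i)) (fun i => hZ _)
    (hli.comp _ e.symm.injective)
  rw [Nat.card_eq_fintype_card]
  exact h

end Final

end Fermat.Agent.M48.IG1Main6
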