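/-
Programme M48 (target S48), pillar (P1), chapter [IG1] — helper6.
**THE THEOREM [IG1]**: `ig1 (M) [NeZero M] (hM : 3 ≤ M) : PurGauss1.IG1 M 1`, i.e. for every prime
`ℓ ∤ M` and EVERY field `κ` of characteristic `ℓ`

  `#(SL(2, ℤ) ⧸ ±Γ₁(M)) ≤ [κ(j(q^d) : d ∣ M; g_{M,a}(q)) : κ(j)]`.

Proof: `IG1Main6.card_le_relfinrank_res` for `K = ℚ(ζ_M) ⊂ ℚbar`, `O = A ∩ K` (`A` a valuation ring of
`ℚbar` over `ℓ`; a DVR by `NumberFieldDVR27`), then base change of the constants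
`κ₀ = Res O ← 𝔽_ℓ → κ` (helper2's `ConstBC2.relfinrank_coeffMap_eq`, the generators have coefficients
in the prime field).
-/
import Mathlib
import Fermat.Agent.M48.IG1Main6
import Fermat.Agent.RED.DESC.NumberFieldDVR27
import Fermat.Agent.Lib.FrobeniusExists

set_option autoImplicit false
set_option linter.unusedSectionVars false

open UpperHalfPlane ModularCurve IntermediateField
open scoped MatrixGroups

noncomputable section

namespace Fermat.Agent.M48.IG1Final6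

open Fermat.Agent.X0 Fermat.Agent.X0.QExpAffine
open Fermat.Agent.M48.DictIface4 Fermat.Agent.M48.QModel8 Fermat.Agent.M48.DiamondRed3
open Fermat.Agent.RED.PUR.GaussGen8 Fermat.Agent.RED.Interface4

/-! ### Base change of the constants in characteristic `ℓ` -/

theorem relfinrank_baseChange {k κ : Type*} [Field k] [Field κ] [Algebra k κ] (M : ℕ)
    (h : relfinrank κ⟮jqModC κ⟯ (fieldG10C κ M 1) ≠ 0 ∨
      relfinrank k⟮jqModC k⟯ (fieldG10C k M 1) ≠ 0) :
    relfinrank κ⟮jqModC κ⟯ (fieldG10C κ M 1) = relfinrank k⟮jqModC k⟯ (fieldG10C k M 1) := by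
  have himg : coeffMap (algebraMap k κ) '' Set.range (genR k M) = Set.range (genR κ M) := by
    rw [← Set.range_comp]
    congr 1
    funext i
    exact coeffMap_genR (algebraMap k κ) M i
  have hj : coeffMap (algebraMap k κ) (jqModC k) = jqModC κ := coeffMap_jqModC _
  have hxS : jqModC k ∈ adjoin k (Set.range (genR k M)) := by
    rw [← fieldG10C_one_eq]
    exact Fermat.Agent.M48.PurGauss1.jqModC_mem_fieldG10C k M 1
  have htr : Transcendental k (jqModC k) :=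
    Fermat.Agent.IG.VAL.OvBasics22.transcendental_jqModC k
  have h' := Fermat.Agent.M48.ConstBC2.relfinrank_coeffMap_eq (K := κ) (Set.range (genR k M))
    hxS htr (by rw [himg, hj, ← fieldG10C_one_eq, ← fieldG10C_one_eq]; exact h)
  rw [himg, hj, ← fieldG10C_one_eq, ← fieldG10C_one_eq] at h'
  exact h'

/-! ### The theorem -/

/-- **[IG1] (Igusa): in characteristic `ℓ ∤ M` the field `κ(j(q^d), g_{M,a}(q))` has degree at least
`[SL(2, ℤ) : ±Γ₁(M)]` over `κ(j)`**, for every field `κ` of characteristic `ℓ` and every `M ≥ 3`. -/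
theorem ig1 (M : ℕ) [NeZero M] (hM : 3 ≤ M) : Fermat.Agent.M48.PurGauss1.IG1 M 1 := by
  intro ℓ _ κ _ _ hℓ
  rw [mul_one] at hℓ
  have hℓp : ℓ.Prime := Fact.out
  obtain ⟨A, hA⟩ := Fermat.Agent.Lib.FrobeniusExists.exists_valuationSubring_liesOverPrime ℓ hℓp
  obtain ⟨ζ₀, hζ₀⟩ := CuspGen.exists_iotaK_eq_zetaC (Nat.pos_of_ne_zero (NeZero.ne M))
  let K₀ : IntermediateField ℚ Qbar := ℚ⟮ζ₀⟯
  have hint : IsIntegral ℚ ζ₀ := (AlgebraicClosure.isAlgebraic ℚ).isIntegral.isIntegral ζ₀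
  have hfd : FiniteDimensional ℚ K₀ := IntermediateField.adjoin.finiteDimensional hint
  have hdvr : IsDiscreteValuationRing ↥(AK A K₀) :=
    Fermat.Agent.RED.DESC.NumberFieldDVR27.isDiscreteValuationRing_AK A K₀ hℓp.ne_zero hA
  have hchar : CharP (Res (AK A K₀)) ℓ :=
    Fermat.Agent.RED.DESC.NumberFieldDVR27.charP_residueField_AK A K₀ hℓp hA
  obtain ⟨π, hπ⟩ := IsDiscreteValuationRing.exists_irreducible ↥(AK A K₀)
  let ι : ↥K₀ →+* ℂ := iotaK.comp (algebraMap ↥K₀ Qbar)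
  let ζ : ↥K₀ := ⟨ζ₀, mem_adjoin_simple_self ℚ ζ₀⟩
  have hζ : ι ζ = zetaC M := hζ₀
  have h1 := Fermat.Agent.M48.IG1Main6.card_le_relfinrank_res M hζ (by omega) (AK A K₀) hπ ℓ hℓ hM
  have hcard0 : Nat.card (SL(2, ℤ) ⧸ pm (Gamma10 M (M * 1))) ≠ 0 :=
    Fermat.Agent.M48.G10Degree2.card_quotient_ne_zero M 1 (by omega)
  -- base change through the prime field
  let _ : Algebra (ZMod ℓ) (Res (AK A K₀)) := ZMod.algebra _ ℓ
  let _ : Algebra (ZMod ℓ) κ := ZMod.algebra _ ℓ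
  have hne : relfinrank (Res (AK A K₀))⟮jqModC (Res (AK A K₀))⟯
      (fieldG10C (Res (AK A K₀)) M 1) ≠ 0 := by
    intro h0
    rw [h0] at h1
    exact hcard0 (Nat.le_zero.mp h1)
  have e1 := relfinrank_baseChange (k := ZMod ℓ) (κ := Res (AK A K₀)) M (Or.inl hne)
  have e2 := relfinrank_baseChange (k := ZMod ℓ) (κ := κ) M (Or.inr (by rw [← e1]; exact hne))
  rw [e2, ← e1]
  exact h1

end Fermat.Agent.M48.IG1Final6
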