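/-
M48 (P1), [RED1], chapter [ESRED-MODEL], group LEVELS/PEEL (helper1): **`LevelsInst1.LevelAt` at one
concrete level, from the explicit two-chart model**, generic in the model field `F₀ ≤ ℚ((q))`
(generic twin of `ES/RED/LevelAtInv17` (helper17) and `ES/RED/LevelAtModel1`).

`K ⊂ ℚ̄` with `A ∩ K` a DVR, `ϖ` a uniformiser, `t : K·F₀`, `Ov` a valuation subring of `K·F₀` that
contains every element with Gauss-integral `q`-expansion (`hOv`; for `Ov = gaussVS hu (FKg F₀ K) hle`,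
i.e. helper5's `ChartIntegralG5.OvKg hGB K hu` and helper8's `ChartIntegralG8.OvKg H K hu`, this is
`mem_gaussVS_iff`), and the explicit model
`TwoChartModel (A ∩ K) K (K·F₀) ϖ t (chart t) (chart t⁻¹) Ov`:

* `sat_series` : saturation in series form from the contract field `sat`;
* `levelAt_of_model0` : `LevelAt A F₀ K t ϖ`   (needs an `(A ∩ K)`-integral `q`-expansion of `t`);
* `levelAt_of_model1` : `LevelAt A F₀ K t⁻¹ ϖ` (needs an `(A ∩ K)`-integral `q`-expansion of `t⁻¹`);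
* `levelAt_tq`, `levelAt_tq_inv`, `levelAt_tq_both` : the case `(t : K((q))) = tq K n e`;
* `…_gaussVS` : the same with `Ov = gaussVS hu (FKg F₀ K) hle` (no hypothesis `hOv`).

Imported by no statement.
-/
import Mathlib
import Fermat.Agent.M48.LevelsInst1
import Fermat.Agent.ES.RED.IntegralQExp1
import Fermat.Agent.ES.RED.ChartInst1

set_option autoImplicit false
set_option linter.unusedSectionVars false

open HahnSeries ModularCurve Polynomial AlgebraicCurve

noncomputable section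

namespace Fermat.Agent.M48.LevelAtInv1

open Fermat.Agent.RED.Interface4 Fermat.Agent.RED.DESC.PlaceExtend27
  Fermat.Agent.RED.DESC Fermat.Agent.RED.PUR.ChartGeneric22 Fermat.Agent.RED.NumInst4
  Fermat.Agent.RED.DESC.NumberFieldDVR27 Fermat.Agent.RED.PUR.GaussGen8
  Fermat.Agent.RED.PUR.G1Package8 Fermat.Agent.RED.CORE.CoreIface24
open Fermat.Agent.M48.DescG0 Fermat.Agent.M48.LevelsInst1

/-- cached instance (typeclass search for it takes seconds at these concrete types). -/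
local instance (priority := 5000) algAKFKg (A : ValuationSubring Qbar)
    (F₀ : IntermediateField ℚ (LaurentSeries ℚ)) (K : IntermediateField ℚ Qbar) :
    Algebra ↥(AK A K) ↥(FKg F₀ K) := inferInstance

variable (A : ValuationSubring Qbar) (F₀ : IntermediateField ℚ (LaurentSeries ℚ))
  (K : IntermediateField ℚ Qbar)
  [IsDiscreteValuationRing ↥(AK A K)] {ϖ : ↥(AK A K)} (hu : IsUnif (AK A K) ϖ)
  (Ov : ValuationSubring ↥(FKg F₀ K))
  (hOv : ∀ f : ↥(FKg F₀ K), (f : LaurentSeries K) ∈ gaussRing (AK A K) → f ∈ Ov)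

include hu hOv in
/-- **Saturation in series form** from the contract field `sat`: if `b` lies in the subalgebra `B`,
`B` is `ϖ`-saturated in the Gauss valuation ring, and `b = ϖ · Y'` as `q`-expansions, then
`b = ϖ · c` with `c ∈ B`. -/
theorem sat_series (B : Subalgebra ↥(AK A K) ↥(FKg F₀ K))
    (hsat : ∀ b ∈ B, ∀ c ∈ Ov, b = algebraMap ↥(AK A K) ↥(FKg F₀ K) ϖ * c → c ∈ B)
    (b : ↥(FKg F₀ K)) (hb : b ∈ B) (Y' : LaurentSeries ↥(AK A K))
    (hY' : ((b : ↥(FKg F₀ K)) : LaurentSeries K) = embK (AK A K) (HahnSeries.C ϖ * Y')) :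
    ∃ c ∈ B, b = algebraMap ↥(AK A K) ↥(FKg F₀ K) ϖ * c := by
  have hπ0 : piK ϖ ≠ 0 := piK_ne_zero hu
  have hπE : piK ϖ ∈ FKg F₀ K := by
    rw [← coe_algebraMap_pi (E := FKg F₀ K)]
    exact (algebraMap ↥(AK A K) ↥(FKg F₀ K) ϖ).2
  have hrel : ((b : ↥(FKg F₀ K)) : LaurentSeries K) = piK ϖ * embK (AK A K) Y' := by
    rw [hY', map_mul, embK_C]
  have hcE : embK (AK A K) Y' ∈ FKg F₀ K := by
    have : embK (AK A K) Y' = (piK ϖ)⁻¹ * ((b : ↥(FKg F₀ K)) : LaurentSeries K) := by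
      rw [hrel, ← mul_assoc, inv_mul_cancel₀ hπ0, one_mul]
    rw [this]
    exact mul_mem (inv_mem hπE) b.2
  set c : ↥(FKg F₀ K) := ⟨embK (AK A K) Y', hcE⟩ with hc
  have hcOv : c ∈ Ov := hOv c (embK_mem (AK A K) Y')
  have hbc : b = algebraMap ↥(AK A K) ↥(FKg F₀ K) ϖ * c := by
    apply Subtype.ext
    rw [MulMemClass.coe_mul, coe_algebraMap_pi]
    exact hrel
  exact ⟨c, hsat b hb c hcOv hbc, hbc⟩

variable (hle : FKg F₀ K ≤ fracField (AK A K)) (t : ↥(FKg F₀ K))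
  (hmod : TwoChartModel ↥(AK A K) K ↥(FKg F₀ K) ϖ t (chart ↥(AK A K) t) (chart ↥(AK A K) t⁻¹) Ov)

include hu hOv hle hmod in
/-- **`LevelAt` for the chart `t`.** -/
theorem levelAt_of_model0
    (hT : ∃ T : LaurentSeries ↥(AK A K),
      embK (AK A K) T = ((t : ↥(FKg F₀ K)) : LaurentSeries K)) :
    LevelAt A F₀ K t ϖ where
  unif := hu
  noeth := hmod.noeth0
  series := fun _ hb =>
    Fermat.Agent.ES.RED.IntegralQExp1.exists_embK_of_mem_chart (AK A K) (FKg F₀ K) hle hT hb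
  sat := fun b hb Y' hY' => sat_series A F₀ K hu Ov hOv (chart ↥(AK A K) t) hmod.sat0 b hb Y' hY'
  smooth := hmod.smooth0

include hu hOv hle hmod in
/-- **`LevelAt` for the chart `t⁻¹`.** -/
theorem levelAt_of_model1
    (hT : ∃ T : LaurentSeries ↥(AK A K),
      embK (AK A K) T = ((t⁻¹ : ↥(FKg F₀ K)) : LaurentSeries K)) :
    LevelAt A F₀ K t⁻¹ ϖ where
  unif := hu
  noeth := hmod.noeth1
  series := fun _ hb =>
    Fermat.Agent.ES.RED.IntegralQExp1.exists_embK_of_mem_chart (AK A K) (FKg F₀ K) hle hT hb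
  sat := fun b hb Y' hY' => sat_series A F₀ K hu Ov hOv (chart ↥(AK A K) t⁻¹) hmod.sat1 b hb Y' hY'
  smooth := hmod.smooth1

section Hauptmodul

open Fermat.Agent.RED.BASE.EtaQuot12 Fermat.Agent.ES.RED.ChartInst1

variable {n e : ℕ} [NeZero n] (htq : ((t : ↥(FKg F₀ K)) : LaurentSeries K) = tq K n e)

include hu hOv hle hmod htq in
/-- `LevelAt` at the Hauptmodul `t = tq K n e`. -/
theorem levelAt_tq : LevelAt A F₀ K t ϖ :=
  levelAt_of_model0 A F₀ K hu Ov hOv hle t hmod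
    ⟨tq ↥(AK A K) n e, by rw [htq]; exact coeffMap_tq ↥(AK A K) (AK A K).subtype n e⟩

include hu hOv hle hmod htq in
/-- `LevelAt` at the inverse of the Hauptmodul. -/
theorem levelAt_tq_inv : LevelAt A F₀ K t⁻¹ ϖ :=
  levelAt_of_model1 A F₀ K hu Ov hOv hle t hmod
    ⟨tqi ↥(AK A K) n e, by
      show coeffMap (AK A K).subtype (tqi ↥(AK A K) n e) =
        ((t : ↥(FKg F₀ K)) : LaurentSeries K)⁻¹
      rw [coeffMap_tqi, tqi_eq_inv, htq]⟩

include hu hOv hle hmod htq in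
/-- both charts at once (the shape of `ModelInstLevels4.LevelAtHyp`). -/
theorem levelAt_tq_both : LevelAt A F₀ K t ϖ ∧ LevelAt A F₀ K t⁻¹ ϖ :=
  ⟨levelAt_tq A F₀ K hu Ov hOv hle t hmod htq, levelAt_tq_inv A F₀ K hu Ov hOv hle t hmod htq⟩

end Hauptmodul

/-! ### the Gauss valuation ring `gaussVS hu (FKg F₀ K) hle` -/

section GaussVS

open Fermat.Agent.RED.BASE.EtaQuot12

variable (hmodG : TwoChartModel ↥(AK A K) K ↥(FKg F₀ K) ϖ t (chart ↥(AK A K) t)
    (chart ↥(AK A K) t⁻¹) (gaussVS hu (FKg F₀ K) hle))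

include hmodG in
theorem levelAt_of_model0_gaussVS
    (hT : ∃ T : LaurentSeries ↥(AK A K),
      embK (AK A K) T = ((t : ↥(FKg F₀ K)) : LaurentSeries K)) :
    LevelAt A F₀ K t ϖ :=
  levelAt_of_model0 A F₀ K hu _ (fun f hf => (mem_gaussVS_iff hu (FKg F₀ K) hle f).mpr hf) hle t
    hmodG hT

include hmodG in
theorem levelAt_of_model1_gaussVS
    (hT : ∃ T : LaurentSeries ↥(AK A K),
      embK (AK A K) T = ((t⁻¹ : ↥(FKg F₀ K)) : LaurentSeries K)) :
    LevelAt A F₀ K t⁻¹ ϖ :=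
  levelAt_of_model1 A F₀ K hu _ (fun f hf => (mem_gaussVS_iff hu (FKg F₀ K) hle f).mpr hf) hle t
    hmodG hT

include hmodG in
/-- **both charts of the Hauptmodul, Gauss valuation ring** (the literal shape of the twin of
`ModelInstLevels4.LevelAtHyp`). -/
theorem levelAt_tq_both_gaussVS {n e : ℕ} [NeZero n]
    (htq : ((t : ↥(FKg F₀ K)) : LaurentSeries K) = tq K n e) :
    LevelAt A F₀ K t ϖ ∧ LevelAt A F₀ K t⁻¹ ϖ :=
  levelAt_tq_both A F₀ K hu _ (fun f hf => (mem_gaussVS_iff hu (FKg F₀ K) hle f).mpr hf) hle t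
    hmodG htq

end GaussVS

end Fermat.Agent.M48.LevelAtInv1
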