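/-
M48 (P1), [RED1], LEVELS/PEEL front half (helper7): **level-`K` `π`-saturation of the two chart
rings** of the model of `Γ₁(M) ∩ Γ₀(M L)`, i.e. helper5's `ChartIntegralG5.LevelSat (gb1 A M L) t`
(the hypothesis of `ChartIntegralG5.exists_content`) for the Hauptmodul `t = tF1 M L hmem` and for
`t⁻¹`, directly from the Gauss package `G1Package8.isIntegral_of_mul(_inv)`.  Twin of
`ES/RED/LevelSat16`.  Input: `PurGauss1.IG1 M L`.

* `gb1 A M L : ChartIntegralG5.GB1 A (fieldG10 M L)`  (helper1's `laurentBaseChange_le_fracField`);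
* `exists_package` : the Gauss package `(DegLe, Irr)` of the Hauptmodul at all large number fields;
* `levelSat_t'`, `levelSat_inv'`.

Imported by no statement.
-/
import Fermat.Agent.M48.FracRed7
import Fermat.Agent.M48.ChartIntegralG5

set_option autoImplicit false
set_option linter.unusedSectionVars false
set_option linter.style.haveILetI false
set_option linter.style.longLine false

noncomputable section

namespace Fermat.Agent.M48.LevelSat7

open Polynomial HahnSeries ModularCurve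

open Fermat.Agent.RED.Interface4 Fermat.Agent.RED.DESC Fermat.Agent.RED.DESC.NumberFieldDVR27
open Fermat.Agent.RED.PUR.GaussGen8 Fermat.Agent.RED.PUR.KtGauss8 Fermat.Agent.RED.PUR.G1Package8
  Fermat.Agent.RED.PUR.GaussBridge10 Fermat.Agent.RED.PUR.ChartGeneric22
open Fermat.Agent.RED.BASE.EtaQuot12 Fermat.Agent.RED.BASE.Interface12
open Fermat.Agent.X0
open Fermat.Agent.M48.DictIface4 Fermat.Agent.M48.QModel8 Fermat.Agent.M48.Red1Iface4
open Fermat.Agent.M48.PurGauss1 Fermat.Agent.M48.ChartIntegralG5 Fermat.Agent.M48.DescG0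

variable (A : ValuationSubring Qbar) (M L : ℕ) [NeZero M] [NeZero L]

/-- **(GB1)** for the `G10` model (helper1's `PurGauss1.laurentBaseChange_le_fracField`). -/
theorem gb1 : GB1 A (fieldG10 M L) :=
  fun K => laurentBaseChange_le_fracField (AK A K) M L

variable {M L}

/-- The Gauss package at every large number field `K`, for the Hauptmodul. -/
theorem exists_package (n e : ℕ) [NeZero n] (ℓ : ℕ) [Fact ℓ.Prime] (hM : 2 ≤ M)
    (hℓ : ¬ ℓ ∣ M * L) (hIG : IG1 M L)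
    (hmem : TMem1 n e M L) (hgen : TGenBase n e) (hA : A.LiesOverPrime ℓ) :
    ∃ K₀ : IntermediateField ℚ Qbar, FiniteDimensional ℚ K₀ ∧
      ∀ K : IntermediateField ℚ Qbar, FiniteDimensional ℚ K → K₀ ≤ K →
        ∀ (ϖ : ↥(AK A K)) (_ : Irreducible ϖ),
        ∃ (_ : IsDiscreteValuationRing ↥(AK A K))
          (t : ↥(F1K M L K)) (_ : (t : LaurentSeries K) = tq K n e)
          (ht : (t : LaurentSeries K) ∈ gaussRing (AK A K))
          (_ : Transcendental (Res (AK A K)) (gaussRed (AK A K) ⟨(t : LaurentSeries K), ht⟩))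
          (m : ℕ) (_ : DegLe (AK A K) (F1K M L K) ⟨(t : LaurentSeries K), ht⟩ m),
          Irr (AK A K) (F1K M L K) ⟨(t : LaurentSeries K), ht⟩ m := by
  have hℓp : ℓ.Prime := Fact.out
  obtain ⟨K₁, hK₁, hT⟩ := Fermat.Agent.M48.SpecialDegG9.exists_tq_mem n e M L hmem
  obtain ⟨K₂, hK₂, hJ⟩ := Fermat.Agent.RED.BASE.JInKt25.exists_j_mem_adjoin n e hgen
  haveI := hK₁
  haveI := hK₂
  refine ⟨K₁ ⊔ K₂, inferInstance, fun K hKfd hle ϖ hϖ => ?_⟩
  haveI := hKfd
  have hle1 : K₁ ≤ K := le_trans le_sup_left hle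
  have hle2 : K₂ ≤ K := le_trans le_sup_right hle
  have hdvr : IsDiscreteValuationRing ↥(AK A K) := isDiscreteValuationRing_AK A K hℓp.ne_zero hA
  haveI : CharP (Res (AK A K)) ℓ := charP_residueField_AK A K hℓp hA
  have htE : tq K n e ∈ F1K M L K := hT K hle1
  have ht : tq K n e ∈ gaussRing (AK A K) :=
    Fermat.Agent.RED.ModelTargets4.tq_mem_gaussRing (AK A K) n e
  have htr : Transcendental (Res (AK A K)) (gaussRed (AK A K) ⟨tq K n e, ht⟩) :=
    Fermat.Agent.RED.ModelTargets4.transcendental_gaussRed_tq (AK A K) n e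
  have hjt : jqModC K ∈ Kt (AK A K) ⟨tq K n e, ht⟩ := hJ K hle2
  obtain ⟨-, hdeg, hirr⟩ := degLe_irr_laurentBaseChange (AK A K) hϖ ℓ M L hM hℓ hIG
    ⟨tq K n e, ht⟩ htE hjt
  exact ⟨hdvr, ⟨tq K n e, htE⟩, rfl, ht, htr, _, hdeg, hirr⟩

/-- **`LevelSat` for the Hauptmodul chart.** -/
theorem levelSat_t' (n e : ℕ) [NeZero n] (ℓ : ℕ) [Fact ℓ.Prime] (hM : 2 ≤ M)
    (hℓ : ¬ ℓ ∣ M * L) (hIG : IG1 M L)
    (hmem : TMem1 n e M L) (hgen : TGenBase n e) (hA : A.LiesOverPrime ℓ) :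
    LevelSat (gb1 A M L) (tF1 M L hmem) := by
  obtain ⟨K₀, hK₀, H⟩ := exists_package A n e ℓ hM hℓ hIG hmem hgen hA
  refine ⟨K₀, hK₀, fun K hKfd hle ϖ hϖ hu tK htK b hb c hc hbc => ?_⟩
  obtain ⟨hdvr, t, htq, ht, htr, m, hdeg, hirr⟩ := H K hKfd hle ϖ hϖ
  haveI := hdvr
  have htt : tK = t := by
    apply (baseChangeHom (fieldG10 M L) K).injective
    rw [htK]
    exact (FracRed7.bcK1_tq K hmem t htq).symm
  subst htt
  have hE : F1K M L K ≤ fracField (AK A K) := laurentBaseChange_le_fracField (AK A K) M L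
  rw [mem_chart_iff] at hb ⊢
  exact isIntegral_of_mul hϖ hE tK ht htr hdeg hirr hc (hbc ▸ hb)

/-- **`LevelSat` for the chart at infinity.** -/
theorem levelSat_inv' (n e : ℕ) [NeZero n] (ℓ : ℕ) [Fact ℓ.Prime] (hM : 2 ≤ M)
    (hℓ : ¬ ℓ ∣ M * L) (hIG : IG1 M L)
    (hmem : TMem1 n e M L) (hgen : TGenBase n e) (hA : A.LiesOverPrime ℓ) :
    LevelSat (gb1 A M L) (tF1 M L hmem)⁻¹ := by
  obtain ⟨K₀, hK₀, H⟩ := exists_package A n e ℓ hM hℓ hIG hmem hgen hA
  refine ⟨K₀, hK₀, fun K hKfd hle ϖ hϖ hu tK htK b hb c hc hbc => ?_⟩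
  obtain ⟨hdvr, t, htq, ht, htr, m, hdeg, hirr⟩ := H K hKfd hle ϖ hϖ
  haveI := hdvr
  have htt : tK = t⁻¹ := by
    apply (baseChangeHom (fieldG10 M L) K).injective
    rw [htK, map_inv₀]
    exact congrArg (·⁻¹) (FracRed7.bcK1_tq K hmem t htq).symm
  subst htt
  have hE : F1K M L K ≤ fracField (AK A K) := laurentBaseChange_le_fracField (AK A K) M L
  rw [mem_chart_iff] at hb ⊢
  exact isIntegral_of_mul_inv hϖ hE t ht htr hdeg hirr hc (hbc ▸ hb)

end Fermat.Agent.M48.LevelSat7
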