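/-
M48 (P1), chapter [ESRED-MODEL], LEVELS/PEEL (helper5): **level-`K` `π`-saturation of the two chart
rings of the `Γ₁(M) ∩ Γ₀(M L)`-model** (twin of `ES/RED/LevelSat16`), i.e. the hypothesis `LevelSat` of
`exists_content` (R-4) for the Hauptmodul `t = tF1 M L h` and for `t⁻¹`, from the Gauss package
`G1Package8.isIntegral_of_mul(_inv)` at every large number field, with the degree facts of [IG1]
(`PurGauss1.degLe_irr_laurentBaseChange`).

* `exists_package1` : the Gauss package (`DegLe`, `Irr`, transcendence of `t~`) at every large `K`;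
* `LevelSatN A F₀ t` : the saturation statement in NEUTRAL form (`c` with Gauss-integral `q`-expansion
  instead of `c ∈ OvKg …`); `levelSatN_t`, `levelSatN_inv`;
* `levelSat5_of_N`, `levelSat8_of_N` : conversions to `ChartIntegralG5.LevelSat hGB t` and to helper8's
  `ChartIntegralG8.LevelSat H t`;
* **`levelSat5_t/_inv`, `levelSat8_t/_inv`** : the four instances.
-/
import Fermat.Agent.M48.ChartIntegralG5
import Fermat.Agent.M48.ChartIntegralG8
import Fermat.Agent.M48.PurGauss1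
import Fermat.Agent.M48.SpecialDegG9
import Fermat.Agent.M48.Red1Iface4
import Fermat.Agent.RED.BASE.JInKt25
import Fermat.Agent.RED.ModelTargets4

set_option autoImplicit false
set_option linter.unusedSectionVars false
set_option linter.style.haveILetI false
set_option synthInstance.maxHeartbeats 400000

noncomputable section

namespace Fermat.Agent.M48.LevelSatG5

open Polynomial HahnSeries ModularCurve

open Fermat.Agent.RED.Interface4 Fermat.Agent.RED.DESC Fermat.Agent.RED.DESC.NumberFieldDVR27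
open Fermat.Agent.RED.PUR.GaussGen8 Fermat.Agent.RED.PUR.KtGauss8 Fermat.Agent.RED.PUR.G1Package8
  Fermat.Agent.RED.PUR.GaussBridge10 Fermat.Agent.RED.PUR.ChartGeneric22
open Fermat.Agent.RED.BASE.EtaQuot12 Fermat.Agent.RED.BASE.Interface12
open Fermat.Agent.X0 Fermat.Agent.M48.DescG0 Fermat.Agent.M48.DictIface4
open Fermat.Agent.M48.Red1Iface4 Fermat.Agent.M48.PurGauss1

/-! ### The neutral form of the saturation statement -/

section Neutral

variable (A : ValuationSubring Qbar) (F₀ : IntermediateField ℚ (LaurentSeries ℚ))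

/-- Level-`K` `π`-saturation of the chart ring in the Gauss valuation ring, for all large number
fields `K`, in neutral form. -/
def LevelSatN (t : FBg F₀) : Prop :=
  ∃ K₀ : IntermediateField ℚ Qbar, FiniteDimensional ℚ K₀ ∧
    ∀ K : IntermediateField ℚ Qbar, FiniteDimensional ℚ K → K₀ ≤ K →
      ∀ (ϖ : ↥(AK A K)) (_ : Irreducible ϖ) (tK : FKg F₀ K),
        baseChangeHom F₀ K tK = t →
        ∀ b ∈ chart ↥(AK A K) tK, ∀ c : FKg F₀ K, (c : LaurentSeries K) ∈ gaussRing (AK A K) →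
          b = algebraMap ↥(AK A K) ↥(FKg F₀ K) ϖ * c → c ∈ chart ↥(AK A K) tK

variable {A F₀}

theorem levelSat5_of_N (hGB : ChartIntegralG5.GB1 A F₀) {t : FBg F₀} (h : LevelSatN A F₀ t) :
    ChartIntegralG5.LevelSat hGB t := by
  obtain ⟨K₀, hK₀, H⟩ := h
  exact ⟨K₀, hK₀, fun K hK hle ϖ hϖ hu tK htK b hb c hc hbc =>
    H K hK hle ϖ hϖ tK htK b hb c ((ChartIntegralG5.mem_OvKg_iff hGB K hu c).mp hc) hbc⟩

theorem levelSat8_of_N {Fk : IntermediateField (Fermat.Agent.ES.RED.Contract8.kA A)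
      (LaurentSeries (Fermat.Agent.ES.RED.Contract8.kA A))}
    (H8 : ChartIntegralG8.RedHyp A F₀ Fk) {t : FBg F₀} (h : LevelSatN A F₀ t) :
    ChartIntegralG8.LevelSat H8 t := by
  obtain ⟨K₀, hK₀, H⟩ := h
  exact ⟨K₀, hK₀, fun K hK hle ϖ hϖ hu tK htK b hb c hc hbc =>
    H K hK hle ϖ hϖ tK htK b hb c ((ChartIntegralG8.mem_OvKg_iff H8 K hu c).mp hc) hbc⟩

end Neutral

/-! ### The Gauss package at every large number field -/

variable (A : ValuationSubring Qbar) (M L : ℕ) [NeZero M] [NeZero L]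

/-- The Gauss package at every large number field `K`, for the Hauptmodul. -/
theorem exists_package1 (n e : ℕ) [NeZero n] (ℓ : ℕ) [Fact ℓ.Prime] (hM : 2 ≤ M)
    (hℓ : ¬ ℓ ∣ M * L) (hIG : IG1 M L)
    (hmem : TMem1 n e M L) (hgen : TGenBase n e) (hA : A.LiesOverPrime ℓ) :
    ∃ K₀ : IntermediateField ℚ Qbar, FiniteDimensional ℚ K₀ ∧
      ∀ K : IntermediateField ℚ Qbar, FiniteDimensional ℚ K → K₀ ≤ K →
        ∀ (ϖ : ↥(AK A K)) (_ : Irreducible ϖ),
        ∃ (_ : IsDiscreteValuationRing ↥(AK A K))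
          (t : ↥(F1K M L K)) (_ : (t : LaurentSeries K) = tq K n e)
          (ht : (t : LaurentSeries K) ∈ gaussRing (AK A K))
          (_ : Transcendental (Res (AK A K)) (gaussRed (AK A K) ⟨(t : LaurentSeries K), ht⟩))
          (m : ℕ) (_ : DegLe (AK A K) (F1K M L K) ⟨(t : LaurentSeries K), ht⟩ m),
          Irr (AK A K) (F1K M L K) ⟨(t : LaurentSeries K), ht⟩ m := by
  have hℓp : ℓ.Prime := Fact.out
  obtain ⟨K₁, hK₁, hT⟩ := Fermat.Agent.M48.SpecialDegG9.exists_tq_mem n e M L hmem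
  obtain ⟨K₂, hK₂, hJ⟩ := Fermat.Agent.RED.BASE.JInKt25.exists_j_mem_adjoin n e hgen
  haveI := hK₁
  haveI := hK₂
  refine ⟨K₁ ⊔ K₂, inferInstance, fun K hKfd hle ϖ hϖ => ?_⟩
  haveI := hKfd
  have hle1 : K₁ ≤ K := le_trans le_sup_left hle
  have hle2 : K₂ ≤ K := le_trans le_sup_right hle
  have hdvr : IsDiscreteValuationRing ↥(AK A K) := isDiscreteValuationRing_AK A K hℓp.ne_zero hA
  haveI : CharP (Res (AK A K)) ℓ := charP_residueField_AK A K hℓp hA
  have htE : tq K n e ∈ F1K M L K := hT K hle1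
  have ht : tq K n e ∈ gaussRing (AK A K) :=
    Fermat.Agent.RED.ModelTargets4.tq_mem_gaussRing (AK A K) n e
  have htr : Transcendental (Res (AK A K)) (gaussRed (AK A K) ⟨tq K n e, ht⟩) :=
    Fermat.Agent.RED.ModelTargets4.transcendental_gaussRed_tq (AK A K) n e
  have hjt : jqModC K ∈ Kt (AK A K) ⟨tq K n e, ht⟩ := hJ K hle2
  obtain ⟨-, hdeg, hirr⟩ := degLe_irr_laurentBaseChange (AK A K) hϖ ℓ M L hM hℓ hIG
    ⟨tq K n e, ht⟩ htE hjt
  exact ⟨hdvr, ⟨tq K n e, htE⟩, rfl, ht, htr, _, hdeg, hirr⟩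

/-- the Hauptmodul over `K` maps to the Hauptmodul over `ℚbar`. -/
theorem baseChangeHom_eq_tF1 {n e : ℕ} [NeZero n] (hmem : TMem1 n e M L)
    (K : IntermediateField ℚ Qbar) (t : ↥(F1K M L K)) (ht : (t : LaurentSeries K) = tq K n e) :
    baseChangeHom (fieldG10 M L) K t = tF1 M L hmem := by
  apply Subtype.ext
  rw [coe_baseChangeHom, ht]
  exact coeffMap_tq ↥K (algebraMap K Qbar) n e

/-- **`LevelSatN` for the Hauptmodul chart.** -/
theorem levelSatN_t (n e : ℕ) [NeZero n] (ℓ : ℕ) [Fact ℓ.Prime] (hM : 2 ≤ M)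
    (hℓ : ¬ ℓ ∣ M * L) (hIG : IG1 M L)
    (hmem : TMem1 n e M L) (hgen : TGenBase n e) (hA : A.LiesOverPrime ℓ) :
    LevelSatN A (fieldG10 M L) (tF1 M L hmem) := by
  obtain ⟨K₀, hK₀, H⟩ := exists_package1 A M L n e ℓ hM hℓ hIG hmem hgen hA
  refine ⟨K₀, hK₀, fun K hKfd hle ϖ hϖ tK htK b hb c hc hbc => ?_⟩
  obtain ⟨hdvr, t, htq, ht, htr, m, hdeg, hirr⟩ := H K hKfd hle ϖ hϖ
  haveI := hdvr
  have htt : tK = t := by
    apply ChartUnionG5.baseChangeHom_injective (fieldG10 M L) K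
    rw [htK, baseChangeHom_eq_tF1 M L hmem K t htq]
  subst htt
  have hE : F1K M L K ≤ fracField (AK A K) := laurentBaseChange_le_fracField (AK A K) M L
  have hc' : c ∈ OvE (AK A K) hϖ (F1K M L K) hE := (mem_OvE_iff (AK A K) hϖ (F1K M L K) hE c).mpr hc
  rw [mem_chart_iff] at hb ⊢
  exact isIntegral_of_mul hϖ hE tK ht htr hdeg hirr hc' (hbc ▸ hb)

/-- **`LevelSatN` for the chart at infinity.** -/
theorem levelSatN_inv (n e : ℕ) [NeZero n] (ℓ : ℕ) [Fact ℓ.Prime] (hM : 2 ≤ M)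
    (hℓ : ¬ ℓ ∣ M * L) (hIG : IG1 M L)
    (hmem : TMem1 n e M L) (hgen : TGenBase n e) (hA : A.LiesOverPrime ℓ) :
    LevelSatN A (fieldG10 M L) (tF1 M L hmem)⁻¹ := by
  obtain ⟨K₀, hK₀, H⟩ := exists_package1 A M L n e ℓ hM hℓ hIG hmem hgen hA
  refine ⟨K₀, hK₀, fun K hKfd hle ϖ hϖ tK htK b hb c hc hbc => ?_⟩
  obtain ⟨hdvr, t, htq, ht, htr, m, hdeg, hirr⟩ := H K hKfd hle ϖ hϖ
  haveI := hdvr
  have htt : tK = t⁻¹ := by
    apply ChartUnionG5.baseChangeHom_injective (fieldG10 M L) K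
    rw [htK, map_inv₀, baseChangeHom_eq_tF1 M L hmem K t htq]
  subst htt
  have hE : F1K M L K ≤ fracField (AK A K) := laurentBaseChange_le_fracField (AK A K) M L
  have hc' : c ∈ OvE (AK A K) hϖ (F1K M L K) hE := (mem_OvE_iff (AK A K) hϖ (F1K M L K) hE c).mpr hc
  rw [mem_chart_iff] at hb ⊢
  exact isIntegral_of_mul_inv hϖ hE t ht htr hdeg hirr hc' (hbc ▸ hb)

/-! ### The four instances -/

section Inst

variable (n e : ℕ) [NeZero n] (ℓ : ℕ) [Fact ℓ.Prime] (hM : 2 ≤ M)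
  (hℓ : ¬ ℓ ∣ M * L) (hIG : IG1 M L)
  (hmem : TMem1 n e M L) (hgen : TGenBase n e) (hA : A.LiesOverPrime ℓ)

include hM hℓ hIG hgen hA

theorem levelSat5_t (hGB : ChartIntegralG5.GB1 A (fieldG10 M L)) :
    ChartIntegralG5.LevelSat hGB (tF1 M L hmem) :=
  levelSat5_of_N hGB (levelSatN_t A M L n e ℓ hM hℓ hIG hmem hgen hA)

theorem levelSat5_inv (hGB : ChartIntegralG5.GB1 A (fieldG10 M L)) :
    ChartIntegralG5.LevelSat hGB (tF1 M L hmem)⁻¹ :=
  levelSat5_of_N hGB (levelSatN_inv A M L n e ℓ hM hℓ hIG hmem hgen hA)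

theorem levelSat8_t {Fk : IntermediateField (Fermat.Agent.ES.RED.Contract8.kA A)
      (LaurentSeries (Fermat.Agent.ES.RED.Contract8.kA A))}
    (H8 : ChartIntegralG8.RedHyp A (fieldG10 M L) Fk) :
    ChartIntegralG8.LevelSat H8 (tF1 M L hmem) :=
  levelSat8_of_N H8 (levelSatN_t A M L n e ℓ hM hℓ hIG hmem hgen hA)

theorem levelSat8_inv {Fk : IntermediateField (Fermat.Agent.ES.RED.Contract8.kA A)
      (LaurentSeries (Fermat.Agent.ES.RED.Contract8.kA A))}
    (H8 : ChartIntegralG8.RedHyp A (fieldG10 M L) Fk) :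
    ChartIntegralG8.LevelSat H8 (tF1 M L hmem)⁻¹ :=
  levelSat8_of_N H8 (levelSatN_inv A M L n e ℓ hM hℓ hIG hmem hgen hA)

end Inst

end Fermat.Agent.M48.LevelSatG5
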