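/-
Programme M48, pillar (P1), chapter [RED1] (Φ3) — helper8.  **(LIFT) for the G10 model**:
`Phi3Top0.LiftRatio A π (FK L M L') (fieldG10C k M L')` — every nonzero element of the function
field of the special fibre is a ratio of reductions of integral elements of the generic fibre.

* `liftRatio_adjoin` (generic, twin of `RED/TOP/LiftRatio2.exists_lift_ratio`): if `Fk = k(S)` and
  every generator `s ∈ S` has an `A`-integral lift `Y` (`coeffMap π Y = s`) with
  `coeffMap A.subtype Y ∈ FB`, then `LiftRatio A π FB Fk`;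
* `liftRatio_fieldG10C` : the instance `FB = J1Defs8.FK L M L'`, `Fk = QModel8.fieldG10C k M L'`
  (lifts `j(q^d)`, `g_{M,a}(q^e)` with coefficients in `A`).
-/
import Mathlib
import Fermat.Agent.M48.QModel8
import Fermat.Agent.M48.Phi3Top0

set_option autoImplicit false
set_option linter.unusedSectionVars false
set_option linter.style.haveILetI false

noncomputable section

open HahnSeries IntermediateField ModularCurve

namespace Fermat.Agent.M48.LiftRatio8

open Fermat.Agent.M48.QModel8 Fermat.Agent.M48.J1Defs8 Fermat.Agent.M48.DictIface4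
  Fermat.Agent.M48.Phi3Top0

section General

variable {L : Type*} [Field L] (A : ValuationSubring L)
variable {k : Type*} [Field k] (π : A →+* k)
variable (FB : IntermediateField L (LaurentSeries L)) (S : Set (LaurentSeries k))

/-- the evaluation `A[X_s] → A((q))`, `X_s ↦ Y_s`. -/
def Phi (Y : S → LaurentSeries A) : MvPolynomial S A →+* LaurentSeries A :=
  MvPolynomial.eval₂Hom (HahnSeries.C : A →+* LaurentSeries A) Y

theorem coeffMap_C {R R' : Type*} [CommRing R] [CommRing R'] (f : R →+* R') (a : R) :
    coeffMap f (HahnSeries.C a : LaurentSeries R) = HahnSeries.C (f a) :=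
  coeffMap_single f 0 a

theorem C_eq_algebraMap {K : Type*} [Field K] (c : K) :
    (HahnSeries.C c : LaurentSeries K) = algebraMap K (LaurentSeries K) c := by
  rw [algebraMap_laurentSeries_eq_single]
  rfl

variable {S}

/-- reduction of `Phi R` is evaluation of the reduced polynomial at the generators. -/
theorem coeffMap_Phi (Y : S → LaurentSeries A) (hY : ∀ s : S, coeffMap π (Y s) = (s : LaurentSeries k))
    (R : MvPolynomial S A) :
    coeffMap π (Phi A S Y R) =
      MvPolynomial.aeval (Subtype.val : S → LaurentSeries k) (MvPolynomial.map π R) := by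
  induction R using MvPolynomial.induction_on with
  | C a =>
    rw [Phi, MvPolynomial.coe_eval₂Hom, MvPolynomial.eval₂_C, MvPolynomial.map_C,
      MvPolynomial.aeval_C, coeffMap_C, C_eq_algebraMap]
  | add p q hp hq => rw [map_add, map_add, hp, hq, map_add, map_add]
  | mul_X p s hp =>
    rw [map_mul, map_mul, hp, map_mul, map_mul, MvPolynomial.map_X, MvPolynomial.aeval_X]
    congr 1
    rw [Phi, MvPolynomial.coe_eval₂Hom, MvPolynomial.eval₂_X, hY]

theorem coeffMap_Phi_mem (Y : S → LaurentSeries A)
    (hY : ∀ s : S, coeffMap π (Y s) = (s : LaurentSeries k)) (R : MvPolynomial S A) :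
    coeffMap π (Phi A S Y R) ∈ IntermediateField.adjoin k S := by
  rw [coeffMap_Phi A π Y hY]
  have h : MvPolynomial.aeval (Subtype.val : S → LaurentSeries k) (MvPolynomial.map π R) ∈
      Algebra.adjoin k S := by
    have := Algebra.adjoin_range_eq_range_aeval k (Subtype.val : S → LaurentSeries k)
    rw [Subtype.range_coe] at this
    rw [this]
    exact ⟨_, rfl⟩
  exact IntermediateField.algebra_adjoin_le_adjoin k _ h

theorem coeffMap_subtype_Phi_mem (Y : S → LaurentSeries A)
    (hYB : ∀ s : S, coeffMap A.subtype (Y s) ∈ FB) (R : MvPolynomial S A) :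
    coeffMap A.subtype (Phi A S Y R) ∈ FB := by
  induction R using MvPolynomial.induction_on with
  | C a =>
    rw [Phi, MvPolynomial.coe_eval₂Hom, MvPolynomial.eval₂_C, coeffMap_C, C_eq_algebraMap]
    exact FB.algebraMap_mem _
  | add p q hp hq => rw [map_add, map_add]; exact add_mem hp hq
  | mul_X p s hp =>
    rw [map_mul, map_mul]
    refine mul_mem hp ?_
    rw [Phi, MvPolynomial.coe_eval₂Hom, MvPolynomial.eval₂_X]
    exact hYB s

/-- **(LIFT), generic**: `Fk = k(S)`, every generator has an integral lift in `FB`. -/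
theorem liftRatio_adjoin (hπ : Function.Surjective π)
    (hS : ∀ s ∈ S, ∃ Y : LaurentSeries A, coeffMap π Y = s ∧ coeffMap A.subtype Y ∈ FB) :
    LiftRatio A π FB (IntermediateField.adjoin k S) := by
  classical
  choose Y hY hYB using fun s : S => hS s.1 s.2
  intro g hg hg0
  rw [IntermediateField.mem_adjoin_iff] at hg
  obtain ⟨r, s, hrs⟩ := hg
  obtain ⟨R, rfl⟩ := MvPolynomial.map_surjective π hπ r
  obtain ⟨R', rfl⟩ := MvPolynomial.map_surjective π hπ s
  rw [← coeffMap_Phi A π Y hY R, ← coeffMap_Phi A π Y hY R'] at hrs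
  refine ⟨Phi A S Y R, Phi A S Y R', coeffMap_subtype_Phi_mem A FB Y hYB R,
    coeffMap_subtype_Phi_mem A FB Y hYB R', coeffMap_Phi_mem A π Y hY R,
    coeffMap_Phi_mem A π Y hY R', ?_, ?_, hrs⟩
  · intro h0
    rw [h0, zero_div] at hrs
    exact hg0 hrs
  · intro h0
    rw [h0, div_zero] at hrs
    exact hg0 hrs

end General

section G10

variable {L : Type*} [Field L] [Algebra ℚ L] (A : ValuationSubring L)
variable {k : Type*} [Field k] (π : A →+* k)

/-- `j(q^d)` with coefficients in `L`, as an element of `FK L M L'`. -/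
theorem qExpand_jqModC_mem_FK (M L' : ℕ) {d : ℕ} [NeZero d] (hd : d ∣ M * L') :
    qExpand L d (jqModC L) ∈ FK L M L' := by
  rw [FK_eq]
  exact jqd_mem_fieldG10C L M L' hd

/-- `g_{M,a}(q^e)` with coefficients in `L`, as an element of `FK L M L'`. -/
theorem qExpand_gqR_mem_FK (M L' : ℕ) (a : (ZMod M)ˣ) {e : ℕ} [NeZero e] (he : e ∣ L') :
    qExpand L e (gqR L M (a : ZMod M)) ∈ FK L M L' := by
  rw [FK_eq]
  exact gqe_mem_fieldG10C L M L' a he

/-- **(LIFT) for the G10 model** at every level `(M, L')`. -/
theorem liftRatio_fieldG10C (hπ : Function.Surjective π) (M L' : ℕ) :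
    LiftRatio A π (FK L M L') (fieldG10C k M L') := by
  refine liftRatio_adjoin A π (FK L M L') hπ ?_
  rintro s (⟨d, hne, hd, rfl⟩ | ⟨a, e, hne, he, rfl⟩)
  · haveI := hne
    refine ⟨qExpand A d (jqModC A), ?_, ?_⟩
    · rw [coeffMap_qExpand, coeffMap_jqModC]
    · rw [coeffMap_qExpand, coeffMap_jqModC]
      exact qExpand_jqModC_mem_FK M L' hd
  · haveI := hne
    refine ⟨qExpand A e (gqR A M (a : ZMod M)), ?_, ?_⟩
    · rw [coeffMap_qExpand, coeffMap_gqR]
    · rw [coeffMap_qExpand, coeffMap_gqR]
      exact qExpand_gqR_mem_FK M L' a he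

end G10

end Fermat.Agent.M48.LiftRatio8
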