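/-
M48 (P1), chapter [ESRED-MODEL], chart group (helper5): **the concrete two-chart structure over
`A ≤ ℚ̄` for the model of `Γ₁(M) ∩ Γ₀(M L)`** (twin of `ES/RED/ChartInstGen4` + `ES/RED/ModelInst4` +
`PIRInst13.pirHyp_fullC` + `Tr0Inst18.tr0_of_coe`), for the Hauptmodul `t = tF1 M L hmem` of level
`n`, `ℓ ∤ M L`, given `hIG : PurGauss1.IG1 M L`.

Generic part (`F₀`, `Fk` arbitrary, over `ChartIntegralG5`):
* `chartSpecG hGB hR ℓ hA hx t ht hgen hsat : ChartSpec A hx ↥Fk` with `.s = t`,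
  `.B = (chart A t).toSubring`, `.red = redChart` (all `rfl`), `exists_series_chartSpecG`,
  `red_eq_chartSpecG`, `coeffChartG_chartSpecG` (`GaloisR3G9.CoeffChartG`).

Concrete part (`F₀ = fieldG10 M L`, `Fk = fieldG10C κ_A M L`); the two remaining hypotheses are
`hlev0 : HasLevels S0`, `hlev1 : HasLevels S1` (level systems at every place; LEVELS/PEEL back end):
* `r0A1` : `ChartIntegralG5.R0A` from helper9's `GaussUnitG9.resField_FK_eq`;
* `S0`, `S1` (`.s = tF1`, `.s = tF1⁻¹` by `rfl`), `coeffChart0/1`, `coeffChart0'/1'` (helper4's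
  `Red1Iface4.CoeffChartG`), `coe_red_s0/1`, `tr0`, `red_s0_eq_tRes`, `red_s_mul`, `ov0`, `pirHyp1`;
* `twoCharts … hlev0 hlev1 : TwoCharts A hx (fieldG10C κ_A M L)` with `.S0 = S0`, `.S1 = S1` (`rfl`);
  `peelA0`, `peelA1`;
* **`modelAt1_of_levels`** : `HasLevels S0 → HasLevels S1 → Red1Iface4.ModelAt1 A n e M L hmem`.
-/
import Mathlib
import Fermat.Agent.M48.ChartIntegralG5
import Fermat.Agent.M48.LevelSat7
import Fermat.Agent.M48.SpecialDegG9
import Fermat.Agent.M48.GaussUnitG9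
import Fermat.Agent.M48.GaloisR3G9
import Fermat.Agent.M48.Red1Iface4
import Fermat.Agent.ES.RED.ChartSpecOfChart18
import Fermat.Agent.ES.RED.ModelInstGen4
import Fermat.Agent.ES.RED.Overlap23
import Fermat.Agent.ES.RED.PIRInst13
import Fermat.Agent.ES.RED.Tr0Inst18

set_option autoImplicit false
set_option linter.unusedSectionVars false
set_option linter.style.haveILetI false
set_option synthInstance.maxHeartbeats 400000

open HahnSeries ModularCurve AlgebraicCurve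

noncomputable section

namespace Fermat.Agent.M48.ModelInst5

open Fermat.Agent.RED.Interface4 Fermat.Agent.RED.PUR.ChartGeneric22
  Fermat.Agent.RED.BASE.Interface12 Fermat.Agent.RED.BASE.EtaQuot12
  Fermat.Agent.ES.RED.Contract8
  Fermat.Agent.ES.RED.TwoCharts8 Fermat.Agent.ES.RED.ModelInstGen4
  Fermat.Agent.ES.RED.ChartSpecOfChart18 Fermat.Agent.ES.RED.SpecialInv25 Fermat.Agent.X0.FF
  Fermat.Agent.M48.DescG0 Fermat.Agent.M48.ChartIntegralG5 Fermat.Agent.M48.DictIface4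
  Fermat.Agent.M48.QModel8 Fermat.Agent.M48.PurGauss1 Fermat.Agent.M48.Red1Iface4
  Fermat.Agent.M48.SpecialDegG9

/-! ### Generic: a `ChartSpec` from a coordinate with `A`-integral expansion -/

section Generic

variable {A : ValuationSubring Qbar} {F₀ : IntermediateField ℚ (LaurentSeries ℚ)}
  {Fk : IntermediateField (Fermat.Agent.ES.RED.Contract8.kA A) (LaurentSeries (Fermat.Agent.ES.RED.Contract8.kA A))}
  (hGB : GB1 A F₀) (hR : R0A A F₀ Fk) (ℓ : ℕ) [Fact ℓ.Prime] (hA : A.LiesOverPrime ℓ)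
variable {x : ↥(FBg F₀)} (hx : IsGen Qbar x)

/-- **The chart over `A` with coordinate `t`.** -/
def chartSpecG (t : ↥(FBg F₀)) (ht : t ∈ intF A F₀) (hgen : IsGen Qbar t)
    (hsat : LevelSat hGB t) : ChartSpec A hx ↥Fk :=
  chartSpecOfChart A hx t hgen (redChart hGB hR ℓ hA ht)
    (fun a => redChart_const hGB hR ℓ hA ht a)
    (fun b hb0 => exists_content hGB hR ℓ hA ht hsat b hb0)

@[simp] theorem chartSpecG_s (t : ↥(FBg F₀)) (ht : t ∈ intF A F₀) (hgen : IsGen Qbar t)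
    (hsat : LevelSat hGB t) : (chartSpecG hGB hR ℓ hA hx t ht hgen hsat).s = t := rfl

@[simp] theorem chartSpecG_B (t : ↥(FBg F₀)) (ht : t ∈ intF A F₀) (hgen : IsGen Qbar t)
    (hsat : LevelSat hGB t) :
    (chartSpecG hGB hR ℓ hA hx t ht hgen hsat).B = (chart ↥A t).toSubring := rfl

@[simp] theorem chartSpecG_red (t : ↥(FBg F₀)) (ht : t ∈ intF A F₀) (hgen : IsGen Qbar t)
    (hsat : LevelSat hGB t) :
    (chartSpecG hGB hR ℓ hA hx t ht hgen hsat).red = redChart hGB hR ℓ hA ht := rfl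

/-- every element of the chart ring has an `A`-series. -/
theorem exists_series_chartSpecG (t : ↥(FBg F₀)) (ht : t ∈ intF A F₀) (hgen : IsGen Qbar t)
    (hsat : LevelSat hGB t) (b : ↥(chartSpecG hGB hR ℓ hA hx t ht hgen hsat).B) :
    ∃ Y : LaurentSeries ↥A,
      coeffMap A.subtype Y = ((b : ↥(FBg F₀)) : LaurentSeries Qbar) :=
  (mem_intF_iff A F₀).mp (chart_le_intF hGB ℓ hA ht b.2)

/-- the reduction is the coefficientwise reduction of the `A`-series. -/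
theorem red_eq_chartSpecG (t : ↥(FBg F₀)) (ht : t ∈ intF A F₀) (hgen : IsGen Qbar t)
    (hsat : LevelSat hGB t) (b : ↥(chartSpecG hGB hR ℓ hA hx t ht hgen hsat).B)
    (Y : LaurentSeries ↥A)
    (hY : coeffMap A.subtype Y = ((b : ↥(FBg F₀)) : LaurentSeries Qbar)) :
    (((chartSpecG hGB hR ℓ hA hx t ht hgen hsat).red b : ↥Fk) :
        LaurentSeries (Fermat.Agent.ES.RED.Contract8.kA A)) = coeffMap (resA A) Y :=
  coe_redChart_eq_of hGB hR ℓ hA ht b hY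

/-- **(R3) interface**: the chart is coefficientwise (for `t` with rational coefficients). -/
theorem coeffChartG_chartSpecG (t : ↥(FBg F₀)) (ht : t ∈ intF A F₀) (hgen : IsGen Qbar t)
    (hsat : LevelSat hGB t)
    (hsσ : ∀ σ : Qbar ≃ₐ[ℚ] Qbar, coeffMap ((σ : Qbar ≃+* Qbar) : Qbar →+* Qbar)
      ((t : ↥(FBg F₀)) : LaurentSeries Qbar) = ((t : ↥(FBg F₀)) : LaurentSeries Qbar)) :
    GaloisR3G9.CoeffChartG (F₀ := F₀) (chartSpecG hGB hR ℓ hA hx t ht hgen hsat) where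
  mem_iff _ := Iff.rfl
  smul_s σ := Subtype.ext (hsσ σ)
  exists_series b := exists_series_chartSpecG hGB hR ℓ hA hx t ht hgen hsat b
  red_eq b Y hY := red_eq_chartSpecG hGB hR ℓ hA hx t ht hgen hsat b Y hY

end Generic

/-! ### The model of `Γ₁(M) ∩ Γ₀(M L)` -/

section Concrete

variable (n e M L : ℕ) [NeZero n] [NeZero M] [NeZero L] (hM : 2 ≤ M) (ℓ : ℕ) [Fact ℓ.Prime]
  (hℓ : ¬ ℓ ∣ M * L) (hIG : IG1 M L)
  (hmem : TMem1 n e M L) (hgen : TGenBase n e) (A : ValuationSubring Qbar) (hA : A.LiesOverPrime ℓ)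

/-- the special-fibre function field. -/
abbrev Ft : Type := ↥(fieldG10C (Fermat.Agent.ES.RED.Contract8.kA A) M L)

include hM hℓ hIG hA in
/-- **(R0a) over `A`** for the `G10` model, from helper9's (GB2). -/
theorem r0A1 : R0A A (fieldG10 M L) (fieldG10C (Fermat.Agent.ES.RED.Contract8.kA A) M L) :=
  r0A_of_resField ⟨⊥, inferInstance, fun K hK _ => by
    haveI := hK
    exact le_of_eq (Fermat.Agent.M48.GaussUnitG9.resField_FK_eq A K ℓ hA M L hM hℓ hIG)⟩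

/-- `t` has the `A`-integral expansion `tq A n e`. -/
theorem tF1_mem_intF : tF1 M L hmem ∈ intF A (fieldG10 M L) :=
  (mem_intF_iff A (fieldG10 M L)).mpr ⟨tq ↥A n e, coeffMap_tq ↥A A.subtype n e⟩

/-- `t⁻¹` has the `A`-integral expansion `tqInv A n e`. -/
theorem tF1_inv_mem_intF : (tF1 M L hmem)⁻¹ ∈ intF A (fieldG10 M L) := by
  refine (mem_intF_iff A (fieldG10 M L)).mpr ⟨tqInv ↥A n e, ?_⟩
  rw [coeffMap_tqInv, tqInv_eq_inv]
  rfl

include hM hgen in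
theorem isGen_tF1 : IsGen Qbar (tF1 M L hmem) := isGen_tBar n e M L hM hmem hgen

include hM hgen in
theorem isGen_tF1_inv : IsGen Qbar (tF1 M L hmem)⁻¹ := isGen_tBar_inv n e M L hM hmem hgen

/-- **Chart 0**: coordinate `t`. -/
def S0 : ChartSpec A (isGen_tF1 n e M L hM hmem hgen) (Ft M L A) :=
  chartSpecG (LevelSat7.gb1 A M L) (r0A1 M L hM ℓ hℓ hIG A hA) ℓ hA
    (isGen_tF1 n e M L hM hmem hgen) (tF1 M L hmem) (tF1_mem_intF n e M L hmem A)
    (isGen_tF1 n e M L hM hmem hgen)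
    (LevelSat7.levelSat_t' A n e ℓ hM hℓ hIG hmem hgen hA)

/-- **Chart 1**: coordinate `t⁻¹`. -/
def S1 : ChartSpec A (isGen_tF1 n e M L hM hmem hgen) (Ft M L A) :=
  chartSpecG (LevelSat7.gb1 A M L) (r0A1 M L hM ℓ hℓ hIG A hA) ℓ hA
    (isGen_tF1 n e M L hM hmem hgen) (tF1 M L hmem)⁻¹ (tF1_inv_mem_intF n e M L hmem A)
    (isGen_tF1_inv n e M L hM hmem hgen)
    (LevelSat7.levelSat_inv' A n e ℓ hM hℓ hIG hmem hgen hA)

@[simp] theorem S0_s : (S0 n e M L hM ℓ hℓ hIG hmem hgen A hA).s = tF1 M L hmem := rfl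

@[simp] theorem S1_s : (S1 n e M L hM ℓ hℓ hIG hmem hgen A hA).s = (tF1 M L hmem)⁻¹ := rfl

theorem S0_B : (S0 n e M L hM ℓ hℓ hIG hmem hgen A hA).B =
    (chart ↥A (tF1 M L hmem)).toSubring := rfl

theorem S1_B : (S1 n e M L hM ℓ hℓ hIG hmem hgen A hA).B =
    (chart ↥A (tF1 M L hmem)⁻¹).toSubring := rfl

/-- the coordinates have rational coefficients. -/
theorem coeffMap_sigma_tF1 (σ : Qbar ≃ₐ[ℚ] Qbar) :
    coeffMap ((σ : Qbar ≃+* Qbar) : Qbar →+* Qbar)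
      ((tF1 M L hmem : ↥(F1b M L)) : LaurentSeries Qbar) =
        ((tF1 M L hmem : ↥(F1b M L)) : LaurentSeries Qbar) :=
  coeffMap_tq Qbar ((σ : Qbar ≃+* Qbar) : Qbar →+* Qbar) n e

theorem coeffMap_sigma_tF1_inv (σ : Qbar ≃ₐ[ℚ] Qbar) :
    coeffMap ((σ : Qbar ≃+* Qbar) : Qbar →+* Qbar)
      (((tF1 M L hmem)⁻¹ : ↥(F1b M L)) : LaurentSeries Qbar) =
        (((tF1 M L hmem)⁻¹ : ↥(F1b M L)) : LaurentSeries Qbar) := by
  have h : (((tF1 M L hmem)⁻¹ : ↥(F1b M L)) : LaurentSeries Qbar) = (tq Qbar n e)⁻¹ := rfl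
  rw [h, map_inv₀, coeffMap_tq]

/-- (R3) interface, chart 0. -/
theorem coeffChart0 :
    GaloisR3G9.CoeffChartG (F₀ := fieldG10 M L) (S0 n e M L hM ℓ hℓ hIG hmem hgen A hA) :=
  coeffChartG_chartSpecG _ _ ℓ hA _ _ _ _ _ (coeffMap_sigma_tF1 n e M L hmem)

/-- (R3) interface, chart 1. -/
theorem coeffChart1 :
    GaloisR3G9.CoeffChartG (F₀ := fieldG10 M L) (S1 n e M L hM ℓ hℓ hIG hmem hgen A hA) :=
  coeffChartG_chartSpecG _ _ ℓ hA _ _ _ _ _ (coeffMap_sigma_tF1_inv n e M L hmem)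

/-- the same in helper4's literal. -/
theorem coeffChart0' :
    Red1Iface4.CoeffChartG (F₀ := fieldG10 M L) (S0 n e M L hM ℓ hℓ hIG hmem hgen A hA) :=
  let h := coeffChart0 n e M L hM ℓ hℓ hIG hmem hgen A hA
  ⟨h.mem_iff, h.smul_s, h.exists_series, h.red_eq⟩

theorem coeffChart1' :
    Red1Iface4.CoeffChartG (F₀ := fieldG10 M L) (S1 n e M L hM ℓ hℓ hIG hmem hgen A hA) :=
  let h := coeffChart1 n e M L hM ℓ hℓ hIG hmem hgen A hA
  ⟨h.mem_iff, h.smul_s, h.exists_series, h.red_eq⟩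

/-- **`red₀ t = t̃`**, on expansions. -/
theorem coe_red_s0 :
    (((S0 n e M L hM ℓ hℓ hIG hmem hgen A hA).red (S0 n e M L hM ℓ hℓ hIG hmem hgen A hA).sB :
      Ft M L A) : LaurentSeries (Fermat.Agent.ES.RED.Contract8.kA A)) = tq (Fermat.Agent.ES.RED.Contract8.kA A) n e := by
  have h := (coeffChart0 n e M L hM ℓ hℓ hIG hmem hgen A hA).red_eq
    (S0 n e M L hM ℓ hℓ hIG hmem hgen A hA).sB (tq ↥A n e) (coeffMap_tq ↥A A.subtype n e)
  exact h.trans (coeffMap_tq ↥A (resA A) n e)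

/-- **`red₁ t⁻¹ = t̃⁻¹`**, on expansions. -/
theorem coe_red_s1 :
    (((S1 n e M L hM ℓ hℓ hIG hmem hgen A hA).red (S1 n e M L hM ℓ hℓ hIG hmem hgen A hA).sB :
      Ft M L A) : LaurentSeries (Fermat.Agent.ES.RED.Contract8.kA A)) = (tq (Fermat.Agent.ES.RED.Contract8.kA A) n e)⁻¹ := by
  have h : coeffMap A.subtype (tqInv ↥A n e) =
      ((((S1 n e M L hM ℓ hℓ hIG hmem hgen A hA).sB :
        ↥(S1 n e M L hM ℓ hℓ hIG hmem hgen A hA).B) : ↥(F1b M L)) : LaurentSeries Qbar) := by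
    rw [coeffMap_tqInv, tqInv_eq_inv]
    rfl
  have h2 := (coeffChart1 n e M L hM ℓ hℓ hIG hmem hgen A hA).red_eq
    (S1 n e M L hM ℓ hℓ hIG hmem hgen A hA).sB (tqInv ↥A n e) h
  refine h2.trans ?_
  rw [coeffMap_tqInv, tqInv_eq_inv]

/-- **`tr0`**. -/
theorem tr0 : Transcendental (Fermat.Agent.ES.RED.Contract8.kA A)
    ((S0 n e M L hM ℓ hℓ hIG hmem hgen A hA).red (S0 n e M L hM ℓ hℓ hIG hmem hgen A hA).sB) :=
  Fermat.Agent.ES.RED.Tr0Inst18.transcendental_of_coe_eq_tq n e _ _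
    (coe_red_s0 n e M L hM ℓ hℓ hIG hmem hgen A hA)

/-- `red₀ t = t̃` as elements of the special-fibre field. -/
theorem red_s0_eq_tRes :
    (S0 n e M L hM ℓ hℓ hIG hmem hgen A hA).red (S0 n e M L hM ℓ hℓ hIG hmem hgen A hA).sB =
      tRes n e M L hM ℓ hℓ hIG hmem hgen A hA :=
  Subtype.ext (coe_red_s0 n e M L hM ℓ hℓ hIG hmem hgen A hA)

/-- the overlap: `red₀ t · red₁ t⁻¹ = 1`. -/
theorem red_s_mul :
    (S0 n e M L hM ℓ hℓ hIG hmem hgen A hA).red (S0 n e M L hM ℓ hℓ hIG hmem hgen A hA).sB *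
      (S1 n e M L hM ℓ hℓ hIG hmem hgen A hA).red (S1 n e M L hM ℓ hℓ hIG hmem hgen A hA).sB = 1 :=
  Fermat.Agent.ES.RED.Overlap23.red_s_mul_of_series A (F1b M L)
    (fieldG10C (Fermat.Agent.ES.RED.Contract8.kA A) M L) (tF1 M L hmem) _ _
    (fun b hb => (coeffChart0 n e M L hM ℓ hℓ hIG hmem hgen A hA).exists_series ⟨b, hb⟩)
    (fun b hb => (coeffChart1 n e M L hM ℓ hℓ hIG hmem hgen A hA).exists_series ⟨b, hb⟩)
    (fun b Y hY => (coeffChart0 n e M L hM ℓ hℓ hIG hmem hgen A hA).red_eq b Y hY)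
    (fun b Y hY => (coeffChart1 n e M L hM ℓ hℓ hIG hmem hgen A hA).red_eq b Y hY)
    (isGen_tF1 n e M L hM hmem hgen).ne_zero

/-- the overlap: `B₁ ⊆ B₀[1/t]`, compatibly with the reductions. -/
theorem ov0 (b : ↥(S1 n e M L hM ℓ hℓ hIG hmem hgen A hA).B) :
    ∃ (m : ℕ) (b0 : ↥(S0 n e M L hM ℓ hℓ hIG hmem hgen A hA).B),
      (b0 : ↥(F1b M L)) = (S0 n e M L hM ℓ hℓ hIG hmem hgen A hA).s ^ m * (b : ↥(F1b M L)) ∧
      (S0 n e M L hM ℓ hℓ hIG hmem hgen A hA).red b0 =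
        (S0 n e M L hM ℓ hℓ hIG hmem hgen A hA).red
            (S0 n e M L hM ℓ hℓ hIG hmem hgen A hA).sB ^ m *
          (S1 n e M L hM ℓ hℓ hIG hmem hgen A hA).red b :=
  Fermat.Agent.ES.RED.Overlap23.ov0_of_series A (F1b M L)
    (fieldG10C (Fermat.Agent.ES.RED.Contract8.kA A) M L) (tF1 M L hmem) _ _
    (fun b hb => (coeffChart0 n e M L hM ℓ hℓ hIG hmem hgen A hA).exists_series ⟨b, hb⟩)
    (fun b hb => (coeffChart1 n e M L hM ℓ hℓ hIG hmem hgen A hA).exists_series ⟨b, hb⟩)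
    (fun b Y hY => (coeffChart0 n e M L hM ℓ hℓ hIG hmem hgen A hA).red_eq b Y hY)
    (fun b Y hY => (coeffChart1 n e M L hM ℓ hℓ hIG hmem hgen A hA).red_eq b Y hY)
    (isGen_tF1 n e M L hM hmem hgen).ne_zero b

include hM hℓ hIG hmem hgen hA in
/-- **(PIR) for the special fibre** `fieldG10C κ_A M L`. -/
theorem pirHyp1 : PIRHyp A ↥(fieldG10C (Fermat.Agent.ES.RED.Contract8.kA A) M L) := by
  have := isSeparable_tRes n e M L hM ℓ hℓ hIG hmem hgen A hA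
  exact Fermat.Agent.ES.RED.PIRInst13.pirHyp_of_isGen
    (isGen_tRes n e M L hM ℓ hℓ hIG hmem hgen A hA)

variable (hlev0 : HasLevels (S0 n e M L hM ℓ hℓ hIG hmem hgen A hA))
  (hlev1 : HasLevels (S1 n e M L hM ℓ hℓ hIG hmem hgen A hA))

/-- **The two-chart structure over `A`.** -/
def twoCharts : TwoCharts A (isGen_tF1 n e M L hM hmem hgen) (Ft M L A) :=
  twoChartsOf (S0 n e M L hM ℓ hℓ hIG hmem hgen A hA) (S1 n e M L hM ℓ hℓ hIG hmem hgen A hA)
    (isGen_tF1 n e M L hM hmem hgen).ne_zero rfl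
    (red_s_mul n e M L hM ℓ hℓ hIG hmem hgen A hA)
    (ov0 n e M L hM ℓ hℓ hIG hmem hgen A hA) hlev0 hlev1
    (tr0 n e M L hM ℓ hℓ hIG hmem hgen A hA)
    (pirHyp1 n e M L hM ℓ hℓ hIG hmem hgen A hA)

@[simp] theorem twoCharts_S0 :
    (twoCharts n e M L hM ℓ hℓ hIG hmem hgen A hA hlev0 hlev1).S0 =
      S0 n e M L hM ℓ hℓ hIG hmem hgen A hA := rfl

@[simp] theorem twoCharts_S1 :
    (twoCharts n e M L hM ℓ hℓ hIG hmem hgen A hA hlev0 hlev1).S1 =
      S1 n e M L hM ℓ hℓ hIG hmem hgen A hA := rfl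

include hlev0 in
/-- **(PEEL-a)** on chart 0. -/
theorem peelA0 (P : Place Qbar ↥(F1b M L))
    (hP : (S0 n e M L hM ℓ hℓ hIG hmem hgen A hA).InChart P) :
    (S0 n e M L hM ℓ hℓ hIG hmem hgen A hA).PeelA P hP :=
  peelA_of_levels hlev0 (tr0 n e M L hM ℓ hℓ hIG hmem hgen A hA)
    (pirHyp1 n e M L hM ℓ hℓ hIG hmem hgen A hA) P hP

include hlev1 in
/-- **(PEEL-a)** on chart 1. -/
theorem peelA1 (P : Place Qbar ↥(F1b M L))
    (hP : (S1 n e M L hM ℓ hℓ hIG hmem hgen A hA).InChart P) :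
    (S1 n e M L hM ℓ hℓ hIG hmem hgen A hA).PeelA P hP :=
  peelA_of_levels hlev1
    (transcendental_of_mul_eq_one (tr0 n e M L hM ℓ hℓ hIG hmem hgen A hA)
      (red_s_mul n e M L hM ℓ hℓ hIG hmem hgen A hA))
    (pirHyp1 n e M L hM ℓ hℓ hIG hmem hgen A hA) P hP

include hlev0 hlev1 in
/-- **`Red1Iface4.ModelAt1` from the level systems of the two charts.** -/
theorem modelAt1_of_levels : Red1Iface4.ModelAt1 A n e M L hmem :=
  ⟨tF1 M L hmem, isGen_tF1 n e M L hM hmem hgen,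
    twoCharts n e M L hM ℓ hℓ hIG hmem hgen A hA hlev0 hlev1,
    coeffChart0' n e M L hM ℓ hℓ hIG hmem hgen A hA,
    coeffChart1' n e M L hM ℓ hℓ hIG hmem hgen A hA, rfl,
    fun P hP => peelA0 n e M L hM ℓ hℓ hIG hmem hgen A hA hlev0 P hP,
    fun P hP => peelA1 n e M L hM ℓ hℓ hIG hmem hgen A hA hlev1 P hP⟩

end Concrete

end Fermat.Agent.M48.ModelInst5
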