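/-
M48 (P1), [RED1], chapter [ESRED-MODEL], LEVELS/PEEL back end (helper7): **`HasLevels` for every
coefficientwise chart with coordinate `t` or `t⁻¹`** of the model of `Γ₁(M) ∩ Γ₀(M L)` over
`A ≤ ℚ̄`, from the two-chart models over the number fields — twin of `ES/RED/ModelInstLevels4`
(+ `ModelInstFinal4.levelAtHyp`).

* `ModelAtK A n e M L` : the two-chart models `TwoChartModel (A ∩ K) K (K·fieldG10 M L) ϖ t
  (chart t) (chart t⁻¹) (Gauss valuation ring)` over all large number fields `K` (twin of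
  `ChartInst1.ModelAt`; the valuation ring is written `gaussVS hu _ _`, which is what both
  `ChartIntegralG5.OvKg` and `ChartIntegralG8.OvKg` unfold to);
* `levelAtHyp` : the per-level data at `t` and `t⁻¹` (helper1's `LevelAtInv1`);
* `hasLevels_of_modelAtK` : generic in the chart; `hasLevels_of_coeffChartG(9)` : for
  `Red1Iface4.CoeffChartG` / `GaloisR3G9.CoeffChartG` charts;
* `peelA_of_modelAtK` : (PEEL-a) at every place of such a chart, given `PIRHyp` and `tr`.

Inputs: `PurGauss1.IG1 M L` (through `L4Inst7`), helper1's `LevelsMain1.chartLevels`,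
`LevelMax17.exists_pow_eq_self`, helper9's `SpecialDegG9.exists_tq_mem`.

Imported by no statement.
-/
import Mathlib
import Fermat.Agent.M48.LevelsMain1
import Fermat.Agent.M48.LevelAtInv1
import Fermat.Agent.M48.L4Inst7
import Fermat.Agent.M48.SpecialDegG9
import Fermat.Agent.ES.RED.LevelMax17
import Fermat.Agent.ES.RED.ModelInstGen4

set_option autoImplicit false
set_option linter.unusedSectionVars false
set_option linter.style.haveILetI false
set_option linter.style.longLine false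
set_option synthInstance.maxHeartbeats 400000
set_option maxHeartbeats 1000000

open HahnSeries ModularCurve AlgebraicCurve
open scoped MatrixGroups

noncomputable section

namespace Fermat.Agent.M48.ModelInstLevels7

open Fermat.Agent.RED.Interface4 Fermat.Agent.RED.PUR.ChartGeneric22
  Fermat.Agent.RED.BASE.Interface12 Fermat.Agent.RED.BASE.EtaQuot12
  Fermat.Agent.RED.DESC.PlaceExtend27 Fermat.Agent.RED.DESC.NumberFieldDVR27
  Fermat.Agent.RED.PUR.GaussGen8 Fermat.Agent.RED.PUR.G1Package8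
  Fermat.Agent.RED.CORE.CoreIface24
  Fermat.Agent.ES.RED.Contract8 Fermat.Agent.ES.RED.TwoCharts8 Fermat.Agent.ES.RED.ModelInstGen4
  Fermat.Agent.X0.FF
open Fermat.Agent.M48.DictIface4 Fermat.Agent.M48.QModel8 Fermat.Agent.M48.Red1Iface4
  Fermat.Agent.M48.PurGauss1 Fermat.Agent.M48.DescG0 Fermat.Agent.M48.LevelsInst1

/-- cached instance (typeclass search for it takes seconds at these concrete types). -/
local instance (priority := 5000) algAKFKg7 (A : ValuationSubring Qbar)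
    (F₀ : IntermediateField ℚ (LaurentSeries ℚ)) (K : IntermediateField ℚ Qbar) :
    Algebra ↥(AK A K) ↥(FKg F₀ K) := inferInstance

/-- cached instance. -/
local instance (priority := 5000) algKAFt7 (A : ValuationSubring Qbar) (M L : ℕ) :
    Algebra (kA A) ↥(fieldG10C (kA A) M L) := inferInstance

variable (A : ValuationSubring Qbar) (n e M L : ℕ) [NeZero n] [NeZero M] [NeZero L]

/-- **The two-chart models over the number fields** (twin of `ChartInst1.ModelAt`): for all large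
number fields `K`, `A ∩ K` is a DVR and `chart (A ∩ K) t`, `chart (A ∩ K) t⁻¹` with the Gauss
valuation ring form a `TwoChartModel`. -/
def ModelAtK : Prop :=
  ∃ K₀ : IntermediateField ℚ Qbar, FiniteDimensional ℚ K₀ ∧
    ∀ K : IntermediateField ℚ Qbar, FiniteDimensional ℚ K → K₀ ≤ K →
      IsDiscreteValuationRing ↥(AK A K) ∧
      ∀ (ϖ : ↥(AK A K)) (_ : Irreducible ϖ) (hu : IsUnif (AK A K) ϖ)
        (t : ↥(FKg (fieldG10 M L) K)), (t : LaurentSeries K) = tq K n e →
        TwoChartModel ↥(AK A K) K ↥(FKg (fieldG10 M L) K) ϖ t (chart ↥(AK A K) t)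
          (chart ↥(AK A K) t⁻¹)
          (gaussVS hu (FKg (fieldG10 M L) K) (laurentBaseChange_le_fracField (AK A K) M L))

/-- **The per-level data** at `t` and `t⁻¹` from the two-chart model at the level `K`. -/
theorem levelAtHyp (K : IntermediateField ℚ Qbar) (hdvr : IsDiscreteValuationRing ↥(AK A K))
    (ϖ : ↥(AK A K)) (hu : IsUnif (AK A K) ϖ) (t : ↥(FKg (fieldG10 M L) K))
    (htq : (t : LaurentSeries K) = tq K n e)
    (hmod : TwoChartModel ↥(AK A K) K ↥(FKg (fieldG10 M L) K) ϖ t (chart ↥(AK A K) t)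
      (chart ↥(AK A K) t⁻¹)
      (gaussVS hu (FKg (fieldG10 M L) K) (laurentBaseChange_le_fracField (AK A K) M L))) :
    LevelAt A (fieldG10 M L) K t ϖ ∧ LevelAt A (fieldG10 M L) K t⁻¹ ϖ := by
  haveI := hdvr
  exact Fermat.Agent.M48.LevelAtInv1.levelAt_tq_both_gaussVS A (fieldG10 M L) K hu
    (laurentBaseChange_le_fracField (AK A K) M L) t hmod htq

variable {A n e M L}
variable (ℓ : ℕ) [Fact ℓ.Prime] (hM : 2 ≤ M) (hℓM : ¬ ℓ ∣ M * L) (hIG : IG1 M L)
  (hmem : TMem1 n e M L) (hgen : TGenBase n e) (hA : A.LiesOverPrime ℓ)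

include hM hℓM hIG hgen hA in
/-- **`HasLevels`, generic**: a chart whose ring is the integral closure of `A[s]`, `s = t` or
`s = t⁻¹`, with coefficientwise reduction. -/
theorem hasLevels_of_modelAtK {x : ↥(F1b M L)} {hx : IsGen Qbar x}
    (S : ChartSpec A hx ↥(fieldG10C (kA A) M L))
    (hB : ∀ b : ↥(F1b M L), b ∈ chart ↥A S.s → b ∈ S.B)
    (hB' : ∀ b : ↥(F1b M L), b ∈ S.B → b ∈ chart ↥A S.s)
    (hred : ∀ (b : ↥S.B) (Y : LaurentSeries ↥A),
      coeffMap A.subtype Y = ((b : ↥(F1b M L)) : LaurentSeries Qbar) →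
      ((S.red b : ↥(fieldG10C (kA A) M L)) : LaurentSeries (kA A)) = coeffMap (resA A) Y)
    (hs : S.s = tF1 M L hmem ∨ S.s = (tF1 M L hmem)⁻¹)
    (hmodel : ModelAtK A n e M L) : HasLevels S := by
  have hℓ : ℓ.Prime := Fact.out
  obtain ⟨K₁, hK₁, H⟩ := hmodel
  obtain ⟨K₂, hK₂, hT⟩ := Fermat.Agent.M48.SpecialDegG9.exists_tq_mem n e M L hmem
  haveI := hK₁
  haveI := hK₂
  have hdvr : ∀ K : Idx (K₁ ⊔ K₂), IsDiscreteValuationRing ↥(AK A K.1) :=
    fun K => (H K.1 K.2.1 (le_sup_left.trans K.2.2)).1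
  have hirr : ∀ K : Idx (K₁ ⊔ K₂), ∃ ϖ : ↥(AK A K.1), Irreducible ϖ := fun K => by
    haveI := hdvr K
    exact IsDiscreteValuationRing.exists_irreducible _
  choose ϖ hϖ using hirr
  let tK : ∀ K : Idx (K₁ ⊔ K₂), ↥(FKg (fieldG10 M L) K.1) :=
    fun K => ⟨tq K.1 n e, hT K.1 (le_sup_right.trans K.2.2)⟩
  have htK : ∀ K : Idx (K₁ ⊔ K₂), baseChangeHom (fieldG10 M L) K.1 (tK K) = tF1 M L hmem :=
    fun K => Fermat.Agent.M48.FracRed7.bcK1_tq K.1 hmem (tK K) rfl
  have hboth : ∀ K : Idx (K₁ ⊔ K₂),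
      LevelAt A (fieldG10 M L) K.1 (tK K) (ϖ K) ∧
        LevelAt A (fieldG10 M L) K.1 (tK K)⁻¹ (ϖ K) := fun K => by
    haveI := hdvr K
    have hu : IsUnif (AK A K.1) (ϖ K) := isUnif_of_irreducible (AK A K.1) (hϖ K)
    exact levelAtHyp A n e M L K.1 (hdvr K) (ϖ K) hu (tK K) rfl
      ((H K.1 K.2.1 (le_sup_left.trans K.2.2)).2 (ϖ K) (hϖ K) hu (tK K) rfl)
  have hk := Fermat.Agent.ES.RED.LevelMax17.exists_pow_eq_self hℓ A hA
  have hL4 := Fermat.Agent.M48.L4Inst7.chartLevels_L4 S hB hred n e ℓ hM hℓM hIG hmem hgen hA hs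
  intro P hP
  rcases hs with hs | hs
  · exact ⟨Idx (K₁ ⊔ K₂), _, _, _, _,
      Fermat.Agent.M48.LevelsMain1.chartLevels (F₀ := fieldG10 M L) S hB hB' hred (K₁ ⊔ K₂) tK
        (fun K => (htK K).trans hs.symm) ϖ (fun K => (hboth K).1) hk hL4 P hP⟩
  · exact ⟨Idx (K₁ ⊔ K₂), _, _, _, _,
      Fermat.Agent.M48.LevelsMain1.chartLevels (F₀ := fieldG10 M L) S hB hB' hred (K₁ ⊔ K₂)
        (fun K => (tK K)⁻¹)
        (fun K => by rw [map_inv₀, htK K, hs]) ϖ (fun K => (hboth K).2) hk hL4 P hP⟩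

include hM hℓM hIG hgen hA in
/-- `HasLevels` for a `Red1Iface4.CoeffChartG` chart with coordinate `t` or `t⁻¹`. -/
theorem hasLevels_of_coeffChartG {x : ↥(F1b M L)} {hx : IsGen Qbar x}
    (S : ChartSpec A hx ↥(fieldG10C (kA A) M L))
    (hS : Red1Iface4.CoeffChartG (F₀ := fieldG10 M L) S)
    (hs : S.s = tF1 M L hmem ∨ S.s = (tF1 M L hmem)⁻¹)
    (hmodel : ModelAtK A n e M L) : HasLevels S :=
  hasLevels_of_modelAtK ℓ hM hℓM hIG hmem hgen hA S (fun b hb => (hS.mem_iff b).mpr hb)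
    (fun b hb => (hS.mem_iff b).mp hb) hS.red_eq hs hmodel

include hM hℓM hIG hgen hA in
/-- `HasLevels` for a `GaloisR3G9.CoeffChartG` chart with coordinate `t` or `t⁻¹`. -/
theorem hasLevels_of_coeffChartG9 {x : ↥(F1b M L)} {hx : IsGen Qbar x}
    (S : ChartSpec A hx ↥(fieldG10C (kA A) M L))
    (hS : Fermat.Agent.M48.GaloisR3G9.CoeffChartG (F₀ := fieldG10 M L) S)
    (hs : S.s = tF1 M L hmem ∨ S.s = (tF1 M L hmem)⁻¹)
    (hmodel : ModelAtK A n e M L) : HasLevels S :=
  hasLevels_of_modelAtK ℓ hM hℓM hIG hmem hgen hA S (fun b hb => (hS.mem_iff b).mpr hb)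
    (fun b hb => (hS.mem_iff b).mp hb) hS.red_eq hs hmodel

include hM hℓM hIG hgen hA in
/-- **(PEEL-a)** at every place of a coefficientwise chart with coordinate `t` or `t⁻¹`, given the
principal ideal property of the valuation subrings of the special-fibre field and the
transcendence of `red s`. -/
theorem peelA_of_modelAtK {x : ↥(F1b M L)} {hx : IsGen Qbar x}
    (S : ChartSpec A hx ↥(fieldG10C (kA A) M L))
    (hS : Red1Iface4.CoeffChartG (F₀ := fieldG10 M L) S)
    (hs : S.s = tF1 M L hmem ∨ S.s = (tF1 M L hmem)⁻¹)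
    (hmodel : ModelAtK A n e M L)
    (htr : Transcendental (kA A) (S.red S.sB))
    (hpir : PIRHyp A ↥(fieldG10C (kA A) M L))
    (P : Place Qbar ↥(F1b M L)) (hP : S.InChart P) : S.PeelA P hP :=
  peelA_of_levels (hasLevels_of_coeffChartG ℓ hM hℓM hIG hmem hgen hA S hS hs hmodel) htr hpir P hP

end Fermat.Agent.M48.ModelInstLevels7
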