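/-
M48 (P1), [RED1], chapter [ESRED-MODEL], LEVELS/PEEL back end (helper7): **`Red1Iface4.ModelAt1`
from the two-chart models over the number fields** — twin of `ES/RED/ModelInstFinal4`
(`twoCharts_of_modelAt`, `peelA0/1_of_modelAt`), assembled from helper5's `ModelInst5`
(charts `S0`, `S1`, `modelAt1_of_levels`) and `ModelInstLevels7.hasLevels_of_coeffChartG9`.

* `hasLevels0`, `hasLevels1` : level systems at every place of the two concrete charts;
* `modelAt1_of_modelAtK … (hK : ModelAtK A n e M L) : ModelAt1 A n e M L hmem` (any `L`, given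
  `IG1 M L`);
* `modelAt1 (hb : BaseHyp n e) (hM : 2 ≤ M) h hℓ hℓM hA hIG hK : ModelAt1 A n e M 1 h` : the shape
  of the `hmodel` hypothesis of `SP1Final5.sp1Stmt49_of_model` / `S48Final0.s48_of_cuspFam`, with
  the Igusa input `IG1 M 1` and the number-field models `ModelAtK A n e M 1` as hypotheses.

Imported by no statement.
-/
import Mathlib
import Fermat.Agent.M48.ModelInstLevels7
import Fermat.Agent.M48.ModelInst5

set_option autoImplicit false
set_option linter.unusedSectionVars false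
set_option linter.style.haveILetI false
set_option linter.style.longLine false

open HahnSeries ModularCurve AlgebraicCurve

noncomputable section

namespace Fermat.Agent.M48.ModelAt7

open Fermat.Agent.RED.Interface4 Fermat.Agent.RED.BASE.Interface12
  Fermat.Agent.ES.RED.Contract8 Fermat.Agent.ES.RED.TwoCharts8 Fermat.Agent.ES.RED.ModelInstGen4
open Fermat.Agent.M48.DictIface4 Fermat.Agent.M48.QModel8 Fermat.Agent.M48.Red1Iface4
  Fermat.Agent.M48.PurGauss1 Fermat.Agent.M48.ModelInstLevels7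

section AnyL

variable (n e M L : ℕ) [NeZero n] [NeZero M] [NeZero L] (hM : 2 ≤ M) (ℓ : ℕ) [Fact ℓ.Prime]
  (hℓ : ¬ ℓ ∣ M * L) (hIG : IG1 M L) (hmem : TMem1 n e M L) (hgen : TGenBase n e)
  (A : ValuationSubring Qbar) (hA : A.LiesOverPrime ℓ) (hK : ModelAtK A n e M L)

include hK in
/-- level systems at every place, chart 0. -/
theorem hasLevels0 :
    HasLevels (Fermat.Agent.M48.ModelInst5.S0 n e M L hM ℓ hℓ hIG hmem hgen A hA) :=
  hasLevels_of_coeffChartG9 ℓ hM hℓ hIG hmem hgen hA _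
    (Fermat.Agent.M48.ModelInst5.coeffChart0 n e M L hM ℓ hℓ hIG hmem hgen A hA) (Or.inl rfl) hK

include hK in
/-- level systems at every place, chart 1. -/
theorem hasLevels1 :
    HasLevels (Fermat.Agent.M48.ModelInst5.S1 n e M L hM ℓ hℓ hIG hmem hgen A hA) :=
  hasLevels_of_coeffChartG9 ℓ hM hℓ hIG hmem hgen hA _
    (Fermat.Agent.M48.ModelInst5.coeffChart1 n e M L hM ℓ hℓ hIG hmem hgen A hA) (Or.inr rfl) hK

include hM hℓ hIG hgen hA hK in
/-- **`ModelAt1` from the two-chart models over the number fields** (any auxiliary `L`). -/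
theorem modelAt1_of_modelAtK : Red1Iface4.ModelAt1 A n e M L hmem :=
  Fermat.Agent.M48.ModelInst5.modelAt1_of_levels n e M L hM ℓ hℓ hIG hmem hgen A hA
    (hasLevels0 n e M L hM ℓ hℓ hIG hmem hgen A hA hK)
    (hasLevels1 n e M L hM ℓ hℓ hIG hmem hgen A hA hK)

end AnyL

/-- **`ModelAt1` at `(M, 1)`**, in the shape of the `hmodel` hypothesis of
`SP1Final5.sp1Stmt49_of_model` (inputs: the Igusa literal and the number-field models). -/
theorem modelAt1 {n e : ℕ} [NeZero n] (hb : Fermat.Agent.RED.BASE.Hauptmodul12.BaseHyp n e)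
    {M : ℕ} [NeZero M] (hM : 2 ≤ M) (h : TMem1 n e M 1) {ℓ : ℕ} (hℓ : ℓ.Prime) (hℓM : ¬ ℓ ∣ M)
    {A : ValuationSubring Qbar} (hA : A.LiesOverPrime ℓ) (hIG : IG1 M 1)
    (hK : ModelAtK A n e M 1) : Red1Iface4.ModelAt1 A n e M 1 h := by
  haveI : Fact ℓ.Prime := ⟨hℓ⟩
  have hℓ1 : ¬ ℓ ∣ M * 1 := by rwa [mul_one]
  exact modelAt1_of_modelAtK n e M 1 hM ℓ hℓ1 hIG h
    (Fermat.Agent.RED.BASE.Hauptmodul12.tGenBase' hb) A hA hK

end Fermat.Agent.M48.ModelAt7
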