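/-
M48 (P1), [RED1], chapter [ESRED-MODEL] (helper1): **the two-chart model at the EXPLICIT charts, over
all large number fields, for the pair `(M, L)`** (twin of `ES/RED/ModelExplicit26.explicitModelStep_of_targets`
(helper26) and of the definition `ES/RED/ChartInst1.ModelAt`, for the field
`F1K M L K = K · fieldG10 M L`).

`NumInst4.HasModel O E` (= `Red1Iface4.ModelStep1`) is existential in the charts.  The reduction map of
[ESRED-MODEL] needs the model at the explicit charts `chart (A ∩ K) t`, `chart (A ∩ K) t⁻¹` and the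
explicit Gauss valuation ring `gaussVS hu (F1K M L K) _` (= `ChartIntegralG5.OvKg` / `ChartIntegralG8.OvKg`
at `F₀ = fieldG10 M L`, by unfolding):

* `ModelAtK1 A n e M L` : the statement (for `K ⊇ K₀`: `A ∩ K` is a DVR, and every uniformiser `ϖ` and
  the Hauptmodul `t = tq K n e ∈ F1K M L K` give `CoreIface24.TwoChartModel` at the explicit charts);
* `modelAtK1_of_targets` : from `IG1 M L` and the three smoothness targets (text of lead's
  `ModelStep0.modelStep1_of_targets` with the generic `ModelExplicit26.twoChartModel_of_split`);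
* `modelAtK1_of_smooth`, `modelAtK1_of_exports` : from `Red1Iface4.SmoothTargets1`;
* `modelAtK1_of_fam`, `modelAtK1_four`, `modelAtK1_nine` : from `IG1 M L` and the two cusp-family
  statements (helper4's `SmoothML4.smoothTargets1_of_fam`);
* `ModelAtK1.levelAt` : the level data `LevelsInst1.LevelAt` at `t` and `t⁻¹` for all large `K`
  (twin of `LevelAtModel1.levelAt_of_modelAt`).

Imported by no statement.
-/
import Mathlib
import Fermat.Agent.M48.SmoothML4
import Fermat.Agent.M48.LevelAtInv1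
import Fermat.Agent.ES.RED.ModelExplicit26

set_option autoImplicit false
set_option linter.unusedSectionVars false
set_option linter.unusedVariables false
set_option synthInstance.maxHeartbeats 400000

open HahnSeries ModularCurve IntermediateField AlgebraicCurve
open scoped MatrixGroups

noncomputable section

namespace Fermat.Agent.M48.ModelExplicit1

open Fermat.Agent.M48.Red1Iface4 Fermat.Agent.M48.DictIface4 Fermat.Agent.M48.QModel8
open Fermat.Agent.RED.Interface4 Fermat.Agent.RED.PUR.GaussGen8 Fermat.Agent.RED.PUR.KtGauss8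
  Fermat.Agent.RED.PUR.G1Package8 Fermat.Agent.RED.ModelIface4 Fermat.Agent.RED.ModelTargets4
  Fermat.Agent.RED.BASE.EtaQuot12 Fermat.Agent.RED.BASE.Interface12 Fermat.Agent.X0
  Fermat.Agent.RED.NumInst4 Fermat.Agent.RED.DESC.NumberFieldDVR27
  Fermat.Agent.RED.CORE.CoreIface24 Fermat.Agent.RED.PUR.ChartGeneric22
  Fermat.Agent.RED.BASE.Hauptmodul12 Fermat.Agent.RED.BASE Fermat.Agent.RED.CUSP.CuspIface23
open Fermat.Agent.M48.PurGauss1 Fermat.Agent.M48.LevelsInst1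

/-- **The two-chart models over all large number fields** for the pair `(M, L)` (twin of
`ChartInst1.ModelAt`): for `K ⊇ K₀`, `A ∩ K` is a DVR and every uniformiser `ϖ` and the Hauptmodul
`t = tq K n e ∈ F1K M L K` give the two-chart model at the charts `chart (A ∩ K) t^{±1}` with the Gauss
valuation ring of `F1K M L K`. -/
def ModelAtK1 (A : ValuationSubring Qbar) (n e M L : ℕ) [NeZero n] : Prop :=
  ∃ K₀ : IntermediateField ℚ Qbar, FiniteDimensional ℚ K₀ ∧
    ∀ K : IntermediateField ℚ Qbar, FiniteDimensional ℚ K → K₀ ≤ K →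
      IsDiscreteValuationRing ↥(AK A K) ∧
      ∀ (ϖ : ↥(AK A K)) (_ : Irreducible ϖ) (hu : IsUnif (AK A K) ϖ) (t : ↥(F1K M L K)),
        (t : LaurentSeries K) = tq K n e →
        TwoChartModel ↥(AK A K) K ↥(F1K M L K) ϖ t (chart ↥(AK A K) t) (chart ↥(AK A K) t⁻¹)
          (gaussVS hu (F1K M L K) (laurentBaseChange_le_fracField (AK A K) M L))

variable {n e M L : ℕ} [NeZero n] [NeZero M] [NeZero L] {A : ValuationSubring Qbar}

/-- **The explicit model over all large number fields from the smoothness targets.** -/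
theorem modelAtK1_of_targets (hM : 2 ≤ M) {ℓ : ℕ} [Fact ℓ.Prime] (hℓ : ¬ ℓ ∣ M * L)
    (hA : A.LiesOverPrime ℓ) (hIG : IG1 M L)
    (hT : RedTargets1.TTarget1 n e M L) (hJ : JTarget n e)
    (cv : SL(2, ℤ) → Option Kbar)
    (hoff : OffTarget1 n e M L A cv) (hover : OverTarget1 n e M L A cv)
    (hinf : InfTarget1 n e M L A) : ModelAtK1 A n e M L := by
  have hℓp : ℓ.Prime := Fact.out
  obtain ⟨K₁, hK₁, hT⟩ := hT
  obtain ⟨K₂, hK₂, hJ⟩ := hJ
  obtain ⟨K₃, hK₃, hoff⟩ := hoff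
  obtain ⟨K₄, hK₄, hover⟩ := hover
  obtain ⟨K₅, hK₅, hinf⟩ := hinf
  refine ⟨K₁ ⊔ K₂ ⊔ K₃ ⊔ K₄ ⊔ K₅, inferInstance, fun K hKfd hle => ?_⟩
  have hle1 : K₁ ≤ K := le_trans (le_trans (le_trans (le_trans le_sup_left le_sup_left)
    le_sup_left) le_sup_left) hle
  have hle2 : K₂ ≤ K := le_trans (le_trans (le_trans (le_trans le_sup_right le_sup_left)
    le_sup_left) le_sup_left) hle
  have hle3 : K₃ ≤ K := le_trans (le_trans (le_trans le_sup_right le_sup_left) le_sup_left) hle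
  have hle4 : K₄ ≤ K := le_trans (le_trans le_sup_right le_sup_left) hle
  have hle5 : K₅ ≤ K := le_trans le_sup_right hle
  have hdvr : IsDiscreteValuationRing ↥(AK A K) := isDiscreteValuationRing_AK A K hℓp.ne_zero hA
  refine ⟨hdvr, fun ϖ hϖ hu t htq => ?_⟩
  have hchar : CharP (Res (AK A K)) ℓ := charP_residueField_AK A K hℓp hA
  have hfin : Finite (↥(AK A K) ⧸ (Ideal.span {ϖ} : Ideal ↥(AK A K))) := by
    have h1 : Finite (IsLocalRing.ResidueField ↥(AK A K)) :=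
      finite_residueField_AK A K hℓp.ne_zero hA
    rw [← hϖ.maximalIdeal_eq]
    exact h1
  have hE : F1K M L K ≤ fracField (AK A K) := laurentBaseChange_le_fracField (AK A K) M L
  have ht : ((t : ↥(F1K M L K)) : LaurentSeries K) ∈ gaussRing (AK A K) := by
    rw [htq]; exact tq_mem_gaussRing (AK A K) n e
  have h1 : (⟨((t : ↥(F1K M L K)) : LaurentSeries K), ht⟩ : ↥(gaussRing (AK A K))) =
      ⟨tq K n e, tq_mem_gaussRing (AK A K) n e⟩ := Subtype.ext htq
  have htr : Transcendental (Res (AK A K))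
      (gaussRed (AK A K) ⟨((t : ↥(F1K M L K)) : LaurentSeries K), ht⟩) := by
    rw [h1]
    exact transcendental_gaussRed_tq (AK A K) n e
  have htE' : ((t : ↥(F1K M L K)) : LaurentSeries K) ∈ F1K M L K := t.2
  have hjt : jqModC K ∈ Kt (AK A K) ⟨((t : ↥(F1K M L K)) : LaurentSeries K), ht⟩ := by
    rw [h1]
    exact hJ K hKfd hle2
  obtain ⟨hn, hdeg, hirr⟩ := degLe_irr_laurentBaseChange (AK A K) hϖ ℓ M L hM hℓ hIG
    ⟨((t : ↥(F1K M L K)) : LaurentSeries K), ht⟩ htE' hjt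
  exact Fermat.Agent.ES.RED.ModelExplicit26.twoChartModel_of_split hϖ hE t ht htr hn hdeg hirr
    (cuspSet A K cv) (hoff K hKfd hle3 ϖ hϖ t htq) (hover K hKfd hle4 ϖ hϖ t htq)
    (hinf K hKfd hle5 ϖ hϖ t htq)

/-- **The explicit model from (LOC)**, with the BASE inputs of the old chain at the level `M L`. -/
theorem modelAtK1_of_smooth (hM : 2 ≤ M) [NeZero (M * L)] (hmem : TMem n e (M * L))
    (hgen : TGenBase n e) {ℓ : ℕ} [Fact ℓ.Prime] (hℓ : ¬ ℓ ∣ M * L)
    (hA : A.LiesOverPrime ℓ) (hIG : IG1 M L)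
    (h : SmoothTargets1 n e M L A) : ModelAtK1 A n e M L := by
  obtain ⟨cv, hoff, hover, hinf⟩ := h
  exact modelAtK1_of_targets hM hℓ hA hIG (RedTargets1.tTarget1 M L hmem)
    (Fermat.Agent.RED.ModelFinal4.jTarget hgen) cv hoff hover hinf

/-- **The explicit model from the exports** (`BaseHyp n e`, `n ∣ M L`). -/
theorem modelAtK1_of_exports (hb : BaseHyp n e) (hM : 2 ≤ M) (hnML : n ∣ M * L) {ℓ : ℕ}
    [Fact ℓ.Prime] (hℓ : ¬ ℓ ∣ M * L) (hA : A.LiesOverPrime ℓ) (hIG : IG1 M L)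
    (h : SmoothTargets1 n e M L A) : ModelAtK1 A n e M L := by
  have : NeZero (M * L) := ⟨Nat.mul_ne_zero (NeZero.ne M) (NeZero.ne L)⟩
  have hB := Main12.baseExports hb (M * L) hnML
  exact modelAtK1_of_smooth hM hB.mem hB.genBase hℓ hA hIG h

/-- **The explicit model** from `IG1 M L` and the two cusp-family statements. -/
theorem modelAtK1_of_fam (hb : BaseHyp n e) (hM4 : 4 ≤ M) (hnML : n ∣ M * L) {ℓ : ℕ}
    [Fact ℓ.Prime] (hℓ : ¬ ℓ ∣ M * L) (hA : A.LiesOverPrime ℓ) (hIG : IG1 M L)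
    (cv : SL(2, ℤ) → Option Kbar) (hexp : CuspExp n e (M * L) cv) (hsep : CuspSeparated n cv)
    (hfamO : EventuallyT1 n e M L A fun K ϖ t => ∀ c ∈ cuspSet A K cv,
      HasCuspFamily (AK A K) (F1K M L K) t c (Module.finrank ↥K⟮t⟯ ↥(F1K M L K)))
    (hfamI : EventuallyT1 n e M L A fun K ϖ t =>
      HasCuspFamily (AK A K) (F1K M L K) t⁻¹ 0
        (Module.finrank ↥K⟮(t⁻¹ : ↥(F1K M L K))⟯ ↥(F1K M L K))) :
    ModelAtK1 A n e M L :=
  modelAtK1_of_exports hb (by omega) hnML hℓ hA hIG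
    (SmoothML4.smoothTargets1_of_fam hb hM4 hnML hℓ hA hIG cv hexp hsep hfamO hfamI)

/-- `(n, e) = (4, 8)`. -/
theorem modelAtK1_four (hM4 : 4 ≤ M) (h4 : 4 ∣ M * L) {ℓ : ℕ}
    [Fact ℓ.Prime] (hℓ : ¬ ℓ ∣ M * L) (hA : A.LiesOverPrime ℓ) (hIG : IG1 M L)
    (hfamO : EventuallyT1 4 8 M L A fun K ϖ t =>
      ∀ c ∈ cuspSet A K (Fermat.Agent.RED.BASE.CuspExpMain11.cvT 4 8 (M * L)),
      HasCuspFamily (AK A K) (F1K M L K) t c (Module.finrank ↥K⟮t⟯ ↥(F1K M L K)))
    (hfamI : EventuallyT1 4 8 M L A fun K ϖ t =>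
      HasCuspFamily (AK A K) (F1K M L K) t⁻¹ 0
        (Module.finrank ↥K⟮(t⁻¹ : ↥(F1K M L K))⟯ ↥(F1K M L K))) :
    ModelAtK1 A 4 8 M L := by
  have h := Fermat.Agent.RED.BASE.CuspExpMain11.cuspExp_four (M * L) h4 (tMem baseHyp_four)
  exact modelAtK1_of_fam baseHyp_four hM4 h4 hℓ hA hIG _ h.1 h.2 hfamO hfamI

/-- `(n, e) = (9, 3)`. -/
theorem modelAtK1_nine (hM4 : 4 ≤ M) (h9 : 9 ∣ M * L) {ℓ : ℕ}
    [Fact ℓ.Prime] (hℓ : ¬ ℓ ∣ M * L) (hA : A.LiesOverPrime ℓ) (hIG : IG1 M L)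
    (hfamO : EventuallyT1 9 3 M L A fun K ϖ t =>
      ∀ c ∈ cuspSet A K (Fermat.Agent.RED.BASE.CuspExpMain11.cvT 9 3 (M * L)),
      HasCuspFamily (AK A K) (F1K M L K) t c (Module.finrank ↥K⟮t⟯ ↥(F1K M L K)))
    (hfamI : EventuallyT1 9 3 M L A fun K ϖ t =>
      HasCuspFamily (AK A K) (F1K M L K) t⁻¹ 0
        (Module.finrank ↥K⟮(t⁻¹ : ↥(F1K M L K))⟯ ↥(F1K M L K))) :
    ModelAtK1 A 9 3 M L := by
  have h := Fermat.Agent.RED.BASE.CuspExpMain11.cuspExp_nine (M * L) h9 (tMem baseHyp_nine)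
  exact modelAtK1_of_fam baseHyp_nine hM4 h9 hℓ hA hIG _ h.1 h.2 hfamO hfamI

/-- **`LevelAt` for the Hauptmodul and its inverse over all large number fields** (twin of
`LevelAtModel1.levelAt_of_modelAt`). -/
theorem ModelAtK1.levelAt (hmodel : ModelAtK1 A n e M L) :
    ∃ K₀ : IntermediateField ℚ Qbar, FiniteDimensional ℚ K₀ ∧
      ∀ K : IntermediateField ℚ Qbar, FiniteDimensional ℚ K → K₀ ≤ K →
        ∀ (ϖ : ↥(AK A K)) (_ : Irreducible ϖ) (t : ↥(F1K M L K)),
          (t : LaurentSeries K) = tq K n e →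
          LevelAt A (fieldG10 M L) K t ϖ ∧ LevelAt A (fieldG10 M L) K t⁻¹ ϖ := by
  obtain ⟨K₀, hfin, H⟩ := hmodel
  refine ⟨K₀, hfin, fun K hK hle ϖ hϖ t ht => ?_⟩
  obtain ⟨hdvr, Hm⟩ := H K hK hle
  have hu : IsUnif (AK A K) ϖ := isUnif_of_irreducible (AK A K) hϖ
  exact LevelAtInv1.levelAt_tq_both_gaussVS A (fieldG10 M L) K hu
    (laurentBaseChange_le_fracField (AK A K) M L) t (Hm ϖ hϖ hu t ht) ht

end Fermat.Agent.M48.ModelExplicit1
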