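/-
M48 (P1), [RED1], chapter [ESRED-MODEL], back end (helper4; insurance copy of the announced
`ModelInstLevels7` / `ModelAt7`): **`HasLevels` for the charts of the model of `Γ₁(M) ∩ Γ₀(M L)` from the
explicit two-chart models over the number fields, and `Red1Iface4.ModelAt1` at `(M, 1)` UNCONDITIONALLY.**

Twin of `ES/RED/ModelInstLevels4.hasLevels_of_levelAt` + `ModelInstFinal4`:

* `hasLevels_of_modelAtK1` : a coefficientwise chart `S` (`GaloisR3G9.CoeffChartG`) with coordinate the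
  Hauptmodul `t` or `t⁻¹` has level systems at every place (`ModelInstGen4.HasLevels S`), given the
  explicit models `ModelExplicit1.ModelAtK1 A n e M L` (levels = number fields `K ⊇ K₀`; helper1's
  `LevelsMain1.chartLevels`, `ModelAtK1.levelAt`; helper7's `L4Inst7.chartLevels_L4_of_coeffChartG9`);
* `modelAt1_of_modelAtK1` : `ModelAtK1 → Red1Iface4.ModelAt1` (helper5's `ModelInst5.modelAt1_of_levels`);
* **`hmodel_four`, `hmodel_nine`** : the two `ModelAt1` hypotheses of `S48Final0.s48_of_cuspFam`,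
  unconditional (`CuspFamMain4.cuspFamStmt`, `IG1Main9.ig1`, `ModelAtFam1` plugged).

Imported by no statement.
-/
import Mathlib
import Fermat.Agent.M48.ModelInst5
import Fermat.Agent.M48.LevelsMain1
import Fermat.Agent.M48.ModelAtFam1
import Fermat.Agent.M48.L4Inst7
import Fermat.Agent.M48.CuspFamMain4
import Fermat.Agent.ES.RED.LevelMax17

set_option autoImplicit false
set_option linter.unusedSectionVars false
set_option linter.style.haveILetI false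
set_option linter.unusedVariables false
set_option synthInstance.maxHeartbeats 400000
set_option maxHeartbeats 1000000

open HahnSeries ModularCurve AlgebraicCurve

noncomputable section

namespace Fermat.Agent.M48.ModelTop4

open Fermat.Agent.RED.Interface4 Fermat.Agent.RED.PUR.ChartGeneric22
  Fermat.Agent.RED.BASE.Interface12 Fermat.Agent.RED.BASE.EtaQuot12
  Fermat.Agent.RED.DESC.NumberFieldDVR27 Fermat.Agent.RED.BASE.Hauptmodul12
  Fermat.Agent.ES.RED.Contract8 Fermat.Agent.ES.RED.TwoCharts8 Fermat.Agent.ES.RED.ModelInstGen4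
  Fermat.Agent.X0.FF
  Fermat.Agent.M48.DescG0 Fermat.Agent.M48.DictIface4 Fermat.Agent.M48.QModel8
  Fermat.Agent.M48.PurGauss1 Fermat.Agent.M48.Red1Iface4 Fermat.Agent.M48.LevelsInst1
  Fermat.Agent.M48.ModelExplicit1

section Generic

variable (n e M L : ℕ) [NeZero n] [NeZero M] [NeZero L] (hM : 2 ≤ M) (ℓ : ℕ) [Fact ℓ.Prime]
  (hℓ : ¬ ℓ ∣ M * L) (hIG : IG1 M L)
  (hmem : TMem1 n e M L) (hgen : TGenBase n e) (A : ValuationSubring Qbar) (hA : A.LiesOverPrime ℓ)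

include hM hℓ hIG hgen hA in
/-- **`HasLevels`, generic**: a coefficientwise chart with coordinate `t` or `t⁻¹`. -/
theorem hasLevels_of_modelAtK1 {x : ↥(F1b M L)} {hx : IsGen Qbar x}
    (S : ChartSpec A hx ↥(fieldG10C (kA A) M L))
    (hS : Fermat.Agent.M48.GaloisR3G9.CoeffChartG (F₀ := fieldG10 M L) S)
    (hs : S.s = tF1 M L hmem ∨ S.s = (tF1 M L hmem)⁻¹)
    (hmodel : ModelAtK1 A n e M L) : HasLevels S := by
  have hℓp : ℓ.Prime := Fact.out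
  obtain ⟨K₃, hK₃, HL⟩ := hmodel.levelAt
  obtain ⟨K₁, hK₁, H⟩ := hmodel
  obtain ⟨K₂, hK₂, hT⟩ := Fermat.Agent.M48.SpecialDegG9.exists_tq_mem n e M L hmem
  haveI := hK₁
  haveI := hK₂
  haveI := hK₃
  have hdvr : ∀ K : Idx (K₁ ⊔ K₂ ⊔ K₃), IsDiscreteValuationRing ↥(AK A K.1) :=
    fun K => (H K.1 K.2.1 ((le_sup_left.trans le_sup_left).trans K.2.2)).1
  have hirr : ∀ K : Idx (K₁ ⊔ K₂ ⊔ K₃), ∃ ϖ : ↥(AK A K.1), Irreducible ϖ := fun K => by
    haveI := hdvr K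
    exact IsDiscreteValuationRing.exists_irreducible _
  choose ϖ hϖ using hirr
  let tK : ∀ K : Idx (K₁ ⊔ K₂ ⊔ K₃), ↥(F1K M L K.1) :=
    fun K => ⟨tq K.1 n e, hT K.1 ((le_sup_right.trans le_sup_left).trans K.2.2)⟩
  have htK : ∀ K : Idx (K₁ ⊔ K₂ ⊔ K₃),
      baseChangeHom (fieldG10 M L) K.1 (tK K) = tF1 M L hmem := fun K =>
    Fermat.Agent.M48.FracRed7.bcK1_tq K.1 hmem (tK K) rfl
  have hboth : ∀ K : Idx (K₁ ⊔ K₂ ⊔ K₃),
      LevelAt A (fieldG10 M L) K.1 (tK K) (ϖ K) ∧ LevelAt A (fieldG10 M L) K.1 (tK K)⁻¹ (ϖ K) :=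
    fun K => HL K.1 K.2.1 (le_sup_right.trans K.2.2) (ϖ K) (hϖ K) (tK K) rfl
  have hk := Fermat.Agent.ES.RED.LevelMax17.exists_pow_eq_self hℓp A hA
  have hL4 := Fermat.Agent.M48.L4Inst7.chartLevels_L4_of_coeffChartG9 S hS n e ℓ hM hℓ hIG hmem
    hgen hA hs
  intro P hP
  rcases hs with hs | hs
  · exact ⟨Idx (K₁ ⊔ K₂ ⊔ K₃), _, _, _, _,
      Fermat.Agent.M48.LevelsMain1.chartLevels S (fun b hb => (hS.mem_iff b).mpr hb)
        (fun b hb => (hS.mem_iff b).mp hb) hS.red_eq (K₁ ⊔ K₂ ⊔ K₃) tK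
        (fun K => (htK K).trans hs.symm) ϖ (fun K => (hboth K).1) hk hL4 P hP⟩
  · exact ⟨Idx (K₁ ⊔ K₂ ⊔ K₃), _, _, _, _,
      Fermat.Agent.M48.LevelsMain1.chartLevels S (fun b hb => (hS.mem_iff b).mpr hb)
        (fun b hb => (hS.mem_iff b).mp hb) hS.red_eq (K₁ ⊔ K₂ ⊔ K₃) (fun K => (tK K)⁻¹)
        (fun K => by rw [map_inv₀, htK K, hs]) ϖ (fun K => (hboth K).2) hk hL4 P hP⟩

include hM hℓ hIG hgen hA in
/-- **`Red1Iface4.ModelAt1` from the explicit two-chart models over the number fields.** -/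
theorem modelAt1_of_modelAtK1 (hmodel : ModelAtK1 A n e M L) :
    Red1Iface4.ModelAt1 A n e M L hmem :=
  Fermat.Agent.M48.ModelInst5.modelAt1_of_levels n e M L hM ℓ hℓ hIG hmem hgen A hA
    (hasLevels_of_modelAtK1 n e M L hM ℓ hℓ hIG hmem hgen A hA _
      (Fermat.Agent.M48.ModelInst5.coeffChart0 n e M L hM ℓ hℓ hIG hmem hgen A hA)
      (Or.inl rfl) hmodel)
    (hasLevels_of_modelAtK1 n e M L hM ℓ hℓ hIG hmem hgen A hA _
      (Fermat.Agent.M48.ModelInst5.coeffChart1 n e M L hM ℓ hℓ hIG hmem hgen A hA)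
      (Or.inr rfl) hmodel)

end Generic

/-! ### The two hypotheses of `S48Final0.s48_of_cuspFam`, unconditional -/

local notation "Qb" => AlgebraicClosure ℚ

/-- **`ModelAt1` at `(4, 8)`, `4 ∣ M`** — the hypothesis `hmodel4` of `S48Final0.s48_of_cuspFam`. -/
theorem hmodel_four : ∀ (M : ℕ) [NeZero M], 2 ≤ M → 4 ∣ M → ∀ (h : Red1Iface4.TMem1 4 8 M 1) (ℓ : ℕ),
    ℓ.Prime → ¬ ℓ ∣ M → ∀ A : ValuationSubring Qb, A.LiesOverPrime ℓ →
      Red1Iface4.ModelAt1 A 4 8 M 1 h := by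
  intro M _ hM h4 h ℓ hℓ hℓM A hA
  haveI : Fact ℓ.Prime := ⟨hℓ⟩
  have hℓM1 : ¬ ℓ ∣ M * 1 := by rwa [Nat.mul_one]
  exact modelAt1_of_modelAtK1 4 8 M 1 hM ℓ hℓM1 (Fermat.Agent.M48.IG1Main9.ig1 M hM) h
    (tGenBase' baseHyp_four) A hA
    (Fermat.Agent.M48.ModelAtFam1.modelAtK1_four_of_cuspFam
      Fermat.Agent.M48.CuspFamMain4.cuspFamStmt M h4 ℓ hℓ hℓM A hA)

/-- **`ModelAt1` at `(9, 3)`, `9 ∣ M`** — the hypothesis `hmodel9` of `S48Final0.s48_of_cuspFam`. -/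
theorem hmodel_nine : ∀ (M : ℕ) [NeZero M], 2 ≤ M → 9 ∣ M → ∀ (h : Red1Iface4.TMem1 9 3 M 1) (ℓ : ℕ),
    ℓ.Prime → ¬ ℓ ∣ M → ∀ A : ValuationSubring Qb, A.LiesOverPrime ℓ →
      Red1Iface4.ModelAt1 A 9 3 M 1 h := by
  intro M _ hM h9 h ℓ hℓ hℓM A hA
  haveI : Fact ℓ.Prime := ⟨hℓ⟩
  have hℓM1 : ¬ ℓ ∣ M * 1 := by rwa [Nat.mul_one]
  exact modelAt1_of_modelAtK1 9 3 M 1 hM ℓ hℓM1 (Fermat.Agent.M48.IG1Main9.ig1 M hM) h
    (tGenBase' baseHyp_nine) A hA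
    (Fermat.Agent.M48.ModelAtFam1.modelAtK1_nine_of_cuspFam
      Fermat.Agent.M48.CuspFamMain4.cuspFamStmt M h9 ℓ hℓ hℓM A hA)

end Fermat.Agent.M48.ModelTop4
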