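/-
M48 (helper1), block (H): **level raising and products** for forms on `Γ₁`.

* `Gamma1_le_of_dvd`, `Gamma0_le_of_dvd` (`N ∣ M`);
* `raiseC h : CuspForm (Gamma1 N) k →ₗ[ℂ] CuspForm (Gamma1 M) k`, `raiseM h` (`h : N ∣ M`; same function), with
  `diamondC_raiseC`, `T1_raiseC` (`p ∤ M`), `U1_raiseC` (`p ∣ N`);
* `mulForm hℓ hN E f : CuspForm (Gamma1 M) (k₁ + k₂)` for `E : ModularForm (Gamma1 ℓ) k₁`,
  `f : CuspForm (Gamma1 N) k₂`, `ℓ ∣ M`, `N ∣ M`; `coe_mulForm : ⇑(mulForm hℓ hN E f) = ⇑E * ⇑f`,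
  `qCoeff_mulForm` (Cauchy product), bilinearity, and the nebentypus
  `diamondC_mulForm : ⟨d⟩ (E f) = (⟨d mod ℓ⟩ E) (⟨d mod N⟩ f)`.

Imported by no statement.
-/
import Mathlib
import Fermat.Agent.M48.HeckeOne1

set_option autoImplicit false
set_option linter.unusedSectionVars false

open CongruenceSubgroup Matrix.SpecialLinearGroup UpperHalfPlane ModularForm ModularFormClass
open scoped MatrixGroups ModularForm Manifold

noncomputable section

namespace Fermat.Agent.M48.MulForm1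

open Fermat.Agent.M48.Diamond1 Fermat.Agent.M48.HeckeInv1 Fermat.Agent.M48.NiceQ1
  Fermat.Agent.M48.HeckeOne1

/-! ### inclusions of congruence subgroups -/

theorem intCast_eq_of_dvd {N M : ℕ} (h : N ∣ M) {a b : ℤ} (hab : (a : ZMod M) = (b : ZMod M)) :
    (a : ZMod N) = (b : ZMod N) := by
  rw [ZMod.intCast_eq_intCast_iff_dvd_sub] at hab ⊢
  exact (Int.natCast_dvd_natCast.2 h).trans hab

theorem Gamma1_le_of_dvd {N M : ℕ} (h : N ∣ M) : Gamma1 M ≤ Gamma1 N := by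
  intro g hg
  rw [Gamma1_mem] at hg ⊢
  obtain ⟨h1, h2, h3⟩ := hg
  refine ⟨?_, ?_, ?_⟩
  · have := intCast_eq_of_dvd h (a := g 0 0) (b := 1) (by simpa using h1)
    simpa using this
  · have := intCast_eq_of_dvd h (a := g 1 1) (b := 1) (by simpa using h2)
    simpa using this
  · have := intCast_eq_of_dvd h (a := g 1 0) (b := 0) (by simpa using h3)
    simpa using this

theorem Gamma0_le_of_dvd {N M : ℕ} (h : N ∣ M) : Gamma0 M ≤ Gamma0 N := by
  intro g hg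
  rw [Gamma0_mem] at hg ⊢
  have := intCast_eq_of_dvd h (a := g 1 0) (b := 0) (by simpa using hg)
  simpa using this

theorem map_Gamma1_le_of_dvd {N M : ℕ} (h : N ∣ M) :
    (Gamma1 M : Subgroup (GL (Fin 2) ℝ)) ≤ (Gamma1 N : Subgroup (GL (Fin 2) ℝ)) :=
  Subgroup.map_mono (Gamma1_le_of_dvd h)

/-- compatibility of `unitOf` with the reduction `(ℤ/M)ˣ → (ℤ/N)ˣ`. -/
theorem unitOf_of_dvd {N M : ℕ} (h : N ∣ M) (σ : Gamma0 M) :
    unitOf (⟨(σ : SL(2, ℤ)), Gamma0_le_of_dvd h σ.2⟩ : Gamma0 N) = ZMod.unitsMap h (unitOf σ) := by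
  ext
  rw [coe_unitOf, ZMod.unitsMap_def, Units.coe_map, coe_unitOf]
  show (((σ : SL(2, ℤ)) 1 1 : ℤ) : ZMod N) = ZMod.castHom h (ZMod N) ((((σ : SL(2, ℤ)) 1 1 : ℤ) : ZMod M))
  rw [map_intCast]

/-! ### level raising -/

section raise

variable {N M : ℕ} [NeZero N] [NeZero M] {k : ℤ}

/-- **level raising** `S_k(Γ₁(N)) → S_k(Γ₁(M))`, `N ∣ M` (the same function). -/
def raiseC (h : N ∣ M) : CuspForm (Gamma1 N) k →ₗ[ℂ] CuspForm (Gamma1 M) k where
  toFun f :=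
    { toFun := ⇑f
      slash_action_eq' := fun γ hγ =>
        SlashInvariantFormClass.slash_action_eq f γ (map_Gamma1_le_of_dvd h hγ)
      holo' := CuspFormClass.holo f
      zero_at_cusps' := fun hc =>
        CuspFormClass.zero_at_cusps f (hc.mono (map_Gamma1_le_of_dvd h)) }
  map_add' _ _ := rfl
  map_smul' _ _ := rfl

@[simp] theorem coe_raiseC (h : N ∣ M) (f : CuspForm (Gamma1 N) k) : ⇑(raiseC h f) = ⇑f := rfl

theorem raiseC_injective (h : N ∣ M) : Function.Injective (raiseC (k := k) h) := fun f g hfg =>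
  DFunLike.coe_injective (by rw [← coe_raiseC h f, hfg, coe_raiseC])

/-- **level raising** `M_k(Γ₁(N)) → M_k(Γ₁(M))`, `N ∣ M` (the same function). -/
def raiseM (h : N ∣ M) : ModularForm (Gamma1 N) k →ₗ[ℂ] ModularForm (Gamma1 M) k where
  toFun f :=
    { toFun := ⇑f
      slash_action_eq' := fun γ hγ =>
        SlashInvariantFormClass.slash_action_eq f γ (map_Gamma1_le_of_dvd h hγ)
      holo' := ModularFormClass.holo f
      bdd_at_cusps' := fun hc =>
        ModularFormClass.bdd_at_cusps f (hc.mono (map_Gamma1_le_of_dvd h)) }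
  map_add' _ _ := rfl
  map_smul' _ _ := rfl

@[simp] theorem coe_raiseM (h : N ∣ M) (f : ModularForm (Gamma1 N) k) : ⇑(raiseM h f) = ⇑f := rfl

theorem raiseM_injective (h : N ∣ M) : Function.Injective (raiseM (k := k) h) := fun f g hfg =>
  DFunLike.coe_injective (by rw [← coe_raiseM h f, hfg, coe_raiseM])

/-- the diamond operators are compatible with level raising. -/
theorem diamondC_raiseC (h : N ∣ M) (d : (ZMod M)ˣ) (f : CuspForm (Gamma1 N) k) :
    diamondC d (raiseC h f) = raiseC h (diamondC (ZMod.unitsMap h d) f) :=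
  DFunLike.coe_injective <| by
    rw [coe_diamondC_sigma, coe_raiseC, coe_raiseC,
      coe_diamondC (ZMod.unitsMap h d) f ⟨_, Gamma0_le_of_dvd h (sigma d).2⟩
        (by rw [unitOf_of_dvd, unitOf_sigma])]

theorem diamondM_raiseM (h : N ∣ M) (d : (ZMod M)ˣ) (f : ModularForm (Gamma1 N) k) :
    diamondM d (raiseM h f) = raiseM h (diamondM (ZMod.unitsMap h d) f) :=
  DFunLike.coe_injective <| by
    rw [coe_diamondM d _ (sigma d) (unitOf_sigma d), coe_raiseM, coe_raiseM,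
      coe_diamondM (ZMod.unitsMap h d) f ⟨_, Gamma0_le_of_dvd h (sigma d).2⟩
        (by rw [unitOf_of_dvd, unitOf_sigma])]

theorem unitsMap_unitOfPrime (h : N ∣ M) {p : ℕ} (hp : p.Prime) (hpM : ¬ p ∣ M) :
    ZMod.unitsMap h (unitOfPrime hp hpM) =
      unitOfPrime hp (fun hpN => hpM (hpN.trans h)) := by
  ext
  rw [ZMod.unitsMap_def, Units.coe_map, coe_unitOfPrime, coe_unitOfPrime]
  show ZMod.castHom h (ZMod N) ((p : ZMod M)) = (p : ZMod N)
  rw [map_natCast]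

/-- `T_p` (`p ∤ M`) is compatible with level raising. -/
theorem T1_raiseC (h : N ∣ M) {p : ℕ} (hp : p.Prime) (hpM : ¬ p ∣ M) (f : CuspForm (Gamma1 N) k) :
    T1 k hp hpM (raiseC h f) = raiseC h (T1 k hp (fun hpN => hpM (hpN.trans h)) f) :=
  DFunLike.coe_injective <| by
    simp only [coe_T1, coe_raiseC, diamondC_raiseC, unitsMap_unitOfPrime]

/-- `U_p` (`p ∣ N`) is compatible with level raising. -/
theorem U1_raiseC (h : N ∣ M) {p : ℕ} (hp : p.Prime) (hpN : p ∣ N) (f : CuspForm (Gamma1 N) k) :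
    U1 k hp (hpN.trans h) (raiseC h f) = raiseC h (U1 k hp hpN f) :=
  DFunLike.coe_injective <| by
    rw [coe_U1, coe_raiseC, coe_raiseC, coe_U1]

end raise

/-! ### products -/

section mul

variable {ℓ N M : ℕ} [NeZero ℓ] [NeZero N] [NeZero M] {k₁ k₂ : ℤ}

/-- **the product** `M_{k₁}(Γ₁(ℓ)) × S_{k₂}(Γ₁(N)) → S_{k₁+k₂}(Γ₁(M))`, `ℓ ∣ M`, `N ∣ M`. -/
def mulForm (hℓ : ℓ ∣ M) (hN : N ∣ M) (E : ModularForm (Gamma1 ℓ) k₁) (f : CuspForm (Gamma1 N) k₂) :
    CuspForm (Gamma1 M) (k₁ + k₂) :=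
  CuspForm.mcast (add_comm k₂ k₁) ((raiseC hN f).mulModularForm (raiseM hℓ E))

theorem coe_mulForm (hℓ : ℓ ∣ M) (hN : N ∣ M) (E : ModularForm (Gamma1 ℓ) k₁)
    (f : CuspForm (Gamma1 N) k₂) : ⇑(mulForm hℓ hN E f) = ⇑E * ⇑f := by
  show ⇑((raiseC hN f).mulModularForm (raiseM hℓ E)) = ⇑E * ⇑f
  rw [CuspForm.coe_mulModularForm, coe_raiseC, coe_raiseM, mul_comm]

theorem mulForm_apply (hℓ : ℓ ∣ M) (hN : N ∣ M) (E : ModularForm (Gamma1 ℓ) k₁)
    (f : CuspForm (Gamma1 N) k₂) (τ : ℍ) : mulForm hℓ hN E f τ = E τ * f τ := by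
  rw [coe_mulForm]
  rfl

/-- **the `q`-expansion of the product is the Cauchy product.** -/
theorem qCoeff_mulForm (hℓ : ℓ ∣ M) (hN : N ∣ M) (E : ModularForm (Gamma1 ℓ) k₁)
    (f : CuspForm (Gamma1 N) k₂) (n : ℕ) :
    qCoeff ⇑(mulForm hℓ hN E f) n =
      ∑ x ∈ Finset.HasAntidiagonal.antidiagonal n, qCoeff ⇑E x.1 * qCoeff ⇑f x.2 := by
  rw [coe_mulForm]
  exact qCoeff_mul (Nice.of_modularFormClass E) (Nice.of_modularFormClass f) n

theorem mulForm_add_left (hℓ : ℓ ∣ M) (hN : N ∣ M) (E E' : ModularForm (Gamma1 ℓ) k₁)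
    (f : CuspForm (Gamma1 N) k₂) :
    mulForm hℓ hN (E + E') f = mulForm hℓ hN E f + mulForm hℓ hN E' f :=
  DFunLike.coe_injective <| by
    rw [FunLike.coe_add, coe_mulForm, coe_mulForm, coe_mulForm, FunLike.coe_add, add_mul]

theorem mulForm_add_right (hℓ : ℓ ∣ M) (hN : N ∣ M) (E : ModularForm (Gamma1 ℓ) k₁)
    (f f' : CuspForm (Gamma1 N) k₂) :
    mulForm hℓ hN E (f + f') = mulForm hℓ hN E f + mulForm hℓ hN E f' :=
  DFunLike.coe_injective <| by
    rw [FunLike.coe_add, coe_mulForm, coe_mulForm, coe_mulForm, FunLike.coe_add, mul_add]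

theorem mulForm_smul_left (hℓ : ℓ ∣ M) (hN : N ∣ M) (c : ℂ) (E : ModularForm (Gamma1 ℓ) k₁)
    (f : CuspForm (Gamma1 N) k₂) : mulForm hℓ hN (c • E) f = c • mulForm hℓ hN E f :=
  DFunLike.coe_injective <| by
    rw [FunLike.coe_smul, coe_mulForm, coe_mulForm, FunLike.coe_smul, smul_mul_assoc]

theorem mulForm_smul_right (hℓ : ℓ ∣ M) (hN : N ∣ M) (c : ℂ) (E : ModularForm (Gamma1 ℓ) k₁)
    (f : CuspForm (Gamma1 N) k₂) : mulForm hℓ hN E (c • f) = c • mulForm hℓ hN E f :=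
  DFunLike.coe_injective <| by
    rw [FunLike.coe_smul, coe_mulForm, coe_mulForm, FunLike.coe_smul, mul_smul_comm]

/-- **the nebentypus of a product**: `⟨d⟩ (E f) = (⟨d mod ℓ⟩ E) (⟨d mod N⟩ f)`. -/
theorem diamondC_mulForm (hℓ : ℓ ∣ M) (hN : N ∣ M) (d : (ZMod M)ˣ)
    (E : ModularForm (Gamma1 ℓ) k₁) (f : CuspForm (Gamma1 N) k₂) :
    diamondC d (mulForm hℓ hN E f) =
      mulForm hℓ hN (diamondM (ZMod.unitsMap hℓ d) E) (diamondC (ZMod.unitsMap hN d) f) :=
  DFunLike.coe_injective <| by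
    rw [coe_diamondC_sigma, coe_mulForm, coe_mulForm, ModularForm.mul_slash_SL2,
      coe_diamondM (ZMod.unitsMap hℓ d) E ⟨_, Gamma0_le_of_dvd hℓ (sigma d).2⟩
        (by rw [unitOf_of_dvd, unitOf_sigma]),
      coe_diamondC (ZMod.unitsMap hN d) f ⟨_, Gamma0_le_of_dvd hN (sigma d).2⟩
        (by rw [unitOf_of_dvd, unitOf_sigma])]

/-- if `E` has nebentypus `ψ` and `f` has nebentypus `ε` (as scalars at `d`), the product has
nebentypus `ψ ε`. -/
theorem diamondC_mulForm_of_eq (hℓ : ℓ ∣ M) (hN : N ∣ M) (d : (ZMod M)ˣ)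
    (E : ModularForm (Gamma1 ℓ) k₁) (f : CuspForm (Gamma1 N) k₂) {a b : ℂ}
    (hE : diamondM (ZMod.unitsMap hℓ d) E = a • E) (hf : diamondC (ZMod.unitsMap hN d) f = b • f) :
    diamondC d (mulForm hℓ hN E f) = (a * b) • mulForm hℓ hN E f := by
  rw [diamondC_mulForm, hE, hf, mulForm_smul_left, mulForm_smul_right, smul_smul]

end mul

/-! ### products of two cusp forms -/

section mulCC

variable {N : ℕ} [NeZero N] {k k₁ k₂ : ℤ}

theorem coe_toModularFormₗ (f : CuspForm (Gamma1 N) k) :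
    ⇑(CuspForm.toModularFormₗ f) = ⇑f := rfl

/-- the diamond operators commute with the inclusion of cusp forms into modular forms. -/
theorem diamondM_toModularFormₗ (d : (ZMod N)ˣ) (f : CuspForm (Gamma1 N) k) :
    diamondM d (CuspForm.toModularFormₗ f) = CuspForm.toModularFormₗ (diamondC d f) :=
  DFunLike.coe_injective <| by
    rw [coe_diamondM d _ (sigma d) (unitOf_sigma d), coe_toModularFormₗ, coe_toModularFormₗ,
      coe_diamondC_sigma]

/-- **the product of two cusp forms** on `Γ₁(N)`. -/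
def mulCC (f : CuspForm (Gamma1 N) k₁) (g : CuspForm (Gamma1 N) k₂) :
    CuspForm (Gamma1 N) (k₁ + k₂) :=
  mulForm dvd_rfl dvd_rfl (CuspForm.toModularFormₗ f) g

theorem coe_mulCC (f : CuspForm (Gamma1 N) k₁) (g : CuspForm (Gamma1 N) k₂) :
    ⇑(mulCC f g) = ⇑f * ⇑g := by
  rw [mulCC, coe_mulForm, coe_toModularFormₗ]

theorem qCoeff_mulCC (f : CuspForm (Gamma1 N) k₁) (g : CuspForm (Gamma1 N) k₂) (n : ℕ) :
    qCoeff ⇑(mulCC f g) n =
      ∑ x ∈ Finset.HasAntidiagonal.antidiagonal n, qCoeff ⇑f x.1 * qCoeff ⇑g x.2 := by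
  rw [mulCC, qCoeff_mulForm, coe_toModularFormₗ]

theorem diamondC_mulCC (d : (ZMod N)ˣ) (f : CuspForm (Gamma1 N) k₁) (g : CuspForm (Gamma1 N) k₂) :
    diamondC d (mulCC f g) = mulCC (diamondC d f) (diamondC d g) := by
  have h1 : ZMod.unitsMap (dvd_refl N) d = d := by
    ext
    rw [ZMod.unitsMap_def, Units.coe_map]
    show ZMod.castHom (dvd_refl N) (ZMod N) (d : ZMod N) = (d : ZMod N)
    rw [ZMod.castHom_self, RingHom.id_apply]
  rw [mulCC, diamondC_mulForm, h1, diamondM_toModularFormₗ, mulCC]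

end mulCC

end Fermat.Agent.M48.MulForm1
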