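/-
M48 (helper1), leaf (W1-NEB): **the Hecke relations force the nebentypus.**

For a cusp form `f` of weight `k` on `Γ₁(N)` and a prime `p ∤ N`: if
`a_{pn} + c p^(k-1) [p ∣ n] a_{n/p} = a_p a_n` for all `n`, then `⟨p⟩ f = c f`.
(`g := T_p f - a_p f` has `a_n(g) = [p ∣ n] p^(k-1) a_{n/p}(h)` with `h := ⟨p⟩ f - c f`, i.e. `g = h ∣ diag(p,1)`;
the key lemma `eq_zero_of_inv1_diag`: if `h` and `h ∣ diag(p,1)` are both on `Γ₁(N)`, `p ∤ N`, then `h = 0`.)

With Dirichlet's theorem on primes in arithmetic progressions this gives, for the `f` of S48 (weight one, `a₁ = 1`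
is not even needed): `∀ d, diamondC d f = ε d • f`, and `⇑f ∣[1] γ = ε (γ 1 1) • ⇑f` for every `γ ∈ Γ₀(N)`.

Imported by no statement.
-/
import Mathlib
import Fermat.Agent.M48.HeckeOne1

set_option autoImplicit false
set_option linter.unusedSectionVars false

open CongruenceSubgroup Matrix.SpecialLinearGroup UpperHalfPlane ModularForm ModularFormClass
open scoped MatrixGroups ModularForm Manifold

noncomputable section

namespace Fermat.Agent.M48.NebenOfHecke1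

open Fermat.Agent.M48.Diamond1 Fermat.Agent.M48.HeckeInv1 Fermat.Agent.M48.NiceQ1
  Fermat.Agent.M48.HeckeOne1

/-! ### matrices with prescribed bottom row -/

theorem exists_SL2_bottom_row {c D : ℤ} (h : IsCoprime D c) :
    ∃ g : SL(2, ℤ), g 1 0 = c ∧ g 1 1 = D := by
  obtain ⟨u, v, huv⟩ := h
  exact ⟨⟨!![u, -v; c, D], by rw [Matrix.det_fin_two_of]; linarith⟩, rfl, rfl⟩

theorem exists_nat_crt {N p : ℕ} (h : Nat.Coprime N p) (a b : ℕ) :
    ∃ D : ℕ, (D : ZMod N) = a ∧ (D : ZMod p) = b := by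
  obtain ⟨D, h1, h2⟩ := Nat.chineseRemainder h a b
  exact ⟨D, (ZMod.natCast_eq_natCast_iff _ _ _).2 h1, (ZMod.natCast_eq_natCast_iff _ _ _).2 h2⟩

variable {N : ℕ} [NeZero N] {k : ℤ} {p : ℕ}

/-- a representative in `Γ₀(N) ∩ Γ₀(p)` of a class `d ∈ (ℤ/N)ˣ`, `p ∤ N`. -/
theorem exists_Gamma0_dvd (hp : p.Prime) (hpN : ¬ p ∣ N) (d : (ZMod N)ˣ) :
    ∃ g : SL(2, ℤ), g ∈ Gamma0 N ∧ (p : ℤ) ∣ g 1 0 ∧ ((g 1 1 : ℤ) : ZMod N) = (d : ZMod N) := by
  have hco : Nat.Coprime N p := ((Nat.Prime.coprime_iff_not_dvd hp).2 hpN).symm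
  obtain ⟨D, hD1, hD2⟩ := exists_nat_crt hco (d : ZMod N).val 1
  have hD1' : (D : ZMod N) = (d : ZMod N) := by rw [hD1, ZMod.natCast_zmod_val]
  have hDN : Nat.Coprime D N := by
    rw [← ZMod.isUnit_iff_coprime, hD1']
    exact d.isUnit
  have hDp : Nat.Coprime D p := by
    rw [← ZMod.isUnit_iff_coprime, hD2]
    simp
  have hcop : IsCoprime (D : ℤ) ((N : ℤ) * (p : ℤ)) :=
    IsCoprime.mul_right (Nat.isCoprime_iff_coprime.2 hDN) (Nat.isCoprime_iff_coprime.2 hDp)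
  obtain ⟨g, h10, h11⟩ := exists_SL2_bottom_row hcop
  refine ⟨g, ?_, ?_, ?_⟩
  · rw [Gamma0_mem, h10]
    push_cast
    simp
  · rw [h10]
    exact Dvd.intro_left _ rfl
  · rw [h11]
    exact_mod_cast hD1'

/-- an element of `Γ₁(N)` whose lower-right entry is divisible by `p`, `p ∤ N`. -/
theorem exists_Gamma1_dvd (hp : p.Prime) (hpN : ¬ p ∣ N) :
    ∃ g : SL(2, ℤ), g ∈ Gamma1 N ∧ (p : ℤ) ∣ g 1 1 := by
  have hco : Nat.Coprime N p := ((Nat.Prime.coprime_iff_not_dvd hp).2 hpN).symm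
  obtain ⟨D, hD1, hD2⟩ := exists_nat_crt hco 1 0
  have hD1' : (D : ZMod N) = 1 := by simpa using hD1
  have hDN : Nat.Coprime D N := by
    rw [← ZMod.isUnit_iff_coprime, hD1']
    exact isUnit_one
  obtain ⟨g, h10, h11⟩ := exists_SL2_bottom_row (Nat.isCoprime_iff_coprime.2 hDN)
  have h11' : ((g 1 1 : ℤ) : ZMod N) = 1 := by
    rw [h11]
    exact_mod_cast hD1'
  have h10' : ((g 1 0 : ℤ) : ZMod N) = 0 := by
    rw [h10]
    simp
  refine ⟨g, mem_Gamma1_of_entries ?_ h11' h10', ?_⟩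
  · have hdet := congrArg (Int.cast : ℤ → ZMod N) (det_eq g)
    push_cast at hdet
    rw [h11', h10', mul_one, mul_zero, sub_zero] at hdet
    exact hdet
  · rw [h11]
    have : (p : ℤ) ∣ (D : ℤ) := by
      have h0 : (D : ZMod p) = 0 := by simpa using hD2
      exact Int.natCast_dvd_natCast.2 ((ZMod.natCast_eq_zero_iff _ _).1 h0)
    exact this

/-! ### the key lemma -/

/-- (K1) the condition "`h ∣ diag(p,1)` is `Γ₁(N)`-invariant" is stable under the diamond operators. -/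
theorem inv1_diag_diamondC (hp : p.Prime) (hpN : ¬ p ∣ N) (h : CuspForm (Gamma1 N) k)
    (hV : Inv1 N k (⇑h ∣[k] heckeDiagMatrix p)) (d : (ZMod N)ˣ) :
    Inv1 N k (⇑(diamondC d h) ∣[k] heckeDiagMatrix p) := by
  obtain ⟨g, hg0, ⟨e, he⟩, hgd⟩ := exists_Gamma0_dvd hp hpN d
  obtain ⟨g', -, h10, h11, hmul⟩ := heckeDiagMatrix_mul_of_eq' hp.ne_zero g e he
  have hg'0 : g' ∈ Gamma0 N := by
    rw [Gamma0_mem, h10]
    have hN : (N : ℤ) ∣ g 1 0 := (ZMod.intCast_zmod_eq_zero_iff_dvd _ _).1 (Gamma0_mem.1 hg0)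
    rw [he] at hN
    have hco : IsCoprime (N : ℤ) (p : ℤ) :=
      Nat.isCoprime_iff_coprime.2 ((Nat.Prime.coprime_iff_not_dvd hp).2 hpN).symm
    exact (ZMod.intCast_zmod_eq_zero_iff_dvd _ _).2 (hco.dvd_of_dvd_mul_left hN)
  have h1 : ⇑(diamondC d h) = ⇑h ∣[k] g' := coe_diamondC_of_mem d h hg'0 (by rw [h11, hgd])
  have h2 : (⇑h ∣[k] g') ∣[k] heckeDiagMatrix p = (⇑h ∣[k] heckeDiagMatrix p) ∣[k] g := by
    show (⇑h ∣[k] mapGL ℝ g') ∣[k] heckeDiagMatrix p = (⇑h ∣[k] heckeDiagMatrix p) ∣[k] mapGL ℝ g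
    rw [← SlashAction.slash_mul, ← SlashAction.slash_mul, hmul]
  rw [h1, h2]
  exact hV.slash ⟨g, hg0⟩

/-- (K2), function level: `⟨p⟩⁻¹ h = p^(2-k) (h ∣ diag(p,1)) ∣ diag(p,1)`, i.e. `(⟨p⟩⁻¹ h)(τ) = p^k h(p² τ)`. -/
theorem coe_diamondC_inv_of_inv1_diag (hp : p.Prime) (hpN : ¬ p ∣ N) (h : CuspForm (Gamma1 N) k)
    (hV : Inv1 N k (⇑h ∣[k] heckeDiagMatrix p)) :
    ⇑(diamondC (unitOfPrime hp hpN)⁻¹ h) =
      ((p : ℂ) ^ (2 - k)) • ((⇑h ∣[k] heckeDiagMatrix p) ∣[k] heckeDiagMatrix p) := by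
  have hp0 : p ≠ 0 := hp.ne_zero
  have hpC : (p : ℂ) ≠ 0 := by exact_mod_cast hp0
  obtain ⟨γ, hγ, e, he⟩ := exists_Gamma1_dvd (N := N) hp hpN
  obtain ⟨g', h10, h11, hmul⟩ := heckeDiagMatrix_mul_of_eq hp0 γ 0 e (by rw [he]; push_cast; ring)
  obtain ⟨-, hγ11, hγ10⟩ := entries_of_mem_Gamma1 hγ
  have hg'0 : g' ∈ Gamma0 N := by rw [Gamma0_mem, h10, hγ10]
  have hcls : ((g' 1 1 : ℤ) : ZMod N) = (((unitOfPrime hp hpN)⁻¹ : (ZMod N)ˣ) : ZMod N) := by
    symm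
    apply Units.inv_eq_of_mul_eq_one_right
    rw [coe_unitOfPrime, h11]
    have := hγ11
    rw [he] at this
    exact_mod_cast this
  have h1 : ⇑(diamondC (unitOfPrime hp hpN)⁻¹ h) = ⇑h ∣[k] g' :=
    coe_diamondC_of_mem _ h hg'0 hcls
  -- `h ∣ δ = (⟨p⟩⁻¹ h) ∣ β₀`
  have h2 : ⇑h ∣[k] heckeDiagMatrix p = ⇑(diamondC (unitOfPrime hp hpN)⁻¹ h) ∣[k] heckeMatrix p 0 := by
    rw [h1]
    conv_lhs => rw [← hV γ hγ]
    show (⇑h ∣[k] heckeDiagMatrix p) ∣[k] mapGL ℝ γ = (⇑h ∣[k] mapGL ℝ g') ∣[k] heckeMatrix p 0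
    rw [← SlashAction.slash_mul, ← SlashAction.slash_mul, hmul]
  funext τ
  have hτ : heckeMatrix p 0 • (heckeDiagMatrix p • τ) = τ := by
    apply UpperHalfPlane.ext
    rw [coe_heckeMatrix_smul hp0, coe_heckeDiagMatrix_smul hp0]
    push_cast
    field_simp
    ring
  rw [Pi.smul_apply, slash_heckeDiagMatrix_apply k hp0, h2, slash_heckeMatrix_apply k hp0, hτ,
    smul_eq_mul]
  have e1 : (p : ℂ) ^ (2 - k) * ((p : ℂ) ^ (k - 1) * ((p : ℂ)⁻¹ *
      (diamondC (unitOfPrime hp hpN)⁻¹ h) τ)) =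
      ((p : ℂ) ^ (2 - k) * (p : ℂ) ^ (k - 1) * (p : ℂ) ^ (-1 : ℤ)) *
        (diamondC (unitOfPrime hp hpN)⁻¹ h) τ := by
    rw [zpow_neg_one]
    ring
  rw [e1, ← zpow_add₀ hpC, ← zpow_add₀ hpC, show 2 - k + (k - 1) + -1 = 0 by ring, zpow_zero, one_mul]

/-- (K2), coefficients. -/
theorem qCoeff_diamondC_inv_of_inv1_diag (hp : p.Prime) (hpN : ¬ p ∣ N) (h : CuspForm (Gamma1 N) k)
    (hV : Inv1 N k (⇑h ∣[k] heckeDiagMatrix p)) (n : ℕ) :
    qCoeff ⇑(diamondC (unitOfPrime hp hpN)⁻¹ h) n =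
      (p : ℂ) ^ (2 - k) * (if p ∣ n then (p : ℂ) ^ (k - 1) *
        (if p ∣ n / p then (p : ℂ) ^ (k - 1) * qCoeff ⇑h (n / p / p) else 0) else 0) := by
  rw [coe_diamondC_inv_of_inv1_diag hp hpN h hV,
    qCoeff_smul (((nice_cuspForm h).slash_diag k p).slash_diag k p),
    qCoeff_slash_diag ((nice_cuspForm h).slash_diag k p) k hp.ne_zero,
    qCoeff_slash_diag (nice_cuspForm h) k hp.ne_zero]

/-- (K3) all coefficients of all `⟨d⟩ h` vanish. -/
theorem qCoeff_diamondC_eq_zero_of_inv1_diag (hp : p.Prime) (hpN : ¬ p ∣ N)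
    (h : CuspForm (Gamma1 N) k) (hV : Inv1 N k (⇑h ∣[k] heckeDiagMatrix p)) (n : ℕ) :
    ∀ d : (ZMod N)ˣ, qCoeff ⇑(diamondC d h) n = 0 := by
  induction n using Nat.strong_induction_on with
  | _ n ih =>
    intro d
    rcases Nat.eq_zero_or_pos n with rfl | hn
    · exact qCoeffC_zero_index _
    have hd : diamondC d h = diamondC (unitOfPrime hp hpN)⁻¹ (diamondC (unitOfPrime hp hpN * d) h) := by
      rw [← diamondC_mul]
      congr 1
      rw [mul_comm (unitOfPrime hp hpN) d, mul_assoc, mul_inv_cancel, mul_one]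
    rw [hd, qCoeff_diamondC_inv_of_inv1_diag hp hpN _ (inv1_diag_diamondC hp hpN h hV _)]
    split_ifs with h1 h2
    · have hlt : n / p / p < n := by
        have h2p : 2 ≤ p := hp.two_le
        calc n / p / p ≤ n / p := Nat.div_le_self _ _
          _ < n := Nat.div_lt_self hn h2p
      rw [ih _ hlt]
      simp
    · simp
    · simp

/-- **the key lemma**: if `h ∈ S_k(Γ₁(N))`, `p ∤ N` and `h ∣ diag(p,1)` (`= p^(k-1) h(p τ)`) is again invariant
under `Γ₁(N)`, then `h = 0`. -/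
theorem eq_zero_of_inv1_diag (hp : p.Prime) (hpN : ¬ p ∣ N) (h : CuspForm (Gamma1 N) k)
    (hV : Inv1 N k (⇑h ∣[k] heckeDiagMatrix p)) : h = 0 := by
  apply ext_qCoeffC
  intro n
  have := qCoeff_diamondC_eq_zero_of_inv1_diag hp hpN h hV n 1
  rw [diamondC_one] at this
  rw [this, qCoeffC_zero_form]

/-! ### the nebentypus from the Hecke relation at `p` -/

/-- **if `a_{pn} + c p^(k-1) [p ∣ n] a_{n/p} = a_p a_n` for all `n`, then `⟨p⟩ f = c f`.** -/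
theorem diamondC_unitOfPrime_eq (hp : p.Prime) (hpN : ¬ p ∣ N) (f : CuspForm (Gamma1 N) k) (c : ℂ)
    (hT : ∀ n : ℕ, qCoeff ⇑f (p * n) +
        c * (p : ℂ) ^ (k - 1) * (if p ∣ n then qCoeff ⇑f (n / p) else 0) =
      qCoeff ⇑f p * qCoeff ⇑f n) :
    diamondC (unitOfPrime hp hpN) f = c • f := by
  set u := unitOfPrime hp hpN with hu
  set g : CuspForm (Gamma1 N) k := T1 k hp hpN f - qCoeff ⇑f p • f with hg
  set h : CuspForm (Gamma1 N) k := diamondC u f - c • f with hh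
  have hgh : ⇑g = ⇑h ∣[k] heckeDiagMatrix p := by
    apply (nice_cuspForm g).ext_qCoeff ((nice_cuspForm h).slash_diag k p)
    intro n
    rw [qCoeff_slash_diag (nice_cuspForm h) k hp.ne_zero, hg, hh, qCoeffC_sub, qCoeffC_smul,
      qCoeff_T1, mul_comm n p]
    have := hT n
    split_ifs with hpn
    · rw [if_pos hpn] at this
      rw [qCoeffC_sub, qCoeffC_smul]
      linear_combination this
    · rw [if_neg hpn] at this
      linear_combination this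
  have hV : Inv1 N k (⇑h ∣[k] heckeDiagMatrix p) := by
    rw [← hgh]
    exact inv1_of_class g
  have h0 := eq_zero_of_inv1_diag hp hpN h hV
  rw [hh, sub_eq_zero] at h0
  exact h0

/-! ### the statement for the form of S48 -/

section weightOne

variable (ε : DirichletCharacter ℂ N) (f : CuspForm (Gamma1 N) 1)
  (hT : ∀ p : ℕ, p.Prime → ¬ p ∣ N → ∀ n : ℕ,
    ModularFormClass.qCoeff f (p * n) +
        ε (p : ZMod N) * (if p ∣ n then ModularFormClass.qCoeff f (n / p) else 0) =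
      ModularFormClass.qCoeff f p * ModularFormClass.qCoeff f n)
include hT

/-- **(W1-NEB), diamond form**: the form of S48 has nebentypus `ε`. -/
theorem diamondC_eq_smul (d : (ZMod N)ˣ) : diamondC d f = ε (d : ZMod N) • f := by
  obtain ⟨p, -, hp, hpd⟩ := Nat.forall_exists_prime_gt_and_eq_mod d.isUnit 0
  have hpN : ¬ p ∣ N := by
    intro hdvd
    have hco : Nat.Coprime p N := by
      rw [← ZMod.isUnit_iff_coprime, hpd]
      exact d.isUnit
    have : p ∣ 1 := by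
      have := Nat.dvd_gcd (dvd_refl p) hdvd
      rwa [hco.gcd_eq_one] at this
    exact hp.one_lt.ne' (Nat.dvd_one.1 this)
  have hu : unitOfPrime hp hpN = d := Units.ext (by rw [coe_unitOfPrime, hpd])
  rw [← hu, coe_unitOfPrime]
  apply diamondC_unitOfPrime_eq hp hpN f
  intro n
  have := hT p hp hpN n
  rw [show (1 : ℤ) - 1 = 0 by norm_num, zpow_zero, mul_one]
  exact this

/-- **(W1-NEB), slash form**: `f ∣[1] γ = ε(γ₁₁) f` for every `γ ∈ Γ₀(N)`. -/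
theorem slash_eq_smul {γ : SL(2, ℤ)} (hγ : γ ∈ Gamma0 N) :
    ⇑f ∣[(1 : ℤ)] γ = ε (((γ 1 1 : ℤ) : ZMod N)) • ⇑f := by
  have h1 := diamondC_eq_smul ε f hT (unitOf ⟨γ, hγ⟩)
  have h2 := coe_diamondC (unitOf ⟨γ, hγ⟩) f ⟨γ, hγ⟩ rfl
  rw [h1] at h2
  rw [← h2]
  rfl

/-- **the form of S48 is an eigenvector of every `T_p`, `p ∤ N`, with eigenvalue `a_p`.** -/
theorem T1_eq_smul {p : ℕ} (hp : p.Prime) (hpN : ¬ p ∣ N) :
    T1 1 hp hpN f = ModularFormClass.qCoeff f p • f := by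
  apply ext_qCoeffC
  intro n
  rw [qCoeff_T1, qCoeffC_smul, ← hT p hp hpN n, diamondC_eq_smul ε f hT (unitOfPrime hp hpN),
    qCoeffC_smul, mul_comm n p, show (1 : ℤ) - 1 = 0 by norm_num, zpow_zero, one_mul,
    coe_unitOfPrime]
  split_ifs <;> simp

end weightOne

end Fermat.Agent.M48.NebenOfHecke1
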