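/-
M48 (lead), leaf (R2a), core: **weight two cusp forms ↔ regular differentials, and conjugation by
`Aut(ℂ)`**, generic in an analytic model `A : AnModel Γ N F₀` (helper4's [DICT]).

* `Reg A f` : the differential `f dj` of the function field `A.F / ℂ` is regular at every place;
* `reg_iff` : regularity in terms of the dictionary (`ptPlace`, `cuspPlace`);
* `low` : a regular differential `f dj` gives a holomorphic `P = Θ(f) · D j` on `ℍ` of weight two for
  `Γ` vanishing at all cusps (twin of `S20.Low` for an arbitrary analytic model, over `ℂ`);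
* `up` : conversely every such `P` is `Θ(f) · D j` with `f dj` regular (`AnRatioMem4.ratio_mem` +
  orders at the point and cusp places);
* `qExpansion_coeff_eq` : the `q`-coefficients of `P` are those of `f · θ_j`, `θ_j = q dj/dq ∈ ℤ((q))`;
* `conj` : for `σ ∈ Aut(ℂ)` the coefficientwise conjugate of (the `q`-expansion of) `P` is again the
  `q`-expansion of such a function (`S23.GaloisReg.regular_smul` with the Prelude's
  `arithmeticGalois F₀ σ`, which is generic in the coefficient field).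

No genus formula, no Riemann–Roch, no base change of Riemann–Roch spaces.
-/
import Mathlib
import Fermat.Agent.M48.AnDict4
import Fermat.Agent.M48.AnRatioMem4
import Fermat.Agent.M48.AnQExpMer3
import Fermat.Agent.S20.CuspZero
import Fermat.Agent.S20.JDeriv
import Fermat.Agent.S23.GaloisReg
import Fermat.Agent.M17.Dict4

set_option autoImplicit false
set_option linter.unusedSectionVars false
set_option linter.style.haveILetI false
set_option synthInstance.maxHeartbeats 400000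
set_option maxHeartbeats 1000000

open UpperHalfPlane ModularForm CongruenceSubgroup ModularCurve AlgebraicCurve
open scoped MatrixGroups Manifold

noncomputable section

namespace Fermat.Agent.M48.R2aCore0

open Fermat.Agent.X0 Fermat.Agent.X0.SurjPoint Fermat.Agent.ES.KUM
open Fermat.Agent.M48.DictIface4 Fermat.Agent.M48.AnReal4 Fermat.Agent.M48.AnDegree4
open Fermat.Agent.M48.AnPoint4 Fermat.Agent.M48.AnCuspExp4 Fermat.Agent.M48.AnCuspPlace4
open Fermat.Agent.M48.AnSurj4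
open Fermat.Agent.S20.JDeriv

variable {Γ : Subgroup SL(2, ℤ)} {N : ℕ} {F₀ : IntermediateField ℚ (LaurentSeries ℚ)}
  (A : AnModel Γ N F₀) [NeZero N]

/-- `f dj` is a regular differential of the function field `A.F / ℂ`. -/
def Reg (f : A.F) : Prop :=
  ∀ v : Place ℂ A.F, 0 ≤ v.ordDifferential (f • KaehlerDifferential.D ℂ A.F A.jF)

theorem genusHyp : FF.GenusHyp ℂ A.jF := FFGenus.genusHyp (isGen_jF A)

/-- regularity in terms of the dictionary. -/
theorem reg_iff {f : A.F} (hf : f ≠ 0) :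
    Reg A f ↔
      (∀ z : ℍ, 1 ≤ (ptPlace A 1 z).ord f +
        (ptPlace A 1 z).ord (A.jF - algebraMap ℂ A.F (jFun z))) ∧
      (∀ g : SL(2, ℤ), 1 ≤ (cuspPlace A g).ord f + (cuspPlace A g).ord A.jF) := by
  have H := genusHyp A
  constructor
  · intro h
    refine ⟨fun z => ?_, fun g => ?_⟩
    · have h1 := h (ptPlace A 1 z)
      rw [H.ordDifferential_smul' _ f hf _ H.D_ne_zero,
        H.ordDifferential_dx_of_zero (ord_jF_sub_pos A 1 z)] at h1
      omega
    · have h1 := h (cuspPlace A g)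
      rw [H.ordDifferential_smul' _ f hf _ H.D_ne_zero,
        H.ordDifferential_dx_of_pole (cuspPlace_ord_jF_neg A g)] at h1
      omega
  · rintro ⟨hpt, hcusp⟩ v
    rw [H.ordDifferential_smul' _ f hf _ H.D_ne_zero]
    rcases place_cases A v with ⟨z, rfl⟩ | ⟨g, rfl⟩
    · rw [H.ordDifferential_dx_of_zero (ord_jF_sub_pos A 1 z)]
      have := hpt z
      omega
    · rw [H.ordDifferential_dx_of_pole (cuspPlace_ord_jF_neg A g)]
      have := hcusp g
      omega

/-! ### The point side -/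

/-- `D j = (2πi)⁻¹ dj/dz` as an element of `HolH`. -/
def DJh : HolH := ⟨jD, jD_mem_HolH⟩

theorem coe_DJh : ((DJh : HolH) : ℍ → ℂ) = jD := rfl

theorem ordH_jD_toNat (z : ℍ) : ((ordH jD z).toNat : ℤ) + 1 = ellOrder z := by
  have h := ordH_jD_add_one z
  have hne : ordH jD z ≠ ⊤ := by
    intro h0
    rw [h0] at h
    simp at h
  obtain ⟨k, hk⟩ : ∃ k : ℕ, ordH jD z = k := ⟨_, (ENat.natCast_toNat hne).symm⟩
  rw [hk] at h ⊢
  have h' : k + 1 = ellOrder z := by exact_mod_cast h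
  rw [ENat.toNat_natCast]
  exact_mod_cast h'

theorem DJh_ne_zero : DJh ≠ 0 := by
  intro h0
  have h1 : jD = 0 := by
    have := congrArg (fun x : HolH => (x : ℍ → ℂ)) h0
    simpa [coe_DJh] using this
  have h := ordH_jD_add_one UpperHalfPlane.I
  have h2 : ordH jD UpperHalfPlane.I = ⊤ := by
    rw [h1]
    unfold ordH
    rw [analyticOrderAt_eq_top]
    exact Filter.Eventually.of_forall fun w => rfl
  rw [h2] at h
  simp at h

theorem iota_DJh_ne_zero : algebraMap HolH MerH DJh ≠ 0 :=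
  (map_ne_zero_iff _ (IsFractionRing.injective HolH MerH)).mpr DJh_ne_zero

theorem ordMer_DJh (z : ℍ) : ordMer z (algebraMap HolH MerH DJh) + 1 = ellOrder z := by
  rw [ordMer_algebraMap z DJh_ne_zero, coe_DJh]
  exact ordH_jD_toNat z

/-- the analytic order of `Θ(f) · D j` at `z` is nonnegative iff `f dj` is regular at the place
of `z`. -/
theorem ordMer_mul_DJh_nonneg_iff {f : A.F} (hf : f ≠ 0) (z : ℍ) :
    0 ≤ ordMer z (realMer A f * algebraMap HolH MerH DJh) ↔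
      1 ≤ (ptPlace A 1 z).ord f + (ptPlace A 1 z).ord (A.jF - algebraMap ℂ A.F (jFun z)) := by
  have hf' : realMer A f ≠ 0 := (map_ne_zero_iff _ (realMer A).injective).mpr hf
  rw [ordMer_mul z hf' iota_DJh_ne_zero, ordMer_realMer A z hf]
  have h1 := ordMer_DJh z
  have h2 := ptIdx_mul_ord_jF_sub A 1 z
  have he : (1 : ℤ) ≤ ptIdx A 1 z := by exact_mod_cast ptIdx_pos A 1 z
  set e : ℤ := ptIdx A 1 z
  set a : ℤ := (ptPlace A 1 z).ord f
  set b : ℤ := (ptPlace A 1 z).ord (A.jF - algebraMap ℂ A.F (jFun z))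
  set d : ℤ := ordMer z (algebraMap HolH MerH DJh)
  have hd : d = e * b - 1 := by rw [h2]; linarith
  rw [hd]
  constructor
  · intro h
    by_contra hcon
    have : a + b ≤ 0 := by omega
    nlinarith
  · intro h
    nlinarith

/-! ### The cusp side -/

open Fermat.Agent.X0.Analytic Fermat.Agent.X0.JQExp Fermat.Agent.S20.CuspZero

/-- the `q`-expansion `θ_j = q dj/dq` of `D j`, with integral coefficients. -/
def thetaJC : LaurentSeries ℂ := laurentOf 1 (jDNum.map (Int.castRingHom ℂ))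

theorem hasQExp_jD : HasQExp thetaJC jD := intg_hasQExp_of_isQExp isQExp_jD

theorem coeff_thetaJC_of_lt (n : ℤ) (hn : n < -1) : thetaJC.coeff n = 0 := by
  rw [thetaJC, lor_laurentOf_coeff, if_neg]
  push_cast
  omega

theorem coeff_thetaJC_neg_one : thetaJC.coeff (-1) = -1 := by
  rw [thetaJC, lor_laurentOf_coeff, if_pos (by norm_num)]
  have : ((-1 : ℤ) + ((1 : ℕ) : ℤ)).toNat = 0 := by norm_num
  rw [this, PowerSeries.coeff_map, coeff_zero_jDNum]
  simp

theorem thetaJC_ne_zero : thetaJC ≠ 0 := by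
  intro h
  have := coeff_thetaJC_neg_one
  rw [h] at this
  simp at this

variable (γ : SL(2, ℤ))

/-- the cusp expansions of the elements of `R` in `IntgQN` form. -/
theorem intgQN_compSL (u : A.R) :
    IntgQN N (compSL ((A.Θ u : HolH) : ℍ → ℂ) γ) (cuspEmb A γ (u : A.F)) := by
  obtain ⟨m, P, hP, hT⟩ := cuspEmb_spec A γ u
  rw [hT]
  exact intg_qn_of_isQExp N hP

/-- **LOW, cusp half**: if the expansion of `f = u / s` at the cusp `γ` has order `> N`, then the
weight two slash of `P = Θ(f) · D j` at `γ` vanishes at `i∞`. -/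
theorem isZeroAtImInfty_slash_of_coeff (u s : A.R) (hs : s ≠ 0) (P : ℍ → ℂ)
    (hmul : ∀ z, P z * ((A.Θ s : HolH) : ℍ → ℂ) z = ((A.Θ u : HolH) : ℍ → ℂ) z * jD z)
    (hord : ∀ n : ℤ, n ≤ N → (cuspEmb A γ ((u : A.F) / (s : A.F))).coeff n = 0) :
    IsZeroAtImInfty (P ∣[(2 : ℤ)] γ) := by
  have hs' : ((s : A.R) : A.F) ≠ 0 := fun h => hs (Subtype.ext h)
  have hY : ∀ n : ℤ, n < -(N : ℤ) → (qExpand ℂ N thetaJC).coeff n = 0 :=
    coeff_qExpand_eq_zero_of_lt N thetaJC coeff_thetaJC_of_lt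
  have hsplit : cuspEmb A γ (u : A.F) =
      cuspEmb A γ ((u : A.F) / (s : A.F)) * cuspEmb A γ (s : A.F) := by
    rw [← map_mul, div_mul_cancel₀ _ hs']
  refine isZeroAtImInfty_of_qn_mul N (g₁ := compSL ((A.Θ s : HolH) : ℍ → ℂ) γ)
    (g₂ := compSL ((A.Θ u : HolH) : ℍ → ℂ) γ * jD)
    (T₁ := cuspEmb A γ (s : A.F)) (T₂ := cuspEmb A γ (u : A.F) * qExpand ℂ N thetaJC)
    (E := cuspEmb A γ ((u : A.F) / (s : A.F)) * qExpand ℂ N thetaJC)
    (intgQN_compSL A γ s) (intg_qn_mul N (intgQN_compSL A γ u) (hasQExp_jD.qExpand N)) ?_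
    (fun z => slash_mul_eq hmul jD_smul γ z) ?_ ?_
  · exact cuspEmb_ne_zero A γ hs'
  · rw [hsplit]
    ring
  · intro n hn
    refine coeff_mul_eq_zero_of_lt _ _ ((N : ℤ) + 1) (-(N : ℤ)) ?_ hY n (by omega)
    intro m hm
    exact hord m (by omega)

/-! ### Weight two invariance from the defining equation -/

/-- Weight two for `Γ` from the defining equation `H * a = b * J`. -/
theorem slash_eq_of_mul_eq' {H a b J : ℍ → ℂ} (hH : H ∈ HolH) (ha : a ∈ HolH)
    (ha0 : a ≠ 0) (hmul : ∀ z, H z * a z = b z * J z)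
    (hJ : ∀ (γ : SL(2, ℤ)) (z : ℍ), J (γ • z) = denom γ z ^ 2 * J z)
    (γ : SL(2, ℤ)) (hainv : compSL a γ = a) (hbinv : compSL b γ = b) :
    H ∣[(2 : ℤ)] γ = H := by
  have hH' : H ∣[(2 : ℤ)] γ ∈ HolH := by
    have : MDifferentiable 𝓘(ℂ) 𝓘(ℂ) (H ∣[(2 : ℤ)] (γ : GL (Fin 2) ℝ)) :=
      MDifferentiable.slash hH 2 _
    exact this
  have hzero : (H ∣[(2 : ℤ)] γ - H) * a = 0 := by
    funext z
    have h1 := slash_mul_eq hmul hJ γ z
    rw [hainv, hbinv] at h1
    simp only [Pi.mul_apply, Pi.sub_apply, Pi.zero_apply]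
    rw [sub_mul, h1, hmul z, sub_self]
  rcases mul_eq_zero_HolH (HolH.sub_mem hH' hH) ha hzero with h | h
  · exact sub_eq_zero.mp h
  · exact absurd h ha0

/-- the pointwise form of `ι P = Θ(u/s) · ι (D j)`. -/
theorem pointwise_of_eq {u s : A.R} (hs : s ≠ 0) {P : HolH}
    (hP : algebraMap HolH MerH P =
      realMer A ((u : A.F) / (s : A.F)) * algebraMap HolH MerH DJh) (z : ℍ) :
    (P : ℍ → ℂ) z * ((A.Θ s : HolH) : ℍ → ℂ) z = ((A.Θ u : HolH) : ℍ → ℂ) z * jD z := by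
  have hs' : A.Θ s ≠ 0 := fun h => hs (Θ_injective A (h.trans (map_zero _).symm))
  have hsM : algebraMap HolH MerH (A.Θ s) ≠ 0 :=
    (map_ne_zero_iff _ (IsFractionRing.injective HolH MerH)).mpr hs'
  have h1 : P * A.Θ s = A.Θ u * DJh := by
    apply IsFractionRing.injective HolH MerH
    rw [map_mul, map_mul, hP, map_div₀, AnReal4.realMer_coe, AnReal4.realMer_coe]
    field_simp
  have h2 := congrArg (fun x : HolH => (x : ℍ → ℂ) z) h1
  exact h2

/-- **LOW**: a regular differential `f dj` gives a holomorphic function `P = Θ(f) · D j` on `ℍ` of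
weight two for `Γ`, vanishing at all cusps. -/
theorem low {f : A.F} (hf : f ≠ 0) (hreg : Reg A f) :
    ∃ P : HolH, algebraMap HolH MerH P = realMer A f * algebraMap HolH MerH DJh ∧
      (∀ γ ∈ Γ, (P : ℍ → ℂ) ∣[(2 : ℤ)] γ = P) ∧
      ∀ γ : SL(2, ℤ), IsZeroAtImInfty ((P : ℍ → ℂ) ∣[(2 : ℤ)] γ) := by
  obtain ⟨hpt, hcusp⟩ := (reg_iff A hf).mp hreg
  obtain ⟨P, hP⟩ := Fermat.Agent.M17.Dict4.exists_holH_of_forall_ordMer_nonneg
    (x := realMer A f * algebraMap HolH MerH DJh)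
    fun z => (ordMer_mul_DJh_nonneg_iff A hf z).mpr (hpt z)
  obtain ⟨u, s, hs, rfl⟩ := exists_div_ne_zero A f
  have hs' : A.Θ s ≠ 0 := fun h => hs (Θ_injective A (h.trans (map_zero _).symm))
  have hs0 : ((A.Θ s : HolH) : ℍ → ℂ) ≠ 0 := fun h => hs' (Subtype.ext h)
  have hmul := pointwise_of_eq A hs hP
  refine ⟨P, hP, fun γ hγ => ?_, fun γ => ?_⟩
  · exact slash_eq_of_mul_eq' P.2 (A.Θ s).2 hs0 hmul jD_smul γ (A.inv s γ hγ) (A.inv u γ hγ)
  · refine isZeroAtImInfty_slash_of_coeff A γ u s hs P hmul fun n hn => ?_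
    apply HahnSeries.coeff_eq_zero_of_lt_order
    have h1 := order_cuspEmb A γ⁻¹ hf
    rw [inv_inv] at h1
    have h2 := cuspIdx_mul_ord_jF A γ⁻¹
    have h3 := hcusp γ⁻¹
    have hc : (1 : ℤ) ≤ cuspIdx A γ⁻¹ := by exact_mod_cast cuspIdx_pos A γ⁻¹
    rw [h1]
    nlinarith

/-! ### UP: cusp forms give regular differentials -/

open EisensteinSeries in
theorem cuspBdd_jD : AnRatioMem4.CuspBdd 2 jD := by
  intro γ
  refine ⟨1, ?_⟩
  have hsl : jD ∣[(2 : ℤ)] γ = jD := by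
    funext z
    rw [SL_slash_apply, jD_smul]
    have hd : denom γ z ≠ 0 := denom_ne_zero γ z
    have h2 : denom γ z ^ (-(2 : ℤ)) = (denom γ z ^ 2)⁻¹ := by
      rw [zpow_neg]
      norm_cast
    rw [h2]
    field_simp
  rw [hsl]
  have h4 : IsBoundedAtImInfty (fun z => E₄ z) := ModularFormClass.bdd_at_infty E₄
  have h6 : IsBoundedAtImInfty (fun z => E₆ z) := ModularFormClass.bdd_at_infty E₆
  have h : IsBoundedAtImInfty (fun z => -(E₄ z * E₄ z * E₆ z)) := ((h4.mul h4).mul h6).neg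
  have hfun : (fun z => jD z * ModularForm.discriminant z ^ 1) =
      fun z => -(E₄ z * E₄ z * E₆ z) := by
    funext z
    have hΔ : ModularForm.discriminant z ≠ 0 := ModularForm.discriminant_ne_zero z
    rw [jD]
    field_simp
  rw [hfun]
  exact h

theorem jD_slash (γ : SL(2, ℤ)) : jD ∣[(2 : ℤ)] γ = jD := by
  funext z
  rw [SL_slash_apply, jD_smul]
  have hd : denom γ z ≠ 0 := denom_ne_zero γ z
  have h2 : denom γ z ^ (-(2 : ℤ)) = (denom γ z ^ 2)⁻¹ := by
    rw [zpow_neg]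
    norm_cast
  rw [h2]
  field_simp

include A in
/-- the slashes of a weight two `Γ`-invariant function are `N`-periodic. -/
theorem slash_vadd (P : ℍ → ℂ) (hinv : ∀ γ ∈ Γ, P ∣[(2 : ℤ)] γ = P) (z : ℍ) :
    (P ∣[(2 : ℤ)] γ) (((N : ℕ) : ℝ) +ᵥ z) = (P ∣[(2 : ℤ)] γ) z := by
  have h1 : (((N : ℕ) : ℝ) +ᵥ z) = (ModularGroup.T ^ (N : ℤ)) • z := by
    rw [UpperHalfPlane.modular_T_zpow_smul]
    simp
  have hden : denom (ModularGroup.T ^ (N : ℤ) : SL(2, ℤ)) z = 1 := by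
    rw [ModularGroup.denom_apply]
    have e10 : (ModularGroup.T ^ (N : ℤ) : SL(2, ℤ)) 1 0 = 0 := by
      rw [ModularGroup.coe_T_zpow]; simp
    have e11 : (ModularGroup.T ^ (N : ℤ) : SL(2, ℤ)) 1 1 = 1 := by
      rw [ModularGroup.coe_T_zpow]; simp
    rw [e10, e11]
    simp
  have h2 : (P ∣[(2 : ℤ)] γ) ∣[(2 : ℤ)] (ModularGroup.T ^ (N : ℤ) : SL(2, ℤ)) = P ∣[(2 : ℤ)] γ := by
    rw [← SlashAction.slash_mul]
    have : γ * ModularGroup.T ^ (N : ℤ) = (γ * ModularGroup.T ^ (N : ℤ) * γ⁻¹) * γ := by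
      rw [inv_mul_cancel_right]
    rw [this, SlashAction.slash_mul, hinv _ (conj_T_pow_mem A γ)]
  have h3 := congrFun h2 z
  rw [SL_slash_apply, hden, one_zpow, mul_one] at h3
  rw [h1]
  exact h3

/-- **UP, cusp half**: if all weight two slashes of `P = Θ(u/s) · D j` vanish at `i∞`, the cusp
expansion of `u / s` at `γ` has order `> N`. -/
theorem order_cuspEmb_of_isZeroAtImInfty (u s : A.R) (hs : s ≠ 0) (hu : u ≠ 0) (P : ℍ → ℂ)
    (hP : P ∈ HolH) (hinv : ∀ γ ∈ Γ, P ∣[(2 : ℤ)] γ = P)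
    (hmul : ∀ z, P z * ((A.Θ s : HolH) : ℍ → ℂ) z = ((A.Θ u : HolH) : ℍ → ℂ) z * jD z)
    (hzero : IsZeroAtImInfty (P ∣[(2 : ℤ)] γ)) :
    (N : ℤ) + 1 ≤ (cuspEmb A γ ((u : A.F) / (s : A.F))).order := by
  have hNpos : 0 < N := Nat.pos_of_ne_zero (NeZero.ne N)
  have hs' : ((s : A.R) : A.F) ≠ 0 := fun h => hs (Subtype.ext h)
  have hu' : ((u : A.R) : A.F) ≠ 0 := fun h => hu (Subtype.ext h)
  have hf : (u : A.F) / (s : A.F) ≠ 0 := div_ne_zero hu' hs'
  set Q : ℍ → ℂ := P ∣[(2 : ℤ)] γ with hQ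
  have hQhol : Q ∈ HolH := by
    have : MDifferentiable 𝓘(ℂ) 𝓘(ℂ) (P ∣[(2 : ℤ)] (γ : GL (Fin 2) ℝ)) :=
      MDifferentiable.slash hP 2 _
    exact this
  -- the `q_N`-expansion of `Q`
  have hQexp : IsQExp N Q 0 (UpperHalfPlane.qExpansion (N : ℝ) Q) :=
    isQExp_of_periodic_bounded hNpos hQhol (slash_vadd A γ P hinv) hzero.boundedAtFilter
  have hX0 : (UpperHalfPlane.qExpansion (N : ℝ) Q).coeff 0 = 0 := by
    rw [UpperHalfPlane.qExpansion_coeff]
    simp only [Nat.factorial_zero, Nat.cast_one, inv_one, iteratedDeriv_zero, one_mul]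
    exact hzero.cuspFunction_apply_zero (by exact_mod_cast hNpos)
  set E : LaurentSeries ℂ := laurentOf 0 (UpperHalfPlane.qExpansion (N : ℝ) Q) with hE
  have hQN : IntgQN N Q E := intg_qn_of_isQExp N hQexp
  -- uniqueness of expansions
  have h1 : IntgQN N (Q * compSL ((A.Θ s : HolH) : ℍ → ℂ) γ) (E * cuspEmb A γ (s : A.F)) :=
    intg_qn_mul N hQN (intgQN_compSL A γ s)
  have h2 : IntgQN N (compSL ((A.Θ u : HolH) : ℍ → ℂ) γ * jD)
      (cuspEmb A γ (u : A.F) * qExpand ℂ N thetaJC) :=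
    intg_qn_mul N (intgQN_compSL A γ u) (hasQExp_jD.qExpand N)
  have hfun : Q * compSL ((A.Θ s : HolH) : ℍ → ℂ) γ =
      compSL ((A.Θ u : HolH) : ℍ → ℂ) γ * jD :=
    funext fun z => slash_mul_eq hmul jD_smul γ z
  rw [hfun] at h1
  have heq : E * cuspEmb A γ (s : A.F) = cuspEmb A γ (u : A.F) * qExpand ℂ N thetaJC :=
    HasQExp.unique_left h1 h2
  have hsplit : cuspEmb A γ (u : A.F) =
      cuspEmb A γ ((u : A.F) / (s : A.F)) * cuspEmb A γ (s : A.F) := by
    rw [← map_mul, div_mul_cancel₀ _ hs']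
  have hs'' : cuspEmb A γ (s : A.F) ≠ 0 := cuspEmb_ne_zero A γ hs'
  have hE' : E = cuspEmb A γ ((u : A.F) / (s : A.F)) * qExpand ℂ N thetaJC := by
    apply mul_right_cancel₀ hs''
    rw [heq, hsplit]
    ring
  -- orders
  set C : LaurentSeries ℂ := cuspEmb A γ ((u : A.F) / (s : A.F)) with hC
  set Y : LaurentSeries ℂ := qExpand ℂ N thetaJC with hY
  have hC0 : C ≠ 0 := cuspEmb_ne_zero A γ hf
  have hYc : Y.coeff (-(N : ℤ)) = -1 := by
    have := qExpand_coeff_mul (R := ℂ) N thetaJC (-1)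
    rw [mul_neg_one] at this
    rw [hY, this, coeff_thetaJC_neg_one]
  have hY0 : Y ≠ 0 := by
    intro h
    rw [h] at hYc
    simp at hYc
  have hE0 : E ≠ 0 := by rw [hE']; exact mul_ne_zero hC0 hY0
  have hordE : (1 : ℤ) ≤ E.order := by
    rw [HahnSeries.le_order_iff_forall hE0]
    intro j hj
    rw [hE, lor_laurentOf_coeff]
    split_ifs with h0
    · have hj0 : j = 0 := by push_cast at h0; omega
      subst hj0
      simpa using hX0
    · rfl
  have hordY : Y.order ≤ -(N : ℤ) :=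
    HahnSeries.order_le_of_coeff_ne_zero (by rw [hYc]; norm_num)
  have hmulord : E.order = C.order + Y.order := by
    rw [hE']
    apply HahnSeries.order_mul_of_ne_zero
    exact mul_ne_zero (HahnSeries.leadingCoeff_ne_zero.mpr hC0)
      (HahnSeries.leadingCoeff_ne_zero.mpr hY0)
  omega

/-- **UP**: a holomorphic function of weight two for `Γ` vanishing at all cusps is `Θ(f) · D j` for a
regular differential `f dj`. -/
theorem up (P : HolH) (hP0 : P ≠ 0) (hinv : ∀ γ ∈ Γ, (P : ℍ → ℂ) ∣[(2 : ℤ)] γ = P)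
    (hzero : ∀ γ : SL(2, ℤ), IsZeroAtImInfty ((P : ℍ → ℂ) ∣[(2 : ℤ)] γ)) :
    ∃ f : A.F, f ≠ 0 ∧
      algebraMap HolH MerH P = realMer A f * algebraMap HolH MerH DJh ∧ Reg A f := by
  obtain ⟨f, hf⟩ := AnRatioMem4.ratio_mem A 2 P DJh DJh_ne_zero hinv (fun γ _ => jD_slash γ)
    (AnRatioMem4.cuspBdd_of_bounded fun γ => (hzero γ).boundedAtFilter) cuspBdd_jD
  have hPM : algebraMap HolH MerH P ≠ 0 :=
    (map_ne_zero_iff _ (IsFractionRing.injective HolH MerH)).mpr hP0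
  have hf0 : f ≠ 0 := by
    rintro rfl
    rw [map_zero, zero_mul] at hf
    exact hPM hf.symm
  refine ⟨f, hf0, hf.symm, (reg_iff A hf0).mpr ⟨fun z => ?_, fun g => ?_⟩⟩
  · refine (ordMer_mul_DJh_nonneg_iff A hf0 z).mp ?_
    rw [hf, ordMer_algebraMap z hP0]
    exact Int.natCast_nonneg _
  · obtain ⟨u, s, hs, rfl⟩ := exists_div_ne_zero A f
    have hu : u ≠ 0 := by
      rintro rfl
      apply hf0
      have : (((0 : A.R) : A.F)) = 0 := rfl
      rw [this, zero_div]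
    have hmul := pointwise_of_eq A hs hf.symm
    have h1 := order_cuspEmb_of_isZeroAtImInfty A g⁻¹ u s hs hu P P.2 hinv hmul (hzero g⁻¹)
    rw [order_cuspEmb A g hf0] at h1
    have h2 := cuspIdx_mul_ord_jF A g
    have hc : (1 : ℤ) ≤ cuspIdx A g := by exact_mod_cast cuspIdx_pos A g
    by_contra hcon
    have : (cuspPlace A g).ord ((u : A.F) / (s : A.F)) + (cuspPlace A g).ord A.jF ≤ 0 := by omega
    nlinarith

/-! ### `q`-coefficients at `∞` -/

include A in
/-- `1`-periodicity from `T ∈ Γ`. -/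
theorem periodic_of_T_mem (hT : ModularGroup.T ∈ Γ) (P : ℍ → ℂ)
    (hinv : ∀ γ ∈ Γ, P ∣[(2 : ℤ)] γ = P) : Function.Periodic (P ∘ ofComplex) 1 := by
  have h1 : ∀ z : ℍ, P (((1 : ℕ) : ℝ) +ᵥ z) = P z := by
    intro z
    have h2 := congrFun (hinv _ hT) z
    rw [SL_slash_apply] at h2
    have hden : denom (ModularGroup.T : SL(2, ℤ)) z = 1 := by
      rw [ModularGroup.denom_apply]
      simp [ModularGroup.T]
    rw [hden, one_zpow, mul_one] at h2
    have h3 : (((1 : ℕ) : ℝ) +ᵥ z) = ModularGroup.T • z := by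
      rw [UpperHalfPlane.modular_T_smul]
      simp
    rw [h3]
    exact h2
  have := periodic_comp_ofComplex (h := 1) h1
  simpa using this

/-- the `q`-coefficients of `P = Θ(f) · D j` are those of `f · θ_j`. -/
theorem qExpansion_coeff_eq (hT : ModularGroup.T ∈ Γ) {f : A.F} (P : HolH)
    (hP : algebraMap HolH MerH P = realMer A f * algebraMap HolH MerH DJh)
    (hinv : ∀ γ ∈ Γ, (P : ℍ → ℂ) ∣[(2 : ℤ)] γ = P)
    (hbdd : IsBoundedAtImInfty (P : ℍ → ℂ)) (n : ℕ) :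
    (UpperHalfPlane.qExpansion 1 (P : ℍ → ℂ)).coeff n =
      (((f : A.F) : LaurentSeries ℂ) * thetaJC).coeff n := by
  obtain ⟨u, s, hs, rfl⟩ := exists_div_ne_zero A f
  have hs' : ((s : A.R) : A.F) ≠ 0 := fun h => hs (Subtype.ext h)
  have hT₁ : (((s : A.R) : A.F) : LaurentSeries ℂ) ≠ 0 := fun h => hs' (Subtype.ext h)
  have hmul := pointwise_of_eq A hs hP
  have hq := qCoeff_of_mul_eq (periodic_of_T_mem A hT P hinv) P.2 hbdd (A.qexp s)
    ((A.qexp u).mul hasQExp_jD) hT₁ hmul n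
  have hcoe : ((((u : A.R) : A.F) / ((s : A.R) : A.F) : A.F) : LaurentSeries ℂ)
      = (((u : A.R) : A.F) : LaurentSeries ℂ) / (((s : A.R) : A.F) : LaurentSeries ℂ) := rfl
  rw [hcoe]
  have : (UpperHalfPlane.qExpansion 1 (P : ℍ → ℂ)).coeff n =
      ModularFormClass.qCoeff (P : ℍ → ℂ) n := rfl
  rw [this, hq]
  congr 1
  field_simp

/-! ### Conjugation -/

/-- the coefficientwise action of `σ ∈ Aut(ℂ)` fixes the formal `j`. -/
theorem arithmeticGalois_smul_jF (σ : ℂ ≃ₐ[ℚ] ℂ) : arithmeticGalois F₀ σ • A.jF = A.jF := by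
  have hj : ((A.jF : A.F) : LaurentSeries ℂ) = coeffEmb ℂ jq := by
    show (((A.jR : A.R) : A.F) : LaurentSeries ℂ) = _
    rw [A.coe_jR, coeffEmbC_jq]
  apply Subtype.ext
  rw [coe_arithmeticGalois_smul, hj]
  exact coeffMap_coeffEmb σ _

theorem coeffMap_thetaJC (σ : ℂ ≃ₐ[ℚ] ℂ) : coeffMap (σ : ℂ →+* ℂ) thetaJC = thetaJC := by
  ext k
  rw [coeffMap_coeff, thetaJC, lor_laurentOf_coeff]
  split_ifs
  · rw [PowerSeries.coeff_map]
    simp
  · simp

include A in
/-- **Conjugation of weight two cusp forms**: for `σ ∈ Aut(ℂ)` and a holomorphic `P` of weight two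
for `Γ` vanishing at all cusps there is another such `P'` whose `q`-coefficients are the
`σ`-conjugates of those of `P`. -/
theorem conj (hT : ModularGroup.T ∈ Γ) (σ : ℂ ≃ₐ[ℚ] ℂ) (P : HolH)
    (hinv : ∀ γ ∈ Γ, (P : ℍ → ℂ) ∣[(2 : ℤ)] γ = P)
    (hzero : ∀ γ : SL(2, ℤ), IsZeroAtImInfty ((P : ℍ → ℂ) ∣[(2 : ℤ)] γ)) :
    ∃ P' : HolH, (∀ γ ∈ Γ, (P' : ℍ → ℂ) ∣[(2 : ℤ)] γ = P') ∧
      (∀ γ : SL(2, ℤ), IsZeroAtImInfty ((P' : ℍ → ℂ) ∣[(2 : ℤ)] γ)) ∧
      ∀ n : ℕ, (UpperHalfPlane.qExpansion 1 (P' : ℍ → ℂ)).coeff n =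
        σ ((UpperHalfPlane.qExpansion 1 (P : ℍ → ℂ)).coeff n) := by
  rcases eq_or_ne P 0 with rfl | hP0
  · refine ⟨0, hinv, hzero, fun n => ?_⟩
    have h0 : ((0 : HolH) : ℍ → ℂ) = 0 := rfl
    rw [h0, UpperHalfPlane.qExpansion_zero]
    simp
  obtain ⟨f, hf0, hf, hreg⟩ := up A P hP0 hinv hzero
  set g : SemilinearAut ℂ A.F := arithmeticGalois F₀ σ with hg
  have hreg' : Reg A (g • f) := fun v =>
    Fermat.Agent.S23.GaloisReg.regular_smul (genusHyp A) g (arithmeticGalois_smul_jF A σ) hreg v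
  have hgf0 : g • f ≠ 0 := by
    intro h0
    apply hf0
    have := congrArg (fun y => g⁻¹ • y) h0
    simpa using this
  obtain ⟨P', hP', hinv', hzero'⟩ := low A hgf0 hreg'
  refine ⟨P', hinv', hzero', fun n => ?_⟩
  have hb : IsBoundedAtImInfty (P : ℍ → ℂ) := by
    have := (hzero 1).boundedAtFilter
    rwa [SlashAction.slash_one] at this
  have hb' : IsBoundedAtImInfty (P' : ℍ → ℂ) := by
    have := (hzero' 1).boundedAtFilter
    rwa [SlashAction.slash_one] at this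
  rw [qExpansion_coeff_eq A hT P' hP' hinv' hb' n, qExpansion_coeff_eq A hT P hf hinv hb n]
  have h1 : ((g • f : A.F) : LaurentSeries ℂ) = coeffMap (σ : ℂ →+* ℂ) (f : LaurentSeries ℂ) :=
    coe_arithmeticGalois_smul F₀ σ f
  rw [h1, ← coeffMap_thetaJC σ, ← map_mul, coeffMap_coeff, coeffMap_thetaJC]
  rfl

end Fermat.Agent.M48.R2aCore0
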