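/-
Programme M48, pillar (P1), chapter [RED1] / [ESRED-MODEL], chart group (helper8), file 2:
**the special-fibre function field `fieldG10C κ_A M L` is the union of the fields
`fieldG10C κ_K M L` over the number fields** (`κ_A = A / 𝔪_A`, `κ_K = (A ∩ K) / 𝔪`).

Twin of `ES/RED/ResidueUnion1` (helper1, Program I) for helper8's `QModel8.fieldG10C`:
`ρ_K := resMap A K : κ_K →+* κ_A`.
* `ResidueUnion1.exists_residue_descent` (generic, imported as it is) : every `c : κ_A` lies in the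
  image of `ρ_K` for all large number fields `K`;
* `exists_fieldG10C_descent` : every `y ∈ fieldG10C κ_A M L` is `coeffMap ρ_K y₀` with
  `y₀ ∈ fieldG10C κ_K M L`, for all large number fields `K`;
* `coeffMap_resMap_mem_fieldG10C` : conversely `coeffMap ρ_K` maps `fieldG10C κ_K M L` into
  `fieldG10C κ_A M L` (helper9's `GaussUnitG9.coeffMap_mem_fieldG10C_of_hom`).

Nothing is left unproved in this file.  Imported by no statement.
-/
import Mathlib
import Fermat.Agent.ES.RED.ResidueUnion1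
import Fermat.Agent.M48.GaussUnitG9

set_option autoImplicit false
set_option linter.unusedSectionVars false

open HahnSeries ModularCurve IntermediateField

noncomputable section

namespace Fermat.Agent.M48.ResidueUnionG8

open Fermat.Agent.RED.Interface4 Fermat.Agent.RED.DESC Fermat.Agent.M48.QModel8
  Fermat.Agent.ES.RED.ResidueUnion1

variable (A : ValuationSubring Qbar)

/-- `coeffMap ρ_K` maps `fieldG10C κ_K M L` into `fieldG10C κ_A M L`. -/
theorem coeffMap_resMap_mem_fieldG10C (M L : ℕ) (K : IntermediateField ℚ Qbar)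
    {x : LaurentSeries (IsLocalRing.ResidueField (AK A K))}
    (hx : x ∈ fieldG10C (IsLocalRing.ResidueField (AK A K)) M L) :
    coeffMap (NumberFieldDVR27.resMap A K) x ∈ fieldG10C (IsLocalRing.ResidueField A) M L :=
  GaussUnitG9.coeffMap_mem_fieldG10C_of_hom _ M L hx

/-- **The special-fibre function field over `κ_A` is the union of those over the `κ_K`.** -/
theorem exists_fieldG10C_descent (M L : ℕ) (K₀ : IntermediateField ℚ Qbar)
    [FiniteDimensional ℚ K₀] {y : LaurentSeries (IsLocalRing.ResidueField A)}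
    (hy : y ∈ fieldG10C (IsLocalRing.ResidueField A) M L) :
    ∃ K₁ : IntermediateField ℚ Qbar, FiniteDimensional ℚ K₁ ∧ K₀ ≤ K₁ ∧
      ∀ K : IntermediateField ℚ Qbar, K₁ ≤ K →
        ∃ y₀ ∈ fieldG10C (IsLocalRing.ResidueField (AK A K)) M L,
          coeffMap (NumberFieldDVR27.resMap A K) y₀ = y := by
  unfold fieldG10C at hy
  induction hy using IntermediateField.adjoin_induction with
  | mem y hy =>
      rcases hy with ⟨d, hne, hd, rfl⟩ | ⟨a, e, hne, he, rfl⟩
      · have := hne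
        refine ⟨K₀, inferInstance, le_rfl, fun K _ => ?_⟩
        refine ⟨qExpand _ d (jqModC _), jqd_mem_fieldG10C _ M L hd, ?_⟩
        rw [coeffMap_qExpand, coeffMap_jqModC]
      · have := hne
        refine ⟨K₀, inferInstance, le_rfl, fun K _ => ?_⟩
        refine ⟨qExpand _ e (gqR _ M (a : ZMod M)), gqe_mem_fieldG10C _ M L a he, ?_⟩
        rw [coeffMap_qExpand, coeffMap_gqR]
  | algebraMap c =>
      obtain ⟨K₁, hfin, hK₀, H⟩ := exists_residue_descent A K₀ c
      refine ⟨K₁, hfin, hK₀, fun K hK => ?_⟩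
      obtain ⟨c₀, hc₀⟩ := H K hK
      refine ⟨algebraMap _ _ c₀, IntermediateField.algebraMap_mem _ _, ?_⟩
      rw [coeffMap_algebraMap', hc₀]
  | add x y _ _ hx hy =>
      obtain ⟨K₁, hfin₁, hK₁, H₁⟩ := hx
      obtain ⟨K₂, hfin₂, hK₂, H₂⟩ := hy
      have := hfin₁
      have := hfin₂
      refine ⟨K₁ ⊔ K₂, inferInstance, hK₁.trans le_sup_left, fun K hK => ?_⟩
      obtain ⟨x₀, hx₀, hx₀'⟩ := H₁ K (le_sup_left.trans hK)
      obtain ⟨y₀, hy₀, hy₀'⟩ := H₂ K (le_sup_right.trans hK)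
      exact ⟨x₀ + y₀, add_mem hx₀ hy₀, by rw [map_add, hx₀', hy₀']⟩
  | inv x _ hx =>
      obtain ⟨K₁, hfin₁, hK₁, H₁⟩ := hx
      refine ⟨K₁, hfin₁, hK₁, fun K hK => ?_⟩
      obtain ⟨x₀, hx₀, hx₀'⟩ := H₁ K hK
      exact ⟨x₀⁻¹, inv_mem hx₀, by rw [map_inv₀, hx₀']⟩
  | mul x y _ _ hx hy =>
      obtain ⟨K₁, hfin₁, hK₁, H₁⟩ := hx
      obtain ⟨K₂, hfin₂, hK₂, H₂⟩ := hy
      have := hfin₁
      have := hfin₂
      refine ⟨K₁ ⊔ K₂, inferInstance, hK₁.trans le_sup_left, fun K hK => ?_⟩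
      obtain ⟨x₀, hx₀, hx₀'⟩ := H₁ K (le_sup_left.trans hK)
      obtain ⟨y₀, hy₀, hy₀'⟩ := H₂ K (le_sup_right.trans hK)
      exact ⟨x₀ * y₀, mul_mem hx₀ hy₀, by rw [map_mul, hx₀', hy₀']⟩

end Fermat.Agent.M48.ResidueUnionG8
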