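/-
M48 (P1), [RED1] (helper4): **the smooth half of [RED1], unconditional**: the three smoothness targets
`Red1Iface4.SmoothTargets1 n e M 1 A` for `(n, e)` with `BaseHyp n e`, `4 ≤ M`, `n ∣ M * 1`, `ℓ ∤ M * 1`,
`A` over `ℓ` (`SmoothML4.smoothTargets1_of_fam` + `IG1Main9.ig1` + `CuspFamMain4.cuspFamStmt`), and the
two instances `(4, 8)`, `(9, 3)`.

Imported by no statement.
-/
import Mathlib
import Fermat.Agent.M48.CuspFamMain4

set_option autoImplicit false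
set_option linter.unusedSectionVars false
set_option linter.unusedVariables false
set_option linter.style.longLine false
set_option synthInstance.maxHeartbeats 400000
set_option maxHeartbeats 1000000

open HahnSeries AlgebraicCurve ModularCurve IntermediateField
open scoped MatrixGroups

noncomputable section

namespace Fermat.Agent.M48.SmoothMain4

open Fermat.Agent.X0 Fermat.Agent.RED.Interface4 Fermat.Agent.M48.Red1Iface4
open Fermat.Agent.RED.BASE.Interface12 Fermat.Agent.RED.BASE.Hauptmodul12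
open Fermat.Agent.RED.BASE.CuspExpMain11 (cvT)

/-- **The three smoothness targets at `(M, 1)`, unconditional.** -/
theorem smoothTargets1_of_exp {n e : ℕ} [NeZero n] (hb : BaseHyp n e) {M : ℕ} [NeZero M]
    (hM4 : 4 ≤ M) (hnM : n ∣ M * 1) {ℓ : ℕ} [Fact ℓ.Prime] (hℓ : ¬ ℓ ∣ M * 1)
    {A : ValuationSubring Qbar} (hA : A.LiesOverPrime ℓ) (cv : SL(2, ℤ) → Option Kbar)
    (hexp : CuspExp n e (M * 1) cv) (hsep : CuspSeparated n cv) : SmoothTargets1 n e M 1 A := by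
  obtain ⟨hO, hI⟩ := CuspFamMain4.cuspFamStmt n e hb M hM4 hnM ℓ hℓ A hA cv hexp hsep
  exact SmoothML4.smoothTargets1_of_fam hb hM4 hnM hℓ hA (IG1Main9.ig1 M (by omega)) cv hexp hsep
    hO hI

/-- `(n, e) = (4, 8)`, `4 ∣ M`. -/
theorem smoothTargets1_four (M : ℕ) [NeZero M] (h4 : 4 ∣ M) (ℓ : ℕ) (hℓ : ℓ.Prime) (hℓM : ¬ ℓ ∣ M)
    (A : ValuationSubring Qbar) (hA : A.LiesOverPrime ℓ) : SmoothTargets1 4 8 M 1 A := by
  have : Fact ℓ.Prime := ⟨hℓ⟩
  have hM4 : 4 ≤ M := StepOfFam4.four_le_of_dvd (Or.inl h4)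
  have hℓM1 : ¬ ℓ ∣ M * 1 := by rwa [Nat.mul_one]
  have h4' : 4 ∣ M * 1 := by rwa [Nat.mul_one]
  have hexp := Fermat.Agent.RED.BASE.CuspExpMain11.cuspExp_four (M * 1) h4' (tMem baseHyp_four)
  exact smoothTargets1_of_exp baseHyp_four hM4 h4' hℓM1 hA _ hexp.1 hexp.2

/-- `(n, e) = (9, 3)`, `9 ∣ M`. -/
theorem smoothTargets1_nine (M : ℕ) [NeZero M] (h9 : 9 ∣ M) (ℓ : ℕ) (hℓ : ℓ.Prime) (hℓM : ¬ ℓ ∣ M)
    (A : ValuationSubring Qbar) (hA : A.LiesOverPrime ℓ) : SmoothTargets1 9 3 M 1 A := by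
  have : Fact ℓ.Prime := ⟨hℓ⟩
  have hM4 : 4 ≤ M := StepOfFam4.four_le_of_dvd (Or.inr h9)
  have hℓM1 : ¬ ℓ ∣ M * 1 := by rwa [Nat.mul_one]
  have h9' : 9 ∣ M * 1 := by rwa [Nat.mul_one]
  have hexp := Fermat.Agent.RED.BASE.CuspExpMain11.cuspExp_nine (M * 1) h9' (tMem baseHyp_nine)
  exact smoothTargets1_of_exp baseHyp_nine hM4 h9' hℓM1 hA _ hexp.1 hexp.2

end Fermat.Agent.M48.SmoothMain4
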