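/-
M48 (helper7), leaf (THETA), part a: algebra.

* `isPrimitiveRoot_map`, `exists_teich` : for a subring `A ⊆ ℂ` containing the `(ℓ-1)`-th roots of unity and a ring
  homomorphism `φ : A →+* F` to a field of characteristic `ℓ`, the inverse Teichmüller character `ψ` with respect to
  `φ`: a Dirichlet character mod `ℓ` with values in `A` such that `φ (ψ a) * a = 1` for all `a` prime to `ℓ`;
* `redc φ : ℂ → F` (reduction, junk outside `A`), `RKer`, `LatHyp`, `Good`, `exists_ringHom` : an element `h` of an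
  `A`-lattice `L` of a complex vector space with coefficient functionals, which is an eigenvector modulo `ker φ` of a
  set `𝒢` of operators preserving `L` and the kernel of reduction, with `φ (c₁ h) = 1`, defines a ring homomorphism
  `Algebra.adjoin ℤ 𝒢 →+* F`, `T ↦ φ (c₁ (T h))`.

Mathlib only.  Imported by no statement.
-/
import Mathlib

set_option autoImplicit false
set_option linter.unusedVariables false

open Polynomial

noncomputable section

namespace Fermat.Agent.M48.ThetaAlg7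

section teich

variable (A : Subring ℂ) {F : Type*} [Field F] (φ : A →+* F)

theorem isPrimitiveRoot_map {n : ℕ} (hnF : (n : F) ≠ 0) (ζ : A)
    (hζ : IsPrimitiveRoot (ζ : ℂ) n) : IsPrimitiveRoot (φ ζ) n := by
  have : NeZero (n : F) := ⟨hnF⟩
  have hn : 0 < n := Nat.pos_of_ne_zero (by rintro rfl; simp at hnF)
  have : NeZero ((n : ℕ) : ℂ) := ⟨by exact_mod_cast hn.ne'⟩
  rw [← isRoot_cyclotomic_iff] at hζ ⊢
  rw [IsRoot.def, ← map_cyclotomic_int, eval_map] at hζ ⊢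
  have h1 : eval₂ (Int.castRingHom A) ζ (cyclotomic n ℤ) = 0 := by
    apply A.subtype_injective
    rw [hom_eval₂, map_zero]
    have : A.subtype.comp (Int.castRingHom A) = Int.castRingHom ℂ := RingHom.ext_int _ _
    rw [this]
    exact hζ
  have h2 := congrArg φ h1
  rw [hom_eval₂, map_zero] at h2
  have : φ.comp (Int.castRingHom A) = Int.castRingHom F := RingHom.ext_int _ _
  rw [this] at h2
  exact h2

variable {ℓ : ℕ} [Fact ℓ.Prime] [CharP F ℓ]

/-- **the inverse Teichmüller character with respect to `φ`.** -/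
theorem exists_teich (hμ : ∀ ζ : ℂ, ζ ^ (ℓ - 1) = 1 → ζ ∈ A) :
    ∃ ψ : DirichletCharacter ℂ ℓ, ∀ a : ℕ, ¬ ℓ ∣ a →
      ∃ h : ψ (a : ZMod ℓ) ∈ A, φ ⟨ψ (a : ZMod ℓ), h⟩ * (a : F) = 1 := by
  have hℓ : ℓ.Prime := Fact.out
  obtain ⟨n, hn⟩ : ∃ n, n = ℓ - 1 := ⟨_, rfl⟩
  have hn0 : 0 < n := by have := hℓ.two_le; omega
  have hnF : (n : F) ≠ 0 := by
    intro h0
    rw [CharP.cast_eq_zero_iff F ℓ] at h0
    have := Nat.le_of_dvd hn0 h0
    omega
  obtain ⟨ζ₀, hζ₀⟩ : ∃ ζ₀ : ℂ, IsPrimitiveRoot ζ₀ n := ⟨_, Complex.isPrimitiveRoot_exp n hn0.ne'⟩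
  have hζ₀A : ζ₀ ∈ A := hμ _ (by rw [← hn]; exact hζ₀.pow_eq_one)
  have hprim : IsPrimitiveRoot (φ ⟨ζ₀, hζ₀A⟩) n := isPrimitiveRoot_map A φ hnF ⟨ζ₀, hζ₀A⟩ hζ₀
  obtain ⟨g, hg⟩ := IsCyclic.exists_generator (α := (ZMod ℓ)ˣ)
  let c : ZMod ℓ →+* F := ZMod.castHom (dvd_refl ℓ) F
  have hcard : Fintype.card (ZMod ℓ)ˣ = n := by rw [ZMod.card_units ℓ, hn]
  have hcg : c (g : ZMod ℓ) ≠ 0 := by
    have : IsUnit (c (g : ZMod ℓ)) := g.isUnit.map c
    exact this.ne_zero
  have hgn : (c (g : ZMod ℓ))⁻¹ ^ n = 1 := by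
    rw [inv_pow, ← map_pow, ← Units.val_pow_eq_pow_val, ← hcard, pow_card_eq_one]
    simp
  have hnz : NeZero n := ⟨hn0.ne'⟩
  obtain ⟨i, -, hi⟩ := hprim.eq_pow_of_pow_eq_one hgn
  have hζi : (ζ₀ ^ i) ^ n = 1 := by rw [← pow_mul, mul_comm, pow_mul, hζ₀.pow_eq_one, one_pow]
  have hζi0 : ζ₀ ^ i ≠ 0 := pow_ne_zero _ (hζ₀.ne_zero hn0.ne')
  have hζu : Units.mk0 (ζ₀ ^ i) hζi0 ∈ rootsOfUnity (Fintype.card (ZMod ℓ)ˣ) ℂ := by
    rw [mem_rootsOfUnity, hcard]
    ext
    simpa using hζi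
  refine ⟨MulChar.ofRootOfUnity hζu hg, ?_⟩
  have hψg : MulChar.ofRootOfUnity hζu hg (g : ZMod ℓ) = ζ₀ ^ i := by
    rw [MulChar.ofRootOfUnity_spec hζu hg]
    rfl
  intro a ha
  have hco : Nat.Coprime a ℓ := ((Nat.Prime.coprime_iff_not_dvd hℓ).2 ha).symm
  obtain ⟨m, hm⟩ : ZMod.unitOfCoprime a hco ∈ Submonoid.powers g :=
    (isOfFinOrder_of_finite g).mem_powers_iff_mem_zpowers.2 (hg _)
  have ham : (a : ZMod ℓ) = (g : ZMod ℓ) ^ m := by
    have := congrArg (fun u : (ZMod ℓ)ˣ => (u : ZMod ℓ)) hm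
    simpa using this.symm
  have hval : MulChar.ofRootOfUnity hζu hg (a : ZMod ℓ) = (ζ₀ ^ i) ^ m := by
    rw [ham, map_pow, hψg]
  have hmem : MulChar.ofRootOfUnity hζu hg (a : ZMod ℓ) ∈ A := by
    rw [hval]
    exact pow_mem (pow_mem hζ₀A _) _
  refine ⟨hmem, ?_⟩
  have e1 : (⟨MulChar.ofRootOfUnity hζu hg (a : ZMod ℓ), hmem⟩ : A) = ((⟨ζ₀, hζ₀A⟩ : A) ^ i) ^ m :=
    Subtype.ext (by simpa using hval)
  have e2 : (a : F) = c (g : ZMod ℓ) ^ m := by
    rw [← map_pow, ← ham, map_natCast]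
  rw [e1, map_pow, map_pow, hi, e2, ← mul_pow, inv_mul_cancel₀ hcg, one_pow]

end teich

section abstract

variable {A : Subring ℂ} {F : Type*} [Field F] (φ : A →+* F)

open Classical in
/-- reduction of a complex number lying in `A` (junk value `0` outside `A`). -/
def redc (z : ℂ) : F := if hz : z ∈ A then φ ⟨z, hz⟩ else 0

theorem redc_of_mem {z : ℂ} (hz : z ∈ A) : redc φ z = φ ⟨z, hz⟩ := dif_pos hz

theorem redc_add {z w : ℂ} (hz : z ∈ A) (hw : w ∈ A) :
    redc φ (z + w) = redc φ z + redc φ w := by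
  rw [redc_of_mem φ hz, redc_of_mem φ hw, redc_of_mem φ (A.add_mem hz hw), ← map_add]
  rfl

theorem redc_sub {z w : ℂ} (hz : z ∈ A) (hw : w ∈ A) :
    redc φ (z - w) = redc φ z - redc φ w := by
  rw [redc_of_mem φ hz, redc_of_mem φ hw, redc_of_mem φ (A.sub_mem hz hw), ← map_sub]
  rfl

theorem redc_mul {z w : ℂ} (hz : z ∈ A) (hw : w ∈ A) :
    redc φ (z * w) = redc φ z * redc φ w := by
  rw [redc_of_mem φ hz, redc_of_mem φ hw, redc_of_mem φ (A.mul_mem hz hw), ← map_mul]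
  rfl

theorem redc_neg {z : ℂ} (hz : z ∈ A) : redc φ (-z) = -redc φ z := by
  rw [redc_of_mem φ hz, redc_of_mem φ (A.neg_mem hz), ← map_neg]
  rfl

theorem redc_zero : redc φ 0 = 0 := by
  rw [redc_of_mem φ A.zero_mem]
  exact map_zero φ

theorem redc_one : redc φ 1 = 1 := by
  rw [redc_of_mem φ A.one_mem]
  exact map_one φ

theorem redc_natCast (n : ℕ) : redc φ (n : ℂ) = (n : F) := by
  rw [redc_of_mem φ (natCast_mem A n)]
  exact map_natCast φ n

theorem redc_intCast (n : ℤ) : redc φ (n : ℂ) = (n : F) := by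
  rw [redc_of_mem φ (intCast_mem A n)]
  exact map_intCast φ n

theorem redc_sum {ι : Type*} (s : Finset ι) (z : ι → ℂ) (hz : ∀ i ∈ s, z i ∈ A) :
    redc φ (∑ i ∈ s, z i) = ∑ i ∈ s, redc φ (z i) := by
  classical
  induction s using Finset.induction_on with
  | empty => simp [redc_zero]
  | insert i s hi ih =>
    rw [Finset.sum_insert hi, Finset.sum_insert hi,
      redc_add φ (hz i (Finset.mem_insert_self i s))
        (A.sum_mem fun j hj => hz j (Finset.mem_insert_of_mem hj)),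
      ih fun j hj => hz j (Finset.mem_insert_of_mem hj)]

variable {V : Type*} [AddCommGroup V] [Module ℂ V] (c : V →ₗ[ℂ] (ℕ → ℂ)) (L : AddSubgroup V)

/-- the kernel of the reduction of the coefficients, inside `L`. -/
def RKer (g : V) : Prop := g ∈ L ∧ ∀ n, redc φ (c g n) = 0

/-- the data: `L` is stable under `A`, has coefficients in `A`. -/
structure LatHyp (A : Subring ℂ) (c : V →ₗ[ℂ] (ℕ → ℂ)) (L : AddSubgroup V) : Prop where
  smul_mem : ∀ a ∈ A, ∀ g ∈ L, (a : ℂ) • g ∈ L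
  coeff_mem : ∀ g ∈ L, ∀ n, c g n ∈ A

variable {φ c L}

theorem RKer.add (hL : LatHyp A c L) {g g' : V} (hg : RKer φ c L g) (hg' : RKer φ c L g') :
    RKer φ c L (g + g') := by
  refine ⟨L.add_mem hg.1 hg'.1, fun n => ?_⟩
  rw [map_add, Pi.add_apply, redc_add φ (hL.coeff_mem g hg.1 n) (hL.coeff_mem g' hg'.1 n), hg.2, hg'.2,
    add_zero]

theorem RKer.zero : RKer φ c L 0 := by
  refine ⟨L.zero_mem, fun n => ?_⟩
  rw [map_zero, Pi.zero_apply, redc_zero]

theorem RKer.smul (hL : LatHyp A c L) {a : ℂ} (ha : a ∈ A) {g : V} (hg : RKer φ c L g) :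
    RKer φ c L (a • g) := by
  refine ⟨hL.smul_mem a ha g hg.1, fun n => ?_⟩
  rw [map_smul, Pi.smul_apply, smul_eq_mul, redc_mul φ ha (hL.coeff_mem g hg.1 n), hg.2, mul_zero]

/-- a *good* operator: preserves `L`, the kernel of reduction, and has `h` as an eigenvector modulo the kernel. -/
structure Good (φ : A →+* F) (c : V →ₗ[ℂ] (ℕ → ℂ)) (L : AddSubgroup V) (h : V)
    (T : Module.End ℂ V) : Prop where
  mapL : ∀ g ∈ L, T g ∈ L
  mapK : ∀ g, RKer φ c L g → RKer φ c L (T g)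
  eig : ∃ a ∈ A, RKer φ c L (T h - a • h)

variable {h : V}

theorem Good.theta_eq (hL : LatHyp A c L) (hh : h ∈ L) (hh1 : redc φ (c h 1) = 1)
    {T : Module.End ℂ V} (hT : Good φ c L h T) {a : ℂ} (ha : a ∈ A)
    (hK : RKer φ c L (T h - a • h)) : redc φ (c (T h) 1) = redc φ a := by
  have h1 := hK.2 1
  rw [map_sub, map_smul, Pi.sub_apply, Pi.smul_apply, smul_eq_mul,
    redc_sub φ (hL.coeff_mem _ (hT.mapL h hh) 1) (A.mul_mem ha (hL.coeff_mem h hh 1)),
    redc_mul φ ha (hL.coeff_mem h hh 1), hh1, mul_one, sub_eq_zero] at h1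
  exact h1

theorem Good.mul (hL : LatHyp A c L) {T T' : Module.End ℂ V}
    (hT : Good φ c L h T) (hT' : Good φ c L h T') {a a' : ℂ} (ha : a ∈ A) (ha' : a' ∈ A)
    (hK : RKer φ c L (T h - a • h)) (hK' : RKer φ c L (T' h - a' • h)) :
    RKer φ c L ((T * T') h - (a * a') • h) := by
  have e : (T * T') h - (a * a') • h = T (T' h - a' • h) + a' • (T h - a • h) := by
    rw [Module.End.mul_apply, map_sub, map_smul, smul_sub, smul_smul, mul_comm a' a]
    abel
  rw [e]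
  exact (hT.mapK _ hK').add hL (hK.smul hL ha')

theorem Good.mul_good (hL : LatHyp A c L) {T T' : Module.End ℂ V}
    (hT : Good φ c L h T) (hT' : Good φ c L h T') : Good φ c L h (T * T') := by
  obtain ⟨a, ha, hK⟩ := hT.eig
  obtain ⟨a', ha', hK'⟩ := hT'.eig
  exact ⟨fun g hg => hT.mapL _ (hT'.mapL g hg), fun g hg => hT.mapK _ (hT'.mapK g hg),
    a * a', A.mul_mem ha ha', hT.mul hL hT' ha ha' hK hK'⟩

theorem Good.add (hL : LatHyp A c L) {T T' : Module.End ℂ V} {a a' : ℂ}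
    (hK : RKer φ c L (T h - a • h)) (hK' : RKer φ c L (T' h - a' • h)) :
    RKer φ c L ((T + T') h - (a + a') • h) := by
  have e : (T + T') h - (a + a') • h = (T h - a • h) + (T' h - a' • h) := by
    rw [LinearMap.add_apply, add_smul]
    abel
  rw [e]
  exact hK.add hL hK'

theorem Good.add_good (hL : LatHyp A c L) {T T' : Module.End ℂ V}
    (hT : Good φ c L h T) (hT' : Good φ c L h T') : Good φ c L h (T + T') := by
  obtain ⟨a, ha, hK⟩ := hT.eig
  obtain ⟨a', ha', hK'⟩ := hT'.eig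
  refine ⟨fun g hg => L.add_mem (hT.mapL g hg) (hT'.mapL g hg),
    fun g hg => (hT.mapK g hg).add hL (hT'.mapK g hg), a + a', A.add_mem ha ha', Good.add hL hK hK'⟩

theorem Good.rker_algMap (hL : LatHyp A c L) (hh : h ∈ L) (n : ℤ) :
    RKer φ c L ((algebraMap ℤ (Module.End ℂ V) n) h - (n : ℂ) • h) := by
  have e : (algebraMap ℤ (Module.End ℂ V) n) h - (n : ℂ) • h = 0 := by
    rw [Algebra.algebraMap_eq_smul_one, LinearMap.smul_apply, Module.End.one_apply,
      Int.cast_smul_eq_zsmul, sub_self]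
  rw [e]
  exact RKer.zero

theorem Good.algMap_good (hL : LatHyp A c L) (hh : h ∈ L) (n : ℤ) :
    Good φ c L h (algebraMap ℤ (Module.End ℂ V) n) := by
  have e : ∀ g : V, (algebraMap ℤ (Module.End ℂ V) n) g = (n : ℂ) • g := fun g => by
    rw [Algebra.algebraMap_eq_smul_one, LinearMap.smul_apply, Module.End.one_apply,
      Int.cast_smul_eq_zsmul]
  refine ⟨fun g hg => ?_, fun g hg => ?_, (n : ℂ), intCast_mem A n, Good.rker_algMap hL hh n⟩
  · rw [e]
    exact hL.smul_mem _ (intCast_mem A n) g hg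
  · rw [e]
    exact hg.smul hL (intCast_mem A n)

theorem good_of_mem_adjoin (hL : LatHyp A c L) (hh : h ∈ L)
    {𝒢 : Set (Module.End ℂ V)} (hG : ∀ T ∈ 𝒢, Good φ c L h T) {T : Module.End ℂ V}
    (hT : T ∈ Algebra.adjoin ℤ 𝒢) : Good φ c L h T := by
  induction hT using Algebra.adjoin_induction with
  | mem T hT => exact hG T hT
  | algebraMap n => exact Good.algMap_good hL hh n
  | add T T' _ _ h1 h2 => exact h1.add_good hL h2
  | mul T T' _ _ h1 h2 => exact h1.mul_good hL h2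

/-- **the ring homomorphism attached to an eigenvector modulo `ker φ`.** -/
theorem exists_ringHom (hL : LatHyp A c L) (hh : h ∈ L) (hh1 : redc φ (c h 1) = 1)
    {𝒢 : Set (Module.End ℂ V)} (hG : ∀ T ∈ 𝒢, Good φ c L h T) :
    ∃ Θ : Algebra.adjoin ℤ 𝒢 →+* F, ∀ T : Algebra.adjoin ℤ 𝒢,
      Θ T = redc φ (c ((T : Module.End ℂ V) h) 1) := by
  have good : ∀ T : Algebra.adjoin ℤ 𝒢, Good φ c L h (T : Module.End ℂ V) := fun T =>
    good_of_mem_adjoin hL hh hG T.2
  refine ⟨{ toFun := fun T => redc φ (c ((T : Module.End ℂ V) h) 1)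
            map_one' := ?_, map_mul' := ?_, map_zero' := ?_, map_add' := ?_ }, fun T => rfl⟩
  · show redc φ (c (((1 : Algebra.adjoin ℤ 𝒢) : Module.End ℂ V) h) 1) = 1
    rw [OneMemClass.coe_one, Module.End.one_apply, hh1]
  · intro T T'
    show redc φ (c (((T * T' : Algebra.adjoin ℤ 𝒢) : Module.End ℂ V) h) 1) =
      redc φ (c ((T : Module.End ℂ V) h) 1) * redc φ (c ((T' : Module.End ℂ V) h) 1)
    obtain ⟨a, ha, hK⟩ := (good T).eig
    obtain ⟨a', ha', hK'⟩ := (good T').eig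
    rw [(good T).theta_eq hL hh hh1 ha hK, (good T').theta_eq hL hh hh1 ha' hK', MulMemClass.coe_mul,
      ((good T).mul_good hL (good T')).theta_eq hL hh hh1 (A.mul_mem ha ha')
        ((good T).mul hL (good T') ha ha' hK hK'), redc_mul φ ha ha']
  · show redc φ (c (((0 : Algebra.adjoin ℤ 𝒢) : Module.End ℂ V) h) 1) = 0
    rw [ZeroMemClass.coe_zero, LinearMap.zero_apply, map_zero, Pi.zero_apply, redc_zero]
  · intro T T'
    show redc φ (c (((T + T' : Algebra.adjoin ℤ 𝒢) : Module.End ℂ V) h) 1) =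
      redc φ (c ((T : Module.End ℂ V) h) 1) + redc φ (c ((T' : Module.End ℂ V) h) 1)
    rw [AddMemClass.coe_add, LinearMap.add_apply, map_add, Pi.add_apply,
      redc_add φ (hL.coeff_mem _ ((good T).mapL h hh) 1) (hL.coeff_mem _ ((good T').mapL h hh) 1)]

end abstract

end Fermat.Agent.M48.ThetaAlg7
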