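/-
M48 (helper7), leaf (THETA): **the reduction mod `ℓ` of the weight-one eigensystem of S48 occurs in weight two,
level `N ℓ`** (Deligne–Serre, Lemme 6.11 in the form needed for §9: multiplication by an Eisenstein series of
weight one congruent to `1`).

Input: `f ∈ S₁(Γ₁(N))` as in S48 (normalised, Hecke relations for the nebentypus `ε`), an odd prime `ℓ`, a subring
`A ⊆ ℂ` containing the `q`-coefficients of `f`, the values of `ε` and the `(ℓ-1)`-th roots of unity, and a ring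
homomorphism `φ : A →+* F`, `F` a field of characteristic `ℓ`.  No further hypothesis on `A`, `φ`, `ℓ ∤ N` is NOT needed.

* `ψ` := the inverse Teichmüller character with respect to `φ` (`ThetaAlg7.exists_teich`; odd since `ℓ ≠ 2`);
* `eis2 ψ = 2 ℓ E_{1,ψ}` (`EisChar7.E1`): coefficients in `A`, `φ(a₀) = 1`, `φ(aₙ) = 0` for `n ≥ 1`;
* `hForm f ψ = eis2 ψ · f ∈ S₂(Γ₁(N ℓ))`, nebentypus `chi ε ψ = ψ ε`, `φ(aₙ(h)) = φ(aₙ(f))` (`redc_hForm`);
* `lat A χ` = forms of weight two, level `N ℓ`, nebentypus `χ`, coefficients in `A`; `T_r` and `⟨d⟩` are *good*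
  (`good_T1`, `good_diamondC`), so `ThetaAlg7.exists_ringHom` applies;
* **`exists_theta`** : `∃ Θ : heckeAlgebra1 (N * ℓ) 2 S →+* F` with `Θ(T_r) = φ(a_r(f))` (`r ∤ N ℓ` prime, `r ∉ S`) and
  `Θ(⟨d⟩) · r = φ(ε(r))` whenever `r ≡ d mod N ℓ`.

Imported by no statement.
-/
import Mathlib
import Fermat.Agent.M48.MulForm1
import Fermat.Agent.M48.NebenOfHecke1
import Fermat.Agent.M48.EisChar7
import Fermat.Agent.M48.ThetaAlg7

set_option autoImplicit false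
set_option linter.unusedSectionVars false

open CongruenceSubgroup UpperHalfPlane ModularFormClass
open scoped MatrixGroups ModularForm

noncomputable section

namespace Fermat.Agent.M48.Theta7

open Fermat.Agent.M48.Diamond1 Fermat.Agent.M48.HeckeOne1 Fermat.Agent.M48.NiceQ1
  Fermat.Agent.M48.MulForm1 Fermat.Agent.M48.EisChar7 Fermat.Agent.M48.NebenOfHecke1
  Fermat.Agent.M48.ThetaAlg7

section lattice

variable {M : ℕ} [NeZero M] {A : Subring ℂ} {F : Type*} [Field F] (φ : A →+* F)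

/-- the `q`-coefficients of a cusp form, as a linear map. -/
def cL (M : ℕ) [NeZero M] (k : ℤ) : CuspForm (Gamma1 M) k →ₗ[ℂ] (ℕ → ℂ) where
  toFun g n := qCoeff ⇑g n
  map_add' g g' := funext fun n => qCoeffC_add g g' n
  map_smul' z g := funext fun n => qCoeffC_smul z g n

@[simp] theorem cL_apply {k : ℤ} (g : CuspForm (Gamma1 M) k) (n : ℕ) : cL M k g n = qCoeff ⇑g n := rfl

/-- the lattice of forms of weight two with nebentypus `χ` and `q`-coefficients in `A`. -/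
def lat (A : Subring ℂ) (χ : (ZMod M)ˣ → ℂ) : AddSubgroup (CuspForm (Gamma1 M) 2) where
  carrier := {g | (∀ n, qCoeff ⇑g n ∈ A) ∧ ∀ d, diamondC d g = χ d • g}
  zero_mem' := ⟨fun n => by rw [qCoeffC_zero_form]; exact A.zero_mem, fun d => by simp⟩
  add_mem' {g g'} hg hg' := ⟨fun n => by rw [qCoeffC_add]; exact A.add_mem (hg.1 n) (hg'.1 n),
    fun d => by rw [map_add, hg.2, hg'.2, smul_add]⟩
  neg_mem' {g} hg := ⟨fun n => by
    have : -g = (-1 : ℂ) • g := by simp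
    rw [this, qCoeffC_smul]
    exact A.mul_mem (A.neg_mem A.one_mem) (hg.1 n), fun d => by rw [map_neg, hg.2, smul_neg]⟩

variable {χ : (ZMod M)ˣ → ℂ}

theorem mem_lat {g : CuspForm (Gamma1 M) 2} :
    g ∈ lat A χ ↔ (∀ n, qCoeff ⇑g n ∈ A) ∧ ∀ d, diamondC d g = χ d • g := Iff.rfl

theorem latHyp : LatHyp A (cL M 2) (lat A χ) where
  smul_mem a ha g hg := ⟨fun n => by rw [qCoeffC_smul]; exact A.mul_mem ha (hg.1 n),
    fun d => by rw [map_smul, hg.2, smul_comm]⟩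
  coeff_mem g hg n := hg.1 n

/-- the diamond operators are good. -/
theorem good_diamondC (hχ : ∀ d, χ d ∈ A) {h : CuspForm (Gamma1 M) 2} (hh : h ∈ lat A χ)
    (d : (ZMod M)ˣ) : Good φ (cL M 2) (lat A χ) h (diamondC d) where
  mapL g hg := by
    rw [hg.2]
    exact latHyp.smul_mem _ (hχ d) g hg
  mapK g hg := by
    rw [hg.1.2]
    exact hg.smul latHyp (hχ d)
  eig := ⟨χ d, hχ d, by rw [hh.2, sub_self]; exact RKer.zero⟩

theorem qCoeff_T1_lat {r : ℕ} (hr : r.Prime) (hrM : ¬ r ∣ M) {g : CuspForm (Gamma1 M) 2}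
    (hg : g ∈ lat A χ) (n : ℕ) :
    qCoeff ⇑(T1 2 hr hrM g) n = qCoeff ⇑g (n * r) +
      if r ∣ n then ((r : ℂ) * χ (unitOfPrime hr hrM)) * qCoeff ⇑g (n / r) else 0 := by
  rw [qCoeff_T1, hg.2, qCoeffC_smul]
  congr 1
  split_ifs
  · rw [show (2 : ℤ) - 1 = 1 by norm_num, zpow_one, mul_assoc]
  · rfl

theorem T1_mem_lat (hχ : ∀ d, χ d ∈ A) {r : ℕ} (hr : r.Prime) (hrM : ¬ r ∣ M)
    {g : CuspForm (Gamma1 M) 2} (hg : g ∈ lat A χ) : T1 2 hr hrM g ∈ lat A χ := by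
  refine ⟨fun n => ?_, fun d => ?_⟩
  · rw [qCoeff_T1_lat hr hrM hg]
    refine A.add_mem (hg.1 _) ?_
    split_ifs
    · exact A.mul_mem (A.mul_mem (natCast_mem A r) (hχ _)) (hg.1 _)
    · exact A.zero_mem
  · rw [diamondC_T1, hg.2, map_smul]

theorem redc_qCoeff_T1_lat (hχ : ∀ d, χ d ∈ A) {r : ℕ} (hr : r.Prime) (hrM : ¬ r ∣ M)
    {g : CuspForm (Gamma1 M) 2} (hg : g ∈ lat A χ) (n : ℕ) :
    redc φ (qCoeff ⇑(T1 2 hr hrM g) n) = redc φ (qCoeff ⇑g (n * r)) +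
      if r ∣ n then redc φ ((r : ℂ) * χ (unitOfPrime hr hrM)) * redc φ (qCoeff ⇑g (n / r)) else 0 := by
  rw [qCoeff_T1_lat hr hrM hg]
  have hrχ : (r : ℂ) * χ (unitOfPrime hr hrM) ∈ A := A.mul_mem (natCast_mem A r) (hχ _)
  split_ifs
  · rw [redc_add φ (hg.1 _) (A.mul_mem hrχ (hg.1 _)), redc_mul φ hrχ (hg.1 _)]
  · rw [add_zero, add_zero]

/-- the Hecke operators `T_r` are good, if `h` is an eigenvector modulo `ker φ`. -/
theorem good_T1 (hχ : ∀ d, χ d ∈ A) {r : ℕ} (hr : r.Prime) (hrM : ¬ r ∣ M)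
    {h : CuspForm (Gamma1 M) 2} (hh : h ∈ lat A χ) {a : ℂ} (ha : a ∈ A)
    (hrel : ∀ n, redc φ (qCoeff ⇑h (n * r)) +
      (if r ∣ n then redc φ ((r : ℂ) * χ (unitOfPrime hr hrM)) * redc φ (qCoeff ⇑h (n / r)) else 0) =
        redc φ a * redc φ (qCoeff ⇑h n)) :
    Good φ (cL M 2) (lat A χ) h (T1 2 hr hrM) where
  mapL g hg := T1_mem_lat hχ hr hrM hg
  mapK g hg := by
    refine ⟨T1_mem_lat hχ hr hrM hg.1, fun n => ?_⟩
    rw [cL_apply, redc_qCoeff_T1_lat φ hχ hr hrM hg.1]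
    have h1 := hg.2 (n * r)
    have h2 := hg.2 (n / r)
    rw [cL_apply] at h1 h2
    rw [h1, h2, mul_zero, ite_self, add_zero]
  eig := by
    refine ⟨a, ha, (lat A χ).sub_mem (T1_mem_lat hχ hr hrM hh) (latHyp.smul_mem a ha h hh), fun n => ?_⟩
    rw [map_sub, map_smul, Pi.sub_apply, Pi.smul_apply, smul_eq_mul, cL_apply, cL_apply,
      redc_sub φ ((T1_mem_lat hχ hr hrM hh).1 n) (A.mul_mem ha (hh.1 n)), redc_mul φ ha (hh.1 n),
      redc_qCoeff_T1_lat φ hχ hr hrM hh, hrel, sub_self]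

end lattice

section specific

variable {N : ℕ} [NeZero N] {ℓ : ℕ} [Fact ℓ.Prime]
  (ε : DirichletCharacter ℂ N) (f : CuspForm (Gamma1 N) 1)
  (ψ : DirichletCharacter ℂ ℓ) (hodd : ψ (-1) = -1)

/-- the nebentypus `ψ ε` of level `N ℓ`. -/
def chi (d : (ZMod (N * ℓ))ˣ) : ℂ :=
  ψ ((ZMod.unitsMap (dvd_mul_left ℓ N) d : (ZMod ℓ)ˣ) : ZMod ℓ) *
    ε ((ZMod.unitsMap (dvd_mul_right N ℓ) d : (ZMod N)ˣ) : ZMod N)

/-- `2 ℓ E_{1,ψ}`, with constant term `-∑ j ψ(j)` and higher coefficients divisible by `ℓ`. -/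
def eis2 : ModularForm (Gamma1 ℓ) 1 := ((2 : ℂ) * (ℓ : ℂ)) • E1 ψ hodd

theorem qCoeff_eis2 (n : ℕ) : qCoeff ⇑(eis2 ψ hodd) n = ((2 : ℂ) * (ℓ : ℂ)) * aE ψ n := by
  rw [eis2, FunLike.coe_smul, qCoeff_smul (Nice.of_modularFormClass (E1 ψ hodd)), qCoeff_E1]

theorem qCoeff_eis2_zero :
    qCoeff ⇑(eis2 ψ hodd) 0 = -∑ j ∈ Finset.range ℓ, (j : ℂ) * ψ (j : ZMod ℓ) := by
  have hℓ : (ℓ : ℂ) ≠ 0 := by
    have : ℓ ≠ 0 := (Fact.out : ℓ.Prime).ne_zero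
    exact_mod_cast this
  rw [qCoeff_eis2, aE, if_pos rfl]
  field_simp

theorem qCoeff_eis2_pos {n : ℕ} (hn : n ≠ 0) :
    qCoeff ⇑(eis2 ψ hodd) n = ((2 : ℂ) * (ℓ : ℂ)) * ∑ d ∈ n.divisors, ψ (d : ZMod ℓ) := by
  rw [qCoeff_eis2, aE, if_neg hn]

/-- the weight-two form `h = 2 ℓ E_{1,ψ} f` of level `N ℓ`. -/
def hForm : CuspForm (Gamma1 (N * ℓ)) 2 :=
  CuspForm.mcast (by norm_num) (mulForm (dvd_mul_left ℓ N) (dvd_mul_right N ℓ) (eis2 ψ hodd) f)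

theorem coe_hForm :
    ⇑(hForm f ψ hodd) = ⇑(mulForm (dvd_mul_left ℓ N) (dvd_mul_right N ℓ) (eis2 ψ hodd) f) := rfl

theorem qCoeff_hForm (n : ℕ) :
    qCoeff ⇑(hForm f ψ hodd) n =
      ∑ x ∈ Finset.HasAntidiagonal.antidiagonal n, qCoeff ⇑(eis2 ψ hodd) x.1 * qCoeff ⇑f x.2 := by
  rw [coe_hForm, qCoeff_mulForm]

theorem diamondC_mcast {M : ℕ} [NeZero M] {a b : ℤ} (e : a = b) (d : (ZMod M)ˣ)
    (g : CuspForm (Gamma1 M) a) :
    diamondC d (CuspForm.mcast e g) = CuspForm.mcast e (diamondC d g) := by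
  subst e
  exact DFunLike.coe_injective rfl

theorem mcast_smul {M : ℕ} {a b : ℤ} (e : a = b) (z : ℂ) (g : CuspForm (Gamma1 M) a) :
    (CuspForm.mcast e (z • g) : CuspForm (Gamma1 M) b) = z • CuspForm.mcast e g := by
  subst e
  exact DFunLike.coe_injective rfl

theorem diamondC_hForm
    (hT : ∀ p : ℕ, p.Prime → ¬ p ∣ N → ∀ n : ℕ,
      ModularFormClass.qCoeff f (p * n) +
          ε (p : ZMod N) * (if p ∣ n then ModularFormClass.qCoeff f (n / p) else 0) =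
        ModularFormClass.qCoeff f p * ModularFormClass.qCoeff f n)
    (d : (ZMod (N * ℓ))ˣ) :
    diamondC d (hForm f ψ hodd) = chi ε ψ d • hForm f ψ hodd := by
  rw [hForm, diamondC_mcast, diamondC_mulForm_of_eq (dvd_mul_left ℓ N) (dvd_mul_right N ℓ) d
    (eis2 ψ hodd) f (a := ψ ((ZMod.unitsMap (dvd_mul_left ℓ N) d : (ZMod ℓ)ˣ) : ZMod ℓ))
    (b := ε ((ZMod.unitsMap (dvd_mul_right N ℓ) d : (ZMod N)ˣ) : ZMod N)), mcast_smul]
  · rfl
  · rw [eis2, map_smul, diamondM_E1, smul_comm]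
  · exact diamondC_eq_smul ε f hT _

end specific

section final

variable {N : ℕ} [NeZero N] {ℓ : ℕ} [Fact ℓ.Prime]
  (ε : DirichletCharacter ℂ N) (f : CuspForm (Gamma1 N) 1)
  {A : Subring ℂ} {F : Type*} [Field F] [CharP F ℓ] (φ : A →+* F)
  (ψ : DirichletCharacter ℂ ℓ)
  (hψ : ∀ a : ℕ, ¬ ℓ ∣ a → ∃ h : ψ (a : ZMod ℓ) ∈ A, φ ⟨ψ (a : ZMod ℓ), h⟩ * (a : F) = 1)

include hψ

theorem psi_mem (x : ZMod ℓ) : ψ x ∈ A := by
  by_cases hx : x = 0
  · rw [hx, MulChar.map_zero]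
    exact A.zero_mem
  · have h1 : ¬ ℓ ∣ x.val := by
      intro hd
      apply hx
      rw [← ZMod.natCast_zmod_val x, ZMod.natCast_eq_zero_iff]
      exact hd
    obtain ⟨h, -⟩ := hψ x.val h1
    rwa [ZMod.natCast_zmod_val] at h

theorem redc_psi {a : ℕ} (ha : ¬ ℓ ∣ a) : redc φ (ψ (a : ZMod ℓ)) * (a : F) = 1 := by
  obtain ⟨h, h1⟩ := hψ a ha
  rw [redc_of_mem φ h]
  exact h1

theorem psi_odd (hℓ2 : ℓ ≠ 2) : ψ (-1) = -1 := by
  have hℓ : ℓ.Prime := Fact.out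
  have h1 : ψ (-1) * ψ (-1) = 1 := by rw [← map_mul, neg_mul_neg, one_mul, map_one]
  rcases mul_self_eq_one_iff.1 h1 with h | h
  · exfalso
    have hnd : ¬ ℓ ∣ (ℓ - 1) := by
      intro hd
      have := Nat.le_of_dvd (by have := hℓ.two_le; omega) hd
      have := hℓ.two_le
      omega
    have hc : ((ℓ - 1 : ℕ) : ZMod ℓ) = -1 := by
      rw [Nat.cast_sub hℓ.one_lt.le, ZMod.natCast_self, Nat.cast_one, zero_sub]
    have hcF : ((ℓ - 1 : ℕ) : F) = -1 := by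
      rw [Nat.cast_sub hℓ.one_lt.le, CharP.cast_eq_zero, Nat.cast_one, zero_sub]
    have h2 := redc_psi φ ψ hψ hnd
    rw [hc, h, redc_one, hcF, one_mul] at h2
    have h3 : ((2 : ℕ) : F) = 0 := by
      have : (1 : F) + 1 = 0 := by
        nth_rewrite 1 [← h2]
        ring
      push_cast
      rw [← this]
      ring
    rw [CharP.cast_eq_zero_iff F ℓ] at h3
    exact hℓ2 ((Nat.prime_dvd_prime_iff_eq hℓ Nat.prime_two).1 h3)
  · exact h

variable (hodd : ψ (-1) = -1)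

theorem eis2_mem (n : ℕ) : qCoeff ⇑(eis2 ψ hodd) n ∈ A := by
  by_cases hn : n = 0
  · rw [hn, qCoeff_eis2_zero]
    exact A.neg_mem (A.sum_mem fun j _ => A.mul_mem (natCast_mem A j) (psi_mem φ ψ hψ _))
  · rw [qCoeff_eis2_pos ψ hodd hn]
    exact A.mul_mem (A.mul_mem (by exact_mod_cast natCast_mem A 2) (natCast_mem A ℓ))
      (A.sum_mem fun j _ => psi_mem φ ψ hψ _)

theorem redc_eis2_zero : redc φ (qCoeff ⇑(eis2 ψ hodd) 0) = 1 := by
  have hℓ : ℓ.Prime := Fact.out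
  rw [qCoeff_eis2_zero,
    redc_neg φ (A.sum_mem fun j _ => A.mul_mem (natCast_mem A j) (psi_mem φ ψ hψ _)),
    redc_sum φ _ _ (fun j _ => A.mul_mem (natCast_mem A j) (psi_mem φ ψ hψ _))]
  have hterm : ∀ j ∈ Finset.range ℓ,
      redc φ ((j : ℂ) * ψ (j : ZMod ℓ)) = if j = 0 then 0 else 1 := by
    intro j hj
    rw [redc_mul φ (natCast_mem A j) (psi_mem φ ψ hψ _), redc_natCast]
    split_ifs with h0
    · rw [h0, Nat.cast_zero, zero_mul]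
    · rw [mul_comm]
      apply redc_psi φ ψ hψ
      intro hd
      have := Nat.le_of_dvd (Nat.pos_of_ne_zero h0) hd
      have := Finset.mem_range.1 hj
      omega
  rw [Finset.sum_congr rfl hterm, Finset.sum_ite, Finset.sum_const_zero, zero_add,
    Finset.sum_const, nsmul_eq_mul, mul_one]
  have hcard : (Finset.filter (fun j => ¬ j = 0) (Finset.range ℓ)).card = ℓ - 1 := by
    rw [Finset.filter_ne' (Finset.range ℓ) 0, Finset.card_erase_of_mem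
      (Finset.mem_range.2 hℓ.pos), Finset.card_range]
  rw [hcard, Nat.cast_sub hℓ.one_lt.le, CharP.cast_eq_zero, Nat.cast_one, zero_sub, neg_neg]

theorem redc_eis2_pos {n : ℕ} (hn : n ≠ 0) : redc φ (qCoeff ⇑(eis2 ψ hodd) n) = 0 := by
  rw [qCoeff_eis2_pos ψ hodd hn]
  have h2 : ((2 : ℂ) * (ℓ : ℂ)) = ((2 * ℓ : ℕ) : ℂ) := by push_cast; ring
  rw [h2, redc_mul φ (natCast_mem A _) (A.sum_mem fun j _ => psi_mem φ ψ hψ _), redc_natCast,
    Nat.cast_mul, CharP.cast_eq_zero F ℓ, mul_zero, zero_mul]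

variable (hA : ∀ n, qCoeff ⇑f n ∈ A)

include hA

theorem hForm_coeff_mem (n : ℕ) : qCoeff ⇑(hForm f ψ hodd) n ∈ A := by
  rw [qCoeff_hForm]
  exact A.sum_mem fun x _ => A.mul_mem (eis2_mem φ ψ hψ hodd _) (hA _)

theorem redc_hForm (n : ℕ) : redc φ (qCoeff ⇑(hForm f ψ hodd) n) = redc φ (qCoeff ⇑f n) := by
  rw [qCoeff_hForm, redc_sum φ _ _ (fun x _ => A.mul_mem (eis2_mem φ ψ hψ hodd _) (hA _)),
    Finset.sum_eq_single (0, n)]
  · rw [redc_mul φ (eis2_mem φ ψ hψ hodd _) (hA _), redc_eis2_zero φ ψ hψ hodd, one_mul]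
  · intro x hx hne
    have hx1 : x.1 ≠ 0 := by
      intro h0
      apply hne
      rw [Finset.HasAntidiagonal.mem_antidiagonal] at hx
      ext
      · exact h0
      · show x.2 = n
        omega
    rw [redc_mul φ (eis2_mem φ ψ hψ hodd _) (hA _), redc_eis2_pos φ ψ hψ hodd hx1, zero_mul]
  · intro h
    exact absurd (Finset.HasAntidiagonal.mem_antidiagonal.2 (zero_add n)) h

omit hA in
theorem chi_of_natCast (d : (ZMod (N * ℓ))ˣ) (r : ℕ) (hrd : (r : ZMod (N * ℓ)) = d) :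
    chi ε ψ d = ψ (r : ZMod ℓ) * ε (r : ZMod N) := by
  unfold chi
  rw [ZMod.unitsMap_def, ZMod.unitsMap_def, Units.coe_map, Units.coe_map]
  show ψ (ZMod.castHom (dvd_mul_left ℓ N) (ZMod ℓ) (d : ZMod (N * ℓ))) *
    ε (ZMod.castHom (dvd_mul_right N ℓ) (ZMod N) (d : ZMod (N * ℓ))) = _
  rw [← hrd, map_natCast (ZMod.castHom (dvd_mul_left ℓ N) (ZMod ℓ)),
    map_natCast (ZMod.castHom (dvd_mul_right N ℓ) (ZMod N))]

omit hA hψ in
theorem not_dvd_of_unit (d : (ZMod (N * ℓ))ˣ) (r : ℕ) (hrd : (r : ZMod (N * ℓ)) = d) : ¬ ℓ ∣ r := by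
  intro hd
  have h1 : ((ZMod.unitsMap (dvd_mul_left ℓ N) d : (ZMod ℓ)ˣ) : ZMod ℓ) = (r : ZMod ℓ) := by
    rw [ZMod.unitsMap_def, Units.coe_map]
    show ZMod.castHom (dvd_mul_left ℓ N) (ZMod ℓ) (d : ZMod (N * ℓ)) = _
    rw [← hrd, map_natCast]
  rw [(ZMod.natCast_eq_zero_iff r ℓ).2 hd] at h1
  exact (Units.ne_zero _) h1

omit hA in
/-- `φ(r ψ(r) ε(r)) = φ(ε(r))`. -/
theorem redc_natCast_mul_chi (hε : ∀ d, ε d ∈ A) (d : (ZMod (N * ℓ))ˣ) (r : ℕ)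
    (hrd : (r : ZMod (N * ℓ)) = d) :
    redc φ ((r : ℂ) * chi ε ψ d) = redc φ (ε (r : ZMod N)) := by
  rw [chi_of_natCast ε φ ψ hψ d r hrd,
    redc_mul φ (natCast_mem A r) (A.mul_mem (psi_mem φ ψ hψ _) (hε _)),
    redc_mul φ (psi_mem φ ψ hψ _) (hε _), redc_natCast, ← mul_assoc, mul_comm (r : F),
    redc_psi φ ψ hψ (not_dvd_of_unit d r hrd), one_mul]

end final

section main

variable {N : ℕ} [NeZero N] {ℓ : ℕ} [Fact ℓ.Prime]

/-- **(THETA).** Let `f` be the weight-one form of S48 (normalised, with the Hecke relations for nebentypus `ε`),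
`ℓ` an odd prime, `A ⊆ ℂ` a subring containing the `q`-coefficients of `f`, the values of `ε` and the `(ℓ-1)`-th
roots of unity, and `φ : A →+* F` a ring homomorphism to a field of characteristic `ℓ`.  Then the reduction of
the system of eigenvalues of `f` occurs in weight two and level `N ℓ`: there is a ring homomorphism `Θ` from the
Hecke algebra of `S₂(Γ₁(N ℓ))` to `F` with `Θ(T_r) = φ(a_r)` and `Θ(⟨d⟩) · d = φ(ε(d))`. -/
theorem exists_theta (hℓ2 : ℓ ≠ 2) (ε : DirichletCharacter ℂ N) (f : CuspForm (Gamma1 N) 1)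
    (hf₁ : ModularFormClass.qCoeff f 1 = 1)
    (hT : ∀ p : ℕ, p.Prime → ¬ p ∣ N → ∀ n : ℕ,
      ModularFormClass.qCoeff f (p * n) +
          ε (p : ZMod N) * (if p ∣ n then ModularFormClass.qCoeff f (n / p) else 0) =
        ModularFormClass.qCoeff f p * ModularFormClass.qCoeff f n)
    (A : Subring ℂ) {F : Type*} [Field F] [CharP F ℓ] (φ : A →+* F)
    (hA : ∀ n, ModularFormClass.qCoeff f n ∈ A) (hε : ∀ d, ε d ∈ A)
    (hμ : ∀ ζ : ℂ, ζ ^ (ℓ - 1) = 1 → ζ ∈ A) (S : Set ℕ) :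
    ∃ Θ : heckeAlgebra1 (N * ℓ) 2 S →+* F,
      (∀ (r : ℕ) (hr : r.Prime) (hrM : ¬ r ∣ N * ℓ) (hrS : r ∉ S),
        Θ ⟨T1 2 hr hrM, T1_mem_heckeAlgebra1 hr hrM hrS⟩ = φ ⟨qCoeff ⇑f r, hA r⟩) ∧
      (∀ (d : (ZMod (N * ℓ))ˣ) (r : ℕ), (r : ZMod (N * ℓ)) = d →
        Θ ⟨diamondC d, diamondC_mem_heckeAlgebra1 d⟩ * (r : F) = φ ⟨ε (r : ZMod N), hε _⟩) := by
  obtain ⟨ψ, hψ⟩ := exists_teich A φ hμ
  have hodd : ψ (-1) = -1 := psi_odd φ ψ hψ hℓ2
  have hχ : ∀ d, chi ε ψ d ∈ A := fun d => A.mul_mem (psi_mem φ ψ hψ _) (hε _)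
  have hh : hForm f ψ hodd ∈ lat A (chi ε ψ) :=
    ⟨hForm_coeff_mem f φ ψ hψ hodd hA, diamondC_hForm ε f ψ hodd hT⟩
  have hh1 : redc φ (cL (N * ℓ) 2 (hForm f ψ hodd) 1) = 1 := by
    rw [cL_apply, redc_hForm f φ ψ hψ hodd hA, hf₁, redc_one]
  have hG : ∀ T ∈ ({T | ∃ r : ℕ, r.Prime ∧ ¬ r ∣ N * ℓ ∧ r ∉ S ∧ T = Tnat (N * ℓ) 2 r} ∪
      Set.range (diamondHom (N * ℓ) 2) : Set (Module.End ℂ (CuspForm (Gamma1 (N * ℓ)) 2))),
      Good φ (cL (N * ℓ) 2) (lat A (chi ε ψ)) (hForm f ψ hodd) T := by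
    rintro T (⟨r, hr, hrM, -, rfl⟩ | ⟨d, rfl⟩)
    · rw [Tnat_of_prime hr hrM]
      have hrN : ¬ r ∣ N := fun h => hrM (h.trans (dvd_mul_right N ℓ))
      refine good_T1 φ hχ hr hrM hh (hA r) fun n => ?_
      rw [redc_hForm f φ ψ hψ hodd hA, redc_hForm f φ ψ hψ hodd hA, redc_hForm f φ ψ hψ hodd hA,
        redc_natCast_mul_chi ε φ ψ hψ hε _ r (coe_unitOfPrime hr hrM).symm]
      have := congrArg (redc φ) (hT r hr hrN n)
      rw [redc_mul φ (hA _) (hA _), mul_comm r n] at this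
      rw [← this]
      split_ifs with hrn
      · rw [redc_add φ (hA _) (A.mul_mem (hε _) (hA _)), redc_mul φ (hε _) (hA _)]
      · rw [mul_zero, add_zero, add_zero]
    · exact good_diamondC φ hχ hh d
  obtain ⟨Θ, hΘ⟩ : ∃ Θ : heckeAlgebra1 (N * ℓ) 2 S →+* F, ∀ T : heckeAlgebra1 (N * ℓ) 2 S,
      Θ T = redc φ (cL (N * ℓ) 2 ((T : Module.End ℂ (CuspForm (Gamma1 (N * ℓ)) 2))
        (hForm f ψ hodd)) 1) := exists_ringHom latHyp hh hh1 hG
  refine ⟨Θ, fun r hr hrM hrS => ?_, fun d r hrd => ?_⟩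
  · rw [hΘ]
    show redc φ (cL (N * ℓ) 2 (T1 2 hr hrM (hForm f ψ hodd)) 1) = _
    rw [cL_apply, redc_qCoeff_T1_lat φ hχ hr hrM hh, if_neg (Nat.Prime.not_dvd_one hr), add_zero,
      one_mul, redc_hForm f φ ψ hψ hodd hA, redc_of_mem φ (hA r)]
  · rw [hΘ]
    show redc φ (cL (N * ℓ) 2 (diamondC d (hForm f ψ hodd)) 1) * (r : F) = _
    rw [hh.2, map_smul, Pi.smul_apply, smul_eq_mul, cL_apply, redc_mul φ (hχ d) (hh.1 1),
      redc_hForm f φ ψ hψ hodd hA, hf₁, redc_one, mul_one, ← redc_of_mem φ (hε _),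
      ← redc_natCast_mul_chi ε φ ψ hψ hε d r hrd, redc_mul φ (natCast_mem A r) (hχ d), redc_natCast,
      mul_comm]

end main

end Fermat.Agent.M48.Theta7
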