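/-
M48 (lead), top assembly: **S48 from (P1-RES) alone.**

All other blocks of the programme are theorems on main:
* (DS)     `DSMain9.dsAlg       : DSInterfaces9.DSAlgStmt`   (helper9),
* (CHEB)   `ChebQbar2.cheb_lower : DSInterfaces9.ChebStmt`   (helper2),
* (R2a)    `R2aMain4.r2a N       : W1R2a0.R2Rat ↑(Gamma1 (N * 4))` (helper4),
* (RESFAM) `ResFam7.resFam` (helper7) : (P1-RES) + (R2a) ⇒ body of `Top0.ResFamStmt`,
* (SPARSE) / (RANKIN) inside `Top0.s48_of` (lead, helper5).

`s48_of_p1 : P1Target8.P1ResStmt → (the literal statement of S48)`.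
Nothing is left unproved in this file; (P1-RES) is a hypothesis.  Imported by no statement.
-/
import Mathlib
import Fermat.Agent.M48.Top0
import Fermat.Agent.M48.DSMain9
import Fermat.Agent.M48.ChebQbar2
import Fermat.Agent.M48.R2aMain4
import Fermat.Agent.M48.ResFam7

set_option autoImplicit false

open UpperHalfPlane ModularForm ModularFormClass CongruenceSubgroup
open scoped MatrixGroups ModularForm Manifold Real

noncomputable section

namespace Fermat.Agent.M48.TopAsm0

open Fermat.Agent.M48.Top0 Fermat.Agent.M48.DSInterfaces9 Fermat.Agent.M48.P1Target8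

/-- leaf (R2a), in the form consumed by `Top0.s48_of`. -/
theorem r2aStmt : R2aStmt := fun N _ => R2aMain4.r2a N

/-- block (RESFAM) from (P1-RES), in the form consumed by `Top0.s48_of`. -/
theorem resFamStmt_of (hP1 : P1ResStmt) : ResFamStmt := fun N _ ε f h =>
  ResFam7.resFam N ε f hP1 h.1 h.2 (R2aMain4.r2a N)

/-- **S48 from (P1-RES) alone**, literal statement. -/
theorem s48_of_p1 (hP1 : P1ResStmt)
    (N : ℕ) [NeZero N] (ε : DirichletCharacter ℂ N) (f : CuspForm (Gamma1 N) 1)
    (hf₁ : ModularFormClass.qCoeff f 1 = 1)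
    (hT : ∀ p : ℕ, p.Prime → ¬ p ∣ N → ∀ n : ℕ,
        ModularFormClass.qCoeff f (p * n) +
            ε (p : ZMod N) * (if p ∣ n then ModularFormClass.qCoeff f (n / p) else 0) =
          ModularFormClass.qCoeff f p * ModularFormClass.qCoeff f n) :
    ∃ ρ : GQ →* GL (Fin 2) ℂ, GaloisFactorsThroughFiniteLevel ρ ∧
      (Deformation.matrixRepresentation ρ).IsIrreducible ∧
      ∀ p : ℕ, p.Prime → ¬ p ∣ N →
        ∀ A : ValuationSubring (AlgebraicClosure ℚ), A.LiesOverPrime p →
          (∀ σ ∈ A.inertiaSubgroupIn ℚ, ρ σ = 1) ∧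
          ∀ σ : GQ, A.IsFrobeniusAt σ p →
            ((ρ σ : GL (Fin 2) ℂ) : Matrix (Fin 2) (Fin 2) ℂ).trace =
              ModularFormClass.qCoeff f p ∧
            ((ρ σ : GL (Fin 2) ℂ) : Matrix (Fin 2) (Fin 2) ℂ).det = ε (p : ZMod N) :=
  s48_of DSMain9.dsAlg ChebQbar2.cheb_lower r2aStmt (resFamStmt_of hP1) N ε f hf₁ hT

end Fermat.Agent.M48.TopAsm0
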