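/-
M48 (lead), leaf (W1-RAT), part (O4): **reduction of a finitely generated subring of `ℂ` to the
prime fields `𝔽_ℓ` for infinitely many `ℓ`**, with the `(ℓ-1)`-st roots of unity adjoined.

* `infinite_prime_dvd_eval` (Schur): a nonconstant `P ∈ ℤ[X]` has a root modulo infinitely many
  primes;
* `awaySubring B₀ m`, `awayHom`: the subring `B₀[1/m] ⊆ K'` of a field and the extension of a
  homomorphism `B₀ →+* F` with `m ↦ unit` to it (localisation by hand, no `IsLocalization`);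
* `exists_integral_primitive`, `exists_int_mul_mem`, `exists_common_int_mul_mem`: a number field is
  `ℚ(θ)` with `θ` integral, and finitely many elements lie in `ℤ[θ][1/m]`;
* `exists_hom_zmod_of_numberField`, `exists_hom_zmod`: a finitely generated subring `ℤ[T] ⊆ ℂ`
  admits ring homomorphisms to `ZMod ℓ` for infinitely many primes `ℓ` (Zariski specialisation to a
  number field, `θ ↦ n mod ℓ` with `ℓ ∣ P_θ(n)`, `ℓ ∤ m`);
* `exists_extension`: a homomorphism `R₀ →+* ZMod ℓ` extends to `R₀[μ_{ℓ-1}] →+* ZMod ℓ`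
  (lying over + the roots of `X^ℓ - X` in a field of characteristic `ℓ` are the prime field);
* `exists_reductions_of_finite`, **`exists_reductions`** = (O4): for `a : ℕ → ℂ` with values in a
  finitely generated `ℤ`-module and a Dirichlet character `ε` there are infinitely many primes
  `ℓ ∤ D` with a subring `A ⊆ ℂ` containing all `a n`, all `ε d`, all `(ℓ-1)`-st roots of unity,
  and a ring homomorphism `A →+* ZMod ℓ`.

Mathlib only.
-/
import Mathlib

set_option autoImplicit false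
set_option linter.style.haveILetI false

noncomputable section

open Polynomial IntermediateField

namespace Fermat.Agent.M48.W1Red0

variable {K' F : Type*} [Field K'] [Field F]

/-- the subring of elements of `K'` with a power-of-`m` multiple in `B₀`. -/
def awaySubring (B₀ : Subring K') (m : ℤ) : Subring K' where
  carrier := {y | ∃ (k : ℕ) (b : B₀), (m : K') ^ k * y = (b : K')}
  mul_mem' := by
    rintro y₁ y₂ ⟨k₁, b₁, h₁⟩ ⟨k₂, b₂, h₂⟩
    refine ⟨k₁ + k₂, b₁ * b₂, ?_⟩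
    rw [Subring.coe_mul, ← h₁, ← h₂, pow_add]
    ring
  one_mem' := ⟨0, 1, by simp⟩
  add_mem' := by
    rintro y₁ y₂ ⟨k₁, b₁, h₁⟩ ⟨k₂, b₂, h₂⟩
    refine ⟨k₁ + k₂, ((m : ℤ) : B₀) ^ k₂ * b₁ + ((m : ℤ) : B₀) ^ k₁ * b₂, ?_⟩
    simp only [Subring.coe_add, Subring.coe_mul, Subring.coe_pow, Subring.coe_intCast]
    rw [← h₁, ← h₂, pow_add]
    ring
  zero_mem' := ⟨0, 0, by simp⟩
  neg_mem' := by
    rintro y ⟨k, b, h⟩
    exact ⟨k, -b, by rw [Subring.coe_neg, ← h]; ring⟩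

theorem mem_awaySubring {B₀ : Subring K'} {m : ℤ} {y : K'} :
    y ∈ awaySubring B₀ m ↔ ∃ (k : ℕ) (b : B₀), (m : K') ^ k * y = (b : K') := Iff.rfl

/-! ### denominators in a simple extension -/

/-- every element of `ℚ(θ) = K'` has an integer multiple in `ℤ[θ]`. -/
theorem exists_int_mul_mem [Algebra ℚ K'] (θ : K') (hθ : IsAlgebraic ℚ θ) (htop : ℚ⟮θ⟯ = ⊤)
    (y : K') : ∃ d : ℤ, d ≠ 0 ∧ (d : K') * y ∈ Algebra.adjoin ℤ {θ} := by
  have hy : y ∈ Algebra.adjoin ℚ {θ} := by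
    rw [← adjoin_simple_toSubalgebra_of_isAlgebraic hθ, htop]
    exact Algebra.mem_top
  induction hy using Algebra.adjoin_induction with
  | mem x hx =>
    rw [Set.mem_singleton_iff] at hx
    subst hx
    exact ⟨1, one_ne_zero, by simp⟩
  | algebraMap r =>
    refine ⟨r.den, by exact_mod_cast r.den_ne_zero, ?_⟩
    have : ((r.den : ℤ) : K') * algebraMap ℚ K' r = ((r.num : ℤ) : K') := by
      have h := Rat.den_mul_eq_num r
      have h2 := congrArg (algebraMap ℚ K') h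
      rw [map_mul, map_natCast, map_intCast] at h2
      simpa using h2
    rw [this]
    exact intCast_mem _ _
  | add x y _ _ hx hy =>
    obtain ⟨d₁, hd₁, h₁⟩ := hx
    obtain ⟨d₂, hd₂, h₂⟩ := hy
    refine ⟨d₁ * d₂, mul_ne_zero hd₁ hd₂, ?_⟩
    have : ((d₁ * d₂ : ℤ) : K') * (x + y) =
        (d₂ : K') * ((d₁ : K') * x) + (d₁ : K') * ((d₂ : K') * y) := by
      push_cast; ring
    rw [this]
    exact add_mem (mul_mem (intCast_mem _ _) h₁) (mul_mem (intCast_mem _ _) h₂)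
  | mul x y _ _ hx hy =>
    obtain ⟨d₁, hd₁, h₁⟩ := hx
    obtain ⟨d₂, hd₂, h₂⟩ := hy
    refine ⟨d₁ * d₂, mul_ne_zero hd₁ hd₂, ?_⟩
    have : ((d₁ * d₂ : ℤ) : K') * (x * y) = ((d₁ : K') * x) * ((d₂ : K') * y) := by
      push_cast; ring
    rw [this]
    exact mul_mem h₁ h₂

/-- a primitive element which is integral over `ℤ`. -/
theorem exists_integral_primitive [CharZero K'] [Algebra ℚ K'] [FiniteDimensional ℚ K'] :
    ∃ θ : K', IsIntegral ℤ θ ∧ ℚ⟮θ⟯ = ⊤ := by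
  obtain ⟨α, hα⟩ := Field.exists_primitive_element ℚ K'
  have halg : IsAlgebraic ℤ α :=
    (IsFractionRing.isAlgebraic_iff ℤ ℚ K').mpr (Algebra.IsAlgebraic.isAlgebraic α)
  obtain ⟨d, hd, hint⟩ := halg.exists_integral_multiple
  refine ⟨d • α, hint, ?_⟩
  rw [eq_top_iff, ← hα, adjoin_simple_le_iff]
  have hd' : (d : K') ≠ 0 := Int.cast_ne_zero.mpr hd
  have hmem : d • α ∈ ℚ⟮d • α⟯ := mem_adjoin_simple_self ℚ _
  have h1 : (d : K')⁻¹ * (d • α) ∈ ℚ⟮d • α⟯ := mul_mem (inv_mem (intCast_mem _ d)) hmem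
  have h2 : (d : K')⁻¹ * (d • α) = α := by
    rw [zsmul_eq_mul, ← mul_assoc, inv_mul_cancel₀ hd', one_mul]
  rwa [h2] at h1

/-- common denominator for finitely many elements. -/
theorem exists_common_int_mul_mem [Algebra ℚ K'] (θ : K') (hθ : IsAlgebraic ℚ θ)
    (htop : ℚ⟮θ⟯ = ⊤) (Y : Set K') (hY : Y.Finite) :
    ∃ m : ℤ, m ≠ 0 ∧ ∀ y ∈ Y, (m : K') * y ∈ Algebra.adjoin ℤ {θ} := by
  classical
  choose d hd0 hd using exists_int_mul_mem θ hθ htop
  refine ⟨∏ y ∈ hY.toFinset, d y, Finset.prod_ne_zero_iff.mpr fun y _ => hd0 y, fun y hy => ?_⟩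
  have hy' : y ∈ hY.toFinset := hY.mem_toFinset.mpr hy
  rw [← Finset.mul_prod_erase _ _ hy']
  have : (((d y * ∏ x ∈ hY.toFinset.erase y, d x : ℤ)) : K') * y =
      ((∏ x ∈ hY.toFinset.erase y, d x : ℤ) : K') * ((d y : K') * y) := by
    push_cast; ring
  rw [this]
  exact mul_mem (intCast_mem _ _) (hd y)

section away
variable (B₀ : Subring K') (ψ₀ : B₀ →+* F) (m : ℤ)

/-- the extension, as a function. -/
def awayFun (y : awaySubring B₀ m) : F :=
  ψ₀ (Classical.choose (Classical.choose_spec y.2)) *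
    ((m : F) ^ (Classical.choose y.2))⁻¹

theorem awayFun_eq (hm : (m : F) ≠ 0) (y : awaySubring B₀ m) (k : ℕ) (b : B₀)
    (h : (m : K') ^ k * (y : K') = (b : K')) :
    awayFun B₀ ψ₀ m y = ψ₀ b * ((m : F) ^ k)⁻¹ := by
  set k₀ := Classical.choose y.2 with hk₀
  set b₀ := Classical.choose (Classical.choose_spec y.2) with hb₀
  have h₀ : (m : K') ^ k₀ * (y : K') = (b₀ : K') :=
    Classical.choose_spec (Classical.choose_spec y.2)
  have hB : ((m : ℤ) : B₀) ^ k * b₀ = ((m : ℤ) : B₀) ^ k₀ * b := by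
    apply Subtype.ext
    simp only [Subring.coe_mul, Subring.coe_pow, Subring.coe_intCast]
    rw [← h₀, ← h]
    ring
  have hF := congrArg ψ₀ hB
  rw [map_mul, map_mul, map_pow, map_pow, map_intCast] at hF
  have hk : (m : F) ^ k ≠ 0 := pow_ne_zero _ hm
  have hk0 : (m : F) ^ k₀ ≠ 0 := pow_ne_zero _ hm
  show ψ₀ b₀ * ((m : F) ^ k₀)⁻¹ = ψ₀ b * ((m : F) ^ k)⁻¹
  field_simp
  linear_combination hF

/-- the extension of `ψ₀` to the subring of elements with denominators powers of `m`. -/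
def awayHom (hm : (m : F) ≠ 0) : awaySubring B₀ m →+* F where
  toFun := awayFun B₀ ψ₀ m
  map_one' := by
    rw [awayFun_eq B₀ ψ₀ m hm 1 0 1 (by simp)]
    simp
  map_mul' := by
    intro y₁ y₂
    obtain ⟨k₁, b₁, h₁⟩ := y₁.2
    obtain ⟨k₂, b₂, h₂⟩ := y₂.2
    rw [awayFun_eq B₀ ψ₀ m hm y₁ k₁ b₁ h₁, awayFun_eq B₀ ψ₀ m hm y₂ k₂ b₂ h₂,
      awayFun_eq B₀ ψ₀ m hm (y₁ * y₂) (k₁ + k₂) (b₁ * b₂) (by
        rw [Subring.coe_mul, Subring.coe_mul, ← h₁, ← h₂, pow_add]; ring)]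
    rw [map_mul, pow_add, mul_inv]
    ring
  map_zero' := by
    rw [awayFun_eq B₀ ψ₀ m hm 0 0 0 (by simp)]
    simp
  map_add' := by
    intro y₁ y₂
    obtain ⟨k₁, b₁, h₁⟩ := y₁.2
    obtain ⟨k₂, b₂, h₂⟩ := y₂.2
    have hk1 : (m : F) ^ k₁ ≠ 0 := pow_ne_zero _ hm
    have hk2 : (m : F) ^ k₂ ≠ 0 := pow_ne_zero _ hm
    rw [awayFun_eq B₀ ψ₀ m hm y₁ k₁ b₁ h₁, awayFun_eq B₀ ψ₀ m hm y₂ k₂ b₂ h₂,
      awayFun_eq B₀ ψ₀ m hm (y₁ + y₂) (k₁ + k₂)
        (((m : ℤ) : B₀) ^ k₂ * b₁ + ((m : ℤ) : B₀) ^ k₁ * b₂) (by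
        simp only [Subring.coe_add, Subring.coe_mul, Subring.coe_pow, Subring.coe_intCast]
        rw [← h₁, ← h₂, pow_add]; ring)]
    rw [map_add, map_mul, map_mul, map_pow, map_pow, map_intCast, pow_add]
    field_simp


end away

theorem infinite_prime_dvd_eval (P : ℤ[X]) (hP : 0 < P.natDegree) :
    {ℓ : ℕ | ℓ.Prime ∧ ∃ n : ℤ, (ℓ : ℤ) ∣ P.eval n}.Infinite := by
  intro hfin
  set S : Finset ℕ := hfin.toFinset with hS
  have hSmem : ∀ ℓ : ℕ, ℓ ∈ S ↔ ℓ.Prime ∧ ∃ n : ℤ, (ℓ : ℤ) ∣ P.eval n := fun ℓ => by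
    rw [hS, Set.Finite.mem_toFinset]
    rfl
  set M : ℤ := ∏ ℓ ∈ S, (ℓ : ℤ) with hM
  have hM0 : M ≠ 0 := by
    rw [hM, Finset.prod_ne_zero_iff]
    intro ℓ hℓ
    have := ((hSmem ℓ).mp hℓ).1.pos
    exact_mod_cast this.ne'
  set c : ℤ := P.eval 0 with hc
  by_cases hc0 : c = 0
  · -- every prime divides a value
    refine Nat.infinite_setOfPred_prime (hfin.subset fun ℓ hℓ => ⟨hℓ, (ℓ : ℤ), ?_⟩)
    have := sub_dvd_eval_sub (ℓ : ℤ) 0 P
    rwa [sub_zero, ← hc, hc0, sub_zero] at this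
  · have key : ∀ x : ℤ, P.eval (c * M * x) = c ∨ P.eval (c * M * x) = -c := by
      intro x
      obtain ⟨k, hk⟩ := sub_dvd_eval_sub (c * M * x) 0 P
      rw [sub_zero, ← hc] at hk
      set u : ℤ := 1 + M * x * k with hu
      have hPu : P.eval (c * M * x) = c * u := by
        rw [hu]
        linear_combination hk
      have hu1 : u.natAbs = 1 := by
        by_contra hne
        obtain ⟨p, hp, hpu⟩ := Int.exists_prime_and_dvd hne
        have hpP : p ∣ P.eval (c * M * x) := hPu ▸ Dvd.dvd.mul_left hpu c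
        have hpS : p.natAbs ∈ S := by
          rw [hSmem]
          refine ⟨Int.prime_iff_natAbs_prime.mp hp, c * M * x, ?_⟩
          exact Int.natAbs_dvd.mpr hpP
        have hpM : p ∣ M := by
          have : (p.natAbs : ℤ) ∣ M := Finset.dvd_prod_of_mem (fun ℓ : ℕ => (ℓ : ℤ)) hpS
          exact Int.natAbs_dvd.mp this
        have hp1 : p ∣ 1 := by
          have h1 : (1 : ℤ) = u - M * x * k := by rw [hu]; ring
          rw [h1]
          exact dvd_sub hpu (Dvd.dvd.mul_right (Dvd.dvd.mul_right hpM x) k)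
        exact hp.not_dvd_one hp1
      rcases Int.natAbs_eq u with h | h
      · left
        rw [hPu, h, hu1]
        simp
      · right
        rw [hPu, h, hu1]
        simp
    set Q : ℤ[X] := (P - C c) * (P + C c) with hQ
    have hQ0 : Q ≠ 0 := by
      have h1 : (P - C c) ≠ 0 := by
        intro h
        have := congrArg natDegree h
        rw [natDegree_sub_C, natDegree_zero] at this
        omega
      have h2 : (P + C c) ≠ 0 := by
        intro h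
        have := congrArg natDegree h
        rw [natDegree_add_C, natDegree_zero] at this
        omega
      exact mul_ne_zero h1 h2
    apply hQ0
    apply Polynomial.eq_zero_of_infinite_isRoot
    have hinj : Function.Injective fun x : ℤ => c * M * x := by
      intro x y hxy
      exact mul_left_cancel₀ (mul_ne_zero hc0 hM0) hxy
    refine Set.infinite_of_injective_forall_mem hinj fun x => ?_
    simp only [Set.mem_ofPred_eq, IsRoot.def, hQ, eval_mul, eval_sub, eval_add, eval_C]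
    rcases key x with h | h
    · rw [h]; simp
    · rw [h]; simp


/-- **Reduction of a finitely generated ring with a map to a number field to prime fields.** -/
theorem exists_hom_zmod_of_numberField {R : Type*} [CommRing R] [CharZero K'] [Algebra ℚ K']
    [FiniteDimensional ℚ K'] (ψ : R →+* K') (S : Set R) (hS : S.Finite)
    (hgen : Algebra.adjoin ℤ S = ⊤) (D : ℕ) (hD : D ≠ 0) :
    ∃ L : Set ℕ, L.Infinite ∧ ∀ ℓ ∈ L, ℓ.Prime ∧ ¬ ℓ ∣ D ∧ Nonempty (R →+* ZMod ℓ) := by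
  classical
  obtain ⟨θ, hθint, hθtop⟩ := exists_integral_primitive (K' := K')
  have hθalg : IsAlgebraic ℚ θ := Algebra.IsAlgebraic.isAlgebraic θ
  obtain ⟨m, hm0, hm⟩ := exists_common_int_mul_mem θ hθalg hθtop (ψ '' S) (hS.image _)
  set B₀ : Subring K' := (Algebra.adjoin ℤ {θ}).toSubring with hB₀
  set C : Subring K' := awaySubring B₀ m with hC
  have hψC : ∀ x : R, ψ x ∈ C := by
    intro x
    have hx : x ∈ Algebra.adjoin ℤ S := hgen ▸ Algebra.mem_top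
    induction hx using Algebra.adjoin_induction with
    | mem s hs =>
      exact ⟨1, ⟨(m : K') * ψ s, hm _ (Set.mem_image_of_mem _ hs)⟩, by simp⟩
    | algebraMap r =>
      rw [eq_intCast, map_intCast]
      exact intCast_mem _ _
    | add x y _ _ hx hy => rw [map_add]; exact add_mem hx hy
    | mul x y _ _ hx hy => rw [map_mul]; exact mul_mem hx hy
  set P : ℤ[X] := minpoly ℤ θ with hP
  have hPdeg : 0 < P.natDegree := minpoly.natDegree_pos hθint
  have hM0 : m.natAbs * D ≠ 0 := mul_ne_zero (Int.natAbs_ne_zero.mpr hm0) hD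
  have hfin : {ℓ : ℕ | ℓ ∣ m.natAbs * D}.Finite :=
    (Nat.divisors (m.natAbs * D)).finite_toSet.subset fun ℓ hℓ => by
      simpa [Nat.mem_divisors] using And.intro hℓ hM0
  refine ⟨{ℓ : ℕ | ℓ.Prime ∧ ∃ n : ℤ, (ℓ : ℤ) ∣ P.eval n} \ {ℓ : ℕ | ℓ ∣ m.natAbs * D},
    (infinite_prime_dvd_eval P hPdeg).sdiff hfin, ?_⟩
  rintro ℓ ⟨⟨hℓ, n, hn⟩, hℓM⟩
  have hℓm : ¬ ℓ ∣ m.natAbs := fun h => hℓM (Dvd.dvd.mul_right h D)
  have hℓD : ¬ ℓ ∣ D := fun h => hℓM (Dvd.dvd.mul_left h _)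
  refine ⟨hℓ, hℓD, ?_⟩
  haveI : Fact ℓ.Prime := ⟨hℓ⟩
  have hmF : ((m : ℤ) : ZMod ℓ) ≠ 0 := by
    rw [Ne, ZMod.intCast_zmod_eq_zero_iff_dvd, Int.natCast_dvd]
    exact hℓm
  -- the reduction of `ℤ[θ]`
  let pb := Algebra.adjoin.powerBasis' hθint
  have hy : aeval ((n : ℤ) : ZMod ℓ) (minpoly ℤ pb.gen) = 0 := by
    rw [show minpoly ℤ pb.gen = P from (Algebra.adjoin.powerBasis'_minpoly_gen hθint).symm]
    have h1 : aeval ((n : ℤ) : ZMod ℓ) P = algebraMap ℤ (ZMod ℓ) (aeval n P) := by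
      rw [← aeval_algebraMap_apply]
      simp
    rw [h1, coe_aeval_eq_eval, eq_intCast, ZMod.intCast_zmod_eq_zero_iff_dvd]
    exact hn
  let ψ₀ : B₀ →+* ZMod ℓ := (pb.lift _ hy).toRingHom
  exact ⟨(awayHom B₀ ψ₀ m hmF).comp (ψ.codRestrict C hψC)⟩

/-- **Reduction of a finitely generated subring of `ℂ` to infinitely many prime fields.** -/
theorem exists_hom_zmod (T : Set ℂ) (hT : T.Finite) (D : ℕ) (hD : D ≠ 0) :
    ∃ L : Set ℕ, L.Infinite ∧ ∀ ℓ ∈ L, ℓ.Prime ∧ ¬ ℓ ∣ D ∧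
      Nonempty (Algebra.adjoin ℤ T →+* ZMod ℓ) := by
  classical
  set Kalg : Subalgebra ℚ ℂ := Algebra.adjoin ℚ T with hKalg
  haveI : Algebra.FiniteType ℚ Kalg := Algebra.FiniteType.adjoin_of_finite hT
  obtain ⟨𝔪, h𝔪⟩ := Ideal.exists_maximal Kalg
  letI : Field (Kalg ⧸ 𝔪) := Ideal.Quotient.field 𝔪
  letI alg : Algebra ℚ (Kalg ⧸ 𝔪) := Ideal.Quotient.algebra ℚ
  haveI hfd : Module.Finite ℚ (Kalg ⧸ 𝔪) := finite_of_finite_type_of_isJacobsonRing ℚ (Kalg ⧸ 𝔪)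
  haveI hcz : CharZero (Kalg ⧸ 𝔪) :=
    charZero_of_injective_algebraMap (algebraMap ℚ (Kalg ⧸ 𝔪)).injective
  have hle : ∀ x ∈ Algebra.adjoin ℤ T, x ∈ Kalg := by
    intro x hx
    induction hx using Algebra.adjoin_induction with
    | mem s hs => exact Algebra.subset_adjoin hs
    | algebraMap r => rw [eq_intCast]; exact intCast_mem _ _
    | add x y _ _ hx hy => exact add_mem hx hy
    | mul x y _ _ hx hy => exact mul_mem hx hy
  let incl : Algebra.adjoin ℤ T →+* Kalg :=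
    ((Algebra.adjoin ℤ T).val.toRingHom).codRestrict Kalg (fun x => hle x.1 x.2)
  exact @exists_hom_zmod_of_numberField (Kalg ⧸ 𝔪) _ _ _ hcz alg hfd ((Ideal.Quotient.mk 𝔪).comp incl)
    (((↑) : Algebra.adjoin ℤ T → ℂ) ⁻¹' T) (hT.preimage Subtype.val_injective.injOn)
    Algebra.adjoin_adjoin_coe_preimage D hD


/-- **Adjoining the `(ℓ-1)`-st roots of unity to a reduction.** -/
theorem exists_extension (R₀ : Subring ℂ) (ℓ : ℕ) [hℓ : Fact ℓ.Prime] (φ₀ : R₀ →+* ZMod ℓ) :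
    ∃ (A : Subring ℂ) (_ : A →+* ZMod ℓ), R₀ ≤ A ∧ ∀ ζ : ℂ, ζ ^ (ℓ - 1) = 1 → ζ ∈ A := by
  classical
  set G : Set ℂ := (R₀ : Set ℂ) ∪ {ζ : ℂ | ζ ^ (ℓ - 1) = 1} with hG
  set A : Subring ℂ := Subring.closure G with hA
  have hR₀A : R₀ ≤ A := fun x hx => Subring.subset_closure (Or.inl hx)
  have hζA : ∀ ζ : ℂ, ζ ^ (ℓ - 1) = 1 → ζ ∈ A := fun ζ hζ => Subring.subset_closure (Or.inr hζ)
  suffices h : Nonempty (A →+* ZMod ℓ) from ⟨A, h.some, hR₀A, hζA⟩
  have hℓ1 : 0 < ℓ - 1 := Nat.sub_pos_of_lt hℓ.out.one_lt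
  letI alg : Algebra R₀ A := (Subring.inclusion hR₀A).toAlgebra
  have halg : ∀ r : R₀, algebraMap R₀ A r = Subring.inclusion hR₀A r := fun _ => rfl
  have hinj : Function.Injective (algebraMap R₀ A) := Subring.inclusion_injective hR₀A
  -- integrality
  have hint : ∀ (x : ℂ) (hx : x ∈ A), IsIntegral R₀ (⟨x, hx⟩ : A) := by
    intro x hx
    induction hx using Subring.closure_induction with
    | mem x hx =>
      rcases hx with hx | hx
      · exact isIntegral_algebraMap (x := (⟨x, hx⟩ : R₀))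
      · refine IsIntegral.of_pow hℓ1 ?_
        have : (⟨x, Subring.subset_closure (Or.inr hx)⟩ : A) ^ (ℓ - 1) = 1 := Subtype.ext hx
        rw [this]
        exact isIntegral_one
    | zero => exact isIntegral_zero
    | one => exact isIntegral_one
    | add x y hx hy hx' hy' => exact IsIntegral.add hx' hy'
    | neg x hx hx' => exact IsIntegral.neg hx'
    | mul x y hx hy hx' hy' => exact IsIntegral.mul hx' hy'
  haveI : Algebra.IsIntegral R₀ A := ⟨fun a => hint a.1 a.2⟩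
  -- the prime of `R₀` and a prime of `A` over it
  have hsurj : Function.Surjective φ₀ := ZMod.ringHom_surjective φ₀
  haveI h𝔭 : (RingHom.ker φ₀).IsMaximal := RingHom.ker_isMaximal_of_surjective φ₀ hsurj
  have hker : RingHom.ker (algebraMap R₀ A) ≤ RingHom.ker φ₀ := by
    rw [(RingHom.injective_iff_ker_eq_bot _).mp hinj]
    exact bot_le
  obtain ⟨Q, hQmax, hQ⟩ := Ideal.exists_ideal_over_maximal_of_isIntegral (RingHom.ker φ₀) hker
  letI : Field (A ⧸ Q) := Ideal.Quotient.field Q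
  have hmem : ∀ r : R₀, algebraMap R₀ A r ∈ Q ↔ φ₀ r = 0 := by
    intro r
    rw [← Ideal.mem_comap, hQ, RingHom.mem_ker]
  have hchar : ((ℓ : ℕ) : A ⧸ Q) = 0 := by
    have h1 : algebraMap R₀ A (ℓ : R₀) ∈ Q := (hmem _).mpr (by rw [map_natCast, ZMod.natCast_self])
    rw [map_natCast] at h1
    have h2 := Ideal.Quotient.eq_zero_iff_mem.mpr h1
    rwa [map_natCast] at h2
  haveI : CharP (A ⧸ Q) ℓ := (CharP.charP_iff_prime_eq_zero hℓ.out).mpr hchar
  -- every element of `A ⧸ Q` is fixed by Frobenius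
  have hfrob : ∀ (x : ℂ) (hx : x ∈ A),
      frobenius (A ⧸ Q) ℓ (Ideal.Quotient.mk Q ⟨x, hx⟩) = Ideal.Quotient.mk Q ⟨x, hx⟩ := by
    intro x hx
    induction hx using Subring.closure_induction with
    | mem x hx =>
      rcases hx with hx | hx
      · obtain ⟨n, hn⟩ := ZMod.intCast_surjective (φ₀ ⟨x, hx⟩)
        have h1 : algebraMap R₀ A (⟨x, hx⟩ - (n : R₀)) ∈ Q :=
          (hmem _).mpr (by rw [map_sub, map_intCast, hn, sub_self])
        have h2 : Ideal.Quotient.mk Q (algebraMap R₀ A ⟨x, hx⟩) = ((n : ℤ) : A ⧸ Q) := by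
          have := Ideal.Quotient.eq_zero_iff_mem.mpr h1
          rw [map_sub, map_sub, map_intCast, map_intCast, sub_eq_zero] at this
          exact this
        have h3 : (⟨x, Subring.subset_closure (Or.inl hx)⟩ : A) = algebraMap R₀ A ⟨x, hx⟩ := rfl
        rw [h3, h2, map_intCast]
      · have h1 : (⟨x, Subring.subset_closure (Or.inr hx)⟩ : A) ^ ℓ =
            ⟨x, Subring.subset_closure (Or.inr hx)⟩ := by
          apply Subtype.ext
          show x ^ ℓ = x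
          have : ℓ = (ℓ - 1) + 1 := by omega
          rw [this, pow_succ, hx, one_mul]
        rw [frobenius_def, ← map_pow, h1]
    | zero => exact map_zero _
    | one => exact map_one _
    | add x y hx hy hx' hy' =>
      have : (⟨x + y, add_mem hx hy⟩ : A) = ⟨x, hx⟩ + ⟨y, hy⟩ := rfl
      rw [this, map_add, map_add, hx', hy']
    | neg x hx hx' =>
      have : (⟨-x, neg_mem hx⟩ : A) = -⟨x, hx⟩ := rfl
      rw [this, map_neg, map_neg, hx']
    | mul x y hx hy hx' hy' =>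
      have : (⟨x * y, mul_mem hx hy⟩ : A) = ⟨x, hx⟩ * ⟨y, hy⟩ := rfl
      rw [this, map_mul, map_mul, hx', hy']
  have hpow : ∀ y : A ⧸ Q, y ^ ℓ = y := by
    intro y
    obtain ⟨a, rfl⟩ := Ideal.Quotient.mk_surjective y
    have := hfrob a.1 a.2
    rwa [frobenius_def] at this
  -- hence `A ⧸ Q` is the prime field
  let ι : ZMod ℓ →+* A ⧸ Q := ZMod.castHom (dvd_refl ℓ) (A ⧸ Q)
  have hbij : Function.Bijective ι := by
    refine ⟨ι.injective, fun y => ?_⟩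
    have hy : y ∈ (⊥ : Subfield (A ⧸ Q)) := (Subfield.mem_bot_iff_pow_eq_self (A ⧸ Q) ℓ).mpr (hpow y)
    rw [← ZMod.fieldRange_castHom_eq_bot ℓ] at hy
    exact hy
  exact ⟨((RingEquiv.ofBijective ι hbij).symm : A ⧸ Q →+* ZMod ℓ).comp (Ideal.Quotient.mk Q)⟩


/-- **(O4), generic form.** -/
theorem exists_reductions_of_finite (T : Set ℂ) (hT : T.Finite) (D : ℕ) (hD : D ≠ 0) :
    ∃ L : Set ℕ, L.Infinite ∧ ∀ ℓ ∈ L, ℓ.Prime ∧ ¬ ℓ ∣ D ∧
      ∃ (A : Subring ℂ) (_ : A →+* ZMod ℓ), (∀ x ∈ Algebra.adjoin ℤ T, x ∈ A) ∧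
        ∀ ζ : ℂ, ζ ^ (ℓ - 1) = 1 → ζ ∈ A := by
  obtain ⟨L, hL, h⟩ := exists_hom_zmod T hT D hD
  refine ⟨L, hL, fun ℓ hℓ => ?_⟩
  obtain ⟨hp, hD', ⟨φ₀⟩⟩ := h ℓ hℓ
  haveI : Fact ℓ.Prime := ⟨hp⟩
  let φ₀' : (Algebra.adjoin ℤ T).toSubring →+* ZMod ℓ := φ₀
  obtain ⟨A, φ, hA, hζ⟩ := exists_extension (Algebra.adjoin ℤ T).toSubring ℓ φ₀'
  exact ⟨hp, hD', A, φ, fun x hx => hA hx, hζ⟩

/-- **(O4).** The coefficients of a form with coefficients in a finitely generated `ℤ`-module,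
the values of a Dirichlet character and the `(ℓ-1)`-st roots of unity reduce simultaneously to
the prime field `ZMod ℓ`, for infinitely many `ℓ` prime to `D`. -/
theorem exists_reductions {N : ℕ} [NeZero N] (ε : DirichletCharacter ℂ N) (a : ℕ → ℂ)
    (hΛ : ∃ Λ : Submodule ℤ ℂ, Λ.FG ∧ ∀ n, a n ∈ Λ) (D : ℕ) (hD : D ≠ 0) :
    ∃ L : Set ℕ, L.Infinite ∧ ∀ ℓ ∈ L, ℓ.Prime ∧ ¬ ℓ ∣ D ∧
      ∃ (A : Subring ℂ) (_ : A →+* ZMod ℓ), (∀ n, a n ∈ A) ∧ (∀ d : ZMod N, ε d ∈ A) ∧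
        ∀ ζ : ℂ, ζ ^ (ℓ - 1) = 1 → ζ ∈ A := by
  obtain ⟨Λ, ⟨T₁, hT₁⟩, ha⟩ := hΛ
  set T : Set ℂ := (T₁ : Set ℂ) ∪ Set.range (fun d : ZMod N => ε d) with hT
  have hTfin : T.Finite := T₁.finite_toSet.union (Set.finite_range _)
  obtain ⟨L, hL, h⟩ := exists_reductions_of_finite T hTfin D hD
  refine ⟨L, hL, fun ℓ hℓ => ?_⟩
  obtain ⟨hp, hD', A, φ, hA, hζ⟩ := h ℓ hℓ
  refine ⟨hp, hD', A, φ, fun n => hA _ ?_, fun d => hA _ ?_, hζ⟩
  · have h1 : Λ ≤ Subalgebra.toSubmodule (Algebra.adjoin ℤ T) := by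
      rw [← hT₁]
      exact Submodule.span_le.mpr fun x hx => Algebra.subset_adjoin (Or.inl hx)
    exact h1 (ha n)
  · exact Algebra.subset_adjoin (Or.inr ⟨d, rfl⟩)

end Fermat.Agent.M48.W1Red0
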