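import Mathlib

/-!
# M48 (E1), part 1: the Weierstrass zeta function of the lattice `ℤτ + ℤ`

`wzeta τ z = ∑ (1/(z-ω) + 1/ω + z/ω²)` (absolutely convergent sum over `ω = mτ+n`; the
term `ω = 0` is `1/z` thanks to `1/0 = 0`), its equivariance under `SL(2,ℤ)`, and the comparison
with the Eisenstein summation `∑_m π cot π(z - mτ)` and Mathlib's `G2`.
-/

set_option autoImplicit false

open UpperHalfPlane hiding I
open Complex Filter Topology EisensteinSeries SummationFilter Matrix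
open scoped Real MatrixGroups

noncomputable section

namespace Fermat.Agent.M48.Zeta7

/-- The lattice point `mτ + n` attached to `v = ![m, n]`. -/
def om (τ : ℍ) (v : Fin 2 → ℤ) : ℂ := v 0 * (τ : ℂ) + v 1

lemma om_zero (τ : ℍ) : om τ 0 = 0 := by simp [om]

lemma om_eq_zero_iff (τ : ℍ) (v : Fin 2 → ℤ) : om τ v = 0 ↔ v = 0 := by
  constructor
  · intro h
    by_contra hv
    have := r_mul_max_le τ hv
    rw [om] at h
    rw [h, norm_zero] at this
    have h2 : 0 < r τ * ‖v‖ := mul_pos (r_pos τ) (norm_pos_iff.mpr hv)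
    linarith
  · rintro rfl; exact om_zero τ

lemma om_add (τ : ℍ) (v w : Fin 2 → ℤ) : om τ (v + w) = om τ v + om τ w := by
  simp [om]; ring

lemma om_neg (τ : ℍ) (v : Fin 2 → ℤ) : om τ (-v) = -om τ v := by
  simp [om]; ring

lemma r_mul_norm_le_norm_om (τ : ℍ) (v : Fin 2 → ℤ) : r τ * ‖v‖ ≤ ‖om τ v‖ := by
  by_cases hv : v = 0
  · simp [hv, om]
  · exact r_mul_max_le τ hv

/-- The summand of the Weierstrass zeta function. -/
def wzTerm (τ : ℍ) (z : ℂ) (v : Fin 2 → ℤ) : ℂ :=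
  1 / (z - om τ v) + 1 / om τ v + z / om τ v ^ 2

/-- The Weierstrass zeta function of the lattice `ℤτ + ℤ`. -/
def wzeta (τ : ℍ) (z : ℂ) : ℂ := ∑' v : Fin 2 → ℤ, wzTerm τ z v

lemma wzTerm_eq (τ : ℍ) (z : ℂ) (v : Fin 2 → ℤ) (h0 : om τ v ≠ 0) (hz : z ≠ om τ v) :
    wzTerm τ z v = z ^ 2 / (om τ v ^ 2 * (z - om τ v)) := by
  have : z - om τ v ≠ 0 := sub_ne_zero.mpr hz
  rw [wzTerm]
  field_simp
  ring

lemma norm_wzTerm_le (τ : ℍ) (z : ℂ) (v : Fin 2 → ℤ) (h : 2 * ‖z‖ ≤ ‖om τ v‖)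
    (h0 : om τ v ≠ 0) :
    ‖wzTerm τ z v‖ ≤ 2 * ‖z‖ ^ 2 * (r τ) ^ (-3 : ℝ) * (‖v‖ ^ (3 : ℝ))⁻¹ := by
  have hpos : 0 < ‖om τ v‖ := norm_pos_iff.mpr h0
  have hz : z ≠ om τ v := by
    rintro rfl
    linarith
  have hv : v ≠ 0 := fun hv => h0 (hv ▸ om_zero τ)
  have hvpos : 0 < ‖v‖ := norm_pos_iff.mpr hv
  rw [wzTerm_eq τ z v h0 hz, norm_div, norm_mul, norm_pow, norm_pow]
  have h1 : ‖om τ v‖ / 2 ≤ ‖z - om τ v‖ := by
    have := norm_sub_norm_le (om τ v) z
    rw [norm_sub_rev] at this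
    linarith
  have h2 : r τ * ‖v‖ ≤ ‖om τ v‖ := r_mul_norm_le_norm_om τ v
  have hr : 0 < r τ := r_pos τ
  have h3 : (r τ * ‖v‖) ^ 3 / 2 ≤ ‖om τ v‖ ^ 2 * ‖z - om τ v‖ := by
    calc (r τ * ‖v‖) ^ 3 / 2 ≤ ‖om τ v‖ ^ 3 / 2 := by gcongr
      _ = ‖om τ v‖ ^ 2 * (‖om τ v‖ / 2) := by ring
      _ ≤ _ := by gcongr
  have h4 : 0 < (r τ * ‖v‖) ^ 3 / 2 := by positivity
  calc ‖z‖ ^ 2 / (‖om τ v‖ ^ 2 * ‖z - om τ v‖) ≤ ‖z‖ ^ 2 / ((r τ * ‖v‖) ^ 3 / 2) := by
        gcongr
    _ = 2 * ‖z‖ ^ 2 * (r τ) ^ (-3 : ℝ) * (‖v‖ ^ (3 : ℝ))⁻¹ := by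
        rw [Real.rpow_neg hr.le, show (3 : ℝ) = ((3 : ℕ) : ℝ) by norm_num, Real.rpow_natCast,
          Real.rpow_natCast]
        field_simp

lemma eventually_cofinite_le_norm (R : ℝ) : ∀ᶠ v : Fin 2 → ℤ in cofinite, R ≤ ‖v‖ := by
  have := tendsto_norm_cocompact_atTop (E := Fin 2 → ℤ)
  rw [cocompact_eq_cofinite] at this
  exact this.eventually (eventually_ge_atTop R)

lemma summable_wzTerm (τ : ℍ) (z : ℂ) : Summable (wzTerm τ z) := by
  apply summable_of_isBigO_rpow_norm (a := 3) (by norm_num)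
  refine Asymptotics.IsBigO.of_bound (2 * ‖z‖ ^ 2 * (r τ) ^ (-3 : ℝ)) ?_
  filter_upwards [eventually_cofinite_le_norm (2 * ‖z‖ / r τ + 1)] with v hv
  have hr : 0 < r τ := r_pos τ
  have hvpos : 0 < ‖v‖ := by
    have : 0 ≤ 2 * ‖z‖ / r τ := by positivity
    linarith
  have h1 : 2 * ‖z‖ ≤ r τ * ‖v‖ := by
    have : 2 * ‖z‖ / r τ ≤ ‖v‖ := by linarith
    rw [div_le_iff₀ hr] at this
    linarith
  have h2 := r_mul_norm_le_norm_om τ v
  have h0 : om τ v ≠ 0 := by
    rw [Ne, om_eq_zero_iff]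
    exact norm_pos_iff.mp hvpos
  refine (norm_wzTerm_le τ z v (h1.trans h2) h0).trans (le_of_eq ?_)
  rw [norm_inv, Real.norm_of_nonneg (by positivity)]

lemma hasSum_wzeta (τ : ℍ) (z : ℂ) : HasSum (wzTerm τ z) (wzeta τ z) :=
  (summable_wzTerm τ z).hasSum

/-! ### Equivariance under `SL(2,ℤ)` -/

/-- Right multiplication by `A ∈ SL(2,ℤ)` as a permutation of `ℤ²`. -/
def vecMulEquiv (A : SL(2, ℤ)) : (Fin 2 → ℤ) ≃ (Fin 2 → ℤ) where
  toFun v := v ᵥ* A.1
  invFun v := v ᵥ* (A⁻¹).1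
  left_inv v := by
    simp [vecMul_vecMul, Matrix.mul_adjugate]
  right_inv v := by
    simp [vecMul_vecMul, Matrix.adjugate_mul]

@[simp] lemma vecMulEquiv_apply (A : SL(2, ℤ)) (v : Fin 2 → ℤ) : vecMulEquiv A v = v ᵥ* A.1 := rfl

lemma om_smul (A : SL(2, ℤ)) (τ : ℍ) (v : Fin 2 → ℤ) :
    om (A • τ) v = (denom A τ)⁻¹ * om τ (v ᵥ* A.1) := by
  have := eisSummand_SL2_apply (-1) v A τ
  simpa [eisSummand, om] using this

lemma wzTerm_smul (A : SL(2, ℤ)) (τ : ℍ) (z : ℂ) (v : Fin 2 → ℤ) :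
    wzTerm (A • τ) (z / denom A τ) v = denom A τ * wzTerm τ z (v ᵥ* A.1) := by
  have hd : denom A τ ≠ 0 := denom_ne_zero A τ
  rw [wzTerm, wzTerm, om_smul]
  set d := denom A τ
  set w := om τ (v ᵥ* A.1)
  have e1 : z / d - d⁻¹ * w = (z - w) / d := by field_simp
  rw [e1]
  by_cases hw : w = 0
  · simp [hw]
    field_simp
  by_cases hzw : z - w = 0
  · simp [hzw]
    field_simp
  field_simp

lemma wzeta_smul (A : SL(2, ℤ)) (τ : ℍ) (z : ℂ) :
    wzeta (A • τ) (z / denom A τ) = denom A τ * wzeta τ z := by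
  rw [wzeta, wzeta, ← tsum_mul_left,
    ← (vecMulEquiv A).tsum_eq (fun v => denom A τ * wzTerm τ z v)]
  exact tsum_congr fun v => wzTerm_smul A τ z v

local notation "ℂ_ℤ" => Complex.integerComplement

/-- `π cot (π w)`. -/
def pcot (w : ℂ) : ℂ := π * Complex.cot (π * w)

@[simp] lemma pcot_zero : pcot 0 = 0 := by simp [pcot, Complex.cot]

lemma pcot_neg (w : ℂ) : pcot (-w) = -pcot w := by
  simp only [pcot, Complex.cot_eq_cos_div_sin, mul_neg, Complex.cos_neg, Complex.sin_neg]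
  ring

lemma pcot_add_int (w : ℂ) (n : ℤ) : pcot (w + n) = pcot w := by
  simp only [pcot, Complex.cot_pi_eq_exp_ratio]
  have e : 2 * (π : ℂ) * I * (w + n) = 2 * π * I * w + n * (2 * π * I) := by ring
  rw [e, Complex.exp_add, Complex.exp_int_mul_two_pi_mul_I, mul_one]

lemma pcot_sub_int (w : ℂ) (n : ℤ) : pcot (w - n) = pcot w := by
  have := pcot_add_int w (-n)
  simpa [sub_eq_add_neg] using this

lemma sum_Icc_eq_zero_add_range (f : ℤ → ℂ) (N : ℕ) :
    ∑ m ∈ Finset.Icc (-(N : ℤ)) N, f m =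
      f 0 + ∑ j ∈ Finset.range N, (f ((j : ℤ) + 1) + f (-((j : ℤ) + 1))) := by
  induction N with
  | zero => simp
  | succ N ih =>
    rw [Nat.cast_add, Nat.cast_one, Finset.sum_Icc_succ_eq_add_endpoints, ih,
      Finset.sum_range_succ]
    ring

lemma tendsto_sum_cotTerm (w : ℂ) (hw : w ∈ ℂ_ℤ ∨ w = 0) :
    Tendsto (fun n : ℕ => ∑ j ∈ Finset.range n, cotTerm w j) atTop (𝓝 (pcot w - 1 / w)) := by
  rcases hw with hw | rfl
  · exact tendsto_logDeriv_euler_cot_sub hw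
  · have : ∀ n : ℕ, ∑ j ∈ Finset.range n, cotTerm 0 j = 0 := by
      intro n
      apply Finset.sum_eq_zero
      intro j _
      simp only [cotTerm, zero_sub, zero_add, one_div, inv_neg]
      ring
    simp only [this, pcot_zero, div_zero, sub_zero]
    exact tendsto_const_nhds

lemma summable_int_pair (w w' : ℂ) (hw : w ∈ ℂ_ℤ) (hw' : w' ∈ ℂ_ℤ ∨ w' = 0) :
    Summable (fun n : ℤ => 1 / (w - n) + 1 / (w' + n)) := by
  have h1 := (summable_linear_sub_mul_linear_add w 1 0).mul_left w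
  have h2 := (summable_linear_sub_mul_linear_add w' 0 1).mul_left w'
  refine (h1.add h2).congr_cofinite ?_
  have : ∀ᶠ n : ℤ in cofinite, n ≠ 0 := by
    rw [Filter.eventually_cofinite]
    simp
  filter_upwards [this] with n hn
  have hn' : (n : ℂ) ≠ 0 := by exact_mod_cast hn
  have h3 : w - n ≠ 0 := by
    have := integerComplement_add_ne_zero hw (-n)
    simpa [sub_eq_add_neg] using this
  have h4 : w' + n ≠ 0 := by
    rcases hw' with hw' | rfl
    · exact integerComplement_add_ne_zero hw' n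
    · simpa using hn'
  simp only [Int.cast_one, one_mul, Int.cast_zero, zero_mul, zero_add, zero_sub]
  field_simp
  ring

lemma hasSum_int_pair (w w' : ℂ) (hw : w ∈ ℂ_ℤ) (hw' : w' ∈ ℂ_ℤ ∨ w' = 0) :
    HasSum (fun n : ℤ => 1 / (w - n) + 1 / (w' + n)) (pcot w + pcot w') := by
  have hs := summable_int_pair w w' hw hw'
  have h1 : HasSum (fun n : ℤ => 1 / (w - n) + 1 / (w' + n)) _ (symmetricIcc ℤ) :=
    hs.hasSum.mono_left (symmetricIcc ℤ).le_atTop
  rw [hasSum_symmetricIcc_iff] at h1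
  have h2 : Tendsto (fun N : ℕ => ∑ n ∈ Finset.Icc (-(N : ℤ)) N, (1 / (w - n) + 1 / (w' + n)))
      atTop (𝓝 ((1 / w + 1 / w') + ((pcot w - 1 / w) + (pcot w' - 1 / w')))) := by
    have := ((tendsto_sum_cotTerm w (Or.inl hw)).add (tendsto_sum_cotTerm w' hw')).const_add
      (1 / w + 1 / w')
    refine this.congr fun N => ?_
    rw [sum_Icc_eq_zero_add_range (fun n : ℤ => 1 / (w - n) + 1 / (w' + n)) N,
      ← Finset.sum_add_distrib]
    congr 1
    · simp
    · apply Finset.sum_congr rfl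
      intro j _
      simp only [cotTerm]
      push_cast
      ring
  have := tendsto_nhds_unique h1 h2
  have e : (1 / w + 1 / w') + ((pcot w - 1 / w) + (pcot w' - 1 / w')) = pcot w + pcot w' := by ring
  rw [← e, ← this]
  exact hs.hasSum

/-- `z` is not a point of the lattice `ℤτ + ℤ`. -/
def OffLattice (τ : ℍ) (z : ℂ) : Prop := ∀ v : Fin 2 → ℤ, z ≠ om τ v

lemma OffLattice.sub_mul_mem {τ : ℍ} {z : ℂ} (hz : OffLattice τ z) (m : ℤ) :
    z - m * (τ : ℂ) ∈ ℂ_ℤ := by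
  rw [Complex.mem_integerComplement_iff]
  rintro ⟨n, hn⟩
  apply hz ![m, n]
  simp only [om, Matrix.cons_val_zero, Matrix.cons_val_one]
  rw [hn]; ring

lemma int_mul_mem (τ : ℍ) (m : ℤ) : (m : ℂ) * (τ : ℂ) ∈ ℂ_ℤ ∨ (m : ℂ) * (τ : ℂ) = 0 := by
  by_cases hm : m = 0
  · right; simp [hm]
  · left
    rw [Complex.mem_integerComplement_iff]
    rintro ⟨n, hn⟩
    have := congrArg Complex.im hn
    simp only [Complex.intCast_im, Complex.mul_im, Complex.intCast_re, zero_mul, add_zero] at this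
    have h1 : (0 : ℝ) < τ.im := τ.im_pos
    have h2 : (m : ℝ) ≠ 0 := by exact_mod_cast hm
    have : (m : ℝ) * τ.im = 0 := by simpa using this.symm
    rcases mul_eq_zero.mp this with h | h
    · exact h2 h
    · linarith

lemma OffLattice.add_om {τ : ℍ} {z : ℂ} (hz : OffLattice τ z) (v : Fin 2 → ℤ) :
    OffLattice τ (z + om τ v) := by
  intro w h
  apply hz (w - v)
  have : om τ (w - v) = om τ w - om τ v := by
    simp [om]; ring
  rw [this, ← h]; ring

/-- The sum of the `m`-th row of the Weierstrass zeta series. -/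
lemma hasSum_row {τ : ℍ} {z : ℂ} (hz : OffLattice τ z) (m : ℤ) :
    HasSum (fun n : ℤ => wzTerm τ z ![m, n])
      (pcot (z - m * τ) + pcot (m * τ) + z * e2Summand m τ) := by
  have h1 := hasSum_int_pair (z - m * τ) (m * τ) (hz.sub_mul_mem m) (int_mul_mem τ m)
  have h2 := ((e2Summand_summable m τ).hasSum).mul_left z
  have h3 : HasSum (fun n : ℤ => 1 / (z - m * τ - n) + 1 / (m * τ + n) + z * eisSummand 2 ![m, n] τ)
      (pcot (z - m * τ) + pcot (m * τ) + z * e2Summand m τ) := h1.add h2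
  convert h3 using 1
  funext n
  simp only [wzTerm, om, Matrix.cons_val_zero, Matrix.cons_val_one, eisSummand]
  have e1 : z - ((m : ℂ) * τ + n) = z - m * τ - n := by ring
  rw [e1, div_eq_mul_inv z]
  norm_num [_root_.zpow_neg]


lemma hasSum_prod_wzTerm (τ : ℍ) (z : ℂ) :
    HasSum (fun p : ℤ × ℤ => wzTerm τ z ![p.1, p.2]) (wzeta τ z) := by
  have := (finTwoArrowEquiv ℤ).symm.hasSum_iff.mpr (hasSum_wzeta τ z)
  convert this using 1
  funext p
  simp [finTwoArrowEquiv_symm_apply]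

/-- The row sums are (unconditionally) summable, with sum `wzeta τ z`. -/
lemma hasSum_rows {τ : ℍ} {z : ℂ} (hz : OffLattice τ z) :
    HasSum (fun m : ℤ => pcot (z - m * τ) + pcot (m * τ) + z * e2Summand m τ) (wzeta τ z) :=
  (hasSum_prod_wzTerm τ z).prod_fiberwise fun m => hasSum_row hz m

lemma sum_Icc_pcot_mul (τ : ℍ) (N : ℕ) :
    ∑ m ∈ Finset.Icc (-(N : ℤ)) N, pcot ((m : ℂ) * τ) = 0 := by
  rw [sum_Icc_eq_zero_add_range (fun m : ℤ => pcot ((m : ℂ) * τ)) N]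
  simp only [Int.cast_zero, zero_mul, pcot_zero, zero_add]
  apply Finset.sum_eq_zero
  intro j _
  have : ((-((j : ℤ) + 1) : ℤ) : ℂ) * (τ : ℂ) = -((((j : ℤ) + 1 : ℤ) : ℂ) * τ) := by
    push_cast; ring
  rw [this, pcot_neg]
  ring

/-- Eisenstein summation of `∑ 1/(z - mτ - n)`. -/
def zetaE (τ : ℍ) (z : ℂ) : ℂ := ∑'[symmetricIcc ℤ] m : ℤ, pcot (z - m * τ)

lemma hasSum_zetaE_aux {τ : ℍ} {z : ℂ} (hz : OffLattice τ z) :
    HasSum (fun m : ℤ => pcot (z - m * τ)) (wzeta τ z - z * G2 τ) (symmetricIcc ℤ) := by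
  have h1 : HasSum (fun m : ℤ => pcot (z - m * τ) + pcot (m * τ) + z * e2Summand m τ)
      (wzeta τ z) (symmetricIcc ℤ) := (hasSum_rows hz).mono_left (symmetricIcc ℤ).le_atTop
  have h2 : HasSum (fun m : ℤ => z * e2Summand m τ) (z * G2 τ) (symmetricIcc ℤ) := by
    have := (summable_e2Summand_symmetricIcc τ).hasSum
    exact this.mul_left z
  rw [hasSum_symmetricIcc_iff] at h1 h2 ⊢
  refine (h1.sub h2).congr fun N => ?_
  rw [Finset.sum_add_distrib, Finset.sum_add_distrib, sum_Icc_pcot_mul]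
  ring

lemma hasSum_zetaE {τ : ℍ} {z : ℂ} (hz : OffLattice τ z) :
    HasSum (fun m : ℤ => pcot (z - m * τ)) (zetaE τ z) (symmetricIcc ℤ) := by
  have := hasSum_zetaE_aux hz
  rw [zetaE, this.tsum_eq]
  exact this

/-- **Eisenstein summation** of the Weierstrass zeta function. -/
theorem wzeta_eq_zetaE_add {τ : ℍ} {z : ℂ} (hz : OffLattice τ z) :
    wzeta τ z = zetaE τ z + z * G2 τ := by
  rw [zetaE, (hasSum_zetaE_aux hz).tsum_eq]
  ring

/-! ### Behaviour of `π cot(π w)` as `Im w → ∞` -/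

lemma norm_exp_two_pi_I_mul (w : ℂ) : ‖cexp (2 * π * I * w)‖ = Real.exp (-2 * π * w.im) := by
  rw [Complex.norm_exp]
  congr 1
  simp [Complex.mul_re, Complex.mul_im]

lemma pcot_add_pi_I (w : ℂ) (hw : 0 < w.im) :
    pcot w + π * I = -2 * π * I * cexp (2 * π * I * w) / (1 - cexp (2 * π * I * w)) := by
  have hlt : ‖cexp (2 * π * I * w)‖ < 1 := by
    rw [norm_exp_two_pi_I_mul, Real.exp_lt_one_iff]
    have := Real.pi_pos
    nlinarith
  have hne : 1 - cexp (2 * π * I * w) ≠ 0 := by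
    intro h
    have : cexp (2 * π * I * w) = 1 := by linear_combination -h
    rw [this] at hlt
    simp at hlt
  rw [pcot, Complex.cot_pi_eq_exp_ratio]
  generalize cexp (2 * π * I * w) = u at hne
  have hI : I ≠ 0 := Complex.I_ne_zero
  field_simp
  linear_combination (u + 1) * Complex.I_sq

lemma norm_pcot_add_le (w : ℂ) (hw : 0 < w.im) :
    ‖pcot w + π * I‖ ≤
      2 * π * Real.exp (-2 * π * w.im) / (1 - Real.exp (-2 * π * w.im)) := by
  have hlt : Real.exp (-2 * π * w.im) < 1 := by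
    rw [Real.exp_lt_one_iff]
    have := Real.pi_pos
    nlinarith
  rw [pcot_add_pi_I w hw, norm_div, norm_mul, norm_mul, norm_mul, norm_neg, Complex.norm_I,
    Complex.norm_ofNat, Complex.norm_real, Real.norm_of_nonneg Real.pi_pos.le, mul_one,
    norm_exp_two_pi_I_mul]
  have h1 : 1 - Real.exp (-2 * π * w.im) ≤ ‖1 - cexp (2 * π * I * w)‖ := by
    have := norm_sub_norm_le (1 : ℂ) (cexp (2 * π * I * w))
    rw [norm_one, norm_exp_two_pi_I_mul] at this
    exact this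
  have h2 : 0 < 1 - Real.exp (-2 * π * w.im) := by linarith
  gcongr

lemma tendsto_pcot_of_im_atTop {α : Type*} {l : Filter α} {f : α → ℂ}
    (hf : Tendsto (fun a => (f a).im) l atTop) :
    Tendsto (fun a => pcot (f a)) l (𝓝 (-(π * I))) := by
  have hu : Tendsto (fun a => cexp (2 * π * I * f a)) l (𝓝 0) := by
    rw [Complex.tendsto_exp_nhds_zero_iff]
    have : (fun a => (2 * π * I * f a).re) = fun a => -2 * π * (f a).im := by
      funext a
      simp [Complex.mul_re, Complex.mul_im]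
    rw [this]
    have hpos : (0 : ℝ) < 2 * π := by positivity
    have := (hf.const_mul_atTop hpos)
    have h2 := tendsto_neg_atTop_atBot.comp this
    refine h2.congr fun a => ?_
    simp
  have h1 : Tendsto (fun a => π * ((cexp (2 * π * I * f a) + 1) / (I * (1 - cexp (2 * π * I * f a)))))
      l (𝓝 (π * ((0 + 1) / (I * (1 - 0))))) := by
    have h3 : Tendsto (fun a => I * (1 - cexp (2 * π * I * f a))) l (𝓝 (I * (1 - 0))) :=
      Tendsto.const_mul _ (Tendsto.const_sub 1 hu)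
    have h4 : I * (1 - 0) ≠ 0 := by simp
    exact Tendsto.const_mul _ (Tendsto.div (hu.add_const 1) h3 h4)
  have e : (π : ℂ) * ((0 + 1) / (I * (1 - 0))) = -(π * I) := by
    simp
  rw [e] at h1
  refine h1.congr fun a => ?_
  rw [pcot, Complex.cot_pi_eq_exp_ratio]

/-! ### Quasi-periodicity -/

lemma zetaE_add_int (τ : ℍ) (z : ℂ) (n : ℤ) : zetaE τ (z + n) = zetaE τ z := by
  simp only [zetaE]
  congr 1
  funext m
  rw [show z + (n : ℂ) - m * τ = z - m * τ + n by ring, pcot_add_int]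

lemma sum_Icc_shift (g : ℤ → ℂ) (N : ℕ) :
    ∑ m ∈ Finset.Icc (-(N : ℤ)) N, g (m - 1) =
      ∑ m ∈ Finset.Icc (-(N : ℤ)) N, g m + g (-(N : ℤ) - 1) - g N := by
  induction N with
  | zero => simp
  | succ N ih =>
    rw [Nat.cast_add, Nat.cast_one, Finset.sum_Icc_succ_eq_add_endpoints,
      Finset.sum_Icc_succ_eq_add_endpoints, ih]
    have e1 : ((N : ℤ) + 1 - 1) = N := by ring
    have e2 : (-((N : ℤ) + 1) - 1) = -(N : ℤ) - 1 - 1 := by ring
    have e3 : -((N : ℤ) + 1) = -(N : ℤ) - 1 := by ring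
    rw [e1, e2, e3]
    ring

lemma OffLattice.add_tau {τ : ℍ} {z : ℂ} (hz : OffLattice τ z) : OffLattice τ (z + τ) := by
  have := hz.add_om ![1, 0]
  simpa [om] using this

lemma OffLattice.sub_tau {τ : ℍ} {z : ℂ} (hz : OffLattice τ z) : OffLattice τ (z - τ) := by
  have := hz.add_om ![-1, 0]
  simpa [om, sub_eq_add_neg] using this

lemma zetaE_add_tau {τ : ℍ} {z : ℂ} (hz : OffLattice τ z) :
    zetaE τ (z + τ) = zetaE τ z - 2 * π * I := by
  have h1 := hasSum_zetaE hz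
  have h2 := hasSum_zetaE hz.add_tau
  rw [hasSum_symmetricIcc_iff] at h1 h2
  have hτ : 0 < (τ : ℂ).im := τ.im_pos
  -- the two boundary terms
  have l1 : Tendsto (fun N : ℕ => pcot (z - ((-(N : ℤ) - 1 : ℤ) : ℂ) * τ)) atTop
      (𝓝 (-(π * I))) := by
    apply tendsto_pcot_of_im_atTop
    have : (fun N : ℕ => (z - ((-(N : ℤ) - 1 : ℤ) : ℂ) * τ).im) =
        fun N : ℕ => (z.im + (τ : ℂ).im) + (N : ℝ) * (τ : ℂ).im := by
      funext N
      simp [Complex.sub_im, Complex.mul_im]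
      ring
    rw [this]
    exact tendsto_atTop_add_const_left _ _
      (tendsto_natCast_atTop_atTop.atTop_mul_const hτ)
  have l2 : Tendsto (fun N : ℕ => pcot (z - ((N : ℤ) : ℂ) * τ)) atTop (𝓝 (π * I)) := by
    have : Tendsto (fun N : ℕ => pcot (((N : ℤ) : ℂ) * τ - z)) atTop (𝓝 (-(π * I))) := by
      apply tendsto_pcot_of_im_atTop
      have : (fun N : ℕ => (((N : ℤ) : ℂ) * τ - z).im) =
          fun N : ℕ => (-z.im) + (N : ℝ) * (τ : ℂ).im := by
        funext N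
        simp [Complex.sub_im, Complex.mul_im]
        ring
      rw [this]
      exact tendsto_atTop_add_const_left _ _
        (tendsto_natCast_atTop_atTop.atTop_mul_const hτ)
    have := this.neg
    rw [neg_neg] at this
    refine this.congr fun N => ?_
    rw [← pcot_neg]
    congr 1
    ring
  have h3 := (h1.add l1).sub l2
  have h4 : Tendsto (fun N : ℕ => ∑ m ∈ Finset.Icc (-(N : ℤ)) N, pcot (z + τ - m * τ)) atTop
      (𝓝 (zetaE τ z + -(π * I) - π * I)) := by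
    refine h3.congr fun N => ?_
    rw [← sum_Icc_shift (fun m : ℤ => pcot (z - (m : ℂ) * τ)) N]
    apply Finset.sum_congr rfl
    intro m _
    congr 1
    push_cast
    ring
  have := tendsto_nhds_unique h2 h4
  rw [this]
  ring

lemma OffLattice.add_int_mul_tau {τ : ℍ} {z : ℂ} (hz : OffLattice τ z) (m : ℤ) :
    OffLattice τ (z + m * τ) := by
  have := hz.add_om ![m, 0]
  simpa [om] using this

lemma zetaE_add_nat_mul_tau {τ : ℍ} {z : ℂ} (hz : OffLattice τ z) (n : ℕ) :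
    zetaE τ (z + n * τ) = zetaE τ z - 2 * π * I * n := by
  induction n with
  | zero => simp
  | succ k ih =>
    have hk : OffLattice τ (z + (k : ℂ) * τ) := by
      have := hz.add_int_mul_tau k
      simpa using this
    have := zetaE_add_tau hk
    rw [show z + ((k + 1 : ℕ) : ℂ) * (τ : ℂ) = z + (k : ℂ) * τ + τ by push_cast; ring, this, ih]
    push_cast
    ring

lemma zetaE_add_int_mul_tau {τ : ℍ} {z : ℂ} (hz : OffLattice τ z) (m : ℤ) :
    zetaE τ (z + m * τ) = zetaE τ z - 2 * π * I * m := by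
  obtain ⟨n, rfl | rfl⟩ := Int.eq_nat_or_neg m
  · simpa using zetaE_add_nat_mul_tau hz n
  · have h' := hz.add_int_mul_tau (-(n : ℤ))
    have := zetaE_add_nat_mul_tau h' n
    rw [show z + ((-(n : ℤ) : ℤ) : ℂ) * τ + (n : ℂ) * τ = z by push_cast; ring] at this
    rw [this]
    push_cast
    ring

lemma zetaE_add_om {τ : ℍ} {z : ℂ} (hz : OffLattice τ z) (v : Fin 2 → ℤ) :
    zetaE τ (z + om τ v) = zetaE τ z - 2 * π * I * v 0 := by
  rw [om, ← add_assoc, zetaE_add_int, zetaE_add_int_mul_tau hz]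

/-- The quasi-periods of the Weierstrass zeta function: `η(1) = G₂(τ)` and
`η(τ) = τ G₂(τ) - 2πi` (Legendre's relation included). -/
theorem wzeta_add_om {τ : ℍ} {z : ℂ} (hz : OffLattice τ z) (v : Fin 2 → ℤ) :
    wzeta τ (z + om τ v) =
      wzeta τ z + v 0 * (G2 τ * τ - 2 * π * I) + v 1 * G2 τ := by
  rw [wzeta_eq_zetaE_add hz, wzeta_eq_zetaE_add (hz.add_om v), zetaE_add_om hz, om]
  ring

end Fermat.Agent.M48.Zeta7
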